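import Mathlib
import Fermat.Agent.BR3.MultiInput
import Fermat.Agent.BR3.CircleN.OfLevels
import Fermat.Agent.BR3.GeoTor

/-!
# Program C (S36), node I7 (INTEGRATOR): the skeleton of the stable model `S''` at level `M q²`

The index types, the dual graph and the named inputs of `S''`, as ONE structure; every proof is a
field.  The instantiation nodes (I7-*) fill the fields; the architect's `GeoTor`/`GeoTorPush`/`GeoC`
consume `SDD.Input.setup` and the graph lemmas below.

## The graph (BOARD v1.3)

* components `Comp Mid SSp = (Bool ⊕ Mid) ⊕ SSp` : `cZero = inl (inl true)`,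
  `cInf = inl (inl false)`, `mid i = inl (inr i)`, `ze e = inr e`
  (`SSp` = the supersingular points = the crossings of `S'`, `Mid` = the middle components);
* nodes `Node SSp KP = SSp × (Bool ⊕ KP)` : `nW e = (e, inl true)` (the wild node, on `cZero`),
  `nT e = (e, inl false)` (on `cInf`), `nk e s = (e, inr s)` (on `mid (comp e s)`, `s : KP` the
  Kummer places over `e`);
* orientation (= the orientation of the lifted annulus coordinates): `nT e` and `nk e s` go FROM the
  horizontal/middle component TO `ze e` (they lie over the outer node `'can' → E^a_e` of `S'ref_a`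
  along `a`), `nW e` goes FROM `ze e` TO `cZero` (it lies over the inner node `E^b → 'et'` of
  `S'ref_b` along `b`); `hor x` = "the source of `x` is its horizontal end";
* `node_cases`, `horEnd_*`, `verEnd_*` : the hypotheses `hnodes`, `hW`, `hT`, `hK` of
  `GeoTor.nsmul_eq_zero_of_graph` / `h3_of_graph` with `eι = Equiv.refl _`;
* `connected` : the graph is connected as soon as `SSp` is nonempty and every middle component
  carries a Kummer place.

## The inputs

* `Input A Mid SSp KP Ft` : `comp`, constant reductions `C v`, branch places `s₁ x`, `s₂ x`, tubes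
  (a partition of the places), a `SmoothChart` at every non-branch point, a `NodeChart` at every
  node; `Input.toMultiInput`, `Input.setup : SemistableSetup A (residue A) (Comp Mid SSp) Ft
  (Node SSp KP)` with `rfl`-lemmas;
* `CircleData I ιL` : level data `L x`, branch data `X x : BranchDataN I.setup x (L x)` of the
  annuli of the nodes and the separation of the nodes; `CircleData.circleInputs`,
  `CircleData.chainProvider : Refine.ChainProvider I.setup`, `chainProvider_u` (`rfl`).
-/

set_option autoImplicit false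
set_option linter.unusedSectionVars false

noncomputable section

namespace Fermat.Agent.BR3.SDD

open AlgebraicCurve IsLocalRing Fermat.Agent.Red Fermat.Agent.Val Fermat.Agent.BR.SS
  Fermat.Agent.BR.S0 Fermat.Agent.BR.Refine Fermat.Agent.BR.Circle Fermat.Agent.BR3.CircleN

/-! ### The graph -/

/-- The components of `S''`: `cZero`, `cInf`, the middle components, the vertical components. -/
abbrev Comp (Mid SSp : Type) : Type := (Bool ⊕ Mid) ⊕ SSp

/-- The nodes of `S''`: over every supersingular point the wild node, the node on `cInf` and the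
Kummer nodes. -/
abbrev Node (SSp KP : Type) : Type := SSp × (Bool ⊕ KP)

section Graph

variable {Mid SSp KP : Type}

/-- the component `cZero` (type `VV`; its node with `ze e` is wild along `a`) -/
def cZero : Comp Mid SSp := Sum.inl (Sum.inl true)

/-- the component `cInf` (type `FF`; its node with `ze e` is wild along `b`) -/
def cInf : Comp Mid SSp := Sum.inl (Sum.inl false)

/-- a middle component -/
def mid (i : Mid) : Comp Mid SSp := Sum.inl (Sum.inr i)

/-- the vertical component over the supersingular point `e` -/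
def ze (e : SSp) : Comp Mid SSp := Sum.inr e

/-- the wild node `ze e — cZero` -/
def nW (e : SSp) : Node SSp KP := (e, Sum.inl true)

/-- the node `cInf — ze e` -/
def nT (e : SSp) : Node SSp KP := (e, Sum.inl false)

/-- the Kummer node `mid (comp e s) — ze e` -/
def nk (e : SSp) (s : KP) : Node SSp KP := (e, Sum.inr s)

variable (comp : SSp → KP → Mid)

/-- the source component of a node -/
def src : Node SSp KP → Comp Mid SSp
  | (e, Sum.inl true) => ze e
  | (_, Sum.inl false) => cInf
  | (e, Sum.inr s) => mid (comp e s)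

/-- the target component of a node -/
def tgt : Node SSp KP → Comp Mid SSp
  | (_, Sum.inl true) => cZero
  | (e, Sum.inl false) => ze e
  | (e, Sum.inr _) => ze e

/-- the source of the node is its horizontal end -/
def hor : Node SSp KP → Bool
  | (_, Sum.inl true) => false
  | (_, Sum.inl false) => true
  | (_, Sum.inr _) => true

@[simp] theorem src_nW (e : SSp) : src comp (nW e) = ze e := rfl

@[simp] theorem tgt_nW (e : SSp) : tgt (KP := KP) (Mid := Mid) (nW e) = cZero := rfl

@[simp] theorem src_nT (e : SSp) : src comp (nT e) = cInf := rfl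

@[simp] theorem tgt_nT (e : SSp) : tgt (KP := KP) (Mid := Mid) (nT e) = ze e := rfl

@[simp] theorem src_nk (e : SSp) (s : KP) : src comp (nk e s) = mid (comp e s) := rfl

@[simp] theorem tgt_nk (e : SSp) (s : KP) : tgt (Mid := Mid) (nk e s) = ze e := rfl

@[simp] theorem hor_nW (e : SSp) : hor (KP := KP) (nW e) = false := rfl

@[simp] theorem hor_nT (e : SSp) : hor (KP := KP) (nT e) = true := rfl

@[simp] theorem hor_nk (e : SSp) (s : KP) : hor (nk e s) = true := rfl

/-- Every node is `nW e`, `nT e` or `nk e s`. -/
theorem node_cases (x : Node SSp KP) :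
    (∃ e, nW e = x) ∨ (∃ e, nT e = x) ∨ ∃ e s, nk e s = x := by
  obtain ⟨e, b | s⟩ := x
  · cases b
    · exact Or.inr (Or.inl ⟨e, rfl⟩)
    · exact Or.inl ⟨e, rfl⟩
  · exact Or.inr (Or.inr ⟨e, s, rfl⟩)

/-- Every component is `cZero`, `cInf`, a middle component or a vertical component. -/
theorem comp_cases (v : Comp Mid SSp) :
    v = cZero ∨ v = cInf ∨ (∃ i, v = mid i) ∨ ∃ e, v = ze e := by
  rcases v with (b | i) | e
  · cases b
    · exact Or.inr (Or.inl rfl)
    · exact Or.inl rfl
  · exact Or.inr (Or.inr (Or.inl ⟨i, rfl⟩))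
  · exact Or.inr (Or.inr (Or.inr ⟨e, rfl⟩))

/-- **The dual graph is connected**: every vertical component meets `cInf` and `cZero`, every
middle component carries a Kummer place. -/
theorem connected [Nonempty SSp] (hsurj : ∀ i, ∃ e s, comp e s = i)
    (T : Set (Comp Mid SSp)) (hne : T.Nonempty)
    (hT : ∀ x : Node SSp KP, src comp x ∈ T ↔ tgt x ∈ T) : T = Set.univ := by
  have h1 : ∀ e, ze e ∈ T ↔ (cInf : Comp Mid SSp) ∈ T := fun e => (hT (nT e)).symm
  have h2 : ∀ e, ze e ∈ T ↔ (cZero : Comp Mid SSp) ∈ T := fun e => hT (nW e)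
  have h3 : ∀ e s, mid (comp e s) ∈ T ↔ ze e ∈ T := fun e s => hT (nk e s)
  obtain ⟨e₀⟩ := ‹Nonempty SSp›
  -- `cInf ∈ T`
  have hInf : (cInf : Comp Mid SSp) ∈ T := by
    obtain ⟨v, hv⟩ := hne
    rcases comp_cases v with rfl | rfl | ⟨i, rfl⟩ | ⟨e, rfl⟩
    · exact (h1 e₀).mp ((h2 e₀).mpr hv)
    · exact hv
    · obtain ⟨e, s, rfl⟩ := hsurj i
      exact (h1 e).mp ((h3 e s).mp hv)
    · exact (h1 e).mp hv
  apply Set.eq_univ_of_forall
  intro v
  rcases comp_cases v with rfl | rfl | ⟨i, rfl⟩ | ⟨e, rfl⟩
  · exact (h2 e₀).mp ((h1 e₀).mpr hInf)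
  · exact hInf
  · obtain ⟨e, s, rfl⟩ := hsurj i
    exact (h3 e s).mpr ((h1 e).mpr hInf)
  · exact (h1 e).mpr hInf

end Graph

/-! ### The inputs -/

/-- **The named inputs of the stable model `S''`.** -/
structure Input {K : Type} {F : Type*} [Field K] [Field F] [Algebra K F]
    (A : ValuationSubring K) (Mid SSp KP : Type) (Ft : Comp Mid SSp → Type)
    [∀ v, Field (Ft v)] [∀ v, Algebra (ResidueField A) (Ft v)] where
  /-- the middle component carrying the Kummer place `s` over `e` -/
  comp : SSp → KP → Mid
  /-- every middle component carries a Kummer place -/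
  comp_surj : ∀ i, ∃ e s, comp e s = i
  /-- there is a supersingular point -/
  nonempty : Nonempty SSp
  /-- the constant reductions of the components -/
  C : ∀ v, ConstRed (F := F) (Ft := Ft v) A (residue A)
  O_injective : Function.Injective fun v => (C v).O
  /-- the branch of a node on its source component -/
  s₁ : ∀ x : Node SSp KP, Place (ResidueField A) (Ft (src comp x))
  /-- the branch of a node on its target component -/
  s₂ : ∀ x : Node SSp KP, Place (ResidueField A) (Ft (tgt x))
  branch_injective : Function.Injective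
    (Sum.elim (fun x => (⟨src comp x, s₁ x⟩ : Σ v, Place (ResidueField A) (Ft v)))
      (fun x => ⟨tgt x, s₂ x⟩))
  /-- the tube of a point of the normalisation of the special fibre -/
  tube : (Σ v, Place (ResidueField A) (Ft v)) → Set (Place K F)
  tube_tgt : ∀ x, tube ⟨tgt x, s₂ x⟩ = ∅
  cover : ∀ P, ∃ y, P ∈ tube y
  disjoint : ∀ P y y', P ∈ tube y → P ∈ tube y' → y = y'
  /-- a smooth chart at every non-branch point -/
  smooth : ∀ v (Q : Place (ResidueField A) (Ft v)),
    (∀ x, (⟨v, Q⟩ : Σ v, Place (ResidueField A) (Ft v)) ≠ ⟨src comp x, s₁ x⟩) →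
    (∀ x, (⟨v, Q⟩ : Σ v, Place (ResidueField A) (Ft v)) ≠ ⟨tgt x, s₂ x⟩) →
    SmoothChart A (C v).O (C v).res Q (tube ⟨v, Q⟩)
  /-- a node chart at every node -/
  chart : ∀ x, NodeChart A (C (src comp x)).O (C (tgt x)).O (C (src comp x)).res
    (C (tgt x)).res (s₁ x) (s₂ x) (tube ⟨src comp x, s₁ x⟩)

namespace Input

variable {K : Type} {F : Type*} [Field K] [Field F] [Algebra K F]
  {A : ValuationSubring K} {Mid SSp KP : Type} {Ft : Comp Mid SSp → Type}
  [∀ v, Field (Ft v)] [∀ v, Algebra (ResidueField A) (Ft v)]
  (I : Input (F := F) A Mid SSp KP Ft)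

/-- The inputs of `S''` in the form of `BR3/MultiInput`. -/
def toMultiInput : MultiInput (F := F) A (residue A) (Comp Mid SSp) Ft (Node SSp KP) :=
  haveI := I.nonempty
  MultiInput.ofNodeCharts I.C I.O_injective (src I.comp) tgt I.s₁ I.s₂
    I.branch_injective (connected I.comp I.comp_surj) I.tube I.tube_tgt I.cover I.disjoint
    I.smooth I.chart

/-- **The semistable setup `S''`.** -/
def setup : SemistableSetup (F := F) A (residue A) (Comp Mid SSp) Ft (Node SSp KP) :=
  I.toMultiInput.toSetup

@[simp] theorem setup_O (v : Comp Mid SSp) : I.setup.O v = (I.C v).O := rfl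

@[simp] theorem setup_res (v : Comp Mid SSp) : I.setup.res v = (I.C v).res := rfl

@[simp] theorem setup_src (x : Node SSp KP) : I.setup.src x = src I.comp x := rfl

@[simp] theorem setup_tgt (x : Node SSp KP) : I.setup.tgt x = tgt x := rfl

@[simp] theorem setup_s₁ (x : Node SSp KP) : I.setup.s₁ x = I.s₁ x := rfl

@[simp] theorem setup_s₂ (x : Node SSp KP) : I.setup.s₂ x = I.s₂ x := rfl

/-- The places which reduce to a point are the places of its tube. -/
theorem setup_r_eq_iff {P : Place K F} {y : Σ v, Place (ResidueField A) (Ft v)} :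
    I.setup.r P = y ↔ P ∈ I.tube y :=
  I.toMultiInput.r_eq_iff

/-- The tube of a node. -/
theorem tube_setup (x : Node SSp KP) :
    Fermat.Agent.BR.Refine.tube I.setup x = I.tube ⟨src I.comp x, I.s₁ x⟩ :=
  I.toMultiInput.setOf_r_eq _

/-- A place is smooth iff it lies in the tube of no node. -/
theorem isSmoothPlace_iff (P : Place K F) :
    I.setup.IsSmoothPlace P ↔ ∀ x, P ∉ I.tube ⟨src I.comp x, I.s₁ x⟩ :=
  I.toMultiInput.isSmoothPlace_iff P

/-! ### The hypotheses on the graph of `GeoTor`, with `eι = Equiv.refl _` -/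

open Fermat.Agent.BR3.GeoTor in
theorem horEnd_nW (e : SSp) : horEnd I.setup hor (nW e) = cZero := rfl

open Fermat.Agent.BR3.GeoTor in
theorem verEnd_nW (e : SSp) : verEnd I.setup hor (nW e) = ze e := rfl

open Fermat.Agent.BR3.GeoTor in
theorem horEnd_nT (e : SSp) : horEnd I.setup hor (nT e) = cInf := rfl

open Fermat.Agent.BR3.GeoTor in
theorem verEnd_nT (e : SSp) : verEnd I.setup hor (nT e) = ze e := rfl

open Fermat.Agent.BR3.GeoTor in
theorem horEnd_nk (e : SSp) (s : KP) : horEnd I.setup hor (nk e s) = mid (I.comp e s) := rfl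

open Fermat.Agent.BR3.GeoTor in
theorem verEnd_nk (e : SSp) (s : KP) : verEnd I.setup hor (nk e s) = ze e := rfl

open Fermat.Agent.BR3.GeoTor in
/-- `hW` of `GeoTor.nsmul_eq_zero_of_graph`. -/
theorem hW (e : SSp) :
    horEnd I.setup hor (nW e) = Equiv.refl (Comp Mid SSp) (Sum.inl (Sum.inl true)) ∧
      verEnd I.setup hor (nW e) = Equiv.refl (Comp Mid SSp) (Sum.inr e) :=
  ⟨rfl, rfl⟩

open Fermat.Agent.BR3.GeoTor in
/-- `hT` of `GeoTor.nsmul_eq_zero_of_graph`. -/
theorem hT (e : SSp) :
    horEnd I.setup hor (nT e) = Equiv.refl (Comp Mid SSp) (Sum.inl (Sum.inl false)) ∧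
      verEnd I.setup hor (nT e) = Equiv.refl (Comp Mid SSp) (Sum.inr e) :=
  ⟨rfl, rfl⟩

open Fermat.Agent.BR3.GeoTor in
/-- `hK` of `GeoTor.nsmul_eq_zero_of_graph`. -/
theorem hK (e : SSp) (s : KP) :
    horEnd I.setup hor (nk e s) =
        Equiv.refl (Comp Mid SSp) (Sum.inl (Sum.inr (I.comp e s))) ∧
      verEnd I.setup hor (nk e s) = Equiv.refl (Comp Mid SSp) (Sum.inr e) :=
  ⟨rfl, rfl⟩

end Input

/-! ### The annuli of the nodes -/

/-- **The level data of the annuli of the nodes of `S''`** and the separation of the nodes. -/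
structure CircleData {K : Type} {F : Type*} [Field K] [Field F] [Algebra K F]
    {A : ValuationSubring K} [IsAlgClosed (ResidueField A)] {Mid SSp KP : Type}
    {Ft : Comp Mid SSp → Type} [∀ v, Field (Ft v)] [∀ v, Algebra (ResidueField A) (Ft v)]
    (I : Input (F := F) A Mid SSp KP Ft) (ιL : Node SSp KP → Type*) where
  /-- the levels of the annulus of a node -/
  L : ∀ x, AnnulusLevels A (Fermat.Agent.BR.Refine.tube I.setup x) (ιL x)
  /-- the branch data of the levels -/
  X : ∀ x, BranchDataN I.setup x (L x)
  /-- distinct nodes are separated by a function -/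
  sep : ∀ x x', x ≠ x' → Separated I.setup x x'

namespace CircleData

variable {K : Type} {F : Type*} [Field K] [Field F] [Algebra K F]
  {A : ValuationSubring K} [IsAlgClosed (ResidueField A)] {Mid SSp KP : Type}
  {Ft : Comp Mid SSp → Type} [∀ v, Field (Ft v)] [∀ v, Algebra (ResidueField A) (Ft v)]
  {I : Input (F := F) A Mid SSp KP Ft} {ιL : Node SSp KP → Type*} (D : CircleData I ιL)

/-- The circle inputs of `S''`. -/
def circleInputs (hA : IsRankOne A) : CircleInputsN I.setup :=
  circleInputsNOfLevels hA D.L D.X D.sep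

/-- **The chain provider of `S''`.** -/
def chainProvider (hA : IsRankOne A) : ChainProvider I.setup :=
  (D.circleInputs hA).chainProvider

@[simp] theorem chainProvider_u (hA : IsRankOne A) (x : Node SSp KP) :
    (D.chainProvider hA).u x = (D.L x).u := rfl

/-- The annulus chart of a node. -/
def ch (hA : IsRankOne A) (x : Node SSp KP) : AnnulusChartN I.setup x := (D.circleInputs hA).ch x

@[simp] theorem ch_u (hA : IsRankOne A) (x : Node SSp KP) : (D.ch hA x).u = (D.L x).u := rfl

@[simp] theorem ch_thick (hA : IsRankOne A) (x : Node SSp KP) :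
    (D.ch hA x).thick = (D.L x).thick := rfl

end CircleData

end Fermat.Agent.BR3.SDD
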