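import Mathlib
import Fermat.Agent.BR3.SDD.Skeleton

/-!
# Program C (S36), node I7 (integrator), part 4: the branches of the nodes of `S''` by cases

The fields `s₁`, `s₂`, `branch_injective` of `SDD.Input` from the six families of special points:

* `pInf e : Place k (Ft cInf)` (the supersingular point `e` on `cInf`, branch of `nT e`),
  `pZero e : Place k (Ft cZero)` (on `cZero`, branch of `nW e`),
  `pMid e s : Place k (Ft (mid (comp e s)))` (the Kummer place `s` over `e`, branch of `nk e s`),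
  `zT e`, `zK e s`, `zW e : Place k (Ft (ze e))` (the points of the vertical component `ze e` at
  which it meets `cInf`, `mid (comp e s)`, `cZero`);
* `s₁Of`, `s₂Of` : the fields `s₁`, `s₂` (with `rfl` lemmas);
* `branch_injective_of` : the field `branch_injective` from the injectivity of each family and the
  pairwise distinctness of the special points of each vertical component;
* `smoothOf` : the field `smooth` from the smooth charts of the four kinds of components
  (`cInf`: `Q ≠ pInf e`; `cZero`: `Q ≠ pZero e`; `mid i`: `Q` not a Kummer place; `ze e`: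
  `Q ≠ zW e, zT e, zK e s`);
* `chartOf` : the field `chart` from the node charts of `nT e`, `nk e s`, `nW e`;
* `tube_tgt_of` : the field `tube_tgt`.
-/

set_option autoImplicit false

namespace Fermat.Agent.BR3.SDD

open AlgebraicCurve

variable {k : Type*} [Field k] {Mid SSp KP : Type} {Ft : Comp Mid SSp → Type}
  [∀ v, Field (Ft v)] [∀ v, Algebra k (Ft v)] (comp : SSp → KP → Mid)

/-- The branch of a node on its source component, by cases. -/
def s₁Of (pInf : SSp → Place k (Ft cInf)) (pMid : ∀ e s, Place k (Ft (mid (comp e s))))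
    (zW : ∀ e, Place k (Ft (ze e))) : ∀ x : Node SSp KP, Place k (Ft (src comp x))
  | (e, Sum.inl true) => zW e
  | (e, Sum.inl false) => pInf e
  | (e, Sum.inr s) => pMid e s

/-- The branch of a node on its target component, by cases. -/
def s₂Of (pZero : SSp → Place k (Ft cZero)) (zT : ∀ e, Place k (Ft (ze e)))
    (zK : ∀ e, KP → Place k (Ft (ze e))) : ∀ x : Node SSp KP, Place k (Ft (tgt x))
  | (e, Sum.inl true) => pZero e
  | (e, Sum.inl false) => zT e
  | (e, Sum.inr s) => zK e s

section Lemmas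

variable (pInf : SSp → Place k (Ft cInf)) (pMid : ∀ e s, Place k (Ft (mid (comp e s))))
  (zW : ∀ e, Place k (Ft (ze e))) (pZero : SSp → Place k (Ft cZero))
  (zT : ∀ e, Place k (Ft (ze e))) (zK : ∀ e, KP → Place k (Ft (ze e)))

@[simp] theorem s₁Of_nW (e : SSp) : s₁Of comp pInf pMid zW (nW e) = zW e := rfl

@[simp] theorem s₁Of_nT (e : SSp) : s₁Of comp pInf pMid zW (nT e) = pInf e := rfl

@[simp] theorem s₁Of_nk (e : SSp) (s : KP) : s₁Of comp pInf pMid zW (nk e s) = pMid e s := rfl

@[simp] theorem s₂Of_nW (e : SSp) : s₂Of (Mid := Mid) (KP := KP) pZero zT zK (nW e) = pZero e := rfl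

@[simp] theorem s₂Of_nT (e : SSp) : s₂Of (Mid := Mid) (KP := KP) pZero zT zK (nT e) = zT e := rfl

@[simp] theorem s₂Of_nk (e : SSp) (s : KP) :
    s₂Of (Mid := Mid) pZero zT zK (nk e s) = zK e s := rfl

/-- **The field `branch_injective` of `SDD.Input`** from the six families of special points. -/
theorem branch_injective_of (hInf : Function.Injective pInf) (hZero : Function.Injective pZero)
    (hMid : ∀ e s e' s', (⟨mid (comp e s), pMid e s⟩ : Σ v, Place k (Ft v)) =
      ⟨mid (comp e' s'), pMid e' s'⟩ → e = e' ∧ s = s')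
    (hK : ∀ e, Function.Injective (zK e)) (hTK : ∀ e s, zT e ≠ zK e s)
    (hWT : ∀ e, zW e ≠ zT e) (hWK : ∀ e s, zW e ≠ zK e s) :
    Function.Injective
      (Sum.elim (fun x => (⟨src comp x, s₁Of comp pInf pMid zW x⟩ : Σ v, Place k (Ft v)))
        (fun x => ⟨tgt x, s₂Of pZero zT zK x⟩)) := by
  have hze : ∀ {e e' : SSp} {Q : Place k (Ft (ze e))} {Q' : Place k (Ft (ze e'))},
      (⟨ze e, Q⟩ : Σ v, Place k (Ft v)) = ⟨ze e', Q'⟩ → ∃ h : e = e', h ▸ Q = Q' := by
    intro e e' Q Q' h
    have h1 : e = e' := Sum.inr.inj (congrArg Sigma.fst h)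
    subst h1
    exact ⟨rfl, eq_of_heq (Sigma.mk.inj h).2⟩
  rintro (⟨e, (_ | _) | s⟩ | ⟨e, (_ | _) | s⟩) (⟨e', (_ | _) | s'⟩ | ⟨e', (_ | _) | s'⟩) h <;>
    simp only [Sum.elim_inl, Sum.elim_inr] at h
  all_goals first
    | (obtain ⟨rfl, rfl⟩ := hMid _ _ _ _ h; rfl)
    | (have h2 := hInf (eq_of_heq (Sigma.mk.inj h).2); subst h2; rfl)
    | (have h2 := hZero (eq_of_heq (Sigma.mk.inj h).2); subst h2; rfl)
    | (obtain ⟨rfl, h2⟩ := hze h
       first
         | rfl
         | exact absurd h2 (hWT _)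
         | exact absurd h2.symm (hWT _)
         | exact absurd h2 (hWK _ _)
         | exact absurd h2.symm (hWK _ _)
         | exact absurd h2 (hTK _ _)
         | exact absurd h2.symm (hTK _ _)
         | (have h3 := hK _ h2; subst h3; rfl))
    | (have h' := congrArg Sigma.fst h
       simp [src, tgt, cInf, cZero, mid, ze] at h'
       done)

end Lemmas

section Smooth

open IsLocalRing Fermat.Agent.Val Fermat.Agent.BR.S0

variable {K : Type} {F : Type*} [Field K] [Field F] [Algebra K F] {A : ValuationSubring K}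
  {Mid SSp KP : Type} {Ft : Comp Mid SSp → Type} [∀ v, Field (Ft v)]
  [∀ v, Algebra (ResidueField A) (Ft v)] (comp : SSp → KP → Mid)
  (C : ∀ v, ConstRed (F := F) (Ft := Ft v) A (residue A))
  (pInf : SSp → Place (ResidueField A) (Ft cInf))
  (pMid : ∀ e s, Place (ResidueField A) (Ft (mid (comp e s))))
  (zW : ∀ e, Place (ResidueField A) (Ft (ze e))) (pZero : SSp → Place (ResidueField A) (Ft cZero))
  (zT : ∀ e, Place (ResidueField A) (Ft (ze e)))
  (zK : ∀ e, KP → Place (ResidueField A) (Ft (ze e)))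
  (tube : (Σ v, Place (ResidueField A) (Ft v)) → Set (Place K F))

/-- **The field `smooth` of `SDD.Input`** from the smooth charts of the four kinds of
components. -/
def smoothOf
    (hInf : ∀ Q : Place (ResidueField A) (Ft cInf), (∀ e, Q ≠ pInf e) →
      SmoothChart A (C cInf).O (C cInf).res Q (tube ⟨cInf, Q⟩))
    (hZero : ∀ Q : Place (ResidueField A) (Ft cZero), (∀ e, Q ≠ pZero e) →
      SmoothChart A (C cZero).O (C cZero).res Q (tube ⟨cZero, Q⟩))
    (hMid : ∀ (i : Mid) (Q : Place (ResidueField A) (Ft (mid i))),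
      (∀ e s, (⟨mid i, Q⟩ : Σ v, Place (ResidueField A) (Ft v)) ≠
        ⟨mid (comp e s), pMid e s⟩) →
      SmoothChart A (C (mid i)).O (C (mid i)).res Q (tube ⟨mid i, Q⟩))
    (hZe : ∀ (e : SSp) (Q : Place (ResidueField A) (Ft (ze e))), Q ≠ zW e → Q ≠ zT e →
      (∀ s, Q ≠ zK e s) → SmoothChart A (C (ze e)).O (C (ze e)).res Q (tube ⟨ze e, Q⟩)) :
    ∀ v (Q : Place (ResidueField A) (Ft v)),
      (∀ x, (⟨v, Q⟩ : Σ v, Place (ResidueField A) (Ft v)) ≠
        ⟨src comp x, s₁Of comp pInf pMid zW x⟩) →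
      (∀ x, (⟨v, Q⟩ : Σ v, Place (ResidueField A) (Ft v)) ≠ ⟨tgt x, s₂Of pZero zT zK x⟩) →
      SmoothChart A (C v).O (C v).res Q (tube ⟨v, Q⟩)
  | Sum.inl (Sum.inl true), Q, _, h2 => hZero Q fun e he => h2 (nW e) (by rw [he]; rfl)
  | Sum.inl (Sum.inl false), Q, h1, _ => hInf Q fun e he => h1 (nT e) (by rw [he]; rfl)
  | Sum.inl (Sum.inr i), Q, h1, _ => hMid i Q fun e s he => h1 (nk e s) he
  | Sum.inr e, Q, h1, h2 =>
    hZe e Q (fun he => h1 (nW e) (by rw [he]; rfl)) (fun he => h2 (nT e) (by rw [he]; rfl))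
      fun s he => h2 (nk e s) (by rw [he]; rfl)

/-- **The field `chart` of `SDD.Input`** from the node charts of the three kinds of nodes. -/
def chartOf
    (hT : ∀ e, NodeChart A (C cInf).O (C (ze e)).O (C cInf).res (C (ze e)).res (pInf e) (zT e)
      (tube ⟨cInf, pInf e⟩))
    (hK : ∀ e s, NodeChart A (C (mid (comp e s))).O (C (ze e)).O (C (mid (comp e s))).res
      (C (ze e)).res (pMid e s) (zK e s) (tube ⟨mid (comp e s), pMid e s⟩))
    (hW : ∀ e, NodeChart A (C (ze e)).O (C cZero).O (C (ze e)).res (C cZero).res (zW e) (pZero e)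
      (tube ⟨ze e, zW e⟩)) :
    ∀ x, NodeChart A (C (src comp x)).O (C (tgt x)).O (C (src comp x)).res (C (tgt x)).res
      (s₁Of comp pInf pMid zW x) (s₂Of pZero zT zK x)
      (tube ⟨src comp x, s₁Of comp pInf pMid zW x⟩)
  | (e, Sum.inl true) => hW e
  | (e, Sum.inl false) => hT e
  | (e, Sum.inr s) => hK e s

/-- **The field `tube_tgt` of `SDD.Input`** by cases. -/
theorem tube_tgt_of (hZero : ∀ e, tube ⟨cZero, pZero e⟩ = ∅) (hT : ∀ e, tube ⟨ze e, zT e⟩ = ∅)
    (hK : ∀ e s, tube ⟨ze e, zK e s⟩ = ∅) :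
    ∀ x, tube ⟨tgt x, s₂Of (Mid := Mid) pZero zT zK x⟩ = ∅
  | (e, Sum.inl true) => hZero e
  | (e, Sum.inl false) => hT e
  | (e, Sum.inr s) => hK e s

end Smooth

end Fermat.Agent.BR3.SDD
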