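import Mathlib
import Fermat.Agent.BR3.SDD.Branch

/-!
# Program C (S36), node I7 (integrator), part 6: the tubes of `S''` by cases

* `tubeOf TH TM TZ` : the field `tube` of `SDD.Input` from the tube families of the four kinds of
  components (`TH true Q`: tube of the point `Q` of `cZero`, `TH false Q`: of `cInf`, `TM i Q`: of
  the middle component `mid i`, `TZ e Q`: of the vertical component `ze e`), with `rfl` lemmas;
* `cover_tubeOf_iff`, `disjoint_tubeOf` : the fields `cover`, `disjoint` in terms of the four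
  families;
* `nk_injective`, `nT_ne_nk`, `nW_ne_nk`, `nW_ne_nT` : the nodes of the three kinds are distinct
  (hypotheses `hnk`, `hnTk`, `hnWk` of `PushShapes.push_relations` / `GeoTorData.h3_of_data`).
-/

set_option autoImplicit false

namespace Fermat.Agent.BR3.SDD

open AlgebraicCurve

section Tubes

variable {K F k : Type*} [Field K] [Field F] [Algebra K F] [Field k] {Mid SSp KP : Type}
  {Ft : Comp Mid SSp → Type} [∀ v, Field (Ft v)] [∀ v, Algebra k (Ft v)]

/-- The tube of a point of the normalisation of the special fibre of `S''`, by cases on the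
component. -/
def tubeOf (TH : ∀ b : Bool, Place k (Ft (Sum.inl (Sum.inl b))) → Set (Place K F))
    (TM : ∀ i : Mid, Place k (Ft (mid i)) → Set (Place K F))
    (TZ : ∀ e : SSp, Place k (Ft (ze e)) → Set (Place K F)) :
    (Σ v, Place k (Ft v)) → Set (Place K F)
  | ⟨Sum.inl (Sum.inl b), Q⟩ => TH b Q
  | ⟨Sum.inl (Sum.inr i), Q⟩ => TM i Q
  | ⟨Sum.inr e, Q⟩ => TZ e Q

variable (TH : ∀ b : Bool, Place k (Ft (Sum.inl (Sum.inl b))) → Set (Place K F))
  (TM : ∀ i : Mid, Place k (Ft (mid i)) → Set (Place K F))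
  (TZ : ∀ e : SSp, Place k (Ft (ze e)) → Set (Place K F))

@[simp] theorem tubeOf_cZero (Q : Place k (Ft cZero)) :
    tubeOf TH TM TZ ⟨cZero, Q⟩ = TH true Q := rfl

@[simp] theorem tubeOf_cInf (Q : Place k (Ft cInf)) :
    tubeOf TH TM TZ ⟨cInf, Q⟩ = TH false Q := rfl

@[simp] theorem tubeOf_mid (i : Mid) (Q : Place k (Ft (mid i))) :
    tubeOf TH TM TZ ⟨mid i, Q⟩ = TM i Q := rfl

@[simp] theorem tubeOf_ze (e : SSp) (Q : Place k (Ft (ze e))) :
    tubeOf TH TM TZ ⟨ze e, Q⟩ = TZ e Q := rfl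

/-- The field `cover` in terms of the four families. -/
theorem cover_tubeOf_iff (P : Place K F) :
    (∃ y, P ∈ tubeOf TH TM TZ y) ↔
      (∃ b Q, P ∈ TH b Q) ∨ (∃ i Q, P ∈ TM i Q) ∨ ∃ e Q, P ∈ TZ e Q := by
  constructor
  · rintro ⟨⟨(b | i) | e, Q⟩, h⟩
    · exact Or.inl ⟨b, Q, h⟩
    · exact Or.inr (Or.inl ⟨i, Q, h⟩)
    · exact Or.inr (Or.inr ⟨e, Q, h⟩)
  · rintro (⟨b, Q, h⟩ | ⟨i, Q, h⟩ | ⟨e, Q, h⟩)
    · exact ⟨⟨Sum.inl (Sum.inl b), Q⟩, h⟩
    · exact ⟨⟨mid i, Q⟩, h⟩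
    · exact ⟨⟨ze e, Q⟩, h⟩

/-- The field `disjoint` from: a place lies in the tubes of at most one component, and in at most
one tube of that component. -/
theorem disjoint_tubeOf
    (comp_of : Place K F → Comp Mid SSp)
    (hH : ∀ b Q P, P ∈ TH b Q → comp_of P = Sum.inl (Sum.inl b))
    (hM : ∀ i Q P, P ∈ TM i Q → comp_of P = mid i)
    (hZ : ∀ e Q P, P ∈ TZ e Q → comp_of P = ze e)
    (hH1 : ∀ b Q Q' P, P ∈ TH b Q → P ∈ TH b Q' → Q = Q')
    (hM1 : ∀ i Q Q' P, P ∈ TM i Q → P ∈ TM i Q' → Q = Q')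
    (hZ1 : ∀ e Q Q' P, P ∈ TZ e Q → P ∈ TZ e Q' → Q = Q')
    (P : Place K F) (y y' : Σ v, Place k (Ft v)) (h : P ∈ tubeOf TH TM TZ y)
    (h' : P ∈ tubeOf TH TM TZ y') : y = y' := by
  have hc : ∀ y : Σ v, Place k (Ft v), P ∈ tubeOf TH TM TZ y → comp_of P = y.1 := by
    rintro ⟨(b | i) | e, Q⟩ h
    · exact hH b Q P h
    · exact hM i Q P h
    · exact hZ e Q P h
  obtain ⟨v, Q⟩ := y
  obtain ⟨v', Q'⟩ := y'
  have hv : v = v' := (hc _ h).symm.trans (hc _ h')
  subst hv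
  obtain (b | i) | e := v
  · rw [hH1 b Q Q' P h h']
  · rw [hM1 i Q Q' P h h']
  · rw [hZ1 e Q Q' P h h']

end Tubes

section Nodes

variable {SSp KP : Type}

theorem nk_injective (e : SSp) : Function.Injective (nk (KP := KP) e) := by
  intro s s' h
  simpa [nk] using h

theorem nT_ne_nk (e : SSp) (s : KP) : nT (KP := KP) e ≠ nk e s := by
  simp [nT, nk]

theorem nW_ne_nk (e : SSp) (s : KP) : nW (KP := KP) e ≠ nk e s := by
  simp [nW, nk]

theorem nW_ne_nT (e e' : SSp) : nW (KP := KP) e ≠ nT e' := by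
  simp [nW, nT]

theorem nT_injective : Function.Injective (nT (SSp := SSp) (KP := KP)) := by
  intro e e' h
  simpa [nT] using h

theorem nW_injective : Function.Injective (nW (SSp := SSp) (KP := KP)) := by
  intro e e' h
  simpa [nW] using h

theorem nk_eq_nk_iff {e e' : SSp} {s s' : KP} : nk e s = nk e' s' ↔ e = e' ∧ s = s' := by
  simp [nk]

end Nodes

end Fermat.Agent.BR3.SDD
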