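import Mathlib
import Fermat.Agent.BR3.CoverDict
import Fermat.Agent.BR.S0.AnnulusDescent
import Fermat.Agent.BR3.SDD.Tubes

/-!
# Program C (S36), node I7 (W4): the partition of the places of `S''` into tubes

The fields `TH_pZero`, `TZ_zT`, `TZ_zK`, `cover`, `disjoint` of `SDD.CaseInput` (= `tube_tgt`,
`cover`, `disjoint` of `SDD.Input`) and the compatibility (T) of the tubes of `S''` with the tubes
of the base `S₀ = S'ref_a`, from data per point of the base.  Everything is abstract: `S₀` ANY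
semistable setup of `F' / K`, `tube'' : β'' → Set (Place K F'')` ANY family of candidate tubes.

## Part 1 (node half): annulus sheets

* `AnnSheet A T'' y₀ thick' b₀` : the tube `T''` is an annulus (core `core`, coordinate `core.u`)
  on which `y₀` (the image in `F''` of the coordinate of the annulus of the base, of thickness
  `thick'`) is `c₀ · core.u ^ b₀ · (tube unit)`, with `|c₀| |thick''| ^ b₀ ≤ |thick'|` and
  `1 ≤ |c₀|` (`b₀ = 1` for the split sheet `nT e`, `b₀ = d` for the Kummer sheets `nk e s`,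
  `b₀ = q` for the wild sheet `nW e`); no algebra structure `F' → F''` is involved;
  `AnnSheet.ofLevels` (from `AnnulusLevels`), `AnnSheet.count`
  (`AnnulusCount.count_monomial_of_isAlgClosed`);
* `nodeSheets` : `CoverDict.NodeSheets` from a finite set of pairwise disjoint annulus sheets over
  the tube of the node with `∑ b₀ = [F'' : F']`; `exists_mem_of_annSheets`.

## Part 2 (assembly), for ANY map `ρ : Place K F'' → Place K F'` (`P ↦ P.restrict F'` or
`P ↦ P.restrictAlong a ha`)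

* `FibreOver S₀ ρ tube'' y' fib` : the tubes of the points of `fib` lie over the tube of `y'`, are
  pairwise disjoint and exhaust the places over the tube of `y'`; `FibreOver.existsUnique`,
  `FibreOver.of_tgt`, `FibreOver.mono`, `FibreOver.of_existsUnique` (ONE generator separating the
  fibre: `CoverK.Dict.existsUnique_mem_coverTube`), and by counting: `FibreOver.of_nodeSheets`,
  `FibreOver.of_smoothSheets`, **`FibreOver.of_annSheets`**, `FibreOver.of_annSheets_along`;
* `Under S₀ ρ tube'' under` : (sub) `P ∈ tube'' x → S₀.r (ρ P) = under x`, (disj) over one point of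
  the base, (exh) over every point of the base which is not a target branch; `Under.of_fibres`;
  **`Under.cover`**, **`Under.disjoint`**, **`Under.tube_eq_empty`** (`tube_tgt`: the tube of a
  point over a target branch of the base is empty), `Under.fibreOver`, `Under.r_eq_under`,
  `Under.mem_tube_src` / `Under.map_mem_tube` (T);
* **`Under.caseInput_fields`** : the five fields of `SDD.CaseInput` for `tubeOf TH TM TZ`;
* `tubeCases sp Tsp Tsm` : definition by cases on an injective family of special points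
  (`tubeCases_sp`, `tubeCases_of_ne`).
-/

set_option autoImplicit false
set_option linter.unusedSectionVars false
set_option linter.style.haveILetI false

namespace Fermat.Agent.BR3.SDD.Partition

open AlgebraicCurve IsLocalRing Fermat.Agent.Red Fermat.Agent.BR.SS Fermat.Agent.BR.S0
  Fermat.Agent.BR.Circle Fermat.Agent.BR3.CoverDict Fermat.Agent.BR3.AnnulusCount

/-! ### Part 1: annulus sheets -/

section AnnSheets

variable {K F'' : Type*} [Field K] [Field F''] [Algebra K F''] {A : ValuationSubring K}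

/-- **An annulus sheet of degree `b₀`**: the tube `T''` is an annulus (coordinate `core.u`) on
which the function `y₀` (the image in the cover of the coordinate of an annulus of the base of
thickness `thick'`) is `c₀ · core.u ^ b₀ · (tube unit)`. -/
structure AnnSheet (A : ValuationSubring K) (T'' : Set (Place K F'')) (y₀ : F'') (thick' : K)
    (b₀ : ℕ) where
  /-- the K-level contract of the sheet -/
  core : AnnulusCore A T''
  /-- the leading constant -/
  c₀ : K
  c₀_ne : c₀ ≠ 0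
  b₀_pos : 0 < b₀
  unit : TubeUnit A T'' (y₀ * (c₀ • core.u ^ b₀)⁻¹)
  lo : A.valuation c₀ * A.valuation core.thick ^ b₀ ≤ A.valuation thick'
  hi : 1 ≤ A.valuation c₀

/-- An annulus sheet from a directed family of finite levels of the sheet. -/
noncomputable def AnnSheet.ofLevels {T'' : Set (Place K F'')} {ι : Type*}
    (L : AnnulusLevels A T'' ι) {y₀ : F''} {thick' : K} {b₀ : ℕ} (hb₀ : 0 < b₀) {c₀ : K}
    (hc₀ : c₀ ≠ 0) (hunit : TubeUnit A T'' (y₀ * (c₀ • L.u ^ b₀)⁻¹))
    (hlo : A.valuation c₀ * A.valuation L.thick ^ b₀ ≤ A.valuation thick')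
    (hhi : 1 ≤ A.valuation c₀) : AnnSheet A T'' y₀ thick' b₀ where
  core := L.core
  c₀ := c₀
  c₀_ne := hc₀
  b₀_pos := hb₀
  unit := hunit
  lo := hlo
  hi := hhi

@[simp] theorem AnnSheet.ofLevels_core_u {T'' : Set (Place K F'')} {ι : Type*}
    (L : AnnulusLevels A T'' ι) {y₀ : F''} {thick' : K} {b₀ : ℕ} (hb₀ : 0 < b₀) {c₀ : K}
    (hc₀ : c₀ ≠ 0) (hunit : TubeUnit A T'' (y₀ * (c₀ • L.u ^ b₀)⁻¹))
    (hlo : A.valuation c₀ * A.valuation L.thick ^ b₀ ≤ A.valuation thick')
    (hhi : 1 ≤ A.valuation c₀) :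
    (AnnSheet.ofLevels L hb₀ hc₀ hunit hlo hhi).core.u = L.u := rfl

/-- **The count of an annulus sheet**: `y₀ - c` has `b₀` zeros on the sheet, for every `c` of the
annulus of the base. -/
theorem AnnSheet.count [IsAlgClosed (ResidueField A)] [IsAlgClosed K] {T'' : Set (Place K F'')}
    {y₀ : F''} {thick' : K} {b₀ : ℕ} (X : AnnSheet A T'' y₀ thick' b₀) (c : K)
    (h1 : A.valuation thick' < A.valuation c) (h2 : A.valuation c < 1) (D : Divisor K F'')
    (hD : ∀ P, D P = P.ord (y₀ - algebraMap K F'' c)) :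
    Finsupp.mapDomain (fun P => P ∈ T'') D True = (b₀ : ℤ) :=
  count_monomial_of_isAlgClosed X.core X.c₀_ne X.b₀_pos X.unit (lt_of_le_of_lt X.lo h1)
    (lt_of_lt_of_le h2 X.hi) D hD

variable {F' : Type*} [Field F'] [Algebra K F'] [Algebra F' F''] [IsScalarTower K F' F'']
  [Algebra.IsIntegral F' F''] [HasPrincipalDivisors K F''] [FundamentalIdentity K F' F'']
  [IsAlgClosed (ResidueField A)] [IsAlgClosed K] {T' : Set (Place K F')}

/-- **The sheets over the tube of a node of the base** from annulus sheets. -/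
def nodeSheets {C' : AnnulusCore A T'} {β'' : Type*} (tube'' : β'' → Set (Place K F''))
    (fib : Finset β'') (b₀ : β'' → ℕ)
    (X : ∀ x ∈ fib, Nonempty (AnnSheet A (tube'' x) (algebraMap F' F'' C'.u) C'.thick (b₀ x)))
    (hsub : ∀ x ∈ fib, ∀ P ∈ tube'' x, P.restrict F' ∈ T')
    (hdisj : ∀ x ∈ fib, ∀ y ∈ fib, ∀ P, P ∈ tube'' x → P ∈ tube'' y → x = y)
    (hsum : ∑ x ∈ fib, b₀ x = Module.finrank F' F'') : NodeSheets A T' C' tube'' where
  fib := fib
  e := b₀
  sub := hsub
  disj := hdisj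
  count := fun x hx c h1 h2 D hD => by
    obtain ⟨Y⟩ := X x hx
    refine Y.count c h1 h2 D fun P => ?_
    rw [hD, map_sub, ← IsScalarTower.algebraMap_apply]
  sum := hsum

/-- Every place over the tube of the node of the base lies in one of the annulus sheets. -/
theorem exists_mem_of_annSheets {C' : AnnulusCore A T'} {β'' : Type*}
    (tube'' : β'' → Set (Place K F'')) (fib : Finset β'') (b₀ : β'' → ℕ)
    (X : ∀ x ∈ fib, Nonempty (AnnSheet A (tube'' x) (algebraMap F' F'' C'.u) C'.thick (b₀ x)))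
    (hsub : ∀ x ∈ fib, ∀ P ∈ tube'' x, P.restrict F' ∈ T')
    (hdisj : ∀ x ∈ fib, ∀ y ∈ fib, ∀ P, P ∈ tube'' x → P ∈ tube'' y → x = y)
    (hsum : ∑ x ∈ fib, b₀ x = Module.finrank F' F'')
    (hdeg'' : ∀ P : Place K F'', P.deg = 1) (hdeg' : ∀ P : Place K F', P.deg = 1)
    {P'' : Place K F''} (hP : P''.restrict F' ∈ T') : ∃ x ∈ fib, P'' ∈ tube'' x :=
  (nodeSheets tube'' fib b₀ X hsub hdisj hsum).exists_mem hdeg'' hdeg' hP

end AnnSheets

/-! ### Part 2: the assembly -/

section Assembly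

variable {K F' F'' : Type*} [Field K] [Field F'] [Field F''] [Algebra K F'] [Algebra K F'']
  {k : Type*} [Field k] {A : ValuationSubring K} {π : A →+* k} {ι₀ : Type*}
  {Ft₀ : ι₀ → Type*} [∀ v, Field (Ft₀ v)] [∀ v, Algebra k (Ft₀ v)] {ν₀ : Type*}
  (S₀ : SemistableSetup (F := F') A π ι₀ Ft₀ ν₀) (ρ : Place K F'' → Place K F') {β'' : Type*}
  (tube'' : β'' → Set (Place K F''))

/-- **The points of the cover over the point `y'` of the base**: their tubes lie over the tube of
`y'`, are pairwise disjoint and exhaust the places over the tube of `y'`. -/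
structure FibreOver (y' : Σ v, Place k (Ft₀ v)) (fib : Set β'') : Prop where
  sub : ∀ x ∈ fib, ∀ P ∈ tube'' x, S₀.r (ρ P) = y'
  disj : ∀ x ∈ fib, ∀ y ∈ fib, ∀ P, P ∈ tube'' x → P ∈ tube'' y → x = y
  exh : ∀ P, S₀.r (ρ P) = y' → ∃ x ∈ fib, P ∈ tube'' x

variable {S₀ ρ tube''}

theorem FibreOver.existsUnique {y' : Σ v, Place k (Ft₀ v)} {fib : Set β''}
    (X : FibreOver S₀ ρ tube'' y' fib) {P : Place K F''} (hP : S₀.r (ρ P) = y') :
    ∃! x, x ∈ fib ∧ P ∈ tube'' x := by
  obtain ⟨x, hx, hPx⟩ := X.exh P hP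
  exact ⟨x, ⟨hx, hPx⟩, fun y hy => X.disj y hy.1 x hx P hy.2 hPx⟩

/-- No place lies over a target branch: the empty fibre. -/
theorem FibreOver.of_tgt (e : ν₀) : FibreOver S₀ ρ tube'' ⟨S₀.tgt e, S₀.s₂ e⟩ ∅ where
  sub := fun x hx => absurd hx (Set.notMem_empty x)
  disj := fun x hx => absurd hx (Set.notMem_empty x)
  exh := fun P hP => absurd hP (S₀.r_ne_tgt (ρ P) e)

/-- A larger set of points whose new members have no places over `y'`... the fibre may be enlarged
by points with empty tubes. -/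
theorem FibreOver.mono {y' : Σ v, Place k (Ft₀ v)} {fib fib' : Set β''}
    (X : FibreOver S₀ ρ tube'' y' fib) (hsub : fib ⊆ fib')
    (hempty : ∀ x ∈ fib', x ∉ fib → tube'' x = ∅) : FibreOver S₀ ρ tube'' y' fib' where
  sub := fun x hx P hP => by
    by_cases h : x ∈ fib
    · exact X.sub x h P hP
    · rw [hempty x hx h] at hP
      exact absurd hP (Set.notMem_empty P)
  disj := fun x hx y hy P hPx hPy => by
    by_cases h : x ∈ fib
    · by_cases h' : y ∈ fib
      · exact X.disj x h y h' P hPx hPy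
      · rw [hempty y hy h'] at hPy
        exact absurd hPy (Set.notMem_empty P)
    · rw [hempty x hx h] at hPx
      exact absurd hPx (Set.notMem_empty P)
  exh := fun P hP => by
    obtain ⟨x, hx, hPx⟩ := X.exh P hP
    exact ⟨x, hsub hx, hPx⟩

/-- **One generator separating the fibre** (`CoverK.Dict.existsUnique_mem_coverTube`): the tubes
`tube'' (pts i)` (`= coverTube A T' θ (u i)`) of the points `pts i`. -/
theorem FibreOver.of_existsUnique {y' : Σ v, Place k (Ft₀ v)} {ι : Type*} (pts : ι → β'')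
    (hsub : ∀ i, ∀ P ∈ tube'' (pts i), S₀.r (ρ P) = y')
    (hex : ∀ P, S₀.r (ρ P) = y' → ∃! i, P ∈ tube'' (pts i)) :
    FibreOver S₀ ρ tube'' y' (Set.range pts) where
  sub := by
    rintro _ ⟨i, rfl⟩ P hP
    exact hsub i P hP
  disj := by
    rintro _ ⟨i, rfl⟩ _ ⟨j, rfl⟩ P hPi hPj
    obtain ⟨l, -, hl⟩ := hex P (hsub i P hPi)
    rw [hl i hPi, hl j hPj]
  exh := fun P hP => by
    obtain ⟨i, hi, -⟩ := hex P hP
    exact ⟨pts i, ⟨i, rfl⟩, hi⟩

variable (S₀ ρ tube'')

/-- **The dictionary of the points**: `under x` is the point of the base under the point `x` of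
the cover; (sub) the tube of `x` lies over the tube of `under x`; (disj) the tubes of the points
over one point of the base are pairwise disjoint; (exh) the tubes exhaust the places over every
point of the base which is not a target branch. -/
structure Under (under : β'' → Σ v, Place k (Ft₀ v)) : Prop where
  sub : ∀ x, ∀ P ∈ tube'' x, S₀.r (ρ P) = under x
  disj : ∀ x y P, under x = under y → P ∈ tube'' x → P ∈ tube'' y → x = y
  exh : ∀ y', (∀ e, y' ≠ ⟨S₀.tgt e, S₀.s₂ e⟩) → ∀ P, S₀.r (ρ P) = y' → ∃ x, P ∈ tube'' x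

variable {S₀ ρ tube''}

/-- The dictionary from the fibres: every point with a nonempty tube belongs to the fibre of the
point under it. -/
theorem Under.of_fibres {under : β'' → Σ v, Place k (Ft₀ v)}
    (fib : (Σ v, Place k (Ft₀ v)) → Set β'')
    (hF : ∀ y', (∀ e, y' ≠ ⟨S₀.tgt e, S₀.s₂ e⟩) → FibreOver S₀ ρ tube'' y' (fib y'))
    (hsub : ∀ x, ∀ P ∈ tube'' x, S₀.r (ρ P) = under x)
    (hmem : ∀ x, (tube'' x).Nonempty → x ∈ fib (under x)) : Under S₀ ρ tube'' under where
  sub := hsub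
  disj := fun x y P hxy hPx hPy => by
    have hnt : ∀ e, under x ≠ ⟨S₀.tgt e, S₀.s₂ e⟩ := fun e he =>
      S₀.r_ne_tgt (ρ P) e ((hsub x P hPx).trans he)
    have hx : x ∈ fib (under x) := hmem x ⟨P, hPx⟩
    have hy : y ∈ fib (under x) := hxy ▸ hmem y ⟨P, hPy⟩
    exact (hF (under x) hnt).disj x hx y hy P hPx hPy
  exh := fun y' hy' P hP => by
    obtain ⟨x, -, hx⟩ := (hF y' hy').exh P hP
    exact ⟨x, hx⟩

namespace Under

variable {under : β'' → Σ v, Place k (Ft₀ v)} (U : Under S₀ ρ tube'' under)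

include U

/-- **The field `cover`.** -/
theorem cover (P : Place K F'') : ∃ x, P ∈ tube'' x :=
  U.exh (S₀.r (ρ P)) (fun e => S₀.r_ne_tgt (ρ P) e) P rfl

/-- **The field `disjoint`.** -/
theorem disjoint (P : Place K F'') (x y : β'') (hx : P ∈ tube'' x) (hy : P ∈ tube'' y) : x = y :=
  U.disj x y P ((U.sub x P hx).symm.trans (U.sub y P hy)) hx hy

/-- **The field `tube_tgt`**: the tube of a point over a target branch of the base is empty. -/
theorem tube_eq_empty {x : β''} {e : ν₀} (h : under x = ⟨S₀.tgt e, S₀.s₂ e⟩) : tube'' x = ∅ := by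
  apply Set.eq_empty_of_forall_notMem
  intro P hP
  exact S₀.r_ne_tgt (ρ P) e ((U.sub x P hP).trans h)

/-- The fibre of a point of the base. -/
theorem fibreOver (y' : Σ v, Place k (Ft₀ v)) (hy' : ∀ e, y' ≠ ⟨S₀.tgt e, S₀.s₂ e⟩) :
    FibreOver S₀ ρ tube'' y' {x | under x = y'} where
  sub := fun x hx P hP => (U.sub x P hP).trans hx
  disj := fun x hx y hy P hPx hPy => U.disj x y P (hx.trans hy.symm) hPx hPy
  exh := fun P hP => by
    obtain ⟨x, hx⟩ := U.exh y' hy' P hP
    exact ⟨x, (U.sub x P hx).symm.trans hP, hx⟩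

/-- The reduction map of the cover lies over the reduction map of the base. -/
theorem r_eq_under (r'' : Place K F'' → β'') (hr : ∀ P x, r'' P = x ↔ P ∈ tube'' x)
    (P : Place K F'') : S₀.r (ρ P) = under (r'' P) :=
  U.sub (r'' P) P ((hr P (r'' P)).mp rfl)

/-- **(T)** the tube of a point over the source branch of a node of the base lies over the tube
of the node. -/
theorem mem_tube_src {x : β''} {e : ν₀} (h : under x = ⟨S₀.src e, S₀.s₁ e⟩) {P : Place K F''}
    (hP : P ∈ tube'' x) : ρ P ∈ {P' | S₀.r P' = ⟨S₀.src e, S₀.s₁ e⟩} :=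
  (U.sub x P hP).trans h

end Under

end Assembly

/-! ### the constructors of `FibreOver` by counting (`ρ = restrict`) -/

section Counting

variable {K F' F'' : Type*} [Field K] [Field F'] [Field F''] [Algebra K F'] [Algebra K F'']
  [Algebra F' F''] [IsScalarTower K F' F''] [Algebra.IsIntegral F' F'']
  [HasPrincipalDivisors K F''] [FundamentalIdentity K F' F'']
  {k : Type*} [Field k] {A : ValuationSubring K} {π : A →+* k} {ι₀ : Type*}
  {Ft₀ : ι₀ → Type*} [∀ v, Field (Ft₀ v)] [∀ v, Algebra k (Ft₀ v)] {ν₀ : Type*}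
  (S₀ : SemistableSetup (F := F') A π ι₀ Ft₀ ν₀) {β'' : Type*}
  (tube'' : β'' → Set (Place K F''))

/-- The fibre of the source branch of a node of the base, from `CoverDict.NodeSheets`. -/
theorem FibreOver.of_nodeSheets (e : ν₀)
    {C' : AnnulusCore A {P | S₀.r P = ⟨S₀.src e, S₀.s₁ e⟩}}
    (X : NodeSheets A {P | S₀.r P = ⟨S₀.src e, S₀.s₁ e⟩} C' tube'')
    (hdeg'' : ∀ P : Place K F'', P.deg = 1) (hdeg' : ∀ P : Place K F', P.deg = 1) :
    FibreOver S₀ (fun P => P.restrict F') tube'' ⟨S₀.src e, S₀.s₁ e⟩ (X.fib : Set β'') where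
  sub := fun x hx P hP => X.sub x hx P hP
  disj := fun x hx y hy P hPx hPy => X.disj x hx y hy P hPx hPy
  exh := fun P hP => by
    obtain ⟨x, hx, hPx⟩ := X.exists_mem hdeg'' hdeg' (P'' := P) hP
    exact ⟨x, hx, hPx⟩

/-- The fibre of a smooth point of the base, from `CoverDict.SmoothSheets`. -/
theorem FibreOver.of_smoothSheets (v : ι₀) (Q' : Place k (Ft₀ v))
    {C' : SmoothChart A (S₀.O v) (S₀.res v) Q' {P | S₀.r P = ⟨v, Q'⟩}}
    (X : SmoothSheets A (S₀.O v) (S₀.res v) Q' {P | S₀.r P = ⟨v, Q'⟩} C' tube'')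
    (hdeg'' : ∀ P : Place K F'', P.deg = 1) (hdeg' : ∀ P : Place K F', P.deg = 1) :
    FibreOver S₀ (fun P => P.restrict F') tube'' ⟨v, Q'⟩ (X.fib : Set β'') where
  sub := fun x hx P hP => X.sub x hx P hP
  disj := fun x hx y hy P hPx hPy => X.disj x hx y hy P hPx hPy
  exh := fun P hP => by
    obtain ⟨x, hx, hPx⟩ := X.exists_mem hdeg'' hdeg' (P'' := P) hP
    exact ⟨x, hx, hPx⟩

/-- **The fibre of the source branch of a node of the base from annulus sheets** (node half of
W4): finitely many pairwise disjoint annulus sheets over the tube of the node with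
`∑ b₀ = [F'' : F']`. -/
theorem FibreOver.of_annSheets [IsAlgClosed (ResidueField A)] [IsAlgClosed K] (e : ν₀)
    (C' : AnnulusCore A {P | S₀.r P = ⟨S₀.src e, S₀.s₁ e⟩}) (fib : Finset β'') (b₀ : β'' → ℕ)
    (X : ∀ x ∈ fib, Nonempty (AnnSheet A (tube'' x) (algebraMap F' F'' C'.u) C'.thick (b₀ x)))
    (hsub : ∀ x ∈ fib, ∀ P ∈ tube'' x, S₀.r (P.restrict F') = ⟨S₀.src e, S₀.s₁ e⟩)
    (hdisj : ∀ x ∈ fib, ∀ y ∈ fib, ∀ P, P ∈ tube'' x → P ∈ tube'' y → x = y)
    (hsum : ∑ x ∈ fib, b₀ x = Module.finrank F' F'')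
    (hdeg'' : ∀ P : Place K F'', P.deg = 1) (hdeg' : ∀ P : Place K F', P.deg = 1) :
    FibreOver S₀ (fun P => P.restrict F') tube'' ⟨S₀.src e, S₀.s₁ e⟩ (fib : Set β'') :=
  FibreOver.of_nodeSheets S₀ tube'' e (nodeSheets tube'' fib b₀ X hsub hdisj hsum) hdeg'' hdeg'

end Counting

/-! ### the node half along an algebra homomorphism (`ρ = restrictAlong a ha`) -/

section Along

variable {K F' F'' : Type*} [Field K] [Field F'] [Field F''] [Algebra K F'] [Algebra K F'']
  [HasPrincipalDivisors K F'']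
  {k : Type*} [Field k] {A : ValuationSubring K} {π : A →+* k} {ι₀ : Type*}
  {Ft₀ : ι₀ → Type*} [∀ v, Field (Ft₀ v)] [∀ v, Algebra k (Ft₀ v)] {ν₀ : Type*}
  (S₀ : SemistableSetup (F := F') A π ι₀ Ft₀ ν₀) {β'' : Type*}
  (tube'' : β'' → Set (Place K F''))

/-- **The fibre of the source branch of a node of the base from annulus sheets**, along
`a : F' →ₐ[K] F''`. -/
theorem FibreOver.of_annSheets_along [IsAlgClosed (ResidueField A)] [IsAlgClosed K]
    (a : F' →ₐ[K] F'') (ha : a.toRingHom.IsIntegral) (hFI : FundamentalIdentityAlong K a ha)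
    (e : ν₀) (C' : AnnulusCore A {P | S₀.r P = ⟨S₀.src e, S₀.s₁ e⟩}) (fib : Finset β'')
    (b₀ : β'' → ℕ)
    (X : ∀ x ∈ fib, Nonempty (AnnSheet A (tube'' x) (a C'.u) C'.thick (b₀ x)))
    (hsub : ∀ x ∈ fib, ∀ P ∈ tube'' x,
      S₀.r (P.restrictAlong a ha) = ⟨S₀.src e, S₀.s₁ e⟩)
    (hdisj : ∀ x ∈ fib, ∀ y ∈ fib, ∀ P, P ∈ tube'' x → P ∈ tube'' y → x = y)
    (hsum : ∑ x ∈ fib, b₀ x = finrankAlong K a)
    (hdeg'' : ∀ P : Place K F'', P.deg = 1) (hdeg' : ∀ P : Place K F', P.deg = 1) :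
    FibreOver S₀ (fun P => P.restrictAlong a ha) tube'' ⟨S₀.src e, S₀.s₁ e⟩
      (fib : Set β'') := by
  letI := algebraAlong a
  haveI := isScalarTower_along a
  haveI := isIntegral_along a ha
  haveI : FundamentalIdentity K F' F'' := hFI
  exact FibreOver.of_annSheets S₀ tube'' e C' fib b₀ X hsub hdisj hsum hdeg'' hdeg'

end Along

/-! ### the fields of `SDD.CaseInput` -/

section CaseInput

variable {K F' F'' : Type*} [Field K] [Field F'] [Field F''] [Algebra K F'] [Algebra K F'']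
  {k : Type*} [Field k] {A : ValuationSubring K} {π : A →+* k} {ι₀ : Type*}
  {Ft₀ : ι₀ → Type*} [∀ v, Field (Ft₀ v)] [∀ v, Algebra k (Ft₀ v)] {ν₀ : Type*}
  {S₀ : SemistableSetup (F := F') A π ι₀ Ft₀ ν₀} {ρ : Place K F'' → Place K F'}
  {Mid SSp KP : Type} {Ft : Comp Mid SSp → Type} [∀ v, Field (Ft v)] [∀ v, Algebra k (Ft v)]
  {TH : ∀ b : Bool, Place k (Ft (Sum.inl (Sum.inl b))) → Set (Place K F'')}
  {TM : ∀ i : Mid, Place k (Ft (mid i)) → Set (Place K F'')}
  {TZ : ∀ e : SSp, Place k (Ft (ze e)) → Set (Place K F'')}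
  {under : (Σ v, Place k (Ft v)) → Σ v, Place k (Ft₀ v)}

/-- **The fields `TH_pZero`, `TZ_zT`, `TZ_zK`, `cover`, `disjoint` of `SDD.CaseInput`** from the
dictionary of the points: the target branches `pZero e`, `zT e`, `zK e s` of the nodes of `S''` lie
over target branches of the nodes of the base. -/
theorem Under.caseInput_fields (U : Under S₀ ρ (tubeOf TH TM TZ) under)
    (pZero : SSp → Place k (Ft cZero)) (zT : ∀ e, Place k (Ft (ze e)))
    (zK : ∀ e, KP → Place k (Ft (ze e)))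
    (hZero : ∀ e, ∃ n, under ⟨cZero, pZero e⟩ = ⟨S₀.tgt n, S₀.s₂ n⟩)
    (hT : ∀ e, ∃ n, under ⟨ze e, zT e⟩ = ⟨S₀.tgt n, S₀.s₂ n⟩)
    (hK : ∀ e s, ∃ n, under ⟨ze e, zK e s⟩ = ⟨S₀.tgt n, S₀.s₂ n⟩) :
    (∀ e, TH true (pZero e) = ∅) ∧ (∀ e, TZ e (zT e) = ∅) ∧ (∀ e s, TZ e (zK e s) = ∅) ∧
      (∀ P, (∃ b Q, P ∈ TH b Q) ∨ (∃ i Q, P ∈ TM i Q) ∨ ∃ e Q, P ∈ TZ e Q) ∧
      ∀ P y y', P ∈ tubeOf TH TM TZ y → P ∈ tubeOf TH TM TZ y' → y = y' := by
  refine ⟨fun e => ?_, fun e => ?_, fun e s => ?_, fun P => ?_, U.disjoint⟩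
  · obtain ⟨n, hn⟩ := hZero e
    exact U.tube_eq_empty (x := ⟨cZero, pZero e⟩) hn
  · obtain ⟨n, hn⟩ := hT e
    exact U.tube_eq_empty (x := ⟨ze e, zT e⟩) hn
  · obtain ⟨n, hn⟩ := hK e s
    exact U.tube_eq_empty (x := ⟨ze e, zK e s⟩) hn
  · exact (cover_tubeOf_iff TH TM TZ P).mp (U.cover P)

end CaseInput

/-! ### definitions by cases on the special points -/

section ByCases

variable {α ι σ : Type*}

open Classical in
/-- The value `Tsp j` at the special point `sp j`, the value `Tsm Q` at the other points (for the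
tube families `TH`, `TM`, `TZ`: the tube of the node at a source branch, `∅` at a target branch,
the tube of the smooth chart elsewhere). -/
noncomputable def tubeCases (sp : ι → α) (Tsp : ι → σ) (Tsm : α → σ) (Q : α) : σ :=
  if h : ∃ j, sp j = Q then Tsp h.choose else Tsm Q

theorem tubeCases_sp {sp : ι → α} (hinj : Function.Injective sp) (Tsp : ι → σ) (Tsm : α → σ)
    (j : ι) : tubeCases sp Tsp Tsm (sp j) = Tsp j := by
  have h : ∃ j', sp j' = sp j := ⟨j, rfl⟩
  rw [tubeCases, dif_pos h, hinj h.choose_spec]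

theorem tubeCases_of_ne {sp : ι → α} (Tsp : ι → σ) (Tsm : α → σ) {Q : α}
    (h : ∀ j, sp j ≠ Q) : tubeCases sp Tsp Tsm Q = Tsm Q := by
  rw [tubeCases, dif_neg]
  rintro ⟨j, hj⟩
  exact h j hj

end ByCases

/-! ### (T) in the shape of `SepNSDD.SepInput` -/

section TubeCompat

variable {K : Type} {F' F'' : Type*} [Field K] [Field F'] [Field F''] [Algebra K F']
  [Algebra K F''] {A : ValuationSubring K} [IsAlgClosed (ResidueField A)]
  {ι₀ : Type} {Ft₀ : ι₀ → Type} [∀ v, Field (Ft₀ v)] [∀ v, Algebra (ResidueField A) (Ft₀ v)]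
  {ν₀ : Type} {S₀ : SemistableSetup (F := F') A (residue A) ι₀ Ft₀ ν₀}
  {ρ : Place K F'' → Place K F'} {β'' : Type*} {tube'' : β'' → Set (Place K F'')}
  {under : β'' → Σ v, Place (ResidueField A) (Ft₀ v)}

/-- **(T)** the tube of a point over the source branch of a node of the base lies over the tube
of the node (`Refine.tube`). -/
theorem Under.map_mem_tube (U : Under S₀ ρ tube'' under) {x : β''} {e : ν₀}
    (h : under x = ⟨S₀.src e, S₀.s₁ e⟩) : ∀ P ∈ tube'' x, ρ P ∈ Fermat.Agent.BR.Refine.tube S₀ e :=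
  fun _ hP => U.mem_tube_src h hP

end TubeCompat

end Fermat.Agent.BR3.SDD.Partition
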