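import Mathlib
import Fermat.Agent.BR3.SDD.Partition

/-!
# Program C (S36), node I7 (W4), node half, layer (N-LIST): the points of `S''` over the nodes of
the base

The base `S₀` (think `S'ref_a`) has over every supersingular point `e` the two nodes
`outer e : 'can' → E_e` and `inner e : E_e → 'et'`.  Over the source branch of `outer e` lie the
point `pInf e` of `cInf` (tube = the split annulus `nT e`, degree `1`) and the Kummer points
`pMid e s` of the middle components (tubes = the Kummer annuli `nk e s`, degrees `d s`); over the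
source branch of `inner e` lies the point `zW e` of the vertical component `ze e` (tube = the wild
annulus `nW e`, degree `[F'' : F']`).

* `outerFib comp pInf pMid e`, `innerFib zW e` : the two lists of points, as `Finset`s of
  `Σ v, Place k (Ft v)`; `mem_outerFib`, `mem_innerFib`;
* `fibreOver_outer`, `fibreOver_inner` : `Partition.FibreOver S₀ (fun P => P.restrict F')
  (tubeOf TH TM TZ) ⟨S₀.src n, S₀.s₁ n⟩ (the list)` from ONE annulus sheet per point of the list
  (`Partition.AnnSheet`, owners N1/N2/N3), the inclusions (sub), the pairwise disjointness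
  `nT e / nk e s`, `nk e s / nk e s'` and `1 + ∑ s, d s = [F'' : F']`, resp. `d = [F'' : F']`;
* `fibreOver_outer_along`, `fibreOver_inner_along` : the same along `a : F' →ₐ[K] F''`
  (`ρ = restrictAlong a ha`, degree `finrankAlong K a`).
-/

set_option autoImplicit false
set_option linter.unusedSectionVars false
set_option linter.style.haveILetI false

namespace Fermat.Agent.BR3.SDD.NodeFibres

open AlgebraicCurve IsLocalRing Fermat.Agent.Red Fermat.Agent.BR.SS Fermat.Agent.BR.S0
  Fermat.Agent.BR.Circle Fermat.Agent.BR3.CoverDict Fermat.Agent.BR3.SDD.Partition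

/-! ### The lists of points -/

section Lists

variable {k : Type*} [Field k] {Mid SSp KP : Type} [Fintype KP] {Ft : Comp Mid SSp → Type}
  [∀ v, Field (Ft v)] [∀ v, Algebra k (Ft v)] (comp : SSp → KP → Mid)
  (pInf : SSp → Place k (Ft cInf)) (pMid : ∀ e s, Place k (Ft (mid (comp e s))))
  (zW : ∀ e, Place k (Ft (ze e)))

/-- the point `pInf e` of `cInf` -/
def ptInf (e : SSp) : Σ v, Place k (Ft v) := ⟨cInf, pInf e⟩

/-- the Kummer point `pMid e s` of the middle component `comp e s` -/
def ptMid (e : SSp) (s : KP) : Σ v, Place k (Ft v) := ⟨mid (comp e s), pMid e s⟩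

/-- the point `zW e` of the vertical component `ze e` -/
def ptW (e : SSp) : Σ v, Place k (Ft v) := ⟨ze e, zW e⟩

theorem ptMid_ne_ptInf (e : SSp) (s : KP) : ptMid comp pMid e s ≠ ptInf pInf e := by
  intro h
  have h1 : (mid (comp e s) : Comp Mid SSp) = cInf := congrArg Sigma.fst h
  simp [mid, cInf] at h1

/-- `hinj` from the field `pMid_injective` of `SDD.CaseInput` -/
theorem ptMid_injective_of
    (h : ∀ e s e' s', (⟨mid (comp e s), pMid e s⟩ : Σ v, Place k (Ft v)) =
      ⟨mid (comp e' s'), pMid e' s'⟩ → e = e' ∧ s = s') (e : SSp) :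
    Function.Injective (ptMid comp pMid e) := fun s s' hs => (h e s e s' hs).2

open Classical in
/-- **The points of `S''` over the source branch of the outer node of `e`.** -/
noncomputable def outerFib (e : SSp) : Finset (Σ v, Place k (Ft v)) :=
  insert (ptInf pInf e) (Finset.univ.image (ptMid comp pMid e))

/-- **The points of `S''` over the source branch of the inner node of `e`.** -/
def innerFib (e : SSp) : Finset (Σ v, Place k (Ft v)) := {ptW zW e}

theorem mem_outerFib {e : SSp} {x : Σ v, Place k (Ft v)} :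
    x ∈ outerFib comp pInf pMid e ↔ x = ptInf pInf e ∨ ∃ s, ptMid comp pMid e s = x := by
  classical
  simp [outerFib]

theorem mem_innerFib {e : SSp} {x : Σ v, Place k (Ft v)} :
    x ∈ innerFib zW e ↔ x = ptW zW e := by
  simp [innerFib]

open Classical in
/-- the degrees of the sheets over the outer node, as a function of the point -/
noncomputable def outerDeg (e : SSp) (d : KP → ℕ) (x : Σ v, Place k (Ft v)) : ℕ :=
  if x = ptInf pInf e then 1
  else if h : ∃ s, ptMid comp pMid e s = x then d h.choose else 0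

theorem outerDeg_ptInf (e : SSp) (d : KP → ℕ) :
    outerDeg comp pInf pMid e d (ptInf pInf e) = 1 := by
  rw [outerDeg, if_pos rfl]

theorem outerDeg_ptMid (e : SSp) (d : KP → ℕ)
    (hinj : Function.Injective (ptMid comp pMid e)) (s : KP) :
    outerDeg comp pInf pMid e d (ptMid comp pMid e s) = d s := by
  have h : ∃ s', ptMid comp pMid e s' = ptMid comp pMid e s := ⟨s, rfl⟩
  rw [outerDeg, if_neg (ptMid_ne_ptInf comp pInf pMid e s), dif_pos h, hinj h.choose_spec]

theorem sum_outerDeg (e : SSp) (d : KP → ℕ) (hinj : Function.Injective (ptMid comp pMid e)) :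
    ∑ x ∈ outerFib comp pInf pMid e, outerDeg comp pInf pMid e d x = 1 + ∑ s, d s := by
  classical
  have hnot : ptInf pInf e ∉ Finset.univ.image (ptMid comp pMid e) := by
    intro h
    obtain ⟨s, -, hs⟩ := Finset.mem_image.mp h
    exact ptMid_ne_ptInf comp pInf pMid e s hs
  rw [outerFib, Finset.sum_insert hnot, outerDeg_ptInf, Finset.sum_image fun s _ s' _ h => hinj h]
  congr 1
  exact Finset.sum_congr rfl fun s _ => outerDeg_ptMid comp pInf pMid e d hinj s

end Lists

/-! ### The fibres over the two nodes, `ρ = restrict` -/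

section Restrict

variable {K F' F'' : Type*} [Field K] [Field F'] [Field F''] [Algebra K F'] [Algebra K F'']
  [Algebra F' F''] [IsScalarTower K F' F''] [Algebra.IsIntegral F' F'']
  [HasPrincipalDivisors K F''] [FundamentalIdentity K F' F'']
  {k : Type*} [Field k] {A : ValuationSubring K} {π : A →+* k} {ι₀ : Type*}
  {Ft₀ : ι₀ → Type*} [∀ v, Field (Ft₀ v)] [∀ v, Algebra k (Ft₀ v)] {ν₀ : Type*}
  (S₀ : SemistableSetup (F := F') A π ι₀ Ft₀ ν₀)
  {Mid SSp KP : Type} [Fintype KP] {Ft : Comp Mid SSp → Type}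
  [∀ v, Field (Ft v)] [∀ v, Algebra k (Ft v)] (comp : SSp → KP → Mid)
  (pInf : SSp → Place k (Ft cInf)) (pMid : ∀ e s, Place k (Ft (mid (comp e s))))
  (zW : ∀ e, Place k (Ft (ze e)))
  (TH : ∀ b : Bool, Place k (Ft (Sum.inl (Sum.inl b))) → Set (Place K F''))
  (TM : ∀ i : Mid, Place k (Ft (mid i)) → Set (Place K F''))
  (TZ : ∀ e : SSp, Place k (Ft (ze e)) → Set (Place K F''))

/-- **The points of `S''` over the source branch of the outer node** `n` of the base over the
supersingular point `e`: the point `pInf e` of `cInf` (split annulus, degree `1`) and the Kummer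
points `pMid e s` (Kummer annuli, degrees `d s`). -/
theorem fibreOver_outer [IsAlgClosed (ResidueField A)] [IsAlgClosed K] (e : SSp) (n : ν₀)
    (C' : AnnulusCore A {P | S₀.r P = ⟨S₀.src n, S₀.s₁ n⟩}) (d : KP → ℕ)
    (XT : Nonempty (AnnSheet A (TH false (pInf e)) (algebraMap F' F'' C'.u) C'.thick 1))
    (XK : ∀ s, Nonempty (AnnSheet A (TM (comp e s) (pMid e s)) (algebraMap F' F'' C'.u)
      C'.thick (d s)))
    (hsubT : ∀ P ∈ TH false (pInf e), S₀.r (P.restrict F') = ⟨S₀.src n, S₀.s₁ n⟩)
    (hsubK : ∀ s, ∀ P ∈ TM (comp e s) (pMid e s), S₀.r (P.restrict F') = ⟨S₀.src n, S₀.s₁ n⟩)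
    (hTK : ∀ s P, P ∈ TH false (pInf e) → P ∉ TM (comp e s) (pMid e s))
    (hKK : ∀ s s' P, P ∈ TM (comp e s) (pMid e s) → P ∈ TM (comp e s') (pMid e s') → s = s')
    (hinj : Function.Injective (ptMid comp pMid e))
    (hsum : 1 + ∑ s, d s = Module.finrank F' F'')
    (hdeg'' : ∀ P : Place K F'', P.deg = 1) (hdeg' : ∀ P : Place K F', P.deg = 1) :
    FibreOver S₀ (fun P => P.restrict F') (tubeOf TH TM TZ) ⟨S₀.src n, S₀.s₁ n⟩
      (outerFib comp pInf pMid e : Set (Σ v, Place k (Ft v))) := by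
  refine FibreOver.of_annSheets S₀ (tubeOf TH TM TZ) n C' (outerFib comp pInf pMid e)
    (outerDeg comp pInf pMid e d) ?_ ?_ ?_ ?_ hdeg'' hdeg'
  · intro x hx
    rcases (mem_outerFib comp pInf pMid).mp hx with rfl | ⟨s, rfl⟩
    · rw [outerDeg_ptInf]
      exact XT
    · rw [outerDeg_ptMid comp pInf pMid e d hinj s]
      exact XK s
  · intro x hx P hP
    rcases (mem_outerFib comp pInf pMid).mp hx with rfl | ⟨s, rfl⟩
    · exact hsubT P hP
    · exact hsubK s P hP
  · intro x hx y hy P hPx hPy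
    rcases (mem_outerFib comp pInf pMid).mp hx with rfl | ⟨s, rfl⟩ <;>
      rcases (mem_outerFib comp pInf pMid).mp hy with rfl | ⟨s', rfl⟩
    · rfl
    · exact absurd hPy (hTK s' P hPx)
    · exact absurd hPx (hTK s P hPy)
    · rw [hKK s s' P hPx hPy]
  · rw [sum_outerDeg comp pInf pMid e d hinj, hsum]

/-- **The point of `S''` over the source branch of the inner node** `n` of the base over the
supersingular point `e`: the point `zW e` of `ze e` (wild annulus, degree `[F'' : F']`). -/
theorem fibreOver_inner [IsAlgClosed (ResidueField A)] [IsAlgClosed K] (e : SSp) (n : ν₀)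
    (C' : AnnulusCore A {P | S₀.r P = ⟨S₀.src n, S₀.s₁ n⟩}) (d : ℕ)
    (XW : Nonempty (AnnSheet A (TZ e (zW e)) (algebraMap F' F'' C'.u) C'.thick d))
    (hsubW : ∀ P ∈ TZ e (zW e), S₀.r (P.restrict F') = ⟨S₀.src n, S₀.s₁ n⟩)
    (hsum : d = Module.finrank F' F'')
    (hdeg'' : ∀ P : Place K F'', P.deg = 1) (hdeg' : ∀ P : Place K F', P.deg = 1) :
    FibreOver S₀ (fun P => P.restrict F') (tubeOf TH TM TZ) ⟨S₀.src n, S₀.s₁ n⟩
      (innerFib zW e : Set (Σ v, Place k (Ft v))) := by
  refine FibreOver.of_annSheets S₀ (tubeOf TH TM TZ) n C' (innerFib zW e) (fun _ => d)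
    ?_ ?_ ?_ ?_ hdeg'' hdeg'
  · intro x hx
    rw [(mem_innerFib zW).mp hx]
    exact XW
  · intro x hx P hP
    rw [(mem_innerFib zW).mp hx] at hP
    exact hsubW P hP
  · intro x hx y hy P _ _
    rw [(mem_innerFib zW).mp hx, (mem_innerFib zW).mp hy]
  · rw [innerFib, Finset.sum_singleton, hsum]

end Restrict

/-! ### The fibres over the two nodes along an algebra homomorphism -/

section Along

variable {K F' F'' : Type*} [Field K] [Field F'] [Field F''] [Algebra K F'] [Algebra K F'']
  [HasPrincipalDivisors K F'']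
  {k : Type*} [Field k] {A : ValuationSubring K} {π : A →+* k} {ι₀ : Type*}
  {Ft₀ : ι₀ → Type*} [∀ v, Field (Ft₀ v)] [∀ v, Algebra k (Ft₀ v)] {ν₀ : Type*}
  (S₀ : SemistableSetup (F := F') A π ι₀ Ft₀ ν₀)
  {Mid SSp KP : Type} [Fintype KP] {Ft : Comp Mid SSp → Type}
  [∀ v, Field (Ft v)] [∀ v, Algebra k (Ft v)] (comp : SSp → KP → Mid)
  (pInf : SSp → Place k (Ft cInf)) (pMid : ∀ e s, Place k (Ft (mid (comp e s))))
  (zW : ∀ e, Place k (Ft (ze e)))
  (TH : ∀ b : Bool, Place k (Ft (Sum.inl (Sum.inl b))) → Set (Place K F''))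
  (TM : ∀ i : Mid, Place k (Ft (mid i)) → Set (Place K F''))
  (TZ : ∀ e : SSp, Place k (Ft (ze e)) → Set (Place K F''))

/-- **The points of `S''` over the source branch of the outer node of the base**, along
`a : F' →ₐ[K] F''`. -/
theorem fibreOver_outer_along [IsAlgClosed (ResidueField A)] [IsAlgClosed K]
    (a : F' →ₐ[K] F'') (ha : a.toRingHom.IsIntegral) (hFI : FundamentalIdentityAlong K a ha)
    (e : SSp) (n : ν₀) (C' : AnnulusCore A {P | S₀.r P = ⟨S₀.src n, S₀.s₁ n⟩}) (d : KP → ℕ)
    (XT : Nonempty (AnnSheet A (TH false (pInf e)) (a C'.u) C'.thick 1))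
    (XK : ∀ s, Nonempty (AnnSheet A (TM (comp e s) (pMid e s)) (a C'.u) C'.thick (d s)))
    (hsubT : ∀ P ∈ TH false (pInf e), S₀.r (P.restrictAlong a ha) = ⟨S₀.src n, S₀.s₁ n⟩)
    (hsubK : ∀ s, ∀ P ∈ TM (comp e s) (pMid e s),
      S₀.r (P.restrictAlong a ha) = ⟨S₀.src n, S₀.s₁ n⟩)
    (hTK : ∀ s P, P ∈ TH false (pInf e) → P ∉ TM (comp e s) (pMid e s))
    (hKK : ∀ s s' P, P ∈ TM (comp e s) (pMid e s) → P ∈ TM (comp e s') (pMid e s') → s = s')
    (hinj : Function.Injective (ptMid comp pMid e))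
    (hsum : 1 + ∑ s, d s = finrankAlong K a)
    (hdeg'' : ∀ P : Place K F'', P.deg = 1) (hdeg' : ∀ P : Place K F', P.deg = 1) :
    FibreOver S₀ (fun P => P.restrictAlong a ha) (tubeOf TH TM TZ) ⟨S₀.src n, S₀.s₁ n⟩
      (outerFib comp pInf pMid e : Set (Σ v, Place k (Ft v))) := by
  letI := algebraAlong a
  haveI := isScalarTower_along a
  haveI := isIntegral_along a ha
  haveI : FundamentalIdentity K F' F'' := hFI
  exact fibreOver_outer S₀ comp pInf pMid TH TM TZ e n C' d XT XK hsubT hsubK hTK hKK hinj hsum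
    hdeg'' hdeg'

/-- **The point of `S''` over the source branch of the inner node of the base**, along
`a : F' →ₐ[K] F''`. -/
theorem fibreOver_inner_along [IsAlgClosed (ResidueField A)] [IsAlgClosed K]
    (a : F' →ₐ[K] F'') (ha : a.toRingHom.IsIntegral) (hFI : FundamentalIdentityAlong K a ha)
    (e : SSp) (n : ν₀) (C' : AnnulusCore A {P | S₀.r P = ⟨S₀.src n, S₀.s₁ n⟩}) (d : ℕ)
    (XW : Nonempty (AnnSheet A (TZ e (zW e)) (a C'.u) C'.thick d))
    (hsubW : ∀ P ∈ TZ e (zW e), S₀.r (P.restrictAlong a ha) = ⟨S₀.src n, S₀.s₁ n⟩)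
    (hsum : d = finrankAlong K a)
    (hdeg'' : ∀ P : Place K F'', P.deg = 1) (hdeg' : ∀ P : Place K F', P.deg = 1) :
    FibreOver S₀ (fun P => P.restrictAlong a ha) (tubeOf TH TM TZ) ⟨S₀.src n, S₀.s₁ n⟩
      (innerFib zW e : Set (Σ v, Place k (Ft v))) := by
  letI := algebraAlong a
  haveI := isScalarTower_along a
  haveI := isIntegral_along a ha
  haveI : FundamentalIdentity K F' F'' := hFI
  exact fibreOver_inner S₀ zW TH TM TZ e n C' d XW hsubW hsum hdeg'' hdeg'

end Along

end Fermat.Agent.BR3.SDD.NodeFibres
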