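import Mathlib
import Fermat.Agent.BR3.SDD.Partition
import Fermat.Agent.BR3.SRef.OneLevel
import Fermat.Agent.BR3.CoverK.Fibre

/-!
# Program C (S36), node I7 (W4), part 2: the assembly over the one-level refinement `S'ref`

The base of `BR3/SDD/Partition.lean` is now `sref I a₀ hadm` (the one-level refinement of a
semistable setup `S₀`; in Program C `S₀ = S'`, the setup of `X₀(qM)`, refined at the critical
gauges), and the places of the base are sorted into the four kinds of regions of `S'ref`: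

* the residue discs of the smooth points of `S₀`: `S₀.r P' = ⟨v, Q'⟩`, `Q'` no branch;
* the circles `circle I a₀ e` (the smooth points `X = c ≠ 0` of the exceptional components);
* the outer tubes `tube (sref ..) (outer e)` and the inner tubes `tube (sref ..) (inner e)`.

## Content

* the fibres of the reduction map of `S'ref` in these terms: `sref_r_eq_old_of_not_src`,
  `setOf_sref_r_eq_old`, `sref_r_eq_src_outer_iff`, `sref_r_eq_src_inner_iff`,
  `sref_r_eq_exc_placeAt_iff`, `setOf_sref_r_eq_exc_placeAt`; `place_cases`;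
* `cover_sref` : the field `cover` from the exhaustion over the four kinds of regions;
* `Under.of_cover`, `Under.of_sref` : the dictionary `Under (sref ..) ρ tube'' under`;
  `Under.map_mem_tube_outer`, `Under.map_mem_tube_inner` (T), `Under.tube_eq_empty_of_exc_infty`,
  `Under.tube_eq_empty_of_old_tgt` (`tube_tgt`), `Under.caseInput_fields_sref`;
* `underOf uH uM uZ` : the map `under` by cases on the component of `S''` (`rfl` lemmas);
  `Under.of_kinds` : (sub), (disj) kind by kind;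
* `FibreOver.of_smoothFibre` : adapter from `CoverK.Fibre.SmoothFibre`; `exh_of_smoothFibre`.
-/

set_option autoImplicit false
set_option linter.unusedSectionVars false
set_option linter.style.haveILetI false

namespace Fermat.Agent.BR3.SDD.Partition

open AlgebraicCurve IsLocalRing Fermat.Agent.Red Fermat.Agent.BR.SS Fermat.Agent.BR.S0
  Fermat.Agent.BR.P1 Fermat.Agent.BR.AnnulusRed Fermat.Agent.BR.Circle Fermat.Agent.BR.Refine
  Fermat.Agent.BR3.CircleN Fermat.Agent.BR3.SRef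

/-! ### the fibres of the reduction map of `S'ref` -/

section SRef

variable {K : Type} {F : Type*} [Field K] [Field F] [Algebra K F]
  {A : ValuationSubring K} [IsAlgClosed (ResidueField A)]
  {ι₀ : Type} {Ft₀ : ι₀ → Type} [∀ v, Field (Ft₀ v)] [∀ v, Algebra (ResidueField A) (Ft₀ v)]
  {ν₀ : Type}
  {S₀ : SemistableSetup (F := F) A (residue A) ι₀ Ft₀ ν₀}
  (I : CircleInputsN S₀) (a₀ : ν₀ → K) (hadm : ∀ e, I.adm e (a₀ e))

local notation "k" => ResidueField A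

/-- A place in the residue disc of a point of `S₀` which is not a source branch reduces to the
same point of the old component in `S'ref`. -/
theorem sref_r_eq_old_of_not_src {P : Place K F} {v : ι₀} {Q : Place k (Ft₀ v)}
    (hr : S₀.r P = ⟨v, Q⟩)
    (hQ : ∀ e, (⟨v, Q⟩ : Σ v, Place k (Ft₀ v)) ≠ ⟨S₀.src e, S₀.s₁ e⟩) :
    (sref I a₀ hadm).r P = (⟨old I a₀ hadm v, Q⟩ : (oneLevel I a₀ hadm).PtR) :=
  (sref_r_eq_old_iff I a₀ hadm).mpr ⟨hr, Or.inr fun e he => hQ e (hr.symm.trans he)⟩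

/-- The tube in `S'ref` of a point of an old component which is not a source branch is its tube
in `S₀`. -/
theorem setOf_sref_r_eq_old {v : ι₀} {Q : Place k (Ft₀ v)}
    (hQ : ∀ e, (⟨v, Q⟩ : Σ v, Place k (Ft₀ v)) ≠ ⟨S₀.src e, S₀.s₁ e⟩) :
    {P | (sref I a₀ hadm).r P = (⟨old I a₀ hadm v, Q⟩ : (oneLevel I a₀ hadm).PtR)} =
      {P | S₀.r P = ⟨v, Q⟩} := by
  ext P
  exact ⟨fun h => ((sref_r_eq_old_iff I a₀ hadm).mp h).1,
    fun h => sref_r_eq_old_of_not_src I a₀ hadm h hQ⟩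

/-- The places which reduce to the source branch of the outer node: the outer tube. -/
theorem sref_r_eq_src_outer_iff {P : Place K F} {e : ν₀} :
    (sref I a₀ hadm).r P =
        (⟨old I a₀ hadm (S₀.src e), S₀.s₁ e⟩ : (oneLevel I a₀ hadm).PtR) ↔
      P ∈ tube (sref I a₀ hadm) (outer I a₀ hadm e) :=
  Iff.rfl

/-- The places which reduce to the source branch of the inner node: the inner tube. -/
theorem sref_r_eq_src_inner_iff {P : Place K F} {e : ν₀} :
    (sref I a₀ hadm).r P = (⟨exc I a₀ hadm e, placeAt k 0⟩ : (oneLevel I a₀ hadm).PtR) ↔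
      P ∈ tube (sref I a₀ hadm) (inner I a₀ hadm e) :=
  Iff.rfl

/-- The places which reduce to the point `X = c ≠ 0` of the exceptional component: the places of
the circle with angular component `c`. -/
theorem sref_r_eq_exc_placeAt_iff {P : Place K F} {e : ν₀} {c : k} (hc : c ≠ 0) :
    (sref I a₀ hadm).r P = (⟨exc I a₀ hadm e, placeAt k c⟩ : (oneLevel I a₀ hadm).PtR) ↔
      P ∈ circle I a₀ e ∧ ubar A (I.ch e).u (a₀ e) P = c := by
  rw [sref_r_eq_exc_iff]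
  constructor
  · rintro (⟨h1, h2⟩ | ⟨-, h2⟩)
    · exact ⟨h1, (placeAt_injective h2).symm⟩
    · exact absurd (placeAt_injective h2) hc
  · rintro ⟨h1, h2⟩
    exact Or.inl ⟨h1, by rw [h2]⟩

/-- The tube in `S'ref` of the point `X = c ≠ 0` of the exceptional component. -/
theorem setOf_sref_r_eq_exc_placeAt {e : ν₀} {c : k} (hc : c ≠ 0) :
    {P | (sref I a₀ hadm).r P = (⟨exc I a₀ hadm e, placeAt k c⟩ : (oneLevel I a₀ hadm).PtR)} =
      {P | P ∈ circle I a₀ e ∧ ubar A (I.ch e).u (a₀ e) P = c} := by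
  ext P
  exact sref_r_eq_exc_placeAt_iff I a₀ hadm hc

/-- **The four kinds of places of the base.** -/
theorem place_cases (P : Place K F) :
    (∃ (v : ι₀) (Q : Place k (Ft₀ v)), S₀.r P = ⟨v, Q⟩ ∧
        (∀ e, (⟨v, Q⟩ : Σ v, Place k (Ft₀ v)) ≠ ⟨S₀.src e, S₀.s₁ e⟩) ∧
        ∀ e, (⟨v, Q⟩ : Σ v, Place k (Ft₀ v)) ≠ ⟨S₀.tgt e, S₀.s₂ e⟩) ∨
      (∃ e, P ∈ tube (sref I a₀ hadm) (outer I a₀ hadm e)) ∨ (∃ e, P ∈ circle I a₀ e) ∨
      ∃ e, P ∈ tube (sref I a₀ hadm) (inner I a₀ hadm e) := by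
  by_cases h : ∃ e, P ∈ tube S₀ e
  · obtain ⟨e, he⟩ := h
    rcases tube_trichotomy I a₀ hadm he with h1 | h1 | h1
    · exact Or.inr (Or.inl ⟨e, h1⟩)
    · exact Or.inr (Or.inr (Or.inl ⟨e, h1⟩))
    · exact Or.inr (Or.inr (Or.inr ⟨e, h1⟩))
  · rw [not_exists] at h
    obtain ⟨⟨v, Q⟩, hx⟩ : ∃ x, S₀.r P = x := ⟨_, rfl⟩
    refine Or.inl ⟨v, Q, hx, fun e he => h e (hx.trans he), fun e he => ?_⟩
    exact S₀.r_ne_tgt P e (hx.trans he)

variable {F'' : Type*} [Field F''] [Algebra K F''] (ρ : Place K F'' → Place K F) {β'' : Type*}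
  (tube'' : β'' → Set (Place K F''))

/-- **The field `cover` over `S'ref`**, from the exhaustion over the four kinds of regions of the
base: the residue discs of the smooth points of `S₀`, the circles, the outer tubes, the inner
tubes. -/
theorem cover_sref
    (hOld : ∀ (v : ι₀) (Q : Place k (Ft₀ v)),
      (∀ e, (⟨v, Q⟩ : Σ v, Place k (Ft₀ v)) ≠ ⟨S₀.src e, S₀.s₁ e⟩) →
      (∀ e, (⟨v, Q⟩ : Σ v, Place k (Ft₀ v)) ≠ ⟨S₀.tgt e, S₀.s₂ e⟩) →
      ∀ P, S₀.r (ρ P) = ⟨v, Q⟩ → ∃ x, P ∈ tube'' x)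
    (hCirc : ∀ e, ∀ P, ρ P ∈ circle I a₀ e → ∃ x, P ∈ tube'' x)
    (hOuter : ∀ e, ∀ P, ρ P ∈ tube (sref I a₀ hadm) (outer I a₀ hadm e) → ∃ x, P ∈ tube'' x)
    (hInner : ∀ e, ∀ P, ρ P ∈ tube (sref I a₀ hadm) (inner I a₀ hadm e) → ∃ x, P ∈ tube'' x)
    (P : Place K F'') : ∃ x, P ∈ tube'' x := by
  rcases place_cases I a₀ hadm (ρ P) with ⟨v, Q, h1, h2, h3⟩ | ⟨e, h⟩ | ⟨e, h⟩ | ⟨e, h⟩
  · exact hOld v Q h2 h3 P h1
  · exact hOuter e P h
  · exact hCirc e P h
  · exact hInner e P h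

end SRef

/-! ### the dictionary from a global cover -/

section OfCover

variable {K F' F'' : Type*} [Field K] [Field F'] [Field F''] [Algebra K F'] [Algebra K F'']
  {k : Type*} [Field k] {A : ValuationSubring K} {π : A →+* k} {ι₀ : Type*}
  {Ft₀ : ι₀ → Type*} [∀ v, Field (Ft₀ v)] [∀ v, Algebra k (Ft₀ v)] {ν₀ : Type*}
  {S₀ : SemistableSetup (F := F') A π ι₀ Ft₀ ν₀} {ρ : Place K F'' → Place K F'} {β'' : Type*}
  {tube'' : β'' → Set (Place K F'')}

/-- The dictionary of the points from (sub), (disj) and a global cover. -/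
theorem Under.of_cover {under : β'' → Σ v, Place k (Ft₀ v)}
    (hsub : ∀ x, ∀ P ∈ tube'' x, S₀.r (ρ P) = under x)
    (hdisj : ∀ x y P, under x = under y → P ∈ tube'' x → P ∈ tube'' y → x = y)
    (hcover : ∀ P, ∃ x, P ∈ tube'' x) : Under S₀ ρ tube'' under where
  sub := hsub
  disj := hdisj
  exh := fun _ _ P _ => hcover P

end OfCover

/-! ### `under` by cases on the component of `S''` -/

section Kinds

variable {K F' F'' : Type*} [Field K] [Field F'] [Field F''] [Algebra K F'] [Algebra K F'']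
  {k : Type*} [Field k] {A : ValuationSubring K} {π : A →+* k} {ι₀ : Type*}
  {Ft₀ : ι₀ → Type*} [∀ v, Field (Ft₀ v)] [∀ v, Algebra k (Ft₀ v)] {ν₀ : Type*}
  {S₀ : SemistableSetup (F := F') A π ι₀ Ft₀ ν₀} {ρ : Place K F'' → Place K F'}
  {Mid SSp KP : Type} {Ft : Comp Mid SSp → Type} [∀ v, Field (Ft v)] [∀ v, Algebra k (Ft v)]
  {β' : Type*}

/-- The point of the base under a point of `S''`, by cases on the component. -/
def underOf (uH : ∀ b : Bool, Place k (Ft (Sum.inl (Sum.inl b))) → β')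
    (uM : ∀ i : Mid, Place k (Ft (mid i)) → β') (uZ : ∀ e : SSp, Place k (Ft (ze e)) → β') :
    (Σ v, Place k (Ft v)) → β'
  | ⟨Sum.inl (Sum.inl b), Q⟩ => uH b Q
  | ⟨Sum.inl (Sum.inr i), Q⟩ => uM i Q
  | ⟨Sum.inr e, Q⟩ => uZ e Q

variable (uH : ∀ b : Bool, Place k (Ft (Sum.inl (Sum.inl b))) → β')
  (uM : ∀ i : Mid, Place k (Ft (mid i)) → β') (uZ : ∀ e : SSp, Place k (Ft (ze e)) → β')

@[simp] theorem underOf_cZero (Q : Place k (Ft cZero)) :
    underOf uH uM uZ ⟨cZero, Q⟩ = uH true Q := rfl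

@[simp] theorem underOf_cInf (Q : Place k (Ft cInf)) :
    underOf uH uM uZ ⟨cInf, Q⟩ = uH false Q := rfl

@[simp] theorem underOf_mid (i : Mid) (Q : Place k (Ft (mid i))) :
    underOf uH uM uZ ⟨mid i, Q⟩ = uM i Q := rfl

@[simp] theorem underOf_ze (e : SSp) (Q : Place k (Ft (ze e))) :
    underOf uH uM uZ ⟨ze e, Q⟩ = uZ e Q := rfl

variable {TH : ∀ b : Bool, Place k (Ft (Sum.inl (Sum.inl b))) → Set (Place K F'')}
  {TM : ∀ i : Mid, Place k (Ft (mid i)) → Set (Place K F'')}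
  {TZ : ∀ e : SSp, Place k (Ft (ze e)) → Set (Place K F'')}

/-- **The dictionary of the points of `S''` kind by kind**: (sub) for the three families of tubes,
(disj) for the six kinds of pairs, and a global cover. -/
theorem Under.of_kinds
    (uH : ∀ b : Bool, Place k (Ft (Sum.inl (Sum.inl b))) → Σ v, Place k (Ft₀ v))
    (uM : ∀ i : Mid, Place k (Ft (mid i)) → Σ v, Place k (Ft₀ v))
    (uZ : ∀ e : SSp, Place k (Ft (ze e)) → Σ v, Place k (Ft₀ v))
    (subH : ∀ b Q, ∀ P ∈ TH b Q, S₀.r (ρ P) = uH b Q)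
    (subM : ∀ i Q, ∀ P ∈ TM i Q, S₀.r (ρ P) = uM i Q)
    (subZ : ∀ e Q, ∀ P ∈ TZ e Q, S₀.r (ρ P) = uZ e Q)
    (disjHH : ∀ b b' Q Q' P, uH b Q = uH b' Q' → P ∈ TH b Q → P ∈ TH b' Q' →
      (⟨Sum.inl (Sum.inl b), Q⟩ : Σ v, Place k (Ft v)) = ⟨Sum.inl (Sum.inl b'), Q'⟩)
    (disjHM : ∀ b i Q Q' P, uH b Q = uM i Q' → P ∈ TH b Q → P ∈ TM i Q' → False)
    (disjHZ : ∀ b e Q Q' P, uH b Q = uZ e Q' → P ∈ TH b Q → P ∈ TZ e Q' → False)
    (disjMM : ∀ i i' Q Q' P, uM i Q = uM i' Q' → P ∈ TM i Q → P ∈ TM i' Q' →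
      (⟨mid i, Q⟩ : Σ v, Place k (Ft v)) = ⟨mid i', Q'⟩)
    (disjMZ : ∀ i e Q Q' P, uM i Q = uZ e Q' → P ∈ TM i Q → P ∈ TZ e Q' → False)
    (disjZZ : ∀ e e' Q Q' P, uZ e Q = uZ e' Q' → P ∈ TZ e Q → P ∈ TZ e' Q' →
      (⟨ze e, Q⟩ : Σ v, Place k (Ft v)) = ⟨ze e', Q'⟩)
    (hcover : ∀ P, (∃ b Q, P ∈ TH b Q) ∨ (∃ i Q, P ∈ TM i Q) ∨ ∃ e Q, P ∈ TZ e Q) :
    Under S₀ ρ (tubeOf TH TM TZ) (underOf uH uM uZ) := by
  refine Under.of_cover ?_ ?_ fun P => (cover_tubeOf_iff TH TM TZ P).mpr (hcover P)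
  · rintro ⟨(b | i) | e, Q⟩ P hP
    · exact subH b Q P hP
    · exact subM i Q P hP
    · exact subZ e Q P hP
  · rintro ⟨(b | i) | e, Q⟩ ⟨(b' | i') | e', Q'⟩ P hu hP hP'
    · exact disjHH b b' Q Q' P hu hP hP'
    · exact (disjHM b i' Q Q' P hu hP hP').elim
    · exact (disjHZ b e' Q Q' P hu hP hP').elim
    · exact (disjHM b' i Q' Q P hu.symm hP' hP).elim
    · exact disjMM i i' Q Q' P hu hP hP'
    · exact (disjMZ i e' Q Q' P hu hP hP').elim
    · exact (disjHZ b' e Q' Q P hu.symm hP' hP).elim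
    · exact (disjMZ i' e Q' Q P hu.symm hP' hP).elim
    · exact disjZZ e e' Q Q' P hu hP hP'

end Kinds

/-! ### the dictionary over `S'ref` -/

section UnderSRef

variable {K : Type} {F : Type*} [Field K] [Field F] [Algebra K F]
  {A : ValuationSubring K} [IsAlgClosed (ResidueField A)]
  {ι₀ : Type} {Ft₀ : ι₀ → Type} [∀ v, Field (Ft₀ v)] [∀ v, Algebra (ResidueField A) (Ft₀ v)]
  {ν₀ : Type}
  {S₀ : SemistableSetup (F := F) A (residue A) ι₀ Ft₀ ν₀}
  {I : CircleInputsN S₀} {a₀ : ν₀ → K} {hadm : ∀ e, I.adm e (a₀ e)}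
  {F'' : Type*} [Field F''] [Algebra K F''] {ρ : Place K F'' → Place K F} {β'' : Type*}
  {tube'' : β'' → Set (Place K F'')} {under : β'' → (oneLevel I a₀ hadm).PtR}

local notation "k" => ResidueField A

/-- **The dictionary over `S'ref`** from (sub), (disj) and the exhaustion over the four kinds of
regions of the base. -/
theorem Under.of_sref
    (hsub : ∀ x, ∀ P ∈ tube'' x, (sref I a₀ hadm).r (ρ P) = under x)
    (hdisj : ∀ x y P, under x = under y → P ∈ tube'' x → P ∈ tube'' y → x = y)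
    (hOld : ∀ (v : ι₀) (Q : Place k (Ft₀ v)),
      (∀ e, (⟨v, Q⟩ : Σ v, Place k (Ft₀ v)) ≠ ⟨S₀.src e, S₀.s₁ e⟩) →
      (∀ e, (⟨v, Q⟩ : Σ v, Place k (Ft₀ v)) ≠ ⟨S₀.tgt e, S₀.s₂ e⟩) →
      ∀ P, S₀.r (ρ P) = ⟨v, Q⟩ → ∃ x, P ∈ tube'' x)
    (hCirc : ∀ e, ∀ P, ρ P ∈ circle I a₀ e → ∃ x, P ∈ tube'' x)
    (hOuter : ∀ e, ∀ P, ρ P ∈ tube (sref I a₀ hadm) (outer I a₀ hadm e) → ∃ x, P ∈ tube'' x)
    (hInner : ∀ e, ∀ P, ρ P ∈ tube (sref I a₀ hadm) (inner I a₀ hadm e) → ∃ x, P ∈ tube'' x) :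
    Under (sref I a₀ hadm) ρ tube'' under :=
  Under.of_cover hsub hdisj (cover_sref I a₀ hadm ρ tube'' hOld hCirc hOuter hInner)

variable (U : Under (sref I a₀ hadm) ρ tube'' under)

include U

/-- (T) over the outer node. -/
theorem Under.map_mem_tube_outer {x : β''} {e : ν₀}
    (h : under x = (⟨old I a₀ hadm (S₀.src e), S₀.s₁ e⟩ : (oneLevel I a₀ hadm).PtR)) :
    ∀ P ∈ tube'' x, ρ P ∈ tube (sref I a₀ hadm) (outer I a₀ hadm e) :=
  fun P hP => (U.sub x P hP).trans h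

/-- (T) over the inner node. -/
theorem Under.map_mem_tube_inner {x : β''} {e : ν₀}
    (h : under x = (⟨exc I a₀ hadm e, placeAt k 0⟩ : (oneLevel I a₀ hadm).PtR)) :
    ∀ P ∈ tube'' x, ρ P ∈ tube (sref I a₀ hadm) (inner I a₀ hadm e) :=
  fun P hP => (U.sub x P hP).trans h

/-- The tube of a point over the point `X = ∞` of an exceptional component is empty. -/
theorem Under.tube_eq_empty_of_exc_infty {x : β''} {e : ν₀}
    (h : under x = (⟨exc I a₀ hadm e, placeInfty k⟩ : (oneLevel I a₀ hadm).PtR)) :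
    tube'' x = ∅ :=
  U.tube_eq_empty (e := outer I a₀ hadm e) (h.trans (sref_tgtPt_outer I a₀ hadm e).symm)

/-- The tube of a point over the target branch `s₂ e` of the old component `tgt e` is empty. -/
theorem Under.tube_eq_empty_of_old_tgt {x : β''} {e : ν₀}
    (h : under x = (⟨old I a₀ hadm (S₀.tgt e), S₀.s₂ e⟩ : (oneLevel I a₀ hadm).PtR)) :
    tube'' x = ∅ :=
  U.tube_eq_empty (e := inner I a₀ hadm e) (h.trans (sref_tgtPt_inner I a₀ hadm e).symm)

end UnderSRef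

section CaseInputSRef

variable {K : Type} {F : Type*} [Field K] [Field F] [Algebra K F]
  {A : ValuationSubring K} [IsAlgClosed (ResidueField A)]
  {ι₀ : Type} {Ft₀ : ι₀ → Type} [∀ v, Field (Ft₀ v)] [∀ v, Algebra (ResidueField A) (Ft₀ v)]
  {ν₀ : Type}
  {S₀ : SemistableSetup (F := F) A (residue A) ι₀ Ft₀ ν₀}
  {I : CircleInputsN S₀} {a₀ : ν₀ → K} {hadm : ∀ e, I.adm e (a₀ e)}
  {F'' : Type*} [Field F''] [Algebra K F''] {ρ : Place K F'' → Place K F}
  {Mid SSp KP : Type} {Ft : Comp Mid SSp → Type} [∀ v, Field (Ft v)]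
  [∀ v, Algebra (ResidueField A) (Ft v)]
  {TH : ∀ b : Bool, Place (ResidueField A) (Ft (Sum.inl (Sum.inl b))) → Set (Place K F'')}
  {TM : ∀ i : Mid, Place (ResidueField A) (Ft (mid i)) → Set (Place K F'')}
  {TZ : ∀ e : SSp, Place (ResidueField A) (Ft (ze e)) → Set (Place K F'')}
  {under : (Σ v, Place (ResidueField A) (Ft v)) → (oneLevel I a₀ hadm).PtR}

local notation "k" => ResidueField A

/-- **The fields `TH_pZero`, `TZ_zT`, `TZ_zK`, `cover`, `disjoint` of `SDD.CaseInput`** over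
`S'ref`: `pZero e` lies over the branch `s₂ (ea e)` of `et`, `zT e` and `zK e s` over the point
`X = ∞` of the exceptional component of `ea e`. -/
theorem Under.caseInput_fields_sref (U : Under (sref I a₀ hadm) ρ (tubeOf TH TM TZ) under)
    (pZero : SSp → Place k (Ft cZero)) (zT : ∀ e, Place k (Ft (ze e)))
    (zK : ∀ e, KP → Place k (Ft (ze e))) (ea : SSp → ν₀)
    (hZero : ∀ e, under ⟨cZero, pZero e⟩ =
      (⟨old I a₀ hadm (S₀.tgt (ea e)), S₀.s₂ (ea e)⟩ : (oneLevel I a₀ hadm).PtR))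
    (hT : ∀ e, under ⟨ze e, zT e⟩ =
      (⟨exc I a₀ hadm (ea e), placeInfty k⟩ : (oneLevel I a₀ hadm).PtR))
    (hK : ∀ e s, under ⟨ze e, zK e s⟩ =
      (⟨exc I a₀ hadm (ea e), placeInfty k⟩ : (oneLevel I a₀ hadm).PtR)) :
    (∀ e, TH true (pZero e) = ∅) ∧ (∀ e, TZ e (zT e) = ∅) ∧ (∀ e s, TZ e (zK e s) = ∅) ∧
      (∀ P, (∃ b Q, P ∈ TH b Q) ∨ (∃ i Q, P ∈ TM i Q) ∨ ∃ e Q, P ∈ TZ e Q) ∧
      ∀ P y y', P ∈ tubeOf TH TM TZ y → P ∈ tubeOf TH TM TZ y' → y = y' :=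
  U.caseInput_fields pZero zT zK
    (fun e => ⟨inner I a₀ hadm (ea e), (hZero e).trans (sref_tgtPt_inner I a₀ hadm (ea e)).symm⟩)
    (fun e => ⟨outer I a₀ hadm (ea e), (hT e).trans (sref_tgtPt_outer I a₀ hadm (ea e)).symm⟩)
    (fun e s =>
      ⟨outer I a₀ hadm (ea e), (hK e s).trans (sref_tgtPt_outer I a₀ hadm (ea e)).symm⟩)

end CaseInputSRef

/-! ### adapters from `CoverK.Fibre.SmoothFibre` -/

section Adapters

open Fermat.Agent.BR3.CoverK.Fibre

variable {K F' F'' : Type*} [Field K] [Field F'] [Field F''] [Algebra K F'] [Algebra K F'']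
  [Algebra F' F''] [IsScalarTower K F' F''] [Algebra.IsIntegral F' F'']
  {k : Type*} [Field k] {A : ValuationSubring K} {π : A →+* k} {ι₀ : Type*}
  {Ft₀ : ι₀ → Type*} [∀ v, Field (Ft₀ v)] [∀ v, Algebra k (Ft₀ v)] {ν₀ : Type*}
  (S₀ : SemistableSetup (F := F') A π ι₀ Ft₀ ν₀) {β'' : Type*}
  {tube'' : β'' → Set (Place K F'')}

/-- The fibre of a point of the base from a `SmoothFibre` over its tube. -/
theorem FibreOver.of_smoothFibre (y' : Σ v, Place k (Ft₀ v))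
    (X : SmoothFibre {P | S₀.r P = y'} tube'') :
    FibreOver S₀ (fun P => P.restrict F') tube'' y' (X.fib : Set β'') where
  sub := fun x hx P hP => X.sub x hx P hP
  disj := fun x hx y hy P hPx hPy => X.disj x hx y hy P hPx hPy
  exh := fun P hP => X.exh P hP

/-- The exhaustion over ANY set `T'` of places of the base from a `SmoothFibre` over it (the
hypotheses `hOld`, `hCirc` of `cover_sref`). -/
theorem exh_of_smoothFibre {T' : Set (Place K F')} (X : SmoothFibre T' tube'')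
    {P : Place K F''} (hP : P.restrict F' ∈ T') : ∃ x, P ∈ tube'' x := by
  obtain ⟨x, -, hx⟩ := X.exh P hP
  exact ⟨x, hx⟩

end Adapters

end Fermat.Agent.BR3.SDD.Partition
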