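import Mathlib
import Fermat.Agent.BR3.SDD.PartitionSRef

/-!
# Program C (S36), node I7 (W4), part 3: the dictionary of the points of `S''` over `S'ref`, kind
by kind

`S₀` a semistable setup (in Program C: `S'`, components `canA`, `etA`, nodes the crossings),
`sref I a₀ hadm` its one-level refinement, `ρ : Place K F'' → Place K F` the map on places
(`restrictAlong alpha2`).  The points of `S''` lie over the points of `S'ref` as follows:

* `⟨cInf, Q⟩ ↦ ⟨old canA, uInf Q⟩`, `⟨mid i, Q⟩ ↦ ⟨old canA, uMid i Q⟩`,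
  `⟨cZero, Q⟩ ↦ ⟨old etA, uZero Q⟩`, `⟨ze e, Q⟩ ↦ ⟨exc (ea e), uZe e Q⟩`
  (`underK`, with `rfl` lemmas).

## Content

* `oldPt_eq`, `exc_injective`, `old_ne_exc`;
* **`Under.of_kinds_sref`** : the dictionary `Under (sref ..) ρ (tubeOf TH TM TZ) (underK ..)` from
  (sub) kind by kind, `canA ≠ etA`, the injectivity of `ea`, `uInf`, `uZero`, a global cover, and
  the THREE real families of disjointness: `cInf / mid i`, `mid i / mid i'`, `ze e / ze e` over one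
  point of the base;
* `Under.of_kinds_sref_regions` : the same with the cover given region by region (`cover_sref`);
* **`caseInput_fields_of_kinds`** : the five fields `TH_pZero`, `TZ_zT`, `TZ_zK`, `cover`,
  `disjoint` of `SDD.CaseInput`;
* (T) along `a` in the shapes of `SepNSDD.SepInput`: `tube_a_nT_of_kinds`, `tube_a_nk_of_kinds`,
  `tube_a_nW_of_kinds`.
-/

set_option autoImplicit false
set_option linter.unusedSectionVars false

namespace Fermat.Agent.BR3.SDD.Partition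

open AlgebraicCurve IsLocalRing Fermat.Agent.Red Fermat.Agent.BR.SS Fermat.Agent.BR.S0
  Fermat.Agent.BR.P1 Fermat.Agent.BR.AnnulusRed Fermat.Agent.BR.Circle Fermat.Agent.BR.Refine
  Fermat.Agent.BR3.CircleN Fermat.Agent.BR3.SRef

section KindsSRef

variable {K : Type} {F : Type*} [Field K] [Field F] [Algebra K F]
  {A : ValuationSubring K} [IsAlgClosed (ResidueField A)]
  {ι₀ : Type} {Ft₀ : ι₀ → Type} [∀ v, Field (Ft₀ v)] [∀ v, Algebra (ResidueField A) (Ft₀ v)]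
  {ν₀ : Type}
  {S₀ : SemistableSetup (F := F) A (residue A) ι₀ Ft₀ ν₀}
  (I : CircleInputsN S₀) (a₀ : ν₀ → K) (hadm : ∀ e, I.adm e (a₀ e))

local notation "k" => ResidueField A

/-- Equal points of `S₀` give equal points of the old components of `S'ref`. -/
theorem oldPt_eq {v v' : ι₀} {Q : Place k (Ft₀ v)} {Q' : Place k (Ft₀ v')}
    (h : (⟨v, Q⟩ : Σ v, Place k (Ft₀ v)) = ⟨v', Q'⟩) :
    (⟨old I a₀ hadm v, Q⟩ : (oneLevel I a₀ hadm).PtR) = ⟨old I a₀ hadm v', Q'⟩ := by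
  obtain ⟨rfl, h2⟩ := Sigma.mk.inj_iff.mp h
  rw [eq_of_heq h2]

theorem exc_injective : Function.Injective (exc I a₀ hadm) :=
  fun _ _ h => congrArg Sigma.fst (Sum.inr.inj h)

theorem old_injective : Function.Injective (old I a₀ hadm) :=
  fun _ _ h => Sum.inl.inj h

theorem old_ne_exc (v : ι₀) (e : ν₀) : old I a₀ hadm v ≠ exc I a₀ hadm e :=
  Sum.inl_ne_inr

variable {F'' : Type*} [Field F''] [Algebra K F''] {ρ : Place K F'' → Place K F}
  {Mid SSp KP : Type} {Ft : Comp Mid SSp → Type} [∀ v, Field (Ft v)]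
  [∀ v, Algebra (ResidueField A) (Ft v)]
  (canA etA : ι₀) (ea : SSp → ν₀)
  (uInf : Place (ResidueField A) (Ft cInf) → Place (ResidueField A) (Ft₀ canA))
  (uZero : Place (ResidueField A) (Ft cZero) → Place (ResidueField A) (Ft₀ etA))
  (uMid : ∀ i : Mid, Place (ResidueField A) (Ft (mid i)) → Place (ResidueField A) (Ft₀ canA))
  (uZe : ∀ e : SSp, Place (ResidueField A) (Ft (ze e)) →
    Place (ResidueField A) (RatFunc (ResidueField A)))

/-- The point of `S'ref` under a point of a horizontal component of `S''`: `cZero` lies over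
`etA`, `cInf` over `canA`. -/
noncomputable def uHor : ∀ b : Bool, Place k (Ft (Sum.inl (Sum.inl b))) → (oneLevel I a₀ hadm).PtR
  | true => fun Q => ⟨old I a₀ hadm etA, uZero Q⟩
  | false => fun Q => ⟨old I a₀ hadm canA, uInf Q⟩

/-- **The point of `S'ref` under a point of `S''`.** -/
noncomputable def underK : (Σ v, Place k (Ft v)) → (oneLevel I a₀ hadm).PtR :=
  underOf (uHor I a₀ hadm canA etA uInf uZero)
    (fun i Q => ⟨old I a₀ hadm canA, uMid i Q⟩) (fun e Q => ⟨exc I a₀ hadm (ea e), uZe e Q⟩)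

@[simp] theorem underK_cInf (Q : Place k (Ft cInf)) :
    underK I a₀ hadm canA etA ea uInf uZero uMid uZe ⟨cInf, Q⟩ =
      ⟨old I a₀ hadm canA, uInf Q⟩ := rfl

@[simp] theorem underK_cZero (Q : Place k (Ft cZero)) :
    underK I a₀ hadm canA etA ea uInf uZero uMid uZe ⟨cZero, Q⟩ =
      ⟨old I a₀ hadm etA, uZero Q⟩ := rfl

@[simp] theorem underK_mid (i : Mid) (Q : Place k (Ft (mid i))) :
    underK I a₀ hadm canA etA ea uInf uZero uMid uZe ⟨mid i, Q⟩ =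
      ⟨old I a₀ hadm canA, uMid i Q⟩ := rfl

@[simp] theorem underK_ze (e : SSp) (Q : Place k (Ft (ze e))) :
    underK I a₀ hadm canA etA ea uInf uZero uMid uZe ⟨ze e, Q⟩ =
      ⟨exc I a₀ hadm (ea e), uZe e Q⟩ := rfl

variable {TH : ∀ b : Bool, Place (ResidueField A) (Ft (Sum.inl (Sum.inl b))) → Set (Place K F'')}
  {TM : ∀ i : Mid, Place (ResidueField A) (Ft (mid i)) → Set (Place K F'')}
  {TZ : ∀ e : SSp, Place (ResidueField A) (Ft (ze e)) → Set (Place K F'')}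

/-- **The dictionary of the points of `S''` over `S'ref`, kind by kind.**  Only three families of
disjointness statements are real: `cInf / mid i`, `mid i / mid i'`, `ze e / ze e` over one point of
the base. -/
theorem Under.of_kinds_sref (hne : canA ≠ etA) (hea : Function.Injective ea)
    (hInfInj : Function.Injective uInf) (hZeroInj : Function.Injective uZero)
    (subInf : ∀ Q, ∀ P ∈ TH false Q, (sref I a₀ hadm).r (ρ P) =
      (⟨old I a₀ hadm canA, uInf Q⟩ : (oneLevel I a₀ hadm).PtR))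
    (subZero : ∀ Q, ∀ P ∈ TH true Q, (sref I a₀ hadm).r (ρ P) =
      (⟨old I a₀ hadm etA, uZero Q⟩ : (oneLevel I a₀ hadm).PtR))
    (subMid : ∀ i Q, ∀ P ∈ TM i Q, (sref I a₀ hadm).r (ρ P) =
      (⟨old I a₀ hadm canA, uMid i Q⟩ : (oneLevel I a₀ hadm).PtR))
    (subZe : ∀ e Q, ∀ P ∈ TZ e Q, (sref I a₀ hadm).r (ρ P) =
      (⟨exc I a₀ hadm (ea e), uZe e Q⟩ : (oneLevel I a₀ hadm).PtR))
    (disjIM : ∀ i Q Q' P, uInf Q = uMid i Q' → P ∈ TH false Q → P ∈ TM i Q' → False)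
    (disjMM : ∀ i i' Q Q' P, uMid i Q = uMid i' Q' → P ∈ TM i Q → P ∈ TM i' Q' →
      (⟨mid i, Q⟩ : Σ v, Place k (Ft v)) = ⟨mid i', Q'⟩)
    (disjZZ : ∀ e Q Q' P, uZe e Q = uZe e Q' → P ∈ TZ e Q → P ∈ TZ e Q' → Q = Q')
    (hcover : ∀ P, (∃ b Q, P ∈ TH b Q) ∨ (∃ i Q, P ∈ TM i Q) ∨ ∃ e Q, P ∈ TZ e Q) :
    Under (sref I a₀ hadm) ρ (tubeOf TH TM TZ)
      (underK I a₀ hadm canA etA ea uInf uZero uMid uZe) := by
  have hsnd : ∀ {w : ι₀ ⊕ (oneLevel I a₀ hadm).X}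
      {Q Q' : Place k (FtR Ft₀ A (oneLevel I a₀ hadm).X w)},
      (⟨w, Q⟩ : (oneLevel I a₀ hadm).PtR) = ⟨w, Q'⟩ → Q = Q' :=
    fun h => eq_of_heq (Sigma.mk.inj_iff.mp h).2
  refine Under.of_kinds _ _ _ ?_ ?_ ?_ ?_ ?_ ?_ ?_ ?_ ?_ hcover
  · rintro (_ | _) Q P hP
    · exact subInf Q P hP
    · exact subZero Q P hP
  · exact subMid
  · exact subZe
  · -- horizontal / horizontal
    rintro (_ | _) (_ | _) Q Q' P hu hP hP'
    · rw [hInfInj (hsnd hu)]
    · exact absurd (old_injective I a₀ hadm (congrArg Sigma.fst hu)) hne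
    · exact absurd (old_injective I a₀ hadm (congrArg Sigma.fst hu)).symm hne
    · rw [hZeroInj (hsnd hu)]
  · -- horizontal / middle
    rintro (_ | _) i Q Q' P hu hP hP'
    · exact disjIM i Q Q' P (hsnd hu) hP hP'
    · exact absurd (old_injective I a₀ hadm (congrArg Sigma.fst hu)).symm hne
  · -- horizontal / vertical
    rintro (_ | _) e Q Q' P hu hP hP'
    · exact absurd (congrArg Sigma.fst hu) (old_ne_exc I a₀ hadm _ _)
    · exact absurd (congrArg Sigma.fst hu) (old_ne_exc I a₀ hadm _ _)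
  · -- middle / middle
    intro i i' Q Q' P hu hP hP'
    exact disjMM i i' Q Q' P (hsnd hu) hP hP'
  · -- middle / vertical
    intro i e Q Q' P hu hP hP'
    exact absurd (congrArg Sigma.fst hu) (old_ne_exc I a₀ hadm _ _)
  · -- vertical / vertical
    intro e e' Q Q' P hu hP hP'
    have he : e = e' := hea (exc_injective I a₀ hadm (congrArg Sigma.fst hu))
    subst he
    rw [disjZZ e Q Q' P (hsnd hu) hP hP']

/-- **The dictionary kind by kind, with the cover by regions of the base**: the exhaustion is given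
over the residue discs of the smooth points of `S₀`, the circles, the outer and the inner tubes
(`cover_sref`). -/
theorem Under.of_kinds_sref_regions (hne : canA ≠ etA) (hea : Function.Injective ea)
    (hInfInj : Function.Injective uInf) (hZeroInj : Function.Injective uZero)
    (subInf : ∀ Q, ∀ P ∈ TH false Q, (sref I a₀ hadm).r (ρ P) =
      (⟨old I a₀ hadm canA, uInf Q⟩ : (oneLevel I a₀ hadm).PtR))
    (subZero : ∀ Q, ∀ P ∈ TH true Q, (sref I a₀ hadm).r (ρ P) =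
      (⟨old I a₀ hadm etA, uZero Q⟩ : (oneLevel I a₀ hadm).PtR))
    (subMid : ∀ i Q, ∀ P ∈ TM i Q, (sref I a₀ hadm).r (ρ P) =
      (⟨old I a₀ hadm canA, uMid i Q⟩ : (oneLevel I a₀ hadm).PtR))
    (subZe : ∀ e Q, ∀ P ∈ TZ e Q, (sref I a₀ hadm).r (ρ P) =
      (⟨exc I a₀ hadm (ea e), uZe e Q⟩ : (oneLevel I a₀ hadm).PtR))
    (disjIM : ∀ i Q Q' P, uInf Q = uMid i Q' → P ∈ TH false Q → P ∈ TM i Q' → False)
    (disjMM : ∀ i i' Q Q' P, uMid i Q = uMid i' Q' → P ∈ TM i Q → P ∈ TM i' Q' →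
      (⟨mid i, Q⟩ : Σ v, Place k (Ft v)) = ⟨mid i', Q'⟩)
    (disjZZ : ∀ e Q Q' P, uZe e Q = uZe e Q' → P ∈ TZ e Q → P ∈ TZ e Q' → Q = Q')
    (hOld : ∀ (v : ι₀) (Q : Place k (Ft₀ v)),
      (∀ e, (⟨v, Q⟩ : Σ v, Place k (Ft₀ v)) ≠ ⟨S₀.src e, S₀.s₁ e⟩) →
      (∀ e, (⟨v, Q⟩ : Σ v, Place k (Ft₀ v)) ≠ ⟨S₀.tgt e, S₀.s₂ e⟩) →
      ∀ P, S₀.r (ρ P) = ⟨v, Q⟩ → ∃ x, P ∈ tubeOf TH TM TZ x)
    (hCirc : ∀ e, ∀ P, ρ P ∈ circle I a₀ e → ∃ x, P ∈ tubeOf TH TM TZ x)
    (hOuter : ∀ e, ∀ P, ρ P ∈ tube (sref I a₀ hadm) (outer I a₀ hadm e) →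
      ∃ x, P ∈ tubeOf TH TM TZ x)
    (hInner : ∀ e, ∀ P, ρ P ∈ tube (sref I a₀ hadm) (inner I a₀ hadm e) →
      ∃ x, P ∈ tubeOf TH TM TZ x) :
    Under (sref I a₀ hadm) ρ (tubeOf TH TM TZ)
      (underK I a₀ hadm canA etA ea uInf uZero uMid uZe) :=
  Under.of_kinds_sref I a₀ hadm canA etA ea uInf uZero uMid uZe hne hea hInfInj hZeroInj subInf
    subZero subMid subZe disjIM disjMM disjZZ fun P =>
      (cover_tubeOf_iff TH TM TZ P).mp
        (cover_sref I a₀ hadm ρ (tubeOf TH TM TZ) hOld hCirc hOuter hInner P)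

variable {canA etA ea uInf uZero uMid uZe}
  (U : Under (sref I a₀ hadm) ρ (tubeOf TH TM TZ)
    (underK I a₀ hadm canA etA ea uInf uZero uMid uZe))

include U

/-- **The fields `TH_pZero`, `TZ_zT`, `TZ_zK`, `cover`, `disjoint` of `SDD.CaseInput`**, kind by
kind: `pZero e` lies over the branch `s₂ (ea e)` of `etA`, `zT e` and `zK e s` over `X = ∞`. -/
theorem caseInput_fields_of_kinds (pZero : SSp → Place k (Ft cZero))
    (zT : ∀ e, Place k (Ft (ze e))) (zK : ∀ e, KP → Place k (Ft (ze e)))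
    (hZero : ∀ e, (⟨etA, uZero (pZero e)⟩ : Σ v, Place k (Ft₀ v)) =
      ⟨S₀.tgt (ea e), S₀.s₂ (ea e)⟩)
    (hT : ∀ e, uZe e (zT e) = placeInfty k) (hK : ∀ e s, uZe e (zK e s) = placeInfty k) :
    (∀ e, TH true (pZero e) = ∅) ∧ (∀ e, TZ e (zT e) = ∅) ∧ (∀ e s, TZ e (zK e s) = ∅) ∧
      (∀ P, (∃ b Q, P ∈ TH b Q) ∨ (∃ i Q, P ∈ TM i Q) ∨ ∃ e Q, P ∈ TZ e Q) ∧
      ∀ P y y', P ∈ tubeOf TH TM TZ y → P ∈ tubeOf TH TM TZ y' → y = y' :=
  U.caseInput_fields_sref pZero zT zK ea (fun e => oldPt_eq I a₀ hadm (hZero e))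
    (fun e => by rw [underK_ze, hT e]) (fun e s => by rw [underK_ze, hK e s])

/-- **(T) along `a` at `nT e`** (`SepNSDD.SepInput.tube_a_nT`). -/
theorem tube_a_nT_of_kinds (pInf : SSp → Place k (Ft cInf))
    (hInf : ∀ e, (⟨canA, uInf (pInf e)⟩ : Σ v, Place k (Ft₀ v)) =
      ⟨S₀.src (ea e), S₀.s₁ (ea e)⟩) (e : SSp) :
    ∀ P ∈ TH false (pInf e), ρ P ∈ tube (sref I a₀ hadm) (outer I a₀ hadm (ea e)) :=
  U.map_mem_tube_outer (x := ⟨cInf, pInf e⟩) (oldPt_eq I a₀ hadm (hInf e))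

/-- **(T) along `a` at `nk e s`** (`SepNSDD.SepInput.tube_a_nk`). -/
theorem tube_a_nk_of_kinds (comp : SSp → KP → Mid)
    (pMid : ∀ e s, Place k (Ft (mid (comp e s))))
    (hMid : ∀ e s, (⟨canA, uMid (comp e s) (pMid e s)⟩ : Σ v, Place k (Ft₀ v)) =
      ⟨S₀.src (ea e), S₀.s₁ (ea e)⟩) (e : SSp) (s : KP) :
    ∀ P ∈ TM (comp e s) (pMid e s), ρ P ∈ tube (sref I a₀ hadm) (outer I a₀ hadm (ea e)) :=
  U.map_mem_tube_outer (x := ⟨mid (comp e s), pMid e s⟩) (oldPt_eq I a₀ hadm (hMid e s))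

/-- **(T) along `a` at `nW e`** (`SepNSDD.SepInput.tube_a_nW`). -/
theorem tube_a_nW_of_kinds (zW : ∀ e, Place k (Ft (ze e)))
    (hW : ∀ e, uZe e (zW e) = placeAt k 0) (e : SSp) :
    ∀ P ∈ TZ e (zW e), ρ P ∈ tube (sref I a₀ hadm) (inner I a₀ hadm (ea e)) :=
  U.map_mem_tube_inner (x := ⟨ze e, zW e⟩) (by rw [underK_ze, hW e])

end KindsSRef

end Fermat.Agent.BR3.SDD.Partition
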