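import Mathlib
import Fermat.Agent.BR3.SDD.Skeleton
import Fermat.Agent.BR3.SplitNodeChart
import Fermat.Agent.BR3.SubAnnPlaces.Ops

/-!
# Program C (S36), node I7 (integrator), part 5: `SDD.CircleData` from setup-independent inputs

The owners of the nodes of `S''` (A7 split sheets `nT e`, `nW e`; A8 Kummer ends `nk e s`) produce
levels on the EXPLICIT tube `I.tube ⟨src x, s₁ x⟩` of the node and the branch data per component in
the setup-independent form `SplitBranch.BranchComp`.  This file transports them to the tube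
`Refine.tube I.setup x` of the setup (`Input.tube_setup`):

* `levelsOfTube I x L` : the levels of `Refine.tube I.setup x` (same `u v ε₀ thick`, same level
  rings: all `rfl`);
* `CircleData.ofComps` : **the circle data of `S''`** from the levels on the explicit tubes, the
  branch data on the two components of every node, the four facts
  `v ∈ 𝔪_src`, `u ∈ 𝔪_tgt`, uniformizers at the two branches, and the separation facts
  `sep_comp`, `sep` (helper12, `SepNSDD.SepInput`).
-/

set_option autoImplicit false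
set_option linter.unusedSectionVars false

noncomputable section

namespace Fermat.Agent.BR3.SDD

open AlgebraicCurve IsLocalRing Fermat.Agent.Red Fermat.Agent.Val Fermat.Agent.BR.SS
  Fermat.Agent.BR.S0 Fermat.Agent.BR.Refine Fermat.Agent.BR.Circle Fermat.Agent.BR3.CircleN
  Fermat.Agent.BR3.SplitBranch Fermat.Agent.BR3.SplitNodeChart Fermat.Agent.BR3.SubAnnPlaces

variable {K : Type} {F : Type*} [Field K] [Field F] [Algebra K F]
  {A : ValuationSubring K} [IsAlgClosed (ResidueField A)] {Mid SSp KP : Type}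
  {Ft : Comp Mid SSp → Type} [∀ v, Field (Ft v)] [∀ v, Algebra (ResidueField A) (Ft v)]
  (I : Input (F := F) A Mid SSp KP Ft)

/-- The levels of the tube of the node `x` of `S''` from levels of the explicit tube. -/
def levelsOfTube (x : Node SSp KP) {ι : Type*}
    (L : AnnulusLevels A (I.tube ⟨src I.comp x, I.s₁ x⟩) ι) :
    AnnulusLevels A (tube I.setup x) ι :=
  levelsCongrTube L (I.tube_setup x)

section

variable (x : Node SSp KP) {ι : Type*} (L : AnnulusLevels A (I.tube ⟨src I.comp x, I.s₁ x⟩) ι)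

@[simp] theorem levelsOfTube_u : (levelsOfTube I x L).u = L.u := rfl

@[simp] theorem levelsOfTube_v : (levelsOfTube I x L).v = L.v := rfl

@[simp] theorem levelsOfTube_ε₀ : (levelsOfTube I x L).ε₀ = L.ε₀ := rfl

@[simp] theorem levelsOfTube_thick : (levelsOfTube I x L).thick = L.thick := rfl

@[simp] theorem levelsOfTube_level_R (i : ι) :
    ((levelsOfTube I x L).level i).R = (L.level i).R := rfl

/-- The branch data on a component are the same for the transported levels. -/
theorem branchComp_levelsOfTube {Ft₁ : Type*} [Field Ft₁] [Algebra (ResidueField A) Ft₁]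
    {O : ValuationSubring F} {res : O →+* Ft₁} {Q : Place (ResidueField A) Ft₁}
    (X : BranchComp (residue A) O res Q L) :
    BranchComp (residue A) O res Q (levelsOfTube I x L) :=
  ⟨X.le, X.branch, X.const_mem, X.const⟩

end

/-- **The circle data of `S''`** from levels on the explicit tubes of the nodes and branch data per
component. -/
def CircleData.ofComps {ιL : Node SSp KP → Type*}
    (L : ∀ x, AnnulusLevels A (I.tube ⟨src I.comp x, I.s₁ x⟩) (ιL x))
    (X₁ : ∀ x, BranchComp (residue A) (I.C (src I.comp x)).O (I.C (src I.comp x)).res (I.s₁ x)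
      (L x))
    (X₂ : ∀ x, BranchComp (residue A) (I.C (tgt x)).O (I.C (tgt x)).res (I.s₂ x) (L x))
    (v_src : ∀ x, (L x).v ∈ (I.C (src I.comp x)).O.nonunits)
    (u_tgt : ∀ x, (L x).u ∈ (I.C (tgt x)).O.nonunits)
    (unif₁ : ∀ x, ∃ i, ∃ t : ((L x).level i).R,
      (I.s₁ x).ord ((I.C (src I.comp x)).res ⟨t, (X₁ x).le i t t.2⟩) = 1)
    (unif₂ : ∀ x, ∃ i, ∃ t : ((L x).level i).R,
      (I.s₂ x).ord ((I.C (tgt x)).res ⟨t, (X₂ x).le i t t.2⟩) = 1)
    (sep_comp : ∀ x w, w ≠ I.setup.src x → w ≠ I.setup.tgt x → SepComp I.setup x w)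
    (sep : ∀ x x', x ≠ x' → Separated I.setup x x') : CircleData I ιL where
  L x := levelsOfTube I x (L x)
  X x := branchDataN_of_comps (S₀ := I.setup) (e := x) (L := levelsOfTube I x (L x))
    (branchComp_levelsOfTube I x (L x) (X₁ x)) (branchComp_levelsOfTube I x (L x) (X₂ x))
    (v_src x) (u_tgt x) (unif₁ x) (unif₂ x) (sep_comp x)
  sep := sep

section

variable {ιL : Node SSp KP → Type*}
  (L : ∀ x, AnnulusLevels A (I.tube ⟨src I.comp x, I.s₁ x⟩) (ιL x))
  (X₁ : ∀ x, BranchComp (residue A) (I.C (src I.comp x)).O (I.C (src I.comp x)).res (I.s₁ x)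
    (L x))
  (X₂ : ∀ x, BranchComp (residue A) (I.C (tgt x)).O (I.C (tgt x)).res (I.s₂ x) (L x))
  (v_src : ∀ x, (L x).v ∈ (I.C (src I.comp x)).O.nonunits)
  (u_tgt : ∀ x, (L x).u ∈ (I.C (tgt x)).O.nonunits)
  (unif₁ : ∀ x, ∃ i, ∃ t : ((L x).level i).R,
    (I.s₁ x).ord ((I.C (src I.comp x)).res ⟨t, (X₁ x).le i t t.2⟩) = 1)
  (unif₂ : ∀ x, ∃ i, ∃ t : ((L x).level i).R,
    (I.s₂ x).ord ((I.C (tgt x)).res ⟨t, (X₂ x).le i t t.2⟩) = 1)
  (sep_comp : ∀ x w, w ≠ I.setup.src x → w ≠ I.setup.tgt x → SepComp I.setup x w)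
  (sep : ∀ x x', x ≠ x' → Separated I.setup x x')

@[simp] theorem CircleData.ofComps_L_u (x : Node SSp KP) :
    ((CircleData.ofComps I L X₁ X₂ v_src u_tgt unif₁ unif₂ sep_comp sep).L x).u = (L x).u := rfl

@[simp] theorem CircleData.ofComps_L_thick (x : Node SSp KP) :
    ((CircleData.ofComps I L X₁ X₂ v_src u_tgt unif₁ unif₂ sep_comp sep).L x).thick =
      (L x).thick := rfl

end

end Fermat.Agent.BR3.SDD
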