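import Mathlib
import Fermat.Agent.BR3.SDD.Tubes
import Fermat.Agent.BR3.SDD.Circle

/-!
# Program C (S36), node I7 (integrator), part 7: the inputs of `S''` kind by kind

`CaseInput A Mid SSp KP Ft` : the named inputs of the stable model `S''` in FLAT form, one field per
kind of component (`cInf`, `cZero`, `mid i`, `ze e`) and per kind of node (`nT e`, `nk e s`, `nW e`):
constant reductions, the six families of special points, the four families of tubes with the
partition of the places, the smooth charts and the node charts.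

* `CaseInput.toInput : SDD.Input A Mid SSp KP Ft` (fields by `rfl`: `s₁ (nT e) = pInf e`, …,
  `tube ⟨cInf, Q⟩ = TH false Q`, …);
* `CaseCircle X ιT ιK ιW` : the levels of the annuli of the three kinds of nodes on their explicit
  tubes with branch data per component;
* `CaseCircle.toCircleData : SDD.CircleData X.toInput _` (`(D.L (nT e)).u = (LT e).u`, … by `rfl`).
-/

set_option autoImplicit false
set_option linter.unusedSectionVars false

noncomputable section

namespace Fermat.Agent.BR3.SDD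

open AlgebraicCurve IsLocalRing Fermat.Agent.Red Fermat.Agent.Val Fermat.Agent.BR.SS
  Fermat.Agent.BR.S0 Fermat.Agent.BR.Refine Fermat.Agent.BR.Circle Fermat.Agent.BR3.CircleN
  Fermat.Agent.BR3.SplitBranch

/-- **The named inputs of `S''`, kind by kind.** -/
structure CaseInput {K : Type} {F : Type*} [Field K] [Field F] [Algebra K F]
    (A : ValuationSubring K) (Mid SSp KP : Type) (Ft : Comp Mid SSp → Type)
    [∀ v, Field (Ft v)] [∀ v, Algebra (ResidueField A) (Ft v)] where
  comp : SSp → KP → Mid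
  comp_surj : ∀ i, ∃ e s, comp e s = i
  nonempty : Nonempty SSp
  /-- the constant reductions of the components -/
  C : ∀ v, ConstRed (F := F) (Ft := Ft v) A (residue A)
  O_injective : Function.Injective fun v => (C v).O
  /-- the supersingular point `e` on `cInf` -/
  pInf : SSp → Place (ResidueField A) (Ft cInf)
  /-- the supersingular point `e` on `cZero` -/
  pZero : SSp → Place (ResidueField A) (Ft cZero)
  /-- the Kummer place `s` over `e` on the middle component `comp e s` -/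
  pMid : ∀ e s, Place (ResidueField A) (Ft (mid (comp e s)))
  /-- the point of `ze e` on `cInf` -/
  zT : ∀ e, Place (ResidueField A) (Ft (ze e))
  /-- the point of `ze e` on `mid (comp e s)` -/
  zK : ∀ e, KP → Place (ResidueField A) (Ft (ze e))
  /-- the point of `ze e` on `cZero` -/
  zW : ∀ e, Place (ResidueField A) (Ft (ze e))
  pInf_injective : Function.Injective pInf
  pZero_injective : Function.Injective pZero
  pMid_injective : ∀ e s e' s', (⟨mid (comp e s), pMid e s⟩ :
    Σ v, Place (ResidueField A) (Ft v)) = ⟨mid (comp e' s'), pMid e' s'⟩ → e = e' ∧ s = s'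
  zK_injective : ∀ e, Function.Injective (zK e)
  zT_ne_zK : ∀ e s, zT e ≠ zK e s
  zW_ne_zT : ∀ e, zW e ≠ zT e
  zW_ne_zK : ∀ e s, zW e ≠ zK e s
  /-- the tubes of the points of `cZero` (`true`) and `cInf` (`false`) -/
  TH : ∀ b : Bool, Place (ResidueField A) (Ft (Sum.inl (Sum.inl b))) → Set (Place K F)
  /-- the tubes of the points of the middle components -/
  TM : ∀ i : Mid, Place (ResidueField A) (Ft (mid i)) → Set (Place K F)
  /-- the tubes of the points of the vertical components -/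
  TZ : ∀ e : SSp, Place (ResidueField A) (Ft (ze e)) → Set (Place K F)
  TH_pZero : ∀ e, TH true (pZero e) = ∅
  TZ_zT : ∀ e, TZ e (zT e) = ∅
  TZ_zK : ∀ e s, TZ e (zK e s) = ∅
  cover : ∀ P, (∃ b Q, P ∈ TH b Q) ∨ (∃ i Q, P ∈ TM i Q) ∨ ∃ e Q, P ∈ TZ e Q
  disjoint : ∀ P y y', P ∈ tubeOf TH TM TZ y → P ∈ tubeOf TH TM TZ y' → y = y'
  /-- the smooth charts of `cInf` -/
  smInf : ∀ Q : Place (ResidueField A) (Ft cInf), (∀ e, Q ≠ pInf e) →
    SmoothChart A (C cInf).O (C cInf).res Q (TH false Q)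
  /-- the smooth charts of `cZero` -/
  smZero : ∀ Q : Place (ResidueField A) (Ft cZero), (∀ e, Q ≠ pZero e) →
    SmoothChart A (C cZero).O (C cZero).res Q (TH true Q)
  /-- the smooth charts of the middle components -/
  smMid : ∀ (i : Mid) (Q : Place (ResidueField A) (Ft (mid i))),
    (∀ e s, (⟨mid i, Q⟩ : Σ v, Place (ResidueField A) (Ft v)) ≠ ⟨mid (comp e s), pMid e s⟩) →
    SmoothChart A (C (mid i)).O (C (mid i)).res Q (TM i Q)
  /-- the smooth charts of the vertical components -/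
  smZe : ∀ (e : SSp) (Q : Place (ResidueField A) (Ft (ze e))), Q ≠ zW e → Q ≠ zT e →
    (∀ s, Q ≠ zK e s) → SmoothChart A (C (ze e)).O (C (ze e)).res Q (TZ e Q)
  /-- the node chart of `nT e` -/
  chT : ∀ e, NodeChart A (C cInf).O (C (ze e)).O (C cInf).res (C (ze e)).res (pInf e) (zT e)
    (TH false (pInf e))
  /-- the node chart of `nk e s` -/
  chK : ∀ e s, NodeChart A (C (mid (comp e s))).O (C (ze e)).O (C (mid (comp e s))).res
    (C (ze e)).res (pMid e s) (zK e s) (TM (comp e s) (pMid e s))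
  /-- the node chart of `nW e` -/
  chW : ∀ e, NodeChart A (C (ze e)).O (C cZero).O (C (ze e)).res (C cZero).res (zW e) (pZero e)
    (TZ e (zW e))

namespace CaseInput

variable {K : Type} {F : Type*} [Field K] [Field F] [Algebra K F]
  {A : ValuationSubring K} {Mid SSp KP : Type} {Ft : Comp Mid SSp → Type}
  [∀ v, Field (Ft v)] [∀ v, Algebra (ResidueField A) (Ft v)]
  (X : CaseInput (F := F) A Mid SSp KP Ft)

/-- **The inputs of `S''`** from the inputs kind by kind. -/
def toInput : Input (F := F) A Mid SSp KP Ft where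
  comp := X.comp
  comp_surj := X.comp_surj
  nonempty := X.nonempty
  C := X.C
  O_injective := X.O_injective
  s₁ := s₁Of X.comp X.pInf X.pMid X.zW
  s₂ := s₂Of X.pZero X.zT X.zK
  branch_injective := branch_injective_of X.comp X.pInf X.pMid X.zW X.pZero X.zT X.zK
    X.pInf_injective X.pZero_injective X.pMid_injective X.zK_injective X.zT_ne_zK X.zW_ne_zT
    X.zW_ne_zK
  tube := tubeOf X.TH X.TM X.TZ
  tube_tgt := tube_tgt_of X.pZero X.zT X.zK (tubeOf X.TH X.TM X.TZ) X.TH_pZero X.TZ_zT X.TZ_zK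
  cover P := (cover_tubeOf_iff X.TH X.TM X.TZ P).mpr (X.cover P)
  disjoint := X.disjoint
  smooth := smoothOf X.comp X.C X.pInf X.pMid X.zW X.pZero X.zT X.zK (tubeOf X.TH X.TM X.TZ)
    X.smInf X.smZero X.smMid X.smZe
  chart := chartOf X.comp X.C X.pInf X.pMid X.zW X.pZero X.zT X.zK (tubeOf X.TH X.TM X.TZ)
    X.chT X.chK X.chW

@[simp] theorem toInput_comp : X.toInput.comp = X.comp := rfl

@[simp] theorem toInput_C (v : Comp Mid SSp) : X.toInput.C v = X.C v := rfl

@[simp] theorem toInput_s₁_nT (e : SSp) : X.toInput.s₁ (nT e) = X.pInf e := rfl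

@[simp] theorem toInput_s₁_nk (e : SSp) (s : KP) : X.toInput.s₁ (nk e s) = X.pMid e s := rfl

@[simp] theorem toInput_s₁_nW (e : SSp) : X.toInput.s₁ (nW e) = X.zW e := rfl

@[simp] theorem toInput_s₂_nT (e : SSp) : X.toInput.s₂ (nT e) = X.zT e := rfl

@[simp] theorem toInput_s₂_nk (e : SSp) (s : KP) : X.toInput.s₂ (nk e s) = X.zK e s := rfl

@[simp] theorem toInput_s₂_nW (e : SSp) : X.toInput.s₂ (nW e) = X.pZero e := rfl

@[simp] theorem toInput_tube_nT (e : SSp) :
    X.toInput.tube ⟨src X.toInput.comp (nT e), X.toInput.s₁ (nT e)⟩ = X.TH false (X.pInf e) := rfl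

@[simp] theorem toInput_tube_nk (e : SSp) (s : KP) :
    X.toInput.tube ⟨src X.toInput.comp (nk e s), X.toInput.s₁ (nk e s)⟩ =
      X.TM (X.comp e s) (X.pMid e s) := rfl

@[simp] theorem toInput_tube_nW (e : SSp) :
    X.toInput.tube ⟨src X.toInput.comp (nW e), X.toInput.s₁ (nW e)⟩ = X.TZ e (X.zW e) := rfl

/-- The tube of the node `nT e` of `S''`. -/
theorem tube_setup_nT (e : SSp) : tube X.toInput.setup (nT e) = X.TH false (X.pInf e) :=
  X.toInput.tube_setup (nT e)

/-- The tube of the node `nk e s` of `S''`. -/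
theorem tube_setup_nk (e : SSp) (s : KP) :
    tube X.toInput.setup (nk e s) = X.TM (X.comp e s) (X.pMid e s) :=
  X.toInput.tube_setup (nk e s)

/-- The tube of the node `nW e` of `S''`. -/
theorem tube_setup_nW (e : SSp) : tube X.toInput.setup (nW e) = X.TZ e (X.zW e) :=
  X.toInput.tube_setup (nW e)

end CaseInput

/-! ### The circle data kind by kind -/

section Circle

variable {K : Type} {F : Type*} [Field K] [Field F] [Algebra K F]
  {A : ValuationSubring K} [IsAlgClosed (ResidueField A)] {Mid SSp KP : Type}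
  {Ft : Comp Mid SSp → Type} [∀ v, Field (Ft v)] [∀ v, Algebra (ResidueField A) (Ft v)]

/-- the index type of the levels of a node, by cases -/
def ιLOf (ιT : SSp → Type) (ιK : SSp → KP → Type) (ιW : SSp → Type) : Node SSp KP → Type
  | (e, Sum.inl true) => ιW e
  | (e, Sum.inl false) => ιT e
  | (e, Sum.inr s) => ιK e s

/-- **The levels of the annuli of the nodes of `S''` kind by kind**, on the explicit tubes, with
the branch data per component. -/
structure CaseCircle (X : CaseInput (F := F) A Mid SSp KP Ft) (ιT : SSp → Type)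
    (ιK : SSp → KP → Type) (ιW : SSp → Type) where
  /-- the levels of the annulus of `nT e` -/
  LT : ∀ e, AnnulusLevels A (X.TH false (X.pInf e)) (ιT e)
  /-- the levels of the annulus of `nk e s` -/
  LK : ∀ e s, AnnulusLevels A (X.TM (X.comp e s) (X.pMid e s)) (ιK e s)
  /-- the levels of the annulus of `nW e` -/
  LW : ∀ e, AnnulusLevels A (X.TZ e (X.zW e)) (ιW e)
  T₁ : ∀ e, BranchComp (residue A) (X.C cInf).O (X.C cInf).res (X.pInf e) (LT e)
  T₂ : ∀ e, BranchComp (residue A) (X.C (ze e)).O (X.C (ze e)).res (X.zT e) (LT e)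
  K₁ : ∀ e s, BranchComp (residue A) (X.C (mid (X.comp e s))).O (X.C (mid (X.comp e s))).res
    (X.pMid e s) (LK e s)
  K₂ : ∀ e s, BranchComp (residue A) (X.C (ze e)).O (X.C (ze e)).res (X.zK e s) (LK e s)
  W₁ : ∀ e, BranchComp (residue A) (X.C (ze e)).O (X.C (ze e)).res (X.zW e) (LW e)
  W₂ : ∀ e, BranchComp (residue A) (X.C cZero).O (X.C cZero).res (X.pZero e) (LW e)
  T_v_src : ∀ e, (LT e).v ∈ (X.C cInf).O.nonunits
  T_u_tgt : ∀ e, (LT e).u ∈ (X.C (ze e)).O.nonunits
  K_v_src : ∀ e s, (LK e s).v ∈ (X.C (mid (X.comp e s))).O.nonunits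
  K_u_tgt : ∀ e s, (LK e s).u ∈ (X.C (ze e)).O.nonunits
  W_v_src : ∀ e, (LW e).v ∈ (X.C (ze e)).O.nonunits
  W_u_tgt : ∀ e, (LW e).u ∈ (X.C cZero).O.nonunits
  T_unif₁ : ∀ e, ∃ i, ∃ t : ((LT e).level i).R,
    (X.pInf e).ord ((X.C cInf).res ⟨t, (T₁ e).le i t t.2⟩) = 1
  T_unif₂ : ∀ e, ∃ i, ∃ t : ((LT e).level i).R,
    (X.zT e).ord ((X.C (ze e)).res ⟨t, (T₂ e).le i t t.2⟩) = 1
  K_unif₁ : ∀ e s, ∃ i, ∃ t : ((LK e s).level i).R,
    (X.pMid e s).ord ((X.C (mid (X.comp e s))).res ⟨t, (K₁ e s).le i t t.2⟩) = 1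
  K_unif₂ : ∀ e s, ∃ i, ∃ t : ((LK e s).level i).R,
    (X.zK e s).ord ((X.C (ze e)).res ⟨t, (K₂ e s).le i t t.2⟩) = 1
  W_unif₁ : ∀ e, ∃ i, ∃ t : ((LW e).level i).R,
    (X.zW e).ord ((X.C (ze e)).res ⟨t, (W₁ e).le i t t.2⟩) = 1
  W_unif₂ : ∀ e, ∃ i, ∃ t : ((LW e).level i).R,
    (X.pZero e).ord ((X.C cZero).res ⟨t, (W₂ e).le i t t.2⟩) = 1
  sep_comp : ∀ x w, w ≠ X.toInput.setup.src x → w ≠ X.toInput.setup.tgt x →
    SepComp X.toInput.setup x w
  sep : ∀ x x', x ≠ x' → Separated X.toInput.setup x x'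

namespace CaseCircle

variable {X : CaseInput (F := F) A Mid SSp KP Ft} {ιT : SSp → Type} {ιK : SSp → KP → Type}
  {ιW : SSp → Type} (Y : CaseCircle X ιT ιK ιW)

/-- the levels of the node `x` on its explicit tube -/
def levels : ∀ x : Node SSp KP,
    AnnulusLevels A (X.toInput.tube ⟨src X.toInput.comp x, X.toInput.s₁ x⟩) (ιLOf ιT ιK ιW x)
  | (e, Sum.inl true) => Y.LW e
  | (e, Sum.inl false) => Y.LT e
  | (e, Sum.inr s) => Y.LK e s

theorem branch₁ : ∀ x : Node SSp KP,
    BranchComp (residue A) (X.toInput.C (src X.toInput.comp x)).O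
      (X.toInput.C (src X.toInput.comp x)).res (X.toInput.s₁ x) (Y.levels x)
  | (e, Sum.inl true) => Y.W₁ e
  | (e, Sum.inl false) => Y.T₁ e
  | (e, Sum.inr s) => Y.K₁ e s

theorem branch₂ : ∀ x : Node SSp KP,
    BranchComp (residue A) (X.toInput.C (tgt x)).O (X.toInput.C (tgt x)).res (X.toInput.s₂ x)
      (Y.levels x)
  | (e, Sum.inl true) => Y.W₂ e
  | (e, Sum.inl false) => Y.T₂ e
  | (e, Sum.inr s) => Y.K₂ e s

theorem v_src : ∀ x : Node SSp KP,
    (Y.levels x).v ∈ (X.toInput.C (src X.toInput.comp x)).O.nonunits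
  | (e, Sum.inl true) => Y.W_v_src e
  | (e, Sum.inl false) => Y.T_v_src e
  | (e, Sum.inr s) => Y.K_v_src e s

theorem u_tgt : ∀ x : Node SSp KP, (Y.levels x).u ∈ (X.toInput.C (tgt x)).O.nonunits
  | (e, Sum.inl true) => Y.W_u_tgt e
  | (e, Sum.inl false) => Y.T_u_tgt e
  | (e, Sum.inr s) => Y.K_u_tgt e s

theorem unif₁ : ∀ x : Node SSp KP, ∃ i, ∃ t : ((Y.levels x).level i).R,
    (X.toInput.s₁ x).ord ((X.toInput.C (src X.toInput.comp x)).res
      ⟨t, (Y.branch₁ x).le i t t.2⟩) = 1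
  | (e, Sum.inl true) => Y.W_unif₁ e
  | (e, Sum.inl false) => Y.T_unif₁ e
  | (e, Sum.inr s) => Y.K_unif₁ e s

theorem unif₂ : ∀ x : Node SSp KP, ∃ i, ∃ t : ((Y.levels x).level i).R,
    (X.toInput.s₂ x).ord ((X.toInput.C (tgt x)).res ⟨t, (Y.branch₂ x).le i t t.2⟩) = 1
  | (e, Sum.inl true) => Y.W_unif₂ e
  | (e, Sum.inl false) => Y.T_unif₂ e
  | (e, Sum.inr s) => Y.K_unif₂ e s

/-- **The circle data of `S''`** from the data kind by kind. -/
def toCircleData : CircleData X.toInput (ιLOf ιT ιK ιW) :=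
  CircleData.ofComps X.toInput Y.levels Y.branch₁ Y.branch₂ Y.v_src Y.u_tgt Y.unif₁ Y.unif₂
    Y.sep_comp Y.sep

@[simp] theorem toCircleData_L_nT_u (e : SSp) : (Y.toCircleData.L (nT e)).u = (Y.LT e).u := rfl

@[simp] theorem toCircleData_L_nk_u (e : SSp) (s : KP) :
    (Y.toCircleData.L (nk e s)).u = (Y.LK e s).u := rfl

@[simp] theorem toCircleData_L_nW_u (e : SSp) : (Y.toCircleData.L (nW e)).u = (Y.LW e).u := rfl

@[simp] theorem toCircleData_L_nT_thick (e : SSp) :
    (Y.toCircleData.L (nT e)).thick = (Y.LT e).thick := rfl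

@[simp] theorem toCircleData_L_nk_thick (e : SSp) (s : KP) :
    (Y.toCircleData.L (nk e s)).thick = (Y.LK e s).thick := rfl

@[simp] theorem toCircleData_L_nW_thick (e : SSp) :
    (Y.toCircleData.L (nW e)).thick = (Y.LW e).thick := rfl

end CaseCircle

end Circle

end Fermat.Agent.BR3.SDD
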