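import Mathlib
import Fermat.Agent.BR3.SDD.PartitionSRef
import Fermat.Agent.BR3.SDD.Cases

/-!
# Program C (S36), node I7 (W4), part 4: the tube families of `S''` from the raw tubes

The raw data of the owners: for every node `x` of `S''` its explicit tube `nodeTube x` (N1 `nT e`,
N2 `nk e s`, N3 `nW e`) and for every point `y` of the normalisation of the special fibre which is
not a branch the tube `smTube y` of its smooth chart (SC1–SC6).

* `tubeFam src tgt s₁ s₂ nodeTube smTube y` : `nodeTube x` at the source branch of the node `x`,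
  `∅` at a target branch, `smTube y` elsewhere (generic graph); `tubeFam_src`, `tubeFam_tgt`,
  `tubeFam_of_not_branch`, `mem_tubeFam_iff`;
* **`Under.of_raw`** : the dictionary `Under S₀ ρ (tubeFam ..) under` from (sub), (disj) for the raw
  tubes and a raw cover; `cover_tubeFam_of_raw`;
* the families of `SDD.CaseInput`: `THf`, `TMf`, `TZf` (sections of `tubeFam` for the graph of
  `S''`), `tubeOf_eq_tubeFam`, and the values in the shapes of the fields of `SDD.CaseInput`:
  `THf_pInf`, `TMf_pMid`, `TZf_zW` (the tubes of the node charts `chT`, `chK`, `chW`),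
  `THf_pZero`, `TZf_zT`, `TZf_zK` (`= ∅`), `THf_false_of_ne`, `THf_true_of_ne`, `TMf_of_ne`,
  `TZf_of_ne` (the tubes of the smooth charts `smInf`, `smZero`, `smMid`, `smZe`);
* **`caseInputOfRaw`** : `SDD.CaseInput` from the special points, the raw tubes with the partition
  property of `tubeS`, the smooth charts on `smTube y` and the node charts on `nodeTube x`;
  `tube_setup_nT_ofRaw`, `tube_setup_nk_ofRaw`, `tube_setup_nW_ofRaw`, `tube_setup_ofRaw` : the
  tube of a node of `S''` is the raw tube.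
-/

set_option autoImplicit false
set_option linter.unusedSectionVars false

namespace Fermat.Agent.BR3.SDD.Partition

open AlgebraicCurve IsLocalRing Fermat.Agent.Red Fermat.Agent.BR.SS

/-! ### the generic family -/

section Generic

variable {k : Type*} [Field k] {ι : Type*} {Ft : ι → Type*} [∀ v, Field (Ft v)]
  [∀ v, Algebra k (Ft v)] {ν : Type*} {σ : Type*}
  (src tgt : ν → ι) (s₁ : ∀ x, Place k (Ft (src x))) (s₂ : ∀ x, Place k (Ft (tgt x)))

/-- `y` is the source branch of a node. -/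
def IsSrcBranch (y : Σ v, Place k (Ft v)) : Prop :=
  ∃ x, (⟨src x, s₁ x⟩ : Σ v, Place k (Ft v)) = y

/-- `y` is the target branch of a node. -/
def IsTgtBranch (y : Σ v, Place k (Ft v)) : Prop :=
  ∃ x, (⟨tgt x, s₂ x⟩ : Σ v, Place k (Ft v)) = y

open Classical in
/-- **The tube family from the raw tubes**: the tube of the node at a source branch, `∅` at a
target branch, the tube of the smooth chart elsewhere. -/
noncomputable def tubeFam (nodeTube : ν → Set σ) (smTube : (Σ v, Place k (Ft v)) → Set σ)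
    (y : Σ v, Place k (Ft v)) : Set σ :=
  if h : IsSrcBranch src s₁ y then nodeTube h.choose
  else if IsTgtBranch tgt s₂ y then ∅ else smTube y

variable {src tgt s₁ s₂} (nodeTube : ν → Set σ) (smTube : (Σ v, Place k (Ft v)) → Set σ)

/-- The tube of the source branch of a node. -/
theorem tubeFam_src
    (hinj : Function.Injective fun x => (⟨src x, s₁ x⟩ : Σ v, Place k (Ft v))) (x : ν) :
    tubeFam src tgt s₁ s₂ nodeTube smTube ⟨src x, s₁ x⟩ = nodeTube x := by
  have h : IsSrcBranch src s₁ (⟨src x, s₁ x⟩ : Σ v, Place k (Ft v)) := ⟨x, rfl⟩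
  rw [tubeFam, dif_pos h, hinj h.choose_spec]

/-- The tube of a target branch is empty. -/
theorem tubeFam_tgt
    (hne : ∀ x x', (⟨src x, s₁ x⟩ : Σ v, Place k (Ft v)) ≠ ⟨tgt x', s₂ x'⟩) (x : ν) :
    tubeFam src tgt s₁ s₂ nodeTube smTube ⟨tgt x, s₂ x⟩ = ∅ := by
  have h : ¬ IsSrcBranch src s₁ (⟨tgt x, s₂ x⟩ : Σ v, Place k (Ft v)) := fun ⟨x', hx'⟩ =>
    hne x' x hx'
  have h' : IsTgtBranch tgt s₂ (⟨tgt x, s₂ x⟩ : Σ v, Place k (Ft v)) := ⟨x, rfl⟩
  rw [tubeFam, dif_neg h, if_pos h']

/-- The tube of a point which is not a branch. -/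
theorem tubeFam_of_not_branch {y : Σ v, Place k (Ft v)}
    (h1 : ∀ x, (⟨src x, s₁ x⟩ : Σ v, Place k (Ft v)) ≠ y)
    (h2 : ∀ x, (⟨tgt x, s₂ x⟩ : Σ v, Place k (Ft v)) ≠ y) :
    tubeFam src tgt s₁ s₂ nodeTube smTube y = smTube y := by
  have h : ¬ IsSrcBranch src s₁ y := fun ⟨x, hx⟩ => h1 x hx
  have h' : ¬ IsTgtBranch tgt s₂ y := fun ⟨x, hx⟩ => h2 x hx
  rw [tubeFam, dif_neg h, if_neg h']

/-- Membership in the tube family. -/
theorem mem_tubeFam_iff
    (hinj : Function.Injective fun x => (⟨src x, s₁ x⟩ : Σ v, Place k (Ft v)))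
    {y : Σ v, Place k (Ft v)} {P : σ} :
    P ∈ tubeFam src tgt s₁ s₂ nodeTube smTube y ↔
      (∃ x, (⟨src x, s₁ x⟩ : Σ v, Place k (Ft v)) = y ∧ P ∈ nodeTube x) ∨
      ((∀ x, (⟨src x, s₁ x⟩ : Σ v, Place k (Ft v)) ≠ y) ∧
        (∀ x, (⟨tgt x, s₂ x⟩ : Σ v, Place k (Ft v)) ≠ y) ∧ P ∈ smTube y) := by
  by_cases h : IsSrcBranch src s₁ y
  · obtain ⟨x, rfl⟩ := h
    rw [tubeFam_src nodeTube smTube hinj]
    constructor
    · intro hP
      exact Or.inl ⟨x, rfl, hP⟩
    · rintro (⟨x', hx', hP⟩ | ⟨h1, -, -⟩)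
      · rwa [hinj hx'] at hP
      · exact absurd rfl (h1 x)
  · have h1 : ∀ x, (⟨src x, s₁ x⟩ : Σ v, Place k (Ft v)) ≠ y := fun x hx => h ⟨x, hx⟩
    by_cases h' : IsTgtBranch tgt s₂ y
    · rw [tubeFam, dif_neg h, if_pos h']
      constructor
      · intro hP
        exact absurd hP (Set.notMem_empty P)
      · rintro (⟨x, hx, -⟩ | ⟨-, h2, -⟩)
        · exact absurd hx (h1 x)
        · obtain ⟨x, hx⟩ := h'
          exact absurd hx (h2 x)
    · have h2 : ∀ x, (⟨tgt x, s₂ x⟩ : Σ v, Place k (Ft v)) ≠ y := fun x hx => h' ⟨x, hx⟩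
      rw [tubeFam_of_not_branch nodeTube smTube h1 h2]
      constructor
      · intro hP
        exact Or.inr ⟨h1, h2, hP⟩
      · rintro (⟨x, hx, -⟩ | ⟨-, -, hP⟩)
        · exact absurd hx (h1 x)
        · exact hP

end Generic

/-! ### the dictionary from the raw tubes -/

section Raw

variable {K F' F'' : Type*} [Field K] [Field F'] [Field F''] [Algebra K F'] [Algebra K F'']
  {k : Type*} [Field k] {A : ValuationSubring K} {π : A →+* k} {ι₀ : Type*}
  {Ft₀ : ι₀ → Type*} [∀ v, Field (Ft₀ v)] [∀ v, Algebra k (Ft₀ v)] {ν₀ : Type*}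
  {S₀ : SemistableSetup (F := F') A π ι₀ Ft₀ ν₀} {ρ : Place K F'' → Place K F'}
  {ι : Type*} {Ft : ι → Type*} [∀ v, Field (Ft v)] [∀ v, Algebra k (Ft v)] {ν : Type*}
  {src tgt : ν → ι} {s₁ : ∀ x, Place k (Ft (src x))} {s₂ : ∀ x, Place k (Ft (tgt x))}
  {nodeTube : ν → Set (Place K F'')} {smTube : (Σ v, Place k (Ft v)) → Set (Place K F'')}
  {under : (Σ v, Place k (Ft v)) → Σ v, Place k (Ft₀ v)}

/-- The cover by the tube family from a raw cover. -/
theorem cover_tubeFam_of_raw
    (hinj : Function.Injective fun x => (⟨src x, s₁ x⟩ : Σ v, Place k (Ft v)))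
    (hcover : ∀ P, (∃ x, P ∈ nodeTube x) ∨
      ∃ y, (∀ x, (⟨src x, s₁ x⟩ : Σ v, Place k (Ft v)) ≠ y) ∧
        (∀ x, (⟨tgt x, s₂ x⟩ : Σ v, Place k (Ft v)) ≠ y) ∧ P ∈ smTube y)
    (P : Place K F'') : ∃ y, P ∈ tubeFam src tgt s₁ s₂ nodeTube smTube y := by
  rcases hcover P with ⟨x, hx⟩ | ⟨y, h1, h2, hy⟩
  · exact ⟨⟨src x, s₁ x⟩, by rwa [tubeFam_src nodeTube smTube hinj]⟩
  · exact ⟨y, by rwa [tubeFam_of_not_branch nodeTube smTube h1 h2]⟩

/-- **The dictionary of the points for the tube family, from the raw tubes**: (sub) and (disj)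
for the tubes of the nodes and the tubes of the smooth charts, and a raw cover. -/
theorem Under.of_raw
    (hinj : Function.Injective fun x => (⟨src x, s₁ x⟩ : Σ v, Place k (Ft v)))
    (subN : ∀ x, ∀ P ∈ nodeTube x, S₀.r (ρ P) = under ⟨src x, s₁ x⟩)
    (subS : ∀ y, (∀ x, (⟨src x, s₁ x⟩ : Σ v, Place k (Ft v)) ≠ y) →
      (∀ x, (⟨tgt x, s₂ x⟩ : Σ v, Place k (Ft v)) ≠ y) → ∀ P ∈ smTube y, S₀.r (ρ P) = under y)
    (disjNN : ∀ x x' P, under ⟨src x, s₁ x⟩ = under ⟨src x', s₁ x'⟩ → P ∈ nodeTube x →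
      P ∈ nodeTube x' → x = x')
    (disjNS : ∀ x y P, (∀ x, (⟨src x, s₁ x⟩ : Σ v, Place k (Ft v)) ≠ y) →
      (∀ x, (⟨tgt x, s₂ x⟩ : Σ v, Place k (Ft v)) ≠ y) → under ⟨src x, s₁ x⟩ = under y →
      P ∈ nodeTube x → P ∈ smTube y → False)
    (disjSS : ∀ y y' P, (∀ x, (⟨src x, s₁ x⟩ : Σ v, Place k (Ft v)) ≠ y) →
      (∀ x, (⟨tgt x, s₂ x⟩ : Σ v, Place k (Ft v)) ≠ y) →
      (∀ x, (⟨src x, s₁ x⟩ : Σ v, Place k (Ft v)) ≠ y') →
      (∀ x, (⟨tgt x, s₂ x⟩ : Σ v, Place k (Ft v)) ≠ y') → under y = under y' →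
      P ∈ smTube y → P ∈ smTube y' → y = y')
    (hcover : ∀ P, (∃ x, P ∈ nodeTube x) ∨
      ∃ y, (∀ x, (⟨src x, s₁ x⟩ : Σ v, Place k (Ft v)) ≠ y) ∧
        (∀ x, (⟨tgt x, s₂ x⟩ : Σ v, Place k (Ft v)) ≠ y) ∧ P ∈ smTube y) :
    Under S₀ ρ (tubeFam src tgt s₁ s₂ nodeTube smTube) under := by
  refine Under.of_cover ?_ ?_ (cover_tubeFam_of_raw hinj hcover)
  · intro y P hP
    rcases (mem_tubeFam_iff nodeTube smTube hinj).mp hP with ⟨x, rfl, hx⟩ | ⟨h1, h2, hy⟩
    · exact subN x P hx
    · exact subS y h1 h2 P hy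
  · intro y y' P hu hP hP'
    rcases (mem_tubeFam_iff nodeTube smTube hinj).mp hP with ⟨x, rfl, hx⟩ | ⟨h1, h2, hy⟩
    · rcases (mem_tubeFam_iff nodeTube smTube hinj).mp hP' with ⟨x', rfl, hx'⟩ | ⟨h1', h2', hy'⟩
      · rw [disjNN x x' P hu hx hx']
      · exact (disjNS x y' P h1' h2' hu hx hy').elim
    · rcases (mem_tubeFam_iff nodeTube smTube hinj).mp hP' with ⟨x', rfl, hx'⟩ | ⟨h1', h2', hy'⟩
      · exact (disjNS x' y P h1 h2 hu.symm hx' hy).elim
      · exact disjSS y y' P h1 h2 h1' h2' hu hy hy'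

end Raw

/-! ### the families `TH`, `TM`, `TZ` of `SDD.CaseInput` -/

section Families

variable {K F'' k : Type*} [Field K] [Field F''] [Algebra K F''] [Field k]
  {Mid SSp KP : Type} {Ft : Comp Mid SSp → Type} [∀ v, Field (Ft v)] [∀ v, Algebra k (Ft v)]
  (comp : SSp → KP → Mid)
  (pInf : SSp → Place k (Ft cInf)) (pMid : ∀ e s, Place k (Ft (mid (comp e s))))
  (zW : ∀ e, Place k (Ft (ze e))) (pZero : SSp → Place k (Ft cZero))
  (zT : ∀ e, Place k (Ft (ze e))) (zK : ∀ e, KP → Place k (Ft (ze e)))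
  (nodeTube : Node SSp KP → Set (Place K F''))
  (smTube : (Σ v, Place k (Ft v)) → Set (Place K F''))

/-- the tube family of `S''` on all points -/
noncomputable def tubeS : (Σ v, Place k (Ft v)) → Set (Place K F'') :=
  tubeFam (src comp) tgt (s₁Of comp pInf pMid zW) (s₂Of pZero zT zK) nodeTube smTube

/-- the tubes of the points of `cZero` (`true`) and `cInf` (`false`) -/
noncomputable def THf (b : Bool) (Q : Place k (Ft (Sum.inl (Sum.inl b)))) : Set (Place K F'') :=
  tubeS comp pInf pMid zW pZero zT zK nodeTube smTube ⟨Sum.inl (Sum.inl b), Q⟩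

/-- the tubes of the points of the middle components -/
noncomputable def TMf (i : Mid) (Q : Place k (Ft (mid i))) : Set (Place K F'') :=
  tubeS comp pInf pMid zW pZero zT zK nodeTube smTube ⟨mid i, Q⟩

/-- the tubes of the points of the vertical components -/
noncomputable def TZf (e : SSp) (Q : Place k (Ft (ze e))) : Set (Place K F'') :=
  tubeS comp pInf pMid zW pZero zT zK nodeTube smTube ⟨ze e, Q⟩

theorem tubeOf_eq_tubeS :
    tubeOf (THf comp pInf pMid zW pZero zT zK nodeTube smTube)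
        (TMf comp pInf pMid zW pZero zT zK nodeTube smTube)
        (TZf comp pInf pMid zW pZero zT zK nodeTube smTube) =
      tubeS comp pInf pMid zW pZero zT zK nodeTube smTube := by
  funext y
  obtain ⟨(b | i) | e, Q⟩ := y <;> rfl

variable
  (hbr : Function.Injective
    (Sum.elim (fun x => (⟨src comp x, s₁Of comp pInf pMid zW x⟩ : Σ v, Place k (Ft v)))
      (fun x => ⟨tgt x, s₂Of pZero zT zK x⟩)))

include hbr

theorem srcBranch_injective :
    Function.Injective fun x : Node SSp KP =>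
      (⟨src comp x, s₁Of comp pInf pMid zW x⟩ : Σ v, Place k (Ft v)) :=
  fun x x' h => Sum.inl_injective (@hbr (Sum.inl x) (Sum.inl x') h)

theorem srcBranch_ne_tgtBranch (x x' : Node SSp KP) :
    (⟨src comp x, s₁Of comp pInf pMid zW x⟩ : Σ v, Place k (Ft v)) ≠
      ⟨tgt x', s₂Of pZero zT zK x'⟩ :=
  fun h => Sum.inl_ne_inr (@hbr (Sum.inl x) (Sum.inr x') h)

/-- the tube of the node chart `chT e` -/
theorem THf_pInf (e : SSp) :
    THf comp pInf pMid zW pZero zT zK nodeTube smTube false (pInf e) = nodeTube (nT e) :=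
  tubeFam_src nodeTube smTube (srcBranch_injective comp pInf pMid zW pZero zT zK hbr) (nT e)

/-- the tube of the node chart `chK e s` -/
theorem TMf_pMid (e : SSp) (s : KP) :
    TMf comp pInf pMid zW pZero zT zK nodeTube smTube (comp e s) (pMid e s) =
      nodeTube (nk e s) :=
  tubeFam_src nodeTube smTube (srcBranch_injective comp pInf pMid zW pZero zT zK hbr) (nk e s)

/-- the tube of the node chart `chW e` -/
theorem TZf_zW (e : SSp) :
    TZf comp pInf pMid zW pZero zT zK nodeTube smTube e (zW e) = nodeTube (nW e) :=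
  tubeFam_src nodeTube smTube (srcBranch_injective comp pInf pMid zW pZero zT zK hbr) (nW e)

/-- the field `TH_pZero` -/
theorem THf_pZero (e : SSp) :
    THf comp pInf pMid zW pZero zT zK nodeTube smTube true (pZero e) = ∅ :=
  tubeFam_tgt nodeTube smTube (srcBranch_ne_tgtBranch comp pInf pMid zW pZero zT zK hbr) (nW e)

/-- the field `TZ_zT` -/
theorem TZf_zT (e : SSp) : TZf comp pInf pMid zW pZero zT zK nodeTube smTube e (zT e) = ∅ :=
  tubeFam_tgt nodeTube smTube (srcBranch_ne_tgtBranch comp pInf pMid zW pZero zT zK hbr) (nT e)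

/-- the field `TZ_zK` -/
theorem TZf_zK (e : SSp) (s : KP) :
    TZf comp pInf pMid zW pZero zT zK nodeTube smTube e (zK e s) = ∅ :=
  tubeFam_tgt nodeTube smTube (srcBranch_ne_tgtBranch comp pInf pMid zW pZero zT zK hbr) (nk e s)

omit hbr

/-- A point of `cInf` which is no `pInf e` is not a branch. -/
theorem not_branch_cInf {Q : Place k (Ft cInf)} (h : ∀ e, Q ≠ pInf e) :
    (∀ x : Node SSp KP, (⟨src comp x, s₁Of comp pInf pMid zW x⟩ : Σ v, Place k (Ft v)) ≠
        ⟨cInf, Q⟩) ∧
      ∀ x : Node SSp KP, (⟨tgt x, s₂Of pZero zT zK x⟩ : Σ v, Place k (Ft v)) ≠ ⟨cInf, Q⟩ := by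
  constructor
  · rintro ⟨e, (_ | _) | s⟩ hx
    · exact h e (eq_of_heq (Sigma.mk.inj_iff.mp hx).2).symm
    · exact absurd (congrArg Sigma.fst hx) (by simp [src, ze, cInf])
    · exact absurd (congrArg Sigma.fst hx) (by simp [src, mid, cInf])
  · rintro ⟨e, (_ | _) | s⟩ hx
    · exact absurd (congrArg Sigma.fst hx) (by simp [tgt, ze, cInf])
    · exact absurd (congrArg Sigma.fst hx) (by simp [tgt, cZero, cInf])
    · exact absurd (congrArg Sigma.fst hx) (by simp [tgt, ze, cInf])

/-- A point of `cZero` which is no `pZero e` is not a branch. -/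
theorem not_branch_cZero {Q : Place k (Ft cZero)} (h : ∀ e, Q ≠ pZero e) :
    (∀ x : Node SSp KP, (⟨src comp x, s₁Of comp pInf pMid zW x⟩ : Σ v, Place k (Ft v)) ≠
        ⟨cZero, Q⟩) ∧
      ∀ x : Node SSp KP, (⟨tgt x, s₂Of pZero zT zK x⟩ : Σ v, Place k (Ft v)) ≠ ⟨cZero, Q⟩ := by
  constructor
  · rintro ⟨e, (_ | _) | s⟩ hx
    · exact absurd (congrArg Sigma.fst hx) (by simp [src, cZero, cInf])
    · exact absurd (congrArg Sigma.fst hx) (by simp [src, ze, cZero])
    · exact absurd (congrArg Sigma.fst hx) (by simp [src, mid, cZero])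
  · rintro ⟨e, (_ | _) | s⟩ hx
    · exact absurd (congrArg Sigma.fst hx) (by simp [tgt, ze, cZero])
    · exact h e (eq_of_heq (Sigma.mk.inj_iff.mp hx).2).symm
    · exact absurd (congrArg Sigma.fst hx) (by simp [tgt, ze, cZero])

/-- A point of a middle component which is no Kummer place is not a branch. -/
theorem not_branch_mid {i : Mid} {Q : Place k (Ft (mid i))}
    (h : ∀ e s, (⟨mid i, Q⟩ : Σ v, Place k (Ft v)) ≠ ⟨mid (comp e s), pMid e s⟩) :
    (∀ x : Node SSp KP, (⟨src comp x, s₁Of comp pInf pMid zW x⟩ : Σ v, Place k (Ft v)) ≠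
        ⟨mid i, Q⟩) ∧
      ∀ x : Node SSp KP, (⟨tgt x, s₂Of pZero zT zK x⟩ : Σ v, Place k (Ft v)) ≠ ⟨mid i, Q⟩ := by
  constructor
  · rintro ⟨e, (_ | _) | s⟩ hx
    · exact absurd (congrArg Sigma.fst hx) (by simp [src, mid, cInf])
    · exact absurd (congrArg Sigma.fst hx) (by simp [src, ze, mid])
    · exact h e s hx.symm
  · rintro ⟨e, (_ | _) | s⟩ hx
    · exact absurd (congrArg Sigma.fst hx) (by simp [tgt, ze, mid])
    · exact absurd (congrArg Sigma.fst hx) (by simp [tgt, cZero, mid])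
    · exact absurd (congrArg Sigma.fst hx) (by simp [tgt, ze, mid])

/-- A point of a vertical component which is none of its special points is not a branch. -/
theorem not_branch_ze {e : SSp} {Q : Place k (Ft (ze e))} (hW : Q ≠ zW e) (hT : Q ≠ zT e)
    (hK : ∀ s, Q ≠ zK e s) :
    (∀ x : Node SSp KP, (⟨src comp x, s₁Of comp pInf pMid zW x⟩ : Σ v, Place k (Ft v)) ≠
        ⟨ze e, Q⟩) ∧
      ∀ x : Node SSp KP, (⟨tgt x, s₂Of pZero zT zK x⟩ : Σ v, Place k (Ft v)) ≠ ⟨ze e, Q⟩ := by
  have hze : ∀ {e' : SSp} {Q' : Place k (Ft (ze e'))},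
      (⟨ze e', Q'⟩ : Σ v, Place k (Ft v)) = ⟨ze e, Q⟩ → ∃ h : e' = e, h ▸ Q' = Q := by
    intro e' Q' h
    have h1 : e' = e := Sum.inr.inj (congrArg Sigma.fst h)
    subst h1
    exact ⟨rfl, eq_of_heq (Sigma.mk.inj_iff.mp h).2⟩
  constructor
  · rintro ⟨e', (_ | _) | s⟩ hx
    · exact absurd (congrArg Sigma.fst hx) (by simp [src, ze, cInf])
    · obtain ⟨rfl, h2⟩ := hze hx
      exact hW h2.symm
    · exact absurd (congrArg Sigma.fst hx) (by simp [src, ze, mid])
  · rintro ⟨e', (_ | _) | s⟩ hx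
    · obtain ⟨rfl, h2⟩ := hze hx
      exact hT h2.symm
    · exact absurd (congrArg Sigma.fst hx) (by simp [tgt, ze, cZero])
    · obtain ⟨rfl, h2⟩ := hze hx
      exact hK s h2.symm

/-- the tube of the smooth chart `smInf Q` -/
theorem THf_false_of_ne {Q : Place k (Ft cInf)} (h : ∀ e, Q ≠ pInf e) :
    THf comp pInf pMid zW pZero zT zK nodeTube smTube false Q = smTube ⟨cInf, Q⟩ :=
  tubeFam_of_not_branch nodeTube smTube (not_branch_cInf comp pInf pMid zW pZero zT zK h).1
    (not_branch_cInf comp pInf pMid zW pZero zT zK h).2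

/-- the tube of the smooth chart `smZero Q` -/
theorem THf_true_of_ne {Q : Place k (Ft cZero)} (h : ∀ e, Q ≠ pZero e) :
    THf comp pInf pMid zW pZero zT zK nodeTube smTube true Q = smTube ⟨cZero, Q⟩ :=
  tubeFam_of_not_branch nodeTube smTube (not_branch_cZero comp pInf pMid zW pZero zT zK h).1
    (not_branch_cZero comp pInf pMid zW pZero zT zK h).2

/-- the tube of the smooth chart `smMid i Q` -/
theorem TMf_of_ne {i : Mid} {Q : Place k (Ft (mid i))}
    (h : ∀ e s, (⟨mid i, Q⟩ : Σ v, Place k (Ft v)) ≠ ⟨mid (comp e s), pMid e s⟩) :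
    TMf comp pInf pMid zW pZero zT zK nodeTube smTube i Q = smTube ⟨mid i, Q⟩ :=
  tubeFam_of_not_branch nodeTube smTube (not_branch_mid comp pInf pMid zW pZero zT zK h).1
    (not_branch_mid comp pInf pMid zW pZero zT zK h).2

/-- the tube of the smooth chart `smZe e Q` -/
theorem TZf_of_ne {e : SSp} {Q : Place k (Ft (ze e))} (hW : Q ≠ zW e) (hT : Q ≠ zT e)
    (hK : ∀ s, Q ≠ zK e s) :
    TZf comp pInf pMid zW pZero zT zK nodeTube smTube e Q = smTube ⟨ze e, Q⟩ :=
  tubeFam_of_not_branch nodeTube smTube (not_branch_ze comp pInf pMid zW pZero zT zK hW hT hK).1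
    (not_branch_ze comp pInf pMid zW pZero zT zK hW hT hK).2

end Families

/-! ### `SDD.CaseInput` from the raw data -/

section OfRaw

open Fermat.Agent.Val Fermat.Agent.BR.S0

variable {K : Type} {F : Type*} [Field K] [Field F] [Algebra K F]
  (A : ValuationSubring K) {Mid SSp KP : Type} {Ft : Comp Mid SSp → Type}
  [∀ v, Field (Ft v)] [∀ v, Algebra (ResidueField A) (Ft v)]
  (comp : SSp → KP → Mid) (comp_surj : ∀ i, ∃ e s, comp e s = i) (nonempty : Nonempty SSp)
  (C : ∀ v, ConstRed (F := F) (Ft := Ft v) A (residue A))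
  (O_injective : Function.Injective fun v => (C v).O)
  (pInf : SSp → Place (ResidueField A) (Ft cInf))
  (pZero : SSp → Place (ResidueField A) (Ft cZero))
  (pMid : ∀ e s, Place (ResidueField A) (Ft (mid (comp e s))))
  (zT : ∀ e, Place (ResidueField A) (Ft (ze e)))
  (zK : ∀ e, KP → Place (ResidueField A) (Ft (ze e)))
  (zW : ∀ e, Place (ResidueField A) (Ft (ze e)))
  (pInf_injective : Function.Injective pInf) (pZero_injective : Function.Injective pZero)
  (pMid_injective : ∀ e s e' s', (⟨mid (comp e s), pMid e s⟩ :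
    Σ v, Place (ResidueField A) (Ft v)) = ⟨mid (comp e' s'), pMid e' s'⟩ → e = e' ∧ s = s')
  (zK_injective : ∀ e, Function.Injective (zK e)) (zT_ne_zK : ∀ e s, zT e ≠ zK e s)
  (zW_ne_zT : ∀ e, zW e ≠ zT e) (zW_ne_zK : ∀ e s, zW e ≠ zK e s)
  (nodeTube : Node SSp KP → Set (Place K F))
  (smTube : (Σ v, Place (ResidueField A) (Ft v)) → Set (Place K F))

/-- **`SDD.CaseInput` from the raw data**: the special points, the raw tubes `nodeTube`, `smTube`
with the partition property of the family `tubeS`, the smooth charts on the raw tubes `smTube`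
and the node charts on the raw tubes `nodeTube`. -/
noncomputable def caseInputOfRaw
    (cover : ∀ P, ∃ y, P ∈ tubeS comp pInf pMid zW pZero zT zK nodeTube smTube y)
    (disjoint : ∀ P y y', P ∈ tubeS comp pInf pMid zW pZero zT zK nodeTube smTube y →
      P ∈ tubeS comp pInf pMid zW pZero zT zK nodeTube smTube y' → y = y')
    (smInf : ∀ Q : Place (ResidueField A) (Ft cInf), (∀ e, Q ≠ pInf e) →
      SmoothChart A (C cInf).O (C cInf).res Q (smTube ⟨cInf, Q⟩))
    (smZero : ∀ Q : Place (ResidueField A) (Ft cZero), (∀ e, Q ≠ pZero e) →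
      SmoothChart A (C cZero).O (C cZero).res Q (smTube ⟨cZero, Q⟩))
    (smMid : ∀ (i : Mid) (Q : Place (ResidueField A) (Ft (mid i))),
      (∀ e s, (⟨mid i, Q⟩ : Σ v, Place (ResidueField A) (Ft v)) ≠
        ⟨mid (comp e s), pMid e s⟩) →
      SmoothChart A (C (mid i)).O (C (mid i)).res Q (smTube ⟨mid i, Q⟩))
    (smZe : ∀ (e : SSp) (Q : Place (ResidueField A) (Ft (ze e))), Q ≠ zW e → Q ≠ zT e →
      (∀ s, Q ≠ zK e s) → SmoothChart A (C (ze e)).O (C (ze e)).res Q (smTube ⟨ze e, Q⟩))
    (chT : ∀ e, NodeChart A (C cInf).O (C (ze e)).O (C cInf).res (C (ze e)).res (pInf e) (zT e)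
      (nodeTube (nT e)))
    (chK : ∀ e s, NodeChart A (C (mid (comp e s))).O (C (ze e)).O (C (mid (comp e s))).res
      (C (ze e)).res (pMid e s) (zK e s) (nodeTube (nk e s)))
    (chW : ∀ e, NodeChart A (C (ze e)).O (C cZero).O (C (ze e)).res (C cZero).res (zW e)
      (pZero e) (nodeTube (nW e))) :
    CaseInput (F := F) A Mid SSp KP Ft :=
  have hbr := branch_injective_of comp pInf pMid zW pZero zT zK pInf_injective pZero_injective
    pMid_injective zK_injective zT_ne_zK zW_ne_zT zW_ne_zK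
  { comp := comp
    comp_surj := comp_surj
    nonempty := nonempty
    C := C
    O_injective := O_injective
    pInf := pInf
    pZero := pZero
    pMid := pMid
    zT := zT
    zK := zK
    zW := zW
    pInf_injective := pInf_injective
    pZero_injective := pZero_injective
    pMid_injective := pMid_injective
    zK_injective := zK_injective
    zT_ne_zK := zT_ne_zK
    zW_ne_zT := zW_ne_zT
    zW_ne_zK := zW_ne_zK
    TH := THf comp pInf pMid zW pZero zT zK nodeTube smTube
    TM := TMf comp pInf pMid zW pZero zT zK nodeTube smTube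
    TZ := TZf comp pInf pMid zW pZero zT zK nodeTube smTube
    TH_pZero := THf_pZero comp pInf pMid zW pZero zT zK nodeTube smTube hbr
    TZ_zT := TZf_zT comp pInf pMid zW pZero zT zK nodeTube smTube hbr
    TZ_zK := TZf_zK comp pInf pMid zW pZero zT zK nodeTube smTube hbr
    cover := fun P => by
      have h := cover P
      rw [← tubeOf_eq_tubeS] at h
      exact (cover_tubeOf_iff _ _ _ P).mp h
    disjoint := by
      rw [tubeOf_eq_tubeS]
      exact disjoint
    smInf := fun Q h =>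
      (THf_false_of_ne comp pInf pMid zW pZero zT zK nodeTube smTube h).symm ▸ smInf Q h
    smZero := fun Q h =>
      (THf_true_of_ne comp pInf pMid zW pZero zT zK nodeTube smTube h).symm ▸ smZero Q h
    smMid := fun i Q h =>
      (TMf_of_ne comp pInf pMid zW pZero zT zK nodeTube smTube h).symm ▸ smMid i Q h
    smZe := fun e Q hW hT hK =>
      (TZf_of_ne comp pInf pMid zW pZero zT zK nodeTube smTube hW hT hK).symm ▸ smZe e Q hW hT hK
    chT := fun e => (THf_pInf comp pInf pMid zW pZero zT zK nodeTube smTube hbr e).symm ▸ chT e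
    chK := fun e s =>
      (TMf_pMid comp pInf pMid zW pZero zT zK nodeTube smTube hbr e s).symm ▸ chK e s
    chW := fun e => (TZf_zW comp pInf pMid zW pZero zT zK nodeTube smTube hbr e).symm ▸ chW e }

variable
  (cover : ∀ P, ∃ y, P ∈ tubeS comp pInf pMid zW pZero zT zK nodeTube smTube y)
  (disjoint : ∀ P y y', P ∈ tubeS comp pInf pMid zW pZero zT zK nodeTube smTube y →
    P ∈ tubeS comp pInf pMid zW pZero zT zK nodeTube smTube y' → y = y')
  (smInf : ∀ Q : Place (ResidueField A) (Ft cInf), (∀ e, Q ≠ pInf e) →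
    SmoothChart A (C cInf).O (C cInf).res Q (smTube ⟨cInf, Q⟩))
  (smZero : ∀ Q : Place (ResidueField A) (Ft cZero), (∀ e, Q ≠ pZero e) →
    SmoothChart A (C cZero).O (C cZero).res Q (smTube ⟨cZero, Q⟩))
  (smMid : ∀ (i : Mid) (Q : Place (ResidueField A) (Ft (mid i))),
    (∀ e s, (⟨mid i, Q⟩ : Σ v, Place (ResidueField A) (Ft v)) ≠
      ⟨mid (comp e s), pMid e s⟩) →
    SmoothChart A (C (mid i)).O (C (mid i)).res Q (smTube ⟨mid i, Q⟩))
  (smZe : ∀ (e : SSp) (Q : Place (ResidueField A) (Ft (ze e))), Q ≠ zW e → Q ≠ zT e →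
    (∀ s, Q ≠ zK e s) → SmoothChart A (C (ze e)).O (C (ze e)).res Q (smTube ⟨ze e, Q⟩))
  (chT : ∀ e, NodeChart A (C cInf).O (C (ze e)).O (C cInf).res (C (ze e)).res (pInf e) (zT e)
    (nodeTube (nT e)))
  (chK : ∀ e s, NodeChart A (C (mid (comp e s))).O (C (ze e)).O (C (mid (comp e s))).res
    (C (ze e)).res (pMid e s) (zK e s) (nodeTube (nk e s)))
  (chW : ∀ e, NodeChart A (C (ze e)).O (C cZero).O (C (ze e)).res (C cZero).res (zW e)
    (pZero e) (nodeTube (nW e)))

/-- The tube of the node `nT e` of `S''` is the raw tube. -/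
theorem tube_setup_nT_ofRaw (e : SSp) :
    Fermat.Agent.BR.Refine.tube
      (caseInputOfRaw A comp comp_surj nonempty C O_injective pInf pZero pMid zT zK zW
        pInf_injective pZero_injective pMid_injective zK_injective zT_ne_zK zW_ne_zT zW_ne_zK
        nodeTube smTube cover disjoint smInf smZero smMid smZe chT chK chW).toInput.setup
      (nT e) = nodeTube (nT e) :=
  (CaseInput.tube_setup_nT _ e).trans
    (THf_pInf comp pInf pMid zW pZero zT zK nodeTube smTube
      (branch_injective_of comp pInf pMid zW pZero zT zK pInf_injective pZero_injective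
        pMid_injective zK_injective zT_ne_zK zW_ne_zT zW_ne_zK) e)

/-- The tube of the node `nk e s` of `S''` is the raw tube. -/
theorem tube_setup_nk_ofRaw (e : SSp) (s : KP) :
    Fermat.Agent.BR.Refine.tube
      (caseInputOfRaw A comp comp_surj nonempty C O_injective pInf pZero pMid zT zK zW
        pInf_injective pZero_injective pMid_injective zK_injective zT_ne_zK zW_ne_zT zW_ne_zK
        nodeTube smTube cover disjoint smInf smZero smMid smZe chT chK chW).toInput.setup
      (nk e s) = nodeTube (nk e s) :=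
  (CaseInput.tube_setup_nk _ e s).trans
    (TMf_pMid comp pInf pMid zW pZero zT zK nodeTube smTube
      (branch_injective_of comp pInf pMid zW pZero zT zK pInf_injective pZero_injective
        pMid_injective zK_injective zT_ne_zK zW_ne_zT zW_ne_zK) e s)

/-- The tube of the node `nW e` of `S''` is the raw tube. -/
theorem tube_setup_nW_ofRaw (e : SSp) :
    Fermat.Agent.BR.Refine.tube
      (caseInputOfRaw A comp comp_surj nonempty C O_injective pInf pZero pMid zT zK zW
        pInf_injective pZero_injective pMid_injective zK_injective zT_ne_zK zW_ne_zT zW_ne_zK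
        nodeTube smTube cover disjoint smInf smZero smMid smZe chT chK chW).toInput.setup
      (nW e) = nodeTube (nW e) :=
  (CaseInput.tube_setup_nW _ e).trans
    (TZf_zW comp pInf pMid zW pZero zT zK nodeTube smTube
      (branch_injective_of comp pInf pMid zW pZero zT zK pInf_injective pZero_injective
        pMid_injective zK_injective zT_ne_zK zW_ne_zT zW_ne_zK) e)

/-- The tube of every node of `S''` is the raw tube. -/
theorem tube_setup_ofRaw (x : Node SSp KP) :
    Fermat.Agent.BR.Refine.tube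
      (caseInputOfRaw A comp comp_surj nonempty C O_injective pInf pZero pMid zT zK zW
        pInf_injective pZero_injective pMid_injective zK_injective zT_ne_zK zW_ne_zT zW_ne_zK
        nodeTube smTube cover disjoint smInf smZero smMid smZe chT chK chW).toInput.setup
      x = nodeTube x := by
  obtain ⟨e, (_ | _) | s⟩ := x
  · exact tube_setup_nT_ofRaw A comp comp_surj nonempty C O_injective pInf pZero pMid zT zK zW
      pInf_injective pZero_injective pMid_injective zK_injective zT_ne_zK zW_ne_zT zW_ne_zK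
      nodeTube smTube cover disjoint smInf smZero smMid smZe chT chK chW e
  · exact tube_setup_nW_ofRaw A comp comp_surj nonempty C O_injective pInf pZero pMid zT zK zW
      pInf_injective pZero_injective pMid_injective zK_injective zT_ne_zK zW_ne_zT zW_ne_zK
      nodeTube smTube cover disjoint smInf smZero smMid smZe chT chK chW e
  · exact tube_setup_nk_ofRaw A comp comp_surj nonempty C O_injective pInf pZero pMid zT zK zW
      pInf_injective pZero_injective pMid_injective zK_injective zT_ne_zK zW_ne_zT zW_ne_zK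
      nodeTube smTube cover disjoint smInf smZero smMid smZe chT chK chW e s

end OfRaw

end Fermat.Agent.BR3.SDD.Partition
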