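import Mathlib
import Fermat.Agent.BR3.SDD.TubeFam
import Fermat.Agent.BR3.SDD.PartitionKinds

/-!
# Program C (S36), node I7 (W4), part 6: the partition of the places of `S''` from the raw facts
of the owners, over `S'ref`

`S₀` a semistable setup whose nodes all start on the component `canA` and end on `etA` (in Program C:
`S'`), `sref I a₀ hadm` its one-level refinement, `ρ` the map on places along `a`.  The raw data:
the special points `pInf pMid zW pZero zT zK` of `S''`, the raw tubes `nodeTube`, `smTube`, the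
point maps `uInf uZero uMid uZe` (`PartitionKinds`).

**`under_of_raw_sref`** : the dictionary `Under (sref ..) ρ (tubeS ..) (underK ..)` from

* the special points over the base: `hInf`, `hMid` (the branches `pInf e`, `pMid e s` lie over the
  branch `s₁ (ea e)` of `canA`), `hW` (`zW e` lies over `X = 0`), and the completeness of the lists
  `complInf`, `complMid`, `complZe` (a point over a source branch of `S'ref` is a source branch);
* (sub) for the raw tubes: `subT`, `subK`, `subW` (nodes) and `subInf`, `subZero`, `subMid`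
  (residue discs of `S₀`), `subZe` (circle discs, in the shape of `VertSheet.ubar_of_mem_ptTube`);
* (disj) `dTK`, `dKK` (nodes over one outer node), `dIM`, `dMM`, `dZZ` (smooth tubes over one point);
* the raw cover region by region: `cOld`, `cCirc`, `cOuter`, `cInner`.

Consequences: `(under_of_raw_sref ..).cover`, `(under_of_raw_sref ..).disjoint` are the arguments
`cover`, `disjoint` of `caseInputOfRaw`; (T) along `a` for the raw node tubes is `subT`, `subK`,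
`subW` itself (with `tube_setup_ofRaw`).

**`raw_cover_of_regions`** : the raw cover `hcover` from the exhaustion region by region (`cOld` over
the residue discs of the smooth points of `S₀`, `cCirc` over the circles, `cOuter`, `cInner` over the
outer and inner tubes of `S'ref`).
-/

set_option autoImplicit false
set_option linter.unusedSectionVars false

namespace Fermat.Agent.BR3.SDD.Partition

open AlgebraicCurve IsLocalRing Fermat.Agent.Red Fermat.Agent.BR.SS Fermat.Agent.BR.S0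
  Fermat.Agent.BR.P1 Fermat.Agent.BR.AnnulusRed Fermat.Agent.BR.Circle Fermat.Agent.BR.Refine
  Fermat.Agent.BR3.CircleN Fermat.Agent.BR3.SRef

section RawSRef

variable {K : Type} {F : Type*} [Field K] [Field F] [Algebra K F]
  {A : ValuationSubring K} [IsAlgClosed (ResidueField A)]
  {ι₀ : Type} {Ft₀ : ι₀ → Type} [∀ v, Field (Ft₀ v)] [∀ v, Algebra (ResidueField A) (Ft₀ v)]
  {ν₀ : Type}
  {S₀ : SemistableSetup (F := F) A (residue A) ι₀ Ft₀ ν₀}
  (I : CircleInputsN S₀) (a₀ : ν₀ → K) (hadm : ∀ e, I.adm e (a₀ e))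
  {F'' : Type*} [Field F''] [Algebra K F''] {ρ : Place K F'' → Place K F}
  {Mid SSp KP : Type} {Ft : Comp Mid SSp → Type} [∀ v, Field (Ft v)]
  [∀ v, Algebra (ResidueField A) (Ft v)]
  (canA etA : ι₀) (ea : SSp → ν₀)
  (uInf : Place (ResidueField A) (Ft cInf) → Place (ResidueField A) (Ft₀ canA))
  (uZero : Place (ResidueField A) (Ft cZero) → Place (ResidueField A) (Ft₀ etA))
  (uMid : ∀ i : Mid, Place (ResidueField A) (Ft (mid i)) → Place (ResidueField A) (Ft₀ canA))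
  (uZe : ∀ e : SSp, Place (ResidueField A) (Ft (ze e)) →
    Place (ResidueField A) (RatFunc (ResidueField A)))
  (comp : SSp → KP → Mid)
  (pInf : SSp → Place (ResidueField A) (Ft cInf))
  (pMid : ∀ e s, Place (ResidueField A) (Ft (mid (comp e s))))
  (zW : ∀ e, Place (ResidueField A) (Ft (ze e)))
  (pZero : SSp → Place (ResidueField A) (Ft cZero))
  (zT : ∀ e, Place (ResidueField A) (Ft (ze e)))
  (zK : ∀ e, KP → Place (ResidueField A) (Ft (ze e)))
  (nodeTube : Node SSp KP → Set (Place K F''))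
  (smTube : (Σ v, Place (ResidueField A) (Ft v)) → Set (Place K F''))

local notation "k" => ResidueField A

/-- **The dictionary of the points of `S''` over `S'ref` from the raw facts of the owners.** -/
theorem under_of_raw_sref
    (hbr : Function.Injective
      (Sum.elim (fun x => (⟨src comp x, s₁Of comp pInf pMid zW x⟩ : Σ v, Place k (Ft v)))
        (fun x => ⟨tgt x, s₂Of pZero zT zK x⟩)))
    (hne : canA ≠ etA) (hsrc : ∀ e, S₀.src e = canA) (hea : Function.Injective ea)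
    (hInfInj : Function.Injective uInf) (hZeroInj : Function.Injective uZero)
    -- the special points over the base
    (hInf : ∀ e, (⟨canA, uInf (pInf e)⟩ : Σ v, Place k (Ft₀ v)) = ⟨S₀.src (ea e), S₀.s₁ (ea e)⟩)
    (hMid : ∀ e s, (⟨canA, uMid (comp e s) (pMid e s)⟩ : Σ v, Place k (Ft₀ v)) =
      ⟨S₀.src (ea e), S₀.s₁ (ea e)⟩)
    (hW : ∀ e, uZe e (zW e) = placeAt k 0)
    (complInf : ∀ Q e', (⟨canA, uInf Q⟩ : Σ v, Place k (Ft₀ v)) = ⟨S₀.src e', S₀.s₁ e'⟩ →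
      ∃ e, Q = pInf e)
    (complMid : ∀ i Q e', (⟨canA, uMid i Q⟩ : Σ v, Place k (Ft₀ v)) = ⟨S₀.src e', S₀.s₁ e'⟩ →
      ∃ e s, (⟨mid i, Q⟩ : Σ v, Place k (Ft v)) = ⟨mid (comp e s), pMid e s⟩)
    (complZe : ∀ e Q, uZe e Q = placeAt k 0 → Q = zW e)
    -- (sub)
    (subT : ∀ e, ∀ P ∈ nodeTube (nT e), ρ P ∈ tube (sref I a₀ hadm) (outer I a₀ hadm (ea e)))
    (subK : ∀ e s, ∀ P ∈ nodeTube (nk e s),
      ρ P ∈ tube (sref I a₀ hadm) (outer I a₀ hadm (ea e)))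
    (subW : ∀ e, ∀ P ∈ nodeTube (nW e), ρ P ∈ tube (sref I a₀ hadm) (inner I a₀ hadm (ea e)))
    (subInf : ∀ Q, (∀ e, Q ≠ pInf e) → ∀ P ∈ smTube ⟨cInf, Q⟩, S₀.r (ρ P) = ⟨canA, uInf Q⟩)
    (subZero : ∀ Q, (∀ e, Q ≠ pZero e) → ∀ P ∈ smTube ⟨cZero, Q⟩,
      S₀.r (ρ P) = ⟨etA, uZero Q⟩)
    (subMid : ∀ i Q, (∀ e s, (⟨mid i, Q⟩ : Σ v, Place k (Ft v)) ≠ ⟨mid (comp e s), pMid e s⟩) →
      ∀ P ∈ smTube ⟨mid i, Q⟩, S₀.r (ρ P) = ⟨canA, uMid i Q⟩)
    (subZe : ∀ e Q, Q ≠ zW e → Q ≠ zT e → (∀ s, Q ≠ zK e s) → ∀ P ∈ smTube ⟨ze e, Q⟩,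
      ∃ c : k, c ≠ 0 ∧ uZe e Q = placeAt k c ∧ ρ P ∈ circle I a₀ (ea e) ∧
        ubar A (I.ch (ea e)).u (a₀ (ea e)) (ρ P) = c)
    -- (disj)
    (dTK : ∀ e s P, P ∈ nodeTube (nT e) → P ∈ nodeTube (nk e s) → False)
    (dKK : ∀ e s s' P, P ∈ nodeTube (nk e s) → P ∈ nodeTube (nk e s') → s = s')
    (dIM : ∀ i Q Q' P, (∀ e, Q ≠ pInf e) →
      (∀ e s, (⟨mid i, Q'⟩ : Σ v, Place k (Ft v)) ≠ ⟨mid (comp e s), pMid e s⟩) →
      uInf Q = uMid i Q' → P ∈ smTube ⟨cInf, Q⟩ → P ∈ smTube ⟨mid i, Q'⟩ → False)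
    (dMM : ∀ i i' Q Q' P,
      (∀ e s, (⟨mid i, Q⟩ : Σ v, Place k (Ft v)) ≠ ⟨mid (comp e s), pMid e s⟩) →
      (∀ e s, (⟨mid i', Q'⟩ : Σ v, Place k (Ft v)) ≠ ⟨mid (comp e s), pMid e s⟩) →
      uMid i Q = uMid i' Q' → P ∈ smTube ⟨mid i, Q⟩ → P ∈ smTube ⟨mid i', Q'⟩ →
      (⟨mid i, Q⟩ : Σ v, Place k (Ft v)) = ⟨mid i', Q'⟩)
    (dZZ : ∀ e Q Q' P, Q ≠ zW e → Q ≠ zT e → (∀ s, Q ≠ zK e s) → Q' ≠ zW e → Q' ≠ zT e →
      (∀ s, Q' ≠ zK e s) → uZe e Q = uZe e Q' → P ∈ smTube ⟨ze e, Q⟩ →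
      P ∈ smTube ⟨ze e, Q'⟩ → Q = Q')
    -- the raw cover
    (hcover : ∀ P, (∃ x, P ∈ nodeTube x) ∨
      ∃ y, (∀ x : Node SSp KP,
          (⟨src comp x, s₁Of comp pInf pMid zW x⟩ : Σ v, Place k (Ft v)) ≠ y) ∧
        (∀ x : Node SSp KP, (⟨tgt x, s₂Of pZero zT zK x⟩ : Σ v, Place k (Ft v)) ≠ y) ∧
        P ∈ smTube y) :
    Under (sref I a₀ hadm) ρ (tubeS comp pInf pMid zW pZero zT zK nodeTube smTube)
      (underK I a₀ hadm canA etA ea uInf uZero uMid uZe) := by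
  have hinj := srcBranch_injective comp pInf pMid zW pZero zT zK hbr
  -- the kinds of non-branch points
  have nbInf : ∀ {Q : Place k (Ft cInf)},
      (∀ x : Node SSp KP, (⟨src comp x, s₁Of comp pInf pMid zW x⟩ : Σ v, Place k (Ft v)) ≠
        ⟨cInf, Q⟩) → ∀ e, Q ≠ pInf e := fun h e he => h (nT e) (by rw [he]; rfl)
  have nbZero : ∀ {Q : Place k (Ft cZero)},
      (∀ x : Node SSp KP, (⟨tgt x, s₂Of pZero zT zK x⟩ : Σ v, Place k (Ft v)) ≠ ⟨cZero, Q⟩) →
      ∀ e, Q ≠ pZero e := fun h e he => h (nW e) (by rw [he]; rfl)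
  have nbMid : ∀ {i : Mid} {Q : Place k (Ft (mid i))},
      (∀ x : Node SSp KP, (⟨src comp x, s₁Of comp pInf pMid zW x⟩ : Σ v, Place k (Ft v)) ≠
        ⟨mid i, Q⟩) → ∀ e s, (⟨mid i, Q⟩ : Σ v, Place k (Ft v)) ≠ ⟨mid (comp e s), pMid e s⟩ :=
    fun h e s he => h (nk e s) he.symm
  have nbZe : ∀ {e : SSp} {Q : Place k (Ft (ze e))},
      (∀ x : Node SSp KP, (⟨src comp x, s₁Of comp pInf pMid zW x⟩ : Σ v, Place k (Ft v)) ≠
        ⟨ze e, Q⟩) →
      (∀ x : Node SSp KP, (⟨tgt x, s₂Of pZero zT zK x⟩ : Σ v, Place k (Ft v)) ≠ ⟨ze e, Q⟩) →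
      Q ≠ zW e ∧ Q ≠ zT e ∧ ∀ s, Q ≠ zK e s := by
    intro e Q h1 h2
    exact ⟨fun he => h1 (nW e) (by rw [he]; rfl), fun he => h2 (nT e) (by rw [he]; rfl),
      fun s he => h2 (nk e s) (by rw [he]; rfl)⟩
  -- a smooth point of `cInf` / `mid i` lies over a point of `canA` which is no source branch
  have nsInf : ∀ {Q : Place k (Ft cInf)}, (∀ e, Q ≠ pInf e) →
      ∀ e', (⟨canA, uInf Q⟩ : Σ v, Place k (Ft₀ v)) ≠ ⟨S₀.src e', S₀.s₁ e'⟩ := fun h e' he' => by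
    obtain ⟨e, he⟩ := complInf _ e' he'
    exact h e he
  have nsMid : ∀ {i : Mid} {Q : Place k (Ft (mid i))},
      (∀ e s, (⟨mid i, Q⟩ : Σ v, Place k (Ft v)) ≠ ⟨mid (comp e s), pMid e s⟩) →
      ∀ e', (⟨canA, uMid i Q⟩ : Σ v, Place k (Ft₀ v)) ≠ ⟨S₀.src e', S₀.s₁ e'⟩ :=
    fun h e' he' => by
      obtain ⟨e, s, hes⟩ := complMid _ _ e' he'
      exact h e s hes
  have nsZero : ∀ (Q : Place k (Ft cZero)) e',
      (⟨etA, uZero Q⟩ : Σ v, Place k (Ft₀ v)) ≠ ⟨S₀.src e', S₀.s₁ e'⟩ := fun Q e' he' =>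
    hne ((hsrc e').symm.trans (congrArg Sigma.fst he').symm)
  -- (sub) at the level of `S'ref` for the smooth tubes
  have sInf : ∀ Q, (∀ e, Q ≠ pInf e) → ∀ P ∈ smTube ⟨cInf, Q⟩, (sref I a₀ hadm).r (ρ P) =
      (⟨old I a₀ hadm canA, uInf Q⟩ : (oneLevel I a₀ hadm).PtR) := fun Q h P hP =>
    sref_r_eq_old_of_not_src I a₀ hadm (subInf Q h P hP) (nsInf h)
  have sZero : ∀ Q, (∀ e, Q ≠ pZero e) → ∀ P ∈ smTube ⟨cZero, Q⟩, (sref I a₀ hadm).r (ρ P) =
      (⟨old I a₀ hadm etA, uZero Q⟩ : (oneLevel I a₀ hadm).PtR) := fun Q h P hP =>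
    sref_r_eq_old_of_not_src I a₀ hadm (subZero Q h P hP) (nsZero Q)
  have sMid : ∀ i Q, (∀ e s, (⟨mid i, Q⟩ : Σ v, Place k (Ft v)) ≠
      ⟨mid (comp e s), pMid e s⟩) → ∀ P ∈ smTube ⟨mid i, Q⟩, (sref I a₀ hadm).r (ρ P) =
      (⟨old I a₀ hadm canA, uMid i Q⟩ : (oneLevel I a₀ hadm).PtR) := fun i Q h P hP =>
    sref_r_eq_old_of_not_src I a₀ hadm (subMid i Q h P hP) (nsMid h)
  have sZe : ∀ e Q, Q ≠ zW e → Q ≠ zT e → (∀ s, Q ≠ zK e s) → ∀ P ∈ smTube ⟨ze e, Q⟩,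
      (sref I a₀ hadm).r (ρ P) =
        (⟨exc I a₀ hadm (ea e), uZe e Q⟩ : (oneLevel I a₀ hadm).PtR) := by
    intro e Q h1 h2 h3 P hP
    obtain ⟨c, hc, hQ, hcirc, hu⟩ := subZe e Q h1 h2 h3 P hP
    rw [hQ]
    exact (sref_r_eq_exc_placeAt_iff I a₀ hadm hc).mpr ⟨hcirc, hu⟩
  -- the values of `under` at the source branches
  have uT : ∀ e, underK I a₀ hadm canA etA ea uInf uZero uMid uZe
      ⟨src comp (nT e), s₁Of comp pInf pMid zW (nT e)⟩ =
      (⟨old I a₀ hadm (S₀.src (ea e)), S₀.s₁ (ea e)⟩ : (oneLevel I a₀ hadm).PtR) := fun e =>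
    oldPt_eq I a₀ hadm (hInf e)
  have uK : ∀ e s, underK I a₀ hadm canA etA ea uInf uZero uMid uZe
      ⟨src comp (nk e s), s₁Of comp pInf pMid zW (nk e s)⟩ =
      (⟨old I a₀ hadm (S₀.src (ea e)), S₀.s₁ (ea e)⟩ : (oneLevel I a₀ hadm).PtR) := fun e s =>
    oldPt_eq I a₀ hadm (hMid e s)
  have uW : ∀ e, underK I a₀ hadm canA etA ea uInf uZero uMid uZe
      ⟨src comp (nW e), s₁Of comp pInf pMid zW (nW e)⟩ =
      (⟨exc I a₀ hadm (ea e), placeAt k 0⟩ : (oneLevel I a₀ hadm).PtR) := fun e => by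
    show (⟨exc I a₀ hadm (ea e), uZe e (zW e)⟩ : (oneLevel I a₀ hadm).PtR) = _
    rw [hW e]
  -- the node under a node of `S''`
  have hsnd : ∀ {w : ι₀ ⊕ (oneLevel I a₀ hadm).X}
      {Q Q' : Place k (FtR Ft₀ A (oneLevel I a₀ hadm).X w)},
      (⟨w, Q⟩ : (oneLevel I a₀ hadm).PtR) = ⟨w, Q'⟩ → Q = Q' :=
    fun h => eq_of_heq (Sigma.mk.inj_iff.mp h).2
  have outer_inj : ∀ {e e' : SSp},
      (⟨old I a₀ hadm (S₀.src (ea e)), S₀.s₁ (ea e)⟩ : (oneLevel I a₀ hadm).PtR) =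
        ⟨old I a₀ hadm (S₀.src (ea e')), S₀.s₁ (ea e')⟩ → e = e' := by
    intro e e' h
    have h1 : (⟨S₀.src (ea e), S₀.s₁ (ea e)⟩ : Σ v, Place k (Ft₀ v)) =
        ⟨S₀.src (ea e'), S₀.s₁ (ea e')⟩ := by
      have h2 := old_injective I a₀ hadm (congrArg Sigma.fst h)
      have h3 := (Sigma.mk.inj_iff.mp h).2
      exact Sigma.ext h2 h3
    exact hea (Sum.inl_injective (@S₀.branch_injective (Sum.inl (ea e)) (Sum.inl (ea e')) h1))
  refine Under.of_raw hinj ?_ ?_ ?_ ?_ ?_ hcover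
  · -- subN
    rintro ⟨e, (_ | _) | s⟩ P hP
    · exact (subT e P hP).trans (uT e).symm
    · exact (subW e P hP).trans (uW e).symm
    · exact (subK e s P hP).trans (uK e s).symm
  · -- subS
    rintro ⟨(b | i) | e, Q⟩ h1 h2 P hP
    · cases b
      · exact sInf Q (nbInf h1) P hP
      · exact sZero Q (nbZero h2) P hP
    · exact sMid i Q (nbMid h1) P hP
    · obtain ⟨h3, h4, h5⟩ := nbZe h1 h2
      exact sZe e Q h3 h4 h5 P hP
  · -- disjNN
    rintro ⟨e, (_ | _) | s⟩ ⟨e', (_ | _) | s'⟩ P hu hP hP'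
    · have he : e = e' := outer_inj ((uT e).symm.trans (hu.trans (uT e')))
      subst he
      rfl
    · exact absurd (congrArg Sigma.fst ((uT e).symm.trans (hu.trans (uW e'))))
        (old_ne_exc I a₀ hadm _ _)
    · have he : e = e' := outer_inj ((uT e).symm.trans (hu.trans (uK e' s')))
      subst he
      exact (dTK e s' P hP hP').elim
    · exact absurd (congrArg Sigma.fst ((uT e').symm.trans (hu.symm.trans (uW e))))
        (old_ne_exc I a₀ hadm _ _)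
    · have he : e = e' :=
        hea (exc_injective I a₀ hadm (congrArg Sigma.fst ((uW e).symm.trans (hu.trans (uW e')))))
      subst he
      rfl
    · exact absurd (congrArg Sigma.fst ((uK e' s').symm.trans (hu.symm.trans (uW e))))
        (old_ne_exc I a₀ hadm _ _)
    · have he : e = e' := outer_inj ((uK e s).symm.trans (hu.trans (uT e')))
      subst he
      exact (dTK e s P hP' hP).elim
    · exact absurd (congrArg Sigma.fst ((uK e s).symm.trans (hu.trans (uW e'))))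
        (old_ne_exc I a₀ hadm _ _)
    · have he : e = e' := outer_inj ((uK e s).symm.trans (hu.trans (uK e' s')))
      subst he
      rw [dKK e s s' P hP hP']
  · -- disjNS: a point under a source branch of `S'ref` is a source branch
    rintro ⟨e, (_ | _) | s⟩ ⟨(b | i) | e', Q⟩ P h1 h2 hu hP hP'
    all_goals exfalso
    · -- nT e / horizontal
      cases b
      · have h3 : (⟨old I a₀ hadm canA, uInf Q⟩ : (oneLevel I a₀ hadm).PtR) =
            ⟨old I a₀ hadm (S₀.src (ea e)), S₀.s₁ (ea e)⟩ := hu.symm.trans (uT e)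
        have h4 : (⟨canA, uInf Q⟩ : Σ v, Place k (Ft₀ v)) = ⟨S₀.src (ea e), S₀.s₁ (ea e)⟩ :=
          Sigma.ext (old_injective I a₀ hadm (congrArg Sigma.fst h3)) (Sigma.mk.inj_iff.mp h3).2
        exact nsInf (nbInf h1) (ea e) h4
      · have h3 : (⟨old I a₀ hadm etA, uZero Q⟩ : (oneLevel I a₀ hadm).PtR) =
            ⟨old I a₀ hadm (S₀.src (ea e)), S₀.s₁ (ea e)⟩ := hu.symm.trans (uT e)
        exact hne ((hsrc (ea e)).symm.trans
          (old_injective I a₀ hadm (congrArg Sigma.fst h3)).symm)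
    · -- nT e / middle
      have h3 : (⟨old I a₀ hadm canA, uMid i Q⟩ : (oneLevel I a₀ hadm).PtR) =
          ⟨old I a₀ hadm (S₀.src (ea e)), S₀.s₁ (ea e)⟩ := hu.symm.trans (uT e)
      have h4 : (⟨canA, uMid i Q⟩ : Σ v, Place k (Ft₀ v)) = ⟨S₀.src (ea e), S₀.s₁ (ea e)⟩ :=
        Sigma.ext (old_injective I a₀ hadm (congrArg Sigma.fst h3)) (Sigma.mk.inj_iff.mp h3).2
      exact nsMid (nbMid h1) (ea e) h4
    · -- nT e / vertical
      have h3 : (⟨exc I a₀ hadm (ea e'), uZe e' Q⟩ : (oneLevel I a₀ hadm).PtR) =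
          ⟨old I a₀ hadm (S₀.src (ea e)), S₀.s₁ (ea e)⟩ := hu.symm.trans (uT e)
      exact old_ne_exc I a₀ hadm _ _ (congrArg Sigma.fst h3).symm
    · -- nW e / horizontal
      cases b
      · have h3 : (⟨old I a₀ hadm canA, uInf Q⟩ : (oneLevel I a₀ hadm).PtR) =
            ⟨exc I a₀ hadm (ea e), placeAt k 0⟩ := hu.symm.trans (uW e)
        exact old_ne_exc I a₀ hadm _ _ (congrArg Sigma.fst h3)
      · have h3 : (⟨old I a₀ hadm etA, uZero Q⟩ : (oneLevel I a₀ hadm).PtR) =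
            ⟨exc I a₀ hadm (ea e), placeAt k 0⟩ := hu.symm.trans (uW e)
        exact old_ne_exc I a₀ hadm _ _ (congrArg Sigma.fst h3)
    · -- nW e / middle
      have h3 : (⟨old I a₀ hadm canA, uMid i Q⟩ : (oneLevel I a₀ hadm).PtR) =
          ⟨exc I a₀ hadm (ea e), placeAt k 0⟩ := hu.symm.trans (uW e)
      exact old_ne_exc I a₀ hadm _ _ (congrArg Sigma.fst h3)
    · -- nW e / vertical
      have h3 : (⟨exc I a₀ hadm (ea e'), uZe e' Q⟩ : (oneLevel I a₀ hadm).PtR) =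
          ⟨exc I a₀ hadm (ea e), placeAt k 0⟩ := hu.symm.trans (uW e)
      have he : e' = e := hea (exc_injective I a₀ hadm (congrArg Sigma.fst h3))
      subst he
      exact (nbZe h1 h2).1 (complZe e' Q (hsnd h3))
    · -- nk e s / horizontal
      cases b
      · have h3 : (⟨old I a₀ hadm canA, uInf Q⟩ : (oneLevel I a₀ hadm).PtR) =
            ⟨old I a₀ hadm (S₀.src (ea e)), S₀.s₁ (ea e)⟩ := hu.symm.trans (uK e s)
        have h4 : (⟨canA, uInf Q⟩ : Σ v, Place k (Ft₀ v)) = ⟨S₀.src (ea e), S₀.s₁ (ea e)⟩ :=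
          Sigma.ext (old_injective I a₀ hadm (congrArg Sigma.fst h3)) (Sigma.mk.inj_iff.mp h3).2
        exact nsInf (nbInf h1) (ea e) h4
      · have h3 : (⟨old I a₀ hadm etA, uZero Q⟩ : (oneLevel I a₀ hadm).PtR) =
            ⟨old I a₀ hadm (S₀.src (ea e)), S₀.s₁ (ea e)⟩ := hu.symm.trans (uK e s)
        exact hne ((hsrc (ea e)).symm.trans
          (old_injective I a₀ hadm (congrArg Sigma.fst h3)).symm)
    · -- nk e s / middle
      have h3 : (⟨old I a₀ hadm canA, uMid i Q⟩ : (oneLevel I a₀ hadm).PtR) =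
          ⟨old I a₀ hadm (S₀.src (ea e)), S₀.s₁ (ea e)⟩ := hu.symm.trans (uK e s)
      have h4 : (⟨canA, uMid i Q⟩ : Σ v, Place k (Ft₀ v)) = ⟨S₀.src (ea e), S₀.s₁ (ea e)⟩ :=
        Sigma.ext (old_injective I a₀ hadm (congrArg Sigma.fst h3)) (Sigma.mk.inj_iff.mp h3).2
      exact nsMid (nbMid h1) (ea e) h4
    · -- nk e s / vertical
      have h3 : (⟨exc I a₀ hadm (ea e'), uZe e' Q⟩ : (oneLevel I a₀ hadm).PtR) =
          ⟨old I a₀ hadm (S₀.src (ea e)), S₀.s₁ (ea e)⟩ := hu.symm.trans (uK e s)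
      exact old_ne_exc I a₀ hadm _ _ (congrArg Sigma.fst h3).symm
  · -- disjSS
    rintro ⟨(b | i) | e, Q⟩ ⟨(b' | i') | e', Q'⟩ P h1 h2 h1' h2' hu hP hP'
    · -- horizontal / horizontal
      cases b <;> cases b'
      · have h3 : uInf Q = uInf Q' := hsnd hu
        rw [hInfInj h3]
      · exact absurd (old_injective I a₀ hadm (congrArg Sigma.fst hu)) hne
      · exact absurd (old_injective I a₀ hadm (congrArg Sigma.fst hu)).symm hne
      · have h3 : uZero Q = uZero Q' := hsnd hu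
        rw [hZeroInj h3]
    · -- horizontal / middle
      cases b
      · exact (dIM i' Q Q' P (nbInf h1) (nbMid h1') (hsnd hu) hP hP').elim
      · exact absurd (old_injective I a₀ hadm (congrArg Sigma.fst hu)).symm hne
    · exact absurd (congrArg Sigma.fst hu) (by
        cases b <;> exact old_ne_exc I a₀ hadm _ _)
    · -- middle / horizontal
      cases b'
      · exact (dIM i Q' Q P (nbInf h1') (nbMid h1) (hsnd hu.symm) hP' hP).elim
      · exact absurd (old_injective I a₀ hadm (congrArg Sigma.fst hu)) hne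
    · exact dMM i i' Q Q' P (nbMid h1) (nbMid h1') (hsnd hu) hP hP'
    · exact absurd (congrArg Sigma.fst hu) (old_ne_exc I a₀ hadm _ _)
    · exact absurd (congrArg Sigma.fst hu.symm) (by
        cases b' <;> exact old_ne_exc I a₀ hadm _ _)
    · exact absurd (congrArg Sigma.fst hu.symm) (old_ne_exc I a₀ hadm _ _)
    · -- vertical / vertical
      have he : e = e' := hea (exc_injective I a₀ hadm (congrArg Sigma.fst hu))
      subst he
      obtain ⟨h3, h4, h5⟩ := nbZe h1 h2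
      obtain ⟨h3', h4', h5'⟩ := nbZe h1' h2'
      rw [dZZ e Q Q' P h3 h4 h5 h3' h4' h5' (hsnd hu) hP hP']

end RawSRef

/-! ### the raw cover region by region -/

section RawCover

variable {K : Type} {F : Type*} [Field K] [Field F] [Algebra K F]
  {A : ValuationSubring K} [IsAlgClosed (ResidueField A)]
  {ι₀ : Type} {Ft₀ : ι₀ → Type} [∀ v, Field (Ft₀ v)] [∀ v, Algebra (ResidueField A) (Ft₀ v)]
  {ν₀ : Type}
  {S₀ : SemistableSetup (F := F) A (residue A) ι₀ Ft₀ ν₀}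
  (I : CircleInputsN S₀) (a₀ : ν₀ → K) (hadm : ∀ e, I.adm e (a₀ e))
  {F'' : Type*} [Field F''] [Algebra K F''] {ρ : Place K F'' → Place K F}
  {ι : Type*} {Ft : ι → Type*} [∀ v, Field (Ft v)] [∀ v, Algebra (ResidueField A) (Ft v)]
  {ν : Type*} {src tgt : ν → ι} {s₁ : ∀ x, Place (ResidueField A) (Ft (src x))}
  {s₂ : ∀ x, Place (ResidueField A) (Ft (tgt x))}
  {nodeTube : ν → Set (Place K F'')}
  {smTube : (Σ v, Place (ResidueField A) (Ft v)) → Set (Place K F'')}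

local notation "k" => ResidueField A

/-- **The raw cover from the exhaustion region by region**: the places over an outer or an inner
tube of `S'ref` lie in node tubes, the places over the residue disc of a smooth point of `S₀` or
over a circle lie in tubes of smooth charts. -/
theorem raw_cover_of_regions
    (cOld : ∀ (v : ι₀) (Q' : Place k (Ft₀ v)),
      (∀ e, (⟨v, Q'⟩ : Σ v, Place k (Ft₀ v)) ≠ ⟨S₀.src e, S₀.s₁ e⟩) →
      (∀ e, (⟨v, Q'⟩ : Σ v, Place k (Ft₀ v)) ≠ ⟨S₀.tgt e, S₀.s₂ e⟩) →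
      ∀ P, S₀.r (ρ P) = ⟨v, Q'⟩ →
        ∃ y, (∀ x, (⟨src x, s₁ x⟩ : Σ v, Place k (Ft v)) ≠ y) ∧
          (∀ x, (⟨tgt x, s₂ x⟩ : Σ v, Place k (Ft v)) ≠ y) ∧ P ∈ smTube y)
    (cCirc : ∀ e, ∀ P, ρ P ∈ circle I a₀ e →
        ∃ y, (∀ x, (⟨src x, s₁ x⟩ : Σ v, Place k (Ft v)) ≠ y) ∧
          (∀ x, (⟨tgt x, s₂ x⟩ : Σ v, Place k (Ft v)) ≠ y) ∧ P ∈ smTube y)
    (cOuter : ∀ e, ∀ P, ρ P ∈ tube (sref I a₀ hadm) (outer I a₀ hadm e) → ∃ x, P ∈ nodeTube x)
    (cInner : ∀ e, ∀ P, ρ P ∈ tube (sref I a₀ hadm) (inner I a₀ hadm e) → ∃ x, P ∈ nodeTube x)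
    (P : Place K F'') :
    (∃ x, P ∈ nodeTube x) ∨
      ∃ y, (∀ x, (⟨src x, s₁ x⟩ : Σ v, Place k (Ft v)) ≠ y) ∧
        (∀ x, (⟨tgt x, s₂ x⟩ : Σ v, Place k (Ft v)) ≠ y) ∧ P ∈ smTube y := by
  rcases place_cases I a₀ hadm (ρ P) with ⟨v, Q', h1, h2, h3⟩ | ⟨e, h⟩ | ⟨e, h⟩ | ⟨e, h⟩
  · exact Or.inr (cOld v Q' h2 h3 P h1)
  · exact Or.inl (cOuter e P h)
  · exact Or.inr (cCirc e P h)
  · exact Or.inl (cInner e P h)

end RawCover

end Fermat.Agent.BR3.SDD.Partition
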