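import Mathlib
import Fermat.Agent.BR3.SDD.PartitionRaw
import Fermat.Agent.BR3.SDD.NodeFibres
import Fermat.Agent.X0.Alg.PlaceBasic
import Fermat.Agent.Red.NormalForm

/-!
# Program C (S36), node I7 (W4), part 7: the regions of the base, from the owners' structures

Adapters from the LANDED abstract structures of the owners (`CoverDict.SmoothSheets`,
`CoverK.Fibre.SmoothFibre`, `Partition.FibreOver` of `NodeFibres`) to the raw hypotheses `cOld`,
`cOuter`, `cInner` of `raw_cover_of_regions`, and the count of an unramified fibre.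

* `restrict_eq_of_ord_map`, `ramificationIndex_eq_one_of_ord_map` : a place `w` with
  `ord_w (f) = ord_v f` for all `f` of the subfield lies over `v`, unramified (the field `ord_map` of
  a `CoverK.CoverSheet`);
* **`card_fiber_of_unramified`** : over an unramified point the number of places is the degree;
* `smoothSheetsOfUnit` : `CoverDict.SmoothSheets` from a finite set of pairwise disjoint sheets each
  carrying exactly ONE zero of `t - c` (`CoverK.Fibre.count_sheet`, each sheet with its own residue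
  algebra), `[F'' : F']` in number;
* `exists_smTube_of_fibreOver` / **`cOld_of_fibreOver`** : the hypothesis `cOld` from a `FibreOver`
  (for the raw smooth tubes, all points non-branch) over every smooth point of the base (from
  `FibreOver.of_smoothSheets`, `FibreOver.of_smoothFibre`);
* **`fibreOver_outer_raw`**, **`fibreOver_inner_raw`** : helper23's `fibreOver_outer_along`,
  `fibreOver_inner_along` for the tube family `tubeS ..`, all hypotheses on the RAW node tubes;
* `exists_nodeTube_of_fibreOver`, **`cOuter_of_fibreOver`**, **`cInner_of_fibreOver`** : the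
  hypotheses `cOuter`, `cInner` from helper23's `fibreOver_outer(_along)`, `fibreOver_inner(_along)`
  for `TH := THf ..`, `TM := TMf ..`, `TZ := TZf ..` (`outerFib_isSrc`, `innerFib_isSrc`).
-/

set_option autoImplicit false
set_option linter.unusedSectionVars false
set_option linter.style.haveILetI false

namespace Fermat.Agent.BR3.SDD.Partition

open AlgebraicCurve IsLocalRing Fermat.Agent.Red Fermat.Agent.BR.SS Fermat.Agent.BR.S0
  Fermat.Agent.BR.Circle Fermat.Agent.BR.Refine Fermat.Agent.BR3.CircleN Fermat.Agent.BR3.SRef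
  Fermat.Agent.BR3.CoverDict Fermat.Agent.BR3.SDD.NodeFibres

/-! ### the count of an unramified fibre -/

section Count

variable {k κ E : Type*} [Field k] [Field κ] [Field E] [Algebra k κ] [Algebra k E] [Algebra κ E]
  [IsScalarTower k κ E] [Algebra.IsIntegral κ E]

/-- A place whose orders on the subfield are those of `v` lies over `v`. -/
theorem restrict_eq_of_ord_map {w : Place k E} {v : Place k κ}
    (h : ∀ f : κ, w.ord (algebraMap κ E f) = v.ord f) : w.restrict κ = v := by
  apply Place.ext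
  ext f
  rw [Place.restrict_toValuationSubring, ValuationSubring.mem_comap,
    Fermat.Agent.X0.Place.mem_iff_ord_nonneg, Fermat.Agent.X0.Place.mem_iff_ord_nonneg, h f]

/-- A place whose orders on the subfield are those of `v` is unramified over the subfield. -/
theorem ramificationIndex_eq_one_of_ord_map {w : Place k E} {v : Place k κ}
    (h : ∀ f : κ, w.ord (algebraMap κ E f) = v.ord f) : w.ramificationIndex κ = 1 := by
  obtain ⟨t, ht⟩ := Fermat.Agent.Red.NormalForm.exists_ord_eq_one v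
  have h1 := w.ord_restrict (F := κ) t
  rw [restrict_eq_of_ord_map h, h t, ht, mul_one] at h1
  exact_mod_cast h1.symm

variable [HasPrincipalDivisors k E] [FundamentalIdentity k κ E]

/-- **Over an unramified point the number of places is the degree** (all places of degree one). -/
theorem card_fiber_of_unramified (hκ1 : ∀ v : Place k κ, v.deg = 1)
    (hE1 : ∀ w : Place k E, w.deg = 1) (v : Place k κ)
    (hunr : ∀ w ∈ v.fiber E, w.ramificationIndex κ = 1) :
    (v.fiber E).card = Module.finrank κ E := by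
  have h := Fermat.Agent.BR3.SheetCount.sum_ramificationIndex_fiber hE1 hκ1 v
  rw [Finset.sum_congr rfl fun w hw => by rw [hunr w hw], Finset.sum_const, nsmul_eq_mul,
    Nat.cast_one, mul_one] at h
  exact_mod_cast h

/-- The count along an algebra homomorphism. -/
theorem card_fiberAlong_of_unramified {κ' E' : Type*} [Field κ'] [Field E'] [Algebra k κ']
    [Algebra k E'] [HasPrincipalDivisors k E'] (φ : κ' →ₐ[k] E') (hφ : φ.toRingHom.IsIntegral)
    (hFI : FundamentalIdentityAlong k φ hφ) (hκ1 : ∀ v : Place k κ', v.deg = 1)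
    (hE1 : ∀ w : Place k E', w.deg = 1) (v : Place k κ')
    (hunr : ∀ w : Place k E', w.restrictAlong φ hφ = v → w.ramificationIndexAlong φ = 1) :
    (Place.fiberAlong φ hφ v).card = finrankAlong k φ := by
  letI := algebraAlong φ
  haveI := isScalarTower_along φ
  haveI := isIntegral_along φ hφ
  haveI : FundamentalIdentity k κ' E' := hFI
  exact card_fiber_of_unramified hκ1 hE1 v fun w hw => hunr w (Place.mem_fiber.mp hw)

end Count

/-! ### sheets carrying one zero each -/

section UnitSheets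

variable {K F' F'' : Type*} [Field K] [Field F'] [Field F''] [Algebra K F'] [Algebra K F'']
  [Algebra F' F''] [IsScalarTower K F' F''] [Algebra.IsIntegral F' F'']
  [HasPrincipalDivisors K F''] [FundamentalIdentity K F' F'']
  {k Ft' : Type*} [Field k] [Field Ft'] [Algebra k Ft']
  {A : ValuationSubring K} {O' : ValuationSubring F'} {res' : O' →+* Ft'}
  {Q' : Place k Ft'} {T' : Set (Place K F')} {β'' : Type*}
  {tube'' : β'' → Set (Place K F'')}

/-- **`SmoothSheets` from sheets carrying exactly one zero of `t - c` each**, `[F'' : F']` in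
number (each count is `CoverK.Fibre.count_sheet` for the `CoverSheet` of the point, with its OWN
residue algebra). -/
def smoothSheetsOfUnit (C' : SmoothChart A O' res' Q' T') (fib : Finset β'')
    (hsub : ∀ x ∈ fib, ∀ P ∈ tube'' x, P.restrict F' ∈ T')
    (hdisj : ∀ x ∈ fib, ∀ y ∈ fib, ∀ P, P ∈ tube'' x → P ∈ tube'' y → x = y)
    (hcount : ∀ x ∈ fib, ∀ c : K, A.valuation c < 1 → ∀ D : Divisor K F'',
      (∀ P, D P = P.ord (algebraMap F' F'' (C'.t - algebraMap K F' c))) →
      Finsupp.mapDomain (fun P => P ∈ tube'' x) D True = ((1 : ℕ) : ℤ))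
    (hcard : fib.card = Module.finrank F' F'') :
    SmoothSheets A O' res' Q' T' C' tube'' where
  fib := fib
  e := fun _ => 1
  sub := hsub
  disj := hdisj
  count := hcount
  sum := by rw [Finset.sum_const, smul_eq_mul, mul_one, hcard]

@[simp] theorem smoothSheetsOfUnit_fib (C' : SmoothChart A O' res' Q' T') (fib : Finset β'')
    (hsub : ∀ x ∈ fib, ∀ P ∈ tube'' x, P.restrict F' ∈ T')
    (hdisj : ∀ x ∈ fib, ∀ y ∈ fib, ∀ P, P ∈ tube'' x → P ∈ tube'' y → x = y)
    (hcount : ∀ x ∈ fib, ∀ c : K, A.valuation c < 1 → ∀ D : Divisor K F'',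
      (∀ P, D P = P.ord (algebraMap F' F'' (C'.t - algebraMap K F' c))) →
      Finsupp.mapDomain (fun P => P ∈ tube'' x) D True = ((1 : ℕ) : ℤ))
    (hcard : fib.card = Module.finrank F' F'') :
    (smoothSheetsOfUnit C' fib hsub hdisj hcount hcard).fib = fib := rfl

end UnitSheets

/-! ### the smooth points of the base -/

section Old

variable {K F' F'' : Type*} [Field K] [Field F'] [Field F''] [Algebra K F'] [Algebra K F'']
  {k : Type*} [Field k] {A : ValuationSubring K} {π : A →+* k} {ι₀ : Type*}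
  {Ft₀ : ι₀ → Type*} [∀ v, Field (Ft₀ v)] [∀ v, Algebra k (Ft₀ v)] {ν₀ : Type*}
  {S₀ : SemistableSetup (F := F') A π ι₀ Ft₀ ν₀} {ρ : Place K F'' → Place K F'}
  {ι : Type*} {Ft : ι → Type*} [∀ v, Field (Ft v)] [∀ v, Algebra k (Ft v)] {ν : Type*}
  {src tgt : ν → ι} {s₁ : ∀ x, Place k (Ft (src x))} {s₂ : ∀ x, Place k (Ft (tgt x))}
  {smTube : (Σ v, Place k (Ft v)) → Set (Place K F'')}

/-- A place over a point of the base with a fibre of non-branch points lies in a smooth tube. -/
theorem exists_smTube_of_fibreOver {y' : Σ v, Place k (Ft₀ v)}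
    {fib : Set (Σ v, Place k (Ft v))} (X : FibreOver S₀ ρ smTube y' fib)
    (hfib : ∀ y ∈ fib, (∀ x, (⟨src x, s₁ x⟩ : Σ v, Place k (Ft v)) ≠ y) ∧
      ∀ x, (⟨tgt x, s₂ x⟩ : Σ v, Place k (Ft v)) ≠ y)
    {P : Place K F''} (hP : S₀.r (ρ P) = y') :
    ∃ y, (∀ x, (⟨src x, s₁ x⟩ : Σ v, Place k (Ft v)) ≠ y) ∧
      (∀ x, (⟨tgt x, s₂ x⟩ : Σ v, Place k (Ft v)) ≠ y) ∧ P ∈ smTube y := by
  obtain ⟨y, hy, hPy⟩ := X.exh P hP
  exact ⟨y, (hfib y hy).1, (hfib y hy).2, hPy⟩

/-- **The hypothesis `cOld` of `raw_cover_of_regions`** from a fibre of non-branch points over every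
smooth point of the base. -/
theorem cOld_of_fibreOver
    (h : ∀ (v : ι₀) (Q' : Place k (Ft₀ v)),
      (∀ e, (⟨v, Q'⟩ : Σ v, Place k (Ft₀ v)) ≠ ⟨S₀.src e, S₀.s₁ e⟩) →
      (∀ e, (⟨v, Q'⟩ : Σ v, Place k (Ft₀ v)) ≠ ⟨S₀.tgt e, S₀.s₂ e⟩) →
      ∃ fib : Set (Σ v, Place k (Ft v)), FibreOver S₀ ρ smTube ⟨v, Q'⟩ fib ∧
        ∀ y ∈ fib, (∀ x, (⟨src x, s₁ x⟩ : Σ v, Place k (Ft v)) ≠ y) ∧
          ∀ x, (⟨tgt x, s₂ x⟩ : Σ v, Place k (Ft v)) ≠ y)
    (v : ι₀) (Q' : Place k (Ft₀ v))
    (h1 : ∀ e, (⟨v, Q'⟩ : Σ v, Place k (Ft₀ v)) ≠ ⟨S₀.src e, S₀.s₁ e⟩)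
    (h2 : ∀ e, (⟨v, Q'⟩ : Σ v, Place k (Ft₀ v)) ≠ ⟨S₀.tgt e, S₀.s₂ e⟩)
    (P : Place K F'') (hP : S₀.r (ρ P) = ⟨v, Q'⟩) :
    ∃ y, (∀ x, (⟨src x, s₁ x⟩ : Σ v, Place k (Ft v)) ≠ y) ∧
      (∀ x, (⟨tgt x, s₂ x⟩ : Σ v, Place k (Ft v)) ≠ y) ∧ P ∈ smTube y := by
  obtain ⟨fib, X, hfib⟩ := h v Q' h1 h2
  exact exists_smTube_of_fibreOver X hfib hP

end Old

/-! ### the nodes of the base -/

section Nodes

variable {K F' F'' : Type*} [Field K] [Field F'] [Field F''] [Algebra K F'] [Algebra K F'']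
  {k : Type*} [Field k] {A : ValuationSubring K} {π : A →+* k} {ι₀ : Type*}
  {Ft₀ : ι₀ → Type*} [∀ v, Field (Ft₀ v)] [∀ v, Algebra k (Ft₀ v)] {ν₀ : Type*}
  {S₀ : SemistableSetup (F := F') A π ι₀ Ft₀ ν₀} {ρ : Place K F'' → Place K F'}
  {Mid SSp KP : Type} {Ft : Comp Mid SSp → Type} [∀ v, Field (Ft v)] [∀ v, Algebra k (Ft v)]
  (comp : SSp → KP → Mid)
  (pInf : SSp → Place k (Ft cInf)) (pMid : ∀ e s, Place k (Ft (mid (comp e s))))
  (zW : ∀ e, Place k (Ft (ze e))) (pZero : SSp → Place k (Ft cZero))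
  (zT : ∀ e, Place k (Ft (ze e))) (zK : ∀ e, KP → Place k (Ft (ze e)))
  (nodeTube : Node SSp KP → Set (Place K F''))
  (smTube : (Σ v, Place k (Ft v)) → Set (Place K F''))

/-- The points of `outerFib` are source branches. -/
theorem outerFib_isSrc [Fintype KP] (e : SSp) :
    ∀ x ∈ (outerFib comp pInf pMid e : Set (Σ v, Place k (Ft v))),
      ∃ n : Node SSp KP,
        (⟨src comp n, s₁Of comp pInf pMid zW n⟩ : Σ v, Place k (Ft v)) = x := by
  intro x hx
  rcases (mem_outerFib comp pInf pMid).mp (Finset.mem_coe.mp hx) with rfl | ⟨s, rfl⟩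
  · exact ⟨nT e, rfl⟩
  · exact ⟨nk e s, rfl⟩

/-- The point of `innerFib` is a source branch. -/
theorem innerFib_isSrc (e : SSp) :
    ∀ x ∈ (innerFib zW e : Set (Σ v, Place k (Ft v))),
      ∃ n : Node SSp KP,
        (⟨src comp n, s₁Of comp pInf pMid zW n⟩ : Σ v, Place k (Ft v)) = x := by
  intro x hx
  rw [(mem_innerFib zW).mp (Finset.mem_coe.mp hx)]
  exact ⟨nW e, rfl⟩

variable
  (hbr : Function.Injective
    (Sum.elim (fun x => (⟨src comp x, s₁Of comp pInf pMid zW x⟩ : Σ v, Place k (Ft v)))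
      (fun x => ⟨tgt x, s₂Of pZero zT zK x⟩)))

include hbr in
/-- A place over a point of the base whose fibre (for the tube family of `S''`) consists of source
branches lies in a raw node tube. -/
theorem exists_nodeTube_of_fibreOver {y' : Σ v, Place k (Ft₀ v)}
    {fib : Set (Σ v, Place k (Ft v))}
    (X : FibreOver S₀ ρ (tubeS comp pInf pMid zW pZero zT zK nodeTube smTube) y' fib)
    (hfib : ∀ x ∈ fib, ∃ n : Node SSp KP,
      (⟨src comp n, s₁Of comp pInf pMid zW n⟩ : Σ v, Place k (Ft v)) = x)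
    {P : Place K F''} (hP : S₀.r (ρ P) = y') : ∃ n, P ∈ nodeTube n := by
  obtain ⟨x, hx, hPx⟩ := X.exh P hP
  obtain ⟨n, rfl⟩ := hfib x hx
  refine ⟨n, ?_⟩
  rwa [tubeS, tubeFam_src nodeTube smTube
    (srcBranch_injective comp pInf pMid zW pZero zT zK hbr)] at hPx

end Nodes

section NodesRaw

variable {K F' F'' : Type*} [Field K] [Field F'] [Field F''] [Algebra K F'] [Algebra K F'']
  [HasPrincipalDivisors K F'']
  {A : ValuationSubring K} {ι₀ : Type*}
  {Ft₀ : ι₀ → Type*} [∀ v, Field (Ft₀ v)] [∀ v, Algebra (ResidueField A) (Ft₀ v)] {ν₀ : Type*}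
  (S₀ : SemistableSetup (F := F') A (residue A) ι₀ Ft₀ ν₀)
  {Mid SSp KP : Type} [Fintype KP] {Ft : Comp Mid SSp → Type} [∀ v, Field (Ft v)]
  [∀ v, Algebra (ResidueField A) (Ft v)] (comp : SSp → KP → Mid)
  (pInf : SSp → Place (ResidueField A) (Ft cInf))
  (pMid : ∀ e s, Place (ResidueField A) (Ft (mid (comp e s))))
  (zW : ∀ e, Place (ResidueField A) (Ft (ze e)))
  (pZero : SSp → Place (ResidueField A) (Ft cZero))
  (zT : ∀ e, Place (ResidueField A) (Ft (ze e)))
  (zK : ∀ e, KP → Place (ResidueField A) (Ft (ze e)))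
  (nodeTube : Node SSp KP → Set (Place K F''))
  (smTube : (Σ v, Place (ResidueField A) (Ft v)) → Set (Place K F''))
  (hbr : Function.Injective
    (Sum.elim (fun x => (⟨src comp x, s₁Of comp pInf pMid zW x⟩ :
        Σ v, Place (ResidueField A) (Ft v)))
      (fun x => ⟨tgt x, s₂Of pZero zT zK x⟩)))

include hbr in
/-- The Kummer points over one supersingular point are pairwise distinct. -/
theorem ptMid_injective_of_hbr (e : SSp) : Function.Injective (ptMid comp pMid e) := by
  intro s s' h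
  have h1 : (nk e s : Node SSp KP) = nk e s' :=
    srcBranch_injective comp pInf pMid zW pZero zT zK hbr h
  simpa [nk] using h1

include hbr in
/-- **The fibre over the source branch of an outer node of the base, from the RAW node tubes**:
helper23's `fibreOver_outer_along` for the tube family `tubeS ..` of `S''`. -/
theorem fibreOver_outer_raw [IsAlgClosed (ResidueField A)] [IsAlgClosed K]
    (a : F' →ₐ[K] F'') (ha : a.toRingHom.IsIntegral) (hFI : FundamentalIdentityAlong K a ha)
    (e : SSp) (n : ν₀) (C' : AnnulusCore A {P | S₀.r P = ⟨S₀.src n, S₀.s₁ n⟩}) (d : KP → ℕ)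
    (XT : Nonempty (AnnSheet A (nodeTube (nT e)) (a C'.u) C'.thick 1))
    (XK : ∀ s, Nonempty (AnnSheet A (nodeTube (nk e s)) (a C'.u) C'.thick (d s)))
    (hsubT : ∀ P ∈ nodeTube (nT e), S₀.r (P.restrictAlong a ha) = ⟨S₀.src n, S₀.s₁ n⟩)
    (hsubK : ∀ s, ∀ P ∈ nodeTube (nk e s), S₀.r (P.restrictAlong a ha) = ⟨S₀.src n, S₀.s₁ n⟩)
    (hTK : ∀ s P, P ∈ nodeTube (nT e) → P ∉ nodeTube (nk e s))
    (hKK : ∀ s s' P, P ∈ nodeTube (nk e s) → P ∈ nodeTube (nk e s') → s = s')
    (hsum : 1 + ∑ s, d s = finrankAlong K a)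
    (hdeg'' : ∀ P : Place K F'', P.deg = 1) (hdeg' : ∀ P : Place K F', P.deg = 1) :
    FibreOver S₀ (fun P => P.restrictAlong a ha)
      (tubeS comp pInf pMid zW pZero zT zK nodeTube smTube) ⟨S₀.src n, S₀.s₁ n⟩
      (outerFib comp pInf pMid e : Set (Σ v, Place (ResidueField A) (Ft v))) := by
  have hT := THf_pInf comp pInf pMid zW pZero zT zK nodeTube smTube hbr e
  have hK := fun s => TMf_pMid comp pInf pMid zW pZero zT zK nodeTube smTube hbr e s
  rw [← tubeOf_eq_tubeS]
  refine fibreOver_outer_along S₀ comp pInf pMid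
    (THf comp pInf pMid zW pZero zT zK nodeTube smTube)
    (TMf comp pInf pMid zW pZero zT zK nodeTube smTube)
    (TZf comp pInf pMid zW pZero zT zK nodeTube smTube) a ha hFI e n C' d ?_ ?_ ?_ ?_ ?_ ?_
    (ptMid_injective_of_hbr comp pInf pMid zW pZero zT zK hbr e) hsum hdeg'' hdeg'
  · rw [hT]; exact XT
  · intro s; rw [hK s]; exact XK s
  · intro P hP; rw [hT] at hP; exact hsubT P hP
  · intro s P hP; rw [hK s] at hP; exact hsubK s P hP
  · intro s P hP; rw [hT] at hP; rw [hK s]; exact hTK s P hP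
  · intro s s' P hP hP'; rw [hK s] at hP; rw [hK s'] at hP'; exact hKK s s' P hP hP'

include hbr in
/-- **The fibre over the source branch of an inner node of the base, from the RAW node tube**:
helper23's `fibreOver_inner_along` for the tube family `tubeS ..` of `S''`. -/
theorem fibreOver_inner_raw [IsAlgClosed (ResidueField A)] [IsAlgClosed K]
    (a : F' →ₐ[K] F'') (ha : a.toRingHom.IsIntegral) (hFI : FundamentalIdentityAlong K a ha)
    (e : SSp) (n : ν₀) (C' : AnnulusCore A {P | S₀.r P = ⟨S₀.src n, S₀.s₁ n⟩}) (d : ℕ)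
    (XW : Nonempty (AnnSheet A (nodeTube (nW e)) (a C'.u) C'.thick d))
    (hsubW : ∀ P ∈ nodeTube (nW e), S₀.r (P.restrictAlong a ha) = ⟨S₀.src n, S₀.s₁ n⟩)
    (hsum : d = finrankAlong K a)
    (hdeg'' : ∀ P : Place K F'', P.deg = 1) (hdeg' : ∀ P : Place K F', P.deg = 1) :
    FibreOver S₀ (fun P => P.restrictAlong a ha)
      (tubeS comp pInf pMid zW pZero zT zK nodeTube smTube) ⟨S₀.src n, S₀.s₁ n⟩
      (innerFib zW e : Set (Σ v, Place (ResidueField A) (Ft v))) := by
  have hW := TZf_zW comp pInf pMid zW pZero zT zK nodeTube smTube hbr e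
  rw [← tubeOf_eq_tubeS]
  refine fibreOver_inner_along S₀ zW
    (THf comp pInf pMid zW pZero zT zK nodeTube smTube)
    (TMf comp pInf pMid zW pZero zT zK nodeTube smTube)
    (TZf comp pInf pMid zW pZero zT zK nodeTube smTube) a ha hFI e n C' d ?_ ?_ hsum hdeg'' hdeg'
  · rw [hW]; exact XW
  · intro P hP; rw [hW] at hP; exact hsubW P hP

end NodesRaw

section NodesSRef

variable {K : Type} {F : Type*} [Field K] [Field F] [Algebra K F]
  {A : ValuationSubring K} [IsAlgClosed (ResidueField A)]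
  {ι₀ : Type} {Ft₀ : ι₀ → Type} [∀ v, Field (Ft₀ v)] [∀ v, Algebra (ResidueField A) (Ft₀ v)]
  {ν₀ : Type}
  {S₀ : SemistableSetup (F := F) A (residue A) ι₀ Ft₀ ν₀}
  (I : CircleInputsN S₀) (a₀ : ν₀ → K) (hadm : ∀ e, I.adm e (a₀ e))
  {F'' : Type*} [Field F''] [Algebra K F''] {ρ : Place K F'' → Place K F}
  {Mid SSp KP : Type} [Fintype KP] {Ft : Comp Mid SSp → Type} [∀ v, Field (Ft v)]
  [∀ v, Algebra (ResidueField A) (Ft v)]
  (ea : SSp → ν₀)
  (comp : SSp → KP → Mid)
  (pInf : SSp → Place (ResidueField A) (Ft cInf))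
  (pMid : ∀ e s, Place (ResidueField A) (Ft (mid (comp e s))))
  (zW : ∀ e, Place (ResidueField A) (Ft (ze e)))
  (pZero : SSp → Place (ResidueField A) (Ft cZero))
  (zT : ∀ e, Place (ResidueField A) (Ft (ze e)))
  (zK : ∀ e, KP → Place (ResidueField A) (Ft (ze e)))
  (nodeTube : Node SSp KP → Set (Place K F''))
  (smTube : (Σ v, Place (ResidueField A) (Ft v)) → Set (Place K F''))
  (hbr : Function.Injective
    (Sum.elim (fun x => (⟨src comp x, s₁Of comp pInf pMid zW x⟩ :
        Σ v, Place (ResidueField A) (Ft v)))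
      (fun x => ⟨tgt x, s₂Of pZero zT zK x⟩)))
  (hea : Function.Surjective ea)

include hbr hea in
/-- **The hypothesis `cOuter` of `raw_cover_of_regions`** from helper23's `fibreOver_outer(_along)`
over the outer nodes of `S'ref`. -/
theorem cOuter_of_fibreOver
    (h : ∀ e : SSp, FibreOver (sref I a₀ hadm) ρ
      (tubeS comp pInf pMid zW pZero zT zK nodeTube smTube)
      ⟨(sref I a₀ hadm).src (outer I a₀ hadm (ea e)), (sref I a₀ hadm).s₁ (outer I a₀ hadm (ea e))⟩
      (outerFib comp pInf pMid e : Set (Σ v, Place (ResidueField A) (Ft v))))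
    (e : ν₀) (P : Place K F'') (hP : ρ P ∈ tube (sref I a₀ hadm) (outer I a₀ hadm e)) :
    ∃ x, P ∈ nodeTube x := by
  obtain ⟨e', rfl⟩ := hea e
  exact exists_nodeTube_of_fibreOver comp pInf pMid zW pZero zT zK nodeTube smTube hbr (h e')
    (outerFib_isSrc comp pInf pMid zW e') hP

include hbr hea in
/-- **The hypothesis `cInner` of `raw_cover_of_regions`** from helper23's `fibreOver_inner(_along)`
over the inner nodes of `S'ref`. -/
theorem cInner_of_fibreOver
    (h : ∀ e : SSp, FibreOver (sref I a₀ hadm) ρ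
      (tubeS comp pInf pMid zW pZero zT zK nodeTube smTube)
      ⟨(sref I a₀ hadm).src (inner I a₀ hadm (ea e)), (sref I a₀ hadm).s₁ (inner I a₀ hadm (ea e))⟩
      (innerFib zW e : Set (Σ v, Place (ResidueField A) (Ft v))))
    (e : ν₀) (P : Place K F'') (hP : ρ P ∈ tube (sref I a₀ hadm) (inner I a₀ hadm e)) :
    ∃ x, P ∈ nodeTube x := by
  obtain ⟨e', rfl⟩ := hea e
  exact exists_nodeTube_of_fibreOver comp pInf pMid zW pZero zT zK nodeTube smTube hbr (h e')
    (innerFib_isSrc comp pInf pMid zW e') hP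

end NodesSRef

end Fermat.Agent.BR3.SDD.Partition
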