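import Mathlib
import Fermat.Agent.BR3.SDD.Skeleton

/-!
# Program C (S36), node I7 (INTEGRATOR), part 2: the residue fields of `S''` by cases

The residue function fields of the components of `S''` have different types (`cInf`, `cZero`: the
function field of `X₀(M)` over `k`; `mid i`: a Kummer extension of it; `ze e`: the function field
of the vertical curve).  `FtOf FH FM FZ : Comp Mid SSp → Type` assembles them, with the `Field` and
`Algebra k` instances by cases (the pattern of `Refine.FtR`), and `constRedOf` assembles the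
constant reductions of the components (the field `C` of `SDD.Input`).

All projections are `rfl`: `FtOf FH FM FZ cInf = FH false`, `FtOf FH FM FZ cZero = FH true`,
`FtOf FH FM FZ (mid i) = FM i`, `FtOf FH FM FZ (ze e) = FZ e`.
-/

set_option autoImplicit false

noncomputable section

namespace Fermat.Agent.BR3.SDD

open Fermat.Agent.Val

variable {Mid SSp : Type}

/-- The residue function fields of the components of `S''`, by cases. -/
def FtOf (FH : Bool → Type) (FM : Mid → Type) (FZ : SSp → Type) : Comp Mid SSp → Type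
  | Sum.inl (Sum.inl b) => FH b
  | Sum.inl (Sum.inr i) => FM i
  | Sum.inr e => FZ e

section Instances

variable {FH : Bool → Type} {FM : Mid → Type} {FZ : SSp → Type}

instance instFieldFtOf [∀ b, Field (FH b)] [∀ i, Field (FM i)] [∀ e, Field (FZ e)] :
    ∀ v, Field (FtOf FH FM FZ v)
  | Sum.inl (Sum.inl b) => inferInstanceAs (Field (FH b))
  | Sum.inl (Sum.inr i) => inferInstanceAs (Field (FM i))
  | Sum.inr e => inferInstanceAs (Field (FZ e))

instance instAlgebraFtOf {k : Type*} [Field k] [∀ b, Field (FH b)] [∀ i, Field (FM i)]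
    [∀ e, Field (FZ e)] [∀ b, Algebra k (FH b)] [∀ i, Algebra k (FM i)]
    [∀ e, Algebra k (FZ e)] : ∀ v, Algebra k (FtOf FH FM FZ v)
  | Sum.inl (Sum.inl b) => inferInstanceAs (Algebra k (FH b))
  | Sum.inl (Sum.inr i) => inferInstanceAs (Algebra k (FM i))
  | Sum.inr e => inferInstanceAs (Algebra k (FZ e))

end Instances

variable (FH : Bool → Type) (FM : Mid → Type) (FZ : SSp → Type)

theorem ftOf_cInf : FtOf FH FM FZ cInf = FH false := rfl

theorem ftOf_cZero : FtOf FH FM FZ cZero = FH true := rfl

theorem ftOf_mid (i : Mid) : FtOf FH FM FZ (mid i) = FM i := rfl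

theorem ftOf_ze (e : SSp) : FtOf FH FM FZ (ze e) = FZ e := rfl

variable {FH FM FZ}

/-- **The constant reductions of the components of `S''`, by cases.** -/
def constRedOf {K F k : Type*} [Field K] [Field F] [Algebra K F] [Field k]
    {A : ValuationSubring K} {π : A →+* k}
    [∀ b, Field (FH b)] [∀ i, Field (FM i)] [∀ e, Field (FZ e)]
    [∀ b, Algebra k (FH b)] [∀ i, Algebra k (FM i)] [∀ e, Algebra k (FZ e)]
    (CH : ∀ b, ConstRed (F := F) (Ft := FH b) A π)
    (CM : ∀ i, ConstRed (F := F) (Ft := FM i) A π)
    (CZ : ∀ e, ConstRed (F := F) (Ft := FZ e) A π) :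
    ∀ v, ConstRed (F := F) (Ft := FtOf FH FM FZ v) A π
  | Sum.inl (Sum.inl b) => CH b
  | Sum.inl (Sum.inr i) => CM i
  | Sum.inr e => CZ e

section ConstRed

variable {K F k : Type*} [Field K] [Field F] [Algebra K F] [Field k]
  {A : ValuationSubring K} {π : A →+* k}
  [∀ b, Field (FH b)] [∀ i, Field (FM i)] [∀ e, Field (FZ e)]
  [∀ b, Algebra k (FH b)] [∀ i, Algebra k (FM i)] [∀ e, Algebra k (FZ e)]
  (CH : ∀ b, ConstRed (F := F) (Ft := FH b) A π)
  (CM : ∀ i, ConstRed (F := F) (Ft := FM i) A π)
  (CZ : ∀ e, ConstRed (F := F) (Ft := FZ e) A π)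

@[simp] theorem constRedOf_cInf : constRedOf CH CM CZ cInf = CH false := rfl

@[simp] theorem constRedOf_cZero : constRedOf CH CM CZ cZero = CH true := rfl

@[simp] theorem constRedOf_mid (i : Mid) : constRedOf CH CM CZ (mid i) = CM i := rfl

@[simp] theorem constRedOf_ze (e : SSp) : constRedOf CH CM CZ (ze e) = CZ e := rfl

/-- The valuation rings of the components are pairwise distinct as soon as they are so inside each
family and across the families. -/
theorem constRedOf_O_injective
    (hH : Function.Injective fun b => (CH b).O) (hM : Function.Injective fun i => (CM i).O)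
    (hZ : Function.Injective fun e => (CZ e).O)
    (hHM : ∀ b i, (CH b).O ≠ (CM i).O) (hHZ : ∀ b e, (CH b).O ≠ (CZ e).O)
    (hMZ : ∀ i e, (CM i).O ≠ (CZ e).O) :
    Function.Injective fun v => (constRedOf CH CM CZ v).O := by
  rintro ((b | i) | e) ((b' | i') | e') h
  · exact congrArg (fun b => Sum.inl (Sum.inl b)) (hH h)
  · exact absurd h (hHM b i')
  · exact absurd h (hHZ b e')
  · exact absurd h.symm (hHM b' i)
  · exact congrArg (fun i => Sum.inl (Sum.inr i)) (hM h)
  · exact absurd h (hMZ i e')
  · exact absurd h.symm (hHZ b' e)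
  · exact absurd h.symm (hMZ i' e)
  · exact congrArg Sum.inr (hZ h)

end ConstRed

end Fermat.Agent.BR3.SDD
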