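import Fermat.Agent.BR3.SDD.ModularTop
import Fermat.Agent.BR3.VertBetaFr
import Fermat.Agent.BR3.ThickOneCount

/-!
# Program C (S36), node I7 (integrator), part 12: the frame of the final assembly

* `pInfM e := z₁ e`, `pZeroM e := z₂ (Fr e)` (`= z₁ e` by `rfl`): the points of the two horizontal
  components `cInf`, `cZero` (residue field `F̃_M`) of `S''` over the supersingular point `e`;
  `pInfM_injective`, `pZeroM_injective`, `nonempty_SSpM`;
* `FtAll FZ` : the residue fields of the components (`F̃_M`, `F̃_M`, `FMid M B`, `FZ e`), with the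
  genus of the horizontal components `genus_cInf_FtAll`, `genus_cZero_FtAll`;
* `modelAt_of_casesAll` : `SDD.Modular.modelAt_of_cases` for `Ft := FtAll FZ` and `X.C = CAll …`
  ((G2), the ring identifications and the genera of the horizontal components discharged);
* `modelProvider_of_modelAt` : `S36Plug.ModelProvider` from `ModelAt` for all `(M, q, lam, B)` with
  the instances `[Fact q.Prime]`, `[IsAlgClosed (ResidueField B)]` as binders.
-/

set_option autoImplicit false
set_option linter.style.haveILetI false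
set_option linter.unusedSectionVars false
set_option linter.unusedVariables false
set_option synthInstance.maxHeartbeats 400000

open ModularCurve AlgebraicCurve

noncomputable section

/- S36 build-time patch: file-local shortcut instances. They only shorten instance search;
each is the instance that the search finds anyway (reducible, same terms after unfolding). -/
local instance (priority := 100000) Fermat.Agent.BR3.FastInst.instAlgFullC_SDD_ModularFrame
    {k : Type*} [Field k] (N : ℕ) :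
    Algebra k ↥(ModularCurve.modularFunctionFieldFullC k N) := inferInstance
local instance (priority := 100000) Fermat.Agent.BR3.FastInst.instFieldFullC_SDD_ModularFrame
    {k : Type*} [Field k] (N : ℕ) :
    Field ↥(ModularCurve.modularFunctionFieldFullC k N) := inferInstance
local instance (priority := 100000) Fermat.Agent.BR3.FastInst.instAlgLaurent_SDD_ModularFrame
    {k : Type*} [Field k] : Algebra k (LaurentSeries k) := inferInstance


namespace Fermat.Agent.BR3.SDD.Modular

open IsLocalRing Fermat.Agent.Jac Fermat.Agent.X0 Fermat.Agent.Red Fermat.Agent.Val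
  Fermat.Agent.BR.SS Fermat.Agent.BR Fermat.Agent.BR.InertiaRed Fermat.Agent.BR.UnramCyclo
  Fermat.Agent.BR2.Filt Fermat.Agent.BR3.FiltMaps Fermat.Agent.BR3.FiltPerm
  Fermat.Agent.BR.LevelTransfer Fermat.Agent.BR2.LevelMaps
  Fermat.Agent.BR3.TorGlue Fermat.Agent.BR3.EquivInert
  Fermat.Agent.BR.S0 Fermat.Agent.BR.S0.PointDict Fermat.Agent.BR.S0.RedModular
  Fermat.Agent.BR2.SetupOfData Fermat.Agent.BR3.FibreProd Fermat.Agent.BR.TwoVal
  Fermat.Agent.BR3.ThickSDDPlug Fermat.Agent.BR3.SRef.Modular Fermat.Agent.BR3.VertBetaFr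

local notation "Qb" => AlgebraicClosure ℚ

variable {M q : ℕ} [NeZero M] [hq : Fact q.Prime] [NeZero q]
variable (B : ValuationSubring (AlgebraicClosure ℚ)) (hB : B.LiesOverPrime q) (hqM : ¬ q ∣ M)
variable [IsAlgClosed (ResidueField B)]
variable {ζ : Kbˣ} (hζ : IsPrimitiveRoot ζ q)

local notation "kB" => IsLocalRing.ResidueField B
local notation "FtM" => modularFunctionFieldFullC (IsLocalRing.ResidueField B) M

/-- (shortcut instance) -/
local instance (priority := 100000) instAlgebraFtMShortcutF :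
    Algebra (IsLocalRing.ResidueField B)
      (modularFunctionFieldFullC (IsLocalRing.ResidueField B) M) :=
  inferInstance

/-! ### The points of the horizontal components over the supersingular points -/

/-- The point of `cInf` over the supersingular point `e` (source of the node `nT e`). -/
def pInfM (e : SSpM B hB hqM) : Place kB FtM := z₁ (chartDataModular B hB hqM) e

/-- The point of `cZero` over the supersingular point `e` (target of the node `nW e`): the branch
on the component `et` of the swapped crossing `Fr e`. -/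
def pZeroM (e : SSpM B hB hqM) : Place kB FtM :=
  z₂ (chartDataModular B hB hqM) (Fr B hB hqM e)

theorem pInfM_eq (e : SSpM B hB hqM) : pInfM B hB hqM e = z₁ (chartDataModular B hB hqM) e := rfl

theorem pZeroM_eq (e : SSpM B hB hqM) : pZeroM B hB hqM e = z₁ (chartDataModular B hB hqM) e :=
  rfl

theorem pZeroM_eq_pInfM (e : SSpM B hB hqM) : pZeroM B hB hqM e = pInfM B hB hqM e := rfl

theorem pInfM_injective (h2 : nuTwo M = 0) (h3 : nuThree M = 0) :
    Function.Injective (pInfM B hB hqM) :=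
  Fermat.Agent.BR3.ThickOneCount.z₁_injective B hB hqM h2 h3

theorem pZeroM_injective (h2 : nuTwo M = 0) (h3 : nuThree M = 0) :
    Function.Injective (pZeroM B hB hqM) :=
  Fermat.Agent.BR3.ThickOneCount.z₁_injective B hB hqM h2 h3

theorem nonempty_SSpM : Nonempty (SSpM B hB hqM) := nonempty_crossing (DtM B hB hqM)

/-! ### The residue fields of the components -/

/-- The residue function fields of the components of `S''`: `F̃_M` for `cInf`, `cZero`,
`FMid M B` for the middle components, `FZ e` for the vertical components. -/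
abbrev FtAll (FZ : SSpM B hB hqM → Type) : Comp (MidM B hB hqM hζ) (SSpM B hB hqM) → Type :=
  FtOf (fun _ : Bool => FtM) (fun _ : MidM B hB hqM hζ => FMid M B) FZ

variable {FZ : SSpM B hB hqM → Type} [∀ e, Field (FZ e)] [∀ e, Algebra (ResidueField B) (FZ e)]

theorem genus_cInf_FtAll :
    (genusFF (ResidueField B) (FtAll B hB hqM hζ FZ cInf) : ℤ) = (genusFF Qb (Fb M) : ℤ) :=
  Fermat.Agent.BR3.GenusHg.genusFF_modL_eq_genusFF_bar M q B hB hqM

theorem genus_cZero_FtAll :
    (genusFF (ResidueField B) (FtAll B hB hqM hζ FZ SDD.cZero) : ℤ) = (genusFF Qb (Fb M) : ℤ) :=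
  Fermat.Agent.BR3.GenusHg.genusFF_modL_eq_genusFF_bar M q B hB hqM

/-! ### `ModelAt` for `Ft := FtAll FZ`, `C := CAll …` -/

section CasesAll

variable {KP : Type} [Fintype KP] [Fintype (SSpM B hB hqM)]
  (CZ : ∀ e, ConstRed (F := Fb (M * q * q)) (Ft := FZ e) B (residue B))
  (X : CaseInput (F := Fb (M * q * q)) B (MidM B hB hqM hζ) (SSpM B hB hqM) KP
    (FtAll B hB hqM hζ FZ))
  {ιT : SSpM B hB hqM → Type} {ιK : SSpM B hB hqM → KP → Type} {ιW : SSpM B hB hqM → Type}
  (Y : CaseCircle X ιT ιK ιW)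

/-- **`S36Plug.ModelAt` from the by-cases inputs with `C := CAll …`**: (G2), the ring
identifications and the genera of the horizontal components are discharged. -/
theorem modelAt_of_casesAll (hXC : X.C = CAll B hB hqM hζ CZ)
    (lam : ℕ) (hlam : lam.Prime) (hqlam : q ≠ lam) (h2 : nuTwo M = 0) (h3 : nuThree M = 0)
    (hZ : ∀ e, RiemannPkg (ResidueField B) (FZ e))
    -- (G7)
    {gz : ℤ} (hze : ∀ e, (genusFF (ResidueField B) (FZ e) : ℤ) = gz)
    (hsurj : ∀ e i, ∃ s, X.comp e s = i)
    (dM : MidM B hB hqM hζ → ℤ) (hdM : ∑ i, dM i = (q : ℤ) - 1)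
    (hRH : ∀ i, dM i * (2 * (genusFF Qb (Fb M) : ℤ) - 2) +
        (Fintype.card (SSpM B hB hqM) : ℤ) * (dM i - 1) ≤
      2 * (genusFF (ResidueField B) (FMid M B) : ℤ) - 2)
    (hz : (q : ℤ) + 1 ≤ 2 * gz + (Fintype.card KP : ℤ))
    -- (G3)
    {d : ℕ} (hd : d * Fintype.card KP + 1 = q) (κ₀ : SSpM B hB hqM → KP → Qb)
    (hT : ∀ e, (Y.LT e).thick = gaugeA q B hB hqM e)
    (hW : ∀ e, (Y.LW e).thick = (gaugeB q B hB hqM e)⁻¹ * thick (DtM B hB hqM) e)
    (hκ : ∀ e s, B.valuation (κ₀ e s) = 1)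
    (hK : ∀ e s, gaugeA q B hB hqM e = κ₀ e s * (Y.LK e s).thick ^ d)
    -- (G4)
    (hparts : ∀ s ∈ B.inertiaSubgroupIn ℚ, s (unifSDD q) = unifSDD q →
      (∀ a ∈ cycloField Qb q, s a = a) → (∀ ζ' : Qb, ζ' ^ q = 1 → s ζ' = ζ') →
      ActsTrivially (w1 M B hB) (galAut (M * q * q) s) ∧
      ActsTrivially (Fermat.Agent.BR3.CZero.cZero B hB hqM) (galAut (M * q * q) s) ∧
      (∀ i : MidM B hB hqM hζ, ActsTrivially (i.ring B hB hqM hζ) (galAut (M * q * q) s)) ∧
      (∀ e, ActsTrivially (CZ e).O (galAut (M * q * q) s)) ∧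
      (∀ b Q, ∀ P ∈ X.TH b Q, galAut (M * q * q) s • P ∈ X.TH b Q) ∧
      (∀ i Q, ∀ P ∈ X.TM i Q, galAut (M * q * q) s • P ∈ X.TM i Q) ∧
      (∀ e Q, ∀ P ∈ X.TZ e Q, galAut (M * q * q) s • P ∈ X.TZ e Q) ∧
      (∀ e, galAut (M * q * q) s • (Y.LT e).u = (Y.LT e).u) ∧
      (∀ e t, galAut (M * q * q) s • (Y.LK e t).u = (Y.LK e t).u) ∧
      ∀ e, galAut (M * q * q) s • (Y.LW e).u = (Y.LW e).u)
    -- (G5)
    (e₂ : ℕ) (he₂ : e₂ ≠ 0)
    (hvert : ∀ e : SSpM B hB hqM, ∃ s ∈ B.inertiaSubgroupIn ℚ,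
      ∃ a : FZ e ≃ₐ[ResidueField B] FZ e,
        MapsComp X.toInput.setup (galAut (M * q * q) s) (ze e) (ze e) a ∧
        ∀ x : Pic0 (ResidueField B) (FZ e), SemilinearAut.ofAlgAut a • x = x → e₂ • x = 0)
    -- (G6)
    (ht : S36Plug.TameProp M q lam B X.toInput) : S36Plug.ModelAt M q lam B := by
  have hInf : (X.C cInf).O = w1 M B hB := by rw [hXC]; rfl
  have hZero : (X.C SDD.cZero).O = Fermat.Agent.BR3.CZero.cZero B hB hqM := by rw [hXC]; rfl
  have hMid : ∀ i, (X.C (mid i)).O = i.ring B hB hqM hζ := fun i => by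
    rw [hXC]; exact CAll_mid_O B hB hqM hζ CZ i
  have hZe : ∀ e, (X.C (ze e)).O = (CZ e).O := fun e => by rw [hXC]; rfl
  refine modelAt_of_cases B hB hqM hζ X Y lam hlam hqlam h2 h3 (hFtAll B hB hqM hζ hZ) hInf hZero
    hMid (genus_cZero_FtAll B hB hqM hζ) (genus_cInf_FtAll B hB hqM hζ) hze hsurj dM hdM hRH hz
    hd κ₀ hT hW hκ hK ?_ e₂ he₂ hvert ht
  intro s hs h1 h2' h3'
  obtain ⟨a1, a2, a3, a4, a5⟩ := hparts s hs h1 h2' h3'
  refine ⟨hInf ▸ a1, hZero ▸ a2, fun i => (hMid i) ▸ a3 i, fun e => (hZe e) ▸ a4 e, a5⟩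

end CasesAll

/-! ### The provider -/

/-- **`S36Plug.ModelProvider` from `ModelAt`** for all `(M, q, lam, B)`, the instances
`[Fact q.Prime]`, `[IsAlgClosed (ResidueField B)]` being binders. -/
theorem modelProvider_of_modelAt
    (h : ∀ (M q lam : ℕ) [NeZero M] [Fact q.Prime] [NeZero q], ¬ q ∣ M → lam.Prime → q ≠ lam →
      nuTwo M = 0 → nuThree M = 0 → ∀ (B : ValuationSubring Qb), B.LiesOverPrime q →
      ∀ [IsAlgClosed (ResidueField B)], S36Plug.ModelAt M q lam B) :
    S36Plug.ModelProvider := by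
  intro M q lam _ _ hq hqM hlam hqlam h2 h3 B hB
  haveI : Fact q.Prime := ⟨hq⟩
  exact @h M q lam _ _ _ hqM hlam hqlam h2 h3 B hB (Fermat.Agent.BR2.ResInst.isAlgClosed_res B)

end Fermat.Agent.BR3.SDD.Modular
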