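import Fermat.Agent.BR3.SDD.PartitionMod
import Fermat.Agent.BR3.CoverK.OfConstRed

/-!
# Program C (S36), node I7 (W4-CAN-MOD), part 2: the fibre over a point of `can` from the CHARTS
upstairs

The count `hcount` of `fibreOver_can` and the unramifiedness `hunr` need no `CoverSheet`: they follow
from the smooth charts upstairs (the fields `smInf`, `smMid` of `SDD.CaseInput`, needed anyway) as soon
as their parameter is the image `α₂ t'` of the parameter of the chart downstairs (`cInfChart_t`,
`sheetChart_t`, `coverRegChart`: by `rfl`).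

* `count_one_of_chart` (abstract) : `t'' - c` has exactly one zero on the tube of a smooth chart with
  parameter `t''` (`SmoothChart.conservation` + `ord_res_t`); `count_one_of_chart_map` : the same for
  `φ (t' - c)` when `t'' = φ t'`;
* `ramificationIndex_eq_one_of_ord` (abstract) : `e (w | v) = 1` from ONE function `f` with
  `ord_v f = 1 = ord_w f`;
* **`fibreOver_can_of_charts`** : `FibreOver (setup (DtM ..)) (rhoA M q) smTube ⟨0, Q'⟩ (canFib .. Q')`
  from (sub), (disj) and, for every point of `canFib Q'`, a smooth chart upstairs on its raw tube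
  with parameter `α₂ t'` (`hInf` for `⟨cInf, Q'⟩`, `hMidC i Q''` for `⟨mid i, Q''⟩`).
-/

set_option autoImplicit false
set_option linter.style.haveILetI false
set_option linter.unusedSectionVars false
set_option linter.unusedVariables false
set_option synthInstance.maxHeartbeats 400000

open ModularCurve AlgebraicCurve

noncomputable section

/- S36 build-time patch: file-local shortcut instances. They only shorten instance search;
each is the instance that the search finds anyway (reducible, same terms after unfolding). -/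
local instance (priority := 100000) Fermat.Agent.BR3.FastInst.instAlgFullC_SDD_PartitionCan
    {k : Type*} [Field k] (N : ℕ) :
    Algebra k ↥(ModularCurve.modularFunctionFieldFullC k N) := inferInstance
local instance (priority := 100000) Fermat.Agent.BR3.FastInst.instFieldFullC_SDD_PartitionCan
    {k : Type*} [Field k] (N : ℕ) :
    Field ↥(ModularCurve.modularFunctionFieldFullC k N) := inferInstance
local instance (priority := 100000) Fermat.Agent.BR3.FastInst.instAlgLaurent_SDD_PartitionCan
    {k : Type*} [Field k] : Algebra k (LaurentSeries k) := inferInstance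


namespace Fermat.Agent.BR3.SDD.Partition

open Fermat.Agent.Red Fermat.Agent.BR.S0 Fermat.Agent.BR3.CoverK Fermat.Agent.BR3.CoverK.Factor

section Abstract

variable {K F'' k Ft'' : Type*} [Field K] [Field F''] [Algebra K F''] [Field k] [Field Ft'']
  [Algebra k Ft''] {A : ValuationSubring K} {π : A →+* k} {O'' : ValuationSubring F''}
  {res'' : O'' →+* Ft''} {Q'' : Place k Ft''} {T'' : Set (Place K F'')}

/-- **One zero on the tube of a smooth chart**: `t'' - c` (`|c| < 1`) has exactly one zero on the
tube of a smooth chart with parameter `t''`. -/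
theorem count_one_of_chart (C'' : SmoothChart A O'' res'' Q'' T'') (hB'' : ConstHyp A π O'' res'')
    {c : K} (hc : A.valuation c < 1) (D : Divisor K F'')
    (hD : ∀ P, D P = P.ord (C''.t - algebraMap K F'' c)) :
    Finsupp.mapDomain (fun P => P ∈ T'') D True = ((1 : ℕ) : ℤ) := by
  have hcA : c ∈ A := (A.valuation_le_one_iff c).mp hc.le
  have htO : C''.t ∈ O'' := C''.le _ C''.t_mem
  have hcO : algebraMap K F'' c ∈ O'' := C''.le _ (C''.algebraMap_mem c hcA)
  have hmem : C''.t - algebraMap K F'' c ∈ O'' := sub_mem htO hcO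
  have hr : res'' ⟨C''.t - algebraMap K F'' c, hmem⟩ = res'' ⟨C''.t, htO⟩ := by
    have e1 : (⟨C''.t - algebraMap K F'' c, hmem⟩ : O'') = ⟨C''.t, htO⟩ - ⟨algebraMap K F'' c, hcO⟩ :=
      rfl
    rw [e1, map_sub, hB''.res_const c hcA hcO, hB''.pi_zero ⟨c, hcA⟩ hc, map_zero, sub_zero]
  have hne : res'' ⟨C''.t - algebraMap K F'' c, hmem⟩ ≠ 0 := by
    rw [hr]
    intro h0
    have := C''.ord_res_t
    rw [h0, Place.ord_zero] at this
    exact zero_ne_one this
  have hunit : ∀ x : O'', res'' x ≠ 0 → IsUnit x := by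
    intro x hx
    have h1 : (x : F'') ∉ O''.nonunits := fun h => hx ((hB''.res_eq_zero_iff x).mpr h)
    rw [ValuationSubring.mem_nonunits_iff_or, not_or, not_not] at h1
    refine isUnit_iff_exists_inv.mpr ⟨⟨_, h1.2⟩, ?_⟩
    exact Subtype.ext (mul_inv_cancel₀ h1.1)
  have h1 := C''.conservation hB''.res_const hB''.pi_zero hunit (fun P => P ∈ T'') True
    (fun P => ⟨fun h => eq_true h, fun h => of_eq_true h⟩)
    ⟨C''.t - algebraMap K F'' c, hmem⟩ hne D hD
  rw [h1, hr, C''.ord_res_t]
  rfl

/-- The same for `φ (t' - c)` when the parameter of the chart is `φ t'`. -/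
theorem count_one_of_chart_map {F' : Type*} [Field F'] [Algebra K F']
    (C'' : SmoothChart A O'' res'' Q'' T'') (hB'' : ConstHyp A π O'' res'') (φ : F' →ₐ[K] F'')
    {t' : F'} (ht : C''.t = φ t') {c : K} (hc : A.valuation c < 1) (D : Divisor K F'')
    (hD : ∀ P, D P = P.ord (φ (t' - algebraMap K F' c))) :
    Finsupp.mapDomain (fun P => P ∈ T'') D True = ((1 : ℕ) : ℤ) := by
  refine count_one_of_chart C'' hB'' hc D fun P => ?_
  rw [hD P, map_sub, AlgHom.commutes, ht]

end Abstract

section Ram

variable {k κ E : Type*} [Field k] [Field κ] [Field E] [Algebra k κ] [Algebra k E] [Algebra κ E]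
  [IsScalarTower k κ E] [Algebra.IsIntegral κ E]

/-- `e (w | v) = 1` from one function `f` of the subfield with `ord_v f = 1 = ord_w f`. -/
theorem ramificationIndex_eq_one_of_ord {w : Place k E} {v : Place k κ} (hwv : w.restrict κ = v)
    {f : κ} (hv : v.ord f = 1) (hw : w.ord (algebraMap κ E f) = 1) :
    w.ramificationIndex κ = 1 := by
  have h1 := w.ord_restrict (F := κ) f
  rw [hwv, hv, hw, mul_one] at h1
  exact_mod_cast h1.symm

end Ram

end Fermat.Agent.BR3.SDD.Partition

namespace Fermat.Agent.BR3.SDD.Modular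

open IsLocalRing Fermat.Agent.X0 Fermat.Agent.Red Fermat.Agent.Val
  Fermat.Agent.BR.SS Fermat.Agent.BR.S0 Fermat.Agent.BR.S0.PointDict
  Fermat.Agent.BR.S0.RedModular Fermat.Agent.BR2.SetupOfData Fermat.Agent.BR3.FibreProd
  Fermat.Agent.BR3.SRef.Modular Fermat.Agent.BR3.SDD.Partition Fermat.Agent.BR3.CoverK
  Fermat.Agent.BR.ConstRedTwo Fermat.Agent.BR3.CInfRes Fermat.Agent.BR.TwoVal

local notation "Qb" => AlgebraicClosure ℚ

variable {M q : ℕ} [NeZero M] [hq : Fact q.Prime] [NeZero q]
variable (B : ValuationSubring (AlgebraicClosure ℚ)) (hB : B.LiesOverPrime q) (hqM : ¬ q ∣ M)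
variable [IsAlgClosed (ResidueField B)]
variable {ζ : Kbˣ} (hζ : IsPrimitiveRoot ζ q)

local notation "kB" => IsLocalRing.ResidueField B
local notation "FtM" => modularFunctionFieldFullC (IsLocalRing.ResidueField B) M

/-- (shortcut instances) -/
local instance (priority := 100000) instAlgebraFtMShortcutPCan :
    Algebra (IsLocalRing.ResidueField B)
      (modularFunctionFieldFullC (IsLocalRing.ResidueField B) M) :=
  inferInstance
local instance (priority := 100000) instAlgKFMidR :
    Algebra (IsLocalRing.ResidueField B) (FMid M B) := inferInstance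
local instance (priority := 100000) instAlgFtFMidR :
    Algebra (modularFunctionFieldFullC (IsLocalRing.ResidueField B) M) (FMid M B) := inferInstance
local instance (priority := 100000) instTowerMidR :
    IsScalarTower (IsLocalRing.ResidueField B)
      (modularFunctionFieldFullC (IsLocalRing.ResidueField B) M) (FMid M B) :=
  inferInstance
local instance (priority := 100000) instFieldFtAllR {FZ : SSpM B hB hqM → Type}
    [∀ e, Field (FZ e)] (v : Comp (MidM B hB hqM hζ) (SSpM B hB hqM)) :
    Field (FtAll B hB hqM hζ FZ v) := instFieldFtOf v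
local instance (priority := 100000) instAlgFtAllR {FZ : SSpM B hB hqM → Type}
    [∀ e, Field (FZ e)] [∀ e, Algebra (IsLocalRing.ResidueField B) (FZ e)]
    (v : Comp (MidM B hB hqM hζ) (SSpM B hB hqM)) :
    Algebra (IsLocalRing.ResidueField B) (FtAll B hB hqM hζ FZ v) := instAlgebraFtOf v

variable {FZ : SSpM B hB hqM → Type} [∀ e, Field (FZ e)] [∀ e, Algebra (ResidueField B) (FZ e)]
  (smTube : (Σ v, Place (IsLocalRing.ResidueField B) (FtAll B hB hqM hζ FZ v)) →
    Set (Place (AlgebraicClosure ℚ) (Fb (M * q * q))))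

/-- A place of `FMid M B` over `Q'` carrying a smooth chart of a middle component with parameter
`α₂ t'` (`t'` the parameter of a smooth chart of `can` at `Q'`) is unramified over `Q'`. -/
theorem ramificationIndex_eq_one_of_midChart (i : MidM B hB hqM hζ) {Q' : Place kB FtM}
    {T' : Set (Place Qb (Fb (M * q)))}
    (C' : SmoothChart B (constRedW1 B hB hqM).O (constRedW1 B hB hqM).res Q' T')
    {Q'' : Place kB (FMid M B)} (hQ'' : Q'' ∈ fibMid B hB hqM Q')
    {T'' : Set (Place Qb (Fb (M * q * q)))}
    (C'' : SmoothChart B (CM B hB hqM hζ i).O (CM B hB hqM hζ i).res Q'' T'')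
    (ht : C''.t = alpha2 M q C'.t) : Q''.ramificationIndex FtM = 1 := by
  haveI := isIntegral_FMid B hB hqM
  have htO' : C'.t ∈ O1 M B hB := C'.le _ C'.t_mem
  have h1 := C''.ord_res_t
  have e1 : (⟨C''.t, C''.le _ C''.t_mem⟩ : (CM B hB hqM hζ i).O) =
      ⟨alpha2 M q C'.t, (alpha2_mem_w2_iff B hB hqM hζ (i.rep B hB hqM hζ).2 C'.t).2 htO'⟩ :=
    Subtype.ext ht
  rw [e1] at h1
  have e2 : (CM B hB hqM hζ i).res
      ⟨alpha2 M q C'.t, (alpha2_mem_w2_iff B hB hqM hζ (i.rep B hB hqM hζ).2 C'.t).2 htO'⟩ =
      algebraMap FtM (FMid M B) ((constRedW1 B hB hqM).res ⟨C'.t, htO'⟩) :=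
    resMid_alpha2 B hB hqM hζ (i.rep B hB hqM hζ).2 C'.t htO'
  rw [e2] at h1
  exact ramificationIndex_eq_one_of_ord ((mem_fibMid B hB hqM).mp hQ'') C'.ord_res_t h1

/-- **(W4-CAN-MOD) The fibre of `S''` over a point `Q'` of `can` which is not supersingular, from
the smooth charts upstairs**: (sub), (disj) and, on the raw tube of every point of `canFib Q'`, a
smooth chart with parameter `α₂ t'`. -/
theorem fibreOver_can_of_charts (Q' : Place kB FtM)
    (C' : SmoothChart B (constRedW1 B hB hqM).O (constRedW1 B hB hqM).res Q'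
      {P | (setup (DtM B hB hqM)).r P = ⟨0, Q'⟩})
    (hsub : ∀ x ∈ canFib B hB hqM hζ FZ Q', ∀ P ∈ smTube x,
      (setup (DtM B hB hqM)).r (rhoA M q P) = ⟨0, Q'⟩)
    (hdisj : ∀ x ∈ canFib B hB hqM hζ FZ Q', ∀ y ∈ canFib B hB hqM hζ FZ Q', ∀ P,
      P ∈ smTube x → P ∈ smTube y → x = y)
    (hInf : ∃ C'' : SmoothChart B (constRedCInf B hB hqM).O (constRedCInf B hB hqM).res Q'
      (smTube (ptCInf B hB hqM hζ FZ Q')), C''.t = alpha2 M q C'.t)
    (hMidC : ∀ i : MidM B hB hqM hζ, ∀ Q'' ∈ fibMid B hB hqM Q',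
      ∃ C'' : SmoothChart B (CM B hB hqM hζ i).O (CM B hB hqM hζ i).res Q''
        (smTube (ptCMid B hB hqM hζ FZ i Q'')), C''.t = alpha2 M q C'.t) :
    FibreOver (setup (DtM B hB hqM)) (rhoA M q) smTube ⟨0, Q'⟩
      (canFib B hB hqM hζ FZ Q' : Set (Σ v, Place kB (FtAll B hB hqM hζ FZ v))) := by
  have hne : Nonempty (MidM B hB hqM hζ) := by
    rw [← Fintype.card_pos_iff]
    by_contra h0
    have h1 : Fintype.card (MidM B hB hqM hζ) = 0 := by omega
    have h2 := card_mid_mul B hB hqM hζ
    rw [h1, zero_mul] at h2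
    have := hq.out.two_le
    omega
  obtain ⟨i₀⟩ := hne
  refine fibreOver_can B hB hqM hζ smTube Q' C' ?_ hsub hdisj ?_
  · intro Q'' hQ''
    obtain ⟨C'', ht⟩ := hMidC i₀ Q'' hQ''
    exact ramificationIndex_eq_one_of_midChart B hB hqM hζ i₀ C' hQ'' C'' ht
  · intro x hx c hc D hD
    rcases (mem_canFib B hB hqM hζ).mp hx with rfl | ⟨i, Q'', hQ'', rfl⟩
    · obtain ⟨C'', ht⟩ := hInf
      exact count_one_of_chart_map C'' (constHyp_of_constRed (constRedCInf B hB hqM))
        (alpha2 M q) ht hc D hD
    · obtain ⟨C'', ht⟩ := hMidC i Q'' hQ''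
      exact count_one_of_chart_map C'' (constHyp_of_constRed (CM B hB hqM hζ i))
        (alpha2 M q) ht hc D hD

end Fermat.Agent.BR3.SDD.Modular
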