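import Mathlib
import Fermat.Agent.BR3.SDD.PartitionCan
import Fermat.Agent.BR3.CInfChart
import Fermat.Agent.BR3.CInfChartCusp
import Fermat.Agent.BR3.CuspSheet.Chart
import Fermat.Agent.BR3.RegAtlasTube
import Fermat.Agent.BR3.CoverK.Dict

/-!
# Program C (S36), node I7 (W4-CAN-MOD), (disj): the tube of `cInf` against the tubes of the middle
components over one point of `can`

Over a point `Q'` of `can` which is not supersingular, the smooth tube of the point `Q'` of `cInf`
(`CInfChart.cInfTube` at the finite points, sheet `Θ ≡ u^q`; `coverTube … θ∞ 1` at the cusps) is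
disjoint from the tube of ANY regular chart of a middle component `w₂ b` at a place `Q''` over `Q'`
lying over the tube of `Q'` (however that chart was built: SC3, SC4 or the purity plug): the
generator of the sheet of `cInf` is integral over the local ring downstairs, hence regular on the
tube of the middle chart, where its reduction takes the value `0` at `Q''` (`Θ` is small on every
`w₂ b`; `θ∞` reduces to `j̃^{1-q²}`, which vanishes at the cusps) — while it takes a nonzero value
on the tube of `cInf`.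

* `not_mem_of_sheet_value_ne` (abstract) : a place of the sheet `θ ≡ u` does not lie in the tube of
  a regular chart upstairs at a point where `θ̄` takes a value `≠ π u`;
* **`not_mem_mid_of_mem_cInfTube`** (finite points), **`not_mem_mid_of_mem_cInfTubeCusp`** (cusps) :
  the clause `hIM`;
* `resMid_thetaInf` : `res_{w₂ b} θ∞ = res₁ (j · c⁻¹) = j̃^{1-q²}`;
* `not_mem_CM_of_mem_cInfTube`, `not_mem_CM_of_mem_cInfTubeCusp` : the same for the constant
  reductions `CM i` of the frame (`CM i = constRedMid (i.rep).2` by `rfl`);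
* `hdisj_canFib` : the hypothesis `hdisj` of `Partition.fibreOver_can_of_charts` from `hIM` and
  `hMM`.
-/

set_option autoImplicit false
set_option linter.style.haveILetI false
set_option linter.unusedSectionVars false
set_option linter.unusedVariables false

noncomputable section

/- S36 build-time patch: file-local shortcut instances. They only shorten instance search;
each is the instance that the search finds anyway (reducible, same terms after unfolding). -/
local instance (priority := 100000) Fermat.Agent.BR3.FastInst.instAlgFullC_SDD_FibreCanDisj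
    {k : Type*} [Field k] (N : ℕ) :
    Algebra k ↥(ModularCurve.modularFunctionFieldFullC k N) := inferInstance
local instance (priority := 100000) Fermat.Agent.BR3.FastInst.instFieldFullC_SDD_FibreCanDisj
    {k : Type*} [Field k] (N : ℕ) :
    Field ↥(ModularCurve.modularFunctionFieldFullC k N) := inferInstance
local instance (priority := 100000) Fermat.Agent.BR3.FastInst.instAlgLaurent_SDD_FibreCanDisj
    {k : Type*} [Field k] : Algebra k (LaurentSeries k) := inferInstance


set_option synthInstance.maxHeartbeats 400000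

namespace Fermat.Agent.BR3.SDD.FibreCanDisj

open ModularCurve AlgebraicCurve Polynomial IsLocalRing Fermat.Agent.X0 Fermat.Agent.Val
  Fermat.Agent.Red Fermat.Agent.BR.SS Fermat.Agent.BR.S0 Fermat.Agent.BR.ConstRedTwo
  Fermat.Agent.BR3.FibreProd Fermat.Agent.BR3.CInfRes
  Fermat.Agent.BR3.CoverK Fermat.Agent.BR3.CoverK.Factor Fermat.Agent.BR3.CoverK.Dict
  Fermat.Agent.BR3.SDD.Modular Fermat.Agent.BR2.LevelGen Fermat.Agent.Hecke.AL
  Fermat.Agent.BR.TwoVal Fermat.Agent.BR3.CInfChart Fermat.Agent.BR3.RegAtlas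
  Fermat.Agent.BR.S0.RedHyp Fermat.Agent.BR.S0.PointDict Fermat.Agent.BR.S0.RedModular
  Fermat.Agent.BR3.CoverSheetInf Fermat.Agent.BR3.CuspSheet Fermat.Agent.BR3.CoverPlaces

/-! ### The abstract statement -/

section Abstract

variable {K k : Type*} [Field K] [Field k]
  {F' : Type*} [Field F'] [Algebra K F']
  {F'' : Type*} [Field F''] [Algebra K F''] [Algebra F' F''] [IsScalarTower K F' F'']
  [Algebra.IsIntegral F' F'']
  {A : ValuationSubring K} {π : A →+* k} {T' : Set (Place K F')}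
  {Ft' : Type*} [Field Ft'] [Algebra k Ft'] {O' : ValuationSubring F'} {res' : O' →+* Ft'}
  {Q' : Place k Ft'} (C : RegChart A O' res' Q' T')
  {Ft₂ : Type*} [Field Ft₂] [Algebra k Ft₂] {O₂ : ValuationSubring F''}
  {res₂ : O₂ →+* Ft₂} {Q₂ : Place k Ft₂} {T₂ : Set (Place K F'')}

/-- **A place of the sheet `θ ≡ u` does not lie in the tube of a regular chart upstairs at a point
where `θ̄` takes another value**: `θ` integral over the local ring downstairs (root of a monic `Ψ`
with coefficients in it), `θ ∈ O₂`, `θ̄ (Q₂) = π u₂ ≠ π u`. -/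
theorem not_mem_of_sheet_value_ne (C₂ : RegChart A O₂ res₂ Q₂ T₂) (hB₂ : ConstHyp A π O₂ res₂)
    (hsub₂ : ∀ P'' ∈ T₂, P''.restrict F' ∈ T') {θ : F''} {Ψ : F'[X]} (hmonic : Ψ.Monic)
    (hΨ : ∀ n, Ψ.coeff n ∈ C.chart.R) (hroot : aeval θ Ψ = 0) (hθO₂ : θ ∈ O₂) {u u₂ : A}
    (hval₂ : IsValueAt Q₂ (res₂ ⟨θ, hθO₂⟩) (π u₂)) (hne : π u ≠ π u₂) {P : Place K F''}
    (hP : P ∈ coverTube A T' θ u) : P ∉ T₂ := fun hP₂ =>
  not_mem_coverTube_of_ne hB₂.pi_zero hne hP
    (tube_subset_coverTube_of_isIntegral C C₂ hB₂ hsub₂ hmonic hΨ hroot hθO₂ hval₂ hP₂)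

end Abstract

/-! ### The modular frame -/

variable {M q : ℕ} [NeZero M] [hq : Fact q.Prime] [NeZero q]
variable (B : ValuationSubring (AlgebraicClosure ℚ)) (hB : B.LiesOverPrime q) (hqM : ¬ q ∣ M)
variable [IsAlgClosed (ResidueField B)]
variable {ζ : Kbˣ} (hζ : IsPrimitiveRoot ζ q)

local notation "kB" => IsLocalRing.ResidueField B
local notation "FtM" => modularFunctionFieldFullC (IsLocalRing.ResidueField B) M

/-- (shortcut instances) -/
local instance (priority := 100000) instAlgKFtCD : Algebra kB FtM := inferInstance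
local instance (priority := 100000) instAlgKFMidCD : Algebra kB (FMid M B) := inferInstance
local instance (priority := 100000) instAlgFtFMidCD : Algebra FtM (FMid M B) := inferInstance
local instance (priority := 100000) instTowerMidCD : IsScalarTower kB FtM (FMid M B) :=
  inferInstance
local instance (priority := 100000) instIsIntegralMidCD [FiniteDimensional FtM (FMid M B)] :
    Algebra.IsIntegral FtM (FMid M B) :=
  Algebra.IsIntegral.of_finite _ _

/-! ### Finite points -/

section Finite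

set_option maxHeartbeats 4000000 in
/-- **(hIM), finite points**: the tube of the point `Q'` of `cInf` (`Q'` finite, not a crossing)
does not meet the tube of any regular chart of a middle component lying over the tube of `Q'`. -/
theorem not_mem_mid_of_mem_cInfTube (H : AtlasHyp (chartDataModular B hB hqM) (jx M q))
    (Q' : Place kB FtM) (hnc : ∀ e, Q' ≠ z₁ (chartDataModular B hB hqM) e)
    (hj : jFullC kB M ∈ Q'.toValuationSubring) {b : ℕ} (hb : b < q - 1)
    {Q'' : Place kB (FMid M B)} {T₂ : Set (Place Kb (Fb (M * q * q)))}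
    (C₂ : RegChart B (constRedMid B hB hqM hζ hb).O (constRedMid B hB hqM hζ hb).res Q'' T₂)
    (hsub₂ : ∀ P ∈ T₂, H.r (P.restrictAlong (alpha2 M q) (isIntegral_fb (alpha2 M q))) =
      (⟨0, Q'⟩ : Σ _ : Fin 2, Place kB FtM))
    {P : Place Kb (Fb (M * q * q))} (hP : P ∈ cInfTube B hB hqM H Q' hnc hj) : P ∉ T₂ := by
  letI := algebraAlong (alpha2 M q)
  haveI := isScalarTower_along (alpha2 M q)
  haveI : Module.Finite (Fb (M * q)) (Fb (M * q * q)) :=
    Fermat.Agent.Hecke.finiteAlong_heckeAlphaBar (M * q) q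
  have HS := coverSheet_cInf B hB hqM Q' _ _ (regChartCan B hB hqM H Q' hnc).chart.normal
    (ord_jBar_nonneg_zero B hB hqM H hj) (ord_jq'_nonneg_zero B hB hqM H hj)
    (uInf B hB hqM Q' hnc hj) (isValueAt_uInf B hB hqM Q' hnc hj)
    (residue_uInf_ne_zero B hB hqM Q' hnc hj)
  have hθ2 : Theta M q ∈ (constRedMid B hB hqM hζ hb).O := Theta_mem_w2 B hB hqM hζ hb
  have hres : (constRedMid B hB hqM hζ hb).res ⟨Theta M q, hθ2⟩ = 0 :=
    (resMid_eq_zero_iff_mem_nonunits B hB hqM hζ hb ⟨Theta M q, hθ2⟩).2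
      (Theta_mem_nonunits_w2 B hB hqM hζ hb)
  have hval : IsValueAt Q'' ((constRedMid B hB hqM hζ hb).res ⟨Theta M q, hθ2⟩)
      (IsLocalRing.residue B (0 : B)) := by
    rw [hres, map_zero]
    exact isValueAt_zero Q''
  have hne : IsLocalRing.residue B (uInf B hB hqM Q' hnc hj ^ q) ≠
      IsLocalRing.residue B (0 : B) := by
    rw [map_pow, map_zero]
    exact pow_ne_zero _ (residue_uInf_ne_zero B hB hqM Q' hnc hj)
  exact not_mem_of_sheet_value_ne (regChartCan B hB hqM H Q' hnc) C₂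
    (constHyp_of_constRed (constRedMid B hB hqM hζ hb)) hsub₂ HS.monic HS.coeff_mem HS.root hθ2
    hval hne hP

end Finite

/-! ### Cusps -/

section Cusp

variable {b : ℕ} (hb : b < q - 1)

include hB in
/-- `θ∞` is integral on every middle valuation. -/
theorem thetaInf_mem_w2 : thetaInf M q ∈ w2 B hB hqM hζ hb :=
  (w2 B hB hqM hζ hb).mul_mem _ _ (jqq_mem_w2 B hB hqM hζ hb)
    ((alpha2_mem_w2_iff B hB hqM hζ hb _).2 (cInv_mem_O1 B hB))

/-- **The residue of `θ∞` on a middle component**: `res_{w₂ b} θ∞ = res₁ (j · c⁻¹) = j̃^{1-q²}`. -/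
theorem resMid_thetaInf :
    resMid B hB hqM hζ hb ⟨thetaInf M q, thetaInf_mem_w2 B hB hqM hζ hb⟩ =
      algebraMap FtM (FMid M B) (resCan B hB hqM ⟨a1 M q, a1_mem_O1 B hB⟩) := by
  apply Subtype.ext
  rw [IntermediateField.coe_algebraMap_apply, IntermediateField.algebraMap_apply, coe_resCan,
    coe_resMid]
  have e : (⟨thetaInf M q, thetaInf_mem_w2 B hB hqM hζ hb⟩ : w2 B hB hqM hζ hb) =
      ⟨jqq M q, jqq_mem_w2 B hB hqM hζ hb⟩ *
        ⟨alpha2 M q (cInv M q), (alpha2_mem_w2_iff B hB hqM hζ hb _).2 (cInv_mem_O1 B hB)⟩ :=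
    Subtype.ext rfl
  have e' : (⟨a1 M q, a1_mem_O1 B hB⟩ : O1 M B hB) =
      ⟨jBar (M * q), jBar_mem_O1 B hB⟩ * ⟨cInv M q, cInv_mem_O1 B hB⟩ := Subtype.ext rfl
  rw [e, map_mul, resw2_jqq, resw2_alpha2 B hB hqM hζ hb _ (cInv_mem_O1 B hB), e', map_mul,
    res1_jBar]

/-- the value of `res_{w₂ b} θ∞` at a place over a cusp is `0` -/
theorem isValueAt_resMid_thetaInf [FiniteDimensional FtM (FMid M B)] {Q' : Place kB FtM}
    (hQ : Q'.adicValuation ((jFullC kB M)⁻¹) < 1) {Q'' : Place kB (FMid M B)}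
    (hQ'' : Q''.restrict FtM = Q') :
    IsValueAt Q'' (resMid B hB hqM hζ hb ⟨thetaInf M q, thetaInf_mem_w2 B hB hqM hζ hb⟩)
      (IsLocalRing.residue B (0 : B)) := by
  rw [resMid_thetaInf, map_zero, ← isValueAt_restrict_iff, hQ'', isValueAt_zero_iff, res_a1,
    map_pow]
  have hqq : q * q - 1 ≠ 0 := by
    have := hq.out.two_le
    have : 4 ≤ q * q := Nat.mul_le_mul this this
    omega
  exact pow_lt_one₀ zero_le hQ hqq

set_option maxHeartbeats 4000000 in
/-- **(hIM), cusps**: the tube of the cusp `Q'` of `cInf` does not meet the tube of any regular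
chart of a middle component at a place over `Q'` lying over the tube of `Q'`. -/
theorem not_mem_mid_of_mem_cInfTubeCusp [FiniteDimensional FtM (FMid M B)]
    (H : AtlasHyp (chartDataModular B hB hqM) (jx M q))
    (Q' : Place kB FtM) (hnc : ∀ e, Q' ≠ z₁ (chartDataModular B hB hqM) e)
    (hQ : Q'.adicValuation ((jFullC kB M)⁻¹) < 1)
    {Q'' : Place kB (FMid M B)} (hQ'' : Q''.restrict FtM = Q')
    {T₂ : Set (Place Kb (Fb (M * q * q)))}
    (C₂ : RegChart B (constRedMid B hB hqM hζ hb).O (constRedMid B hB hqM hζ hb).res Q'' T₂)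
    (hsub₂ : ∀ P ∈ T₂, H.r (P.restrictAlong (alpha2 M q) (isIntegral_fb (alpha2 M q))) =
      (⟨0, Q'⟩ : Σ _ : Fin 2, Place kB FtM))
    {P : Place Kb (Fb (M * q * q))} (hP : P ∈ cInfTubeCusp B hB hqM H Q') : P ∉ T₂ := by
  letI := algebraAlong (alpha2 M q)
  haveI := isScalarTower_along (alpha2 M q)
  haveI : Module.Finite (Fb (M * q)) (Fb (M * q * q)) :=
    Fermat.Agent.Hecke.finiteAlong_heckeAlphaBar (M * q) q
  have HS := coverSheet_cInf_cusp_chart B hB hqM H Q' hnc hQ
  have hθ2 : thetaInf M q ∈ (constRedMid B hB hqM hζ hb).O := thetaInf_mem_w2 B hB hqM hζ hb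
  have hval : IsValueAt Q'' ((constRedMid B hB hqM hζ hb).res ⟨thetaInf M q, hθ2⟩)
      (IsLocalRing.residue B (0 : B)) := isValueAt_resMid_thetaInf B hB hqM hζ hb hQ hQ''
  have hne : IsLocalRing.residue B (1 : B) ≠ IsLocalRing.residue B (0 : B) := by
    rw [map_one, map_zero]
    exact one_ne_zero
  exact not_mem_of_sheet_value_ne (regChartCan B hB hqM H Q' hnc) C₂
    (constHyp_of_constRed (constRedMid B hB hqM hζ hb)) hsub₂ HS.monic HS.coeff_mem HS.root hθ2
    hval hne hP

end Cusp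

/-! ### The same for the constant reductions `CM i` of the frame -/

section CMForm

/-- **(hIM), finite points**, for the middle component `i` of the frame (`CM i`). -/
theorem not_mem_CM_of_mem_cInfTube (H : AtlasHyp (chartDataModular B hB hqM) (jx M q))
    (Q' : Place kB FtM) (hnc : ∀ e, Q' ≠ z₁ (chartDataModular B hB hqM) e)
    (hj : jFullC kB M ∈ Q'.toValuationSubring) (i : MidM B hB hqM hζ)
    {Q'' : Place kB (FMid M B)} {T₂ : Set (Place Kb (Fb (M * q * q)))}
    (C₂ : RegChart B (CM B hB hqM hζ i).O (CM B hB hqM hζ i).res Q'' T₂)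
    (hsub₂ : ∀ P ∈ T₂, H.r (P.restrictAlong (alpha2 M q) (isIntegral_fb (alpha2 M q))) =
      (⟨0, Q'⟩ : Σ _ : Fin 2, Place kB FtM))
    {P : Place Kb (Fb (M * q * q))} (hP : P ∈ cInfTube B hB hqM H Q' hnc hj) : P ∉ T₂ :=
  not_mem_mid_of_mem_cInfTube B hB hqM hζ H Q' hnc hj (i.rep B hB hqM hζ).2 C₂ hsub₂ hP

/-- **(hIM), cusps**, for the middle component `i` of the frame (`CM i`). -/
theorem not_mem_CM_of_mem_cInfTubeCusp [FiniteDimensional FtM (FMid M B)]
    (H : AtlasHyp (chartDataModular B hB hqM) (jx M q))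
    (Q' : Place kB FtM) (hnc : ∀ e, Q' ≠ z₁ (chartDataModular B hB hqM) e)
    (hQ : Q'.adicValuation ((jFullC kB M)⁻¹) < 1) (i : MidM B hB hqM hζ)
    {Q'' : Place kB (FMid M B)} (hQ'' : Q''.restrict FtM = Q')
    {T₂ : Set (Place Kb (Fb (M * q * q)))}
    (C₂ : RegChart B (CM B hB hqM hζ i).O (CM B hB hqM hζ i).res Q'' T₂)
    (hsub₂ : ∀ P ∈ T₂, H.r (P.restrictAlong (alpha2 M q) (isIntegral_fb (alpha2 M q))) =
      (⟨0, Q'⟩ : Σ _ : Fin 2, Place kB FtM))
    {P : Place Kb (Fb (M * q * q))} (hP : P ∈ cInfTubeCusp B hB hqM H Q') : P ∉ T₂ :=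
  not_mem_mid_of_mem_cInfTubeCusp B hB hqM hζ (i.rep B hB hqM hζ).2 H Q' hnc hQ hQ'' C₂ hsub₂ hP

end CMForm

/-! ### The assembly of `hdisj` -/

section Assembly

variable {FZ : SSpM B hB hqM → Type} [∀ e, Field (FZ e)] [∀ e, Algebra (ResidueField B) (FZ e)]
  (smTube : (Σ v, Place (IsLocalRing.ResidueField B) (FtAll B hB hqM hζ FZ v)) →
    Set (Place (AlgebraicClosure ℚ) (Fb (M * q * q))))

/-- **The hypothesis `hdisj` of `Partition.fibreOver_can_of_charts`** from the two families (hIM),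
(hMM) of disjointness statements over one point `Q'` of `can`. -/
theorem hdisj_canFib (Q' : Place kB FtM)
    (hIM : ∀ i : MidM B hB hqM hζ, ∀ Q'' ∈ fibMid B hB hqM Q', ∀ P,
      P ∈ smTube (ptCInf B hB hqM hζ FZ Q') → P ∉ smTube (ptCMid B hB hqM hζ FZ i Q''))
    (hMM : ∀ i i' : MidM B hB hqM hζ, ∀ Q'' ∈ fibMid B hB hqM Q', ∀ Q''' ∈ fibMid B hB hqM Q',
      ∀ P, P ∈ smTube (ptCMid B hB hqM hζ FZ i Q'') →
        P ∈ smTube (ptCMid B hB hqM hζ FZ i' Q''') →
        ptCMid B hB hqM hζ FZ i Q'' = ptCMid B hB hqM hζ FZ i' Q''') :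
    ∀ x ∈ canFib B hB hqM hζ FZ Q', ∀ y ∈ canFib B hB hqM hζ FZ Q', ∀ P,
      P ∈ smTube x → P ∈ smTube y → x = y := by
  intro x hx y hy P hPx hPy
  rcases (mem_canFib B hB hqM hζ).mp hx with rfl | ⟨i, Q'', hQ, rfl⟩ <;>
    rcases (mem_canFib B hB hqM hζ).mp hy with rfl | ⟨i', Q''', hQ', rfl⟩
  · rfl
  · exact absurd hPy (hIM i' Q''' hQ' P hPx)
  · exact absurd hPx (hIM i Q'' hQ P hPy)
  · exact hMM i i' Q'' hQ Q''' hQ' P hPx hPy

end Assembly

end Fermat.Agent.BR3.SDD.FibreCanDisj
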