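import Mathlib
import Fermat.Agent.BR3.SDD.FibreCanDisj
import Fermat.Agent.BR3.CInfChartAll

/-!
# Program C (S36), node I7 (W4-CAN-MOD), (disj) `hIM` for the one-function tube `cInfTubeAll`

`CInfChartAll.cInfTubeAll B hB hqM H Q' hnc` (finite points and cusps glued) against the tube of ANY
regular chart of a middle component at a place `Q''` over `Q'` lying over the tube of `Q'`:

* **`not_mem_mid_of_mem_cInfTubeAll`** (`constRedMid b`), **`not_mem_CM_of_mem_cInfTubeAll`**
  (`CM i`) : the clause `hIM` / `dIM` at every non-crossing point of `can`.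
-/

set_option autoImplicit false
set_option linter.style.haveILetI false
set_option linter.unusedSectionVars false
set_option linter.unusedVariables false

noncomputable section

set_option synthInstance.maxHeartbeats 400000

namespace Fermat.Agent.BR3.SDD.FibreCanDisj

open ModularCurve AlgebraicCurve Polynomial IsLocalRing Fermat.Agent.X0 Fermat.Agent.Val
  Fermat.Agent.Red Fermat.Agent.BR.SS Fermat.Agent.BR.S0 Fermat.Agent.BR.ConstRedTwo
  Fermat.Agent.BR3.FibreProd Fermat.Agent.BR3.CInfRes
  Fermat.Agent.BR3.CoverK Fermat.Agent.BR3.CoverK.Factor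
  Fermat.Agent.BR3.SDD.Modular Fermat.Agent.BR2.LevelGen Fermat.Agent.Hecke.AL
  Fermat.Agent.BR.TwoVal Fermat.Agent.BR3.CInfChart Fermat.Agent.BR3.RegAtlas
  Fermat.Agent.BR.S0.RedHyp Fermat.Agent.BR.S0.PointDict Fermat.Agent.BR.S0.RedModular
  Fermat.Agent.BR3.CInfChartAll Fermat.Agent.BR3.CZeroChartAll

variable {M q : ℕ} [NeZero M] [hq : Fact q.Prime] [NeZero q]
variable (B : ValuationSubring (AlgebraicClosure ℚ)) (hB : B.LiesOverPrime q) (hqM : ¬ q ∣ M)
variable [IsAlgClosed (ResidueField B)]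
variable {ζ : Kbˣ} (hζ : IsPrimitiveRoot ζ q)

local notation "kB" => IsLocalRing.ResidueField B
local notation "FtM" => modularFunctionFieldFullC (IsLocalRing.ResidueField B) M

/-- (shortcut instances) -/
local instance (priority := 100000) instAlgKFtCDA : Algebra kB FtM := inferInstance
local instance (priority := 100000) instAlgKFMidCDA : Algebra kB (FMid M B) := inferInstance
local instance (priority := 100000) instAlgFtFMidCDA : Algebra FtM (FMid M B) := inferInstance
local instance (priority := 100000) instTowerMidCDA : IsScalarTower kB FtM (FMid M B) :=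
  inferInstance
local instance (priority := 100000) instIsIntegralMidCDA [FiniteDimensional FtM (FMid M B)] :
    Algebra.IsIntegral FtM (FMid M B) :=
  Algebra.IsIntegral.of_finite _ _

/-- **(hIM) at every non-crossing point of `can`**: the tube `cInfTubeAll` of the point `Q'` of
`cInf` does not meet the tube of any regular chart of a middle valuation `w₂ b` at a place over `Q'`
lying over the tube of `Q'`. -/
theorem not_mem_mid_of_mem_cInfTubeAll [FiniteDimensional FtM (FMid M B)]
    (H : AtlasHyp (chartDataModular B hB hqM) (jx M q))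
    (Q' : Place kB FtM) (hnc : ∀ e, Q' ≠ z₁ (chartDataModular B hB hqM) e)
    {b : ℕ} (hb : b < q - 1) {Q'' : Place kB (FMid M B)} (hQ'' : Q''.restrict FtM = Q')
    {T₂ : Set (Place Kb (Fb (M * q * q)))}
    (C₂ : RegChart B (constRedMid B hB hqM hζ hb).O (constRedMid B hB hqM hζ hb).res Q'' T₂)
    (hsub₂ : ∀ P ∈ T₂, H.r (P.restrictAlong (alpha2 M q) (isIntegral_fb (alpha2 M q))) =
      (⟨0, Q'⟩ : Σ _ : Fin 2, Place kB FtM))
    {P : Place Kb (Fb (M * q * q))} (hP : P ∈ cInfTubeAll B hB hqM H Q' hnc) : P ∉ T₂ := by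
  by_cases hj : jFullC kB M ∈ Q'.toValuationSubring
  · rw [cInfTubeAll_of_finite B hB hqM H Q' hnc hj] at hP
    exact not_mem_mid_of_mem_cInfTube B hB hqM hζ H Q' hnc hj hb C₂ hsub₂ hP
  · rw [cInfTubeAll_of_cusp B hB hqM H Q' hnc hj] at hP
    exact not_mem_mid_of_mem_cInfTubeCusp B hB hqM hζ hb H Q' hnc
      ((finite_or_cusp B Q').resolve_left hj) hQ'' C₂ hsub₂ hP

/-- **(hIM) at every non-crossing point of `can`**, for the middle component `i` of the frame. -/
theorem not_mem_CM_of_mem_cInfTubeAll [FiniteDimensional FtM (FMid M B)]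
    (H : AtlasHyp (chartDataModular B hB hqM) (jx M q))
    (Q' : Place kB FtM) (hnc : ∀ e, Q' ≠ z₁ (chartDataModular B hB hqM) e)
    (i : MidM B hB hqM hζ) {Q'' : Place kB (FMid M B)} (hQ'' : Q''.restrict FtM = Q')
    {T₂ : Set (Place Kb (Fb (M * q * q)))}
    (C₂ : RegChart B (CM B hB hqM hζ i).O (CM B hB hqM hζ i).res Q'' T₂)
    (hsub₂ : ∀ P ∈ T₂, H.r (P.restrictAlong (alpha2 M q) (isIntegral_fb (alpha2 M q))) =
      (⟨0, Q'⟩ : Σ _ : Fin 2, Place kB FtM))
    {P : Place Kb (Fb (M * q * q))} (hP : P ∈ cInfTubeAll B hB hqM H Q' hnc) : P ∉ T₂ :=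
  not_mem_mid_of_mem_cInfTubeAll B hB hqM hζ H Q' hnc (i.rep B hB hqM hζ).2 hQ'' C₂ hsub₂ hP

end Fermat.Agent.BR3.SDD.FibreCanDisj
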