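import Fermat.Agent.BR3.SDD.PartitionHcan
import Fermat.Agent.BR3.SDD.FibreCanDisjAll

/-!
# Program C (S36), node I7 (TUBES-DEF): the concrete raw tubes of `S''` at the modular frame

The ONE pair of functions against which every raw clause of the final call
(`SDD.Modular.modelAt_of_raw`: `nodeTube`, `smTube`) is stated.

* `smTubeOf TInf TZero TMid TZe` : the family of sets indexed by the points of the normalisation of
  the special fibre of `S''`, by cases on the component (generic glue);
* `cInfTubeM Q`, `cZeroTubeM Q` : helper1's one-function tubes `CInfChartAll.cInfTubeAll`,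
  `CZeroChartAll.cZeroTubeAll` at the atlas `atlas (DtM ..)` of the frame, `∅` at the crossing
  points;
* **`smTubeM midTube zeTube`** : `⟨cInf, Q⟩ ↦ cInfTubeM Q`, `⟨cZero, Q⟩ ↦ cZeroTubeM Q`,
  `⟨mid i, Q⟩ ↦ midTube i Q`, `⟨ze e, Q⟩ ↦ zeTube e Q`; `smTubeM_cInf`, `smTubeM_cZero` (for an
  ARBITRARY proof `H` of the atlas hypotheses), `smTubeM_mid`, `smTubeM_ze`;
* **`nodeTubeM tubeT tubeK tubeW`** : `nT e ↦ tubeT e`, `nk e s ↦ tubeK e s`, `nW e ↦ tubeW e`;
* the charts `regInfM`, `smInfM`, `regZeroM`, `smZeroM` in the literal binder shapes of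
  `modelAt_of_raw`, `canChartM` (the charts of `can` of `S'`), `hInf_tM`, `smZeroM_t`;
* the inputs of `partition_modular` against `smTubeM`: `subInfM` (`subInf`), `dIM_M` (`dIM`, from
  regular charts on the middle tubes and `subMid`: helper23's
  `FibreCanDisj.not_mem_CM_of_mem_cInfTubeAll`).
-/

set_option autoImplicit false
set_option linter.style.haveILetI false
set_option linter.unusedSectionVars false
set_option linter.unusedVariables false
set_option synthInstance.maxHeartbeats 400000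

open ModularCurve AlgebraicCurve

noncomputable section

/- S36 build-time patch: file-local shortcut instances. They only shorten instance search;
each is the instance that the search finds anyway (reducible, same terms after unfolding). -/
local instance (priority := 100000) Fermat.Agent.BR3.FastInst.instAlgFullC_SDD_ModularTubes
    {k : Type*} [Field k] (N : ℕ) :
    Algebra k ↥(ModularCurve.modularFunctionFieldFullC k N) := inferInstance
local instance (priority := 100000) Fermat.Agent.BR3.FastInst.instFieldFullC_SDD_ModularTubes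
    {k : Type*} [Field k] (N : ℕ) :
    Field ↥(ModularCurve.modularFunctionFieldFullC k N) := inferInstance
local instance (priority := 100000) Fermat.Agent.BR3.FastInst.instAlgLaurent_SDD_ModularTubes
    {k : Type*} [Field k] : Algebra k (LaurentSeries k) := inferInstance


namespace Fermat.Agent.BR3.SDD.Modular

open IsLocalRing Fermat.Agent.X0 Fermat.Agent.Red Fermat.Agent.Val
  Fermat.Agent.BR.SS Fermat.Agent.BR.S0 Fermat.Agent.BR.S0.PointDict
  Fermat.Agent.BR.S0.RedModular Fermat.Agent.BR.S0.RedHyp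
  Fermat.Agent.BR2.SetupOfData Fermat.Agent.BR3.FibreProd
  Fermat.Agent.BR3.SRef.Modular Fermat.Agent.BR3.SDD.Partition Fermat.Agent.BR3.KummerGenus
  Fermat.Agent.BR3.KummerGenus.MidInst Fermat.Agent.BR2.LevelGen Fermat.Agent.BR3.CoverK
  Fermat.Agent.BR.ConstRedTwo Fermat.Agent.BR3.CInfRes Fermat.Agent.BR.TwoVal
  Fermat.Agent.BR3.RegAtlas Fermat.Agent.BR3.CInfChartAll Fermat.Agent.BR3.CZeroChartAll
  Fermat.Agent.BR3.VertBetaFr Fermat.Agent.BR3.CoverDict

local notation "Qb" => AlgebraicClosure ℚ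

variable {M q : ℕ} [NeZero M] [hq : Fact q.Prime] [NeZero q]
variable (B : ValuationSubring (AlgebraicClosure ℚ)) (hB : B.LiesOverPrime q) (hqM : ¬ q ∣ M)
variable [IsAlgClosed (ResidueField B)]
variable {ζ : Kbˣ} (hζ : IsPrimitiveRoot ζ q)

local notation "kB" => IsLocalRing.ResidueField B
local notation "FtM" => modularFunctionFieldFullC (IsLocalRing.ResidueField B) M

/-- (shortcut instances) -/
local instance (priority := 100000) instAlgebraFtMShortcutH3Tb :
    Algebra (IsLocalRing.ResidueField B)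
      (modularFunctionFieldFullC (IsLocalRing.ResidueField B) M) :=
  inferInstance
local instance (priority := 100000) instAlgKFMidH3Tb :
    Algebra (IsLocalRing.ResidueField B) (FMid M B) := inferInstance
local instance (priority := 100000) instAlgFtFMidH3Tb :
    Algebra (modularFunctionFieldFullC (IsLocalRing.ResidueField B) M) (FMid M B) := inferInstance
local instance (priority := 100000) instTowerMidH3Tb :
    IsScalarTower (IsLocalRing.ResidueField B)
      (modularFunctionFieldFullC (IsLocalRing.ResidueField B) M) (FMid M B) :=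
  inferInstance
local instance (priority := 100000) instFieldFtAllH3Tb {FZ : SSpM B hB hqM → Type}
    [∀ e, Field (FZ e)] (v : Comp (MidM B hB hqM hζ) (SSpM B hB hqM)) :
    Field (FtAll B hB hqM hζ FZ v) := instFieldFtOf v
local instance (priority := 100000) instAlgFtAllH3Tb {FZ : SSpM B hB hqM → Type}
    [∀ e, Field (FZ e)] [∀ e, Algebra (IsLocalRing.ResidueField B) (FZ e)]
    (v : Comp (MidM B hB hqM hζ) (SSpM B hB hqM)) :
    Algebra (IsLocalRing.ResidueField B) (FtAll B hB hqM hζ FZ v) := instAlgebraFtOf v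

/-! ### the definitions -/

section Defs

variable {FZ : SSpM B hB hqM → Type} [∀ e, Field (FZ e)] [∀ e, Algebra (ResidueField B) (FZ e)]
  {KP : Type} {σ : Type*}

/-- **The family of sets indexed by the points of `S''`, by cases on the component.** -/
def smTubeOf
    (TInf TZero : Place (IsLocalRing.ResidueField B)
      (modularFunctionFieldFullC (IsLocalRing.ResidueField B) M) → Set σ)
    (TMid : MidM B hB hqM hζ → Place (IsLocalRing.ResidueField B) (FMid M B) → Set σ)
    (TZe : ∀ e : SSpM B hB hqM, Place (IsLocalRing.ResidueField B) (FZ e) → Set σ) :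
    (Σ v, Place (IsLocalRing.ResidueField B) (FtAll B hB hqM hζ FZ v)) → Set σ
  | ⟨Sum.inl (Sum.inl false), Q⟩ => TInf Q
  | ⟨Sum.inl (Sum.inl true), Q⟩ => TZero Q
  | ⟨Sum.inl (Sum.inr i), Q⟩ => TMid i Q
  | ⟨Sum.inr e, Q⟩ => TZe e Q

/-- **The raw tubes of the nodes of `S''`, by cases on the node.** -/
def nodeTubeM (tubeT : SSpM B hB hqM → Set σ) (tubeK : SSpM B hB hqM → KP → Set σ)
    (tubeW : SSpM B hB hqM → Set σ) : Node (SSpM B hB hqM) KP → Set σ
  | (e, Sum.inl false) => tubeT e
  | (e, Sum.inl true) => tubeW e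
  | (e, Sum.inr s) => tubeK e s

theorem nodeTubeM_nT (tubeT : SSpM B hB hqM → Set σ) (tubeK : SSpM B hB hqM → KP → Set σ)
    (tubeW : SSpM B hB hqM → Set σ) (e : SSpM B hB hqM) :
    nodeTubeM B hB hqM tubeT tubeK tubeW (nT e) = tubeT e := rfl

theorem nodeTubeM_nk (tubeT : SSpM B hB hqM → Set σ) (tubeK : SSpM B hB hqM → KP → Set σ)
    (tubeW : SSpM B hB hqM → Set σ) (e : SSpM B hB hqM) (s : KP) :
    nodeTubeM B hB hqM tubeT tubeK tubeW (nk e s) = tubeK e s := rfl

theorem nodeTubeM_nW (tubeT : SSpM B hB hqM → Set σ) (tubeK : SSpM B hB hqM → KP → Set σ)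
    (tubeW : SSpM B hB hqM → Set σ) (e : SSpM B hB hqM) :
    nodeTubeM B hB hqM tubeT tubeK tubeW (nW e) = tubeW e := rfl

open Classical in
/-- **The tube of the point `Q` of `cInf`** at the frame: helper1's `cInfTubeAll` when `Q` is not
a crossing point of `can`, `∅` otherwise. -/
def cInfTubeM (Q : Place (IsLocalRing.ResidueField B)
    (modularFunctionFieldFullC (IsLocalRing.ResidueField B) M)) :
    Set (Place (AlgebraicClosure ℚ) (Fb (M * q * q))) :=
  if h : ∀ e : Crossing (chartDataModular B hB hqM), Q ≠ z₁ (chartDataModular B hB hqM) e then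
    cInfTubeAll B hB hqM (atlas (DtM B hB hqM)) Q h
  else ∅

open Classical in
/-- **The tube of the point `Q` of `cZero`** at the frame: helper1's `cZeroTubeAll` when `Q` is
not a crossing point of `et`, `∅` otherwise. -/
def cZeroTubeM (Q : Place (IsLocalRing.ResidueField B)
    (modularFunctionFieldFullC (IsLocalRing.ResidueField B) M)) :
    Set (Place (AlgebraicClosure ℚ) (Fb (M * q * q))) :=
  if h : ∀ e : Crossing (chartDataModular B hB hqM), Q ≠ z₂ (chartDataModular B hB hqM) e then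
    cZeroTubeAll B hB hqM (atlas (DtM B hB hqM)) Q h
  else ∅

theorem cInfTubeM_eq (H : AtlasHyp (chartDataModular B hB hqM) (jx M q)) (Q : Place kB FtM)
    (h : ∀ e : Crossing (chartDataModular B hB hqM), Q ≠ z₁ (chartDataModular B hB hqM) e) :
    cInfTubeM B hB hqM Q = cInfTubeAll B hB hqM H Q h := by
  rw [cInfTubeM, dif_pos h]

theorem cZeroTubeM_eq (H : AtlasHyp (chartDataModular B hB hqM) (jx M q)) (Q : Place kB FtM)
    (h : ∀ e : Crossing (chartDataModular B hB hqM), Q ≠ z₂ (chartDataModular B hB hqM) e) :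
    cZeroTubeM B hB hqM Q = cZeroTubeAll B hB hqM H Q h := by
  rw [cZeroTubeM, dif_pos h]

variable
  (midTube : MidM B hB hqM hζ → Place (IsLocalRing.ResidueField B) (FMid M B) →
    Set (Place (AlgebraicClosure ℚ) (Fb (M * q * q))))
  (zeTube : ∀ e : SSpM B hB hqM, Place (IsLocalRing.ResidueField B) (FZ e) →
    Set (Place (AlgebraicClosure ℚ) (Fb (M * q * q))))

/-- **The raw tubes of the smooth points of `S''` at the modular frame.** -/
def smTubeM : (Σ v, Place (IsLocalRing.ResidueField B) (FtAll B hB hqM hζ FZ v)) →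
    Set (Place (AlgebraicClosure ℚ) (Fb (M * q * q))) :=
  smTubeOf B hB hqM hζ (cInfTubeM B hB hqM) (cZeroTubeM B hB hqM) midTube zeTube

theorem smTubeM_cInf_eq (Q : Place kB FtM) :
    smTubeM B hB hqM hζ midTube zeTube ⟨cInf, Q⟩ = cInfTubeM B hB hqM Q := rfl

theorem smTubeM_cZero_eq (Q : Place kB FtM) :
    smTubeM B hB hqM hζ midTube zeTube ⟨cZero, Q⟩ = cZeroTubeM B hB hqM Q := rfl

/-- the tube of a point of `cInf` which is not a crossing point, for ANY proof `H` of the atlas
hypotheses -/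
theorem smTubeM_cInf (H : AtlasHyp (chartDataModular B hB hqM) (jx M q)) (Q : Place kB FtM)
    (h : ∀ e : Crossing (chartDataModular B hB hqM), Q ≠ z₁ (chartDataModular B hB hqM) e) :
    smTubeM B hB hqM hζ midTube zeTube ⟨cInf, Q⟩ = cInfTubeAll B hB hqM H Q h :=
  cInfTubeM_eq B hB hqM H Q h

/-- the tube of a point of `cZero` which is not a crossing point, for ANY proof `H` of the atlas
hypotheses -/
theorem smTubeM_cZero (H : AtlasHyp (chartDataModular B hB hqM) (jx M q)) (Q : Place kB FtM)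
    (h : ∀ e : Crossing (chartDataModular B hB hqM), Q ≠ z₂ (chartDataModular B hB hqM) e) :
    smTubeM B hB hqM hζ midTube zeTube ⟨cZero, Q⟩ = cZeroTubeAll B hB hqM H Q h :=
  cZeroTubeM_eq B hB hqM H Q h

theorem smTubeM_mid (i : MidM B hB hqM hζ) (Q : Place kB (FMid M B)) :
    smTubeM B hB hqM hζ midTube zeTube ⟨mid i, Q⟩ = midTube i Q := rfl

theorem smTubeM_ze (e : SSpM B hB hqM) (Q : Place kB (FZ e)) :
    smTubeM B hB hqM hζ midTube zeTube ⟨ze e, Q⟩ = zeTube e Q := rfl

/-- a point which is not the point `pZeroM e` of any crossing is not a crossing point of `et` -/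
theorem ne_z₂_of_forall_ne_pZeroM {Q : Place kB FtM} (h : ∀ e, Q ≠ pZeroM B hB hqM e)
    (e : Crossing (chartDataModular B hB hqM)) : Q ≠ z₂ (chartDataModular B hB hqM) e := by
  have h1 := h (Fr B hB hqM e)
  rwa [pZeroM, Fr_Fr] at h1

end Defs

/-! ### the charts of the horizontal components on the raw tubes -/

section Charts

variable {FZ : SSpM B hB hqM → Type} [∀ e, Field (FZ e)] [∀ e, Algebra (ResidueField B) (FZ e)]
  (CZ : ∀ e, ConstRed (F := Fb (M * q * q)) (Ft := FZ e) B (residue B))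
  (midTube : MidM B hB hqM hζ → Place (IsLocalRing.ResidueField B) (FMid M B) →
    Set (Place (AlgebraicClosure ℚ) (Fb (M * q * q))))
  (zeTube : ∀ e : SSpM B hB hqM, Place (IsLocalRing.ResidueField B) (FZ e) →
    Set (Place (AlgebraicClosure ℚ) (Fb (M * q * q))))

/-- **The charts of `can` of `S'`** (the argument `C'` of `hcan_modular`, `partition_modular`). -/
def canChartM (Q' : Place (IsLocalRing.ResidueField B)
      (modularFunctionFieldFullC (IsLocalRing.ResidueField B) M))
    (h : ∀ e, Q' ≠ z₁ (chartDataModular B hB hqM) e) :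
    SmoothChart B (constRedW1 B hB hqM).O (constRedW1 B hB hqM).res Q'
      {P | (setup (DtM B hB hqM)).r P = ⟨0, Q'⟩} :=
  (regChartCan B hB hqM (atlas (DtM B hB hqM)) Q' h).chart

theorem canChartM_eq (H : AtlasHyp (chartDataModular B hB hqM) (jx M q)) (Q' : Place kB FtM)
    (h : ∀ e, Q' ≠ z₁ (chartDataModular B hB hqM) e) :
    canChartM B hB hqM Q' h = (regChartCan B hB hqM H Q' h).chart := rfl

/-- **The regular chart of `cInf` on the raw tube** at every point which is not a branch. -/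
def regInfM (Q : Place (ResidueField B) (FtAll B hB hqM hζ FZ cInf))
    (h : ∀ e, Q ≠ pInfM B hB hqM e) :
    RegChart B (CAll B hB hqM hζ CZ cInf).O (CAll B hB hqM hζ CZ cInf).res Q
      (smTubeM B hB hqM hζ midTube zeTube ⟨cInf, Q⟩) :=
  Fibre.regChartOfEq (smTubeM_cInf B hB hqM hζ midTube zeTube (atlas (DtM B hB hqM)) Q h)
    (cInfRegAll B hB hqM (atlas (DtM B hB hqM)) Q h)

/-- **The field `smInf`** in the binder shape of `modelAt_of_raw` for `smTube := smTubeM ..`. -/
def smInfM (Q : Place (ResidueField B) (FtAll B hB hqM hζ FZ cInf))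
    (h : ∀ e, Q ≠ pInfM B hB hqM e) :
    SmoothChart B (CAll B hB hqM hζ CZ cInf).O (CAll B hB hqM hζ CZ cInf).res Q
      (smTubeM B hB hqM hζ midTube zeTube ⟨cInf, Q⟩) :=
  (regInfM B hB hqM hζ CZ midTube zeTube Q h).chart

/-- **`hInf_t` of `hcan_modular` / `partition_modular`** for `smInf := smInfM ..`,
`C' := canChartM ..`. -/
theorem hInf_tM (Q : Place kB FtM) (h : ∀ e, Q ≠ z₁ (chartDataModular B hB hqM) e) :
    (smInfM B hB hqM hζ CZ midTube zeTube Q h).t = alpha2 M q (canChartM B hB hqM Q h).t :=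
  (Fibre.regChartOfEq_t (smTubeM_cInf B hB hqM hζ midTube zeTube (atlas (DtM B hB hqM)) Q h)
    (cInfRegAll B hB hqM (atlas (DtM B hB hqM)) Q h)).trans
    (cInfRegAll_t B hB hqM (atlas (DtM B hB hqM)) Q h)

/-- **The regular chart of `cZero` on the raw tube** at every point which is not a branch. -/
def regZeroM (Q : Place (ResidueField B) (FtAll B hB hqM hζ FZ cZero))
    (h : ∀ e, Q ≠ pZeroM B hB hqM e) :
    RegChart B (CAll B hB hqM hζ CZ cZero).O (CAll B hB hqM hζ CZ cZero).res Q
      (smTubeM B hB hqM hζ midTube zeTube ⟨cZero, Q⟩) :=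
  Fibre.regChartOfEq
    (smTubeM_cZero B hB hqM hζ midTube zeTube (atlas (DtM B hB hqM)) Q
      (ne_z₂_of_forall_ne_pZeroM B hB hqM h))
    (cZeroRegAll B hB hqM (atlas (DtM B hB hqM)) Q (ne_z₂_of_forall_ne_pZeroM B hB hqM h))

/-- **The field `smZero`** in the binder shape of `modelAt_of_raw` for `smTube := smTubeM ..`. -/
def smZeroM (Q : Place (ResidueField B) (FtAll B hB hqM hζ FZ cZero))
    (h : ∀ e, Q ≠ pZeroM B hB hqM e) :
    SmoothChart B (CAll B hB hqM hζ CZ cZero).O (CAll B hB hqM hζ CZ cZero).res Q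
      (smTubeM B hB hqM hζ midTube zeTube ⟨cZero, Q⟩) :=
  (regZeroM B hB hqM hζ CZ midTube zeTube Q h).chart

/-- the parameter of `smZeroM` is the parameter of the chart of `et`, pulled back by `β₂` -/
theorem smZeroM_t (Q : Place kB FtM) (h : ∀ e, Q ≠ pZeroM B hB hqM e) :
    (smZeroM B hB hqM hζ CZ midTube zeTube Q h).t =
      beta2 M q (regChartEt B hB hqM (atlas (DtM B hB hqM)) Q
        (ne_z₂_of_forall_ne_pZeroM B hB hqM h)).chart.t :=
  (Fibre.regChartOfEq_t
    (smTubeM_cZero B hB hqM hζ midTube zeTube (atlas (DtM B hB hqM)) Q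
      (ne_z₂_of_forall_ne_pZeroM B hB hqM h))
    (cZeroRegAll B hB hqM (atlas (DtM B hB hqM)) Q (ne_z₂_of_forall_ne_pZeroM B hB hqM h))).trans
    (cZeroRegAll_t B hB hqM (atlas (DtM B hB hqM)) Q (ne_z₂_of_forall_ne_pZeroM B hB hqM h))

end Charts

/-! ### the inputs of `partition_modular` against `smTubeM` -/

section Inputs

variable {FZ : SSpM B hB hqM → Type} [∀ e, Field (FZ e)] [∀ e, Algebra (ResidueField B) (FZ e)]
  {KP : Type} (comp : SSpM B hB hqM → KP → MidM B hB hqM hζ)
  (pMid : ∀ e s, Place (IsLocalRing.ResidueField B) (FtAll B hB hqM hζ FZ (mid (comp e s))))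
  (midTube : MidM B hB hqM hζ → Place (IsLocalRing.ResidueField B) (FMid M B) →
    Set (Place (AlgebraicClosure ℚ) (Fb (M * q * q))))
  (zeTube : ∀ e : SSpM B hB hqM, Place (IsLocalRing.ResidueField B) (FZ e) →
    Set (Place (AlgebraicClosure ℚ) (Fb (M * q * q))))

/-- **`subInf` of `under_modular` / `partition_modular`** for `smTube := smTubeM ..`. -/
theorem subInfM (Q : Place kB (FtAll B hB hqM hζ FZ cInf)) (h : ∀ e, Q ≠ pInfM B hB hqM e)
    (P : Place Qb (Fb (M * q * q))) (hP : P ∈ smTubeM B hB hqM hζ midTube zeTube ⟨cInf, Q⟩) :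
    (setup (DtM B hB hqM)).r (rhoA M q P) = ⟨0, uInfM B hB hqM hζ FZ Q⟩ := by
  rw [smTubeM_cInf B hB hqM hζ midTube zeTube (atlas (DtM B hB hqM)) Q h] at hP
  exact restrictAlong_mem_of_mem_cInfTubeAll B hB hqM (atlas (DtM B hB hqM)) Q h
    (isIntegral_alpha2 M q) hP

/-- **`dIM` of `under_modular` / `partition_modular`** for `smTube := smTubeM ..`, from regular
charts on the middle tubes and `subMid` (helper23's `not_mem_CM_of_mem_cInfTubeAll`). -/
theorem dIM_M
    (regMid : ∀ (i : MidM B hB hqM hζ) (Q : Place kB (FtAll B hB hqM hζ FZ (mid i))),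
      (∀ e s, (⟨mid i, Q⟩ : Σ v, Place kB (FtAll B hB hqM hζ FZ v)) ≠
        ⟨mid (comp e s), pMid e s⟩) →
      RegChart B (CM B hB hqM hζ i).O (CM B hB hqM hζ i).res Q (midTube i Q))
    (subMid : ∀ i (Q : Place kB (FtAll B hB hqM hζ FZ (mid i))),
      (∀ e s, (⟨mid i, Q⟩ : Σ v, Place kB (FtAll B hB hqM hζ FZ v)) ≠
        ⟨mid (comp e s), pMid e s⟩) →
      ∀ P ∈ smTubeM B hB hqM hζ midTube zeTube ⟨mid i, Q⟩,
        (setup (DtM B hB hqM)).r (rhoA M q P) = ⟨0, uMidM B hB hqM hζ FZ i Q⟩)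
    (i : MidM B hB hqM hζ) (Q : Place kB (FtAll B hB hqM hζ FZ cInf))
    (Q' : Place kB (FtAll B hB hqM hζ FZ (mid i))) (P : Place Qb (Fb (M * q * q)))
    (hQ : ∀ e, Q ≠ pInfM B hB hqM e)
    (hQ' : ∀ e s, (⟨mid i, Q'⟩ : Σ v, Place kB (FtAll B hB hqM hζ FZ v)) ≠
      ⟨mid (comp e s), pMid e s⟩)
    (hu : uInfM B hB hqM hζ FZ Q = uMidM B hB hqM hζ FZ i Q')
    (hP : P ∈ smTubeM B hB hqM hζ midTube zeTube ⟨cInf, Q⟩)
    (hP' : P ∈ smTubeM B hB hqM hζ midTube zeTube ⟨mid i, Q'⟩) : False := by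
  haveI := finiteDimensional_FMid B hB hqM
  rw [smTubeM_cInf B hB hqM hζ midTube zeTube (atlas (DtM B hB hqM)) Q hQ] at hP
  refine Fermat.Agent.BR3.SDD.FibreCanDisj.not_mem_CM_of_mem_cInfTubeAll B hB hqM hζ
    (atlas (DtM B hB hqM)) Q hQ i (Q'' := Q') hu.symm (regMid i Q' hQ') ?_ hP hP'
  intro P₂ hP₂
  have h1 := subMid i Q' hQ' P₂ hP₂
  rw [← hu] at h1
  exact h1

end Inputs

end Fermat.Agent.BR3.SDD.Modular
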