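import Mathlib
import Fermat.Agent.BR3.SDD.Cases
import Fermat.Agent.BR3.SepNOInj
import Fermat.Agent.BR3.CZeroRes
import Fermat.Agent.BR3.FibreProdMidRes
import Fermat.Agent.BR3.SRef.Modular
import Fermat.Agent.BR3.RiemannPkgExt

/-!
# Program C (S36), node I7 (integrator), part 8: the components of `S''` for `(M, q, B)`

The fields `C` and `O_injective` of the final `SDD.CaseInput` for the stable model of `X₀(M q²)`:

* `SSpM B hB hqM` := the crossings of `S'` (supersingular points), `MidM B hB hqM hζ` := the
  middle valuations (helper6);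
* `CH b` : `true ↦ constRedCZero` (helper1), `false ↦ constRedCInf` (helper23), residue field
  `F̃_M`; `CM i := constRedMid (rep i)` (helper6), residue field `FMid M B`, `CM_O : (CM i).O =
  i.ring`;
* for a family `CZ e` of constant reductions over the circle rings `ringE Dt a₀ hadm e` of `S'ref`
  along `α₂` (`hZc`): `CAll := constRedOf CH CM CZ` and **`CAll_O_injective`** (helper12's
  `SepNOInj.O_injective_of_comap`).
-/

set_option autoImplicit false
set_option linter.style.haveILetI false
set_option linter.unusedSectionVars false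
set_option synthInstance.maxHeartbeats 400000

noncomputable section

/- S36 build-time patch: file-local shortcut instances. They only shorten instance search;
each is the instance that the search finds anyway (reducible, same terms after unfolding). -/
local instance (priority := 100000) Fermat.Agent.BR3.FastInst.instAlgFullC_SDD_ModularC
    {k : Type*} [Field k] (N : ℕ) :
    Algebra k ↥(ModularCurve.modularFunctionFieldFullC k N) := inferInstance
local instance (priority := 100000) Fermat.Agent.BR3.FastInst.instFieldFullC_SDD_ModularC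
    {k : Type*} [Field k] (N : ℕ) :
    Field ↥(ModularCurve.modularFunctionFieldFullC k N) := inferInstance
local instance (priority := 100000) Fermat.Agent.BR3.FastInst.instAlgLaurent_SDD_ModularC
    {k : Type*} [Field k] : Algebra k (LaurentSeries k) := inferInstance


namespace Fermat.Agent.BR3.SDD.Modular

open ModularCurve AlgebraicCurve IsLocalRing
open Fermat.Agent.Red Fermat.Agent.Val Fermat.Agent.X0 Fermat.Agent.BR.SS Fermat.Agent.BR.Refine
open Fermat.Agent.BR.Circle Fermat.Agent.BR.S0 Fermat.Agent.BR.S0.PointDict
open Fermat.Agent.BR.S0.RedModular Fermat.Agent.BR.Final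
open Fermat.Agent.BR2.SetupOfData Fermat.Agent.BR3.CircleN Fermat.Agent.BR3.SRef
open Fermat.Agent.BR3.SRef.Modular Fermat.Agent.BR3.FibreProd
open Fermat.Agent.BR3.CZeroRes Fermat.Agent.BR3.CInfRes Fermat.Agent.BR.TwoValInst
open Fermat.Agent.BR.ConstRedTwo

variable {M q : ℕ} [NeZero M] [hq : Fact q.Prime]
variable (B : ValuationSubring (AlgebraicClosure ℚ)) (hB : B.LiesOverPrime q) (hqM : ¬ q ∣ M)
variable [IsAlgClosed (ResidueField B)]

local notation "kB" => IsLocalRing.ResidueField B
local notation "FtM" => modularFunctionFieldFullC (IsLocalRing.ResidueField B) M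
local notation "Kb" => AlgebraicClosure ℚ

/-- (shortcut instance) -/
local instance (priority := 100000) instAlgebraFtMShortcutC :
    Algebra (IsLocalRing.ResidueField B)
      (modularFunctionFieldFullC (IsLocalRing.ResidueField B) M) :=
  inferInstance

/-- The supersingular points: the crossings of `S'`. -/
abbrev SSpM : Type := Crossing (chartDataModular B hB hqM)

variable {ζ : Kbˣ} (hζ : IsPrimitiveRoot ζ q)

/-- The middle components. -/
abbrev MidM : Type := Mid B hB hqM hζ

/-- The constant reductions of the two horizontal components: `true ↦ cZero`, `false ↦ cInf`. -/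
def CH : ∀ b : Bool, ConstRed (F := Fb (M * q * q)) (Ft := FtM) B (residue B)
  | true => constRedCZero B hB hqM
  | false => constRedCInf B hB hqM

@[simp] theorem CH_true_O : (CH B hB hqM true).O = Fermat.Agent.BR3.CZero.cZero B hB hqM := rfl

@[simp] theorem CH_false_O : (CH B hB hqM false).O = w1 M B hB := rfl

/-- The constant reductions of the middle components. -/
def CM (i : MidM B hB hqM hζ) :
    ConstRed (F := Fb (M * q * q)) (Ft := FMid M B) B (residue B) :=
  constRedMid B hB hqM hζ (i.rep B hB hqM hζ).2

theorem CM_O (i : MidM B hB hqM hζ) : (CM B hB hqM hζ i).O = i.ring B hB hqM hζ :=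
  Mid.w2_rep B hB hqM hζ i

/-! ### The family of all components and the injectivity of `v ↦ O v` -/

section All

variable (Dt : ModularData M q B hB hqM)
  (a₀ : Crossing (chartDataModular B hB hqM) → Kb) (hadm : ∀ e, (inputs Dt).adm e (a₀ e))
  {FZ : SSpM B hB hqM → Type} [∀ e, Field (FZ e)] [∀ e, Algebra (ResidueField B) (FZ e)]
  (CZ : ∀ e, ConstRed (F := Fb (M * q * q)) (Ft := FZ e) B (residue B))

/-- **The constant reductions of all the components of `S''`.** -/
def CAll : ∀ v : Comp (MidM B hB hqM hζ) (SSpM B hB hqM),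
    ConstRed (F := Fb (M * q * q))
      (Ft := FtOf (fun _ : Bool => FtM) (fun _ : MidM B hB hqM hζ => FMid M B) FZ v) B
      (residue B) :=
  constRedOf (CH B hB hqM) (CM B hB hqM hζ) CZ

@[simp] theorem CAll_cInf_O : (CAll B hB hqM hζ CZ cInf).O = w1 M B hB := rfl

@[simp] theorem CAll_cZero_O :
    (CAll B hB hqM hζ CZ cZero).O = Fermat.Agent.BR3.CZero.cZero B hB hqM := rfl

theorem CAll_mid_O (i : MidM B hB hqM hζ) :
    (CAll B hB hqM hζ CZ (mid i)).O = i.ring B hB hqM hζ := CM_O B hB hqM hζ i

@[simp] theorem CAll_ze (e : SSpM B hB hqM) : CAll B hB hqM hζ CZ (ze e) = CZ e := rfl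

/-- **The field `O_injective`**: the vertical components lie over the circle rings of `S'ref`
along `α₂`. -/
theorem CAll_O_injective
    (hZc : ∀ e, ((CZ e).O).comap (alpha2 M q : Fb (M * q) →+* Fb (M * q * q)) =
      ringE Dt a₀ hadm e) :
    Function.Injective fun v => (CAll B hB hqM hζ CZ v).O := by
  refine Fermat.Agent.BR3.SepNOInj.O_injective_of_comap (S₁ := setup Dt) (CH B hB hqM)
    (CM B hB hqM hζ) CZ (inputs Dt) a₀ hadm (alpha2 M q : Fb (M * q) →+* Fb (M * q * q))
    ?_ ?_ ?_ (fun b => if b then 1 else 0) ?_ (fun _ => 0) ?_ id Function.injective_id hZc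
  · exact (Fermat.Agent.BR3.CZero.cZero_ne_w1 B hB hqM).symm
  · intro i j h
    apply Mid.ring_injective B hB hqM hζ
    rw [← CM_O B hB hqM hζ i, ← CM_O B hB hqM hζ j]
    exact h
  · rintro (_ | _) i
    · exact (w2_ne_w1 B hB hqM hζ (i.rep B hB hqM hζ).2).symm
    · exact (Fermat.Agent.BR3.CZero.w2_ne_cZero B hB hqM hζ (i.rep B hB hqM hζ).2).symm
  · rintro (_ | _)
    · exact comap_alpha2_w1 B hB
    · exact Fermat.Agent.BR3.CZero.comap_alpha2_cZero B hB hqM
  · intro i
    exact comap_alpha2_w2 B hB hqM hζ (i.rep B hB hqM hζ).2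

/-- **(G2)** the Riemann packages of the residue fields of the components: `F̃_M` for `cInf`,
`cZero` (main), `FMid M B` finite separable over `F̃_M` (helper6 + `RiemannPkgExt`), and the
residue fields of the vertical components. -/
theorem hFtAll (hZ : ∀ e, RiemannPkg (ResidueField B) (FZ e)) :
    ∀ v : Comp (MidM B hB hqM hζ) (SSpM B hB hqM), RiemannPkg (ResidueField B)
      (FtOf (fun _ : Bool => FtM) (fun _ : MidM B hB hqM hζ => FMid M B) FZ v)
  | Sum.inl (Sum.inl _) => Fermat.Agent.Val.riemannPkg_modL_residueField M hqM B hB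
  | Sum.inl (Sum.inr _) => by
    haveI := finiteDimensional_FMid B hB hqM
    haveI := isSeparable_FMid B hB hqM
    exact Fermat.Agent.BR3.RiemannPkgExt.riemannPkg_of_finite_separable_modL M hqM B hB
      (L := FMid M B)
  | Sum.inr e => hZ e

end All

end Fermat.Agent.BR3.SDD.Modular
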