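import Mathlib
import Fermat.Agent.BR3.SDD.Skeleton
import Fermat.Agent.BR3.GeoFinal
import Fermat.Agent.BR3.GeoTor
import Fermat.Agent.BR3.ChartTorGood
import Fermat.Agent.BR.SS.Main

/-!
# Program C (S36), node I7 (integrator), part 3: contract (A') from the named inputs of `S''`

`I : SDD.Input B Mid SSp KP Ft` (the named inputs of the stable model `S'' = I.setup` of the
function field `Fb (N₁ * q)`, for Program C `N₁ = M * q`) and `D : SDD.CircleData I ιL` (the levels
of the annuli of its nodes).  The END-TO-END theorem: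

* `noTorsionInKernel_setup` : `NoTorsionInKernel I.setup` from the genus formula (block B3);
* `torGood_setup` : the moving lemma `TorGood I.setup m` (`ChartTorGood.torGood_of_charts`);
* `h3_of_input` : step (H3) in the shape of `GeoFinal` from the cochain relations `hcoch`
  (`GeoTor.h3_of_graph` with `eι = Equiv.refl _`, the hypotheses on the graph being `rfl`);
* **`newInvBoundedLevel_of_input`** : `S36Final.NewInvBoundedLevel N₁ q lam B` from
  `I`, `D` and the named inputs (G1) `hF`, (G2) `hFt`, (G7) `hg`, (G3) `ht`, (G4) `hrich`,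
  (G5) `hkind`, (G6) `hcoch` + the combinatorial data `d φ P p` of the tame generator.
-/

set_option autoImplicit false
set_option linter.style.haveILetI false
set_option linter.unusedSectionVars false
set_option linter.unusedVariables false

open ModularCurve AlgebraicCurve

namespace Fermat.Agent.BR3.SDD

open IsLocalRing Fermat.Agent.Jac Fermat.Agent.X0 Fermat.Agent.Red Fermat.Agent.BR.SS
  Fermat.Agent.BR.Fact Fermat.Agent.BR.InertiaRed Fermat.Agent.BR3.InvFiniteUnit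
  Fermat.Agent.BR2.Filt Fermat.Agent.BR3.FiltMaps Fermat.Agent.BR.LevelTransfer
  Fermat.Agent.BR2.LevelMaps Fermat.Agent.BR3.S36Final Fermat.Agent.BR3.CircleN
  Fermat.Agent.BR3.TorGlue Fermat.Agent.BR3.GeoTor

local notation "Qb" => AlgebraicClosure ℚ

section General

variable {K : Type} {F : Type*} [Field K] [Field F] [Algebra K F]
  {A : ValuationSubring K} [IsAlgClosed (ResidueField A)] {Mid SSp KP : Type}
  [Fintype Mid] [Fintype SSp] [Fintype KP]
  {Ft : Comp Mid SSp → Type} [∀ v, Field (Ft v)] [∀ v, Algebra (ResidueField A) (Ft v)]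
  (I : Input (F := F) A Mid SSp KP Ft) {ιL : Node SSp KP → Type*} (D : CircleData I ιL)

/-- **`S''` has no torsion in the kernel of the reduction** (block B3), from the genus formula. -/
theorem noTorsionInKernel_setup [IsAlgClosed K] (hA : IsRankOne A) (hF : RiemannPkg K F)
    (hFt : ∀ v, RiemannPkg (ResidueField A) (Ft v))
    (hg : (genusFF K F : ℤ) = ∑ v, (genusFF (ResidueField A) (Ft v) : ℤ) +
      Fintype.card (Node SSp KP) - Fintype.card (Comp Mid SSp) + 1) :
    NoTorsionInKernel I.setup :=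
  mainStatement I.setup inferInstance inferInstance hA hF hFt hg

include D in
/-- **The moving lemma for `S''`.** -/
theorem torGood_setup [IsAlgClosed K] (hA : IsRankOne A) (hF : RiemannPkg K F)
    (hFt : ∀ v, RiemannPkg (ResidueField A) (Ft v))
    (hg : (genusFF K F : ℤ) = ∑ v, (genusFF (ResidueField A) (Ft v) : ℤ) +
      Fintype.card (Node SSp KP) - Fintype.card (Comp Mid SSp) + 1)
    {m : ℕ} (hm : m ≠ 0) : TorGood I.setup m :=
  ChartTorGood.torGood_of_charts (D.ch hA) hA hF hFt hg hm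

include D in
/-- **Step (H3) for `S''`** (`GeoTor.h3_of_graph` with `eι = Equiv.refl _`): the hypotheses on the
graph hold by `rfl`, `NoTorsionInKernel` and the moving lemma come from the genus formula and the
charts; what is left is `hcoch` (the push-forward relations along `a`, `b` and the invariance under
the tame generator). -/
theorem h3_of_input [IsAlgClosed K] (hA : IsRankOne A) (hF : RiemannPkg K F)
    (hFt : ∀ v, RiemannPkg (ResidueField A) (Ft v))
    (hg : (genusFF K F : ℤ) = ∑ v, (genusFF (ResidueField A) (Ft v) : ℤ) +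
      Fintype.card (Node SSp KP) - Fintype.card (Comp Mid SSp) + 1)
    (lam : ℕ) (hlam : (lam : ResidueField A) ≠ 0)
    (Inv : Pic0 K F → Prop) {X₀ : Type*} [AddCommGroup X₀] (a b : Pic0 K F →+ X₀)
    (q d : ℕ) (hd : d * Fintype.card KP + 1 = q) (φ : SSp → SSp) (P : Equiv.Perm Mid)
    (p : SSp → Equiv.Perm KP) (hp : ∀ e s s', ∃ n : ℕ, ((p e) ^ n) s = s')
    (hcomp : ∀ e s, I.comp e (p e s) = P (I.comp e s))
    (hcoch : ∀ (m : ℕ) (z : Pic0 K F) (D₀ : Divisor.degZero (K := K) (F := F)) (f : F)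
      (u : ∀ v, Ft v), IsGood I.setup (lam ^ m) z D₀ f u → Inv z → a z = 0 → b z = 0 →
      ∀ (av bv : Node SSp KP → ResidueField A) (ha0 : ∀ e, av e ≠ 0) (hb0 : ∀ e, bv e ≠ 0),
      (∀ e, IsValueAt (I.setup.s₁ e) (u (I.setup.src e)) (av e)) →
      (∀ e, IsValueAt (I.setup.s₂ e) (u (I.setup.tgt e)) (bv e)) →
      ∃ (A1 A2 : (ResidueField A)ˣ) (α : SSp → (ResidueField A)ˣ) (B1 B2 : (ResidueField A)ˣ)
        (β : SSp → (ResidueField A)ˣ) (r1 : (ResidueField A)ˣ) (ρm : Mid → (ResidueField A)ˣ)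
        (ρ' : SSp → (ResidueField A)ˣ),
        (∀ e, xi hor av bv ha0 hb0 (nW e) ^ q = A1 / α e) ∧
        (∀ e, xi hor av bv ha0 hb0 (nT e) * (∏ s, xi hor av bv ha0 hb0 (nk e s)) ^ d =
          A2 / α e) ∧
        (∀ e, xi hor av bv ha0 hb0 (nT e) ^ q = B1 / β (φ e)) ∧
        (∀ e, xi hor av bv ha0 hb0 (nW e) * (∏ s, xi hor av bv ha0 hb0 (nk e s)) ^ d =
          B2 / β (φ e)) ∧
        (∀ e, xi hor av bv ha0 hb0 (nW e) = xi hor av bv ha0 hb0 (nW e) * r1 / ρ' e) ∧
        ∀ e s, xi hor av bv ha0 hb0 (nk e (p e s)) =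
          xi hor av bv ha0 hb0 (nk e s) * ρm (I.comp e s) / ρ' e) :
    ∀ (m : ℕ) (z : Pic0 K F), z ∈ torSub I.setup (lam ^ m) → lam ^ m • z = 0 → Inv z → a z = 0 →
      b z = 0 → (q * (q + 1) * (d * Fintype.card KP)) • z = 0 :=
  h3_of_graph (S := I.setup) (noTorsionInKernel_setup I hA hF hFt hg) hFt lam hlam
    (fun m => torGood_setup I D hA hF hFt hg
      (pow_ne_zero m (fun h0 : lam = 0 => hlam (by rw [h0, Nat.cast_zero]))))
    Inv a b hor (Equiv.refl _) nW nT nk I.comp node_cases I.hW I.hT I.hK q d hd φ P p hp hcomp hcoch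

end General

section Modular

variable (N₁ q lam : ℕ) [NeZero N₁] [NeZero q] (B : ValuationSubring Qb)
  [IsAlgClosed (ResidueField B)] {Mid SSp KP : Type} [Fintype Mid] [Fintype SSp] [Fintype KP]
  {Ft : Comp Mid SSp → Type} [∀ v, Field (Ft v)] [∀ v, Algebra (ResidueField B) (Ft v)]
  (I : Input (F := Fb (N₁ * q)) B Mid SSp KP Ft) {ιL : Node SSp KP → Type*} (D : CircleData I ιL)

/-- **Contract (A') at the level `N₁ * q` from the named inputs of `S''`**: every hypothesis is one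
named input of the work breakdown of node I7:
(G1) `hF`, (G2) `hFt`, (G7) `hg`, (G3) `ht`, (G4) `hrich`, (G5) `hkind`, (G6) `hcoch` with the
combinatorial data `d φ P p` of the tame generator. -/
theorem newInvBoundedLevel_of_input (hB : IsRankOne B)
    (hF : RiemannPkg Qb (Fb (N₁ * q))) (hFt : ∀ v, RiemannPkg (ResidueField B) (Ft v))
    (hg : (genusFF Qb (Fb (N₁ * q)) : ℤ) = ∑ v, (genusFF (ResidueField B) (Ft v) : ℤ) +
      Fintype.card (Node SSp KP) - Fintype.card (Comp Mid SSp) + 1)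
    (ϖ : Qb) (hϖ0 : ϖ ≠ 0) (hϖ : B.valuation ϖ < 1) (t : Node SSp KP → ℕ) (ht0 : ∀ x, 0 < t x)
    (ht : ∀ x, B.valuation (D.L x).thick = B.valuation ϖ ^ t x)
    (hlam : (lam : ResidueField B) ≠ 0)
    (hrich : ∀ m : ℕ, ∃ (s : GQ) (c : Qb), s ∈ B.inertiaSubgroupIn ℚ ∧
      TrivialAction I.setup (fun x => (D.L x).u) (galAut (N₁ * q) s) ∧ c ^ (lam ^ m) = ϖ ∧
      IsPrimitiveRoot (resOf B (s c / c)) (lam ^ m))
    (e₁ e₂ : ℕ) (he₁ : e₁ ≠ 0) (he₂ : e₂ ≠ 0)
    (hkind : ∀ (m : ℕ) (y : natSub I.setup (lam ^ m)),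
      (∀ s ∈ B.inertiaSubgroupIn ℚ, galAut (N₁ * q) s • (y : JZero (N₁ * q)) = y) →
      alphaDown N₁ q (y : JZero (N₁ * q)) = 0 → betaDown N₁ q (y : JZero (N₁ * q)) = 0 → ∀ v,
        abRes hF hFt (pow_ne_zero m (fun h0 : lam = 0 => hlam (by rw [h0, Nat.cast_zero]))) v y
          = 0 ∨
        e₁ • abRes hF hFt (pow_ne_zero m (fun h0 : lam = 0 => hlam (by rw [h0, Nat.cast_zero])))
          v y = 0 ∨
        e₂ • abRes hF hFt (pow_ne_zero m (fun h0 : lam = 0 => hlam (by rw [h0, Nat.cast_zero])))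
          v y = 0)
    (hq : 1 < q) (d : ℕ) (hd : d * Fintype.card KP + 1 = q) (φ : SSp → SSp) (P : Equiv.Perm Mid)
    (p : SSp → Equiv.Perm KP) (hp : ∀ e s s', ∃ n : ℕ, ((p e) ^ n) s = s')
    (hcomp : ∀ e s, I.comp e (p e s) = P (I.comp e s))
    (hcoch : ∀ (m : ℕ) (z : JZero (N₁ * q))
      (D₀ : Divisor.degZero (K := Qb) (F := Fb (N₁ * q))) (f : Fb (N₁ * q))
      (u : ∀ v, Ft v), IsGood I.setup (lam ^ m) z D₀ f u → GeoFinal.Inv N₁ q B z →
      alphaDown N₁ q z = 0 → betaDown N₁ q z = 0 →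
      ∀ (av bv : Node SSp KP → ResidueField B) (ha0 : ∀ e, av e ≠ 0) (hb0 : ∀ e, bv e ≠ 0),
      (∀ e, IsValueAt (I.setup.s₁ e) (u (I.setup.src e)) (av e)) →
      (∀ e, IsValueAt (I.setup.s₂ e) (u (I.setup.tgt e)) (bv e)) →
      ∃ (A1 A2 : (ResidueField B)ˣ) (α : SSp → (ResidueField B)ˣ) (B1 B2 : (ResidueField B)ˣ)
        (β : SSp → (ResidueField B)ˣ) (r1 : (ResidueField B)ˣ) (ρm : Mid → (ResidueField B)ˣ)
        (ρ' : SSp → (ResidueField B)ˣ),
        (∀ e, xi hor av bv ha0 hb0 (nW e) ^ q = A1 / α e) ∧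
        (∀ e, xi hor av bv ha0 hb0 (nT e) * (∏ s, xi hor av bv ha0 hb0 (nk e s)) ^ d =
          A2 / α e) ∧
        (∀ e, xi hor av bv ha0 hb0 (nT e) ^ q = B1 / β (φ e)) ∧
        (∀ e, xi hor av bv ha0 hb0 (nW e) * (∏ s, xi hor av bv ha0 hb0 (nk e s)) ^ d =
          B2 / β (φ e)) ∧
        (∀ e, xi hor av bv ha0 hb0 (nW e) = xi hor av bv ha0 hb0 (nW e) * r1 / ρ' e) ∧
        ∀ e s, xi hor av bv ha0 hb0 (nk e (p e s)) =
          xi hor av bv ha0 hb0 (nk e s) * ρm (I.comp e s) / ρ' e) :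
    NewInvBoundedLevel N₁ q lam B := by
  have hdK : d * Fintype.card KP ≠ 0 := by omega
  have he₃ : q * (q + 1) * (d * Fintype.card KP) ≠ 0 :=
    mul_ne_zero (mul_ne_zero (by omega) (by omega)) hdK
  exact GeoFinal.newInvBoundedLevel_of_geo N₁ q lam B I.setup hF hFt (fun x => (D.L x).u)
    (fun x => (D.L x).thick) (fun x => Fermat.Agent.BR.Circle.NodeUnit I.setup x)
    (ChartFacts.nodeFact (D.ch hB)) (ChartFacts.hsrc (D.ch hB)) (ChartFacts.htgt (D.ch hB))
    ϖ hϖ0 hϖ t ht0 ht hlam hrich e₁ e₂ he₁ he₂ hkind _ he₃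
    (h3_of_input I D hB hF hFt hg lam hlam (GeoFinal.Inv N₁ q B) (alphaDown N₁ q) (betaDown N₁ q)
      q d hd φ P p hp hcomp hcoch)

end Modular

end Fermat.Agent.BR3.SDD
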