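import Mathlib
import Fermat.Agent.BR3.SRef.Modular
import Fermat.Agent.BR3.ThickSDDPlug
import Fermat.Agent.BR3.ThickOneFinal

/-!
# Program C (S36), node I7 (integrator), part 9: the gauges of `S'ref_a`, `S'ref_b` for `(M, q, B)`

FIXED CHOICES for the stable model of `X₀(M q²)` (`M` without elliptic points):

* `DtM B hB hqM := modularData_final B hB hqM` (main's data of `S'`);
* `gaugeA q := fun _ => ThickSDDPlug.gaugeSDD q` (`= ϖ ^ (q - 1)`, `ϖ ^ ((q-1)(q+1)) = q`; the SAME
  constant at every supersingular point, fixed by every automorphism fixing `ϖ`),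
  `gaugeB q := fun _ => gaugeSDD q ^ q`;
* `isGaugeA`, `isGaugeB` : they are critical gauges along `a`, `b` (thickness `|q|`, C-THICK1);
* `SA B hB hqM h2 h3 := srefA …` (`= S'ref_a`), `SB … := srefB …` (`= S'ref_b`);
* `admA`, `admB` : admissibility, `ringEA e` : the valuation ring of the exceptional component of
  `S'ref_a` at `e` (the circle ring under the vertical component `z e`).
-/

set_option autoImplicit false
set_option linter.unusedSectionVars false
set_option synthInstance.maxHeartbeats 400000

noncomputable section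

namespace Fermat.Agent.BR3.SDD.Modular

open ModularCurve AlgebraicCurve IsLocalRing
open Fermat.Agent.Red Fermat.Agent.Val Fermat.Agent.X0 Fermat.Agent.BR.SS Fermat.Agent.BR.Refine
open Fermat.Agent.BR.Circle Fermat.Agent.BR.S0 Fermat.Agent.BR.S0.PointDict
open Fermat.Agent.BR.S0.RedModular Fermat.Agent.BR.Final Fermat.Agent.BR.Inst.AnnulusInstFinal
open Fermat.Agent.BR2.SetupOfData Fermat.Agent.BR3.CircleN Fermat.Agent.BR3.SRef
open Fermat.Agent.BR3.SRef.Modular Fermat.Agent.BR3.ThickSDDPlug Fermat.Agent.BR3.ThickOneFinal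

variable {M q : ℕ} [NeZero M] [hq : Fact q.Prime]
variable (B : ValuationSubring (AlgebraicClosure ℚ)) (hB : B.LiesOverPrime q) (hqM : ¬ q ∣ M)
variable [IsAlgClosed (ResidueField B)]

local notation "Kb" => AlgebraicClosure ℚ

/-- (shortcut instance) -/
local instance (priority := 100000) instAlgebraFtMShortcutG :
    Algebra (IsLocalRing.ResidueField B)
      (modularFunctionFieldFullC (IsLocalRing.ResidueField B) M) :=
  inferInstance

/-- Main's data of the two-component model `S'` of `X₀(M q)`. -/
abbrev DtM : ModularData M q B hB hqM := modularData_final B hB hqM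

variable (q) in
/-- The gauge of the critical circles along `a`: the constant `ϖ ^ (q - 1)`. -/
def gaugeA (_e : Crossing (chartDataModular B hB hqM)) : Kb := gaugeSDD q

variable (q) in
/-- The gauge of the critical circles along `b`: the constant `(ϖ ^ (q - 1)) ^ q`. -/
def gaugeB (_e : Crossing (chartDataModular B hB hqM)) : Kb := gaugeSDD q ^ q

theorem valuation_thick_DtM (h2 : nuTwo M = 0) (h3 : nuThree M = 0)
    (e : Crossing (chartDataModular B hB hqM)) :
    B.valuation (thick (DtM B hB hqM) e) = B.valuation (q : Kb) :=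
  valuation_thick_final B hB hqM h2 h3 (nonempty_crossing (DtM B hB hqM)) e

theorem isGaugeA (h2 : nuTwo M = 0) (h3 : nuThree M = 0) :
    IsGaugeA (DtM B hB hqM) (gaugeA q B hB hqM) := fun e =>
  valuation_gaugeSDD_pow hq.out.one_lt B (valuation_thick_DtM B hB hqM h2 h3 e)

theorem isGaugeB (h2 : nuTwo M = 0) (h3 : nuThree M = 0) :
    IsGaugeB (DtM B hB hqM) (gaugeB q B hB hqM) := fun e =>
  valuation_gaugeSDD_pow_q hq.out.one_lt B (valuation_thick_DtM B hB hqM h2 h3 e)

/-- **`S'ref_a`** for `(M, q, B)`. -/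
def SA (h2 : nuTwo M = 0) (h3 : nuThree M = 0) :=
  srefA (DtM B hB hqM) (gaugeA q B hB hqM) (isGaugeA B hB hqM h2 h3)

/-- **`S'ref_b`** for `(M, q, B)`. -/
def SB (h2 : nuTwo M = 0) (h3 : nuThree M = 0) :=
  srefB (DtM B hB hqM) (gaugeB q B hB hqM) (isGaugeB B hB hqM h2 h3)

theorem admA (h2 : nuTwo M = 0) (h3 : nuThree M = 0) (e : Crossing (chartDataModular B hB hqM)) :
    (inputs (DtM B hB hqM)).adm e (gaugeA q B hB hqM e) :=
  (isGaugeA B hB hqM h2 h3).adm e

theorem admB (h2 : nuTwo M = 0) (h3 : nuThree M = 0) (e : Crossing (chartDataModular B hB hqM)) :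
    (inputs (DtM B hB hqM)).adm e (gaugeB q B hB hqM e) :=
  (isGaugeB B hB hqM h2 h3).adm e

/-- The valuation ring of the exceptional component of `S'ref_a` at `e`: the ring of the circle
`|u_e| = |ϖ ^ (q - 1)|`, under the vertical component `z e` of `S''` along `α₂`. -/
def ringEA (h2 : nuTwo M = 0) (h3 : nuThree M = 0) (e : Crossing (chartDataModular B hB hqM)) :
    ValuationSubring (Fb (M * q)) :=
  ringE (DtM B hB hqM) (gaugeA q B hB hqM) (admA B hB hqM h2 h3) e

/-- The valuation ring of the exceptional component of `S'ref_b` at `e`. -/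
def ringEB (h2 : nuTwo M = 0) (h3 : nuThree M = 0) (e : Crossing (chartDataModular B hB hqM)) :
    ValuationSubring (Fb (M * q)) :=
  ringE (DtM B hB hqM) (gaugeB q B hB hqM) (admB B hB hqM h2 h3) e

theorem gaugeA_pow (e : Crossing (chartDataModular B hB hqM)) :
    gaugeA q B hB hqM e ^ (q + 1) = (q : Kb) := gaugeSDD_pow hq.out.one_lt

theorem gaugeB_eq (e : Crossing (chartDataModular B hB hqM)) :
    gaugeB q B hB hqM e = gaugeA q B hB hqM e ^ q := rfl

end Fermat.Agent.BR3.SDD.Modular
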