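import Mathlib
import Fermat.Agent.BR3.VertBetaSS
import Fermat.Agent.BR3.VertBetaCentreInst
import Fermat.Agent.BR3.SSParamChainOrd
import Fermat.Agent.BR3.SDD.ModularGauge
import Fermat.Agent.BR3.ConstRedAdjoin
import Fermat.Agent.BR3.ArchCircle
import Fermat.Agent.BR3.VertResField
import Fermat.Agent.BR3.VertSheet.Points
import Fermat.Agent.BR3.VertSheet.ModularTw

/-!
# Program C (S36), node (ZE-FAMILY), final layer: ONE choice per supersingular crossing

For every crossing `e` of main's two-component model of `X₀(M q)` (`M` without elliptic points):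

* `ZePack B hB hqM hne e a₀ ha1 ha2` : the chain quadruple `g₀, g', g, g''`
  (`IsSSParam e g g' g''`, `IsSSParam (Fr e) g' g₀ g`, with the orders of the local parameters:
  `SSParamChainOrd.exists_isSSParam_chain_ord`) TOGETHER WITH `β, ρ`, THE valuation ring `Z` of
  `Fb (M q q)` over the `a`-circle of gauge `a₀` at `e`, its residue map
  `resZ : Z →+* AdjoinRoot (vertBar q β ρ)`, with the literal clauses of
  `VertBetaSS.exists_vertComponent_ss_gauge_beta`: the six `a`-side clauses, `hred`, and the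
  `b`-side clauses (`Z.comap β₂ = circleRing (L (Fr e)).core (a₀^q)`, `β'`, `hred'`, `ω`, `φ`);
* `nonempty_zePack` : it exists (the chain from `exists_isSSParam_chain_ord`, the `a`-side from
  `VertBetaAll.exists_vertComponent_of_param_gauge_red`, the domination from
  `VertBetaCentreInst.centre_of_comap`, the `b`-side from
  `VertBetaAll.comap_beta2_eq_circleRing_ss` — for the SAME `Z`, `resZ`);
* `zePackM B hB hqM h2 h3 e` : THE choice at the gauge `a₀ := gaugeSDD q`, in the frame of
  `SDD.Modular` (`hne := nonempty_crossing (DtM B hB hqM)`).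
-/

set_option autoImplicit false
set_option linter.unusedSectionVars false
set_option linter.style.haveILetI false
set_option synthInstance.maxHeartbeats 400000

noncomputable section

/- S36 build-time patch: file-local shortcut instances. They only shorten instance search;
each is the instance that the search finds anyway (reducible, same terms after unfolding). -/
local instance (priority := 100000) Fermat.Agent.BR3.FastInst.instAlgFullC_SDD_ModularZe
    {k : Type*} [Field k] (N : ℕ) :
    Algebra k ↥(ModularCurve.modularFunctionFieldFullC k N) := inferInstance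
local instance (priority := 100000) Fermat.Agent.BR3.FastInst.instFieldFullC_SDD_ModularZe
    {k : Type*} [Field k] (N : ℕ) :
    Field ↥(ModularCurve.modularFunctionFieldFullC k N) := inferInstance
local instance (priority := 100000) Fermat.Agent.BR3.FastInst.instAlgLaurent_SDD_ModularZe
    {k : Type*} [Field k] : Algebra k (LaurentSeries k) := inferInstance


namespace Fermat.Agent.BR3.SDD.Modular

open Polynomial ModularCurve AlgebraicCurve IsLocalRing
open Fermat.Agent.X0 Fermat.Agent.Val Fermat.Agent.Red Fermat.Agent.Hecke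
open Fermat.Agent.BR.Circle Fermat.Agent.BR.S0 Fermat.Agent.BR.S0.RedModular
open Fermat.Agent.BR.S0.PointDict Fermat.Agent.BR.Inst.SpecIso
open Fermat.Agent.BR.Inst.AnnulusInstFinal Fermat.Agent.BR.Final
open Fermat.Agent.BR3.FibreProd Fermat.Agent.BR3.VertResidue Fermat.Agent.BR3.HeckePoly
open Fermat.Agent.BR3.SSParam Fermat.Agent.BR3.SSParamChain Fermat.Agent.BR3.SSParamChainOrd
open Fermat.Agent.BR3.VertBetaFr Fermat.Agent.BR3.VertBetaAll Fermat.Agent.BR3.ThickSDDPlug

variable {M q : ℕ} [NeZero M] [hq : Fact q.Prime]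
variable (B : ValuationSubring Kb)

local notation "kB" => ResidueField B

/-- (shortcut instance) -/
local instance (priority := 100000) instAlgebraFtMShortcutZe :
    Algebra (IsLocalRing.ResidueField B)
      (modularFunctionFieldFullC (IsLocalRing.ResidueField B) M) :=
  inferInstance

variable (hB : B.LiesOverPrime q) (hqM : ¬ q ∣ M)
  [IsAlgClosed (ResidueField B)] [CharP (ResidueField B) q]
  (hne : Nonempty (Crossing (chartDataModular B hB hqM)))
  (e : Crossing (chartDataModular B hB hqM))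

/-- **The data of the vertical component `z e`**: the chain quadruple and THE valuation ring over
the `a`-circle of gauge `a₀` at `e`, with its two restrictions. -/
structure ZePack (a₀ : Kb)
    (ha1 : B.valuation (annulusLevels_modular_final B hB hqM hne e).core.thick < B.valuation a₀)
    (ha2 : B.valuation a₀ < 1) where
  /-- the chain quadruple -/
  g₀ : Fb M
  g' : Fb M
  g : Fb M
  g'' : Fb M
  P : IsSSParam B hB hqM e g g' g''
  P' : IsSSParam B hB hqM (Fr B hB hqM e) g' g₀ g
  ord_g : (z₁ (chartDataModular B hB hqM) e).ord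
    (redMF B hB hqM ⟨g, mem_OM_of_mem_CMod_base B hB hqM P.hg⟩) = 1
  ord_g'' : (z₂ (chartDataModular B hB hqM) e).ord
    (redMF B hB hqM ⟨g'', mem_OM_of_mem_CMod_base B hB hqM P.hg''⟩) = 1
  ord_g' : (z₁ (chartDataModular B hB hqM) (Fr B hB hqM e)).ord
    (redMF B hB hqM ⟨g', mem_OM_of_mem_CMod_base B hB hqM P.hg'⟩) = 1
  ord_g_Fr : (z₂ (chartDataModular B hB hqM) (Fr B hB hqM e)).ord
    (redMF B hB hqM ⟨g, mem_OM_of_mem_CMod_base B hB hqM P.hg⟩) = 1
  /-- the slope of the `a`-coordinate on the circle -/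
  β : kB
  hβ : β ≠ 0
  hred : IsRed (annulusLevels_modular_final B hB hqM hne e).core a₀
    (a₀⁻¹ • (heckeAlphaBar Kb M q g - (heckeBetaBar Kb M q g') ^ q)) (RatFunc.C β * RatFunc.X)
  ρ : kB
  hρ : ρ ≠ 0
  /-- THE valuation ring of the vertical component -/
  Z : ValuationSubring (Fb (M * q * q))
  /-- its residue map -/
  resZ : Z →+* AdjoinRoot (vertBar q β ρ)
  comap_eq : Z.comap (alpha2 M q : Fb (M * q) →+* Fb (M * q * q)) =
    circleRing (annulusLevels_modular_final B hB hqM hne e).core a₀ ha1 ha2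
  unique : ∀ Z' : ValuationSubring (Fb (M * q * q)),
    Z'.comap (alpha2 M q : Fb (M * q) →+* Fb (M * q * q)) =
      circleRing (annulusLevels_modular_final B hB hqM hne e).core a₀ ha1 ha2 → Z' = Z
  surj : Function.Surjective resZ
  ker : ∀ z : Z, resZ z = 0 ↔ ¬ IsUnit z
  compat : ∀ (y : circleRing (annulusLevels_modular_final B hB hqM hne e).core a₀ ha1 ha2)
    (h : alpha2 M q (y : Fb (M * q)) ∈ Z),
    resZ ⟨alpha2 M q (y : Fb (M * q)), h⟩ =
      AdjoinRoot.of (vertBar q β ρ)
        (circleRes (annulusLevels_modular_final B hB hqM hne e).core a₀ ha1 ha2 y)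
  θ_mem : Ug M q g / alpha2 M q (algebraMap Kb (Fb (M * q)) a₀) ∈ Z
  res_θ : resZ ⟨Ug M q g / alpha2 M q (algebraMap Kb (Fb (M * q)) a₀), θ_mem⟩ =
    AdjoinRoot.root (vertBar q β ρ)
  /-- the `b`-side: the gauge `a₀ ^ q` is admissible at `Fr e` -/
  hb1 : B.valuation (annulusLevels_modular_final B hB hqM hne (Fr B hB hqM e)).core.thick <
    B.valuation (a₀ ^ q)
  hb2 : B.valuation (a₀ ^ q) < 1
  comap_beta : Z.comap (beta2 M q : Fb (M * q) →+* Fb (M * q * q)) =
    circleRing (annulusLevels_modular_final B hB hqM hne (Fr B hB hqM e)).core (a₀ ^ q) hb1 hb2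
  β' : kB
  hβ' : β' ≠ 0
  hred' : IsRed (annulusLevels_modular_final B hB hqM hne (Fr B hB hqM e)).core (a₀ ^ q)
    ((a₀ ^ q)⁻¹ • (heckeAlphaBar Kb M q g' - (heckeBetaBar Kb M q g₀) ^ q))
    (RatFunc.C β' * RatFunc.X)
  ω : kB
  hω : ω ≠ 0
  /-- the residue map along `β₂` -/
  φ : RatFunc kB →+* AdjoinRoot (vertBar q β ρ)
  φ_compat : ∀ (y : Fb (M * q))
    (hy : y ∈ circleRing (annulusLevels_modular_final B hB hqM hne (Fr B hB hqM e)).core
      (a₀ ^ q) hb1 hb2) (h : beta2 M q y ∈ Z),
    resZ ⟨beta2 M q y, h⟩ =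
      φ (circleRes (annulusLevels_modular_final B hB hqM hne (Fr B hB hqM e)).core
        (a₀ ^ q) hb1 hb2 ⟨y, hy⟩)
  φ_C : ∀ c : kB, φ (RatFunc.C c) = AdjoinRoot.of (vertBar q β ρ) (RatFunc.C c)
  φ_rel : φ (RatFunc.C β' * RatFunc.X) *
    (AdjoinRoot.root (vertBar q β ρ) + AdjoinRoot.of (vertBar q β ρ) (RatFunc.C β * RatFunc.X)) =
      AdjoinRoot.of (vertBar q β ρ) (RatFunc.C ω)

set_option maxHeartbeats 1600000 in
/-- **The data of `z e` exist**, for every crossing and every gauge `|a₀|^(q+1) = |q|`: the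
`a`-side and the `b`-side for the SAME `Z`, `resZ`, and the SAME chain quadruple. -/
theorem nonempty_zePack (h2 : nuTwo M = 0) (h3 : nuThree M = 0) (a₀ : Kb)
    (ha1 : B.valuation (annulusLevels_modular_final B hB hqM hne e).core.thick < B.valuation a₀)
    (ha2 : B.valuation a₀ < 1) (ha₀ : B.valuation a₀ ^ (q + 1) = B.valuation (q : Kb)) :
    Nonempty (ZePack B hB hqM hne e a₀ ha1 ha2) := by
  obtain ⟨g₀, g', g, g'', P, P', o1, o2, o3, o4⟩ := exists_isSSParam_chain_ord B hB hqM e
  obtain ⟨β, hβ, hred, ρ, hρ, Z, resZ, hcomap, huniq, hsurj, hker, hcompat, hθ, hθres⟩ :=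
    exists_vertComponent_of_param_gauge_red B hB hqM hne e h2 h3 P a₀ ha1 ha2 ha₀
  obtain ⟨hle, hnu⟩ :=
    Fermat.Agent.BR3.VertBetaCentreInst.centre_of_comap B hB hqM hne e a₀ ha1 ha2 Z hcomap
  obtain ⟨hb1, hb2, hcb, β', hβ', hred', ω, hω, φ, hφ1, hφ2, hφ3⟩ :=
    comap_beta2_eq_circleRing_ss B hB hqM hne e h2 h3 P' a₀ ha1 ha2 ha₀ hred Z resZ hcomap hker
      hcompat ⟨hθ, hθres⟩ hle hnu
  exact ⟨⟨g₀, g', g, g'', P, P', o1, o2, o3, o4, β, hβ, hred, ρ, hρ, Z, resZ, hcomap, huniq, hsurj,
    hker, hcompat, hθ, hθres, hb1, hb2, hcb, β', hβ', hred', ω, hω, φ, hφ1, hφ2, hφ3⟩⟩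

/-! ### the chosen family, in the frame of `SDD.Modular` -/

/-- the gauge `gaugeSDD q` is admissible at every crossing (`annulusLevels_modular_final` form) -/
theorem gaugeSDD_bounds (h2 : nuTwo M = 0) (h3 : nuThree M = 0) :
    B.valuation (annulusLevels_modular_final B hB hqM hne e).core.thick <
        B.valuation (gaugeSDD q) ∧ B.valuation (gaugeSDD q) < 1 :=
  Fermat.Agent.BR3.VertAllParam.gauge_bounds B hB hqM hne e h2 h3
    (by rw [← map_pow, gaugeSDD_pow hq.out.one_lt])

/-- **THE data of the vertical component `z e`** of the stable model of `X₀(M q²)`: ONE choice per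
supersingular crossing `e`, at the gauge `gaugeSDD q`. -/
def zePackM (h2 : nuTwo M = 0) (h3 : nuThree M = 0)
    (e : Crossing (chartDataModular B hB hqM)) :
    ZePack B hB hqM (Fermat.Agent.BR2.SetupOfData.nonempty_crossing (DtM B hB hqM)) e (gaugeSDD q)
      (gaugeSDD_bounds B hB hqM
        (Fermat.Agent.BR2.SetupOfData.nonempty_crossing (DtM B hB hqM)) e h2 h3).1
      (gaugeSDD_bounds B hB hqM
        (Fermat.Agent.BR2.SetupOfData.nonempty_crossing (DtM B hB hqM)) e h2 h3).2 :=
  Classical.choice (nonempty_zePack B hB hqM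
    (Fermat.Agent.BR2.SetupOfData.nonempty_crossing (DtM B hB hqM)) e h2 h3 (gaugeSDD q) _ _
    (by rw [← map_pow, gaugeSDD_pow hq.out.one_lt]))

/-! ### the residue field of `z e` -/

section Family

open Fermat.Agent.BR2.SetupOfData Fermat.Agent.BR3.CircleN Fermat.Agent.BR3.SRef
open Fermat.Agent.BR3.SRef.Modular Fermat.Agent.BR3.VertResField Fermat.Agent.BR3.VertSheet
open Fermat.Agent.BR3.CoverK

variable (h2 : nuTwo M = 0) (h3 : nuThree M = 0)

/-- the polynomial of the residue curve of `z e` is irreducible -/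
instance factIrreducibleZe (e : Crossing (chartDataModular B hB hqM)) :
    Fact (Irreducible (vertBar q (zePackM B hB hqM h2 h3 e).β (zePackM B hB hqM h2 h3 e).ρ)) :=
  fact_irreducible_vertBar hq.out.two_le (zePackM B hB hqM h2 h3 e).hβ
    (zePackM B hB hqM h2 h3 e).hρ

/-- **The residue function field of the vertical component `z e`**:
`k(T)[Ũ] / (Ũ^q + β_e T Ũ^(q-1) - ρ_e / (β_e T))`. -/
abbrev FZM (e : Crossing (chartDataModular B hB hqM)) : Type :=
  AdjoinRoot (vertBar q (zePackM B hB hqM h2 h3 e).β (zePackM B hB hqM h2 h3 e).ρ)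

/-- the Riemann package of the residue curve of `z e` -/
theorem riemannPkg_FZM (e : Crossing (chartDataModular B hB hqM)) :
    RiemannPkg kB (FZM B hB hqM h2 h3 e) :=
  riemannPkg_vert_line hq.out.two_le (zePackM B hB hqM h2 h3 e).hβ (zePackM B hB hqM h2 h3 e).hρ

/-! ### the constant reduction of `z e` -/

/-- The constant reduction of the exceptional component `E_e` of `S'ref_a` (the circle of gauge
`gaugeSDD q` of the tube of `e`). -/
def constRedEA (e : Crossing (chartDataModular B hB hqM)) :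
    ConstRed (F := Fb (M * q)) (Ft := RatFunc kB) B (residue B) where
  O := ringEA B hB hqM h2 h3 e
  res := resE (DtM B hB hqM) (gaugeA q B hB hqM) (admA B hB hqM h2 h3) e
  res_surjective := (srefM (DtM B hB hqM) (gaugeA q B hB hqM) (admA B hB hqM h2 h3)).res_surjective
    (exc (inputs (DtM B hB hqM)) (gaugeA q B hB hqM) (admA B hB hqM h2 h3) e)
  res_eq_zero_iff :=
    (srefM (DtM B hB hqM) (gaugeA q B hB hqM) (admA B hB hqM h2 h3)).res_eq_zero_iff
      (exc (inputs (DtM B hB hqM)) (gaugeA q B hB hqM) (admA B hB hqM h2 h3) e)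
  algebraMap_mem_iff :=
    (srefM (DtM B hB hqM) (gaugeA q B hB hqM) (admA B hB hqM h2 h3)).algebraMap_mem_iff
      (exc (inputs (DtM B hB hqM)) (gaugeA q B hB hqM) (admA B hB hqM h2 h3) e)
  res_algebraMap :=
    (srefM (DtM B hB hqM) (gaugeA q B hB hqM) (admA B hB hqM h2 h3)).res_algebraMap
      (exc (inputs (DtM B hB hqM)) (gaugeA q B hB hqM) (admA B hB hqM h2 h3) e)
  approx := (srefM (DtM B hB hqM) (gaugeA q B hB hqM) (admA B hB hqM h2 h3)).approx
    (exc (inputs (DtM B hB hqM)) (gaugeA q B hB hqM) (admA B hB hqM h2 h3) e)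

theorem constRedEA_O (e : Crossing (chartDataModular B hB hqM)) :
    (constRedEA B hB hqM h2 h3 e).O = ringEA B hB hqM h2 h3 e := rfl

set_option maxHeartbeats 4000000 in
/-- **The constant reduction of the vertical component `z e`**: valuation ring `Z_e`, residue map
`resZ_e` (`rfl`), from `ConstRedAdjoin.constRedOfAdjoinRoot'` over the circle `E_e`. -/
def CZM (e : Crossing (chartDataModular B hB hqM)) :
    ConstRed (F := Fb (M * q * q)) (Ft := FZM B hB hqM h2 h3 e) B (residue B) :=
  letI := algebraAlong (alpha2 M q)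
  haveI := isScalarTower_along (alpha2 M q)
  haveI : FiniteDimensional (Fb (M * q)) (Fb (M * q * q)) :=
    Fermat.Agent.Hecke.finiteAlong_heckeAlphaBar (M * q) q
  Fermat.Agent.BR3.ConstRedAdjoin.constRedOfAdjoinRoot' (constRedEA B hB hqM h2 h3 e)
    (Z := (zePackM B hB hqM h2 h3 e).Z)
    (zePackM B hB hqM h2 h3 e).comap_eq
    (vertBar_monic hq.out.two_le)
    (zePackM B hB hqM h2 h3 e).resZ
    (zePackM B hB hqM h2 h3 e).compat
    (zePackM B hB hqM h2 h3 e).θ_mem
    (zePackM B hB hqM h2 h3 e).res_θ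
    (zePackM B hB hqM h2 h3 e).ker
    IsLocalRing.residue_surjective
    ⟨(q : Kb), Nat.cast_ne_zero.mpr hq.out.ne_zero, hB⟩
    (Fermat.Agent.BR3.ArchCircle.arch_circleRing (core (DtM B hB hqM) e) (gaugeA q B hB hqM e)
      (admA B hB hqM h2 h3 e).1 (admA B hB hqM h2 h3 e).2 (Fermat.Agent.Val.isRankOne B hB))
    ((vertBar_natDegree hq.out.two_le).trans finrankAlong_alpha2.symm)
    (zePackM B hB hqM h2 h3 e).surj

set_option maxHeartbeats 4000000 in
theorem CZM_O (e : Crossing (chartDataModular B hB hqM)) :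
    (CZM B hB hqM h2 h3 e).O = (zePackM B hB hqM h2 h3 e).Z := rfl

set_option maxHeartbeats 4000000 in
theorem CZM_res (e : Crossing (chartDataModular B hB hqM)) :
    (CZM B hB hqM h2 h3 e).res = (zePackM B hB hqM h2 h3 e).resZ := rfl

set_option maxHeartbeats 4000000 in
/-- **`hZc`**: the vertical component `z e` lies over the exceptional component `E_e` of `S'ref_a`
along `α₂`. -/
theorem hZcM (e : Crossing (chartDataModular B hB hqM)) :
    (CZM B hB hqM h2 h3 e).O.comap (alpha2 M q : Fb (M * q) →+* Fb (M * q * q)) =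
      ringEA B hB hqM h2 h3 e :=
  (zePackM B hB hqM h2 h3 e).comap_eq

set_option maxHeartbeats 4000000 in
/-- **`hZc`, `b`-side**: the vertical component `z e` lies over the exceptional component
`E_{Fr e}` of `S'ref_b` along `β₂`. -/
theorem hZcM_beta (e : Crossing (chartDataModular B hB hqM)) :
    (CZM B hB hqM h2 h3 e).O.comap (beta2 M q : Fb (M * q) →+* Fb (M * q * q)) =
      ringEB B hB hqM h2 h3 (Fr B hB hqM e) :=
  (zePackM B hB hqM h2 h3 e).comap_beta

set_option maxHeartbeats 4000000 in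
/-- **The vertical component as a `VertComp`** over the core of `S'` at `e`, gauge `gaugeA e`,
generator `θ_e = U_{g_e} / α₂ a₀`. -/
theorem vertCompM (e : Crossing (chartDataModular B hB hqM)) :
    letI := algebraAlong (alpha2 M q)
    haveI := isScalarTower_along (alpha2 M q)
    VertComp (core (DtM B hB hqM) e) (gaugeA q B hB hqM e) (admA B hB hqM h2 h3 e).1
      (admA B hB hqM h2 h3 e).2 (zePackM B hB hqM h2 h3 e).Z (zePackM B hB hqM h2 h3 e).resZ
      (Ug M q (zePackM B hB hqM h2 h3 e).g /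
        alpha2 M q (algebraMap Kb (Fb (M * q)) (gaugeSDD q))) := by
  letI := algebraAlong (alpha2 M q)
  haveI := isScalarTower_along (alpha2 M q)
  exact ⟨(zePackM B hB hqM h2 h3 e).comap_eq, (zePackM B hB hqM h2 h3 e).ker,
    (zePackM B hB hqM h2 h3 e).compat, (zePackM B hB hqM h2 h3 e).θ_mem,
    (zePackM B hB hqM h2 h3 e).res_θ⟩

end Family

end Fermat.Agent.BR3.SDD.Modular
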