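import Fermat.Agent.BR3.VertBetaFr
import Fermat.Agent.BR3.RegAtlasTube
import Fermat.Agent.BR3.FibreProdRoots
import Fermat.Agent.BR3.SepN
import Fermat.Agent.BR2.SetupOfData

/-!
# Program C (S36), node (T-B0): the node-independent half of the `b`-side tube inclusions

`P` a place of `X₀(M q²)` (the function field `Fb (M*q*q)`), `P ∘ α₂`, `P ∘ β₂` the two places of
`X₀(M q)` under it.  `S' = SetupOfData.setup Dt` the two-component model of `X₀(M q)` at `q`, `e` a
crossing of `S'`, `Fr e` the crossing with the two branches exchanged (`VertBetaFr.Fr`).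

* `integralAt_chartFin_restrictAlong_iff` : `P ∘ α₂` is integral on the finite chart iff `P ∘ β₂`
  is (`β₂ j = α₂ j(s^q)` and `Φ_q` is monic in both variables);
* `r_restrictAlong_iff` : `r (P ∘ α₂) = (0, z₁ e) ↔ r (P ∘ β₂) = (0, z₁ (Fr e))`;
* `restrictAlong_mem_tube_iff` : `P ∘ α₂ ∈ tube S' e ↔ P ∘ β₂ ∈ tube S' (Fr e)`;
* `isSmoothPlace_restrictAlong_iff` : `P ∘ α₂` is a smooth place of `S'` iff `P ∘ β₂` is.

Proof: the point dictionary only.  For `b` in the rational finite chart of level `M` and
`z = res_M b`: the value of `α₁ b` at `P ∘ β₂` is the value of `β₂ (α₁ b) = α₂ (β₁ b)` at `P`, that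
is the value of `β₁ b` at `P ∘ α₂`; the residues are `res₀ (α b) = z`, `res₁ (α b) = z^q`,
`res₀ (β b) = z^q`, `res₁ (β b) = z` (Kronecker); the values of `z` at the two branches of a
crossing are conjugate under `c ↦ c^q`; the `z` span the coordinate ring of the component.
-/

set_option autoImplicit false
set_option linter.unusedSectionVars false
set_option linter.style.haveILetI false

noncomputable section

/- S36 build-time patch: file-local shortcut instances. They only shorten instance search;
each is the instance that the search finds anyway (reducible, same terms after unfolding). -/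
local instance (priority := 100000) Fermat.Agent.BR3.FastInst.instAlgFullC_SDD_TubesBCentre
    {k : Type*} [Field k] (N : ℕ) :
    Algebra k ↥(ModularCurve.modularFunctionFieldFullC k N) := inferInstance
local instance (priority := 100000) Fermat.Agent.BR3.FastInst.instFieldFullC_SDD_TubesBCentre
    {k : Type*} [Field k] (N : ℕ) :
    Field ↥(ModularCurve.modularFunctionFieldFullC k N) := inferInstance
local instance (priority := 100000) Fermat.Agent.BR3.FastInst.instAlgLaurent_SDD_TubesBCentre
    {k : Type*} [Field k] : Algebra k (LaurentSeries k) := inferInstance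


namespace Fermat.Agent.BR3.SDD.TubesBCentre

open ModularCurve ModularCurve.IgusaScheme AlgebraicCurve IsLocalRing Polynomial
open Fermat.Agent.X0 Fermat.Agent.Val Fermat.Agent.Red Fermat.Agent.Hecke
open Fermat.Agent.BR.Centre Fermat.Agent.BR.SS Fermat.Agent.BR.Refine
open Fermat.Agent.BR.TwoVal Fermat.Agent.BR.TwoValInst Fermat.Agent.BR.ConstRedTwo
open Fermat.Agent.BR.ResGen Fermat.Agent.BR.Inst Fermat.Agent.BR.Inst.SpecIso
open Fermat.Agent.BR.ModUnit Fermat.Agent.BR.Kron Fermat.Agent.Good.Bridge
open Fermat.Agent.BR.S0 Fermat.Agent.BR.S0.RedModular Fermat.Agent.BR.S0.PointDict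
open Fermat.Agent.BR.S0.SepModular Fermat.Agent.BR.S0.RedHyp
open Fermat.Agent.BR.Inst.CkPointModular Fermat.Agent.BR.Final
open Fermat.Agent.BR2.G3PrepCross Fermat.Agent.BR2.G3Prep Fermat.Agent.Igusa
open Fermat.Agent.BR2.SetupOfData
open Fermat.Agent.BR3.FibreProd Fermat.Agent.BR3.CoverK Fermat.Agent.BR3.SepN
open Fermat.Agent.BR3.RegAtlas Fermat.Agent.BR3.VertBetaFr

set_option synthInstance.maxHeartbeats 400000

variable {M q : ℕ} [NeZero M] [hqF : Fact q.Prime]

/-! ### integrality -/

/-- A root `y` of `Φ_q(x, ·)` is integral over every subring containing `x`. -/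
theorem isIntegral_subring_of_evalEval_phiK {F : Type*} [Field F] (R : Subring F) {x y : F}
    (hx : x ∈ R) (h : (phiK q F).evalEval x y = 0) : IsIntegral R y := by
  have hmon : ((phiK q R).map (Polynomial.evalRingHom (⟨x, hx⟩ : R))).Monic :=
    (phiK_monic q hqF.out R).map _
  refine ⟨_, hmon, ?_⟩
  rw [Polynomial.eval₂_eq_eval_map, ← h, ← Polynomial.map_evalRingHom_eval]
  congr 1
  rw [phiK, phiK, Polynomial.map_map, Polynomial.map_map, Polynomial.map_map]
  congr 1
  apply Polynomial.ringHom_ext
  · intro n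
    simp
  · simp
    rfl

/-- a place of degree one at which `x` takes an integral value takes an integral value at every
root `y` of `Φ_q(x, ·)` -/
theorem exists_isValueAt_of_evalEval_phiK {K F : Type*} [Field K] [Field F] [Algebra K F]
    {A : ValuationSubring K} {P : Place K F} (hdeg : P.deg = 1) {x y : F}
    (hx : ∃ c : K, c ∈ A ∧ IsValueAt P x c) (h : (phiK q F).evalEval x y = 0) :
    ∃ c : K, c ∈ A ∧ IsValueAt P y c := by
  have hR : IntegralAt A (Subring.closure {x}) P := by
    apply IntegralAt.closure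
    rintro z hz
    rw [Set.mem_singleton_iff] at hz
    rw [hz]
    exact hx
  exact hR.of_isIntegral hdeg
    (isIntegral_subring_of_evalEval_phiK _ (Subring.subset_closure (Set.mem_singleton x)) h)

variable (B : ValuationSubring Kb) (hB : B.LiesOverPrime q) (hqM : ¬ q ∣ M)

local notation "kB" => IsLocalRing.ResidueField B
local notation "FtM" => modularFunctionFieldFullC (IsLocalRing.ResidueField B) M

include hB in
/-- integrality on the finite chart is tested on `j` -/
theorem integralAt_chartFin_iff_jBar (P' : Place Kb (Fb (M * q))) :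
    IntegralAt B (chartFin (M := M) (q := q)) P' ↔
      ∃ c : Kb, c ∈ B ∧ IsValueAt P' (jBar (M * q)) c := by
  have h := integralAt_chartBarFin_iff (N := M * q) (ℓ := q) hB (P := P') (place_deg_eq_one P')
  exact h

include hB hqM in
/-- **Integrality twin**: `P ∘ α₂` is integral on the finite chart of `X₀(M q)` iff `P ∘ β₂` is. -/
theorem integralAt_chartFin_restrictAlong_iff (P : Place Kb (Fb (M * q * q)))
    (ha : (alpha2 M q).toRingHom.IsIntegral) (hb : (beta2 M q).toRingHom.IsIntegral) :
    IntegralAt B (chartFin (M := M) (q := q)) (P.restrictAlong (alpha2 M q) ha) ↔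
      IntegralAt B (chartFin (M := M) (q := q)) (P.restrictAlong (beta2 M q) hb) := by
  rw [integralAt_chartFin_iff_jBar B hB, integralAt_chartFin_iff_jBar B hB]
  simp only [isValueAt_restrictAlong_iff]
  rw [beta2_jBar]
  constructor
  · intro h
    refine exists_isValueAt_of_evalEval_phiK (q := q) (place_deg_eq_one P) h ?_
    have h2 := map_phiK_evalEval q ((alpha2 M q : Fb (M * q) →ₐ[Kb] Fb (M * q * q)) :
      Fb (M * q) →+* Fb (M * q * q)) (jBar (M * q)) (jq' M q)
    rw [evalEval_phiK_jBar_jq' hqM, map_zero] at h2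
    exact h2.symm
  · intro h
    refine exists_isValueAt_of_evalEval_phiK (q := q) (place_deg_eq_one P) h ?_
    have h2 := map_phiK_evalEval q ((alpha2 M q : Fb (M * q) →ₐ[Kb] Fb (M * q * q)) :
      Fb (M * q) →+* Fb (M * q * q)) (jq' M q) (jBar (M * q))
    rw [evalEval_phiK_jq'_jBar, map_zero] at h2
    exact h2.symm

/-! ### the identification of the reductions -/

set_option maxHeartbeats 1600000 in
/-- two places of the component with the same values on the residues of the rational finite chart
of level `M` are equal -/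
theorem place_eq_of_redMF (Q Q' : Place kB FtM)
    (h : ∀ (b : ↥(modularFunctionFieldFull M)) (_ : b ∈ chartAlgFin M q)
      (hO : barEmb M b ∈ OM M B hB), ∃ c : kB,
        IsValueAt Q (redMF B hB hqM ⟨barEmb M b, hO⟩ : ↥FtM) c ∧
          IsValueAt Q' (redMF B hB hqM ⟨barEmb M b, hO⟩ : ↥FtM) c) : Q = Q' := by
  haveI := isDedekindDomain_Ck B hB hqM
  haveI := Fermat.Agent.BR.S0.SepModular.isFractionRing_Ck B hB hqM
  haveI : IsScalarTower kB ↥(Ck M B) ↥FtM := IsScalarTower.of_algebraMap_eq (fun _ => rfl)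
  refine place_eq_of_span (Dk := ↥(Ck M B)) _ (mem_span_redMF B hB hqM) Q Q' ?_
  rintro z ⟨b, hb, hO, rfl⟩
  exact h b hb hO

section Core

variable {P₁ P₂ : Place Kb (Fb (M * q))}
  (hev : ∀ b ∈ chartAlgFin M q, evalAt P₂ (heckeAlphaBar Kb M q (barEmb M b)) =
    evalAt P₁ (heckeBetaBar Kb M q (barEmb M b)))
  (H : AtlasHyp (chartDataModular B hB hqM) (jx M q))
  (e : Crossing (chartDataModular B hB hqM))

include hev in
set_option maxHeartbeats 1600000 in
/-- **`→`**: `P₁` reduces to the crossing `e`, `P₂` is integral on the finite chart and the values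
of `α₁ b` at `P₂` are the values of `β₁ b` at `P₁`: then `P₂` reduces to the crossing `Fr e`. -/
theorem r_eq_Fr_of_isRedOf
    (h₁ : IsRedOf B (residue B) chartFin (compW B hB hqM 1).O (compW B hB hqM 1).res
      (chartFin_le B hB hqM 1) P₁ (z₂ (chartDataModular B hB hqM) e))
    (h₂ : IntegralAt B (chartFin (M := M) (q := q)) P₂) :
    H.r P₂ = ⟨0, z₁ (chartDataModular B hB hqM) (Fr B hB hqM e)⟩ := by
  haveI : CharP kB q := Val.charP_residueField_of_liesOverPrime B hB
  haveI : IsAlgClosed kB := Val.residueField_isAlgClosed B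
  obtain ⟨i, Q', hred⟩ := H.total_f P₂ h₂
  have hc : ∀ (b : ↥(modularFunctionFieldFull M)) (hb : b ∈ chartAlgFin M q)
      (hO : barEmb M b ∈ OM M B hB),
      IsValueAt (z₂ (chartDataModular B hB hqM) e) (redMF B hB hqM ⟨barEmb M b, hO⟩ : ↥FtM)
        (residue B (evHom B chartFin P₁ h₁.integralAt
          ⟨heckeBetaBar Kb M q (barEmb M b), beta_barEmb_mem_chartFin hb⟩)) := fun b hb hO => by
    have h3 := h₁.isValueAt (beta_barEmb_mem_chartFin hb)
    rwa [compW_one_res_beta B hB hqM hb hO] at h3
  have hc' : ∀ (b : ↥(modularFunctionFieldFull M)) (hb : b ∈ chartAlgFin M q),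
      IsValueAt Q' ((chartDataModular B hB hqM).res i ⟨heckeAlphaBar Kb M q (barEmb M b),
          (chartDataModular B hB hqM).hfin i (alpha_barEmb_mem_chartFin hb)⟩)
        (residue B (evHom B chartFin P₁ h₁.integralAt
          ⟨heckeBetaBar Kb M q (barEmb M b), beta_barEmb_mem_chartFin hb⟩)) := fun b hb => by
    have h3 := hred.isValueAt (alpha_barEmb_mem_chartFin hb)
    have e3 : evHom B chartFin P₂ hred.integralAt
        ⟨heckeAlphaBar Kb M q (barEmb M b), alpha_barEmb_mem_chartFin hb⟩ =
        evHom B chartFin P₁ h₁.integralAt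
          ⟨heckeBetaBar Kb M q (barEmb M b), beta_barEmb_mem_chartFin hb⟩ :=
      Subtype.ext (hev b hb)
    rw [← e3]
    exact h3
  fin_cases i
  · -- reduction on the component `0`: `res₀ (α b) = z`
    have hQ : z₂ (chartDataModular B hB hqM) e = Q' :=
      place_eq_of_redMF B hB hqM _ _ fun b hb hO => by
        refine ⟨_, hc b hb hO, ?_⟩
        have h3 := hc' b hb
        have e3 := compW_zero_res_alpha B hB hqM hb hO
        exact e3 ▸ h3
    subst hQ
    exact (H.r_eq_z₁_iff (Fr B hB hqM e)).mpr hred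
  · -- reduction on the component `1`: `res₁ (α b) = z ^ q`
    have hQ : z₁ (chartDataModular B hB hqM) e = Q' :=
      place_eq_of_redMF B hB hqM _ _ fun b hb hO => by
        obtain ⟨c₁, c₂, k1, k2, e21, e12⟩ :=
          exists_values_of_gluedF B hB hqM (glued (chartDataModular B hB hqM) e) hb hO
        have h3 := hc' b hb
        have e3 := compW_one_res_alpha B hB hqM hb hO
        have h4 : IsValueAt Q' ((redMF B hB hqM ⟨barEmb M b, hO⟩ : ↥FtM) ^ q) _ := e3 ▸ h3
        have h5 := Fermat.Agent.BR.S0.SepModular.isValueAt_of_pow_char q Q' h4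
        refine ⟨c₁, k1, ?_⟩
        have e5 : (frobeniusEquiv kB q).symm (residue B (evHom B chartFin P₁ h₁.integralAt
            ⟨heckeBetaBar Kb M q (barEmb M b), beta_barEmb_mem_chartFin hb⟩)) = c₁ := by
          rw [(hc b hb hO).unique k2, e21, ← frobenius_def, frobeniusEquiv_symm_apply_frobenius]
        rw [← e5]
        exact h5
    subst hQ
    exact (H.r_eq_z₁_iff (Fr B hB hqM e)).mpr
      ((glued (chartDataModular B hB hqM) (Fr B hB hqM e)).isRedOf_zero hred)

include hev in
set_option maxHeartbeats 1600000 in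
/-- **`←`**: `P₂` reduces to the crossing `Fr e` (on the component `0`: to `z₁ (Fr e) = z₂ e`),
`P₁` is integral on the finite chart and the values of `α₁ b` at `P₂` are the values of `β₁ b` at
`P₁`: then `P₁` reduces to the crossing `e`. -/
theorem r_eq_of_isRedOf_Fr
    (h₂ : IsRedOf B (residue B) chartFin (compW B hB hqM 0).O (compW B hB hqM 0).res
      (chartFin_le B hB hqM 0) P₂ (z₂ (chartDataModular B hB hqM) e))
    (h₁ : IntegralAt B (chartFin (M := M) (q := q)) P₁) :
    H.r P₁ = ⟨0, z₁ (chartDataModular B hB hqM) e⟩ := by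
  haveI : CharP kB q := Val.charP_residueField_of_liesOverPrime B hB
  haveI : IsAlgClosed kB := Val.residueField_isAlgClosed B
  obtain ⟨i, Q', hred⟩ := H.total_f P₁ h₁
  have hc : ∀ (b : ↥(modularFunctionFieldFull M)) (hb : b ∈ chartAlgFin M q)
      (hO : barEmb M b ∈ OM M B hB),
      IsValueAt (z₂ (chartDataModular B hB hqM) e) (redMF B hB hqM ⟨barEmb M b, hO⟩ : ↥FtM)
        (residue B (evHom B chartFin P₂ h₂.integralAt
          ⟨heckeAlphaBar Kb M q (barEmb M b), alpha_barEmb_mem_chartFin hb⟩)) := fun b hb hO => by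
    have h3 := h₂.isValueAt (alpha_barEmb_mem_chartFin hb)
    rwa [compW_zero_res_alpha B hB hqM hb hO] at h3
  have hc' : ∀ (b : ↥(modularFunctionFieldFull M)) (hb : b ∈ chartAlgFin M q),
      IsValueAt Q' ((chartDataModular B hB hqM).res i ⟨heckeBetaBar Kb M q (barEmb M b),
          (chartDataModular B hB hqM).hfin i (beta_barEmb_mem_chartFin hb)⟩)
        (residue B (evHom B chartFin P₂ h₂.integralAt
          ⟨heckeAlphaBar Kb M q (barEmb M b), alpha_barEmb_mem_chartFin hb⟩)) := fun b hb => by
    have h3 := hred.isValueAt (beta_barEmb_mem_chartFin hb)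
    have e3 : evHom B chartFin P₁ hred.integralAt
        ⟨heckeBetaBar Kb M q (barEmb M b), beta_barEmb_mem_chartFin hb⟩ =
        evHom B chartFin P₂ h₂.integralAt
          ⟨heckeAlphaBar Kb M q (barEmb M b), alpha_barEmb_mem_chartFin hb⟩ :=
      Subtype.ext (hev b hb).symm
    rw [← e3]
    exact h3
  fin_cases i
  · -- reduction on the component `0`: `res₀ (β b) = z ^ q`
    have hQ : z₁ (chartDataModular B hB hqM) e = Q' :=
      place_eq_of_redMF B hB hqM _ _ fun b hb hO => by
        obtain ⟨c₁, c₂, k1, k2, e21, e12⟩ :=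
          exists_values_of_gluedF B hB hqM (glued (chartDataModular B hB hqM) e) hb hO
        have h3 := hc' b hb
        have e3 := compW_zero_res_beta B hB hqM hb hO
        have h4 : IsValueAt Q' ((redMF B hB hqM ⟨barEmb M b, hO⟩ : ↥FtM) ^ q) _ := e3 ▸ h3
        have h5 := Fermat.Agent.BR.S0.SepModular.isValueAt_of_pow_char q Q' h4
        refine ⟨c₁, k1, ?_⟩
        have e5 : (frobeniusEquiv kB q).symm (residue B (evHom B chartFin P₂ h₂.integralAt
            ⟨heckeAlphaBar Kb M q (barEmb M b), alpha_barEmb_mem_chartFin hb⟩)) = c₁ := by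
          rw [(hc b hb hO).unique k2, e21, ← frobenius_def, frobeniusEquiv_symm_apply_frobenius]
        rw [← e5]
        exact h5
    subst hQ
    exact (H.r_eq_z₁_iff e).mpr hred
  · -- reduction on the component `1`: `res₁ (β b) = z`
    have hQ : z₂ (chartDataModular B hB hqM) e = Q' :=
      place_eq_of_redMF B hB hqM _ _ fun b hb hO => by
        refine ⟨_, hc b hb hO, ?_⟩
        have h3 := hc' b hb
        have e3 := compW_one_res_beta B hB hqM hb hO
        exact e3 ▸ h3
    subst hQ
    exact (H.r_eq_z₁_iff' e).mpr hred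

end Core

/-! ### the two places under a place of `X₀(M q²)` -/

/-- the values of `α₁ b` at `P ∘ β₂` are the values of `β₁ b` at `P ∘ α₂` (the fibre square
`α₂ ∘ β₁ = β₂ ∘ α₁`) -/
theorem evalAt_restrictAlong_alpha_beta (P : Place Kb (Fb (M * q * q)))
    (ha : (alpha2 M q).toRingHom.IsIntegral) (hb : (beta2 M q).toRingHom.IsIntegral)
    (h₁ : IntegralAt B (chartFin (M := M) (q := q)) (P.restrictAlong (alpha2 M q) ha))
    (h₂ : IntegralAt B (chartFin (M := M) (q := q)) (P.restrictAlong (beta2 M q) hb))
    (b : ↥(modularFunctionFieldFull M)) (hbm : b ∈ chartAlgFin M q) :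
    evalAt (P.restrictAlong (beta2 M q) hb) (heckeAlphaBar Kb M q (barEmb M b)) =
      evalAt (P.restrictAlong (alpha2 M q) ha) (heckeBetaBar Kb M q (barEmb M b)) := by
  have k2 := (isValueAt_restrictAlong_iff (beta2 M q) hb P _ _).mp
    (h₂.isValueAt_evalAt (alpha_barEmb_mem_chartFin hbm))
  have k1 := (isValueAt_restrictAlong_iff (alpha2 M q) ha P _ _).mp
    (h₁.isValueAt_evalAt (beta_barEmb_mem_chartFin hbm))
  rw [alpha2_beta1] at k1
  exact k2.unique k1

/-- **(T-B0), atlas form.**  `P ∘ α₂` reduces to the crossing `e` of the two-component model of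
`X₀(M q)` iff `P ∘ β₂` reduces to the crossing `Fr e` (the two branches exchanged). -/
theorem r_restrictAlong_iff (H : AtlasHyp (chartDataModular B hB hqM) (jx M q))
    (e : Crossing (chartDataModular B hB hqM)) (P : Place Kb (Fb (M * q * q)))
    (ha : (alpha2 M q).toRingHom.IsIntegral) (hb : (beta2 M q).toRingHom.IsIntegral) :
    H.r (P.restrictAlong (alpha2 M q) ha) = ⟨0, z₁ (chartDataModular B hB hqM) e⟩ ↔
      H.r (P.restrictAlong (beta2 M q) hb) =
        ⟨0, z₁ (chartDataModular B hB hqM) (Fr B hB hqM e)⟩ := by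
  constructor
  · intro h
    have h1 := (H.r_eq_z₁_iff' e).mp h
    have hi1 := h1.integralAt
    have hi2 := (integralAt_chartFin_restrictAlong_iff B hB hqM P ha hb).mp hi1
    exact r_eq_Fr_of_isRedOf B hB hqM
      (evalAt_restrictAlong_alpha_beta B P ha hb hi1 hi2) H e h1 hi2
  · intro h
    have h2 := (H.r_eq_z₁_iff (Fr B hB hqM e)).mp h
    have hi2 := h2.integralAt
    have hi1 := (integralAt_chartFin_restrictAlong_iff B hB hqM P ha hb).mpr hi2
    exact r_eq_of_isRedOf_Fr B hB hqM
      (evalAt_restrictAlong_alpha_beta B P ha hb hi1 hi2) H e h2 hi1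

/-! ### the setup form -/

section Setup

variable {B hB hqM}
variable [IsAlgClosed (ResidueField B)] (Dt : ModularData M q B hB hqM)

/-- **(T-B0).**  `P ∘ α₂` lies in the tube of the node `e` of `S'` iff `P ∘ β₂` lies in the tube
of the node `Fr e`. -/
theorem restrictAlong_mem_tube_iff (e : Crossing (chartDataModular B hB hqM))
    (P : Place Kb (Fb (M * q * q)))
    (ha : (alpha2 M q).toRingHom.IsIntegral) (hb : (beta2 M q).toRingHom.IsIntegral) :
    P.restrictAlong (alpha2 M q) ha ∈ tube (setup Dt) e ↔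
      P.restrictAlong (beta2 M q) hb ∈ tube (setup Dt) (Fr B hB hqM e) := by
  rw [tube_setup, tube_setup]
  exact r_restrictAlong_iff B hB hqM (atlas Dt) e P ha hb

/-- the `→` half, in the shape of the `b`-side tube inclusions -/
theorem restrictAlong_beta2_mem_tube (e : Crossing (chartDataModular B hB hqM))
    (P : Place Kb (Fb (M * q * q)))
    (ha : (alpha2 M q).toRingHom.IsIntegral) (hb : (beta2 M q).toRingHom.IsIntegral)
    (h : P.restrictAlong (alpha2 M q) ha ∈ tube (setup Dt) e) :
    P.restrictAlong (beta2 M q) hb ∈ tube (setup Dt) (Fr B hB hqM e) :=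
  (restrictAlong_mem_tube_iff Dt e P ha hb).mp h

/-- the `←` half at `Fr e'` -/
theorem restrictAlong_alpha2_mem_tube (e' : Crossing (chartDataModular B hB hqM))
    (P : Place Kb (Fb (M * q * q)))
    (ha : (alpha2 M q).toRingHom.IsIntegral) (hb : (beta2 M q).toRingHom.IsIntegral)
    (h : P.restrictAlong (beta2 M q) hb ∈ tube (setup Dt) e') :
    P.restrictAlong (alpha2 M q) ha ∈ tube (setup Dt) (Fr B hB hqM e') := by
  refine (restrictAlong_mem_tube_iff Dt (Fr B hB hqM e') P ha hb).mpr ?_
  rw [Fr_Fr]
  exact h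

/-- **`P ∘ α₂` is a smooth place of `S'` iff `P ∘ β₂` is.** -/
theorem isSmoothPlace_restrictAlong_iff (P : Place Kb (Fb (M * q * q)))
    (ha : (alpha2 M q).toRingHom.IsIntegral) (hb : (beta2 M q).toRingHom.IsIntegral) :
    (setup Dt).IsSmoothPlace (P.restrictAlong (alpha2 M q) ha) ↔
      (setup Dt).IsSmoothPlace (P.restrictAlong (beta2 M q) hb) := by
  rw [isSmoothPlace_iff, isSmoothPlace_iff]
  constructor
  · intro h e' h'
    refine h (Fr B hB hqM e') ((r_restrictAlong_iff B hB hqM (atlas Dt) _ P ha hb).mpr ?_)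
    rw [Fr_Fr]
    exact h'
  · intro h e h'
    exact h (Fr B hB hqM e) ((r_restrictAlong_iff B hB hqM (atlas Dt) e P ha hb).mp h')

end Setup

end Fermat.Agent.BR3.SDD.TubesBCentre
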