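import Fermat.Agent.BR3.SDD.TubesB
import Fermat.Agent.BR3.SDD.TubesBCentre
import Fermat.Agent.BR3.SSTriple

/-!
# Program C (S36), node (T-B), file 3 (helper15): the `b`-side tube inclusions, FINAL forms

The forms of `BR3/SDD/TubesB.lean` WITHOUT the hypothesis `hloc` (`g̃''` a local parameter at
`z₂ e`) and WITHOUT the hypothesis `hPb` (`P ∘ β₂` in the tube of `Fr e`):

* `hxord_Fr` : for ANY `SSParam.IsSSParam B hB hqM e g g' g''` the residue on `'can'` of
  `X' = α g'' - (β g)^q` IS the residue on `'et'` of `Y = β g'' - (α g)^q` (both are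
  `g̃'' - (φ g̃)^q`, `SSTriple.res_vg`, `res_ug`), so it has a simple zero at `z₁ (Fr e) = z₂ e`
  (`H.hyord`): `X'` is of `u`-type at `Fr e`;
* `hPb` is `TubesBCentre.restrictAlong_beta2_mem_tube` (helper5, (T-B0));
* `restrictAlong_beta2_mem_outer`, `restrictAlong_beta2_mem_inner`, `tube_b_nT_of_value`,
  `tube_b_nk_of_value` : as in `TubesB`, from `H`, the `a`-side inclusion `hPa` and the value of
  `U_g` at `P` only;
* `tube_b_nT_of_unit`, `tube_b_nk_of_small` : from `U_g = W · α₂ (-(α g - (β g')^q))`, `|W(P)| = 1`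
  (split sheet) resp. `U_g = Y · t`, `|Y(P)| < 1`, `|t| = |gaugeSDD q|` (Kummer sheets).
-/

set_option autoImplicit false
set_option linter.unusedSectionVars false
set_option linter.style.haveILetI false
set_option synthInstance.maxHeartbeats 400000
set_option maxHeartbeats 1600000

noncomputable section

/- S36 build-time patch: file-local shortcut instances. They only shorten instance search;
each is the instance that the search finds anyway (reducible, same terms after unfolding). -/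
local instance (priority := 100000) Fermat.Agent.BR3.FastInst.instAlgFullC_SDD_TubesBFinal
    {k : Type*} [Field k] (N : ℕ) :
    Algebra k ↥(ModularCurve.modularFunctionFieldFullC k N) := inferInstance
local instance (priority := 100000) Fermat.Agent.BR3.FastInst.instFieldFullC_SDD_TubesBFinal
    {k : Type*} [Field k] (N : ℕ) :
    Field ↥(ModularCurve.modularFunctionFieldFullC k N) := inferInstance
local instance (priority := 100000) Fermat.Agent.BR3.FastInst.instAlgLaurent_SDD_TubesBFinal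
    {k : Type*} [Field k] : Algebra k (LaurentSeries k) := inferInstance


namespace Fermat.Agent.BR3.SDD.TubesBFinal

open AlgebraicCurve ModularCurve IsLocalRing Polynomial
open Fermat.Agent.Red Fermat.Agent.Val Fermat.Agent.X0 Fermat.Agent.BR.SS Fermat.Agent.BR.Refine
open Fermat.Agent.BR.Centre Fermat.Agent.BR.Circle
open Fermat.Agent.BR.S0 Fermat.Agent.BR.S0.RedModular Fermat.Agent.BR.S0.PointDict
open Fermat.Agent.BR.Inst.AnnulusInstFinal
open Fermat.Agent.BR.TwoVal Fermat.Agent.BR.Final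
open Fermat.Agent.BR3.FibreProd Fermat.Agent.BR3.HeckePoly Fermat.Agent.Hecke
open Fermat.Agent.BR3.SSParam Fermat.Agent.BR3.VertAll Fermat.Agent.BR3.VertAllParam
open Fermat.Agent.BR3.VertBetaFr Fermat.Agent.BR3.SDD.TubesBAlg Fermat.Agent.BR3.SDD.TubesB
open Fermat.Agent.BR2.SetupOfData Fermat.Agent.BR3.CircleN Fermat.Agent.BR3.SRef
open Fermat.Agent.BR3.SRef.Modular Fermat.Agent.BR3.SDD.Modular Fermat.Agent.BR3.ThickSDDPlug

variable {M q : ℕ} [NeZero M] [hq : Fact q.Prime]
variable (B : ValuationSubring Kb) (hB : B.LiesOverPrime q) (hqM : ¬ q ∣ M)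
variable [IsAlgClosed (ResidueField B)] [CharP (ResidueField B) q]
  (hne : Nonempty (Crossing (chartDataModular B hB hqM)))
  (e : Crossing (chartDataModular B hB hqM)) {g g' g'' : Fb M}

local notation "kB" => IsLocalRing.ResidueField B

/-! ### `X'` is of `u`-type at `Fr e`, for any twisted triple -/

set_option maxHeartbeats 4000000 in
/-- **The simple zero of `X' = α g'' - (β g)^q` at `z₁ (Fr e) = z₂ e` on `'can'`**: its residue is
the residue of `Y = β g'' - (α g)^q` on `'et'`. -/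
theorem hxord_Fr (H : IsSSParam B hB hqM e g g' g'') :
    ∀ h : heckeAlphaBar Kb M q g'' - heckeBetaBar Kb M q g ^ q ∈ (compW B hB hqM 0).O,
      (z₁ (chartDataModular B hB hqM) (Fr B hB hqM e)).ord
        ((compW B hB hqM 0).res ⟨_, h⟩) = 1 := by
  intro h
  have hgO := mem_OM_of_mem_CMod_base B hB hqM H.hg
  have hg''O := mem_OM_of_mem_CMod_base B hB hqM H.hg''
  rw [Fermat.Agent.BR3.SSTriple.res_vg B hB hqM hg''O hgO h,
    ← Fermat.Agent.BR3.SSTriple.res_ug B hB hqM hgO hg''O (ug_mem_O2 B hB hqM hgO hg''O)]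
  exact H.hyord _

set_option maxHeartbeats 4000000 in
/-- **`X' = α g'' - (β g)^q` has the absolute value of `u_{Fr e}` on the tube of `Fr e`.** -/
theorem valuation_coord_Fr (h2 : nuTwo M = 0) (h3 : nuThree M = 0)
    (H : IsSSParam B hB hqM e g g' g'')
    {P : Place Kb (Fb (M * q))} (hP : P ∈ tube (setupFinal B hB hqM hne) (Fr B hB hqM e)) :
    B.valuation (evalAt P (heckeAlphaBar Kb M q g'' - heckeBetaBar Kb M q g ^ q)) =
      B.valuation (evalAt P (annulusLevels_modular_final B hB hqM hne (Fr B hB hqM e)).u) := by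
  have hgO := mem_OM_of_mem_CMod_base B hB hqM H.hg
  have hg''O := mem_OM_of_mem_CMod_base B hB hqM H.hg''
  refine valuation_evalAt_eq_u B hB hqM hne (Fr B hB hqM e) h2 h3 ?_ ?_
    (vg_mem_O1 B hB hqM hg''O hgO) ?_ hP
  · exact sub_mem (alpha_mem_level B hB hqM hne _ H.hg'')
      (pow_mem (beta_mem_level B hB hqM hne _ H.hg) q)
  · exact vg_mem_nonunits_O2 B hB hqM hg''O hgO H.twist
  · exact hxord_Fr B hB hqM e H _

/-! ### The two inequalities (levels form) -/

set_option maxHeartbeats 4000000 in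
/-- **The outer sub-annulus along `β₂`** (levels form). -/
theorem valuation_lt_of_outer (h2 : nuTwo M = 0) (h3 : nuThree M = 0)
    (H : IsSSParam B hB hqM e g g' g'')
    (hα : (alpha2 M q).toRingHom.IsIntegral) (hβ : (beta2 M q).toRingHom.IsIntegral)
    {a₀ : Kb} (ha₀ : B.valuation a₀ ^ (q + 1) = B.valuation (q : Kb))
    {P : Place Kb (Fb (M * q * q))}
    (hPa : P.restrictAlong (alpha2 M q) hα ∈ tube (setupFinal B hB hqM hne) e)
    (ha : B.valuation a₀ < B.valuation (evalAt (P.restrictAlong (alpha2 M q) hα)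
      (annulusLevels_modular_final B hB hqM hne e).u))
    (hPb : P.restrictAlong (beta2 M q) hβ ∈ tube (setupFinal B hB hqM hne) (Fr B hB hqM e))
    {cU : Kb} (hU : IsValueAt P (Ug M q g) cU)
    (hUv : B.valuation cU = B.valuation (evalAt (P.restrictAlong (alpha2 M q) hα)
      (annulusLevels_modular_final B hB hqM hne e).u)) :
    B.valuation (a₀ ^ q) < B.valuation (evalAt (P.restrictAlong (beta2 M q) hβ)
      (annulusLevels_modular_final B hB hqM hne (Fr B hB hqM e)).u) := by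
  obtain ⟨cA, cY, hA1, hY, hval⟩ := exists_value_beta2 B hB hqM hne e h2 h3 H hα hβ hPa hU
  have hX := valuation_coord_Fr B hB hqM hne e h2 h3 H hPb
  rw [← hX, evalAt_eq_of_isValueAt hval]
  obtain ⟨-, ha1⟩ := gauge_bounds B hB hqM hne e h2 h3 ha₀
  have hq0 : B.valuation (q : Kb) ≠ 0 :=
    (_root_.map_ne_zero _).2 (Nat.cast_ne_zero.mpr hq.out.ne_zero)
  have ha0 : B.valuation a₀ ≠ 0 := by
    intro h0
    rw [h0, zero_pow (Nat.succ_ne_zero q)] at ha₀
    exact hq0 ha₀.symm
  obtain ⟨c₀, hc₀, -, hρ1⟩ :=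
    (annulusLevels_modular_final B hB hqM hne e).val_mem _ hPa
  rw [← evalAt_eq_of_isValueAt hc₀, ← hUv] at hρ1
  rw [← hUv] at ha hY
  obtain ⟨i1, i2, i3⟩ := outer_ineqs hq.out.ne_zero ha0 ha1 ha ha₀ hY
  rw [valuation_outer_value B hq.out hρ1.le hA1 i1 i2, map_pow]
  exact i3

set_option maxHeartbeats 4000000 in
/-- **The inner sub-annulus along `β₂`** (levels form). -/
theorem valuation_lt_of_inner (h2 : nuTwo M = 0) (h3 : nuThree M = 0)
    (H : IsSSParam B hB hqM e g g' g'')
    (hα : (alpha2 M q).toRingHom.IsIntegral) (hβ : (beta2 M q).toRingHom.IsIntegral)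
    {a₀ : Kb} (ha₀ : B.valuation a₀ ^ (q + 1) = B.valuation (q : Kb))
    {P : Place Kb (Fb (M * q * q))}
    (hPa : P.restrictAlong (alpha2 M q) hα ∈ tube (setupFinal B hB hqM hne) e)
    (ha : B.valuation a₀ < B.valuation (evalAt (P.restrictAlong (alpha2 M q) hα)
      (annulusLevels_modular_final B hB hqM hne e).u))
    (hPb : P.restrictAlong (beta2 M q) hβ ∈ tube (setupFinal B hB hqM hne) (Fr B hB hqM e))
    {cU : Kb} (hU : IsValueAt P (Ug M q g) cU)
    (hUlt : B.valuation cU < B.valuation a₀) :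
    B.valuation (evalAt (P.restrictAlong (beta2 M q) hβ)
      (annulusLevels_modular_final B hB hqM hne (Fr B hB hqM e)).u) < B.valuation (a₀ ^ q) := by
  obtain ⟨cA, cY, hA1, hY, hval⟩ := exists_value_beta2 B hB hqM hne e h2 h3 H hα hβ hPa hU
  have hX := valuation_coord_Fr B hB hqM hne e h2 h3 H hPb
  rw [← hX, evalAt_eq_of_isValueAt hval]
  obtain ⟨-, ha1⟩ := gauge_bounds B hB hqM hne e h2 h3 ha₀
  have hq0 : B.valuation (q : Kb) ≠ 0 :=
    (_root_.map_ne_zero _).2 (Nat.cast_ne_zero.mpr hq.out.ne_zero)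
  have ha0 : B.valuation a₀ ≠ 0 := by
    intro h0
    rw [h0, zero_pow (Nat.succ_ne_zero q)] at ha₀
    exact hq0 ha₀.symm
  obtain ⟨i1, i2⟩ := inner_ineqs ha0 ha1 ha ha₀ hY
  have hU1 : B.valuation cU ≤ 1 := hUlt.le.trans ha1.le
  have hUq : B.valuation cU ^ q < B.valuation (a₀ ^ q) := by
    rw [map_pow]
    exact pow_lt_pow_left₀ hUlt zero_le hq.out.ne_zero
  refine valuation_inner_value B hq.out hU1 hA1 ?_ hUq ?_
  · rw [map_pow]; exact i1
  · rw [map_pow]; exact i2

/-! ### The sub-annuli of `S'ref_b` -/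

set_option maxHeartbeats 4000000 in
/-- **(T-B), outer, final form.** -/
theorem restrictAlong_beta2_mem_outer (h2 : nuTwo M = 0) (h3 : nuThree M = 0)
    (H : IsSSParam B hB hqM e g g' g'')
    (hα : (alpha2 M q).toRingHom.IsIntegral) (hβ : (beta2 M q).toRingHom.IsIntegral)
    {a₀ : Kb} (ha₀ : B.valuation a₀ ^ (q + 1) = B.valuation (q : Kb))
    {P : Place Kb (Fb (M * q * q))}
    (hPa : P.restrictAlong (alpha2 M q) hα ∈ outerTube (core (DtM B hB hqM) e) a₀)
    {cU : Kb} (hU : IsValueAt P (Ug M q g) cU)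
    (hUv : B.valuation cU = B.valuation (evalAt (P.restrictAlong (alpha2 M q) hα)
      (annulusCoord (DtM B hB hqM) e))) :
    P.restrictAlong (beta2 M q) hβ ∈
      outerTube (core (DtM B hB hqM) (Fr B hB hqM e)) (a₀ ^ q) := by
  have hPb := Fermat.Agent.BR3.SDD.TubesBCentre.restrictAlong_beta2_mem_tube (DtM B hB hqM) e P
    hα hβ hPa.1
  exact ⟨hPb, valuation_lt_of_outer B hB hqM (nonempty_crossing (DtM B hB hqM)) e h2 h3 H hα hβ
    ha₀ hPa.1 hPa.2 hPb hU hUv⟩

set_option maxHeartbeats 4000000 in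
/-- **(T-B), inner, final form.** -/
theorem restrictAlong_beta2_mem_inner (h2 : nuTwo M = 0) (h3 : nuThree M = 0)
    (H : IsSSParam B hB hqM e g g' g'')
    (hα : (alpha2 M q).toRingHom.IsIntegral) (hβ : (beta2 M q).toRingHom.IsIntegral)
    {a₀ : Kb} (ha₀ : B.valuation a₀ ^ (q + 1) = B.valuation (q : Kb))
    {P : Place Kb (Fb (M * q * q))}
    (hPa : P.restrictAlong (alpha2 M q) hα ∈ outerTube (core (DtM B hB hqM) e) a₀)
    {cU : Kb} (hU : IsValueAt P (Ug M q g) cU) (hUlt : B.valuation cU < B.valuation a₀) :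
    P.restrictAlong (beta2 M q) hβ ∈
      innerTube (core (DtM B hB hqM) (Fr B hB hqM e)) (a₀ ^ q) := by
  have hPb := Fermat.Agent.BR3.SDD.TubesBCentre.restrictAlong_beta2_mem_tube (DtM B hB hqM) e P
    hα hβ hPa.1
  exact ⟨hPb, valuation_lt_of_inner B hB hqM (nonempty_crossing (DtM B hB hqM)) e h2 h3 H hα hβ
    ha₀ hPa.1 hPa.2 hPb hU hUlt⟩

/-! ### The shapes of `SepNSDD.SepInput` -/

set_option maxHeartbeats 4000000 in
/-- **The field `tube_b_nT` of `SepNSDD.SepInput`** from the value of `U_g`. -/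
theorem tube_b_nT_of_value (h2 : nuTwo M = 0) (h3 : nuThree M = 0)
    (H : IsSSParam B hB hqM e g g' g'')
    (hα : (alpha2 M q).toRingHom.IsIntegral) (hβ : (beta2 M q).toRingHom.IsIntegral)
    (hadma : ∀ e, (inputs (DtM B hB hqM)).adm e (gaugeA q B hB hqM e))
    (hadmb : ∀ e, (inputs (DtM B hB hqM)).adm e (gaugeB q B hB hqM e))
    {P : Place Kb (Fb (M * q * q))}
    (hPa : P.restrictAlong (alpha2 M q) hα ∈
      tube (srefM (DtM B hB hqM) (gaugeA q B hB hqM) hadma)
        (outer (inputs (DtM B hB hqM)) (gaugeA q B hB hqM) hadma e))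
    {cU : Kb} (hU : IsValueAt P (Ug M q g) cU)
    (hUv : B.valuation cU = B.valuation (evalAt (P.restrictAlong (alpha2 M q) hα)
      (annulusCoord (DtM B hB hqM) e))) :
    P.restrictAlong (beta2 M q) hβ ∈
      tube (srefM (DtM B hB hqM) (gaugeB q B hB hqM) hadmb)
        (outer (inputs (DtM B hB hqM)) (gaugeB q B hB hqM) hadmb (Fr B hB hqM e)) := by
  rw [tube_outerM] at hPa ⊢
  exact restrictAlong_beta2_mem_outer B hB hqM e h2 h3 H hα hβ
    (valuation_gaugeSDD_pow_succ B) hPa hU hUv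

set_option maxHeartbeats 4000000 in
/-- **The field `tube_b_nk` of `SepNSDD.SepInput`** from the value of `U_g`. -/
theorem tube_b_nk_of_value (h2 : nuTwo M = 0) (h3 : nuThree M = 0)
    (H : IsSSParam B hB hqM e g g' g'')
    (hα : (alpha2 M q).toRingHom.IsIntegral) (hβ : (beta2 M q).toRingHom.IsIntegral)
    (hadma : ∀ e, (inputs (DtM B hB hqM)).adm e (gaugeA q B hB hqM e))
    (hadmb : ∀ e, (inputs (DtM B hB hqM)).adm e (gaugeB q B hB hqM e))
    {P : Place Kb (Fb (M * q * q))}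
    (hPa : P.restrictAlong (alpha2 M q) hα ∈
      tube (srefM (DtM B hB hqM) (gaugeA q B hB hqM) hadma)
        (outer (inputs (DtM B hB hqM)) (gaugeA q B hB hqM) hadma e))
    {cU : Kb} (hU : IsValueAt P (Ug M q g) cU)
    (hUlt : B.valuation cU < B.valuation (gaugeSDD q)) :
    P.restrictAlong (beta2 M q) hβ ∈
      tube (srefM (DtM B hB hqM) (gaugeB q B hB hqM) hadmb)
        (inner (inputs (DtM B hB hqM)) (gaugeB q B hB hqM) hadmb (Fr B hB hqM e)) := by
  rw [tube_outerM] at hPa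
  rw [tube_innerM]
  exact restrictAlong_beta2_mem_inner B hB hqM e h2 h3 H hα hβ
    (valuation_gaugeSDD_pow_succ B) hPa hU hUlt

set_option maxHeartbeats 4000000 in
/-- **The field `tube_b_nT`** on the split sheet: `U_g = W · α₂ (-(α g - (β g')^q))`,
`|W(P)| = 1`. -/
theorem tube_b_nT_of_unit (h2 : nuTwo M = 0) (h3 : nuThree M = 0)
    (H : IsSSParam B hB hqM e g g' g'')
    (hα : (alpha2 M q).toRingHom.IsIntegral) (hβ : (beta2 M q).toRingHom.IsIntegral)
    (hadma : ∀ e, (inputs (DtM B hB hqM)).adm e (gaugeA q B hB hqM e))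
    (hadmb : ∀ e, (inputs (DtM B hB hqM)).adm e (gaugeB q B hB hqM e))
    {P : Place Kb (Fb (M * q * q))}
    (hPa : P.restrictAlong (alpha2 M q) hα ∈
      tube (srefM (DtM B hB hqM) (gaugeA q B hB hqM) hadma)
        (outer (inputs (DtM B hB hqM)) (gaugeA q B hB hqM) hadma e))
    {W : Fb (M * q * q)} {c : Kb} (hW : IsValueAt P W c) (hc : B.valuation c = 1)
    (hWU : Ug M q g =
      W * alpha2 M q (-(heckeAlphaBar Kb M q g - heckeBetaBar Kb M q g' ^ q))) :
    P.restrictAlong (beta2 M q) hβ ∈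
      tube (srefM (DtM B hB hqM) (gaugeB q B hB hqM) hadmb)
        (outer (inputs (DtM B hB hqM)) (gaugeB q B hB hqM) hadmb (Fr B hB hqM e)) := by
  have hPa' := hPa
  rw [tube_outerM] at hPa'
  obtain ⟨cU, hU, hUv⟩ := exists_value_Ug_of_unit B hB hqM e h2 h3 H hα hPa'.1 hW hc hWU
  exact tube_b_nT_of_value B hB hqM e h2 h3 H hα hβ hadma hadmb hPa hU hUv

set_option maxHeartbeats 4000000 in
/-- **The field `tube_b_nk`** on the Kummer sheets: `U_g = Y · t`, `|Y(P)| < 1`,
`|t| = |gaugeSDD q|`. -/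
theorem tube_b_nk_of_small (h2 : nuTwo M = 0) (h3 : nuThree M = 0)
    (H : IsSSParam B hB hqM e g g' g'')
    (hα : (alpha2 M q).toRingHom.IsIntegral) (hβ : (beta2 M q).toRingHom.IsIntegral)
    (hadma : ∀ e, (inputs (DtM B hB hqM)).adm e (gaugeA q B hB hqM e))
    (hadmb : ∀ e, (inputs (DtM B hB hqM)).adm e (gaugeB q B hB hqM e))
    {P : Place Kb (Fb (M * q * q))}
    (hPa : P.restrictAlong (alpha2 M q) hα ∈
      tube (srefM (DtM B hB hqM) (gaugeA q B hB hqM) hadma)
        (outer (inputs (DtM B hB hqM)) (gaugeA q B hB hqM) hadma e))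
    {Y : Fb (M * q * q)} {d t : Kb} (hY : IsValueAt P Y d) (hd : B.valuation d < 1)
    (ht : B.valuation t = B.valuation (gaugeSDD q))
    (hYU : Ug M q g = Y * algebraMap Kb (Fb (M * q * q)) t) :
    P.restrictAlong (beta2 M q) hβ ∈
      tube (srefM (DtM B hB hqM) (gaugeB q B hB hqM) hadmb)
        (inner (inputs (DtM B hB hqM)) (gaugeB q B hB hqM) hadmb (Fr B hB hqM e)) := by
  have ht0 : t ≠ 0 := by
    rintro rfl
    rw [map_zero] at ht
    have h1 := valuation_gaugeSDD_pow_succ (q := q) B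
    rw [← ht, zero_pow (Nat.succ_ne_zero q)] at h1
    exact (_root_.map_ne_zero _).2 (Nat.cast_ne_zero.mpr hq.out.ne_zero) h1.symm
  obtain ⟨cU, hU, hUlt⟩ := exists_value_Ug_of_small B hY hd ht0 hYU
  rw [ht] at hUlt
  exact tube_b_nk_of_value B hB hqM e h2 h3 H hα hβ hadma hadmb hPa hU hUlt

end Fermat.Agent.BR3.SDD.TubesBFinal
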