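import Mathlib
import Fermat.Agent.BR3.SDD.Partition
import Fermat.Agent.BR3.SplitLevels

/-!
# Program C (S36), node I7 (W4-ANN), horizontal nodes: the annulus sheets `nT e`, `nW e`

The per-node inputs `Partition.AnnSheet A T'' y₀ thick' b₀` of `NodeFibres.fibreOver_outer_along` /
`fibreOver_inner_along` for the two horizontal nodes over a supersingular point:

|            | along `a = alpha2` (base `S'ref_a`)      | along `b = beta2` (base `S'ref_b`)      |
|------------|-------------------------------------------|------------------------------------------|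
| `nT e`     | over the OUTER node, `b₀ = 1` (split)     | over the OUTER node, `b₀ = q` (wild)     |
| `nW e`     | over the INNER node, `b₀ = q` (wild)      | over the INNER node, `b₀ = 1` (split)    |

## Main statements (abstract: `L''` ANY level data of the tube `T''` of the node of `S''`)

* `tubeUnit_of_eq` : `y₀ = c₀ • L''.u ^ b₀ * ε` with `ε` a tube unit gives the field `unit`;
* `annSheet_of_rel` : the annulus sheet from the relation `y₀ = c₀ • L''.u ^ b₀ * ε`;
* `annSheet_of_coord_eq` : **degree one**: `y₀ = L''.u` and `|L''.thick| ≤ |thick'|`;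
* `annSheet_split` : **the split sheet**: `L'' = SheetHyp.levels` of helper19's `SplitLevels` over
  the level data `L` of the node of the base, `y₀ = algebraMap F F₂ L.u`, `thick' = L.thick`
  (`c₀ = 1`, `ε = 1`, everything `rfl`) — `nT e` along `a` (`L` = the outer sub-annulus levels,
  `SubAnnChart.subLevels`) and `nW e` along `b` (`L` = the inner levels, `SubAnnPlaces.innerLevels`);
  `annSheet_split_along` : the same for an algebra homomorphism `a : F →ₐ[K] F₂`;
* `annSheet_wild` : **the wild sheet**: `y₀ = c₀ • L''.u ^ q * ε` with `|c₀| = 1` and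
  `|L''.thick| ^ q = |thick'|` — `nW e` along `a`, `nT e` along `b`; the relation is the named
  input from the vertical component (node I7-ZE-B);
* `valuation_wild` : the thickness condition of the wild sheets for the gauges of `S''`:
  `|thick''| ^ (q+1) = |q|`, `thick' = g⁻¹ * t'` with `|t'| = |q|`, `|g| ^ (q+1) = |q|` give
  `|thick''| ^ q = |thick'|`.
-/

set_option autoImplicit false
set_option linter.unusedSectionVars false
set_option linter.style.haveILetI false

namespace Fermat.Agent.BR3.SDD.AnnSheetsHoriz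

open AlgebraicCurve IsLocalRing Fermat.Agent.Red Fermat.Agent.BR.SS Fermat.Agent.BR.S0
  Fermat.Agent.BR.Circle Fermat.Agent.BR3.SDD.Partition

section Abstract

variable {K F'' : Type*} [Field K] [Field F''] [Algebra K F''] {A : ValuationSubring K}
  {T'' : Set (Place K F'')} {ι : Type*}

/-- the constant function `1` is a tube unit -/
theorem tubeUnit_one' : TubeUnit A T'' (1 : F'') := fun P _ =>
  ⟨1, isValueAt_one P, by rw [sub_self, map_zero]; exact zero_lt_one⟩

/-- the field `unit` of an annulus sheet from the relation `y₀ = c₀ • u ^ b₀ * ε` -/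
theorem tubeUnit_of_eq {u y₀ ε : F''} {c₀ : K} {b₀ : ℕ} (hu : u ≠ 0) (hc₀ : c₀ ≠ 0)
    (hrel : y₀ = c₀ • u ^ b₀ * ε) (hε : TubeUnit A T'' ε) :
    TubeUnit A T'' (y₀ * (c₀ • u ^ b₀)⁻¹) := by
  have h0 : c₀ • u ^ b₀ ≠ 0 := by
    rw [Algebra.smul_def]
    exact mul_ne_zero ((map_ne_zero _).mpr hc₀) (pow_ne_zero b₀ hu)
  have e : y₀ * (c₀ • u ^ b₀)⁻¹ = ε := by
    rw [hrel, mul_comm (c₀ • u ^ b₀) ε, mul_assoc, mul_inv_cancel₀ h0, mul_one]
  rw [e]
  exact hε

/-- **The annulus sheet of degree `b₀`** from the relation `y₀ = c₀ • L''.u ^ b₀ * ε`. -/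
noncomputable def annSheet_of_rel (L'' : AnnulusLevels A T'' ι) {y₀ ε : F''} {thick' c₀ : K}
    {b₀ : ℕ} (hb₀ : 0 < b₀) (hc₀ : c₀ ≠ 0) (hrel : y₀ = c₀ • L''.u ^ b₀ * ε)
    (hε : TubeUnit A T'' ε)
    (hlo : A.valuation c₀ * A.valuation L''.thick ^ b₀ ≤ A.valuation thick')
    (hhi : 1 ≤ A.valuation c₀) : AnnSheet A T'' y₀ thick' b₀ :=
  AnnSheet.ofLevels L'' hb₀ hc₀ (tubeUnit_of_eq L''.u_ne_zero hc₀ hrel hε) hlo hhi

/-- **The annulus sheet of degree one**: the function `y₀` IS the coordinate of the level data. -/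
noncomputable def annSheet_of_coord_eq (L'' : AnnulusLevels A T'' ι) {y₀ : F''} {thick' : K}
    (hu : y₀ = L''.u) (hthick : A.valuation L''.thick ≤ A.valuation thick') :
    AnnSheet A T'' y₀ thick' 1 :=
  annSheet_of_rel L'' one_pos one_ne_zero
    (by rw [hu, one_smul, pow_one, mul_one]) tubeUnit_one'
    (by rw [map_one, one_mul, pow_one]; exact hthick) (by rw [map_one])

/-- **The wild annulus sheet**: `y₀ = c₀ • L''.u ^ q * ε` with `|c₀| = 1`, `ε` a tube unit, and
`|L''.thick| ^ q = |thick'|`. -/
noncomputable def annSheet_wild (L'' : AnnulusLevels A T'' ι) {y₀ ε : F''} {thick' c₀ : K}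
    {q : ℕ} (hq : 0 < q) (hc₀ : A.valuation c₀ = 1) (hrel : y₀ = c₀ • L''.u ^ q * ε)
    (hε : TubeUnit A T'' ε) (hthick : A.valuation L''.thick ^ q = A.valuation thick') :
    AnnSheet A T'' y₀ thick' q :=
  annSheet_of_rel L'' hq
    (by
      rintro rfl
      rw [map_zero] at hc₀
      exact zero_ne_one hc₀)
    hrel hε (by rw [hc₀, one_mul, hthick]) hc₀.ge

/-- **The thicknesses of the wild sheets**: `|thick''| ^ (q+1) = |q|` (node (I7-THICK)),
`thick' = g⁻¹ * t'` the thickness of the inner sub-annulus at a gauge `g` with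
`|g| ^ (q+1) = |t'| = |q|`: then `|thick''| ^ q = |thick'|`. -/
theorem valuation_wild {q : ℕ} (hq0 : (q : K) ≠ 0) {thick'' g t' : K}
    (h'' : A.valuation thick'' ^ (q + 1) = A.valuation (q : K))
    (ht' : A.valuation t' = A.valuation (q : K))
    (hg : A.valuation g ^ (q + 1) = A.valuation (q : K)) :
    A.valuation thick'' ^ q = A.valuation (g⁻¹ * t') := by
  have hq0' : A.valuation (q : K) ≠ 0 := (Valuation.ne_zero_iff _).mpr hq0
  have hg0 : A.valuation g ≠ 0 := by
    intro h0
    rw [h0, zero_pow (Nat.succ_ne_zero q)] at hg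
    exact hq0' hg.symm
  -- `|thick''| = |g|`
  have heq : A.valuation thick'' = A.valuation g :=
    (pow_left_inj₀ zero_le zero_le (Nat.succ_ne_zero q)).mp (h''.trans hg.symm)
  rw [map_mul, map_inv₀, ht', ← hg, heq, pow_succ, mul_comm (A.valuation g ^ q), ← mul_assoc,
    inv_mul_cancel₀ hg0, one_mul]

/-- **The thicknesses of the wild sheets, outer form**: `thick' = g` the thickness of the outer
sub-annulus at a gauge `g` with `|g| ^ (q+1) = |q| ^ q`, `|thick''| ^ (q+1) = |q|`: then
`|thick''| ^ q = |thick'|`. -/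
theorem valuation_wild_outer {q : ℕ} {thick'' g : K}
    (h'' : A.valuation thick'' ^ (q + 1) = A.valuation (q : K))
    (hg : A.valuation g ^ (q + 1) = A.valuation (q : K) ^ q) :
    A.valuation thick'' ^ q = A.valuation g := by
  apply (pow_left_inj₀ zero_le zero_le (Nat.succ_ne_zero q)).mp
  rw [hg, ← h'', ← pow_mul, ← pow_mul, mul_comm]

end Abstract

/-! ### The split sheet of helper19's `SplitLevels` -/

section Split

variable {K F F₂ : Type*} [Field K] [Field F] [Field F₂] [Algebra K F] [Algebra K F₂]
  [Algebra F F₂] [IsScalarTower K F F₂] [Algebra.IsIntegral F F₂] [CharZero F₂]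
  {A : ValuationSubring K} {T : Set (Place K F)} {ι : Type*}

open Fermat.Agent.BR3.SplitLevels Fermat.Agent.BR3.CoverSmooth

/-- **The split sheet is an annulus sheet of degree one** over the node of the base:
`y₀ = algebraMap F F₂ L.u`, `thick' = L.thick`. -/
noncomputable def annSheet_split {L : AnnulusLevels A T ι} {W : F₂} {c₀ : A}
    (H : SheetHyp L W c₀) :
    AnnSheet A (coverTube A T W c₀) (algebraMap F F₂ L.u) L.thick 1 :=
  annSheet_of_coord_eq H.levels rfl le_rfl

/-- The same against an annulus core of the base with the coordinate and thickness of `L`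
(e.g. `C' = L.core`, or the core of the node of a `CircleInputsN`). -/
noncomputable def annSheet_split_core {L : AnnulusLevels A T ι} {W : F₂} {c₀ : A}
    (H : SheetHyp L W c₀) {T' : Set (Place K F)} (C' : AnnulusCore A T') (hu : C'.u = L.u)
    (hthick : C'.thick = L.thick) :
    AnnSheet A (coverTube A T W c₀) (algebraMap F F₂ C'.u) C'.thick 1 :=
  annSheet_of_coord_eq H.levels (by rw [hu]; rfl) (by rw [hthick]; exact le_rfl)

end Split

end Fermat.Agent.BR3.SDD.AnnSheetsHoriz
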