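import Mathlib
import Fermat.Agent.BR3.SplitNode.ModFinal
import Fermat.Agent.BR3.SDD.ModularZe
import Fermat.Agent.BR3.SDD.ModularC
import Fermat.Agent.BR3.SDD.TubesBFinal

/-!
# Program C (S36), node (N1-FAM): the family of the nodes `nT e` of `S''` in the frame of the
integrator

With helper5's ONE choice per crossing `zePackM B hB hqM h2 h3 e` (chain quadruple, `β ρ`, `Z`,
`resZ`), `FZ := FZM …`, `CZ := CZM …`:

* `tubeTM B hB hqM h2 h3 e` : the raw tube of the node `nT e`
  (`= coverTube B (tube S'ref_a (outer e)) (splitW M q g_e g'_e) 1` along `α₂`);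
* `nodeTM … e` : the bundle `SplitNode.NodeOut` of `nT e`; `ιTM`, `LTM` (the levels);
* the binders of `SDD.Modular.modelAt_of_raw` / `YRaw` for the nodes `nT e`, in their literal
  shapes (`FZ := FZM …`, `CZ := CZM …`, `zT e := ptIBar q (zePackM … e).hβ (zePackM … e).hρ`,
  `pInfM B hB hqM e` unfolded to `z₁ (chartDataModular B hB hqM) e`: `rfl`):
  `T₁M`, `T₂M`, `T_v_srcM`, `T_u_tgtM`, `T_unif₁M`, `T_unif₂M`, `chTM`, `hTM` ((G3) `hT`);
* `LTM_u` : the coordinate `α₂ u_e`; `tube_a_nTM` (`subT`: the tube lies over the outer node of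
  `S'ref_a` along `α₂`), `tube_b_nTM` (over the outer node of `S'ref_b` at `Fr e` along `β₂`:
  helper15's `tube_b_nT_of_unit`), `annSheetTM` (degree one, `XT` of `hOuter_modular`),
  `value_tubeTM` (`hWT`).
-/

set_option autoImplicit false
set_option linter.unusedSectionVars false
set_option linter.style.haveILetI false
set_option synthInstance.maxHeartbeats 400000

noncomputable section

/- S36 build-time patch: file-local shortcut instances. They only shorten instance search;
each is the instance that the search finds anyway (reducible, same terms after unfolding). -/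
local instance (priority := 100000) Fermat.Agent.BR3.FastInst.instAlgFullC_SDD_ModularNodeT
    {k : Type*} [Field k] (N : ℕ) :
    Algebra k ↥(ModularCurve.modularFunctionFieldFullC k N) := inferInstance
local instance (priority := 100000) Fermat.Agent.BR3.FastInst.instFieldFullC_SDD_ModularNodeT
    {k : Type*} [Field k] (N : ℕ) :
    Field ↥(ModularCurve.modularFunctionFieldFullC k N) := inferInstance
local instance (priority := 100000) Fermat.Agent.BR3.FastInst.instAlgLaurent_SDD_ModularNodeT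
    {k : Type*} [Field k] : Algebra k (LaurentSeries k) := inferInstance


namespace Fermat.Agent.BR3.SDD.Modular

open ModularCurve AlgebraicCurve IsLocalRing Polynomial
open Fermat.Agent.Red Fermat.Agent.Val Fermat.Agent.X0 Fermat.Agent.Hecke
open Fermat.Agent.BR.SS Fermat.Agent.BR.Refine Fermat.Agent.BR.TwoVal Fermat.Agent.BR.TwoValInst
open Fermat.Agent.BR.Circle Fermat.Agent.BR.S0 Fermat.Agent.BR.S0.PointDict Fermat.Agent.BR.P1
open Fermat.Agent.BR.S0.RedModular Fermat.Agent.BR.Final Fermat.Agent.BR.Inst.AnnulusInstFinal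
open Fermat.Agent.BR2.SetupOfData Fermat.Agent.BR3.CircleN Fermat.Agent.BR3.SRef
open Fermat.Agent.BR3.SRef.Modular Fermat.Agent.BR3.SubAnnChart
open Fermat.Agent.BR3.SplitLevels Fermat.Agent.BR3.SplitBranch Fermat.Agent.BR3.CoverSmooth
open Fermat.Agent.BR3.FibreProd Fermat.Agent.BR3.HeckePoly Fermat.Agent.BR3.SSParam
open Fermat.Agent.BR3.VertResidue Fermat.Agent.BR3.VertSheet Fermat.Agent.BR3.VertPtsDef
open Fermat.Agent.BR3.SplitCompsCInf Fermat.Agent.BR3.CInfRes Fermat.Agent.BR3.SplitNode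
open Fermat.Agent.BR3.VertBetaFr

local notation "Kb" => AlgebraicClosure ℚ

variable {M q : ℕ} [NeZero M] [hq : Fact q.Prime]
variable (B : ValuationSubring (AlgebraicClosure ℚ)) (hB : B.LiesOverPrime q) (hqM : ¬ q ∣ M)
variable [IsAlgClosed (ResidueField B)] [CharP (ResidueField B) q]
  [PerfectField (ResidueField B)]

local notation "kB" => IsLocalRing.ResidueField B
local notation "FtM" => modularFunctionFieldFullC (IsLocalRing.ResidueField B) M

/-- (shortcut instance) -/
local instance (priority := 100000) instAlgebraFtMShortcutNodeT :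
    Algebra (IsLocalRing.ResidueField B)
      (modularFunctionFieldFullC (IsLocalRing.ResidueField B) M) :=
  inferInstance

variable (h2 : nuTwo M = 0) (h3 : nuThree M = 0) (e : Crossing (chartDataModular B hB hqM))

/-- **The raw tube of the node `nT e` of `S''`**: the places over the outer node of `S'ref_a` at
`e` (along `α₂`) at which `W_e = U_{g_e} / α₂(-(α g_e - (β g'_e)^q))` has a value `≡ 1`. -/
def tubeTM : Set (Place (AlgebraicClosure ℚ) (Fb (M * q * q))) :=
  letI := algebraAlong (alpha2 M q)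
  haveI := isScalarTower_along (alpha2 M q)
  haveI : Module.Finite (Fb (M * q)) (Fb (M * q * q)) :=
    Fermat.Agent.Hecke.finiteAlong_heckeAlphaBar (M * q) q
  coverTube B
    (tube (srefM (DtM B hB hqM) (gaugeA q B hB hqM) (admA B hB hqM h2 h3))
      (outer (inputs (DtM B hB hqM)) (gaugeA q B hB hqM) (admA B hB hqM h2 h3) e))
    (splitW M q (zePackM B hB hqM h2 h3 e).g (zePackM B hB hqM h2 h3 e).g') (1 : B)

/-- the index type of the levels of `nT e` -/
abbrev ιTM : Type := idxOutA B hB hqM h2 h3 e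

set_option maxHeartbeats 4000000 in
/-- **The data of the node `nT e` of `S''`** for the chosen family. -/
def nodeTM :
    NodeOut B (residue B) (w1 M B hB) (resInf B hB hqM) (z₁ (chartDataModular B hB hqM) e)
      (zePackM B hB hqM h2 h3 e).Z (zePackM B hB hqM h2 h3 e).resZ
      (ptIBar q (zePackM B hB hqM h2 h3 e).hβ (zePackM B hB hqM h2 h3 e).hρ)
      (tubeTM B hB hqM h2 h3 e) (ιTM B hB hqM h2 h3 e) :=
  nodeT B hB hqM h2 h3 e (zePackM B hB hqM h2 h3 e).P (vertCompM B hB hqM h2 h3 e)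
    (zePackM B hB hqM h2 h3 e).hβ (zePackM B hB hqM h2 h3 e).hρ (zePackM B hB hqM h2 h3 e).hred

/-- the levels of the node `nT e` -/
def LTM : AnnulusLevels B (tubeTM B hB hqM h2 h3 e) (ιTM B hB hqM h2 h3 e) :=
  (nodeTM B hB hqM h2 h3 e).L

set_option maxHeartbeats 4000000 in
/-- **(G3) `hT`** -/
theorem hTM : (LTM B hB hqM h2 h3 e).thick = gaugeA q B hB hqM e :=
  nodeT_thick B hB hqM h2 h3 e (zePackM B hB hqM h2 h3 e).P (vertCompM B hB hqM h2 h3 e)
    (zePackM B hB hqM h2 h3 e).hβ (zePackM B hB hqM h2 h3 e).hρ (zePackM B hB hqM h2 h3 e).hred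

set_option maxHeartbeats 4000000 in
/-- the coordinate of the levels of `nT e` is `α₂ u_e` -/
theorem LTM_u : (LTM B hB hqM h2 h3 e).u = alpha2 M q (annulusCoord (DtM B hB hqM) e) :=
  nodeT_u B hB hqM h2 h3 e (zePackM B hB hqM h2 h3 e).P (vertCompM B hB hqM h2 h3 e)
    (zePackM B hB hqM h2 h3 e).hβ (zePackM B hB hqM h2 h3 e).hρ (zePackM B hB hqM h2 h3 e).hred

/-! ### the binders of `modelAt_of_raw` for the nodes `nT e` -/

section Binders

variable {ζ : (AlgebraicClosure ℚ)ˣ} (hζ : IsPrimitiveRoot ζ q)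

/-- (shortcut instance) -/
local instance (priority := 100000) instAlgebraFMidShortcutNodeT :
    Algebra (IsLocalRing.ResidueField B) (FMid M B) :=
  inferInstance

set_option maxHeartbeats 4000000 in
/-- the binder `T₁` -/
theorem T₁M : BranchComp (residue B) (CAll B hB hqM hζ (CZM B hB hqM h2 h3) cInf).O
    (CAll B hB hqM hζ (CZM B hB hqM h2 h3) cInf).res (z₁ (chartDataModular B hB hqM) e)
    (LTM B hB hqM h2 h3 e) :=
  (nodeTM B hB hqM h2 h3 e).X₁

set_option maxHeartbeats 4000000 in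
/-- the binder `T₂` (with `zT e := ptIBar`) -/
theorem T₂M : BranchComp (residue B) (CAll B hB hqM hζ (CZM B hB hqM h2 h3) (ze e)).O
    (CAll B hB hqM hζ (CZM B hB hqM h2 h3) (ze e)).res
    (ptIBar q (zePackM B hB hqM h2 h3 e).hβ (zePackM B hB hqM h2 h3 e).hρ)
    (LTM B hB hqM h2 h3 e) :=
  (nodeTM B hB hqM h2 h3 e).X₂

set_option maxHeartbeats 4000000 in
/-- the binder `T_v_src` -/
theorem T_v_srcM :
    (LTM B hB hqM h2 h3 e).v ∈ (CAll B hB hqM hζ (CZM B hB hqM h2 h3) cInf).O.nonunits :=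
  (nodeTM B hB hqM h2 h3 e).v_src

set_option maxHeartbeats 4000000 in
/-- the binder `T_u_tgt` -/
theorem T_u_tgtM :
    (LTM B hB hqM h2 h3 e).u ∈ (CAll B hB hqM hζ (CZM B hB hqM h2 h3) (ze e)).O.nonunits :=
  (nodeTM B hB hqM h2 h3 e).u_tgt

set_option maxHeartbeats 4000000 in
/-- the binder `T_unif₁` -/
theorem T_unif₁M : ∃ i, ∃ t : ((LTM B hB hqM h2 h3 e).level i).R,
    (z₁ (chartDataModular B hB hqM) e).ord ((CAll B hB hqM hζ (CZM B hB hqM h2 h3) cInf).res
      ⟨t, (T₁M B hB hqM h2 h3 e hζ).le i t t.2⟩) = 1 :=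
  (nodeTM B hB hqM h2 h3 e).unif₁

set_option maxHeartbeats 4000000 in
/-- the binder `T_unif₂` -/
theorem T_unif₂M : ∃ i, ∃ t : ((LTM B hB hqM h2 h3 e).level i).R,
    (ptIBar q (zePackM B hB hqM h2 h3 e).hβ (zePackM B hB hqM h2 h3 e).hρ).ord
      ((CAll B hB hqM hζ (CZM B hB hqM h2 h3) (ze e)).res
        ⟨t, (T₂M B hB hqM h2 h3 e hζ).le i t t.2⟩) = 1 :=
  (nodeTM B hB hqM h2 h3 e).unif₂

set_option maxHeartbeats 4000000 in
/-- the binder `chT` (against `nodeTube (nT e) := tubeTM … e`) -/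
def chTM : NodeChart B (CAll B hB hqM hζ (CZM B hB hqM h2 h3) cInf).O
    (CAll B hB hqM hζ (CZM B hB hqM h2 h3) (ze e)).O
    (CAll B hB hqM hζ (CZM B hB hqM h2 h3) cInf).res
    (CAll B hB hqM hζ (CZM B hB hqM h2 h3) (ze e)).res (z₁ (chartDataModular B hB hqM) e)
    (ptIBar q (zePackM B hB hqM h2 h3 e).hβ (zePackM B hB hqM h2 h3 e).hρ)
    (tubeTM B hB hqM h2 h3 e) :=
  chartT B hB hqM h2 h3 e (zePackM B hB hqM h2 h3 e).P (vertCompM B hB hqM h2 h3 e)
    (zePackM B hB hqM h2 h3 e).hβ (zePackM B hB hqM h2 h3 e).hρ (zePackM B hB hqM h2 h3 e).hred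

end Binders

/-! ### the tube of `nT e` -/

set_option maxHeartbeats 4000000 in
/-- the unfolding of the raw tube -/
theorem mem_tubeTM_iff (hα : (alpha2 M q).toRingHom.IsIntegral)
    (P : Place (AlgebraicClosure ℚ) (Fb (M * q * q))) :
    P ∈ tubeTM B hB hqM h2 h3 e ↔
      P.restrictAlong (alpha2 M q) hα ∈
          tube (srefM (DtM B hB hqM) (gaugeA q B hB hqM) (admA B hB hqM h2 h3))
            (outer (inputs (DtM B hB hqM)) (gaugeA q B hB hqM) (admA B hB hqM h2 h3) e) ∧
        ∃ d : AlgebraicClosure ℚ,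
          IsValueAt P (splitW M q (zePackM B hB hqM h2 h3 e).g (zePackM B hB hqM h2 h3 e).g') d ∧
            B.valuation (d - 1) < 1 := Iff.rfl

set_option maxHeartbeats 4000000 in
/-- **`tube_a_nT`** (`subT`): the tube of `nT e` lies over the outer node of `S'ref_a` along `α₂` -/
theorem tube_a_nTM (hα : (alpha2 M q).toRingHom.IsIntegral)
    {P : Place (AlgebraicClosure ℚ) (Fb (M * q * q))} (hP : P ∈ tubeTM B hB hqM h2 h3 e) :
    P.restrictAlong (alpha2 M q) hα ∈
      tube (srefM (DtM B hB hqM) (gaugeA q B hB hqM) (admA B hB hqM h2 h3))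
        (outer (inputs (DtM B hB hqM)) (gaugeA q B hB hqM) (admA B hB hqM h2 h3) e) :=
  ((mem_tubeTM_iff B hB hqM h2 h3 e hα P).mp hP).1

set_option maxHeartbeats 4000000 in
/-- **`hWT`**: the value of the generator on the tube of `nT e` -/
theorem value_tubeTM {P : Place (AlgebraicClosure ℚ) (Fb (M * q * q))}
    (hP : P ∈ tubeTM B hB hqM h2 h3 e) :
    ∃ d : AlgebraicClosure ℚ,
      IsValueAt P (splitW M q (zePackM B hB hqM h2 h3 e).g (zePackM B hB hqM h2 h3 e).g') d ∧
        B.valuation (d - 1) < 1 ∧ B.valuation d = 1 := by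
  obtain ⟨d, hd, hlt⟩ := hP.2
  refine ⟨d, hd, hlt, ?_⟩
  have h1 : d = (d - 1) + 1 := by ring
  rw [h1, Valuation.map_add_eq_of_lt_right, map_one]
  rw [map_one]
  exact hlt

set_option maxHeartbeats 4000000 in
/-- **`tube_b_nT`**: the tube of `nT e` lies over the outer node of `S'ref_b` at `Fr e` along
`β₂` (helper15's `TubesBFinal.tube_b_nT_of_unit`). -/
theorem tube_b_nTM (hα : (alpha2 M q).toRingHom.IsIntegral)
    (hβ : (beta2 M q).toRingHom.IsIntegral)
    {P : Place (AlgebraicClosure ℚ) (Fb (M * q * q))} (hP : P ∈ tubeTM B hB hqM h2 h3 e) :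
    P.restrictAlong (beta2 M q) hβ ∈
      tube (srefM (DtM B hB hqM) (gaugeB q B hB hqM) (admB B hB hqM h2 h3))
        (outer (inputs (DtM B hB hqM)) (gaugeB q B hB hqM) (admB B hB hqM h2 h3)
          (Fr B hB hqM e)) := by
  obtain ⟨d, hd, -, hd1⟩ := value_tubeTM B hB hqM h2 h3 e hP
  exact Fermat.Agent.BR3.SDD.TubesBFinal.tube_b_nT_of_unit B hB hqM e h2 h3
    (zePackM B hB hqM h2 h3 e).P hα hβ (admA B hB hqM h2 h3) (admB B hB hqM h2 h3)
    (tube_a_nTM B hB hqM h2 h3 e hα hP) hd hd1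
    (Ug_eq_splitW_mul B hB hqM e (zePackM B hB hqM h2 h3 e).P)

set_option maxHeartbeats 4000000 in
/-- **the annulus sheet of degree one of `nT e` along `α₂`** (`XT` of `hOuter_modular`) -/
theorem annSheetTM :
    Nonempty (Fermat.Agent.BR3.SDD.Partition.AnnSheet B (tubeTM B hB hqM h2 h3 e)
      (alpha2 M q (annulusCoord (DtM B hB hqM) e)) (gaugeA q B hB hqM e) 1) :=
  nonempty_annSheet_nodeT B hB hqM h2 h3 e (zePackM B hB hqM h2 h3 e).P

end Fermat.Agent.BR3.SDD.Modular
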