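import Mathlib
import Fermat.Agent.BR3.SDD.ModularNodeT
import Fermat.Agent.BR3.EquivSRefModular
import Fermat.Agent.BR3.EquivTubes
import Fermat.Agent.BR3.VertEquivUg
import Fermat.Agent.BR3.VertEquivMod

/-!
# Program C (S36), node (N1-FAM), (G4): the nodes `nT e` are stable under the inertia group

For `σ` in the inertia group of `B`:

* `galAut_smul_splitW` : the generator `W = splitW M q g g'` of the split sheet is fixed by `σ`
  (`g, g' ∈ CMod M (W0 B q) (K0 q)`: defined over the unramified constants);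
* `galAut_smul_LTM_u` : the coordinate `α₂ u_e` of the levels of `nT e` is fixed by `σ`
  (the clause `galAut s • (LT e).u = (LT e).u` of `hrest`);
* `smul_mem_tubeTM` : if moreover `σ` fixes the gauge (`σ (unifSDD q) = unifSDD q`), the raw tube
  `tubeTM … e` is stable (the clause `∀ P ∈ nodeTube (nT e), galAut s • P ∈ nodeTube (nT e)`).
-/

set_option autoImplicit false
set_option linter.unusedSectionVars false
set_option linter.style.haveILetI false
set_option synthInstance.maxHeartbeats 400000

noncomputable section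

namespace Fermat.Agent.BR3.SDD.Modular

open ModularCurve AlgebraicCurve IsLocalRing Polynomial
open Fermat.Agent.Red Fermat.Agent.Val Fermat.Agent.X0 Fermat.Agent.Hecke Fermat.Agent.Jac
open Fermat.Agent.BR.SS Fermat.Agent.BR.Refine Fermat.Agent.BR.TwoVal Fermat.Agent.BR.TwoValInst
open Fermat.Agent.BR.Circle Fermat.Agent.BR.S0 Fermat.Agent.BR.S0.PointDict Fermat.Agent.BR.P1
open Fermat.Agent.BR.S0.RedModular Fermat.Agent.BR.Final Fermat.Agent.BR.Inst.AnnulusInstFinal
open Fermat.Agent.BR.InertiaRed Fermat.Agent.BR.ValTwo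
open Fermat.Agent.BR2.SetupOfData Fermat.Agent.BR3.CircleN Fermat.Agent.BR3.SRef
open Fermat.Agent.BR3.SRef.Modular Fermat.Agent.BR3.SubAnnChart
open Fermat.Agent.BR3.SplitLevels Fermat.Agent.BR3.SplitBranch Fermat.Agent.BR3.CoverSmooth
open Fermat.Agent.BR3.FibreProd Fermat.Agent.BR3.HeckePoly Fermat.Agent.BR3.SSParam
open Fermat.Agent.BR3.SplitCompsCInf Fermat.Agent.BR3.SplitNode
open Fermat.Agent.BR3.EquivSRefModular Fermat.Agent.BR3.EquivTubes Fermat.Agent.BR3.VertEquivUg
open Fermat.Agent.BR3.VertEquivMod Fermat.Agent.BR3.ThickSDDPlug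
open Fermat.Agent.BR.Inst.LevelsInst Fermat.Agent.BR.Inst.NormalModel
open Fermat.Agent.BR.Inst.NormalGen Fermat.Agent.BR.S0.ThickFinal

local notation "Kb" => AlgebraicClosure ℚ

variable {M q : ℕ} [NeZero M] [hq : Fact q.Prime]
variable (B : ValuationSubring (AlgebraicClosure ℚ)) (hB : B.LiesOverPrime q) (hqM : ¬ q ∣ M)

section Gen

variable {σ : GQ}

include hB in
/-- **The generator of the split sheet is fixed by the inertia group.** -/
theorem galAut_smul_splitW (hσ : σ ∈ B.inertiaSubgroupIn ℚ) {g g' : Fb M}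
    (hg : g ∈ CMod M (W0 B q) (K0 q)) (hg' : g' ∈ CMod M (W0 B q) (K0 q)) :
    galAut (M * q * q) σ • splitW M q g g' = splitW M q g g' := by
  haveI : NeZero q := ⟨hq.out.ne_zero⟩
  have h1 : galAut (M * q) σ • heckeAlphaBar Kb M q g = heckeAlphaBar Kb M q g := by
    rw [← heckeAlphaBar_galAut, galAut_smul_of_mem_CMod B hB hσ hg]
  have h2 : galAut (M * q) σ • heckeBetaBar Kb M q g' = heckeBetaBar Kb M q g' := by
    rw [← heckeBetaBar_galAut, galAut_smul_of_mem_CMod B hB hσ hg']
  unfold splitW
  rw [smul_div₀', galAut_smul_Ug B hB hσ hg, alpha2_galAut, smul_neg, smul_sub, smul_pow', h1, h2]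

end Gen

variable [IsAlgClosed (ResidueField B)] [CharP (ResidueField B) q]
  [PerfectField (ResidueField B)]

local notation "kB" => IsLocalRing.ResidueField B
local notation "FtM" => modularFunctionFieldFullC (IsLocalRing.ResidueField B) M

/-- (shortcut instance) -/
local instance (priority := 100000) instAlgebraFtMShortcutNodeTEquiv :
    Algebra (IsLocalRing.ResidueField B)
      (modularFunctionFieldFullC (IsLocalRing.ResidueField B) M) :=
  inferInstance

variable (h2 : nuTwo M = 0) (h3 : nuThree M = 0) (e : Crossing (chartDataModular B hB hqM))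
  {σ : GQ}

set_option maxHeartbeats 4000000 in
/-- **(G4), coordinates**: the coordinate of the levels of `nT e` is fixed by the inertia group. -/
theorem galAut_smul_LTM_u (hσ : σ ∈ B.inertiaSubgroupIn ℚ) :
    galAut (M * q * q) σ • (LTM B hB hqM h2 h3 e).u = (LTM B hB hqM h2 h3 e).u := by
  rw [LTM_u, alpha2_galAut]
  exact congrArg (alpha2 M q) (annulusCoord_smul (DtM B hB hqM) hσ e)

set_option maxHeartbeats 4000000 in
/-- **(G4), tubes**: the raw tube of `nT e` is stable under the inertia elements fixing the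
gauge. -/
theorem smul_mem_tubeTM (hσ : σ ∈ B.inertiaSubgroupIn ℚ) (hu : σ (unifSDD q) = unifSDD q)
    {P : Place (AlgebraicClosure ℚ) (Fb (M * q * q))} (hP : P ∈ tubeTM B hB hqM h2 h3 e) :
    galAut (M * q * q) σ • P ∈ tubeTM B hB hqM h2 h3 e := by
  letI := algebraAlong (alpha2 M q)
  haveI := isScalarTower_along (alpha2 M q)
  haveI : Module.Finite (Fb (M * q)) (Fb (M * q * q)) :=
    Fermat.Agent.Hecke.finiteAlong_heckeAlphaBar (M * q) q
  have ha : ∀ e' : Crossing (chartDataModular B hB hqM),
      σ (gaugeA q B hB hqM e') = gaugeA q B hB hqM e' := by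
    intro e'
    show σ (unifSDD q ^ (q - 1)) = unifSDD q ^ (q - 1)
    rw [map_pow, hu]
  exact smul_mem_coverTube_of_fixed B (galAut (M * q * q) σ) (galAut (M * q) σ)
    (alpha2_galAut σ) (isInertial_galAut (M * q * q) B hσ)
    (fun P' hP' => (smul_mem_tube_srefM_iff (DtM B hB hqM) (gaugeA q B hB hqM)
      (admA B hB hqM h2 h3) hσ ha _ P').mpr hP')
    (galAut_smul_splitW B hB hσ (zePackM B hB hqM h2 h3 e).P.hg
      (zePackM B hB hqM h2 h3 e).P.hg') (1 : B) hP

end Fermat.Agent.BR3.SDD.Modular
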