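import Mathlib
import Fermat.Agent.BR3.SDD.ModularZe
import Fermat.Agent.BR3.SDD.ModularFrame
import Fermat.Agent.BR3.VertPtsU
import Fermat.Agent.BR3.VertPtsUGenus
import Fermat.Agent.BR3.VertSheet.ModularAll
import Fermat.Agent.BR3.VertSheet.ZeAll

/-!
# Program C (S36), node (ZE-WIRE): the `z e` column of `ModularRaw.modelAt_of_raw`

For `FZ := FZM B hB hqM h2 h3`, `CZ := CZM B hB hqM h2 h3` (`BR3/SDD/ModularZe.lean`) and
`KP := VertPtsU.KPq q`, in the literal binder shapes of `ModularRaw.modelAt_of_raw`: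

* the special points `zTM e := ptIBar`, `zWM e := ptZBar`, `zKM e s := ptKFam s` of the residue curve
  of `z e` (at `(zePackM … e).hβ`, `(zePackM … e).hρ`), with `zKM_injective`, `zTM_ne_zKM`,
  `zWM_ne_zTM`, `zWM_ne_zKM`, and their restrictions to the `T`-line (`restrict_zWM`,
  `restrict_zTM`, `restrict_zKM`);
* `zePts_hd` (`hd`), `zePts_hze` (`hze`, `gz := midDeg q`), `zePts_hz` (`hz`), `zePts_hZ` (`hZ`);
* the raw smooth tubes `TZM e Q := ptTube (core (DtM …) e) (gaugeA e) θ_e Q` and the charts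
  `regZeM`, `smZeM` (`smZe`).
-/

set_option autoImplicit false
set_option linter.unusedSectionVars false
set_option linter.style.haveILetI false
set_option synthInstance.maxHeartbeats 400000

noncomputable section

/- S36 build-time patch: file-local shortcut instances. They only shorten instance search;
each is the instance that the search finds anyway (reducible, same terms after unfolding). -/
local instance (priority := 100000) Fermat.Agent.BR3.FastInst.instAlgFullC_SDD_ModularZePts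
    {k : Type*} [Field k] (N : ℕ) :
    Algebra k ↥(ModularCurve.modularFunctionFieldFullC k N) := inferInstance
local instance (priority := 100000) Fermat.Agent.BR3.FastInst.instFieldFullC_SDD_ModularZePts
    {k : Type*} [Field k] (N : ℕ) :
    Field ↥(ModularCurve.modularFunctionFieldFullC k N) := inferInstance
local instance (priority := 100000) Fermat.Agent.BR3.FastInst.instAlgLaurent_SDD_ModularZePts
    {k : Type*} [Field k] : Algebra k (LaurentSeries k) := inferInstance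


namespace Fermat.Agent.BR3.SDD.Modular

open Polynomial ModularCurve AlgebraicCurve IsLocalRing
open Fermat.Agent.X0 Fermat.Agent.Val Fermat.Agent.Red Fermat.Agent.Hecke
open Fermat.Agent.BR.SS Fermat.Agent.BR.Circle Fermat.Agent.BR.S0 Fermat.Agent.BR.S0.RedModular
open Fermat.Agent.BR.S0.PointDict Fermat.Agent.BR.Inst.SpecIso
open Fermat.Agent.BR.Inst.AnnulusInstFinal Fermat.Agent.BR.Final
open Fermat.Agent.BR3.FibreProd Fermat.Agent.BR3.VertResidue Fermat.Agent.BR3.VertResField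
open Fermat.Agent.BR3.SSParam Fermat.Agent.BR3.ThickSDDPlug
open Fermat.Agent.BR2.SetupOfData Fermat.Agent.BR3.CircleN Fermat.Agent.BR3.SRef
open Fermat.Agent.BR3.SRef.Modular Fermat.Agent.BR3.VertSheet Fermat.Agent.BR3.CoverK
open Fermat.Agent.BR3.VertPtsDef Fermat.Agent.BR3.VertPtsU Fermat.Agent.BR3.IgSq
open Fermat.Agent.BR.P1 Fermat.Agent.BR.InertiaRed Fermat.Agent.BR.AnnulusRed

variable {M q : ℕ} [NeZero M] [hq : Fact q.Prime]
variable (B : ValuationSubring Kb)

local notation "kB" => ResidueField B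

/-- (shortcut instance) -/
local instance (priority := 100000) instAlgebraFtMShortcutZePts :
    Algebra (IsLocalRing.ResidueField B)
      (modularFunctionFieldFullC (IsLocalRing.ResidueField B) M) :=
  inferInstance

variable (hB : B.LiesOverPrime q) (hqM : ¬ q ∣ M)
  [IsAlgClosed (ResidueField B)] [CharP (ResidueField B) q]
  (h2 : nuTwo M = 0) (h3 : nuThree M = 0)

/-! ### the special points of `z e` -/

/-- The point of `z e` at the node `nT e` (towards `cInf`): the zero of `Ũ + b̃`. -/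
def zTM (e : SSpM B hB hqM) : Place kB (FZM B hB hqM h2 h3 e) :=
  ptIBar q (zePackM B hB hqM h2 h3 e).hβ (zePackM B hB hqM h2 h3 e).hρ

/-- The point of `z e` at the node `nW e` (towards `cZero`): the zero of `b̃`. -/
def zWM (e : SSpM B hB hqM) : Place kB (FZM B hB hqM h2 h3 e) :=
  ptZBar q (zePackM B hB hqM h2 h3 e).hβ (zePackM B hB hqM h2 h3 e).hρ

/-- The points of `z e` at the nodes `nk e s` (towards the middle components): the zeros of `Ũ`. -/
def zKM (e : SSpM B hB hqM) (s : KPq q) : Place kB (FZM B hB hqM h2 h3 e) :=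
  ptKFam q (zePackM B hB hqM h2 h3 e).hβ (zePackM B hB hqM h2 h3 e).hρ s

theorem zTM_eq (e : SSpM B hB hqM) : zTM B hB hqM h2 h3 e =
    ptIBar q (zePackM B hB hqM h2 h3 e).hβ (zePackM B hB hqM h2 h3 e).hρ := rfl

theorem zWM_eq (e : SSpM B hB hqM) : zWM B hB hqM h2 h3 e =
    ptZBar q (zePackM B hB hqM h2 h3 e).hβ (zePackM B hB hqM h2 h3 e).hρ := rfl

theorem zKM_eq (e : SSpM B hB hqM) (s : KPq q) : zKM B hB hqM h2 h3 e s =
    ptKFam q (zePackM B hB hqM h2 h3 e).hβ (zePackM B hB hqM h2 h3 e).hρ s := rfl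

theorem zKM_injective (e : SSpM B hB hqM) : Function.Injective (zKM B hB hqM h2 h3 e) :=
  ptKFam_injective q (zePackM B hB hqM h2 h3 e).hβ (zePackM B hB hqM h2 h3 e).hρ

theorem zTM_ne_zKM (e : SSpM B hB hqM) (s : KPq q) :
    zTM B hB hqM h2 h3 e ≠ zKM B hB hqM h2 h3 e s :=
  ptIBar_ne_ptKFam q (zePackM B hB hqM h2 h3 e).hβ (zePackM B hB hqM h2 h3 e).hρ s

theorem zWM_ne_zTM (e : SSpM B hB hqM) : zWM B hB hqM h2 h3 e ≠ zTM B hB hqM h2 h3 e :=
  ptZBar_ne_ptIBar q (zePackM B hB hqM h2 h3 e).hβ (zePackM B hB hqM h2 h3 e).hρ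

theorem zWM_ne_zKM (e : SSpM B hB hqM) (s : KPq q) :
    zWM B hB hqM h2 h3 e ≠ zKM B hB hqM h2 h3 e s :=
  ptZBar_ne_ptKFam q (zePackM B hB hqM h2 h3 e).hβ (zePackM B hB hqM h2 h3 e).hρ s

/-- `1 ≤ midDeg q` -/
theorem one_le_midDeg : 1 ≤ midDeg q := by
  have h := hd_KPq hq.out
  have h1 := hq.out.two_le
  rcases Nat.eq_zero_or_pos (midDeg q) with h0 | h0
  · rw [h0, zero_mul] at h
    omega
  · exact h0

/-- **`hW`**: `zWM e` lies over `T = 0`. -/
theorem restrict_zWM (e : SSpM B hB hqM) :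
    (zWM B hB hqM h2 h3 e).restrict (RatFunc kB) = placeAt kB 0 :=
  restrict_ptZBar q (zePackM B hB hqM h2 h3 e).hβ (zePackM B hB hqM h2 h3 e).hρ

/-- **`hT`**: `zTM e` lies over `T = ∞`. -/
theorem restrict_zTM (e : SSpM B hB hqM) :
    (zTM B hB hqM h2 h3 e).restrict (RatFunc kB) = placeInfty kB :=
  restrict_ptIBar q (zePackM B hB hqM h2 h3 e).hβ (zePackM B hB hqM h2 h3 e).hρ

/-- **`hK`**: the points `zKM e s` lie over `T = ∞` (every prime `q`). -/
theorem restrict_zKM (e : SSpM B hB hqM) (s : KPq q) :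
    (zKM B hB hqM h2 h3 e s).restrict (RatFunc kB) = placeInfty kB := by
  have h0 := ord_b_ptKFam q (zePackM B hB hqM h2 h3 e).hβ (zePackM B hB hqM h2 h3 e).hρ s
  have h1 : (1 : ℤ) ≤ ((midDeg q : ℕ) : ℤ) := by exact_mod_cast one_le_midDeg (q := q)
  refine restrict_eq_placeInfty_of_ord_neg (zePackM B hB hqM h2 h3 e).hβ
    (Q := zKM B hB hqM h2 h3 e s) ?_
  rw [zKM_eq, h0]
  omega

/-- **exhaustion**: a point of `z e` different from the special points is generic. -/
theorem ord_b_eq_zero_of_ne (e : SSpM B hB hqM) {Q : Place kB (FZM B hB hqM h2 h3 e)}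
    (hW : Q ≠ zWM B hB hqM h2 h3 e) (hT : Q ≠ zTM B hB hqM h2 h3 e)
    (hK : ∀ s, Q ≠ zKM B hB hqM h2 h3 e s) :
    Q.ord (AdjoinRoot.of (vertBar q (zePackM B hB hqM h2 h3 e).β (zePackM B hB hqM h2 h3 e).ρ)
      (RatFunc.C (zePackM B hB hqM h2 h3 e).β * RatFunc.X)) = 0 :=
  (ord_eq_zero_of_ne_fam q (zePackM B hB hqM h2 h3 e).hβ (zePackM B hB hqM h2 h3 e).hρ hW hT hK).1

/-! ### the numerical binders -/

/-- **`hd`** (`d := midDeg q`, `KP := KPq q`). -/
theorem zePts_hd : midDeg q * Fintype.card (KPq q) + 1 = q := hd_KPq hq.out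

/-- **`hze`** (`gz := midDeg q`). -/
theorem zePts_hze (e : SSpM B hB hqM) :
    (genusFF kB (FZM B hB hqM h2 h3 e) : ℤ) = ((midDeg q : ℕ) : ℤ) :=
  genusFF_vertBar_int q (zePackM B hB hqM h2 h3 e).hβ (zePackM B hB hqM h2 h3 e).hρ

/-- **`hz`** (`gz := midDeg q`). -/
theorem zePts_hz : (q : ℤ) + 1 ≤ 2 * ((midDeg q : ℕ) : ℤ) + (Fintype.card (KPq q) : ℤ) :=
  hz_KPq hq.out

/-- **`hZ`**. -/
theorem zePts_hZ (e : SSpM B hB hqM) : RiemannPkg kB (FZM B hB hqM h2 h3 e) :=
  riemannPkg_FZM B hB hqM h2 h3 e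

/-! ### the raw smooth tubes of `z e` and their charts -/

/-- **The raw smooth tube of the point `Q` of `z e`**: the sheet `θ_e ≡ Ũ(Q)` over the residue
disc of class `T(Q)` of the critical circle of the tube of `e` (empty at the special points). -/
def TZM (e : SSpM B hB hqM) (Q : Place kB (FZM B hB hqM h2 h3 e)) :
    Set (Place Kb (Fb (M * q * q))) :=
  letI := algebraAlong (alpha2 M q)
  haveI := isScalarTower_along (alpha2 M q)
  haveI : Module.Finite (Fb (M * q)) (Fb (M * q * q)) :=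
    Fermat.Agent.Hecke.finiteAlong_heckeAlphaBar (M * q) q
  ptTube (core (DtM B hB hqM) e) (gaugeA q B hB hqM e)
    (thetaVertTw M q (zePackM B hB hqM h2 h3 e).g (gaugeA q B hB hqM e)) Q

theorem TZM_eq (e : SSpM B hB hqM) (Q : Place kB (FZM B hB hqM h2 h3 e)) :
    TZM B hB hqM h2 h3 e Q =
      (letI := algebraAlong (alpha2 M q)
      haveI := isScalarTower_along (alpha2 M q)
      haveI : Module.Finite (Fb (M * q)) (Fb (M * q * q)) :=
        Fermat.Agent.Hecke.finiteAlong_heckeAlphaBar (M * q) q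
      ptTube (core (DtM B hB hqM) e) (gaugeA q B hB hqM e)
        (thetaVertTw M q (zePackM B hB hqM h2 h3 e).g (gaugeA q B hB hqM e)) Q) := rfl

set_option maxHeartbeats 4000000 in
/-- the vertical component in the frame of `annulusLevels_modular_final` -/
theorem vertCompM_final (e : SSpM B hB hqM) :
    letI := algebraAlong (alpha2 M q)
    haveI := isScalarTower_along (alpha2 M q)
    VertComp (annulusLevels_modular_final B hB hqM (nonempty_crossing (DtM B hB hqM)) e).core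
      (gaugeSDD q)
      (gaugeSDD_bounds B hB hqM (nonempty_crossing (DtM B hB hqM)) e h2 h3).1
      (gaugeSDD_bounds B hB hqM (nonempty_crossing (DtM B hB hqM)) e h2 h3).2
      (zePackM B hB hqM h2 h3 e).Z (zePackM B hB hqM h2 h3 e).resZ
      (thetaVertTw M q (zePackM B hB hqM h2 h3 e).g (gaugeSDD q)) := by
  letI := algebraAlong (alpha2 M q)
  haveI := isScalarTower_along (alpha2 M q)
  exact ⟨(zePackM B hB hqM h2 h3 e).comap_eq, (zePackM B hB hqM h2 h3 e).ker,
    (zePackM B hB hqM h2 h3 e).compat, (zePackM B hB hqM h2 h3 e).θ_mem,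
    (zePackM B hB hqM h2 h3 e).res_θ⟩

set_option maxHeartbeats 4000000 in
/-- **The regular chart of `z e` on the raw smooth tube of a generic point**. -/
def regZeM (e : SSpM B hB hqM) (Q : Place kB (FZM B hB hqM h2 h3 e))
    (hW : Q ≠ zWM B hB hqM h2 h3 e) (hT : Q ≠ zTM B hB hqM h2 h3 e)
    (hK : ∀ s, Q ≠ zKM B hB hqM h2 h3 e s) :
    RegChart B (CZM B hB hqM h2 h3 e).O (CZM B hB hqM h2 h3 e).res Q (TZM B hB hqM h2 h3 e Q) :=
  regChartOfOrd_all B hB hqM (nonempty_crossing (DtM B hB hqM)) e h2 h3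
    (zePackM B hB hqM h2 h3 e).P (gaugeSDD q)
    (gaugeSDD_bounds B hB hqM (nonempty_crossing (DtM B hB hqM)) e h2 h3).1
    (gaugeSDD_bounds B hB hqM (nonempty_crossing (DtM B hB hqM)) e h2 h3).2
    (by rw [← map_pow, gaugeSDD_pow hq.out.one_lt])
    (zePackM B hB hqM h2 h3 e).hβ (zePackM B hB hqM h2 h3 e).hρ
    (vertCompM_final B hB hqM h2 h3 e)
    (ord_b_eq_zero_of_ne B hB hqM h2 h3 e hW hT hK)

/-- **`smZe`**: the smooth chart of `z e` on the raw smooth tube of a generic point. -/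
def smZeM (e : SSpM B hB hqM) (Q : Place kB (FZM B hB hqM h2 h3 e))
    (hW : Q ≠ zWM B hB hqM h2 h3 e) (hT : Q ≠ zTM B hB hqM h2 h3 e)
    (hK : ∀ s, Q ≠ zKM B hB hqM h2 h3 e s) :
    SmoothChart B (CZM B hB hqM h2 h3 e).O (CZM B hB hqM h2 h3 e).res Q
      (TZM B hB hqM h2 h3 e Q) :=
  (regZeM B hB hqM h2 h3 e Q hW hT hK).chart

theorem smZeM_eq (e : SSpM B hB hqM) (Q : Place kB (FZM B hB hqM h2 h3 e))
    (hW : Q ≠ zWM B hB hqM h2 h3 e) (hT : Q ≠ zTM B hB hqM h2 h3 e)
    (hK : ∀ s, Q ≠ zKM B hB hqM h2 h3 e s) :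
    smZeM B hB hqM h2 h3 e Q hW hT hK = (regZeM B hB hqM h2 h3 e Q hW hT hK).chart := rfl

end Fermat.Agent.BR3.SDD.Modular
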