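import Fermat.Agent.BR3.SDD.AnnSheetsWildMod
import Fermat.Agent.BR3.SDD.TubesBFinal

/-!
# Program C (S36), node (T-A-nW): the `a`-side tube inclusion of the WILD node `nW e`

The raw tube of the node `nW e = z e ∩ cZero` of `S''` is a split sheet along `b = β₂` over the INNER
node of `S'ref_b` at `Fr e` (sheet condition `W_b = U_g / β₂ (β g - (α g')^q) ≡ 1`).  Its inclusion
along `a = α₂` into the INNER node of `S'ref_a` at `e` (the hypothesis `hsubW` of
`PartitionRegions.fibreOver_inner_raw`, the field `tube_a_nW` of `SepNSDD.SepInput`) is not formal: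
it follows from the wild relation `X · Y^q = (q r₀) • ε` (`AnnSheetsWildMod.exists_wild_rel_nW`):

  `|Y(P)| = |q| / |u_{Fr e}(P ∘ β₂)| ∈ (|a₀|, 1)`   (`Y = β₂ u_{g'}` of `v`-type at `Fr e`),
  `|X(P)| = |q| / |Y(P)|^q ∈ (|q|, |a₀|)`,          `|X(P)| = |u_e(P ∘ α₂)|`   (`X = α₂ v_g` of `u`-type at `e`).

* `inner_of_rel` : the inequality in the value group;
* `restrictAlong_alpha2_mem_inner` : `P ∘ β₂ ∈ innerTube (core (Fr e)) b₀`, `W_b(P) ≡ 1`
  ⇒ `P ∘ α₂ ∈ innerTube (core e) a₀`   (`|a₀|^(q+1) = |q|`, `|b₀| = |a₀|^q`);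
* `tube_a_nW_of_unit` : in the literal shape of `tube_a_nW` / `hsubW` (`Dt = DtM`, `gaugeA`, `gaugeB`).
-/

set_option autoImplicit false
set_option linter.unusedSectionVars false
set_option linter.style.haveILetI false
set_option synthInstance.maxHeartbeats 400000
set_option maxHeartbeats 1600000

noncomputable section

/- S36 build-time patch: file-local shortcut instances. They only shorten instance search;
each is the instance that the search finds anyway (reducible, same terms after unfolding). -/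
local instance (priority := 100000) Fermat.Agent.BR3.FastInst.instAlgFullC_SDD_TubesAWild
    {k : Type*} [Field k] (N : ℕ) :
    Algebra k ↥(ModularCurve.modularFunctionFieldFullC k N) := inferInstance
local instance (priority := 100000) Fermat.Agent.BR3.FastInst.instFieldFullC_SDD_TubesAWild
    {k : Type*} [Field k] (N : ℕ) :
    Field ↥(ModularCurve.modularFunctionFieldFullC k N) := inferInstance
local instance (priority := 100000) Fermat.Agent.BR3.FastInst.instAlgLaurent_SDD_TubesAWild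
    {k : Type*} [Field k] : Algebra k (LaurentSeries k) := inferInstance


namespace Fermat.Agent.BR3.SDD.TubesAWild

open AlgebraicCurve ModularCurve IsLocalRing Polynomial
open Fermat.Agent.Red Fermat.Agent.Val Fermat.Agent.X0 Fermat.Agent.BR.SS Fermat.Agent.BR.Refine
open Fermat.Agent.BR.Centre Fermat.Agent.BR.Circle Fermat.Agent.BR.Circle.Bound
open Fermat.Agent.BR.S0 Fermat.Agent.BR.S0.RedModular Fermat.Agent.BR.S0.PointDict
open Fermat.Agent.BR.Inst.AnnulusInstFinal
open Fermat.Agent.BR.TwoVal Fermat.Agent.BR.Final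
open Fermat.Agent.BR3.FibreProd Fermat.Agent.BR3.HeckePoly Fermat.Agent.Hecke
open Fermat.Agent.BR3.SSParam Fermat.Agent.BR3.VertAll Fermat.Agent.BR3.VertAllParam
open Fermat.Agent.BR3.VertBetaFr Fermat.Agent.BR3.SDD.TubesB Fermat.Agent.BR3.SepN
open Fermat.Agent.BR2.SetupOfData Fermat.Agent.BR3.CircleN Fermat.Agent.BR3.SRef
open Fermat.Agent.BR3.SRef.Modular Fermat.Agent.BR3.SDD.Modular Fermat.Agent.BR3.ThickSDDPlug
open Fermat.Agent.BR3.SDD.AnnSheetsWildMod Fermat.Agent.BR3.SDD.AnnSheetsWildParam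

/-! ### The inequality in the value group -/

section Ineq

variable {Γ₀ : Type*} [LinearOrderedCommGroupWithZero Γ₀]

/-- `y u = Q = v^(q+1)`, `u < v^q`, `x y^q = Q` ⇒ `x < v`. -/
theorem inner_of_rel {v Q x y u : Γ₀} {q : ℕ} (hq : q ≠ 0) (hv : v ≠ 0) (hQ : v ^ (q + 1) = Q)
    (hyu : y * u = Q) (hu : u < v ^ q) (hxy : x * y ^ q = Q) : x < v := by
  have hvpos : 0 < v := zero_lt_iff.mpr hv
  have hvy : v < y := by
    by_contra h
    push Not at h
    have h1 : y * u < v * v ^ q :=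
      calc y * u ≤ v * u := mul_le_mul_left h u
        _ < v * v ^ q := mul_lt_mul_of_pos_left hu hvpos
    rw [hyu, ← pow_succ', hQ] at h1
    exact lt_irrefl _ h1
  have hvyq : v ^ q < y ^ q := pow_lt_pow_left₀ hvy zero_le hq
  by_contra h
  push Not at h
  have h1 : v * v ^ q < x * y ^ q :=
    calc v * v ^ q < v * y ^ q := mul_lt_mul_of_pos_left hvyq hvpos
      _ ≤ x * y ^ q := mul_le_mul_left h _
  rw [← pow_succ', hQ, hxy] at h1
  exact lt_irrefl _ h1

end Ineq

variable {M q : ℕ} [NeZero M] [hq : Fact q.Prime]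
variable (B : ValuationSubring Kb) (hB : B.LiesOverPrime q) (hqM : ¬ q ∣ M)
variable [IsAlgClosed (ResidueField B)] [CharP (ResidueField B) q]
  (e : Crossing (chartDataModular B hB hqM)) {g₀ g' g g'' : Fb M}

local notation "kB" => IsLocalRing.ResidueField B

set_option maxHeartbeats 4000000 in
/-- **(T-A-nW)**: a place `P` whose restriction along `β₂` lies in the inner sub-annulus of `Fr e`
at the gauge `b₀` and at which `W_b = U_g / β₂ (β g - (α g')^q) ≡ 1` restricts along `α₂` into the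
inner sub-annulus of `e` at the gauge `a₀`. -/
theorem restrictAlong_alpha2_mem_inner (h2 : nuTwo M = 0) (h3 : nuThree M = 0)
    (H : IsSSParam B hB hqM e g g' g'') (H' : IsSSParam B hB hqM (Fr B hB hqM e) g' g₀ g)
    (hα : (alpha2 M q).toRingHom.IsIntegral) (hβ : (beta2 M q).toRingHom.IsIntegral)
    {a₀ b₀ : Kb} (ha₀ : B.valuation a₀ ^ (q + 1) = B.valuation (q : Kb))
    (hb₀ : B.valuation b₀ = B.valuation a₀ ^ q)
    {P : Place Kb (Fb (M * q * q))}
    (hPb : P.restrictAlong (beta2 M q) hβ ∈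
      innerTube (core (DtM B hB hqM) (Fr B hB hqM e)) b₀)
    {d : Kb} (hWv : IsValueAt P (Ug M q g /
      beta2 M q (heckeBetaBar Kb M q g - heckeAlphaBar Kb M q g' ^ q)) d)
    (hd : B.valuation (d - 1) < 1) :
    P.restrictAlong (alpha2 M q) hα ∈ innerTube (core (DtM B hB hqM) e) a₀ := by
  have hne := nonempty_crossing (DtM B hB hqM)
  have hPb' : P.restrictAlong (beta2 M q) hβ ∈
      tube (setup (DtM B hB hqM)) (Fr B hB hqM e) := hPb.1
  have hPa' : P.restrictAlong (alpha2 M q) hα ∈ tube (setup (DtM B hB hqM)) e :=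
    (Fermat.Agent.BR3.SDD.TubesBCentre.restrictAlong_mem_tube_iff (DtM B hB hqM) e P hα hβ).mpr
      hPb'
  refine ⟨hPa', ?_⟩
  -- the wild relation on the singleton `{P}`
  have hTa : ∀ P' ∈ ({P} : Set (Place Kb (Fb (M * q * q)))),
      P'.restrictAlong (alpha2 M q) hα ∈ tube (setupFinal B hB hqM hne) e := by
    intro P' hP'
    rw [Set.mem_singleton_iff] at hP'
    rw [hP']
    exact hPa'
  have hTb : ∀ P' ∈ ({P} : Set (Place Kb (Fb (M * q * q)))),
      P'.restrictAlong (beta2 M q) hβ ∈ tube (setupFinal B hB hqM hne) (Fr B hB hqM e) := by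
    intro P' hP'
    rw [Set.mem_singleton_iff] at hP'
    rw [hP']
    exact hPb'
  have hW : TubeUnit B ({P} : Set (Place Kb (Fb (M * q * q)))) (Ug M q g /
      beta2 M q (heckeBetaBar Kb M q g - heckeAlphaBar Kb M q g' ^ q)) := by
    intro P' hP'
    rw [Set.mem_singleton_iff] at hP'
    rw [hP']
    exact ⟨d, hWv, hd⟩
  obtain ⟨r₀, hr₀, ε, hε, -, hV⟩ := exists_wild_rel_nW B hB hqM hne e h2 h3 H H' hα hβ hTa hTb hW
  obtain ⟨dε, hdε, hdε1⟩ := hε P (Set.mem_singleton P)
  -- the values of `X` and `Y` at `P`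
  have hgO := mem_OM_of_mem_CMod_base B hB hqM H.hg
  have hg'O := mem_OM_of_mem_CMod_base B hB hqM H.hg'
  have hg₀O := mem_OM_of_mem_CMod_base B hB hqM H'.hg'
  have hxR := mem_level_vg B hB hqM hne e H
  have hyR := mem_level_ug B hB hqM hne (Fr B hB hqM e) H'
  have hXv : IsValueAt P (alpha2 M q (heckeAlphaBar Kb M q g - heckeBetaBar Kb M q g' ^ q))
      (evalAt (P.restrictAlong (alpha2 M q) hα)
        (heckeAlphaBar Kb M q g - heckeBetaBar Kb M q g' ^ q)) :=
    (isValueAt_restrictAlong_iff (alpha2 M q) hα P _ _).mp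
      (((annulusLevels_modular_final B hB hqM hne e).level ∅).isValueAt_evalAt hPa' hxR)
  have hYv : IsValueAt P (beta2 M q (heckeBetaBar Kb M q g - heckeAlphaBar Kb M q g' ^ q))
      (evalAt (P.restrictAlong (beta2 M q) hβ)
        (heckeBetaBar Kb M q g - heckeAlphaBar Kb M q g' ^ q)) :=
    (isValueAt_restrictAlong_iff (beta2 M q) hβ P _ _).mp
      (((annulusLevels_modular_final B hB hqM hne (Fr B hB hqM e)).level ∅).isValueAt_evalAt
        hPb' hyR)
  -- `|X(P)| |Y(P)|^q = |q|`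
  have hrelv := ((hXv.mul (hYv.pow q)).unique (hV ▸ hdε.smul ((q : Kb) * r₀)))
  have hrel : B.valuation (evalAt (P.restrictAlong (alpha2 M q) hα)
        (heckeAlphaBar Kb M q g - heckeBetaBar Kb M q g' ^ q)) *
      B.valuation (evalAt (P.restrictAlong (beta2 M q) hβ)
        (heckeBetaBar Kb M q g - heckeAlphaBar Kb M q g' ^ q)) ^ q = B.valuation (q : Kb) := by
    have h := congrArg B.valuation hrelv
    rw [map_mul, map_pow, map_mul, map_mul, hr₀, mul_one,
      valuation_eq_one_of_sub_one_lt hdε1, mul_one] at h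
    exact h
  -- `|X(P)| = |u_e(P ∘ α₂)|`
  have hXu := valuation_evalAt_eq_u B hB hqM hne e h2 h3 hxR
    (vg_mem_nonunits_O2 B hB hqM hgO hg'O H.untwist) (vg_mem_O1 B hB hqM hgO hg'O)
    (H.hxord _) hPa'
  -- `|Y(P)| |u_{Fr e}(P ∘ β₂)| = |q|`
  have hYu := valuation_evalAt_mul_eq_v B hB hqM hne (Fr B hB hqM e) h2 h3 hyR
    (ug_mem_nonunits_O1 B hB hqM hg'O hgO H'.twist) (ug_mem_O2 B hB hqM hg'O hgO)
    (H'.hyord _) hPb'
  have hq0 : (q : Kb) ≠ 0 := Nat.cast_ne_zero.mpr hq.out.ne_zero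
  have hQ0 : B.valuation (q : Kb) ≠ 0 := (Valuation.ne_zero_iff _).mpr hq0
  have hv0 : B.valuation a₀ ≠ 0 := by
    intro h0
    rw [h0, zero_pow (Nat.succ_ne_zero q)] at ha₀
    exact hQ0 ha₀.symm
  have hu : B.valuation (evalAt (P.restrictAlong (beta2 M q) hβ)
      (annulusLevels_modular_final B hB hqM hne (Fr B hB hqM e)).u) < B.valuation a₀ ^ q := by
    rw [← hb₀]
    exact hPb.2
  show B.valuation (evalAt (P.restrictAlong (alpha2 M q) hα)
    (annulusLevels_modular_final B hB hqM hne e).u) < B.valuation a₀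
  rw [← hXu]
  exact inner_of_rel hq.out.ne_zero hv0 ha₀ hYu hu hrel

set_option maxHeartbeats 4000000 in
/-- **The field `tube_a_nW` of `SepNSDD.SepInput` / the hypothesis `hsubW` of
`PartitionRegions.fibreOver_inner_raw`** on the split sheet `W_b ≡ 1` along `b` over the inner node
of `S'ref_b` at `Fr e`. -/
theorem tube_a_nW_of_unit (h2 : nuTwo M = 0) (h3 : nuThree M = 0)
    (H : IsSSParam B hB hqM e g g' g'') (H' : IsSSParam B hB hqM (Fr B hB hqM e) g' g₀ g)
    (hα : (alpha2 M q).toRingHom.IsIntegral) (hβ : (beta2 M q).toRingHom.IsIntegral)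
    (hadma : ∀ e, (inputs (DtM B hB hqM)).adm e (gaugeA q B hB hqM e))
    (hadmb : ∀ e, (inputs (DtM B hB hqM)).adm e (gaugeB q B hB hqM e))
    {P : Place Kb (Fb (M * q * q))}
    (hPb : P.restrictAlong (beta2 M q) hβ ∈
      tube (srefM (DtM B hB hqM) (gaugeB q B hB hqM) hadmb)
        (inner (inputs (DtM B hB hqM)) (gaugeB q B hB hqM) hadmb (Fr B hB hqM e)))
    {d : Kb} (hWv : IsValueAt P (Ug M q g /
      beta2 M q (heckeBetaBar Kb M q g - heckeAlphaBar Kb M q g' ^ q)) d)
    (hd : B.valuation (d - 1) < 1) :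
    P.restrictAlong (alpha2 M q) hα ∈
      tube (srefM (DtM B hB hqM) (gaugeA q B hB hqM) hadma)
        (inner (inputs (DtM B hB hqM)) (gaugeA q B hB hqM) hadma e) := by
  rw [tube_innerM] at hPb ⊢
  refine restrictAlong_alpha2_mem_inner B hB hqM e h2 h3 H H' hα hβ
    (valuation_gaugeSDD_pow_succ B) ?_ hPb hWv hd
  show B.valuation (gaugeSDD q ^ q) = B.valuation (gaugeSDD q) ^ q
  rw [map_pow]

end Fermat.Agent.BR3.SDD.TubesAWild

end
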