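import Mathlib
import Fermat.Agent.BR3.SDD.ModularZePts
import Fermat.Agent.BR3.SplitNode.ModW
import Fermat.Agent.BR3.SDD.TubesAWild

/-!
# Program C (S36), node (N3-FAM): the `nW e` column of `ModularRaw.modelAt_of_raw`

For `FZ := FZM B hB hqM h2 h3`, `CZ := CZM B hB hqM h2 h3`, `zW := zWM B hB hqM h2 h3`
(`BR3/SDD/ModularZe.lean`, `ModularZePts.lean`), the family of the wild nodes `nW e`
(`z e` at `zWM e` —— `cZero` at `pZeroM e`) of the stable model of `X₀(M q²)`:

* `WsplitM e := U_{g_e} / β₂ (β g_e - (α g'_e)^q)` : the function of the split sheet of `nW e`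
  along `β₂` (`(g₀, g', g, g'')` the chain quadruple of `zePackM … e`);
* `tubeWM e := coverTube B (tube S'ref_b (inner (Fr e))) (WsplitM e) 1` (along `β₂`) : the raw tube;
* `HWM` (NAMED hypothesis, owner (N3) `H_W`) : the split-sheet hypotheses
  `SheetHyp (levelsInB … (Fr e)) (WsplitM e) 1` for every `e`;
* `nodeWM HW e` : the bundle `SplitNode.NodeOut` of `nW e` (`SplitNode.nodeOutW` at `zePackM`), and
  its fields `LWM`, `W₁M`, `W₂M`, `W_v_srcM`, `W_u_tgtM`, `W_unif₁M`, `W_unif₂M`, `chWM` in the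
  LITERAL binder shapes of `ModularRaw.modelAt_of_raw`; `hWM` ((G3) `hW`), `LWM_u`;
* `tube_b_nWM`, `tube_a_nWM` : the raw tube lies over the inner node of `S'ref_b` at `Fr e` along
  `β₂` and over the inner node of `S'ref_a` at `e` along `α₂` (helper7's `tube_a_nW_of_unit`);
* `annSheet_nWM` : the wild annulus sheet of degree `q` of `nW e` along `α₂` (helper7's
  `annSheet_nW`), `XW` of `PartitionModNodes.hInner_modular`.
-/

set_option autoImplicit false
set_option linter.unusedSectionVars false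
set_option linter.style.haveILetI false
set_option synthInstance.maxHeartbeats 400000

noncomputable section

/- S36 build-time patch: file-local shortcut instances. They only shorten instance search;
each is the instance that the search finds anyway (reducible, same terms after unfolding). -/
local instance (priority := 100000) Fermat.Agent.BR3.FastInst.instAlgFullC_SDD_ModularNodeW
    {k : Type*} [Field k] (N : ℕ) :
    Algebra k ↥(ModularCurve.modularFunctionFieldFullC k N) := inferInstance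
local instance (priority := 100000) Fermat.Agent.BR3.FastInst.instFieldFullC_SDD_ModularNodeW
    {k : Type*} [Field k] (N : ℕ) :
    Field ↥(ModularCurve.modularFunctionFieldFullC k N) := inferInstance
local instance (priority := 100000) Fermat.Agent.BR3.FastInst.instAlgLaurent_SDD_ModularNodeW
    {k : Type*} [Field k] : Algebra k (LaurentSeries k) := inferInstance


namespace Fermat.Agent.BR3.SDD.Modular

open Polynomial ModularCurve AlgebraicCurve IsLocalRing
open Fermat.Agent.X0 Fermat.Agent.Val Fermat.Agent.Red Fermat.Agent.Hecke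
open Fermat.Agent.BR.SS Fermat.Agent.BR.Refine Fermat.Agent.BR.Circle Fermat.Agent.BR.S0
open Fermat.Agent.BR.S0.RedModular Fermat.Agent.BR.S0.PointDict Fermat.Agent.BR.Inst.SpecIso
open Fermat.Agent.BR.Inst.AnnulusInstFinal Fermat.Agent.BR.Final
open Fermat.Agent.BR3.FibreProd Fermat.Agent.BR3.VertResidue Fermat.Agent.BR3.VertResField
open Fermat.Agent.BR3.SSParam Fermat.Agent.BR3.ThickSDDPlug
open Fermat.Agent.BR2.SetupOfData Fermat.Agent.BR3.CircleN Fermat.Agent.BR3.SRef
open Fermat.Agent.BR3.SRef.Modular Fermat.Agent.BR3.VertSheet Fermat.Agent.BR3.CoverSmooth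
open Fermat.Agent.BR3.VertPtsDef Fermat.Agent.BR3.SplitNode Fermat.Agent.BR3.SplitLevels
open Fermat.Agent.BR3.SplitCompsModB Fermat.Agent.BR3.SDD Fermat.Agent.BR3.VertBetaFr
open Fermat.Agent.BR3.HeckePoly Fermat.Agent.BR3.SplitBranch Fermat.Agent.BR3.SDD.Partition

variable {M q : ℕ} [NeZero M] [hq : Fact q.Prime]
variable (B : ValuationSubring Kb)

local notation "kB" => ResidueField B

/-- (shortcut instance) -/
local instance (priority := 100000) instAlgebraFtMShortcutNodeW :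
    Algebra (IsLocalRing.ResidueField B)
      (modularFunctionFieldFullC (IsLocalRing.ResidueField B) M) :=
  inferInstance

variable (hB : B.LiesOverPrime q) (hqM : ¬ q ∣ M)
  [IsAlgClosed (ResidueField B)] [CharP (ResidueField B) q]
  (h2 : nuTwo M = 0) (h3 : nuThree M = 0)

/-! ### the raw tube of `nW e` -/

/-- The function of the split sheet of `nW e` along `β₂`: `U_{g_e} / β₂ (β g_e - (α g'_e)^q)`. -/
def WsplitM (e : SSpM B hB hqM) : Fb (M * q * q) :=
  splitWB M q (zePackM B hB hqM h2 h3 e).g (zePackM B hB hqM h2 h3 e).g'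

theorem WsplitM_eq (e : SSpM B hB hqM) : WsplitM B hB hqM h2 h3 e =
    Ug M q (zePackM B hB hqM h2 h3 e).g /
      beta2 M q (heckeBetaBar Kb M q (zePackM B hB hqM h2 h3 e).g -
        heckeAlphaBar Kb M q (zePackM B hB hqM h2 h3 e).g' ^ q) := rfl

/-- **The raw tube of the node `nW e`**: the sheet `W_b ≡ 1` over the inner node of `S'ref_b` at
`Fr e`, along `β₂`. -/
def tubeWM (e : SSpM B hB hqM) : Set (Place Kb (Fb (M * q * q))) :=
  letI := algebraAlong (beta2 M q)
  haveI := isScalarTower_along (beta2 M q)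
  haveI : Module.Finite (Fb (M * q)) (Fb (M * q * q)) :=
    Fermat.Agent.Hecke.finiteAlong_heckeBetaBar (M * q) q
  coverTube B
    (tube (srefM (DtM B hB hqM) (gaugeB q B hB hqM) (admB B hB hqM h2 h3))
      (inner (inputs (DtM B hB hqM)) (gaugeB q B hB hqM) (admB B hB hqM h2 h3)
        (Fr B hB hqM e)))
    (WsplitM B hB hqM h2 h3 e) (1 : B)

theorem tubeWM_eq (e : SSpM B hB hqM) : tubeWM B hB hqM h2 h3 e =
    (letI := algebraAlong (beta2 M q)
    haveI := isScalarTower_along (beta2 M q)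
    haveI : Module.Finite (Fb (M * q)) (Fb (M * q * q)) :=
      Fermat.Agent.Hecke.finiteAlong_heckeBetaBar (M * q) q
    coverTube B
      (tube (srefM (DtM B hB hqM) (gaugeB q B hB hqM) (admB B hB hqM h2 h3))
        (inner (inputs (DtM B hB hqM)) (gaugeB q B hB hqM) (admB B hB hqM h2 h3)
          (Fr B hB hqM e)))
      (splitWB M q (zePackM B hB hqM h2 h3 e).g (zePackM B hB hqM h2 h3 e).g') (1 : B)) := rfl

/-- the places of the raw tube of `nW e`: over the inner node of `S'ref_b` at `Fr e` along `β₂`,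
with a value of `W_b` congruent to `1` -/
theorem mem_tubeWM_iff (hβ : (beta2 M q).toRingHom.IsIntegral) (e : SSpM B hB hqM)
    (P : Place Kb (Fb (M * q * q))) :
    P ∈ tubeWM B hB hqM h2 h3 e ↔
      P.restrictAlong (beta2 M q) hβ ∈
          tube (srefM (DtM B hB hqM) (gaugeB q B hB hqM) (admB B hB hqM h2 h3))
            (inner (inputs (DtM B hB hqM)) (gaugeB q B hB hqM) (admB B hB hqM h2 h3)
              (Fr B hB hqM e)) ∧
        ∃ d : Kb, IsValueAt P (WsplitM B hB hqM h2 h3 e) d ∧ B.valuation (d - 1) < 1 := by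
  show _ ∧ (∃ d : Kb, IsValueAt P (WsplitM B hB hqM h2 h3 e) d ∧
    B.valuation (d - ((1 : B) : Kb)) < 1) ↔ _
  rw [OneMemClass.coe_one]
  exact Iff.rfl

/-! ### the bundle of the node -/

/-- **The split-sheet hypotheses of the nodes `nW e`** (the NAMED input of the owners of (N3)):
for every `e`, `W_b = WsplitM e` generates the sheet `W_b ≡ 1` over the levels of the inner node
of `S'ref_b` at `Fr e`, along `β₂`. -/
def HWM : Prop :=
  ∀ e : SSpM B hB hqM,
    letI := algebraAlong (beta2 M q)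
    haveI := isScalarTower_along (beta2 M q)
    haveI : Module.Finite (Fb (M * q)) (Fb (M * q * q)) :=
      Fermat.Agent.Hecke.finiteAlong_heckeBetaBar (M * q) q
    SheetHyp (levelsInB B hB hqM h2 h3 (Fr B hB hqM e))
      (splitWB M q (zePackM B hB hqM h2 h3 e).g (zePackM B hB hqM h2 h3 e).g') (1 : B)

set_option maxHeartbeats 4000000 in
/-- **The data of the node `nW e` of `S''`** (`z e` at `zWM e` —— `cZero` at `pZeroM e`), on the raw
tube `tubeWM e`: `SplitNode.nodeOutW` at the data `zePackM … e` of the vertical component. -/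
def nodeWM (HW : HWM B hB hqM h2 h3) (e : SSpM B hB hqM) :
    NodeOut B (residue B) (CZM B hB hqM h2 h3 e).O (CZM B hB hqM h2 h3 e).res
      (zWM B hB hqM h2 h3 e)
      (Fermat.Agent.BR3.CZero.cZero B hB hqM) (Fermat.Agent.BR3.CZeroRes.resZ B hB hqM)
      (pZeroM B hB hqM e) (tubeWM B hB hqM h2 h3 e)
      (idxInB B hB hqM h2 h3 (Fr B hB hqM e)) :=
  nodeOutW B hB hqM h2 h3 (Fr B hB hqM e) (zePackM B hB hqM h2 h3 e).P' (HW e)
    (vertCompM B hB hqM h2 h3 e) (zePackM B hB hqM h2 h3 e).hβ (zePackM B hB hqM h2 h3 e).hρ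
    (zePackM B hB hqM h2 h3 e).hred (zePackM B hB hqM h2 h3 e).comap_beta
    (zePackM B hB hqM h2 h3 e).φ (zePackM B hB hqM h2 h3 e).φ_compat
    (zePackM B hB hqM h2 h3 e).φ_C (zePackM B hB hqM h2 h3 e).hβ' (zePackM B hB hqM h2 h3 e).hω
    (zePackM B hB hqM h2 h3 e).φ_rel

/-! ### the fields, in the literal binder shapes of `ModularRaw.modelAt_of_raw` -/

section Fields

variable {ζ : Kbˣ} (hζ : IsPrimitiveRoot ζ q) (HW : HWM B hB hqM h2 h3) (e : SSpM B hB hqM)

/-- **`LW e`** -/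
def LWM : AnnulusLevels B (tubeWM B hB hqM h2 h3 e) (idxInB B hB hqM h2 h3 (Fr B hB hqM e)) :=
  (nodeWM B hB hqM h2 h3 HW e).L

set_option maxHeartbeats 4000000 in
/-- **`W₁ e`** -/
theorem W₁M : BranchComp (residue B) (CAll B hB hqM hζ (CZM B hB hqM h2 h3) (ze e)).O
    (CAll B hB hqM hζ (CZM B hB hqM h2 h3) (ze e)).res (zWM B hB hqM h2 h3 e)
    (LWM B hB hqM h2 h3 HW e) :=
  (nodeWM B hB hqM h2 h3 HW e).X₁

set_option maxHeartbeats 4000000 in
/-- **`W₂ e`** -/
theorem W₂M : BranchComp (residue B) (CAll B hB hqM hζ (CZM B hB hqM h2 h3) SDD.cZero).O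
    (CAll B hB hqM hζ (CZM B hB hqM h2 h3) SDD.cZero).res (pZeroM B hB hqM e)
    (LWM B hB hqM h2 h3 HW e) :=
  (nodeWM B hB hqM h2 h3 HW e).X₂

set_option maxHeartbeats 4000000 in
/-- **`W_v_src e`** -/
theorem W_v_srcM :
    (LWM B hB hqM h2 h3 HW e).v ∈ (CAll B hB hqM hζ (CZM B hB hqM h2 h3) (ze e)).O.nonunits :=
  (nodeWM B hB hqM h2 h3 HW e).v_src

set_option maxHeartbeats 4000000 in
/-- **`W_u_tgt e`** -/
theorem W_u_tgtM :
    (LWM B hB hqM h2 h3 HW e).u ∈
      (CAll B hB hqM hζ (CZM B hB hqM h2 h3) SDD.cZero).O.nonunits :=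
  (nodeWM B hB hqM h2 h3 HW e).u_tgt

set_option maxHeartbeats 4000000 in
/-- **`W_unif₁ e`** -/
theorem W_unif₁M : ∃ i, ∃ t : ((LWM B hB hqM h2 h3 HW e).level i).R,
    (zWM B hB hqM h2 h3 e).ord ((CAll B hB hqM hζ (CZM B hB hqM h2 h3) (ze e)).res
      ⟨t, (W₁M B hB hqM h2 h3 hζ HW e).le i t t.2⟩) = 1 :=
  (nodeWM B hB hqM h2 h3 HW e).unif₁

set_option maxHeartbeats 4000000 in
/-- **`W_unif₂ e`** -/
theorem W_unif₂M : ∃ i, ∃ t : ((LWM B hB hqM h2 h3 HW e).level i).R,
    (pZeroM B hB hqM e).ord ((CAll B hB hqM hζ (CZM B hB hqM h2 h3) SDD.cZero).res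
      ⟨t, (W₂M B hB hqM h2 h3 hζ HW e).le i t t.2⟩) = 1 :=
  (nodeWM B hB hqM h2 h3 HW e).unif₂

set_option maxHeartbeats 4000000 in
/-- **`chW e`** : the node chart of `nW e` on its raw tube -/
def chWM : NodeChart B (CAll B hB hqM hζ (CZM B hB hqM h2 h3) (ze e)).O
    (CAll B hB hqM hζ (CZM B hB hqM h2 h3) SDD.cZero).O
    (CAll B hB hqM hζ (CZM B hB hqM h2 h3) (ze e)).res
    (CAll B hB hqM hζ (CZM B hB hqM h2 h3) SDD.cZero).res (zWM B hB hqM h2 h3 e)
    (pZeroM B hB hqM e) (tubeWM B hB hqM h2 h3 e) :=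
  chartW B hB hqM h2 h3 (Fr B hB hqM e) (zePackM B hB hqM h2 h3 e).P' (HW e)
    (vertCompM B hB hqM h2 h3 e) (zePackM B hB hqM h2 h3 e).hβ (zePackM B hB hqM h2 h3 e).hρ
    (zePackM B hB hqM h2 h3 e).hred (zePackM B hB hqM h2 h3 e).comap_beta
    (zePackM B hB hqM h2 h3 e).φ (zePackM B hB hqM h2 h3 e).φ_compat
    (zePackM B hB hqM h2 h3 e).φ_C (zePackM B hB hqM h2 h3 e).hβ' (zePackM B hB hqM h2 h3 e).hω
    (zePackM B hB hqM h2 h3 e).φ_rel

set_option maxHeartbeats 4000000 in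
/-- **(G3) `hW`** : the thickness of the levels of `nW e` -/
theorem hWM : (LWM B hB hqM h2 h3 HW e).thick =
    (gaugeB q B hB hqM e)⁻¹ * thick (DtM B hB hqM) (Fr B hB hqM e) :=
  nodeOutW_thick B hB hqM h2 h3 (Fr B hB hqM e) (zePackM B hB hqM h2 h3 e).P' (HW e)
    (vertCompM B hB hqM h2 h3 e) (zePackM B hB hqM h2 h3 e).hβ (zePackM B hB hqM h2 h3 e).hρ
    (zePackM B hB hqM h2 h3 e).hred (zePackM B hB hqM h2 h3 e).comap_beta
    (zePackM B hB hqM h2 h3 e).φ (zePackM B hB hqM h2 h3 e).φ_compat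
    (zePackM B hB hqM h2 h3 e).φ_C (zePackM B hB hqM h2 h3 e).hβ' (zePackM B hB hqM h2 h3 e).hω
    (zePackM B hB hqM h2 h3 e).φ_rel

set_option maxHeartbeats 4000000 in
/-- the coordinate of the levels of `nW e` is `β₂ (b₀⁻¹ • u_{Fr e})` -/
theorem LWM_u : (LWM B hB hqM h2 h3 HW e).u =
    beta2 M q ((gaugeB q B hB hqM (Fr B hB hqM e))⁻¹ •
      annulusCoord (DtM B hB hqM) (Fr B hB hqM e)) :=
  nodeOutW_u B hB hqM h2 h3 (Fr B hB hqM e) (zePackM B hB hqM h2 h3 e).P' (HW e)
    (vertCompM B hB hqM h2 h3 e) (zePackM B hB hqM h2 h3 e).hβ (zePackM B hB hqM h2 h3 e).hρ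
    (zePackM B hB hqM h2 h3 e).hred (zePackM B hB hqM h2 h3 e).comap_beta
    (zePackM B hB hqM h2 h3 e).φ (zePackM B hB hqM h2 h3 e).φ_compat
    (zePackM B hB hqM h2 h3 e).φ_C (zePackM B hB hqM h2 h3 e).hβ' (zePackM B hB hqM h2 h3 e).hω
    (zePackM B hB hqM h2 h3 e).φ_rel

end Fields

/-! ### the raw tube lies over the inner nodes of `S'ref_b` (at `Fr e`) and of `S'ref_a` (at `e`) -/

section Tubes

variable (hα : (alpha2 M q).toRingHom.IsIntegral) (hβ : (beta2 M q).toRingHom.IsIntegral)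
  (e : SSpM B hB hqM)

/-- the raw tube of `nW e` lies over the inner node of `S'ref_b` at `Fr e`, along `β₂` -/
theorem tube_b_nWM : ∀ P ∈ tubeWM B hB hqM h2 h3 e, P.restrictAlong (beta2 M q) hβ ∈
    tube (srefM (DtM B hB hqM) (gaugeB q B hB hqM) (admB B hB hqM h2 h3))
      (inner (inputs (DtM B hB hqM)) (gaugeB q B hB hqM) (admB B hB hqM h2 h3)
        (Fr B hB hqM e)) :=
  fun P hP => ((mem_tubeWM_iff B hB hqM h2 h3 hβ e P).mp hP).1

/-- on the raw tube of `nW e` the function `W_b` is a unit congruent to `1` -/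
theorem tubeUnit_WsplitM : TubeUnit B (tubeWM B hB hqM h2 h3 e) (WsplitM B hB hqM h2 h3 e) :=
  fun P hP => ((mem_tubeWM_iff B hB hqM h2 h3
    (Fermat.Agent.BR2.LevelGen.isIntegral_fb (beta2 M q)) e P).mp hP).2

include hβ in
set_option maxHeartbeats 4000000 in
/-- **`tube_a_nW`** (`hsubW`) : the raw tube of `nW e` lies over the inner node of `S'ref_a` at
`e`, along `α₂` (helper7's `TubesAWild.tube_a_nW_of_unit`). -/
theorem tube_a_nWM : ∀ P ∈ tubeWM B hB hqM h2 h3 e, P.restrictAlong (alpha2 M q) hα ∈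
    tube (srefM (DtM B hB hqM) (gaugeA q B hB hqM) (admA B hB hqM h2 h3))
      (inner (inputs (DtM B hB hqM)) (gaugeA q B hB hqM) (admA B hB hqM h2 h3) e) := by
  intro P hP
  obtain ⟨hPb, d, hd, hd1⟩ := (mem_tubeWM_iff B hB hqM h2 h3 hβ e P).mp hP
  exact Fermat.Agent.BR3.SDD.TubesAWild.tube_a_nW_of_unit B hB hqM e h2 h3
    (zePackM B hB hqM h2 h3 e).P (zePackM B hB hqM h2 h3 e).P' hα hβ (admA B hB hqM h2 h3)
    (admB B hB hqM h2 h3) hPb hd hd1

end Tubes

/-! ### the wild annulus sheet of degree `q` along `α₂` -/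

section Wild

variable (HW : HWM B hB hqM h2 h3) (e : SSpM B hB hqM)

include HW in
set_option maxHeartbeats 4000000 in
/-- **`XW e`** : the wild annulus sheet of degree `q` of `nW e` along `α₂`, over the inner node of
`S'ref_a` at `e` (coordinate `a₀⁻¹ • u_e`, thickness `a₀⁻¹ * thick e`): helper7's
`AnnSheetsWildMod.annSheet_nW` at the levels `LWM HW e`. -/
theorem annSheet_nWM :
    Nonempty (AnnSheet B (tubeWM B hB hqM h2 h3 e)
      (alpha2 M q ((gaugeA q B hB hqM e)⁻¹ • annulusCoord (DtM B hB hqM) e))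
      ((gaugeA q B hB hqM e)⁻¹ * thick (DtM B hB hqM) e) q) := by
  have hne := nonempty_crossing (DtM B hB hqM)
  have hα : (alpha2 M q).toRingHom.IsIntegral :=
    Fermat.Agent.BR2.LevelGen.isIntegral_fb (alpha2 M q)
  have hβ : (beta2 M q).toRingHom.IsIntegral :=
    Fermat.Agent.BR2.LevelGen.isIntegral_fb (beta2 M q)
  have hTb : ∀ P ∈ tubeWM B hB hqM h2 h3 e, P.restrictAlong (beta2 M q) hβ ∈
      tube (setupFinal B hB hqM hne) (Fr B hB hqM e) := by
    intro P hP
    have h := tube_b_nWM B hB hqM h2 h3 hβ e P hP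
    rw [tube_innerM] at h
    exact h.1
  have hTa : ∀ P ∈ tubeWM B hB hqM h2 h3 e, P.restrictAlong (alpha2 M q) hα ∈
      tube (setupFinal B hB hqM hne) e := by
    intro P hP
    have h := tube_a_nWM B hB hqM h2 h3 hα hβ e P hP
    rw [tube_innerM] at h
    exact h.1
  exact Fermat.Agent.BR3.SDD.AnnSheetsWildMod.annSheet_nW B hB hqM hne e h2 h3
    (zePackM B hB hqM h2 h3 e).P (zePackM B hB hqM h2 h3 e).P' hα hβ hTa hTb
    (tubeUnit_WsplitM B hB hqM h2 h3 e)
    (a₀ := gaugeA q B hB hqM e) (b₀ := gaugeB q B hB hqM (Fr B hB hqM e))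
    (Fermat.Agent.BR3.SDD.TubesB.valuation_gaugeSDD_pow_succ B) (map_pow _ _ _)
    (LWM B hB hqM h2 h3 HW e) (LWM_u B hB hqM h2 h3 HW e)
    (congrArg B.valuation (hWM B hB hqM h2 h3 HW e))

end Wild

end Fermat.Agent.BR3.SDD.Modular
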