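import Mathlib
import Fermat.Agent.BR3.SDD.NodeFibres
import Fermat.Agent.BR3.SepNValues

/-!
# Program C (S36), node I7 (W4), node half: the disjointness of the sheets over the outer node

The two disjointness hypotheses `hTK` (split sheet `nT e` vs Kummer sheets `nk e s`) and `hKK`
(Kummer sheets `nk e s` vs `nk e s'`) of `NodeFibres.fibreOver_outer(_along)`, from separating
functions:

* `not_mem_of_sepSets` : two sets of places separated by a function (`SepN.SepSets`: small on the
  first, of absolute value one on the second) are disjoint; `not_mem_of_values` : one function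
  `θ` congruent to constants `c`, `c'` with `|c' - c| = 1` on the two sets;
* `hTK_of_sepSets`, `hKK_of_sepSets`, `hTK_of_values`, `hKK_of_values` : the two hypotheses in the
  literal shapes of `fibreOver_outer_along`; in the `values` forms the data are ONE function `W`
  with `W ≡ cT` on the split sheet and `W ≡ cK s` on the Kummer sheets, `|cK s - cT| = 1`
  (`W = U/(-Bc)`), and ONE function `θ` with `θ ≡ c₀ s` on the Kummer sheet `s`,
  `|c₀ s' - c₀ s| = 1` for `s ≠ s'` (the Kummer generator: `KummerLevels.kummerTube A T X Y θ c₀`);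
* `fibreOver_outer_along_of_values` : `NodeFibres.fibreOver_outer_along` with these inputs.
-/

set_option autoImplicit false
set_option linter.unusedSectionVars false
set_option linter.style.haveILetI false

namespace Fermat.Agent.BR3.SDD.NodeFibres

open AlgebraicCurve IsLocalRing Fermat.Agent.Red Fermat.Agent.BR.SS Fermat.Agent.BR.S0
  Fermat.Agent.BR.Circle Fermat.Agent.BR3.CoverDict Fermat.Agent.BR3.SDD.Partition
  Fermat.Agent.BR3.SepN Fermat.Agent.BR3.SepNValues

section Sets

variable {K F : Type*} [Field K] [Field F] [Algebra K F] {A : ValuationSubring K}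

/-- Two sets of places separated by a function are disjoint. -/
theorem not_mem_of_sepSets {T₁ T₂ : Set (Place K F)} (h : SepSets A T₁ T₂) {P : Place K F}
    (h₁ : P ∈ T₁) : P ∉ T₂ := by
  obtain ⟨f, hf₁, hf₂⟩ := h
  intro h₂
  obtain ⟨d, hd, hlt⟩ := hf₁ P h₁
  obtain ⟨d', hd', heq⟩ := hf₂ P h₂
  rw [hd.unique hd', heq] at hlt
  exact lt_irrefl _ hlt

/-- Two sets of places on which one function is congruent to two constants with
`|c' - c| = 1` are disjoint. -/
theorem not_mem_of_values {T₁ T₂ : Set (Place K F)} (θ : F) (c c' : K)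
    (hcc : A.valuation (c' - c) = 1)
    (h₁ : ∀ P ∈ T₁, ∃ d : K, IsValueAt P θ d ∧ A.valuation (d - c) < 1)
    (h₂ : ∀ P ∈ T₂, ∃ d : K, IsValueAt P θ d ∧ A.valuation (d - c') < 1) {P : Place K F}
    (hP : P ∈ T₁) : P ∉ T₂ :=
  not_mem_of_sepSets (sepSets_of_values θ c c' hcc h₁ h₂) hP

end Sets

section Node

variable {K F'' : Type*} [Field K] [Field F''] [Algebra K F''] {A : ValuationSubring K}
  {k : Type*} [Field k] {Mid SSp KP : Type} {Ft : Comp Mid SSp → Type}
  [∀ v, Field (Ft v)] [∀ v, Algebra k (Ft v)] (comp : SSp → KP → Mid)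
  (pInf : SSp → Place k (Ft cInf)) (pMid : ∀ e s, Place k (Ft (mid (comp e s))))
  (TH : ∀ b : Bool, Place k (Ft (Sum.inl (Sum.inl b))) → Set (Place K F''))
  (TM : ∀ i : Mid, Place k (Ft (mid i)) → Set (Place K F''))

/-- `hTK` from separating functions -/
theorem hTK_of_sepSets (e : SSp)
    (h : ∀ s, SepSets A (TH false (pInf e)) (TM (comp e s) (pMid e s))) :
    ∀ s P, P ∈ TH false (pInf e) → P ∉ TM (comp e s) (pMid e s) :=
  fun s _ hP => not_mem_of_sepSets (h s) hP

/-- `hKK` from separating functions -/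
theorem hKK_of_sepSets (e : SSp)
    (h : ∀ s s', s ≠ s' →
      SepSets A (TM (comp e s) (pMid e s)) (TM (comp e s') (pMid e s'))) :
    ∀ s s' P, P ∈ TM (comp e s) (pMid e s) → P ∈ TM (comp e s') (pMid e s') → s = s' := by
  intro s s' P hP hP'
  by_contra hne
  exact not_mem_of_sepSets (h s s' hne) hP hP'

/-- `hTK` from one function `W ≡ cT` on the split sheet, `W ≡ cK s` on the Kummer sheets,
`|cK s - cT| = 1`. -/
theorem hTK_of_values (e : SSp) (W : F'') (cT : K) (cK : KP → K)
    (hcc : ∀ s, A.valuation (cK s - cT) = 1)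
    (hT : ∀ P ∈ TH false (pInf e), ∃ d : K, IsValueAt P W d ∧ A.valuation (d - cT) < 1)
    (hK : ∀ s, ∀ P ∈ TM (comp e s) (pMid e s),
      ∃ d : K, IsValueAt P W d ∧ A.valuation (d - cK s) < 1) :
    ∀ s P, P ∈ TH false (pInf e) → P ∉ TM (comp e s) (pMid e s) :=
  fun s _ hP => not_mem_of_values W cT (cK s) (hcc s) hT (hK s) hP

/-- `hKK` from one function `θ ≡ c₀ s` on the Kummer sheet `s`, `|c₀ s' - c₀ s| = 1` for
`s ≠ s'`. -/
theorem hKK_of_values (e : SSp) (θ : F'') (c₀ : KP → K)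
    (hcc : ∀ s s', s ≠ s' → A.valuation (c₀ s' - c₀ s) = 1)
    (hK : ∀ s, ∀ P ∈ TM (comp e s) (pMid e s),
      ∃ d : K, IsValueAt P θ d ∧ A.valuation (d - c₀ s) < 1) :
    ∀ s s' P, P ∈ TM (comp e s) (pMid e s) → P ∈ TM (comp e s') (pMid e s') → s = s' := by
  intro s s' P hP hP'
  by_contra hne
  exact not_mem_of_values θ (c₀ s) (c₀ s') (hcc s s' hne) (hK s) (hK s') hP hP'

end Node

section Along

variable {K F' F'' : Type*} [Field K] [Field F'] [Field F''] [Algebra K F'] [Algebra K F'']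
  [HasPrincipalDivisors K F'']
  {k : Type*} [Field k] {A : ValuationSubring K} {π : A →+* k} {ι₀ : Type*}
  {Ft₀ : ι₀ → Type*} [∀ v, Field (Ft₀ v)] [∀ v, Algebra k (Ft₀ v)] {ν₀ : Type*}
  (S₀ : SemistableSetup (F := F') A π ι₀ Ft₀ ν₀)
  {Mid SSp KP : Type} [Fintype KP] {Ft : Comp Mid SSp → Type}
  [∀ v, Field (Ft v)] [∀ v, Algebra k (Ft v)] (comp : SSp → KP → Mid)
  (pInf : SSp → Place k (Ft cInf)) (pMid : ∀ e s, Place k (Ft (mid (comp e s))))
  (TH : ∀ b : Bool, Place k (Ft (Sum.inl (Sum.inl b))) → Set (Place K F''))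
  (TM : ∀ i : Mid, Place k (Ft (mid i)) → Set (Place K F''))
  (TZ : ∀ e : SSp, Place k (Ft (ze e)) → Set (Place K F''))

/-- **The points of `S''` over the source branch of the outer node of the base**, the
disjointness of the sheets from the values of two functions `W` (split sheet vs Kummer sheets)
and `θ` (Kummer sheets among themselves). -/
theorem fibreOver_outer_along_of_values [IsAlgClosed (ResidueField A)] [IsAlgClosed K]
    (a : F' →ₐ[K] F'') (ha : a.toRingHom.IsIntegral) (hFI : FundamentalIdentityAlong K a ha)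
    (e : SSp) (n : ν₀) (C' : AnnulusCore A {P | S₀.r P = ⟨S₀.src n, S₀.s₁ n⟩}) (d : KP → ℕ)
    (XT : Nonempty (AnnSheet A (TH false (pInf e)) (a C'.u) C'.thick 1))
    (XK : ∀ s, Nonempty (AnnSheet A (TM (comp e s) (pMid e s)) (a C'.u) C'.thick (d s)))
    (hsubT : ∀ P ∈ TH false (pInf e), S₀.r (P.restrictAlong a ha) = ⟨S₀.src n, S₀.s₁ n⟩)
    (hsubK : ∀ s, ∀ P ∈ TM (comp e s) (pMid e s),
      S₀.r (P.restrictAlong a ha) = ⟨S₀.src n, S₀.s₁ n⟩)
    (W : F'') (cT : K) (cK : KP → K) (hccW : ∀ s, A.valuation (cK s - cT) = 1)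
    (hWT : ∀ P ∈ TH false (pInf e), ∃ d : K, IsValueAt P W d ∧ A.valuation (d - cT) < 1)
    (hWK : ∀ s, ∀ P ∈ TM (comp e s) (pMid e s),
      ∃ d : K, IsValueAt P W d ∧ A.valuation (d - cK s) < 1)
    (θ : F'') (c₀ : KP → K) (hccθ : ∀ s s', s ≠ s' → A.valuation (c₀ s' - c₀ s) = 1)
    (hθK : ∀ s, ∀ P ∈ TM (comp e s) (pMid e s),
      ∃ d : K, IsValueAt P θ d ∧ A.valuation (d - c₀ s) < 1)
    (hinj : Function.Injective (ptMid comp pMid e))
    (hsum : 1 + ∑ s, d s = finrankAlong K a)
    (hdeg'' : ∀ P : Place K F'', P.deg = 1) (hdeg' : ∀ P : Place K F', P.deg = 1) :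
    FibreOver S₀ (fun P => P.restrictAlong a ha) (tubeOf TH TM TZ) ⟨S₀.src n, S₀.s₁ n⟩
      (outerFib comp pInf pMid e : Set (Σ v, Place k (Ft v))) :=
  fibreOver_outer_along S₀ comp pInf pMid TH TM TZ a ha hFI e n C' d XT XK hsubT hsubK
    (hTK_of_values comp pInf pMid TH TM e W cT cK hccW hWT hWK)
    (hKK_of_values comp pMid TM e θ c₀ hccθ hθK) hinj hsum hdeg'' hdeg'

end Along

end Fermat.Agent.BR3.SDD.NodeFibres
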