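import Mathlib
import Fermat.Agent.BR3.SDD.AnnSheetsHoriz
import Fermat.Agent.BR.Circle.Bound

/-!
# Program C (S36), node I7 (W4-ANN), horizontal nodes: the WILD annulus sheets from the vertical
polynomial

The two wild sheets over a supersingular crossing `e` of `S'`:

* (A2) the tube of `nW e` (`cZero ∩ z e`) over the INNER node of `S'ref_a` along `a = α₂`;
* (B2) the tube of `nT e` (`cInf ∩ z e`) over the OUTER node of `S'ref_b` along `b = β₂`.

In `F'' = Fb (M q²)` put `X = α₂ v_g`, `Y = β₂ u_{g'}`, `U = U_g`, so that `Y = U + X`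
(`SSParamChain.beta2_ug_eq`) and the vertical polynomial of `U` over `α₂ F'` reads

  `X · U^(q-1) · Y = c • G`,      `c = q r₀`,  `G = r₀⁻¹ • (Rr - X · Hp(U))`  a TUBE UNIT

(`U^q + X U^(q-1) + A₀ + q Hp(U) = 0`, `A₀ X = -q Rr`).  On the tube of `nW e` one has `U / Y ≡ 1`,
on the tube of `nT e` one has `-U / X ≡ 1` (the sheet conditions of the SPLIT sheets along the
other side).  Hence

  (A2)  `X · Y^q = c • (tube unit)`,      (B2)  `Y · X^q = ((-1)^(q-1) c) • (tube unit)`.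

## Main statements (everything abstract: `K`, `F''`, `A`, `T''`)

* `wild_rel`, `wild_rel'` : the two algebraic identities;
* `tubeUnit_wild`, `tubeUnit_wild'` : the corresponding tube units;
* `tubeUnit_of_values` : `f(P) ≡ c` (`|c| = 1`) at every place of `T''` gives the tube unit `c⁻¹ • f`;
  `tubeUnit_vertG` : the tube unit `G = r₀⁻¹ • (Rr - X * H)` from pointwise values;
* `annSheet_wild_of_rels` : **(A2)** from the three relations
  `X = c_a • y₀ * ε_a` (the `a`-side coordinate), `Y * L''.u = c_b • ε_b` (the `b`-side transversal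
  pair), `X * Y^q = c_v • ε_v`;
* `annSheet_wild_of_rels'` : **(B2)** from `X = c_a • L''.u * ε_a`, `Y * y₀ = c_b • ε_b`,
  `Y * X^q = c_v • ε_v`;
* `isValueAt_of_rel`, `valuation_value_wild` : the value of `X` at a place of the tube from the
  value of `Y` (`|X(P)| = |c_v| / |Y(P)|^q`: the input of (sub) along the wild side).
-/

set_option autoImplicit false
set_option linter.unusedSectionVars false
set_option linter.style.haveILetI false

namespace Fermat.Agent.BR3.SDD.AnnSheetsWild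

open AlgebraicCurve IsLocalRing Fermat.Agent.Red Fermat.Agent.BR.SS Fermat.Agent.BR.S0
  Fermat.Agent.BR.Circle Fermat.Agent.BR.Circle.Bound Fermat.Agent.BR.Centre
  Fermat.Agent.BR3.SDD.Partition Fermat.Agent.BR3.SDD.AnnSheetsHoriz

variable {K F'' : Type*} [Field K] [Field F''] [Algebra K F''] {A : ValuationSubring K}
  {T'' : Set (Place K F'')} {ι : Type*}

/-! ### Closure properties of tube units (universe-polymorphic copies) -/

theorem tubeUnit_mul {ε ε' : F''} (hε : TubeUnit A T'' ε) (hε' : TubeUnit A T'' ε') :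
    TubeUnit A T'' (ε * ε') := fun P hP => by
  obtain ⟨d, h1, h2⟩ := hε P hP
  obtain ⟨d', h1', h2'⟩ := hε' P hP
  refine ⟨d * d', h1.mul h1', ?_⟩
  have e : d * d' - 1 = (d - 1) * d' + (d' - 1) := by ring
  rw [e]
  refine lt_of_le_of_lt (Valuation.map_add _ _ _) (max_lt ?_ h2')
  rw [map_mul, valuation_eq_one_of_sub_one_lt h2', mul_one]
  exact h2

theorem tubeUnit_inv {ε : F''} (hε : TubeUnit A T'' ε) : TubeUnit A T'' ε⁻¹ := fun P hP => by
  obtain ⟨d, h1, h2⟩ := hε P hP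
  have hd0 : d ≠ 0 := ne_zero_of_valuation_sub_one_lt h2
  refine ⟨d⁻¹, IsValueAt.inv h1 hd0, ?_⟩
  have e : d⁻¹ - 1 = -(d - 1) * d⁻¹ := by
    field_simp
    ring
  rw [e, map_mul, Valuation.map_neg, map_inv₀, valuation_eq_one_of_sub_one_lt h2, inv_one,
    mul_one]
  exact h2

theorem tubeUnit_pow {ε : F''} (hε : TubeUnit A T'' ε) (n : ℕ) : TubeUnit A T'' (ε ^ n) := by
  induction n with
  | zero => rw [pow_zero]; exact tubeUnit_one'
  | succ n ih => rw [pow_succ]; exact tubeUnit_mul ih hε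

/-! ### The algebraic identities -/

/-- **(A2), algebra**: `X · U^(q-1) · Y = c • G` gives `X · Y^q = c • (G · ((U/Y)^(q-1))⁻¹)`. -/
theorem wild_rel {X Y U G : F''} {c : K} {q : ℕ} (hq : 0 < q) (hU : U ≠ 0) (hY : Y ≠ 0)
    (hpoly : X * U ^ (q - 1) * Y = c • G) :
    X * Y ^ q = c • (G * ((U * Y⁻¹) ^ (q - 1))⁻¹) := by
  have hUq : U ^ (q - 1) ≠ 0 := pow_ne_zero _ hU
  have hYq : Y ^ (q - 1) ≠ 0 := pow_ne_zero _ hY
  have hqq : q = (q - 1) + 1 := by omega
  rw [Algebra.smul_def] at hpoly ⊢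
  rw [mul_pow, inv_pow, mul_inv, inv_inv, ← mul_assoc, ← mul_assoc, ← hpoly]
  conv_lhs => rw [hqq, pow_succ]
  field_simp

/-- **(B2), algebra**: `X · U^(q-1) · Y = c • G` gives
`Y · X^q = ((-1)^(q-1) c) • (G · ((-U/X)^(q-1))⁻¹)`. -/
theorem wild_rel' {X Y U G : F''} {c : K} {q : ℕ} (hq : 0 < q) (hU : U ≠ 0) (hX : X ≠ 0)
    (hpoly : X * U ^ (q - 1) * Y = c • G) :
    Y * X ^ q = ((-1) ^ (q - 1) * c) • (G * ((-U * X⁻¹) ^ (q - 1))⁻¹) := by
  have hUq : U ^ (q - 1) ≠ 0 := pow_ne_zero _ hU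
  have hXq : X ^ (q - 1) ≠ 0 := pow_ne_zero _ hX
  have hqq : q = (q - 1) + 1 := by omega
  rw [Algebra.smul_def] at hpoly ⊢
  rw [map_mul, map_pow, map_neg, map_one, neg_mul, neg_pow (U * X⁻¹), mul_pow, inv_pow]
  have e1 : Y * X ^ q = (X * U ^ (q - 1) * Y) * (X ^ (q - 1) * (U ^ (q - 1))⁻¹) := by
    conv_lhs => rw [hqq, pow_succ]
    field_simp
  rw [e1, hpoly]
  have hne : (-1 : F'') ^ (q - 1) ≠ 0 := pow_ne_zero _ (neg_ne_zero.mpr one_ne_zero)
  field_simp

/-! ### The tube units -/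

/-- **(A2), tube unit.** -/
theorem tubeUnit_wild {Y U G : F''} {q : ℕ} (hW : TubeUnit A T'' (U * Y⁻¹))
    (hG : TubeUnit A T'' G) : TubeUnit A T'' (G * ((U * Y⁻¹) ^ (q - 1))⁻¹) :=
  tubeUnit_mul hG (tubeUnit_inv (tubeUnit_pow hW _))

/-- **(B2), tube unit.** -/
theorem tubeUnit_wild' {X U G : F''} {q : ℕ} (hW : TubeUnit A T'' (-U * X⁻¹))
    (hG : TubeUnit A T'' G) : TubeUnit A T'' (G * ((-U * X⁻¹) ^ (q - 1))⁻¹) :=
  tubeUnit_mul hG (tubeUnit_inv (tubeUnit_pow hW _))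

/-- a function with values `≡ c`, `|c| = 1`, on the tube gives the tube unit `c⁻¹ • f` -/
theorem tubeUnit_of_values {f : F''} {c : K} (hc : A.valuation c = 1)
    (h : ∀ P ∈ T'', ∃ d : K, IsValueAt P f d ∧ A.valuation (d - c) < 1) :
    TubeUnit A T'' (c⁻¹ • f) := by
  have hc0 : c ≠ 0 := by
    rintro rfl
    rw [map_zero] at hc
    exact zero_ne_one hc
  intro P hP
  obtain ⟨d, h1, h2⟩ := h P hP
  refine ⟨c⁻¹ * d, ?_, ?_⟩
  · have := h1.smul c⁻¹
    simpa using this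
  · have e : c⁻¹ * d - 1 = c⁻¹ * (d - c) := by
      field_simp
    rw [e, map_mul, map_inv₀, hc, inv_one, one_mul]
    exact h2

/-- **The tube unit of the vertical polynomial**: `G = r₀⁻¹ • (Rr - X * H)` where on the tube
`Rr ≡ r₀` (`|r₀| = 1`), `X` is small and `H` is integral. -/
theorem tubeUnit_vertG {X Rr H : F''} {r₀ : K} (hr₀ : A.valuation r₀ = 1)
    (hR : ∀ P ∈ T'', ∃ d : K, IsValueAt P Rr d ∧ A.valuation (d - r₀) < 1)
    (hX : ∀ P ∈ T'', ∃ d : K, IsValueAt P X d ∧ A.valuation d < 1)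
    (hH : ∀ P ∈ T'', ∃ d : K, IsValueAt P H d ∧ A.valuation d ≤ 1) :
    TubeUnit A T'' (r₀⁻¹ • (Rr - X * H)) := by
  refine tubeUnit_of_values hr₀ fun P hP => ?_
  obtain ⟨d, h1, h2⟩ := hR P hP
  obtain ⟨x, h3, h4⟩ := hX P hP
  obtain ⟨h, h5, h6⟩ := hH P hP
  refine ⟨d - x * h, h1.sub (h3.mul h5), ?_⟩
  have e : d - x * h - r₀ = (d - r₀) - x * h := by ring
  rw [e]
  refine lt_of_le_of_lt (Valuation.map_sub _ _ _) (max_lt h2 ?_)
  rw [map_mul]
  calc A.valuation x * A.valuation h ≤ A.valuation x * 1 := mul_le_mul' le_rfl h6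
    _ = A.valuation x := mul_one _
    _ < 1 := h4

/-! ### The values along the wild side -/

/-- the value of `X` at a place where `Y` has a nonzero value, from `X * Y^q = c • ε` -/
theorem isValueAt_of_rel {X Y ε : F''} {c : K} {q : ℕ} (hrel : X * Y ^ q = c • ε)
    {P : Place K F''} {y d : K} (hy : IsValueAt P Y y) (hy0 : y ≠ 0) (hd : IsValueAt P ε d) :
    IsValueAt P X (c * d * (y ^ q)⁻¹) := by
  have hY0 : Y ≠ 0 := by
    rintro rfl
    exact hy0 ((isValueAt_zero P).unique hy).symm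
  have hYq : Y ^ q ≠ 0 := pow_ne_zero _ hY0
  have e : X = (c • ε) * (Y ^ q)⁻¹ := by
    rw [← hrel, mul_assoc, mul_inv_cancel₀ hYq, mul_one]
  rw [e]
  exact (hd.smul c).mul (IsValueAt.inv (hy.pow q) (pow_ne_zero _ hy0))

/-- **The valuation of the value of `X`**: `|X(P)| = |c| / |Y(P)|^q` when `ε(P) ≡ 1`. -/
theorem valuation_value_wild {c d y : K} {q : ℕ} (hd : A.valuation (d - 1) < 1) :
    A.valuation (c * d * (y ^ q)⁻¹) = A.valuation c * (A.valuation y ^ q)⁻¹ := by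
  rw [map_mul, map_mul, valuation_eq_one_of_sub_one_lt hd, mul_one, map_inv₀, map_pow]

/-! ### The wild annulus sheets from the three relations -/

/-- **(A2): the wild sheet of `nW e` along `a`.**  `L''` the level data of the tube (the split
sheet along `b`), `y₀` the image of the coordinate of the inner node of `S'ref_a`:
`X = c_a • y₀ * ε_a`, `Y * L''.u = c_b • ε_b`, `X * Y^q = c_v • ε_v`. -/
noncomputable def annSheet_wild_of_rels (L'' : AnnulusLevels A T'' ι) {X Y y₀ εa εb εv : F''}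
    {ca cb cv thick' : K} {q : ℕ} (hq : 0 < q)
    (hRa : X = ca • y₀ * εa) (hRb : Y * L''.u = cb • εb) (hV : X * Y ^ q = cv • εv)
    (hεa : TubeUnit A T'' εa) (hεb : TubeUnit A T'' εb) (hεv : TubeUnit A T'' εv)
    (hεa0 : εa ≠ 0) (hεb0 : εb ≠ 0) (hca : ca ≠ 0) (hcb : cb ≠ 0)
    (hval : A.valuation cv = A.valuation ca * A.valuation cb ^ q)
    (hthick : A.valuation L''.thick ^ q = A.valuation thick') :
    AnnSheet A T'' y₀ thick' q := by
  have hca' : A.valuation ca ≠ 0 := (Valuation.ne_zero_iff _).mpr hca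
  have hcb' : A.valuation cb ≠ 0 := (Valuation.ne_zero_iff _).mpr hcb
  refine annSheet_wild L'' hq (c₀ := cv * (ca * cb ^ q)⁻¹) (ε := εv * (εa * εb ^ q)⁻¹) ?_ ?_
    (tubeUnit_mul hεv (tubeUnit_inv (tubeUnit_mul hεa (tubeUnit_pow hεb q)))) hthick
  · rw [map_mul, map_inv₀, map_mul, map_pow, hval]
    exact mul_inv_cancel₀ (mul_ne_zero hca' (pow_ne_zero _ hcb'))
  · have hu0 : L''.u ≠ 0 := L''.u_ne_zero
    have hY0 : Y ≠ 0 := by
      rintro rfl
      rw [zero_mul, Algebra.smul_def] at hRb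
      rcases mul_eq_zero.mp hRb.symm with h | h
      · exact hcb ((map_eq_zero _).mp h)
      · exact hεb0 h
    have hcaF : algebraMap K F'' ca ≠ 0 := (map_ne_zero _).mpr hca
    have hcbF : algebraMap K F'' cb ≠ 0 := (map_ne_zero _).mpr hcb
    rw [Algebra.smul_def] at hRa hRb hV ⊢
    rw [map_mul, map_inv₀, map_mul, map_pow]
    have hu : L''.u = algebraMap K F'' cb * εb * Y⁻¹ := by
      rw [← hRb, mul_comm Y, mul_assoc, mul_inv_cancel₀ hY0, mul_one]
    have hy : y₀ = X * ((algebraMap K F'' ca)⁻¹ * εa⁻¹) := by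
      rw [hRa]
      field_simp
    have hcv : algebraMap K F'' cv * εv = X * Y ^ q := hV.symm
    rw [hy, hu, mul_pow, mul_pow, inv_pow]
    have hYq : Y ^ q ≠ 0 := pow_ne_zero _ hY0
    have hεbq : εb ^ q ≠ 0 := pow_ne_zero _ hεb0
    have hcbq : algebraMap K F'' cb ^ q ≠ 0 := pow_ne_zero _ hcbF
    field_simp
    linear_combination (-1 : F'') * hcv

/-- **(B2): the wild sheet of `nT e` along `b`.**  `L''` the level data of the tube (the split
sheet along `a`), `y₀` the image of the coordinate of the outer node of `S'ref_b`: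
`X = c_a • L''.u * ε_a`, `Y * y₀ = c_b • ε_b`, `Y * X^q = c_v • ε_v`. -/
noncomputable def annSheet_wild_of_rels' (L'' : AnnulusLevels A T'' ι) {X Y y₀ εa εb εv : F''}
    {ca cb cv thick' : K} {q : ℕ} (hq : 0 < q)
    (hRa : X = ca • L''.u * εa) (hRb : Y * y₀ = cb • εb) (hV : Y * X ^ q = cv • εv)
    (hεa : TubeUnit A T'' εa) (hεb : TubeUnit A T'' εb) (hεv : TubeUnit A T'' εv)
    (hεa0 : εa ≠ 0) (hεv0 : εv ≠ 0) (hca : ca ≠ 0) (hcv : cv ≠ 0)
    (hval : A.valuation cv = A.valuation cb * A.valuation ca ^ q)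
    (hthick : A.valuation L''.thick ^ q = A.valuation thick') :
    AnnSheet A T'' y₀ thick' q := by
  have hca' : A.valuation ca ≠ 0 := (Valuation.ne_zero_iff _).mpr hca
  have hcv' : A.valuation cv ≠ 0 := (Valuation.ne_zero_iff _).mpr hcv
  refine annSheet_wild L'' hq (c₀ := cb * ca ^ q * cv⁻¹) (ε := εb * εa ^ q * εv⁻¹) ?_ ?_
    (tubeUnit_mul (tubeUnit_mul hεb (tubeUnit_pow hεa q)) (tubeUnit_inv hεv)) hthick
  · rw [map_mul, map_mul, map_inv₀, map_pow, hval]
    exact mul_inv_cancel₀ (hval ▸ hcv')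
  · have hu0 : L''.u ≠ 0 := L''.u_ne_zero
    have hcaF : algebraMap K F'' ca ≠ 0 := (map_ne_zero _).mpr hca
    have hcvF : algebraMap K F'' cv ≠ 0 := (map_ne_zero _).mpr hcv
    have hX0 : X ≠ 0 := by
      rw [hRa, Algebra.smul_def]
      exact mul_ne_zero (mul_ne_zero hcaF hu0) hεa0
    have hY0 : Y ≠ 0 := by
      rintro rfl
      rw [zero_mul, Algebra.smul_def] at hV
      rcases mul_eq_zero.mp hV.symm with h | h
      · exact hcvF h
      · exact hεv0 h
    rw [Algebra.smul_def] at hRa hRb hV ⊢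
    rw [map_mul, map_mul, map_inv₀, map_pow]
    have hy : y₀ = algebraMap K F'' cb * εb * Y⁻¹ := by
      rw [← hRb, mul_comm Y, mul_assoc, mul_inv_cancel₀ hY0, mul_one]
    have hXq : X ^ q = (algebraMap K F'' ca) ^ q * L''.u ^ q * εa ^ q := by
      rw [hRa, mul_pow, mul_pow]
    have hYi : Y⁻¹ = X ^ q * ((algebraMap K F'' cv)⁻¹ * εv⁻¹) := by
      have h1 : Y * (X ^ q * ((algebraMap K F'' cv)⁻¹ * εv⁻¹)) = 1 := by
        rw [← mul_assoc, hV]
        field_simp
      exact (eq_inv_of_mul_eq_one_right h1).symm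
    rw [hy, hYi, hXq]
    field_simp

end Fermat.Agent.BR3.SDD.AnnSheetsWild
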