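import Fermat.Agent.BR3.SDD.AnnSheetsWildParam
import Fermat.Agent.BR3.SSParamChain

/-!
# Program C (S36), node I7 (W4-ANN), horizontal nodes: the two WILD annulus sheets at the modular
frame

`e` a crossing of main's two-component model `S'` of `X₀(M q)` at `q` (`M` without elliptic points),
`Fr e` the swapped crossing, `L := annulusLevels_modular_final .. e`, `LF := .. (Fr e)` the level data
of the two tubes, `(g₀, g', g, g'')` a chain of twisted triples (`SSParamChainOrd`):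
`H : IsSSParam e g g' g''`, `H' : IsSSParam (Fr e) g' g₀ g`.  In `Fb (M q²)`:

  `X = α₂ (α g - (β g')^q)`,   `Y = β₂ (β g - (α g')^q) = U_g + X`.

`T''` a set of places of `X₀(M q²)` lying over the tube of `e` along `α₂` (`hTa`) and over the tube of
`Fr e` along `β₂` (`hTb`; the two are equivalent by `TubesBCentre.restrictAlong_mem_tube_iff`).

* `kron_eval_beta2` : the Kronecker congruence of `g` at the second root `β₂ (β g) = α₂ (α g) + U_g`;
* `exists_wild_rel_nW` : on the tube of `nW e` (`U_g / Y ≡ 1`): `X · Y^q = (q r₀) • ε`;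
* `exists_wild_rel_nT` : on the tube of `nT e` (`U_g / α₂(-(α g - (β g')^q)) ≡ 1`):
  `Y · X^q = ((-1)^(q-1) q r₀) • ε`;
* **`annSheet_nW`** (A2) : `AnnSheet B T'' (α₂ (a₀⁻¹ • L.u)) (a₀⁻¹ * L.thick) q` for ANY level data
  `L''` of `T''` with `L''.u = β₂ (b₀⁻¹ • LF.u)`, `|L''.thick| = |b₀⁻¹ * LF.thick|`
  (the split sheet along `b` over the inner node of `S'ref_b` at `Fr e`);
* **`annSheet_nT`** (B2) : `AnnSheet B T'' (β₂ LF.u) b₀ q` for ANY level data `L''` of `T''` with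
  `L''.u = α₂ L.u`, `|L''.thick|^q = |b₀|` (the split sheet along `a` over the outer node of
  `S'ref_a` at `e`, thickness `a₀`, `b₀ = a₀^q`).

Gauges: `|a₀|^(q+1) = |q|`, `|b₀| = |a₀|^q` (`gaugeA = gaugeSDD q`, `gaugeB = gaugeSDD q ^ q`).
-/

set_option autoImplicit false
set_option linter.unusedSectionVars false
set_option linter.style.haveILetI false
set_option synthInstance.maxHeartbeats 400000

noncomputable section

/- S36 build-time patch: file-local shortcut instances. They only shorten instance search;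
each is the instance that the search finds anyway (reducible, same terms after unfolding). -/
local instance (priority := 100000) Fermat.Agent.BR3.FastInst.instAlgFullC_SDD_AnnSheetsWildMod
    {k : Type*} [Field k] (N : ℕ) :
    Algebra k ↥(ModularCurve.modularFunctionFieldFullC k N) := inferInstance
local instance (priority := 100000) Fermat.Agent.BR3.FastInst.instFieldFullC_SDD_AnnSheetsWildMod
    {k : Type*} [Field k] (N : ℕ) :
    Field ↥(ModularCurve.modularFunctionFieldFullC k N) := inferInstance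
local instance (priority := 100000) Fermat.Agent.BR3.FastInst.instAlgLaurent_SDD_AnnSheetsWildMod
    {k : Type*} [Field k] : Algebra k (LaurentSeries k) := inferInstance


namespace Fermat.Agent.BR3.SDD.AnnSheetsWildMod

open Polynomial ModularCurve AlgebraicCurve IsLocalRing
open Fermat.Agent.X0 Fermat.Agent.Val Fermat.Agent.Red Fermat.Agent.Hecke
open Fermat.Agent.BR.SS Fermat.Agent.BR.Refine
open Fermat.Agent.BR.Circle Fermat.Agent.BR.S0 Fermat.Agent.BR.S0.RedModular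
open Fermat.Agent.BR.S0.PointDict Fermat.Agent.BR.S0.ThickFinal
open Fermat.Agent.BR.Inst.AnnulusInstFinal Fermat.Agent.BR.Final
open Fermat.Agent.BR3.FibreProd Fermat.Agent.BR3.HeckePoly
open Fermat.Agent.BR3.VertAllLevels Fermat.Agent.BR3.VertAll Fermat.Agent.BR3.VertAllParam
open Fermat.Agent.BR3.ThickOneFinal Fermat.Agent.BR3.SSParam Fermat.Agent.BR3.SSParamChain
open Fermat.Agent.BR3.VertBetaFr Fermat.Agent.BR3.SDD.Partition
open Fermat.Agent.BR3.SDD.AnnSheetsWild Fermat.Agent.BR3.SDD.AnnSheetsWildVert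
open Fermat.Agent.BR3.SDD.AnnSheetsWildParam

/-! ### Arithmetic of the gauges -/

section Arith

variable {Γ : Type*} [LinearOrderedCommGroupWithZero Γ]

theorem gauge_aux {v Q : Γ} {q : ℕ} (hv : v ≠ 0) (hQ : v ^ (q + 1) = Q) :
    Q * (v ^ q)⁻¹ = v := by
  rw [← hQ, pow_succ, mul_comm (v ^ q) v, mul_assoc, mul_inv_cancel₀ (pow_ne_zero _ hv), mul_one]

end Arith

/-- an algebra homomorphism commutes with scalars (explicit form, no instance search at use) -/
theorem algHom_smul {K F F'' : Type*} [Field K] [Field F] [Field F''] [Algebra K F]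
    [Algebra K F''] (a : F →ₐ[K] F'') (c : K) (x : F) : a (c • x) = c • a x := map_smul a c x

variable {M q : ℕ} [NeZero M] [hq : Fact q.Prime]

/-! ### The Kronecker congruence at the second root -/

/-- the Kronecker congruence of `g` at `β₂ (β g) = α₂ (α g) + U_g` -/
theorem kron_eval_beta2 {g : Fb M} {x₁ x₂ : Fb (M * q)} {Ψ₁ : (Fb (M * q))[X]}
    (hP : PAt M q g = (X ^ q - C x₂) * (X - C (x₁ ^ q)) + C ((q : ℕ) : Fb (M * q)) * Ψ₁) :
    ((alpha2 M q (heckeAlphaBar Kb M q g) + Ug M q g) ^ q - alpha2 M q x₂) *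
      (alpha2 M q (heckeAlphaBar Kb M q g) + Ug M q g - (alpha2 M q x₁) ^ q) +
      ((q : ℕ) : Fb (M * q * q)) *
        (Ψ₁.map ((alpha2 M q : Fb (M * q) →ₐ[Kb] Fb (M * q * q)) :
          Fb (M * q) →+* Fb (M * q * q))).eval
          (alpha2 M q (heckeAlphaBar Kb M q g) + Ug M q g) = 0 := by
  have e : alpha2 M q (heckeAlphaBar Kb M q g) + Ug M q g =
      beta2 M q (heckeBetaBar Kb M q g) := by
    rw [Ug, add_sub_cancel]
  have h := heckePoly_map_mid_eval_beta (M := M) (q := q) g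
  rw [← PAt_map_alpha2, hP] at h
  simp only [Polynomial.map_add, Polynomial.map_mul, Polynomial.map_sub, Polynomial.map_pow,
    Polynomial.map_X, Polynomial.map_C, eval_add, eval_mul, eval_sub, eval_pow, eval_X, eval_C,
    map_natCast, map_pow, Polynomial.map_natCast, eval_natCast] at h
  rw [e]
  exact h

variable (B : ValuationSubring Kb) (hB : B.LiesOverPrime q) (hqM : ¬ q ∣ M)
variable [IsAlgClosed (ResidueField B)] [CharP (ResidueField B) q]
  (hne : Nonempty (Crossing (chartDataModular B hB hqM)))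
  (e : Crossing (chartDataModular B hB hqM))

local notation "kB" => ResidueField B

/-- `v_g ≠ 0` -/
theorem vg_ne_zero {g g' g'' : Fb M} (P : IsSSParam B hB hqM e g g' g'') :
    heckeAlphaBar Kb M q g - (heckeBetaBar Kb M q g') ^ q ≠ 0 := by
  intro h0
  have hxO := vg_mem_O1 B hB hqM (mem_OM_of_mem_CMod_base B hB hqM P.hg)
    (mem_OM_of_mem_CMod_base B hB hqM P.hg')
  have h1 := P.hxord hxO
  have h2 : (⟨_, hxO⟩ : (compW B hB hqM 0).O) = 0 := Subtype.ext h0
  rw [h2, map_zero, Place.ord_zero] at h1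
  exact zero_ne_one h1

/-- `u_g ≠ 0` -/
theorem ug_ne_zero {g g' g'' : Fb M} (P : IsSSParam B hB hqM e g g' g'') :
    heckeBetaBar Kb M q g'' - (heckeAlphaBar Kb M q g) ^ q ≠ 0 := by
  intro h0
  have hyO := ug_mem_O2 B hB hqM (mem_OM_of_mem_CMod_base B hB hqM P.hg)
    (mem_OM_of_mem_CMod_base B hB hqM P.hg'')
  have h1 := P.hyord hyO
  have h2 : (⟨_, hyO⟩ : (compW B hB hqM 1).O) = 0 := Subtype.ext h0
  rw [h2, map_zero, Place.ord_zero] at h1
  exact zero_ne_one h1

variable {T'' : Set (Place Kb (Fb (M * q * q)))}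

/-! ### The relation (V) -/

set_option maxHeartbeats 1600000 in
/-- **(V) on the tube of `nW e`**: `X · Y^q = (q r₀) • ε`. -/
theorem exists_wild_rel_nW (h2 : nuTwo M = 0) (h3 : nuThree M = 0) {g₀ g' g g'' : Fb M}
    (H : IsSSParam B hB hqM e g g' g'') (H' : IsSSParam B hB hqM (Fr B hB hqM e) g' g₀ g)
    (ha : (alpha2 M q).toRingHom.IsIntegral) (hb : (beta2 M q).toRingHom.IsIntegral)
    (hTa : ∀ P ∈ T'', P.restrictAlong (alpha2 M q) ha ∈ tube (setupFinal B hB hqM hne) e)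
    (hTb : ∀ P ∈ T'', P.restrictAlong (beta2 M q) hb ∈
      tube (setupFinal B hB hqM hne) (Fr B hB hqM e))
    (hW : TubeUnit B T'' (Ug M q g /
      beta2 M q (heckeBetaBar Kb M q g - heckeAlphaBar Kb M q g' ^ q))) :
    ∃ r₀ : Kb, B.valuation r₀ = 1 ∧ ∃ ε : Fb (M * q * q), TubeUnit B T'' ε ∧ ε ≠ 0 ∧
      alpha2 M q (heckeAlphaBar Kb M q g - heckeBetaBar Kb M q g' ^ q) *
        beta2 M q (heckeBetaBar Kb M q g - heckeAlphaBar Kb M q g' ^ q) ^ q =
          ((q : Kb) * r₀) • ε := by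
  obtain ⟨Ψ₁, hP, hΨR, ⟨hz, hR⟩, -, -⟩ := exists_coord_of_param B hB hqM hne e h2 h3 H
  have hq0 : (q : Kb) ≠ 0 := Nat.cast_ne_zero.mpr hq.out.ne_zero
  have hαR := alpha_mem_level B hB hqM hne e H.hg
  have hβ'R := beta_mem_level B hB hqM hne e H.hg'
  have hβ''R := beta_mem_level B hB hqM hne e H.hg''
  have hv := mem_level_vg B hB hqM hne e H
  have hvnu := not_isUnit_vg B hB hqM hne e H hv
  have h0 : (heckeAlphaBar Kb M q g ^ q - heckeBetaBar Kb M q g'') *
      (heckeAlphaBar Kb M q g - heckeBetaBar Kb M q g' ^ q) +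
      ((q : ℕ) : Fb (M * q)) * Ψ₁.eval (heckeAlphaBar Kb M q g) = 0 := by
    have h := PAt_eval_alpha (M := M) (q := q) hqM g
    rw [hP] at h
    simpa only [eval_add, eval_mul, eval_sub, eval_pow, eval_X, eval_C] using h
  have h1 := kron_eval_beta2 (M := M) (q := q) hP
  have hY : Ug M q g + alpha2 M q (heckeAlphaBar Kb M q g - heckeBetaBar Kb M q g' ^ q) =
      beta2 M q (heckeBetaBar Kb M q g - heckeAlphaBar Kb M q g' ^ q) := (beta2_ug_eq g g').symm
  have hU0 : Ug M q g ≠ 0 := Ug_ne_zero H.nonconst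
  have hX0 : alpha2 M q (heckeAlphaBar Kb M q g - heckeBetaBar Kb M q g' ^ q) ≠ 0 :=
    (_root_.map_ne_zero _).mpr (vg_ne_zero B hB hqM e H)
  have hY0 : Ug M q g + alpha2 M q (heckeAlphaBar Kb M q g - heckeBetaBar Kb M q g' ^ q) ≠ 0 := by
    rw [hY]
    exact (_root_.map_ne_zero _).mpr (ug_ne_zero B hB hqM (Fr B hB hqM e) H')
  have hYint : ∀ P ∈ T'',
      Ug M q g + alpha2 M q (heckeAlphaBar Kb M q g - heckeBetaBar Kb M q g' ^ q) ∈
        intRing B P := by
    intro P hP'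
    rw [hY]
    exact map_mem_intRing (beta2 M q) hb
      (annulusLevels_modular_final B hB hqM hne (Fr B hB hqM e)) ∅ hTb hP'
      (mem_level_ug B hB hqM hne (Fr B hB hqM e) H')
  have hW' : TubeUnit B T'' (Ug M q g *
      (Ug M q g + alpha2 M q (heckeAlphaBar Kb M q g - heckeBetaBar Kb M q g' ^ q))⁻¹) := by
    rw [hY, ← div_eq_mul_inv]
    exact hW
  obtain ⟨r₀, hr₀, ε, hε, hε0, hrel⟩ := exists_wild_rel (alpha2 M q) ha
    (annulusLevels_modular_final B hB hqM hne e) ∅ hq.out hq0 hTa hβ'R hβ''R hαR hΨR hz hR hv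
    hvnu h0 h1 hU0 hX0 hY0 hYint hW'
  rw [hY] at hrel
  exact ⟨r₀, hr₀, ε, hε, hε0, hrel⟩

set_option maxHeartbeats 1600000 in
/-- **(V) on the tube of `nT e`**: `Y · X^q = ((-1)^(q-1) q r₀) • ε`. -/
theorem exists_wild_rel_nT (h2 : nuTwo M = 0) (h3 : nuThree M = 0) {g₀ g' g g'' : Fb M}
    (H : IsSSParam B hB hqM e g g' g'') (H' : IsSSParam B hB hqM (Fr B hB hqM e) g' g₀ g)
    (ha : (alpha2 M q).toRingHom.IsIntegral)
    (hTa : ∀ P ∈ T'', P.restrictAlong (alpha2 M q) ha ∈ tube (setupFinal B hB hqM hne) e)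
    (hW : TubeUnit B T'' (Ug M q g /
      alpha2 M q (-(heckeAlphaBar Kb M q g - heckeBetaBar Kb M q g' ^ q)))) :
    ∃ r₀ : Kb, B.valuation r₀ = 1 ∧ ∃ ε : Fb (M * q * q), TubeUnit B T'' ε ∧ ε ≠ 0 ∧
      beta2 M q (heckeBetaBar Kb M q g - heckeAlphaBar Kb M q g' ^ q) *
        alpha2 M q (heckeAlphaBar Kb M q g - heckeBetaBar Kb M q g' ^ q) ^ q =
          ((-1) ^ (q - 1) * ((q : Kb) * r₀)) • ε := by
  obtain ⟨Ψ₁, hP, hΨR, ⟨hz, hR⟩, -, -⟩ := exists_coord_of_param B hB hqM hne e h2 h3 H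
  have hq0 : (q : Kb) ≠ 0 := Nat.cast_ne_zero.mpr hq.out.ne_zero
  have hαR := alpha_mem_level B hB hqM hne e H.hg
  have hβ'R := beta_mem_level B hB hqM hne e H.hg'
  have hβ''R := beta_mem_level B hB hqM hne e H.hg''
  have hv := mem_level_vg B hB hqM hne e H
  have hvnu := not_isUnit_vg B hB hqM hne e H hv
  have h0 : (heckeAlphaBar Kb M q g ^ q - heckeBetaBar Kb M q g'') *
      (heckeAlphaBar Kb M q g - heckeBetaBar Kb M q g' ^ q) +
      ((q : ℕ) : Fb (M * q)) * Ψ₁.eval (heckeAlphaBar Kb M q g) = 0 := by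
    have h := PAt_eval_alpha (M := M) (q := q) hqM g
    rw [hP] at h
    simpa only [eval_add, eval_mul, eval_sub, eval_pow, eval_X, eval_C] using h
  have h1 := kron_eval_beta2 (M := M) (q := q) hP
  have hY : Ug M q g + alpha2 M q (heckeAlphaBar Kb M q g - heckeBetaBar Kb M q g' ^ q) =
      beta2 M q (heckeBetaBar Kb M q g - heckeAlphaBar Kb M q g' ^ q) := (beta2_ug_eq g g').symm
  have hU0 : Ug M q g ≠ 0 := Ug_ne_zero H.nonconst
  have hX0 : alpha2 M q (heckeAlphaBar Kb M q g - heckeBetaBar Kb M q g' ^ q) ≠ 0 :=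
    (_root_.map_ne_zero _).mpr (vg_ne_zero B hB hqM e H)
  have hY0 : Ug M q g + alpha2 M q (heckeAlphaBar Kb M q g - heckeBetaBar Kb M q g' ^ q) ≠ 0 := by
    rw [hY]
    exact (_root_.map_ne_zero _).mpr (ug_ne_zero B hB hqM (Fr B hB hqM e) H')
  have hW' : TubeUnit B T'' (-Ug M q g *
      (alpha2 M q (heckeAlphaBar Kb M q g - heckeBetaBar Kb M q g' ^ q))⁻¹) := by
    have e1 : -Ug M q g * (alpha2 M q (heckeAlphaBar Kb M q g - heckeBetaBar Kb M q g' ^ q))⁻¹ =
        Ug M q g / alpha2 M q (-(heckeAlphaBar Kb M q g - heckeBetaBar Kb M q g' ^ q)) := by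
      rw [map_neg, div_neg, neg_mul, div_eq_mul_inv]
    rw [e1]
    exact hW
  obtain ⟨r₀, hr₀, ε, hε, hε0, hrel⟩ := exists_wild_rel' (alpha2 M q) ha
    (annulusLevels_modular_final B hB hqM hne e) ∅ hq.out hq0 hTa hβ'R hβ''R hαR hΨR hz hR hv
    hvnu h0 h1 hU0 hX0 hY0 hW'
  rw [hY] at hrel
  exact ⟨r₀, hr₀, ε, hε, hε0, hrel⟩

/-! ### The two wild sheets -/

variable {ι'' : Type*}

set_option maxHeartbeats 3200000 in
/-- **(A2): the wild sheet of `nW e` along `a = α₂`**, over the INNER node of `S'ref_a` at `e`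
(coordinate `a₀⁻¹ • u_e`, thickness `a₀⁻¹ * thick e`).  `L''` ANY level data of the tube with
coordinate `β₂ (b₀⁻¹ • u_{Fr e})` and `|L''.thick| = |b₀⁻¹ * thick (Fr e)|` (the split sheet along
`b` over the inner node of `S'ref_b` at `Fr e`). -/
theorem annSheet_nW (h2 : nuTwo M = 0) (h3 : nuThree M = 0) {g₀ g' g g'' : Fb M}
    (H : IsSSParam B hB hqM e g g' g'') (H' : IsSSParam B hB hqM (Fr B hB hqM e) g' g₀ g)
    (ha : (alpha2 M q).toRingHom.IsIntegral) (hb : (beta2 M q).toRingHom.IsIntegral)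
    (hTa : ∀ P ∈ T'', P.restrictAlong (alpha2 M q) ha ∈ tube (setupFinal B hB hqM hne) e)
    (hTb : ∀ P ∈ T'', P.restrictAlong (beta2 M q) hb ∈
      tube (setupFinal B hB hqM hne) (Fr B hB hqM e))
    (hW : TubeUnit B T'' (Ug M q g /
      beta2 M q (heckeBetaBar Kb M q g - heckeAlphaBar Kb M q g' ^ q)))
    {a₀ b₀ : Kb} (ha₀ : B.valuation a₀ ^ (q + 1) = B.valuation (q : Kb))
    (hb₀ : B.valuation b₀ = B.valuation a₀ ^ q)
    (L'' : AnnulusLevels B T'' ι'')
    (hu'' : L''.u = beta2 M q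
      (b₀⁻¹ • (annulusLevels_modular_final B hB hqM hne (Fr B hB hqM e)).u))
    (hth'' : B.valuation L''.thick = B.valuation
      (b₀⁻¹ * (annulusLevels_modular_final B hB hqM hne (Fr B hB hqM e)).thick)) :
    Nonempty (AnnSheet B T''
      (alpha2 M q (a₀⁻¹ • (annulusLevels_modular_final B hB hqM hne e).u))
      (a₀⁻¹ * (annulusLevels_modular_final B hB hqM hne e).thick) q) := by
  obtain ⟨r₀, hr₀, εv, hεv, hεv0, hV⟩ := exists_wild_rel_nW B hB hqM hne e h2 h3 H H' ha hb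
    hTa hTb hW
  obtain ⟨-, -, -, -, ⟨ca, εa, hca, hεa, hRa0⟩, -⟩ := exists_coord_of_param B hB hqM hne e h2 h3 H
  obtain ⟨-, -, -, -, -, ⟨cb, εb, hcb, hεb, hRb0⟩⟩ :=
    exists_coord_of_param B hB hqM hne (Fr B hB hqM e) h2 h3 H'
  set L := annulusLevels_modular_final B hB hqM hne e with hL
  set LF := annulusLevels_modular_final B hB hqM hne (Fr B hB hqM e) with hLF
  have hq0 : (q : Kb) ≠ 0 := Nat.cast_ne_zero.mpr hq.out.ne_zero
  have hQ0 : B.valuation (q : Kb) ≠ 0 := (Valuation.ne_zero_iff _).mpr hq0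
  have hv0 : B.valuation a₀ ≠ 0 := by
    intro h0
    rw [h0, zero_pow (Nat.succ_ne_zero q)] at ha₀
    exact hQ0 ha₀.symm
  have ha₀0 : a₀ ≠ 0 := (Valuation.ne_zero_iff _).mp hv0
  have hb₀0 : b₀ ≠ 0 := by
    apply (Valuation.ne_zero_iff B.valuation).mp
    rw [hb₀]
    exact pow_ne_zero _ hv0
  have hthF : B.valuation LF.thick = B.valuation (q : Kb) :=
    valuation_thick_levels_final B hB hqM h2 h3 hne (Fr B hB hqM e)
  have hth : B.valuation L.thick = B.valuation (q : Kb) :=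
    valuation_thick_levels_final B hB hqM h2 h3 hne e
  have hca0 : ca ≠ 0 := by
    rintro rfl
    rw [map_zero] at hca
    exact zero_ne_one hca
  have hcb0 : cb ≠ 0 := by
    rintro rfl
    rw [map_zero] at hcb
    exact zero_ne_one hcb
  have htF0 : LF.thick ≠ 0 := by
    apply (Valuation.ne_zero_iff B.valuation).mp
    rw [hthF]
    exact hQ0
  have huF0 : LF.u ≠ 0 := LF.u_ne_zero
  have hεa'' : TubeUnit B T'' (alpha2 M q εa) := tubeUnit_map (alpha2 M q) ha hTa hεa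
  have hεb'' : TubeUnit B T'' (beta2 M q εb) := tubeUnit_map (beta2 M q) hb hTb hεb
  have hεa0 : εa ≠ 0 := by
    rintro rfl
    rw [mul_zero] at hRa0
    exact vg_ne_zero B hB hqM e H hRa0
  have hεb0 : εb ≠ 0 := by
    rintro rfl
    rw [mul_zero] at hRb0
    exact ug_ne_zero B hB hqM (Fr B hB hqM e) H' hRb0
  -- (Ra)
  have hRa : alpha2 M q (heckeAlphaBar Kb M q g - heckeBetaBar Kb M q g' ^ q) =
      (ca * a₀) • alpha2 M q (a₀⁻¹ • L.u) * alpha2 M q εa := by
    rw [hRa0, map_mul, algHom_smul, algHom_smul, smul_smul, mul_inv_cancel_right₀ ha₀0]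
  -- (Rb)
  have hRb : beta2 M q (heckeBetaBar Kb M q g - heckeAlphaBar Kb M q g' ^ q) * L''.u =
      (cb * LF.thick * b₀⁻¹) • beta2 M q εb := by
    have h1 : (heckeBetaBar Kb M q g - heckeAlphaBar Kb M q g' ^ q) * (b₀⁻¹ • LF.u) =
        (cb * LF.thick * b₀⁻¹) • εb := by
      rw [hRb0, Algebra.smul_def, Algebra.smul_def, Algebra.smul_def, Algebra.smul_def, map_mul,
        map_mul]
      field_simp
    rw [hu'', ← map_mul, h1, algHom_smul]
  refine ⟨annSheet_wild_of_rels L'' hq.out.pos hRa hRb hV hεa'' hεb'' hεv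
    ((_root_.map_ne_zero _).mpr hεa0) ((_root_.map_ne_zero _).mpr hεb0)
    (mul_ne_zero hca0 ha₀0)
    (mul_ne_zero (mul_ne_zero hcb0 htF0) (inv_ne_zero hb₀0)) ?_ ?_⟩
  · rw [map_mul, hr₀, mul_one, map_mul, hca, one_mul, map_mul, map_mul, hcb, one_mul, map_inv₀,
      hthF, hb₀, gauge_aux hv0 ha₀, ← pow_succ', ha₀]
  · rw [hth'', map_mul, map_inv₀, hthF, hb₀, mul_comm, gauge_aux hv0 ha₀, map_mul, map_inv₀, hth,
      ← ha₀, pow_succ, mul_comm (B.valuation a₀ ^ q), ← mul_assoc, inv_mul_cancel₀ hv0, one_mul]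

set_option maxHeartbeats 3200000 in
/-- **(B2): the wild sheet of `nT e` along `b = β₂`**, over the OUTER node of `S'ref_b` at `Fr e`
(coordinate `u_{Fr e}`, thickness `b₀`).  `L''` ANY level data of the tube with coordinate
`α₂ u_e` and `|L''.thick|^q = |b₀|` (the split sheet along `a` over the outer node of `S'ref_a` at
`e`: thickness `a₀`, and `b₀ = a₀^q`). -/
theorem annSheet_nT (h2 : nuTwo M = 0) (h3 : nuThree M = 0) {g₀ g' g g'' : Fb M}
    (H : IsSSParam B hB hqM e g g' g'') (H' : IsSSParam B hB hqM (Fr B hB hqM e) g' g₀ g)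
    (ha : (alpha2 M q).toRingHom.IsIntegral) (hb : (beta2 M q).toRingHom.IsIntegral)
    (hTa : ∀ P ∈ T'', P.restrictAlong (alpha2 M q) ha ∈ tube (setupFinal B hB hqM hne) e)
    (hTb : ∀ P ∈ T'', P.restrictAlong (beta2 M q) hb ∈
      tube (setupFinal B hB hqM hne) (Fr B hB hqM e))
    (hW : TubeUnit B T'' (Ug M q g /
      alpha2 M q (-(heckeAlphaBar Kb M q g - heckeBetaBar Kb M q g' ^ q))))
    {b₀ : Kb} (L'' : AnnulusLevels B T'' ι'')
    (hu'' : L''.u = alpha2 M q (annulusLevels_modular_final B hB hqM hne e).u)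
    (hth'' : B.valuation L''.thick ^ q = B.valuation b₀) :
    Nonempty (AnnSheet B T''
      (beta2 M q (annulusLevels_modular_final B hB hqM hne (Fr B hB hqM e)).u) b₀ q) := by
  obtain ⟨r₀, hr₀, εv, hεv, hεv0, hV⟩ := exists_wild_rel_nT B hB hqM hne e h2 h3 H H' ha
    hTa hW
  obtain ⟨-, -, -, -, ⟨ca, εa, hca, hεa, hRa0⟩, -⟩ := exists_coord_of_param B hB hqM hne e h2 h3 H
  obtain ⟨-, -, -, -, -, ⟨cb, εb, hcb, hεb, hRb0⟩⟩ :=
    exists_coord_of_param B hB hqM hne (Fr B hB hqM e) h2 h3 H'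
  set L := annulusLevels_modular_final B hB hqM hne e with hL
  set LF := annulusLevels_modular_final B hB hqM hne (Fr B hB hqM e) with hLF
  have hq0 : (q : Kb) ≠ 0 := Nat.cast_ne_zero.mpr hq.out.ne_zero
  have hQ0 : B.valuation (q : Kb) ≠ 0 := (Valuation.ne_zero_iff _).mpr hq0
  have hthF : B.valuation LF.thick = B.valuation (q : Kb) :=
    valuation_thick_levels_final B hB hqM h2 h3 hne (Fr B hB hqM e)
  have hca0 : ca ≠ 0 := by
    rintro rfl
    rw [map_zero] at hca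
    exact zero_ne_one hca
  have hr₀0 : r₀ ≠ 0 := by
    rintro rfl
    rw [map_zero] at hr₀
    exact zero_ne_one hr₀
  have huF0 : LF.u ≠ 0 := LF.u_ne_zero
  have hεa'' : TubeUnit B T'' (alpha2 M q εa) := tubeUnit_map (alpha2 M q) ha hTa hεa
  have hεb'' : TubeUnit B T'' (beta2 M q εb) := tubeUnit_map (beta2 M q) hb hTb hεb
  have hεa0 : εa ≠ 0 := by
    rintro rfl
    rw [mul_zero] at hRa0
    exact vg_ne_zero B hB hqM e H hRa0
  -- (Ra)
  have hRa : alpha2 M q (heckeAlphaBar Kb M q g - heckeBetaBar Kb M q g' ^ q) =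
      ca • L''.u * alpha2 M q εa := by
    rw [hRa0, map_mul, algHom_smul, hu'']
  -- (Rb)
  have hRb : beta2 M q (heckeBetaBar Kb M q g - heckeAlphaBar Kb M q g' ^ q) *
      beta2 M q LF.u = (cb * LF.thick) • beta2 M q εb := by
    have h1 : (heckeBetaBar Kb M q g - heckeAlphaBar Kb M q g' ^ q) * LF.u =
        (cb * LF.thick) • εb := by
      rw [hRb0, Algebra.smul_def, Algebra.smul_def, Algebra.smul_def, map_mul]
      field_simp
    rw [← map_mul, h1, algHom_smul]
  have hcv0 : (-1 : Kb) ^ (q - 1) * ((q : Kb) * r₀) ≠ 0 :=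
    mul_ne_zero (pow_ne_zero _ (neg_ne_zero.mpr one_ne_zero)) (mul_ne_zero hq0 hr₀0)
  refine ⟨annSheet_wild_of_rels' L'' hq.out.pos hRa hRb hV hεa'' hεb'' hεv
    ((_root_.map_ne_zero _).mpr hεa0) hεv0 hca0 hcv0 ?_ ?_⟩
  · have hm1 : B.valuation ((-1 : Kb) ^ (q - 1)) = 1 := by
      rw [map_pow, Valuation.map_neg, map_one, one_pow]
    rw [map_mul, hm1, one_mul, map_mul, hr₀, mul_one, map_mul, hcb, one_mul, hthF, hca, one_pow,
      mul_one]
  · exact hth''

end Fermat.Agent.BR3.SDD.AnnSheetsWildMod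

end
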