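import Mathlib
import Fermat.Agent.BR3.SDD.AnnSheetsWild
import Fermat.Agent.BR3.SepN
import Fermat.Agent.BR.CentreOrd
import Fermat.Agent.BR.S0.AnnulusLevels

/-!
# Program C (S36), node I7 (W4-ANN), horizontal nodes: the relation `X · Y^q = q r₀ • (tube unit)`
of the wild sheets from the Kronecker congruence (abstract frame)

Frame: `F` (think `Fb (M q)`), `F''` (think `Fb (M q²)`), `a : F →ₐ[K] F''` (think `α₂`),
`L : AnnulusLevels A T ι` the level data of the tube `T` of the crossing `e` of the base, `i` a level.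
In the level `i`: `y` (`= α g`), `x₁` (`= β g'`), `x₂` (`= β g''`), a polynomial `Ψ₁` with
coefficients in the level such that

  `(y^q - x₂) (y - x₁^q) + q Ψ₁(y) = 0`                       in `F`   (`PAt g` at its root `α g`),
  `((a y + U)^q - a x₂) (a y + U - (a x₁)^q) + q Ψ₁ᵃ(a y + U) = 0`   in `F''` (`PAt g` at `β₂ (β g)`),

`Ψ₁(y)` a UNIT of the level, `y - x₁^q` a NON-unit.  Put `X = a (y - x₁^q)`, `Y = U + X`.
`T''` a set of places of `F''` lying over `T` along `a`.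

* `intRing A P` : the subring of the functions with an `A`-integral value at `P`;
* `exists_vertH_mem` : in any subring `R` containing the data,
  `X · U^(q-1) · Y = q (Ψ₁ᵃ(a y) - X · H)` with `H ∈ R` (binomial theorem + difference quotient);
* `tubeUnit_map` : the pull-back of a tube unit along `a`;
* **`exists_wild_rel`** : if `Y` has integral values on `T''` and `U / Y ≡ 1` on `T''`
  (the tube of `nW e`): `∃ r₀, |r₀| = 1 ∧ ∃ ε, TubeUnit A T'' ε ∧ ε ≠ 0 ∧ X * Y^q = (q r₀) • ε`;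
* **`exists_wild_rel'`** : if `-U / X ≡ 1` on `T''` (the tube of `nT e`):
  `∃ r₀, |r₀| = 1 ∧ ∃ ε, TubeUnit A T'' ε ∧ ε ≠ 0 ∧ Y * X^q = ((-1)^(q-1) q r₀) • ε`.
-/

set_option autoImplicit false
set_option linter.unusedSectionVars false
set_option linter.style.haveILetI false

namespace Fermat.Agent.BR3.SDD.AnnSheetsWildVert

open AlgebraicCurve IsLocalRing Polynomial Fermat.Agent.Red Fermat.Agent.BR.SS Fermat.Agent.BR.S0
  Fermat.Agent.BR.Circle Fermat.Agent.BR.Circle.Bound Fermat.Agent.BR.Centre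
  Fermat.Agent.BR3.SDD.AnnSheetsWild Fermat.Agent.BR3.SepN

/-! ### The ring identity -/

section RingIdentity

variable {R : Type*} [CommRing R]

/-- **The vertical identity in a commutative ring.** -/
theorem vert_identity_ring {q : ℕ} (hq : q.Prime) (x₂ x₁q a u : R) (Ψ : R[X])
    (h0 : (a ^ q - x₂) * (a - x₁q) + (q : R) * Ψ.eval a = 0)
    (h1 : ((a + u) ^ q - x₂) * (a + u - x₁q) + (q : R) * Ψ.eval (a + u) = 0) :
    ∃ H : R, u * ((a - x₁q) * u ^ (q - 1) * (a + u - x₁q)) =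
      u * ((q : R) * (Ψ.eval a - (a - x₁q) * H)) := by
  obtain ⟨r, hr⟩ := exists_add_pow_prime_eq hq a u
  obtain ⟨D, hD⟩ := sub_dvd_eval_sub (a + u) a Ψ
  have hD' : Ψ.eval (a + u) - Ψ.eval a = u * D := by
    rw [hD]; ring
  refine ⟨D + a * r * (a + u - x₁q), ?_⟩
  have hqq : u * u ^ (q - 1) = u ^ q := by
    rw [← pow_succ']
    congr 1
    have := hq.pos
    omega
  have e1 : u * ((a - x₁q) * u ^ (q - 1) * (a + u - x₁q)) =
      (a - x₁q) * u ^ q * (a + u - x₁q) := by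
    rw [← hqq]; ring
  rw [e1]
  linear_combination (a - x₁q) * h1 - (a - x₁q) * (a + u - x₁q) * hr -
    (q : R) * (a - x₁q) * hD' - (a + u - x₁q) * h0

end RingIdentity

variable {K F F'' : Type*} [Field K] [Field F] [Field F''] [Algebra K F] [Algebra K F'']
  {A : ValuationSubring K}

/-! ### Integral values at a place -/

/-- the functions with an `A`-integral value at `P` -/
def intRing (A : ValuationSubring K) (P : Place K F'') : Subring F'' where
  carrier := {f | ∃ c ∈ A, IsValueAt P f c}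
  mul_mem' := by
    rintro f g ⟨c, hc, h⟩ ⟨d, hd, h'⟩
    exact ⟨c * d, A.mul_mem _ _ hc hd, h.mul h'⟩
  one_mem' := ⟨1, A.one_mem, isValueAt_one P⟩
  add_mem' := by
    rintro f g ⟨c, hc, h⟩ ⟨d, hd, h'⟩
    exact ⟨c + d, A.add_mem _ _ hc hd, h.add h'⟩
  zero_mem' := ⟨0, A.zero_mem, isValueAt_zero P⟩
  neg_mem' := by
    rintro f ⟨c, hc, h⟩
    exact ⟨-c, A.neg_mem _ hc, h.neg⟩

theorem mem_intRing_iff {P : Place K F''} {f : F''} :
    f ∈ intRing A P ↔ ∃ c ∈ A, IsValueAt P f c := Iff.rfl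

theorem natCast_mem_intRing (P : Place K F'') (n : ℕ) : (n : F'') ∈ intRing A P :=
  natCast_mem _ n

/-- **The vertical identity in a subring of a field.** -/
theorem exists_vertH_mem (R : Subring F'') {q : ℕ} (hq : q.Prime) {x₂ x₁q a u : F''}
    {Ψ : F''[X]} (hx₂ : x₂ ∈ R) (hx₁q : x₁q ∈ R) (ha : a ∈ R) (hu : u ∈ R)
    (hΨ : ∀ n, Ψ.coeff n ∈ R) (hu0 : u ≠ 0)
    (h0 : (a ^ q - x₂) * (a - x₁q) + (q : F'') * Ψ.eval a = 0)
    (h1 : ((a + u) ^ q - x₂) * (a + u - x₁q) + (q : F'') * Ψ.eval (a + u) = 0) :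
    ∃ H ∈ R, (a - x₁q) * u ^ (q - 1) * (a + u - x₁q) =
      (q : F'') * (Ψ.eval a - (a - x₁q) * H) := by
  have hcoef : (↑Ψ.coeffs : Set F'') ⊆ R := by
    intro c hc
    obtain ⟨n, -, rfl⟩ := (Polynomial.mem_coeffs_iff).mp hc
    exact hΨ n
  set Ψs : R[X] := Ψ.toSubring R hcoef with hΨs
  have hmap : Ψs.map R.subtype = Ψ := Polynomial.map_toSubring Ψ R hcoef
  have hev : ∀ z : R, ((Ψs.eval z : R) : F'') = Ψ.eval (z : F'') := by
    intro z
    have := Polynomial.eval_map_apply (p := Ψs) R.subtype z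
    rw [hmap] at this
    exact this.symm
  have h0' : ((⟨a, ha⟩ : R) ^ q - ⟨x₂, hx₂⟩) * (⟨a, ha⟩ - ⟨x₁q, hx₁q⟩) +
      (q : R) * Ψs.eval ⟨a, ha⟩ = 0 := by
    apply Subtype.ext
    push_cast
    rw [hev]
    exact h0
  have h1' : (((⟨a, ha⟩ : R) + ⟨u, hu⟩) ^ q - ⟨x₂, hx₂⟩) *
      (⟨a, ha⟩ + ⟨u, hu⟩ - ⟨x₁q, hx₁q⟩) + (q : R) * Ψs.eval (⟨a, ha⟩ + ⟨u, hu⟩) = 0 := by
    apply Subtype.ext
    push_cast
    rw [hev]
    exact h1
  obtain ⟨H, hH⟩ := vert_identity_ring hq (⟨x₂, hx₂⟩ : R) ⟨x₁q, hx₁q⟩ ⟨a, ha⟩ ⟨u, hu⟩ Ψs h0' h1'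
  refine ⟨(H : F''), H.2, ?_⟩
  have hH' := congrArg (fun z : R => (z : F'')) hH
  push_cast at hH'
  rw [hev] at hH'
  exact mul_left_cancel₀ hu0 hH'

/-! ### Pull-back of values along `a` -/

section Pullback

variable (a : F →ₐ[K] F'') (ha : a.toRingHom.IsIntegral) {T : Set (Place K F)}
  {T'' : Set (Place K F'')}

/-- the pull-back of a tube unit along `a` -/
theorem tubeUnit_map (hT : ∀ P ∈ T'', P.restrictAlong a ha ∈ T) {ε : F}
    (hε : TubeUnit A T ε) : TubeUnit A T'' (a ε) := fun P hP => by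
  obtain ⟨d, h1, h2⟩ := hε _ (hT P hP)
  exact ⟨d, (isValueAt_restrictAlong_iff a ha P ε d).mp h1, h2⟩

variable {ι : Type*} (L : AnnulusLevels A T ι) (i : ι)

include L in
/-- the functions of a level have integral values at the places over the tube -/
theorem map_mem_intRing (hT : ∀ P ∈ T'', P.restrictAlong a ha ∈ T) {P : Place K F''}
    (hP : P ∈ T'') {f : F} (hf : f ∈ (L.level i).R) : a f ∈ intRing A P := by
  obtain ⟨hI, -⟩ := (L.level i).centred _ (hT P hP)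
  obtain ⟨c, hc, h⟩ := hI f hf
  exact ⟨c, hc, (isValueAt_restrictAlong_iff a ha P f c).mp h⟩

include L in
/-- the non-units of a level have small values at the places over the tube -/
theorem exists_value_small (hT : ∀ P ∈ T'', P.restrictAlong a ha ∈ T) {P : Place K F''}
    (hP : P ∈ T'') {f : F} (hf : f ∈ (L.level i).R)
    (hnu : ¬ IsUnit (⟨f, hf⟩ : (L.level i).R)) :
    ∃ d : K, IsValueAt P (a f) d ∧ A.valuation d < 1 := by
  have hc := (L.level i).centred _ (hT P hP)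
  obtain ⟨hI, -⟩ := id hc
  refine ⟨evalAt (P.restrictAlong a ha) f,
    (isValueAt_restrictAlong_iff a ha P f _).mp (hI.isValueAt_evalAt hf), ?_⟩
  exact hc.valuation_evalAt_lt_one (y := ⟨f, hf⟩) hnu

include L in
/-- the units of a level have values `≡ r₀` (a unit constant) at the places over the tube -/
theorem exists_value_unit (hT : ∀ P ∈ T'', P.restrictAlong a ha ∈ T) {z : F}
    (hz : z ∈ (L.level i).R) (hu : IsUnit (⟨z, hz⟩ : (L.level i).R)) :
    ∃ r₀ : K, A.valuation r₀ = 1 ∧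
      ∀ P ∈ T'', ∃ d : K, IsValueAt P (a z) d ∧ A.valuation (d - r₀) < 1 := by
  rcases Set.eq_empty_or_nonempty T'' with hemp | ⟨P₁, hP₁⟩
  · exact ⟨1, map_one _, fun P hP => absurd hP (by rw [hemp]; exact Set.notMem_empty P)⟩
  obtain ⟨e₀, he₀R, he₀⟩ := (L.level i).residue ⟨z, hz⟩
  have hval : ∀ P ∈ T'', ∃ d : K, IsValueAt P (a z) d ∧ A.valuation (d - (e₀ : K)) < 1 := by
    intro P hP
    have hc := (L.level i).centred _ (hT P hP)
    obtain ⟨hI, -⟩ := id hc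
    have h1 : IsValueAt (P.restrictAlong a ha) z (evalAt (P.restrictAlong a ha) z) :=
      hI.isValueAt_evalAt hz
    refine ⟨_, (isValueAt_restrictAlong_iff a ha P z _).mp h1, ?_⟩
    have h2 := h1.sub (isValueAt_algebraMap (P.restrictAlong a ha) (e₀ : K))
    have h3 := hc.valuation_evalAt_lt_one he₀
    have h4 : (((⟨z, hz⟩ : (L.level i).R) - ⟨algebraMap K F e₀, he₀R⟩ : (L.level i).R) : F) =
        z - algebraMap K F (e₀ : K) := rfl
    rw [h4, evalAt_eq_of_isValueAt h2] at h3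
    exact h3
  refine ⟨(e₀ : K), ?_, hval⟩
  -- `e₀` is a unit of `A` since `z` is a unit of the level: look at the place `P₁`
  by_contra hne
  have hlt : A.valuation (e₀ : K) < 1 :=
    lt_of_le_of_ne ((A.valuation_le_one_iff _).mpr e₀.2) hne
  obtain ⟨d, hd1, hd2⟩ := hval P₁ hP₁
  have hdlt : A.valuation d < 1 := by
    have e : d = (d - (e₀ : K)) + (e₀ : K) := by ring
    rw [e]
    exact lt_of_le_of_lt (Valuation.map_add _ _ _) (max_lt hd2 hlt)
  -- the inverse of `z` in the level has an integral value at `P₁`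
  obtain ⟨w, hw⟩ := hu.exists_right_inv
  have hw' : z * (w : F) = 1 := by
    have := congrArg (fun t : (L.level i).R => (t : F)) hw
    simpa using this
  obtain ⟨c, hc, hcv⟩ := map_mem_intRing a ha L i hT hP₁ w.2
  have hprod := hd1.mul hcv
  rw [← map_mul, hw', map_one] at hprod
  have h5 := hprod.unique (isValueAt_one P₁)
  have h6 := congrArg A.valuation h5
  rw [map_mul, map_one] at h6
  have h7 : A.valuation c ≤ 1 := (A.valuation_le_one_iff _).mpr hc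
  have : A.valuation d * A.valuation c < 1 := by
    calc A.valuation d * A.valuation c ≤ A.valuation d * 1 := mul_le_mul' le_rfl h7
      _ = A.valuation d := mul_one _
      _ < 1 := hdlt
  rw [h6] at this
  exact lt_irrefl _ this

end Pullback

/-! ### The relation of the wild sheets -/

section Main

variable (a : F →ₐ[K] F'') (ha : a.toRingHom.IsIntegral) {T : Set (Place K F)}
  {T'' : Set (Place K F'')} {ι : Type*} (L : AnnulusLevels A T ι) (i : ι)

include L in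
/-- **The vertical polynomial on the places over the tube**: `X · U^(q-1) · Y = (q r₀) • G` with
`G` a tube unit, as soon as `U` has integral values on `T''`. -/
theorem exists_vertG {q : ℕ} (hq : q.Prime) (hq0 : (q : K) ≠ 0)
    (hT : ∀ P ∈ T'', P.restrictAlong a ha ∈ T) {x₁ x₂ y : F} {Ψ₁ : F[X]} {U : F''}
    (hx₁ : x₁ ∈ (L.level i).R) (hx₂ : x₂ ∈ (L.level i).R) (hy : y ∈ (L.level i).R)
    (hΨ : ∀ n, Ψ₁.coeff n ∈ (L.level i).R)
    (hz : Ψ₁.eval y ∈ (L.level i).R) (hR : IsUnit (⟨_, hz⟩ : (L.level i).R))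
    (hv : y - x₁ ^ q ∈ (L.level i).R) (hvnu : ¬ IsUnit (⟨_, hv⟩ : (L.level i).R))
    (h0 : (y ^ q - x₂) * (y - x₁ ^ q) + (q : F) * Ψ₁.eval y = 0)
    (h1 : ((a y + U) ^ q - a x₂) * (a y + U - (a x₁) ^ q) +
      (q : F'') * (Ψ₁.map (a : F →+* F'')).eval (a y + U) = 0)
    (hU0 : U ≠ 0) (hX0 : a (y - x₁ ^ q) ≠ 0)
    (hUint : ∀ P ∈ T'', U ∈ intRing A P) :
    ∃ r₀ : K, A.valuation r₀ = 1 ∧ ∃ G : F'', TubeUnit A T'' G ∧
      a (y - x₁ ^ q) * U ^ (q - 1) * (U + a (y - x₁ ^ q)) = ((q : K) * r₀) • G := by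
  obtain ⟨r₀, hr₀, hRv⟩ := exists_value_unit a ha L i hT hz hR
  have hr₀0 : r₀ ≠ 0 := by
    rintro rfl
    rw [map_zero] at hr₀
    exact zero_ne_one hr₀
  have hqF : (q : F'') ≠ 0 := by
    have h := (map_ne_zero (algebraMap K F'')).mpr hq0
    rwa [map_natCast] at h
  set X : F'' := a (y - x₁ ^ q) with hXdef
  set Rr : F'' := a (Ψ₁.eval y) with hRrdef
  have hXe : X = a y - (a x₁) ^ q := by rw [hXdef, map_sub, map_pow]
  have hYe : U + X = a y + U - (a x₁) ^ q := by rw [hXe]; ring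
  have hRre : (Ψ₁.map (a : F →+* F'')).eval (a y) = Rr := by
    have := Polynomial.eval_map_apply (p := Ψ₁) (a : F →+* F'') y
    simpa using this
  -- the identity of `F` through `a`
  have h0' : ((a y) ^ q - a x₂) * (a y - (a x₁) ^ q) +
      (q : F'') * (Ψ₁.map (a : F →+* F'')).eval (a y) = 0 := by
    have h := congrArg a h0
    rw [map_add, map_mul, map_mul, map_sub, map_sub, map_pow, map_pow, map_natCast, map_zero] at h
    rw [hRre]
    exact h
  -- the global function `H`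
  set H : F'' := (Rr - X * U ^ (q - 1) * (U + X) / (q : F'')) / X with hHdef
  have hpoly : X * U ^ (q - 1) * (U + X) = (q : F'') * (Rr - X * H) := by
    rw [hHdef]
    field_simp
    ring
  -- `H` has integral values
  have hHint : ∀ P ∈ T'', ∃ d : K, IsValueAt P H d ∧ A.valuation d ≤ 1 := by
    intro P hP
    have m := fun {f : F} (hf : f ∈ (L.level i).R) => map_mem_intRing a ha L i hT hP hf
    obtain ⟨H', hH'R, hH'⟩ := exists_vertH_mem (intRing A P) hq (m hx₂)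
      ((intRing A P).pow_mem (m hx₁) q) (m hy) (hUint P hP)
      (fun n => by rw [Polynomial.coeff_map]; exact m (hΨ n)) hU0 h0' h1
    rw [hRre, ← hXe, ← hYe] at hH'
    have hHH : H' = H := by
      have h2 : (q : F'') * (Rr - X * H') = (q : F'') * (Rr - X * H) := by rw [← hH', hpoly]
      have h3 := mul_left_cancel₀ hqF h2
      have h4 : X * H' = X * H := by linear_combination -h3
      exact mul_left_cancel₀ hX0 h4
    rw [← hHH]
    obtain ⟨d, hd, hdv⟩ := hH'R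
    exact ⟨d, hdv, (A.valuation_le_one_iff _).mpr hd⟩
  have hXsmall : ∀ P ∈ T'', ∃ d : K, IsValueAt P X d ∧ A.valuation d < 1 := fun P hP =>
    exists_value_small a ha L i hT hP hv hvnu
  refine ⟨r₀, hr₀, r₀⁻¹ • (Rr - X * H), tubeUnit_vertG hr₀ hRv hXsmall hHint, ?_⟩
  rw [hpoly, smul_smul, mul_assoc, mul_inv_cancel₀ hr₀0, mul_one, Algebra.smul_def, map_natCast]

include L in
/-- **The wild relation on the tube of `nW e`** (`U / Y ≡ 1`): `X · Y^q = (q r₀) • ε`. -/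
theorem exists_wild_rel {q : ℕ} (hq : q.Prime) (hq0 : (q : K) ≠ 0)
    (hT : ∀ P ∈ T'', P.restrictAlong a ha ∈ T) {x₁ x₂ y : F} {Ψ₁ : F[X]} {U : F''}
    (hx₁ : x₁ ∈ (L.level i).R) (hx₂ : x₂ ∈ (L.level i).R) (hy : y ∈ (L.level i).R)
    (hΨ : ∀ n, Ψ₁.coeff n ∈ (L.level i).R)
    (hz : Ψ₁.eval y ∈ (L.level i).R) (hR : IsUnit (⟨_, hz⟩ : (L.level i).R))
    (hv : y - x₁ ^ q ∈ (L.level i).R) (hvnu : ¬ IsUnit (⟨_, hv⟩ : (L.level i).R))
    (h0 : (y ^ q - x₂) * (y - x₁ ^ q) + (q : F) * Ψ₁.eval y = 0)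
    (h1 : ((a y + U) ^ q - a x₂) * (a y + U - (a x₁) ^ q) +
      (q : F'') * (Ψ₁.map (a : F →+* F'')).eval (a y + U) = 0)
    (hU0 : U ≠ 0) (hX0 : a (y - x₁ ^ q) ≠ 0) (hY0 : U + a (y - x₁ ^ q) ≠ 0)
    (hYint : ∀ P ∈ T'', U + a (y - x₁ ^ q) ∈ intRing A P)
    (hW : TubeUnit A T'' (U * (U + a (y - x₁ ^ q))⁻¹)) :
    ∃ r₀ : K, A.valuation r₀ = 1 ∧ ∃ ε : F'', TubeUnit A T'' ε ∧ ε ≠ 0 ∧
      a (y - x₁ ^ q) * (U + a (y - x₁ ^ q)) ^ q = ((q : K) * r₀) • ε := by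
  have hUint : ∀ P ∈ T'', U ∈ intRing A P := by
    intro P hP
    obtain ⟨d, hd1, hd2⟩ := hW P hP
    have hdA : d ∈ A := by
      have h1 : d - 1 ∈ A := (A.valuation_le_one_iff _).mp hd2.le
      have := A.add_mem _ _ h1 A.one_mem
      simpa using this
    have hmem : U * (U + a (y - x₁ ^ q))⁻¹ ∈ intRing A P := ⟨d, hdA, hd1⟩
    have e : U = U * (U + a (y - x₁ ^ q))⁻¹ * (U + a (y - x₁ ^ q)) := by
      rw [mul_assoc, inv_mul_cancel₀ hY0, mul_one]
    rw [e]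
    exact (intRing A P).mul_mem hmem (hYint P hP)
  obtain ⟨r₀, hr₀, G, hG, hpoly⟩ := exists_vertG a ha L i hq hq0 hT hx₁ hx₂ hy hΨ hz hR hv hvnu
    h0 h1 hU0 hX0 hUint
  have hrel := wild_rel hq.pos hU0 hY0 hpoly
  refine ⟨r₀, hr₀, _, tubeUnit_wild (q := q) hW hG, ?_, hrel⟩
  intro hε
  rw [hε, smul_zero] at hrel
  exact mul_ne_zero hX0 (pow_ne_zero _ hY0) hrel

include L in
/-- **The wild relation on the tube of `nT e`** (`-U / X ≡ 1`):
`Y · X^q = ((-1)^(q-1) q r₀) • ε`. -/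
theorem exists_wild_rel' {q : ℕ} (hq : q.Prime) (hq0 : (q : K) ≠ 0)
    (hT : ∀ P ∈ T'', P.restrictAlong a ha ∈ T) {x₁ x₂ y : F} {Ψ₁ : F[X]} {U : F''}
    (hx₁ : x₁ ∈ (L.level i).R) (hx₂ : x₂ ∈ (L.level i).R) (hy : y ∈ (L.level i).R)
    (hΨ : ∀ n, Ψ₁.coeff n ∈ (L.level i).R)
    (hz : Ψ₁.eval y ∈ (L.level i).R) (hR : IsUnit (⟨_, hz⟩ : (L.level i).R))
    (hv : y - x₁ ^ q ∈ (L.level i).R) (hvnu : ¬ IsUnit (⟨_, hv⟩ : (L.level i).R))
    (h0 : (y ^ q - x₂) * (y - x₁ ^ q) + (q : F) * Ψ₁.eval y = 0)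
    (h1 : ((a y + U) ^ q - a x₂) * (a y + U - (a x₁) ^ q) +
      (q : F'') * (Ψ₁.map (a : F →+* F'')).eval (a y + U) = 0)
    (hU0 : U ≠ 0) (hX0 : a (y - x₁ ^ q) ≠ 0) (hY0 : U + a (y - x₁ ^ q) ≠ 0)
    (hW : TubeUnit A T'' (-U * (a (y - x₁ ^ q))⁻¹)) :
    ∃ r₀ : K, A.valuation r₀ = 1 ∧ ∃ ε : F'', TubeUnit A T'' ε ∧ ε ≠ 0 ∧
      (U + a (y - x₁ ^ q)) * a (y - x₁ ^ q) ^ q = ((-1) ^ (q - 1) * ((q : K) * r₀)) • ε := by
  have hUint : ∀ P ∈ T'', U ∈ intRing A P := by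
    intro P hP
    obtain ⟨d, hd1, hd2⟩ := hW P hP
    have hdA : d ∈ A := by
      have h1 : d - 1 ∈ A := (A.valuation_le_one_iff _).mp hd2.le
      have := A.add_mem _ _ h1 A.one_mem
      simpa using this
    have hmem : -U * (a (y - x₁ ^ q))⁻¹ ∈ intRing A P := ⟨d, hdA, hd1⟩
    have e : U = -(-U * (a (y - x₁ ^ q))⁻¹ * a (y - x₁ ^ q)) := by
      rw [mul_assoc, inv_mul_cancel₀ hX0, mul_one, neg_neg]
    rw [e]
    exact (intRing A P).neg_mem ((intRing A P).mul_mem hmem (map_mem_intRing a ha L i hT hP hv))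
  obtain ⟨r₀, hr₀, G, hG, hpoly⟩ := exists_vertG a ha L i hq hq0 hT hx₁ hx₂ hy hΨ hz hR hv hvnu
    h0 h1 hU0 hX0 hUint
  have hrel := wild_rel' hq.pos hU0 hX0 hpoly
  refine ⟨r₀, hr₀, _, tubeUnit_wild' (q := q) hW hG, ?_, hrel⟩
  intro hε
  rw [hε, smul_zero] at hrel
  exact mul_ne_zero hY0 (pow_ne_zero _ hX0) hrel

end Main

end Fermat.Agent.BR3.SDD.AnnSheetsWildVert
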