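import Fermat.Agent.BR3.VertAllParam
import Fermat.Agent.BR3.SDD.AnnSheetsWildVert

/-!
# Program C (S36), node I7 (W4-ANN), horizontal nodes: the coordinate relations of a twisted triple
on the tube of a supersingular crossing

`e` a crossing of main's two-component model `S'` of `X₀(M q)` at `q` (`M` without elliptic points),
`L := annulusLevels_modular_final B hB hqM hne e` the level data of its tube, `(g, g', g'')` a twisted
triple with simple zeros at `e` (`SSParam.IsSSParam`).  Put

  `v_g = α g - (β g')^q`   (`u`-type: vanishes on `'et'`, simple zero at `z₁ e` on `'can'`),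
  `u_g = β g'' - (α g)^q`  (`v`-type: vanishes on `'can'`, simple zero at `z₂ e` on `'et'`).

* `exists_coord_of_param` : the Kronecker polynomial `Ψ₁` of `g` (coefficients in the base level,
  `Ψ₁(α g)` a UNIT of the base level), and the two coordinate relations

    `v_g = c_a • L.u * ε_a`,    `u_g = c_b • (L.thick • L.u⁻¹) * ε_b`,   `|c_a| = |c_b| = 1`,

  `ε_a`, `ε_b` tube units (helper9's `VertCoord` for the chart of the level data);
* `not_isUnit_vg` : `v_g` is a NON-unit of the base level;
* `mem_level_vg`, `mem_level_ug` : memberships.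

These are the inputs (Ra), (Rb) of `AnnSheetsWild.annSheet_wild_of_rels(')` and `hR`, `hvnu` of
`AnnSheetsWildVert.exists_wild_rel(')`.
-/

set_option autoImplicit false
set_option linter.unusedSectionVars false
set_option linter.style.haveILetI false
set_option synthInstance.maxHeartbeats 400000

noncomputable section

/- S36 build-time patch: file-local shortcut instances. They only shorten instance search;
each is the instance that the search finds anyway (reducible, same terms after unfolding). -/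
local instance (priority := 100000) Fermat.Agent.BR3.FastInst.instAlgFullC_SDD_AnnSheetsWildParam
    {k : Type*} [Field k] (N : ℕ) :
    Algebra k ↥(ModularCurve.modularFunctionFieldFullC k N) := inferInstance
local instance (priority := 100000) Fermat.Agent.BR3.FastInst.instFieldFullC_SDD_AnnSheetsWildParam
    {k : Type*} [Field k] (N : ℕ) :
    Field ↥(ModularCurve.modularFunctionFieldFullC k N) := inferInstance
local instance (priority := 100000) Fermat.Agent.BR3.FastInst.instAlgLaurent_SDD_AnnSheetsWildParam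
    {k : Type*} [Field k] : Algebra k (LaurentSeries k) := inferInstance


namespace Fermat.Agent.BR3.SDD.AnnSheetsWildParam

open Polynomial ModularCurve AlgebraicCurve IsLocalRing
open Fermat.Agent.X0 Fermat.Agent.Val Fermat.Agent.Red Fermat.Agent.Hecke
open Fermat.Agent.BR.SS Fermat.Agent.BR.Refine Fermat.Agent.BR.TwoVal Fermat.Agent.BR.TwoValInst
open Fermat.Agent.BR.ResGen
open Fermat.Agent.BR.Circle Fermat.Agent.BR.S0 Fermat.Agent.BR.S0.RedModular
open Fermat.Agent.BR.S0.PointDict Fermat.Agent.BR.S0.AnnulusChartOfLevels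
open Fermat.Agent.BR.S0.Modular Fermat.Agent.BR.S0.ThickFinal
open Fermat.Agent.BR.Inst.Levels Fermat.Agent.BR.Inst.NormalModel Fermat.Agent.BR.Inst.LevelsInst
open Fermat.Agent.BR.Inst.SpecIso
open Fermat.Agent.BR.Inst.AnnulusInstFinal Fermat.Agent.BR.Final
open Fermat.Agent.BR3.FibreProd Fermat.Agent.BR3.VertResidue Fermat.Agent.BR3.HeckePoly
open Fermat.Agent.BR3.HeckePolyKron Fermat.Agent.BR3.HeckePolyModel
open Fermat.Agent.BR3.HeckePolyDescent
open Fermat.Agent.BR3.VertCircleMod Fermat.Agent.BR3.VertLevelMem Fermat.Agent.BR3.VertFinal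
open Fermat.Agent.BR3.VertTube Fermat.Agent.BR3.VertAllLevels Fermat.Agent.BR3.VertAll
open Fermat.Agent.BR3.VertAllParam Fermat.Agent.BR3.VertCoord Fermat.Agent.BR3.CircleN
open Fermat.Agent.BR3.ThickOneFinal Fermat.Agent.BR3.ThickOneUnit Fermat.Agent.BR3.SSParam

variable {M q : ℕ} [NeZero M] [hq : Fact q.Prime]
variable (B : ValuationSubring Kb) (hB : B.LiesOverPrime q) (hqM : ¬ q ∣ M)
variable [IsAlgClosed (ResidueField B)] [CharP (ResidueField B) q]
  (hne : Nonempty (Crossing (chartDataModular B hB hqM)))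
  (e : Crossing (chartDataModular B hB hqM))

local notation "kB" => ResidueField B

/-- `v_g = α g - (β g')^q` lies in the base level of the tube of `e`. -/
theorem mem_level_vg {g g' g'' : Fb M} (P : IsSSParam B hB hqM e g g' g'') :
    heckeAlphaBar Kb M q g - (heckeBetaBar Kb M q g') ^ q ∈
      ((annulusLevels_modular_final B hB hqM hne e).level (∅ : Finset Kb)).R :=
  sub_mem (alpha_mem_level B hB hqM hne e P.hg) (pow_mem (beta_mem_level B hB hqM hne e P.hg') q)

/-- `u_g = β g'' - (α g)^q` lies in the base level of the tube of `e`. -/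
theorem mem_level_ug {g g' g'' : Fb M} (P : IsSSParam B hB hqM e g g' g'') :
    heckeBetaBar Kb M q g'' - (heckeAlphaBar Kb M q g) ^ q ∈
      ((annulusLevels_modular_final B hB hqM hne e).level (∅ : Finset Kb)).R :=
  sub_mem (beta_mem_level B hB hqM hne e P.hg'') (pow_mem (alpha_mem_level B hB hqM hne e P.hg) q)

set_option maxHeartbeats 1600000 in
/-- `v_g` is a NON-unit of the base level (it vanishes identically on `'et'`). -/
theorem not_isUnit_vg {g g' g'' : Fb M} (P : IsSSParam B hB hqM e g g' g'')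
    (hv : heckeAlphaBar Kb M q g - (heckeBetaBar Kb M q g') ^ q ∈
      ((annulusLevels_modular_final B hB hqM hne e).level (∅ : Finset Kb)).R) :
    ¬ IsUnit (⟨_, hv⟩ :
      ((annulusLevels_modular_final B hB hqM hne e).level (∅ : Finset Kb)).R) := by
  intro hu
  have hgO := mem_OM_of_mem_CMod_base B hB hqM P.hg
  have hg'O := mem_OM_of_mem_CMod_base B hB hqM P.hg'
  have hx₂ : heckeAlphaBar Kb M q g - (heckeBetaBar Kb M q g') ^ q ∈
      (compW B hB hqM 1).O.nonunits := vg_mem_nonunits_O2 B hB hqM hgO hg'O P.untwist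
  obtain ⟨w, hw⟩ := hu.exists_right_inv
  have h1 : (heckeAlphaBar Kb M q g - (heckeBetaBar Kb M q g') ^ q) * (w : Fb (M * q)) = 1 := by
    have := congrArg
      (fun t : ((annulusLevels_modular_final B hB hqM hne e).level (∅ : Finset Kb)).R =>
        (t : Fb (M * q))) hw
    simpa using this
  have hwO : (w : Fb (M * q)) ∈ (compW B hB hqM 1).O :=
    (branchData_modular_final B hB hqM hne e).le₂ ∅ w w.2
  have h2 := (ValuationSubring.mem_nonunits_iff (A := (compW B hB hqM 1).O)).mp hx₂
  have h3 := ((compW B hB hqM 1).O.valuation_le_one_iff _).mpr hwO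
  have h4 := congrArg (compW B hB hqM 1).O.valuation h1
  rw [map_mul, map_one] at h4
  have h5 : (compW B hB hqM 1).O.valuation
      (heckeAlphaBar Kb M q g - (heckeBetaBar Kb M q g') ^ q) *
      (compW B hB hqM 1).O.valuation (w : Fb (M * q)) < 1 :=
    lt_of_le_of_lt (mul_le_mul' le_rfl h3) (by rwa [mul_one])
  rw [h4] at h5
  exact lt_irrefl _ h5

set_option maxHeartbeats 1600000 in
/-- **The Kronecker polynomial and the two coordinate relations of a twisted triple with simple
zeros at `e`.** -/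
theorem exists_coord_of_param (h2 : nuTwo M = 0) (h3 : nuThree M = 0) {g g' g'' : Fb M}
    (P : IsSSParam B hB hqM e g g' g'') :
    ∃ Ψ₁ : (Fb (M * q))[X],
      PAt M q g =
        (X ^ q - C (heckeBetaBar Kb M q g'')) * (X - C ((heckeBetaBar Kb M q g') ^ q)) +
          C ((q : ℕ) : Fb (M * q)) * Ψ₁ ∧
      (∀ k, Ψ₁.coeff k ∈
        ((annulusLevels_modular_final B hB hqM hne e).level (∅ : Finset Kb)).R) ∧
      (∃ hz : Ψ₁.eval (heckeAlphaBar Kb M q g) ∈
          ((annulusLevels_modular_final B hB hqM hne e).level (∅ : Finset Kb)).R,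
        IsUnit (⟨_, hz⟩ :
          ((annulusLevels_modular_final B hB hqM hne e).level (∅ : Finset Kb)).R)) ∧
      (∃ (ca : Kb) (εa : Fb (M * q)), B.valuation ca = 1 ∧
        TubeUnit B (tube (setupFinal B hB hqM hne) e) εa ∧
        heckeAlphaBar Kb M q g - (heckeBetaBar Kb M q g') ^ q =
          ca • (annulusLevels_modular_final B hB hqM hne e).u * εa) ∧
      (∃ (cb : Kb) (εb : Fb (M * q)), B.valuation cb = 1 ∧
        TubeUnit B (tube (setupFinal B hB hqM hne) e) εb ∧
        heckeBetaBar Kb M q g'' - (heckeAlphaBar Kb M q g) ^ q =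
          cb • ((annulusLevels_modular_final B hB hqM hne e).thick •
            ((annulusLevels_modular_final B hB hqM hne e).u)⁻¹) * εb) := by
  obtain ⟨Ψ₁, hΨ, hP⟩ := exists_kronecker_PAt_q B hB hqM P.hg P.hg' P.hg'' P.untwist P.twist
  have hgO := mem_OM_of_mem_CMod_base B hB hqM P.hg
  have hg'O := mem_OM_of_mem_CMod_base B hB hqM P.hg'
  have hg''O := mem_OM_of_mem_CMod_base B hB hqM P.hg''
  have hαR := alpha_mem_level B hB hqM hne e P.hg
  have hΨR : ∀ k, Ψ₁.coeff k ∈
      ((annulusLevels_modular_final B hB hqM hne e).level (∅ : Finset Kb)).R :=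
    fun k => CQ0_le_level B hB hqM hne e (hΨ k)
  have hx := mem_level_vg B hB hqM hne e P
  have hy := mem_level_ug B hB hqM hne e P
  have hz : Ψ₁.eval (heckeAlphaBar Kb M q g) ∈
      ((annulusLevels_modular_final B hB hqM hne e).level (∅ : Finset Kb)).R :=
    eval_mem_of_coeff_mem _ hΨR hαR
  have hxyz := vg_mul_ug (M := M) (q := q) hqM hP
  have hx₂ : heckeAlphaBar Kb M q g - (heckeBetaBar Kb M q g') ^ q ∈
      (compW B hB hqM 1).O.nonunits := vg_mem_nonunits_O2 B hB hqM hgO hg'O P.untwist
  have hy₁ : heckeBetaBar Kb M q g'' - (heckeAlphaBar Kb M q g) ^ q ∈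
      (compW B hB hqM 0).O.nonunits := ug_mem_nonunits_O1 B hB hqM hgO hg''O P.twist
  have hxO := vg_mem_O1 B hB hqM hgO hg'O
  have hyO := ug_mem_O2 B hB hqM hgO hg''O
  have hR := isUnit_of_simple_zeros_final B hB hqM hne e h2 h3 hx hy hz hx₂ hy₁ hxO hyO
    (P.hxord _) (P.hyord _) hxyz
  have hq0 : ((q : ℕ) : Kb) ≠ 0 := Nat.cast_ne_zero.mpr hq.out.ne_zero
  have X := branchData_modular_final B hB hqM hne e
  have hordx := ord_eq_zero_of_mul_eq_smul (annulusLevels_modular_final B hB hqM hne e) ∅
    hx hy hz hR hq0 hxyz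
  have hordy := ord_eq_zero_of_mul_eq_smul (annulusLevels_modular_final B hB hqM hne e) ∅
    hy hx hz hR hq0 ((mul_comm _ _).trans hxyz)
  refine ⟨Ψ₁, hP, hΨR, ⟨hz, hR⟩, ?_, ?_⟩
  · obtain ⟨c₀, ε, h1, h2', h3'⟩ := exists_eq_smul_coord_mul_nodeUnit
      (AnnulusChartN.ofChart X.annulusChartOfLevels) (X.le₁ ∅ _ hx) (P.hxord _) hordx
    exact ⟨c₀, ε, h1, h2'.1, h3'⟩
  · obtain ⟨c₁, ε, h1, h2', h3'⟩ := exists_eq_smul_cocoord_mul_nodeUnit
      (AnnulusChartN.ofChart X.annulusChartOfLevels) (X.le₂ ∅ _ hy) (P.hyord _) hordy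
    exact ⟨c₁, ε, h1, h2'.1, h3'⟩

end Fermat.Agent.BR3.SDD.AnnSheetsWildParam

end
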