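import Mathlib
import Fermat.Agent.BR3.SDD.TubeFam

/-!
# Program C (S36), node I7 (W4), part 5: `SDD.CaseCircle` from levels on the raw node tubes

`X : SDD.CaseInput` whose node tubes are the raw tubes of the owners:
`X.TH false (X.pInf e) = nodeTube (nT e)`, `X.TM (X.comp e s) (X.pMid e s) = nodeTube (nk e s)`,
`X.TZ e (X.zW e) = nodeTube (nW e)` (for `X = caseInputOfRaw ..` these are `THf_pInf`, `TMf_pMid`,
`TZf_zW`: `caseInputOfRaw_hT`, `_hK`, `_hW` below).  The owners of the nodes give the levels, the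
branch data per component, `v ∈ 𝔪_src`, `u ∈ 𝔪_tgt` and the uniformizers ON THE RAW TUBES.

* `CaseCircle.ofRaw` : the structure `SDD.CaseCircle X ιT ιK ιW` (levels transported by
  `SubAnnPlaces.levelsCongrTube`; all data `rfl`);
* `ofRaw_LT_u`, `ofRaw_LK_u`, `ofRaw_LW_u`, `ofRaw_LT_thick`, … : coordinates and thicknesses of the
  transported levels (`rfl`); `toCircleData_ofRaw_L_*` : those of the circle data of `S''`.
-/

set_option autoImplicit false
set_option linter.unusedSectionVars false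

noncomputable section

namespace Fermat.Agent.BR3.SDD.Partition

open AlgebraicCurve IsLocalRing Fermat.Agent.Red Fermat.Agent.Val Fermat.Agent.BR.SS
  Fermat.Agent.BR.S0 Fermat.Agent.BR.Refine Fermat.Agent.BR.Circle Fermat.Agent.BR3.CircleN
  Fermat.Agent.BR3.SplitBranch Fermat.Agent.BR3.SubAnnPlaces

variable {K : Type} {F : Type*} [Field K] [Field F] [Algebra K F]
  {A : ValuationSubring K} [IsAlgClosed (ResidueField A)] {Mid SSp KP : Type}
  {Ft : Comp Mid SSp → Type} [∀ v, Field (Ft v)] [∀ v, Algebra (ResidueField A) (Ft v)]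

/-- The branch data on a component are the same for levels transported to an equal tube. -/
theorem branchComp_levelsCongrTube {T T' : Set (Place K F)} {ι : Type*}
    {L : AnnulusLevels A T ι} (h : T' = T) {Ft₁ : Type*} [Field Ft₁]
    [Algebra (ResidueField A) Ft₁] {O : ValuationSubring F} {res : O →+* Ft₁}
    {Q : Place (ResidueField A) Ft₁} (B : BranchComp (residue A) O res Q L) :
    BranchComp (residue A) O res Q (levelsCongrTube L h) :=
  ⟨B.le, B.branch, B.const_mem, B.const⟩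

variable (X : CaseInput (F := F) A Mid SSp KP Ft) {nodeTube : Node SSp KP → Set (Place K F)}
  (hT : ∀ e, X.TH false (X.pInf e) = nodeTube (nT e))
  (hK : ∀ e s, X.TM (X.comp e s) (X.pMid e s) = nodeTube (nk e s))
  (hW : ∀ e, X.TZ e (X.zW e) = nodeTube (nW e))
  {ιT : SSp → Type} {ιK : SSp → KP → Type} {ιW : SSp → Type}

/-- **The circle data of `S''` kind by kind, from levels on the raw node tubes.** -/
def CaseCircle.ofRaw
    (LT : ∀ e, AnnulusLevels A (nodeTube (nT e)) (ιT e))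
    (LK : ∀ e s, AnnulusLevels A (nodeTube (nk e s)) (ιK e s))
    (LW : ∀ e, AnnulusLevels A (nodeTube (nW e)) (ιW e))
    (T₁ : ∀ e, BranchComp (residue A) (X.C cInf).O (X.C cInf).res (X.pInf e) (LT e))
    (T₂ : ∀ e, BranchComp (residue A) (X.C (ze e)).O (X.C (ze e)).res (X.zT e) (LT e))
    (K₁ : ∀ e s, BranchComp (residue A) (X.C (mid (X.comp e s))).O
      (X.C (mid (X.comp e s))).res (X.pMid e s) (LK e s))
    (K₂ : ∀ e s, BranchComp (residue A) (X.C (ze e)).O (X.C (ze e)).res (X.zK e s) (LK e s))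
    (W₁ : ∀ e, BranchComp (residue A) (X.C (ze e)).O (X.C (ze e)).res (X.zW e) (LW e))
    (W₂ : ∀ e, BranchComp (residue A) (X.C cZero).O (X.C cZero).res (X.pZero e) (LW e))
    (T_v_src : ∀ e, (LT e).v ∈ (X.C cInf).O.nonunits)
    (T_u_tgt : ∀ e, (LT e).u ∈ (X.C (ze e)).O.nonunits)
    (K_v_src : ∀ e s, (LK e s).v ∈ (X.C (mid (X.comp e s))).O.nonunits)
    (K_u_tgt : ∀ e s, (LK e s).u ∈ (X.C (ze e)).O.nonunits)
    (W_v_src : ∀ e, (LW e).v ∈ (X.C (ze e)).O.nonunits)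
    (W_u_tgt : ∀ e, (LW e).u ∈ (X.C cZero).O.nonunits)
    (T_unif₁ : ∀ e, ∃ i, ∃ t : ((LT e).level i).R,
      (X.pInf e).ord ((X.C cInf).res ⟨t, (T₁ e).le i t t.2⟩) = 1)
    (T_unif₂ : ∀ e, ∃ i, ∃ t : ((LT e).level i).R,
      (X.zT e).ord ((X.C (ze e)).res ⟨t, (T₂ e).le i t t.2⟩) = 1)
    (K_unif₁ : ∀ e s, ∃ i, ∃ t : ((LK e s).level i).R,
      (X.pMid e s).ord ((X.C (mid (X.comp e s))).res ⟨t, (K₁ e s).le i t t.2⟩) = 1)
    (K_unif₂ : ∀ e s, ∃ i, ∃ t : ((LK e s).level i).R,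
      (X.zK e s).ord ((X.C (ze e)).res ⟨t, (K₂ e s).le i t t.2⟩) = 1)
    (W_unif₁ : ∀ e, ∃ i, ∃ t : ((LW e).level i).R,
      (X.zW e).ord ((X.C (ze e)).res ⟨t, (W₁ e).le i t t.2⟩) = 1)
    (W_unif₂ : ∀ e, ∃ i, ∃ t : ((LW e).level i).R,
      (X.pZero e).ord ((X.C cZero).res ⟨t, (W₂ e).le i t t.2⟩) = 1)
    (sep_comp : ∀ x w, w ≠ X.toInput.setup.src x → w ≠ X.toInput.setup.tgt x →
      SepComp X.toInput.setup x w)
    (sep : ∀ x x', x ≠ x' → Separated X.toInput.setup x x') : CaseCircle X ιT ιK ιW where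
  LT e := levelsCongrTube (LT e) (hT e)
  LK e s := levelsCongrTube (LK e s) (hK e s)
  LW e := levelsCongrTube (LW e) (hW e)
  T₁ e := branchComp_levelsCongrTube (hT e) (T₁ e)
  T₂ e := branchComp_levelsCongrTube (hT e) (T₂ e)
  K₁ e s := branchComp_levelsCongrTube (hK e s) (K₁ e s)
  K₂ e s := branchComp_levelsCongrTube (hK e s) (K₂ e s)
  W₁ e := branchComp_levelsCongrTube (hW e) (W₁ e)
  W₂ e := branchComp_levelsCongrTube (hW e) (W₂ e)
  T_v_src := T_v_src
  T_u_tgt := T_u_tgt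
  K_v_src := K_v_src
  K_u_tgt := K_u_tgt
  W_v_src := W_v_src
  W_u_tgt := W_u_tgt
  T_unif₁ := T_unif₁
  T_unif₂ := T_unif₂
  K_unif₁ := K_unif₁
  K_unif₂ := K_unif₂
  W_unif₁ := W_unif₁
  W_unif₂ := W_unif₂
  sep_comp := sep_comp
  sep := sep

section Lemmas

variable
  (LT : ∀ e, AnnulusLevels A (nodeTube (nT e)) (ιT e))
  (LK : ∀ e s, AnnulusLevels A (nodeTube (nk e s)) (ιK e s))
  (LW : ∀ e, AnnulusLevels A (nodeTube (nW e)) (ιW e))
  (T₁ : ∀ e, BranchComp (residue A) (X.C cInf).O (X.C cInf).res (X.pInf e) (LT e))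
  (T₂ : ∀ e, BranchComp (residue A) (X.C (ze e)).O (X.C (ze e)).res (X.zT e) (LT e))
  (K₁ : ∀ e s, BranchComp (residue A) (X.C (mid (X.comp e s))).O
    (X.C (mid (X.comp e s))).res (X.pMid e s) (LK e s))
  (K₂ : ∀ e s, BranchComp (residue A) (X.C (ze e)).O (X.C (ze e)).res (X.zK e s) (LK e s))
  (W₁ : ∀ e, BranchComp (residue A) (X.C (ze e)).O (X.C (ze e)).res (X.zW e) (LW e))
  (W₂ : ∀ e, BranchComp (residue A) (X.C cZero).O (X.C cZero).res (X.pZero e) (LW e))
  (T_v_src : ∀ e, (LT e).v ∈ (X.C cInf).O.nonunits)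
  (T_u_tgt : ∀ e, (LT e).u ∈ (X.C (ze e)).O.nonunits)
  (K_v_src : ∀ e s, (LK e s).v ∈ (X.C (mid (X.comp e s))).O.nonunits)
  (K_u_tgt : ∀ e s, (LK e s).u ∈ (X.C (ze e)).O.nonunits)
  (W_v_src : ∀ e, (LW e).v ∈ (X.C (ze e)).O.nonunits)
  (W_u_tgt : ∀ e, (LW e).u ∈ (X.C cZero).O.nonunits)
  (T_unif₁ : ∀ e, ∃ i, ∃ t : ((LT e).level i).R,
    (X.pInf e).ord ((X.C cInf).res ⟨t, (T₁ e).le i t t.2⟩) = 1)
  (T_unif₂ : ∀ e, ∃ i, ∃ t : ((LT e).level i).R,
    (X.zT e).ord ((X.C (ze e)).res ⟨t, (T₂ e).le i t t.2⟩) = 1)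
  (K_unif₁ : ∀ e s, ∃ i, ∃ t : ((LK e s).level i).R,
    (X.pMid e s).ord ((X.C (mid (X.comp e s))).res ⟨t, (K₁ e s).le i t t.2⟩) = 1)
  (K_unif₂ : ∀ e s, ∃ i, ∃ t : ((LK e s).level i).R,
    (X.zK e s).ord ((X.C (ze e)).res ⟨t, (K₂ e s).le i t t.2⟩) = 1)
  (W_unif₁ : ∀ e, ∃ i, ∃ t : ((LW e).level i).R,
    (X.zW e).ord ((X.C (ze e)).res ⟨t, (W₁ e).le i t t.2⟩) = 1)
  (W_unif₂ : ∀ e, ∃ i, ∃ t : ((LW e).level i).R,
    (X.pZero e).ord ((X.C cZero).res ⟨t, (W₂ e).le i t t.2⟩) = 1)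
  (sep_comp : ∀ x w, w ≠ X.toInput.setup.src x → w ≠ X.toInput.setup.tgt x →
    SepComp X.toInput.setup x w)
  (sep : ∀ x x', x ≠ x' → Separated X.toInput.setup x x')

@[simp] theorem ofRaw_LT_u (e : SSp) :
    ((CaseCircle.ofRaw X hT hK hW LT LK LW T₁ T₂ K₁ K₂ W₁ W₂ T_v_src T_u_tgt K_v_src K_u_tgt
      W_v_src W_u_tgt T_unif₁ T_unif₂ K_unif₁ K_unif₂ W_unif₁ W_unif₂ sep_comp sep).LT e).u =
      (LT e).u := rfl

@[simp] theorem ofRaw_LK_u (e : SSp) (s : KP) :
    ((CaseCircle.ofRaw X hT hK hW LT LK LW T₁ T₂ K₁ K₂ W₁ W₂ T_v_src T_u_tgt K_v_src K_u_tgt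
      W_v_src W_u_tgt T_unif₁ T_unif₂ K_unif₁ K_unif₂ W_unif₁ W_unif₂ sep_comp sep).LK e s).u =
      (LK e s).u := rfl

@[simp] theorem ofRaw_LW_u (e : SSp) :
    ((CaseCircle.ofRaw X hT hK hW LT LK LW T₁ T₂ K₁ K₂ W₁ W₂ T_v_src T_u_tgt K_v_src K_u_tgt
      W_v_src W_u_tgt T_unif₁ T_unif₂ K_unif₁ K_unif₂ W_unif₁ W_unif₂ sep_comp sep).LW e).u =
      (LW e).u := rfl

@[simp] theorem ofRaw_LT_thick (e : SSp) :
    ((CaseCircle.ofRaw X hT hK hW LT LK LW T₁ T₂ K₁ K₂ W₁ W₂ T_v_src T_u_tgt K_v_src K_u_tgt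
      W_v_src W_u_tgt T_unif₁ T_unif₂ K_unif₁ K_unif₂ W_unif₁ W_unif₂ sep_comp sep).LT e).thick =
      (LT e).thick := rfl

@[simp] theorem ofRaw_LK_thick (e : SSp) (s : KP) :
    ((CaseCircle.ofRaw X hT hK hW LT LK LW T₁ T₂ K₁ K₂ W₁ W₂ T_v_src T_u_tgt K_v_src K_u_tgt
      W_v_src W_u_tgt T_unif₁ T_unif₂ K_unif₁ K_unif₂ W_unif₁ W_unif₂ sep_comp sep).LK e
      s).thick = (LK e s).thick := rfl

@[simp] theorem ofRaw_LW_thick (e : SSp) :
    ((CaseCircle.ofRaw X hT hK hW LT LK LW T₁ T₂ K₁ K₂ W₁ W₂ T_v_src T_u_tgt K_v_src K_u_tgt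
      W_v_src W_u_tgt T_unif₁ T_unif₂ K_unif₁ K_unif₂ W_unif₁ W_unif₂ sep_comp sep).LW e).thick =
      (LW e).thick := rfl

/-- The coordinate of the annulus of `nT e` in the circle data of `S''`. -/
theorem toCircleData_ofRaw_L_nT_u (e : SSp) :
    (((CaseCircle.ofRaw X hT hK hW LT LK LW T₁ T₂ K₁ K₂ W₁ W₂ T_v_src T_u_tgt K_v_src K_u_tgt
      W_v_src W_u_tgt T_unif₁ T_unif₂ K_unif₁ K_unif₂ W_unif₁ W_unif₂ sep_comp
      sep).toCircleData).L (nT e)).u = (LT e).u := rfl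

/-- The coordinate of the annulus of `nk e s` in the circle data of `S''`. -/
theorem toCircleData_ofRaw_L_nk_u (e : SSp) (s : KP) :
    (((CaseCircle.ofRaw X hT hK hW LT LK LW T₁ T₂ K₁ K₂ W₁ W₂ T_v_src T_u_tgt K_v_src K_u_tgt
      W_v_src W_u_tgt T_unif₁ T_unif₂ K_unif₁ K_unif₂ W_unif₁ W_unif₂ sep_comp
      sep).toCircleData).L (nk e s)).u = (LK e s).u := rfl

/-- The coordinate of the annulus of `nW e` in the circle data of `S''`. -/
theorem toCircleData_ofRaw_L_nW_u (e : SSp) :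
    (((CaseCircle.ofRaw X hT hK hW LT LK LW T₁ T₂ K₁ K₂ W₁ W₂ T_v_src T_u_tgt K_v_src K_u_tgt
      W_v_src W_u_tgt T_unif₁ T_unif₂ K_unif₁ K_unif₂ W_unif₁ W_unif₂ sep_comp
      sep).toCircleData).L (nW e)).u = (LW e).u := rfl

/-- The thickness of the annulus of `nT e` in the circle data of `S''`. -/
theorem toCircleData_ofRaw_L_nT_thick (e : SSp) :
    (((CaseCircle.ofRaw X hT hK hW LT LK LW T₁ T₂ K₁ K₂ W₁ W₂ T_v_src T_u_tgt K_v_src K_u_tgt
      W_v_src W_u_tgt T_unif₁ T_unif₂ K_unif₁ K_unif₂ W_unif₁ W_unif₂ sep_comp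
      sep).toCircleData).L (nT e)).thick = (LT e).thick := rfl

/-- The thickness of the annulus of `nk e s` in the circle data of `S''`. -/
theorem toCircleData_ofRaw_L_nk_thick (e : SSp) (s : KP) :
    (((CaseCircle.ofRaw X hT hK hW LT LK LW T₁ T₂ K₁ K₂ W₁ W₂ T_v_src T_u_tgt K_v_src K_u_tgt
      W_v_src W_u_tgt T_unif₁ T_unif₂ K_unif₁ K_unif₂ W_unif₁ W_unif₂ sep_comp
      sep).toCircleData).L (nk e s)).thick = (LK e s).thick := rfl

/-- The thickness of the annulus of `nW e` in the circle data of `S''`. -/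
theorem toCircleData_ofRaw_L_nW_thick (e : SSp) :
    (((CaseCircle.ofRaw X hT hK hW LT LK LW T₁ T₂ K₁ K₂ W₁ W₂ T_v_src T_u_tgt K_v_src K_u_tgt
      W_v_src W_u_tgt T_unif₁ T_unif₂ K_unif₁ K_unif₂ W_unif₁ W_unif₂ sep_comp
      sep).toCircleData).L (nW e)).thick = (LW e).thick := rfl

end Lemmas

/-! ### the hypotheses `hT`, `hK`, `hW` for `caseInputOfRaw` -/

section ForOfRaw

variable (A)
  (comp : SSp → KP → Mid) (comp_surj : ∀ i, ∃ e s, comp e s = i) (nonempty : Nonempty SSp)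
  (C : ∀ v, ConstRed (F := F) (Ft := Ft v) A (residue A))
  (O_injective : Function.Injective fun v => (C v).O)
  (pInf : SSp → Place (ResidueField A) (Ft cInf))
  (pZero : SSp → Place (ResidueField A) (Ft cZero))
  (pMid : ∀ e s, Place (ResidueField A) (Ft (mid (comp e s))))
  (zT : ∀ e, Place (ResidueField A) (Ft (ze e)))
  (zK : ∀ e, KP → Place (ResidueField A) (Ft (ze e)))
  (zW : ∀ e, Place (ResidueField A) (Ft (ze e)))
  (pInf_injective : Function.Injective pInf) (pZero_injective : Function.Injective pZero)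
  (pMid_injective : ∀ e s e' s', (⟨mid (comp e s), pMid e s⟩ :
    Σ v, Place (ResidueField A) (Ft v)) = ⟨mid (comp e' s'), pMid e' s'⟩ → e = e' ∧ s = s')
  (zK_injective : ∀ e, Function.Injective (zK e)) (zT_ne_zK : ∀ e s, zT e ≠ zK e s)
  (zW_ne_zT : ∀ e, zW e ≠ zT e) (zW_ne_zK : ∀ e s, zW e ≠ zK e s)
  (nodeTube : Node SSp KP → Set (Place K F))
  (smTube : (Σ v, Place (ResidueField A) (Ft v)) → Set (Place K F))
  (cover : ∀ P, ∃ y, P ∈ tubeS comp pInf pMid zW pZero zT zK nodeTube smTube y)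
  (disjoint : ∀ P y y', P ∈ tubeS comp pInf pMid zW pZero zT zK nodeTube smTube y →
    P ∈ tubeS comp pInf pMid zW pZero zT zK nodeTube smTube y' → y = y')
  (smInf : ∀ Q : Place (ResidueField A) (Ft cInf), (∀ e, Q ≠ pInf e) →
    SmoothChart A (C cInf).O (C cInf).res Q (smTube ⟨cInf, Q⟩))
  (smZero : ∀ Q : Place (ResidueField A) (Ft cZero), (∀ e, Q ≠ pZero e) →
    SmoothChart A (C cZero).O (C cZero).res Q (smTube ⟨cZero, Q⟩))
  (smMid : ∀ (i : Mid) (Q : Place (ResidueField A) (Ft (mid i))),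
    (∀ e s, (⟨mid i, Q⟩ : Σ v, Place (ResidueField A) (Ft v)) ≠
      ⟨mid (comp e s), pMid e s⟩) →
    SmoothChart A (C (mid i)).O (C (mid i)).res Q (smTube ⟨mid i, Q⟩))
  (smZe : ∀ (e : SSp) (Q : Place (ResidueField A) (Ft (ze e))), Q ≠ zW e → Q ≠ zT e →
    (∀ s, Q ≠ zK e s) → SmoothChart A (C (ze e)).O (C (ze e)).res Q (smTube ⟨ze e, Q⟩))
  (chT : ∀ e, NodeChart A (C cInf).O (C (ze e)).O (C cInf).res (C (ze e)).res (pInf e) (zT e)
    (nodeTube (nT e)))
  (chK : ∀ e s, NodeChart A (C (mid (comp e s))).O (C (ze e)).O (C (mid (comp e s))).res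
    (C (ze e)).res (pMid e s) (zK e s) (nodeTube (nk e s)))
  (chW : ∀ e, NodeChart A (C (ze e)).O (C cZero).O (C (ze e)).res (C cZero).res (zW e)
    (pZero e) (nodeTube (nW e)))

/-- `hT` of `CaseCircle.ofRaw` for `caseInputOfRaw`. -/
theorem caseInputOfRaw_hT (e : SSp) :
    (caseInputOfRaw A comp comp_surj nonempty C O_injective pInf pZero pMid zT zK zW
      pInf_injective pZero_injective pMid_injective zK_injective zT_ne_zK zW_ne_zT zW_ne_zK
      nodeTube smTube cover disjoint smInf smZero smMid smZe chT chK chW).TH false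
      ((caseInputOfRaw A comp comp_surj nonempty C O_injective pInf pZero pMid zT zK zW
        pInf_injective pZero_injective pMid_injective zK_injective zT_ne_zK zW_ne_zT zW_ne_zK
        nodeTube smTube cover disjoint smInf smZero smMid smZe chT chK chW).pInf e) =
      nodeTube (nT e) :=
  THf_pInf comp pInf pMid zW pZero zT zK nodeTube smTube
    (branch_injective_of comp pInf pMid zW pZero zT zK pInf_injective pZero_injective
      pMid_injective zK_injective zT_ne_zK zW_ne_zT zW_ne_zK) e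

/-- `hK` of `CaseCircle.ofRaw` for `caseInputOfRaw`. -/
theorem caseInputOfRaw_hK (e : SSp) (s : KP) :
    (caseInputOfRaw A comp comp_surj nonempty C O_injective pInf pZero pMid zT zK zW
      pInf_injective pZero_injective pMid_injective zK_injective zT_ne_zK zW_ne_zT zW_ne_zK
      nodeTube smTube cover disjoint smInf smZero smMid smZe chT chK chW).TM
      ((caseInputOfRaw A comp comp_surj nonempty C O_injective pInf pZero pMid zT zK zW
        pInf_injective pZero_injective pMid_injective zK_injective zT_ne_zK zW_ne_zT zW_ne_zK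
        nodeTube smTube cover disjoint smInf smZero smMid smZe chT chK chW).comp e s)
      ((caseInputOfRaw A comp comp_surj nonempty C O_injective pInf pZero pMid zT zK zW
        pInf_injective pZero_injective pMid_injective zK_injective zT_ne_zK zW_ne_zT zW_ne_zK
        nodeTube smTube cover disjoint smInf smZero smMid smZe chT chK chW).pMid e s) =
      nodeTube (nk e s) :=
  TMf_pMid comp pInf pMid zW pZero zT zK nodeTube smTube
    (branch_injective_of comp pInf pMid zW pZero zT zK pInf_injective pZero_injective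
      pMid_injective zK_injective zT_ne_zK zW_ne_zT zW_ne_zK) e s

/-- `hW` of `CaseCircle.ofRaw` for `caseInputOfRaw`. -/
theorem caseInputOfRaw_hW (e : SSp) :
    (caseInputOfRaw A comp comp_surj nonempty C O_injective pInf pZero pMid zT zK zW
      pInf_injective pZero_injective pMid_injective zK_injective zT_ne_zK zW_ne_zT zW_ne_zK
      nodeTube smTube cover disjoint smInf smZero smMid smZe chT chK chW).TZ e
      ((caseInputOfRaw A comp comp_surj nonempty C O_injective pInf pZero pMid zT zK zW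
        pInf_injective pZero_injective pMid_injective zK_injective zT_ne_zK zW_ne_zT zW_ne_zK
        nodeTube smTube cover disjoint smInf smZero smMid smZe chT chK chW).zW e) =
      nodeTube (nW e) :=
  TZf_zW comp pInf pMid zW pZero zT zK nodeTube smTube
    (branch_injective_of comp pInf pMid zW pZero zT zK pInf_injective pZero_injective
      pMid_injective zK_injective zT_ne_zK zW_ne_zT zW_ne_zK) e

end ForOfRaw

end Fermat.Agent.BR3.SDD.Partition
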