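import Mathlib
import Fermat.Agent.BR3.CoverK.Fibre
import Fermat.Agent.BR3.SDD.Tubes

/-!
# Program C (S36), node I7 (W4-CAN-MOD): the points of `S''` over a smooth point of `can`

Over a smooth point `Q'` of the component `can` of the base (tube `T'`, regular chart `C`) the
cover is standard étale at every point: the point `Q₀` of `cInf` and, for every middle component
`mid i`, the points `Q'' ∈ ovr i` (the places of the residue field of `mid i` over `Q'`).  From one
`CoverK.CoverSheet` per point (SC1/SC2 for `cInf`, SC3/SC4 for the middle components), the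
pairwise disjointness of the sheets and the count `1 + ∑ i, #(ovr i) = [F'' : F']`:

* `canFib Q₀ ovr` : the list of points, `mem_canFib`, `card_canFib`;
* `smoothSheets_can` : `CoverDict.SmoothSheets A O' res' Q' T' C.chart (tubeOf TH TM TZ)`
  (every sheet carries exactly one zero of `t - c`: `CoverK.Fibre.count_sheet`);
* `smoothFibre_can` : `CoverK.Fibre.SmoothFibre T' (tubeOf TH TM TZ)`; `exh_can` : every place
  over `T'` lies in the tube of a point of the list;
* `card_fiber_of_unram` : a place of degree one which is unramified in a finite extension with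
  all places of degree one has `[L : Ft']` places over it (for `ovr i := Q'.fiber (Ft (mid i))`);
  `ramificationIndex_eq_one_of_ord_map`, `card_fiber_of_ord_map` : the same from the field `ord_map`
  of the sheets (`ord_w f = ord_v f`).

The modular instance is `SDD/FibreCanMod.lean`.
-/

set_option autoImplicit false
set_option linter.unusedSectionVars false
set_option linter.style.haveILetI false

namespace Fermat.Agent.BR3.SDD.FibreCan

open AlgebraicCurve Polynomial Fermat.Agent.Red Fermat.Agent.BR.SS Fermat.Agent.BR.S0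
  Fermat.Agent.BR3.CoverDict Fermat.Agent.BR3.CoverK Fermat.Agent.BR3.CoverK.Fibre
  Fermat.Agent.BR3.CoverK.Factor

/-! ### The number of places over an unramified place -/

section Count

variable {k L' L : Type*} [Field k] [Field L'] [Field L] [Algebra k L'] [Algebra k L]
  [Algebra L' L] [IsScalarTower k L' L] [Algebra.IsIntegral L' L] [HasPrincipalDivisors k L]
  [FundamentalIdentity k L' L]

/-- A place of degree one over which all places have degree one and ramification index one has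
exactly `[L : L']` places over it. -/
theorem card_fiber_of_unram (Q' : Place k L') (hdeg' : Q'.deg = 1)
    (hdeg : ∀ w ∈ Q'.fiber L, w.deg = 1) (he : ∀ w ∈ Q'.fiber L, w.ramificationIndex L' = 1) :
    (Q'.fiber L).card = Module.finrank L' L := by
  have h := FundamentalIdentity.sum_ramificationIndex_mul_deg (K := k) (F := L') (F' := L) Q'
  rw [hdeg', Nat.cast_one, mul_one] at h
  have h1 : ∑ w ∈ Q'.fiber L, ((w.ramificationIndex L' : ℤ) * (w.deg : ℤ)) =
      ∑ _w ∈ Q'.fiber L, (1 : ℤ) :=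
    Finset.sum_congr rfl fun w hw => by rw [hdeg w hw, he w hw]; simp
  rw [h1, Finset.sum_const, nsmul_eq_mul, mul_one] at h
  exact_mod_cast h

/-- A place `w` over `v` with `ord_w (f) = ord_v f` for all `f` downstairs is unramified (the field
`ord_map` of `CoverK.CoverSheet`). -/
theorem ramificationIndex_eq_one_of_ord_map {v : Place k L'} {w : Place k L}
    (hw : w.restrict L' = v) (h : ∀ f : L', w.ord (algebraMap L' L f) = v.ord f) :
    w.ramificationIndex L' = 1 := by
  obtain ⟨ϖ, hϖ⟩ := IsDiscreteValuationRing.exists_irreducible v.toValuationSubring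
  have h1 : v.ord (ϖ : L') = 1 := v.ord_coe_irreducible hϖ
  have h2 := w.ord_restrict (F := L') (ϖ : L')
  rw [hw, h1, mul_one, h, h1] at h2
  exact_mod_cast h2.symm

/-- The number of places over a point over which every place satisfies `ord_map`. -/
theorem card_fiber_of_ord_map (Q' : Place k L') (hdeg' : Q'.deg = 1)
    (hdeg : ∀ w : Place k L, w.deg = 1)
    (h : ∀ w : Place k L, w.restrict L' = Q' → ∀ f : L', w.ord (algebraMap L' L f) = Q'.ord f) :
    (Q'.fiber L).card = Module.finrank L' L :=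
  card_fiber_of_unram Q' hdeg' (fun w _ => hdeg w) fun w hw =>
    ramificationIndex_eq_one_of_ord_map (Place.mem_fiber.mp hw) (h w (Place.mem_fiber.mp hw))

end Count

/-! ### The list of points -/

section List

variable {k : Type*} [Field k] {Mid SSp : Type} [Fintype Mid] {Ft : Comp Mid SSp → Type}
  [∀ v, Field (Ft v)] [∀ v, Algebra k (Ft v)]

open Classical in
/-- **The points of `S''` over a smooth point of `can`**: the point `Q₀` of `cInf` and the points
`Q'' ∈ ovr i` of the middle components. -/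
noncomputable def canFib (Q₀ : Place k (Ft cInf))
    (ovr : ∀ i : Mid, Finset (Place k (Ft (mid i)))) : Finset (Σ v, Place k (Ft v)) :=
  insert ⟨cInf, Q₀⟩ (Finset.univ.biUnion fun i =>
    (ovr i).image fun Q'' => (⟨mid i, Q''⟩ : Σ v, Place k (Ft v)))

theorem mem_canFib {Q₀ : Place k (Ft cInf)} {ovr : ∀ i : Mid, Finset (Place k (Ft (mid i)))}
    {x : Σ v, Place k (Ft v)} :
    x ∈ canFib Q₀ ovr ↔ x = ⟨cInf, Q₀⟩ ∨
      ∃ i, ∃ Q'' ∈ ovr i, (⟨mid i, Q''⟩ : Σ v, Place k (Ft v)) = x := by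
  classical
  simp [canFib]

theorem card_canFib (Q₀ : Place k (Ft cInf))
    (ovr : ∀ i : Mid, Finset (Place k (Ft (mid i)))) :
    (canFib Q₀ ovr).card = 1 + ∑ i, (ovr i).card := by
  classical
  have hnot : (⟨cInf, Q₀⟩ : Σ v, Place k (Ft v)) ∉ Finset.univ.biUnion fun i =>
      (ovr i).image fun Q'' => (⟨mid i, Q''⟩ : Σ v, Place k (Ft v)) := by
    intro h
    obtain ⟨i, -, hi⟩ := Finset.mem_biUnion.mp h
    obtain ⟨Q'', -, hQ⟩ := Finset.mem_image.mp hi
    have h1 : (mid i : Comp Mid SSp) = cInf := congrArg Sigma.fst hQ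
    simp [mid, cInf] at h1
  rw [canFib, Finset.card_insert_of_notMem hnot, add_comm, Finset.card_biUnion]
  · congr 1
    refine Finset.sum_congr rfl fun i _ => ?_
    refine Finset.card_image_of_injective _ fun Q Q' h => ?_
    exact eq_of_heq (Sigma.mk.inj_iff.mp h).2
  · intro i _ i' _ hne
    rw [Function.onFun, Finset.disjoint_left]
    intro x hx hx'
    obtain ⟨Q, -, rfl⟩ := Finset.mem_image.mp hx
    obtain ⟨Q', -, hQ'⟩ := Finset.mem_image.mp hx'
    have h1 : (mid i' : Comp Mid SSp) = mid i := congrArg Sigma.fst hQ'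
    apply hne
    simpa [mid] using h1.symm

end List

/-! ### The sheets -/

section Sheets

variable {K k : Type*} [Field K] [Field k]
  {F' : Type*} [Field F'] [Algebra K F']
  {F'' : Type*} [Field F''] [Algebra K F''] [Algebra F' F''] [IsScalarTower K F' F'']
  [Algebra.IsIntegral F' F''] [HasPrincipalDivisors K F''] [FundamentalIdentity K F' F'']
  {A : ValuationSubring K} {π : A →+* k} {T' : Set (Place K F')}
  {Ft' : Type*} [Field Ft'] [Algebra k Ft'] {O' : ValuationSubring F'} {res' : O' →+* Ft'}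
  {Q' : Place k Ft'} (C : RegChart A O' res' Q' T')
  {Mid SSp : Type} [Fintype Mid] {Ft : Comp Mid SSp → Type}
  [∀ v, Field (Ft v)] [∀ v, Algebra k (Ft v)]
  [Algebra Ft' (Ft cInf)] [IsScalarTower k Ft' (Ft cInf)]
  [∀ i : Mid, Algebra Ft' (Ft (mid i))] [∀ i : Mid, IsScalarTower k Ft' (Ft (mid i))]
  {OInf : ValuationSubring F''} {resInf : OInf →+* Ft cInf}
  {OM : Mid → ValuationSubring F''} {resM : ∀ i : Mid, OM i →+* Ft (mid i)}
  {TH : ∀ b : Bool, Place k (Ft (Sum.inl (Sum.inl b))) → Set (Place K F'')}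
  {TM : ∀ i : Mid, Place k (Ft (mid i)) → Set (Place K F'')}
  {TZ : ∀ e : SSp, Place k (Ft (ze e)) → Set (Place K F'')}

/-- **The sheets over the tube of a smooth point of `can`**: one `CoverSheet` at the point of
`cInf` and one at every point of the middle components over `Q'`. -/
noncomputable def smoothSheets_can [IsAlgClosed K] [FiniteDimensional F' F'']
    [Algebra.IsSeparable F' F''] (hB : ConstHyp A π O' res') (hvg : ValueGroupEq K O')
    (harch : ∀ a c : K, A.valuation a < 1 → c ≠ 0 → ∃ N : ℕ, A.valuation a ^ N ≤ A.valuation c)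
    (Q₀ : Place k (Ft cInf)) (ovr : ∀ i : Mid, Finset (Place k (Ft (mid i))))
    (HInf : ∃ (θ : F'') (Ψ ψ ψc : F'[X]) (u : A),
      CoverSheet A π O' res' Q' OInf resInf Q₀ C.chart.R θ Ψ ψ ψc u ∧
        TH false Q₀ = coverTube A T' θ u)
    (HMid : ∀ i, ∀ Q'' ∈ ovr i, ∃ (θ : F'') (Ψ ψ ψc : F'[X]) (u : A),
      CoverSheet A π O' res' Q' (OM i) (resM i) Q'' C.chart.R θ Ψ ψ ψc u ∧
        TM i Q'' = coverTube A T' θ u)
    (hIM : ∀ i, ∀ Q'' ∈ ovr i, ∀ P, P ∈ TH false Q₀ → P ∉ TM i Q'')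
    (hMM : ∀ i i' Q'' Q''', Q'' ∈ ovr i → Q''' ∈ ovr i' → ∀ P, P ∈ TM i Q'' →
      P ∈ TM i' Q''' → (⟨mid i, Q''⟩ : Σ v, Place k (Ft v)) = ⟨mid i', Q'''⟩)
    (hcard : 1 + ∑ i, (ovr i).card = Module.finrank F' F'') :
    SmoothSheets A O' res' Q' T' C.chart (tubeOf TH TM TZ) where
  fib := canFib Q₀ ovr
  e := fun _ => 1
  sub := by
    intro x hx P hP
    rcases mem_canFib.mp hx with rfl | ⟨i, Q'', hQ, rfl⟩
    · obtain ⟨θ, Ψ, ψ, ψc, u, -, hT⟩ := HInf
      have hP' : P ∈ TH false Q₀ := hP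
      rw [hT] at hP'
      exact (mem_coverTube.1 hP').1
    · obtain ⟨θ, Ψ, ψ, ψc, u, -, hT⟩ := HMid i Q'' hQ
      have hP' : P ∈ TM i Q'' := hP
      rw [hT] at hP'
      exact (mem_coverTube.1 hP').1
  disj := by
    intro x hx y hy P hPx hPy
    rcases mem_canFib.mp hx with rfl | ⟨i, Q'', hQ, rfl⟩ <;>
      rcases mem_canFib.mp hy with rfl | ⟨i', Q''', hQ', rfl⟩
    · rfl
    · exact absurd hPy (hIM i' Q''' hQ' P hPx)
    · exact absurd hPx (hIM i Q'' hQ P hPy)
    · exact hMM i i' Q'' Q''' hQ hQ' P hPx hPy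
  count := by
    intro x hx c hc D hD
    rcases mem_canFib.mp hx with rfl | ⟨i, Q'', hQ, rfl⟩
    · obtain ⟨θ, Ψ, ψ, ψc, u, H, hT⟩ := HInf
      have e : (fun P => P ∈ tubeOf TH TM TZ ⟨cInf, Q₀⟩) = fun P => P ∈ coverTube A T' θ u := by
        funext P
        show (P ∈ TH false Q₀) = _
        rw [hT]
      rw [e]
      exact count_sheet C H hB hvg harch hc D hD
    · obtain ⟨θ, Ψ, ψ, ψc, u, H, hT⟩ := HMid i Q'' hQ
      have e : (fun P => P ∈ tubeOf TH TM TZ ⟨mid i, Q''⟩) =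
          fun P => P ∈ coverTube A T' θ u := by
        funext P
        show (P ∈ TM i Q'') = _
        rw [hT]
      rw [e]
      exact count_sheet C H hB hvg harch hc D hD
  sum := by
    rw [Finset.sum_const, smul_eq_mul, mul_one, card_canFib, hcard]

/-- **The fibre over the tube of a smooth point of `can`** (the shape of `Partition.FibreOver`'s
input and of `CoverK.Fibre.cover_of_fibres`). -/
noncomputable def smoothFibre_can [IsAlgClosed K] [FiniteDimensional F' F'']
    [Algebra.IsSeparable F' F''] (hB : ConstHyp A π O' res') (hvg : ValueGroupEq K O')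
    (harch : ∀ a c : K, A.valuation a < 1 → c ≠ 0 → ∃ N : ℕ, A.valuation a ^ N ≤ A.valuation c)
    (Q₀ : Place k (Ft cInf)) (ovr : ∀ i : Mid, Finset (Place k (Ft (mid i))))
    (HInf : ∃ (θ : F'') (Ψ ψ ψc : F'[X]) (u : A),
      CoverSheet A π O' res' Q' OInf resInf Q₀ C.chart.R θ Ψ ψ ψc u ∧
        TH false Q₀ = coverTube A T' θ u)
    (HMid : ∀ i, ∀ Q'' ∈ ovr i, ∃ (θ : F'') (Ψ ψ ψc : F'[X]) (u : A),
      CoverSheet A π O' res' Q' (OM i) (resM i) Q'' C.chart.R θ Ψ ψ ψc u ∧
        TM i Q'' = coverTube A T' θ u)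
    (hIM : ∀ i, ∀ Q'' ∈ ovr i, ∀ P, P ∈ TH false Q₀ → P ∉ TM i Q'')
    (hMM : ∀ i i' Q'' Q''', Q'' ∈ ovr i → Q''' ∈ ovr i' → ∀ P, P ∈ TM i Q'' →
      P ∈ TM i' Q''' → (⟨mid i, Q''⟩ : Σ v, Place k (Ft v)) = ⟨mid i', Q'''⟩)
    (hcard : 1 + ∑ i, (ovr i).card = Module.finrank F' F'')
    (hdeg'' : ∀ P : Place K F'', P.deg = 1) (hdeg' : ∀ P : Place K F', P.deg = 1) :
    SmoothFibre T' (tubeOf TH TM TZ) :=
  SmoothFibre.ofSmoothSheets
    (smoothSheets_can C hB hvg harch Q₀ ovr HInf HMid hIM hMM hcard) hdeg'' hdeg'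

theorem smoothFibre_can_fib [IsAlgClosed K] [FiniteDimensional F' F'']
    [Algebra.IsSeparable F' F''] (hB : ConstHyp A π O' res') (hvg : ValueGroupEq K O')
    (harch : ∀ a c : K, A.valuation a < 1 → c ≠ 0 → ∃ N : ℕ, A.valuation a ^ N ≤ A.valuation c)
    (Q₀ : Place k (Ft cInf)) (ovr : ∀ i : Mid, Finset (Place k (Ft (mid i))))
    (HInf : ∃ (θ : F'') (Ψ ψ ψc : F'[X]) (u : A),
      CoverSheet A π O' res' Q' OInf resInf Q₀ C.chart.R θ Ψ ψ ψc u ∧
        TH false Q₀ = coverTube A T' θ u)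
    (HMid : ∀ i, ∀ Q'' ∈ ovr i, ∃ (θ : F'') (Ψ ψ ψc : F'[X]) (u : A),
      CoverSheet A π O' res' Q' (OM i) (resM i) Q'' C.chart.R θ Ψ ψ ψc u ∧
        TM i Q'' = coverTube A T' θ u)
    (hIM : ∀ i, ∀ Q'' ∈ ovr i, ∀ P, P ∈ TH false Q₀ → P ∉ TM i Q'')
    (hMM : ∀ i i' Q'' Q''', Q'' ∈ ovr i → Q''' ∈ ovr i' → ∀ P, P ∈ TM i Q'' →
      P ∈ TM i' Q''' → (⟨mid i, Q''⟩ : Σ v, Place k (Ft v)) = ⟨mid i', Q'''⟩)
    (hcard : 1 + ∑ i, (ovr i).card = Module.finrank F' F'')
    (hdeg'' : ∀ P : Place K F'', P.deg = 1) (hdeg' : ∀ P : Place K F', P.deg = 1) :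
    (smoothFibre_can (TZ := TZ) C hB hvg harch Q₀ ovr HInf HMid hIM hMM hcard hdeg'' hdeg').fib =
      canFib Q₀ ovr :=
  rfl

/-- **Exhaustion over the tube of a smooth point of `can`**: every place of the cover over `T'`
lies in the tube of the point of `cInf` or of one of the points of the middle components. -/
theorem exh_can [IsAlgClosed K] [FiniteDimensional F' F'']
    [Algebra.IsSeparable F' F''] (hB : ConstHyp A π O' res') (hvg : ValueGroupEq K O')
    (harch : ∀ a c : K, A.valuation a < 1 → c ≠ 0 → ∃ N : ℕ, A.valuation a ^ N ≤ A.valuation c)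
    (Q₀ : Place k (Ft cInf)) (ovr : ∀ i : Mid, Finset (Place k (Ft (mid i))))
    (HInf : ∃ (θ : F'') (Ψ ψ ψc : F'[X]) (u : A),
      CoverSheet A π O' res' Q' OInf resInf Q₀ C.chart.R θ Ψ ψ ψc u ∧
        TH false Q₀ = coverTube A T' θ u)
    (HMid : ∀ i, ∀ Q'' ∈ ovr i, ∃ (θ : F'') (Ψ ψ ψc : F'[X]) (u : A),
      CoverSheet A π O' res' Q' (OM i) (resM i) Q'' C.chart.R θ Ψ ψ ψc u ∧
        TM i Q'' = coverTube A T' θ u)
    (hIM : ∀ i, ∀ Q'' ∈ ovr i, ∀ P, P ∈ TH false Q₀ → P ∉ TM i Q'')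
    (hMM : ∀ i i' Q'' Q''', Q'' ∈ ovr i → Q''' ∈ ovr i' → ∀ P, P ∈ TM i Q'' →
      P ∈ TM i' Q''' → (⟨mid i, Q''⟩ : Σ v, Place k (Ft v)) = ⟨mid i', Q'''⟩)
    (hcard : 1 + ∑ i, (ovr i).card = Module.finrank F' F'')
    (hdeg'' : ∀ P : Place K F'', P.deg = 1) (hdeg' : ∀ P : Place K F', P.deg = 1)
    (P : Place K F'') (hP : P.restrict F' ∈ T') :
    P ∈ TH false Q₀ ∨ ∃ i, ∃ Q'' ∈ ovr i, P ∈ TM i Q'' := by
  obtain ⟨x, hx, hPx⟩ :=
    (smoothFibre_can (TZ := fun _ _ => (∅ : Set (Place K F''))) C hB hvg harch Q₀ ovr HInf HMid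
      hIM hMM hcard hdeg'' hdeg').exh P hP
  rw [smoothFibre_can_fib] at hx
  rcases mem_canFib.mp hx with rfl | ⟨i, Q'', hQ, rfl⟩
  · exact Or.inl hPx
  · exact Or.inr ⟨i, Q'', hQ, hPx⟩

end Sheets

end Fermat.Agent.BR3.SDD.FibreCan
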