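import Fermat.Agent.BR3.CuspMid.KummerSep
import Fermat.Agent.BR3.CuspMid.MidClass
import Fermat.Agent.BR3.CuspMid.MidGeneric
import Fermat.Agent.BR3.CoverPlaces

/-!
# Program C, node (W4-CAN-MOD), input `hMM` of `(disj)`: the smooth tubes of two distinct points of
the middle components over the same point of `can` are disjoint

Generator family `θ_b = thetaGen r x h (ζ^{b+1})` (helper6's `FibreProdMidGH`), with residue on the
middle valuations `c₁ = r̄₂ · θ x̄ · h̄⁻¹ = a · θ j̃` for some `a ∈ F̃_M`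
(finite points: `r = T'`, `x = j`, `h = 1`, `a = T̄`; cusps: `thetaCuspInf 2`, `a = -ρ²/j̃`).
The tube of the point `Q''` of `mid = w₂ b` is the sheet `θ_b ≡ u`, `ū = (a θ j̃)(Q'')`.

If a place `P` lies on the sheets `θ_b ≡ u` (point `Q''`) and `θ_{b'} ≡ u'` (point `Q'''`), both over
`Q'`: `θ_b = θ_{b'} (1 + z + ⋯ + z^{m-1})` gives `ū = m ū'`; `(a θ j̃)^{fMid} ∈ F̃_M` gives
`ū^{fMid} = ū'^{fMid}`; hence `m^{fMid} = 1`, `w₂ b' = w₂ b` (`MidClass`), and for `b' = b`:
`ū = ū'`, `Q'' = Q'''` (`KummerSep`).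

* `geomZeta_mem`, `residue_geomZeta` : `1 + z + ⋯ + z^{m-1} ∈ B` with residue `m`;
* `thetaGen_eq_mul_geom`;
* `resMid_thetaGen_eq` : `θ̄_b = a · θ j̃` in `FMid M B`;
* **`mid_eq_of_values`** (values of `θ_b`, `θ_{b'}` at `P`), **`mid_eq_of_mem_coverTube`**;
* **`mid_eq_of_mem_coverTube_mid`** : for `i i' : Mid`, `b = i.rep`, `b' = i'.rep`:
  `i = i' ∧ Q'' = Q'''`.
-/

set_option autoImplicit false
set_option linter.style.haveILetI false
set_option linter.unusedSectionVars false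

noncomputable section

/- S36 build-time patch: file-local shortcut instances. They only shorten instance search;
each is the instance that the search finds anyway (reducible, same terms after unfolding). -/
local instance (priority := 100000) Fermat.Agent.BR3.FastInst.instAlgFullC_SDD_FibreCanDisjMid
    {k : Type*} [Field k] (N : ℕ) :
    Algebra k ↥(ModularCurve.modularFunctionFieldFullC k N) := inferInstance
local instance (priority := 100000) Fermat.Agent.BR3.FastInst.instFieldFullC_SDD_FibreCanDisjMid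
    {k : Type*} [Field k] (N : ℕ) :
    Field ↥(ModularCurve.modularFunctionFieldFullC k N) := inferInstance
local instance (priority := 100000) Fermat.Agent.BR3.FastInst.instAlgLaurent_SDD_FibreCanDisjMid
    {k : Type*} [Field k] : Algebra k (LaurentSeries k) := inferInstance


set_option synthInstance.maxHeartbeats 400000

namespace Fermat.Agent.BR3.SDD.FibreCanDisjMid

open ModularCurve AlgebraicCurve HahnSeries Polynomial Fermat.Agent.X0 Fermat.Agent.Val
open Fermat.Agent.Hecke.AL Fermat.Agent.BR.TwoVal Fermat.Agent.BR.ResGen Fermat.Agent.Red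
open Fermat.Agent.BR.TwoValInst Fermat.Agent.BR3.FibreProd Fermat.Agent.BR.ConstRedTwo
open Fermat.Agent.BR3.CoverK Fermat.Agent.BR3.IgSq Fermat.Agent.BR3.KummerGenus
open Fermat.Agent.BR3.KummerGenus.MidInst Fermat.Agent.BR3.CuspMid

variable {M q : ℕ} [NeZero M] [hq : Fact q.Prime]
variable (B : ValuationSubring (AlgebraicClosure ℚ)) (hB : B.LiesOverPrime q) (hqM : ¬ q ∣ M)
variable {ζ : Kbˣ} (hζ : IsPrimitiveRoot ζ q)

local notation "kB" => IsLocalRing.ResidueField B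
local notation "FtM" => modularFunctionFieldFullC (IsLocalRing.ResidueField B) M

/-- (shortcut instances) -/
local instance (priority := 100000) instAlgKFtDM : Algebra kB FtM := inferInstance
local instance (priority := 100000) instAlgKFMidDM : Algebra kB (FMid M B) := inferInstance
local instance (priority := 100000) instAlgFtFMidDM : Algebra FtM (FMid M B) := inferInstance
local instance (priority := 100000) instTowerMidDM : IsScalarTower kB FtM (FMid M B) :=
  inferInstance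

/-! ### The geometric sum `1 + z + ⋯ + z^{m-1}`, `z = ζ^{b+1}` -/

include hB hζ in
/-- `1 + z + ⋯ + z^{m-1} ∈ B` with residue `m` -/
theorem exists_residue_geomZeta (b m : ℕ) :
    ∃ hG : (∑ i ∈ Finset.range m, (((ζ ^ (b + 1) : Kbˣ) : Kb)) ^ i) ∈ B,
      IsLocalRing.residue B ⟨_, hG⟩ = ((m : ℕ) : kB) := by
  haveI := charP_kB B hB
  obtain ⟨zB, hzB, hzBq⟩ := exists_unitB B hq.out.ne_zero (zeta_pow_pow hζ (b := b))
  have hres : IsLocalRing.residue B (zB : B) = 1 := by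
    apply residue_eq_one_of_pow_eq_one q
    have := congrArg (fun u : Bˣ => IsLocalRing.residue B (u : B)) hzBq
    simpa using this
  have hg : (∑ i ∈ Finset.range m, (((ζ ^ (b + 1) : Kbˣ) : Kb)) ^ i) =
      ((∑ i ∈ Finset.range m, (zB : B) ^ i : B) : Kb) := by
    rw [← hzB]
    push_cast
    rfl
  have hgmem : (∑ i ∈ Finset.range m, (((ζ ^ (b + 1) : Kbˣ) : Kb)) ^ i) ∈ B := by
    rw [hg]
    exact Subtype.property _
  refine ⟨hgmem, ?_⟩
  have : (⟨_, hgmem⟩ : B) = ∑ i ∈ Finset.range m, (zB : B) ^ i := Subtype.ext hg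
  rw [this, map_sum]
  simp [hres]

include hζ in
/-- `θ_b = θ_{b'} · (1 + z + ⋯ + z^{m-1})` for `ζ^{b'+1} = (ζ^{b+1})^m` -/
theorem thetaGen_eq_mul_geom (r x h : Fb (M * q)) {b b' : ℕ} (hb' : b' < q - 1) {m : ℕ}
    (hm : ζ ^ (b' + 1) = (ζ ^ (b + 1)) ^ m) :
    thetaGen hqM r x h ((ζ ^ (b + 1) : Kbˣ) : Kb) =
      thetaGen hqM r x h ((ζ ^ (b' + 1) : Kbˣ) : Kb) *
        algebraMap Kb (Fb (M * q * q))
          (∑ i ∈ Finset.range m, (((ζ ^ (b + 1) : Kbˣ) : Kb)) ^ i) := by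
  have hzm : (((ζ ^ (b + 1) : Kbˣ) : Kb)) ^ m = ((ζ ^ (b' + 1) : Kbˣ) : Kb) := by
    rw [hm]
    simp only [Units.val_pow_eq_pow_val]
  have hne : (((ζ ^ (b + 1) : Kbˣ) : Kb)) ^ m - 1 ≠ 0 := by
    rw [hzm]
    intro h0
    apply zeta_pow_ne_one hζ hb'
    exact Units.ext (by rw [Units.val_one]; exact sub_eq_zero.1 h0)
  have heq := UxTilde_eq_mul_geom hqM x m hne
  rw [hzm] at heq
  rw [thetaGen, thetaGen, heq]
  ring

/-! ### The residue of the generator in `FMid M B` -/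

include hB in
/-- `θ̄_b = a · θ j̃` in `FMid M B` -/
theorem resMid_thetaGen_eq {r x h : Fb (M * q)} (hr2 : r ∈ O2 B hB hqM) (hx1 : x ∈ O1 M B hB)
    (hh : h⁻¹ ∈ O1 M B hB) (a : FtM)
    (hc : res2 B hB hqM ⟨r, hr2⟩ * thetaL kB (res1 M B hB ⟨x, hx1⟩) * res1 M B hB ⟨h⁻¹, hh⟩ =
      (a : LaurentSeries kB) * thetaL kB (jqModC kB)) {b : ℕ} (hb : b < q - 1)
    (hmem : thetaGen hqM r x h ((ζ ^ (b + 1) : Kbˣ) : Kb) ∈ w2 B hB hqM hζ hb) :
    resMid B hB hqM hζ hb ⟨_, hmem⟩ = algebraMap FtM (FMid M B) a * thetaMid B := by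
  obtain ⟨hmem', hres⟩ := exists_resw2_thetaGen hqM B hB hζ (b := b) hr2 hx1 hh hb 1
    (pow_one _).symm
  apply Subtype.ext
  rw [coe_resMid, hres, Nat.cast_one, map_one, mul_one, hc, coe_mul_FMid, coe_algebraMap_FMid,
    coe_thetaMid]

/-! ### The main statement -/

set_option maxHeartbeats 1000000 in
include hB hqM in
/-- **Two sheets of the middle components sharing a place lie over the same middle valuation, and
over the same point if the indices agree** (in terms of the values at `P`). -/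
theorem mid_eq_of_values [FiniteDimensional FtM (FMid M B)]
    {r x h : Fb (M * q)} (hr2 : r ∈ O2 B hB hqM) (hx1 : x ∈ O1 M B hB)
    (hh : h⁻¹ ∈ O1 M B hB) (a : FtM)
    (hc : res2 B hB hqM ⟨r, hr2⟩ * thetaL kB (res1 M B hB ⟨x, hx1⟩) * res1 M B hB ⟨h⁻¹, hh⟩ =
      (a : LaurentSeries kB) * thetaL kB (jqModC kB))
    (Q' : Place kB FtM)
    (hunr : ∀ Q'' : Place kB (FMid M B), Q''.restrict FtM = Q' → Q''.ramificationIndex FtM = 1)
    {b b' : ℕ} (hb : b < q - 1) (hb' : b' < q - 1)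
    {Q'' Q''' : Place kB (FMid M B)} (hQ'' : Q''.restrict FtM = Q')
    (hQ''' : Q'''.restrict FtM = Q') {u u' : B} (hu0 : IsLocalRing.residue B u ≠ 0)
    (hval : ∀ hmem : thetaGen hqM r x h ((ζ ^ (b + 1) : Kbˣ) : Kb) ∈ w2 B hB hqM hζ hb,
      IsValueAt Q'' (resMid B hB hqM hζ hb ⟨_, hmem⟩) (IsLocalRing.residue B u))
    (hval' : ∀ hmem : thetaGen hqM r x h ((ζ ^ (b' + 1) : Kbˣ) : Kb) ∈ w2 B hB hqM hζ hb',
      IsValueAt Q''' (resMid B hB hqM hζ hb' ⟨_, hmem⟩) (IsLocalRing.residue B u'))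
    {P : Place Kb (Fb (M * q * q))}
    (hP : ∃ c : Kb, IsValueAt P (thetaGen hqM r x h ((ζ ^ (b + 1) : Kbˣ) : Kb)) c ∧
      B.valuation (c - (u : Kb)) < 1)
    (hP' : ∃ c : Kb, IsValueAt P (thetaGen hqM r x h ((ζ ^ (b' + 1) : Kbˣ) : Kb)) c ∧
      B.valuation (c - (u' : Kb)) < 1) :
    w2 B hB hqM hζ hb' = w2 B hB hqM hζ hb ∧ (b' = b → Q'' = Q''') := by
  obtain ⟨c, hc1, hc2⟩ := hP
  obtain ⟨c', hc1', hc2'⟩ := hP'
  obtain ⟨m, hm⟩ := exists_zeta_pow_eq hζ hb hb'
  obtain ⟨hG, hGres⟩ := exists_residue_geomZeta B hB hζ b m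
  set G : Kb := ∑ i ∈ Finset.range m, (((ζ ^ (b + 1) : Kbˣ) : Kb)) ^ i with hGdef
  -- Step 1: `c = c' G`, hence `ū = ū' m`
  have hθ := thetaGen_eq_mul_geom hqM hζ r x h (b := b) hb' hm
  have hcc : c = c' * G := by
    have h1 : IsValueAt P (thetaGen hqM r x h ((ζ ^ (b + 1) : Kbˣ) : Kb)) (c' * G) := by
      rw [hθ]
      exact hc1'.mul (isValueAt_algebraMap P G)
    exact hc1.unique h1
  have hres : IsLocalRing.residue B u = IsLocalRing.residue B u' * ((m : ℕ) : kB) := by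
    have hval1 : B.valuation ((u : Kb) - (u' : Kb) * G) < 1 := by
      have e : (u : Kb) - (u' : Kb) * G = (c' - (u' : Kb)) * G - (c - (u : Kb)) := by
        rw [hcc]
        ring
      rw [e]
      refine lt_of_le_of_lt (Valuation.map_sub _ _ _) (max_lt ?_ hc2)
      rw [map_mul]
      have hG1 : B.valuation G ≤ 1 := (B.valuation_le_one_iff G).2 hG
      exact lt_of_le_of_lt (mul_le_of_le_one_right' hG1) hc2'
    have hmemB : ((u - u' * ⟨G, hG⟩ : B) : Kb) = (u : Kb) - (u' : Kb) * G := rfl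
    have h0 : IsLocalRing.residue B (u - u' * ⟨G, hG⟩) = 0 := by
      rw [IsLocalRing.residue_eq_zero_iff, ValuationSubring.valuation_lt_one_iff, hmemB]
      exact hval1
    rw [map_sub, map_mul, hGres, sub_eq_zero] at h0
    exact h0
  -- Step 2: both residues are values of `ρ = a · θ j̃`
  obtain ⟨hmem, -⟩ := exists_resw2_thetaGen hqM B hB hζ (b := b) hr2 hx1 hh hb 1
    (pow_one _).symm
  obtain ⟨hmem', -⟩ := exists_resw2_thetaGen hqM B hB hζ (b := b') hr2 hx1 hh hb' 1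
    (pow_one _).symm
  have hv := hval hmem
  have hv' := hval' hmem'
  rw [resMid_thetaGen_eq B hB hqM hζ hr2 hx1 hh a hc hb hmem] at hv
  rw [resMid_thetaGen_eq B hB hqM hζ hr2 hx1 hh a hc hb' hmem'] at hv'
  -- Step 3: `ū^f = ū'^f`
  have hpow : (algebraMap FtM (FMid M B) a * thetaMid B) ^ fMid M B hB =
      algebraMap FtM (FMid M B) (a ^ fMid M B hB * deltaMid B hB hqM) := by
    rw [mul_pow, thetaMid_pow_fMid B hB hqM, map_mul, map_pow]
  have hf1 : IsValueAt Q' (a ^ fMid M B hB * deltaMid B hB hqM)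
      (IsLocalRing.residue B u ^ fMid M B hB) := by
    have h1 := hv.pow (fMid M B hB)
    rw [hpow] at h1
    rw [← hQ'']
    exact (Fermat.Agent.BR3.CoverPlaces.isValueAt_restrict_iff Q'' _ _).2 h1
  have hf2 : IsValueAt Q' (a ^ fMid M B hB * deltaMid B hB hqM)
      (IsLocalRing.residue B u' ^ fMid M B hB) := by
    have h1 := hv'.pow (fMid M B hB)
    rw [hpow] at h1
    rw [← hQ''']
    exact (Fermat.Agent.BR3.CoverPlaces.isValueAt_restrict_iff Q''' _ _).2 h1
  have hff := hf1.unique hf2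
  have hu0' : IsLocalRing.residue B u' ≠ 0 := by
    intro h0
    rw [h0, zero_mul] at hres
    exact hu0 hres
  have hm1 : ((m : ℕ) : kB) ^ fMid M B hB = 1 := by
    rw [hres, mul_pow] at hff
    have h2 : IsLocalRing.residue B u' ^ fMid M B hB * ((m : ℕ) : kB) ^ fMid M B hB =
        IsLocalRing.residue B u' ^ fMid M B hB * 1 := by rw [hff, mul_one]
    exact mul_left_cancel₀ (pow_ne_zero _ hu0') h2
  -- Step 4: same valuation ring
  have hw := w2_eq_of_pow_eq_one B hB hqM hζ hb hb' hm hm1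
  refine ⟨hw, ?_⟩
  -- Step 5: same index ⇒ same point
  intro hbb
  subst hbb
  have hm' : ((m : ℕ) : kB) = 1 :=
    (natCast_eq_one_iff_of_zeta_pow B hB hζ (b₀ := ⟨b', hb⟩) (b' := ⟨b', hb'⟩) hm).2 rfl
  rw [hm', mul_one] at hres
  rw [hres] at hv
  exact eq_of_isValueAt_mid B hB hqM Q' hunr a hQ'' hQ''' hu0' hv hv'

/-! ### In terms of the middle valuations -/

set_option maxHeartbeats 1000000 in
include hB hqM in
/-- **(hMM) Two sheets of the middle components sharing a place are the same point**: for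
`i i' : Mid`, with the representatives `b = i.rep`, `b' = i'.rep`. -/
theorem mid_eq_of_values_mid [FiniteDimensional FtM (FMid M B)]
    {r x h : Fb (M * q)} (hr2 : r ∈ O2 B hB hqM) (hx1 : x ∈ O1 M B hB)
    (hh : h⁻¹ ∈ O1 M B hB) (a : FtM)
    (hc : res2 B hB hqM ⟨r, hr2⟩ * thetaL kB (res1 M B hB ⟨x, hx1⟩) * res1 M B hB ⟨h⁻¹, hh⟩ =
      (a : LaurentSeries kB) * thetaL kB (jqModC kB))
    (Q' : Place kB FtM)
    (hunr : ∀ Q'' : Place kB (FMid M B), Q''.restrict FtM = Q' → Q''.ramificationIndex FtM = 1)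
    (i i' : Mid B hB hqM hζ)
    {Q'' Q''' : Place kB (FMid M B)} (hQ'' : Q''.restrict FtM = Q')
    (hQ''' : Q'''.restrict FtM = Q') {u u' : B} (hu0 : IsLocalRing.residue B u ≠ 0)
    (hval : ∀ hmem : thetaGen hqM r x h
        ((ζ ^ (((i.rep B hB hqM hζ : Fin (q - 1)) : ℕ) + 1) : Kbˣ) : Kb) ∈
          w2 B hB hqM hζ (i.rep B hB hqM hζ).2,
      IsValueAt Q'' (resMid B hB hqM hζ (i.rep B hB hqM hζ).2 ⟨_, hmem⟩)
        (IsLocalRing.residue B u))
    (hval' : ∀ hmem : thetaGen hqM r x h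
        ((ζ ^ (((i'.rep B hB hqM hζ : Fin (q - 1)) : ℕ) + 1) : Kbˣ) : Kb) ∈
          w2 B hB hqM hζ (i'.rep B hB hqM hζ).2,
      IsValueAt Q''' (resMid B hB hqM hζ (i'.rep B hB hqM hζ).2 ⟨_, hmem⟩)
        (IsLocalRing.residue B u'))
    {P : Place Kb (Fb (M * q * q))}
    (hP : ∃ c : Kb, IsValueAt P (thetaGen hqM r x h
        ((ζ ^ (((i.rep B hB hqM hζ : Fin (q - 1)) : ℕ) + 1) : Kbˣ) : Kb)) c ∧
      B.valuation (c - (u : Kb)) < 1)
    (hP' : ∃ c : Kb, IsValueAt P (thetaGen hqM r x h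
        ((ζ ^ (((i'.rep B hB hqM hζ : Fin (q - 1)) : ℕ) + 1) : Kbˣ) : Kb)) c ∧
      B.valuation (c - (u' : Kb)) < 1) :
    i = i' ∧ Q'' = Q''' := by
  obtain ⟨hw, hQ⟩ := mid_eq_of_values B hB hqM hζ hr2 hx1 hh a hc Q' hunr
    (i.rep B hB hqM hζ).2 (i'.rep B hB hqM hζ).2 hQ'' hQ''' hu0 hval hval' hP hP'
  have hii : i' = i := by
    apply Mid.ring_injective B hB hqM hζ
    rw [← i'.w2_rep, ← i.w2_rep]
    exact hw
  subst hii
  exact ⟨rfl, hQ rfl⟩

end Fermat.Agent.BR3.SDD.FibreCanDisjMid
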