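import Fermat.Agent.BR3.SDD.FibreCanDisjMidInst
import Fermat.Agent.BR3.MidChartCompat
import Fermat.Agent.BR3.MidChartFin

/-!
# Program C, node (W4-CAN-MOD), input `hMM`/`dMM` of `(disj)`: the `midTubeAll` form

The tubes of the points of the middle components are helper13's `MidChartAll.midTubeAll` (one chosen
sheet per point; by `MidChartCompat.midTubeAll_eq_coverTube'` the tube does not depend on the sheet).
Here: two tubes `midTubeAll … (i.rep) Q₁''`, `midTubeAll … (i'.rep) Q₂''` over the same non-crossing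
point `Q'` of `can` which meet belong to the same point, at

* the cusps of `can` : **`midTubeAll_disj_cusp`** (generator `thetaCuspInf 2 z`, helper2's sheet
  `exists_coverSheet_mid_cusp_chart`);
* the finite points with `j̃ ≠ 0, 1728` : **`midTubeAll_disj_fin`** (generator
  `thetaGen (TB' M q) (jBar (M*q)) 1 z`, helper6's sheet `exists_coverSheet_mid_jBar`).

(The elliptic ordinary points are node (ELL-PUR).)
-/

set_option autoImplicit false
set_option linter.style.haveILetI false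
set_option linter.unusedSectionVars false

noncomputable section

set_option synthInstance.maxHeartbeats 400000

namespace Fermat.Agent.BR3.SDD.FibreCanDisjMid

open ModularCurve AlgebraicCurve HahnSeries Polynomial Fermat.Agent.X0 Fermat.Agent.Val
open Fermat.Agent.Hecke.AL Fermat.Agent.BR.TwoVal Fermat.Agent.BR.ResGen Fermat.Agent.Red
open Fermat.Agent.BR.TwoValInst Fermat.Agent.BR3.FibreProd Fermat.Agent.BR.ConstRedTwo
open Fermat.Agent.BR3.CoverK Fermat.Agent.BR3.IgSq Fermat.Agent.BR3.KummerGenus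
open Fermat.Agent.BR3.KummerGenus.MidInst Fermat.Agent.BR.ModUnit
open Fermat.Agent.BR.S0 Fermat.Agent.BR.S0.PointDict Fermat.Agent.BR.S0.RedModular
open Fermat.Agent.BR.S0.RedHyp Fermat.Agent.BR3.RegAtlas Fermat.Agent.BR3.MidChartAll
open Fermat.Agent.BR3.MidChartCompat Fermat.Agent.BR3.CuspSheet Fermat.Agent.BR3.MidUnitOrd

variable {M q : ℕ} [NeZero M] [hq : Fact q.Prime]
variable (B : ValuationSubring (AlgebraicClosure ℚ)) (hB : B.LiesOverPrime q) (hqM : ¬ q ∣ M)
variable {ζ : Kbˣ} (hζ : IsPrimitiveRoot ζ q)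

local notation "kB" => IsLocalRing.ResidueField B
local notation "FtM" => modularFunctionFieldFullC (IsLocalRing.ResidueField B) M

/-- (shortcut instances) -/
local instance (priority := 100000) instAlgKFtDA : Algebra kB FtM := inferInstance
local instance (priority := 100000) instAlgKFMidDA : Algebra kB (FMid M B) := inferInstance
local instance (priority := 100000) instAlgFtFMidDA : Algebra FtM (FMid M B) := inferInstance
local instance (priority := 100000) instTowerMidDA : IsScalarTower kB FtM (FMid M B) :=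
  inferInstance

variable [FiniteDimensional (modularFunctionFieldFullC (IsLocalRing.ResidueField B) M) (FMid M B)]

local instance (priority := 100000) instIsIntegralMidDA :
    Algebra.IsIntegral (modularFunctionFieldFullC (IsLocalRing.ResidueField B) M) (FMid M B) :=
  Algebra.IsIntegral.of_finite _ _

set_option maxHeartbeats 1600000 in
/-- **(dMM) at the cusps**: two tubes of points of middle components over the same cusp `Q'` of
`can` which meet belong to the same point. -/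
theorem midTubeAll_disj_cusp (H : AtlasHyp (chartDataModular B hB hqM) (jx M q))
    (i i' : Mid B hB hqM hζ) {Q₁'' Q₂'' : Place kB (FMid M B)} {Q' : Place kB FtM}
    (hQ₁ : Q₁''.restrict FtM = Q') (hQ₂ : Q₂''.restrict FtM = Q')
    (hQnc : ∀ e : Crossing (chartDataModular B hB hqM), Q' ≠ z₁ (chartDataModular B hB hqM) e)
    (hcusp : Q'.adicValuation ((jFullC kB M)⁻¹) < 1)
    {P : Place Kb (Fb (M * q * q))}
    (hP₁ : P ∈ midTubeAll B hB hqM hζ H (i.rep B hB hqM hζ) Q₁'' (by rw [hQ₁]; exact hQnc))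
    (hP₂ : P ∈ midTubeAll B hB hqM hζ H (i'.rep B hB hqM hζ) Q₂'' (by rw [hQ₂]; exact hQnc)) :
    i = i' ∧ Q₁'' = Q₂'' := by
  letI := algebraAlong (alpha2 M q)
  haveI := isScalarTower_along (alpha2 M q)
  haveI : Module.Finite (Fb (M * q)) (Fb (M * q * q)) := finite_alpha2
  obtain ⟨u₁, ψ₁, ψc₁, hu₁, hS₁⟩ :=
    exists_coverSheet_mid_cusp_chart B hB hqM hζ H Q' hQnc hcusp (i.rep B hB hqM hζ) hQ₁
  obtain ⟨u₂, ψ₂, ψc₂, -, hS₂⟩ :=
    exists_coverSheet_mid_cusp_chart B hB hqM hζ H Q' hQnc hcusp (i'.rep B hB hqM hζ) hQ₂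
  rw [midTubeAll_eq_coverTube' B hB hqM hζ H _ hQ₁ hQnc hS₁] at hP₁
  rw [midTubeAll_eq_coverTube' B hB hqM hζ H _ hQ₂ hQnc hS₂] at hP₂
  exact mid_disj_cusp B hB hqM hζ Q' hcusp i i' hQ₁ hQ₂ hu₁ (fun _ => hS₁.value)
    (fun _ => hS₂.value) hP₁.2 hP₂.2

include hB in
set_option maxHeartbeats 1600000 in
/-- **(dMM) at the finite non-elliptic points**: two tubes of points of middle components over the
same finite non-crossing point `Q'` of `can` with `j̃(Q') ≠ 0, 1728` which meet belong to the same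
point. -/
theorem midTubeAll_disj_fin (H : AtlasHyp (chartDataModular B hB hqM) (jx M q))
    (i i' : Mid B hB hqM hζ) {Q₁'' Q₂'' : Place kB (FMid M B)} {Q' : Place kB FtM}
    (hQ₁ : Q₁''.restrict FtM = Q') (hQ₂ : Q₂''.restrict FtM = Q')
    (hQnc : ∀ e : Crossing (chartDataModular B hB hqM), Q' ≠ z₁ (chartDataModular B hB hqM) e)
    (hj : jFullC kB M ∈ Q'.toValuationSubring)
    (h0 : Q'.ord (jFullC kB M) = 0) (h1 : Q'.ord (jFullC kB M - 1728) = 0)
    {P : Place Kb (Fb (M * q * q))}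
    (hP₁ : P ∈ midTubeAll B hB hqM hζ H (i.rep B hB hqM hζ) Q₁'' (by rw [hQ₁]; exact hQnc))
    (hP₂ : P ∈ midTubeAll B hB hqM hζ H (i'.rep B hB hqM hζ) Q₂'' (by rw [hQ₂]; exact hQnc)) :
    i = i' ∧ Q₁'' = Q₂'' := by
  letI := algebraAlong (alpha2 M q)
  haveI := isScalarTower_along (alpha2 M q)
  haveI : Module.Finite (Fb (M * q)) (Fb (M * q * q)) := finite_alpha2
  obtain ⟨u₁, ψ₁, ψc₁, hS₁, hu₁, -⟩ := exists_coverSheet_mid_jBar B hB hqM hζ
    (i.rep B hB hqM hζ).2 Q' hQnc hj h0 h1 hQ₁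
    (regChartCan B hB hqM H Q' hQnc).chart.R (regChartCan B hB hqM H Q' hQnc).chart.le
    (Fermat.Agent.BR3.MidChartFin.hPsiRJ B hB hqM hζ (i.rep B hB hqM hζ).2 H Q' hQnc hj h0 h1)
    (Fermat.Agent.BR3.RegBase.hlift_regChartCan B hB hqM H Q' hQnc)
  obtain ⟨u₂, ψ₂, ψc₂, hS₂, -, -⟩ := exists_coverSheet_mid_jBar B hB hqM hζ
    (i'.rep B hB hqM hζ).2 Q' hQnc hj h0 h1 hQ₂
    (regChartCan B hB hqM H Q' hQnc).chart.R (regChartCan B hB hqM H Q' hQnc).chart.le
    (Fermat.Agent.BR3.MidChartFin.hPsiRJ B hB hqM hζ (i'.rep B hB hqM hζ).2 H Q' hQnc hj h0 h1)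
    (Fermat.Agent.BR3.RegBase.hlift_regChartCan B hB hqM H Q' hQnc)
  rw [midTubeAll_eq_coverTube' B hB hqM hζ H _ hQ₁ hQnc hS₁] at hP₁
  rw [midTubeAll_eq_coverTube' B hB hqM hζ H _ hQ₂ hQnc hS₂] at hP₂
  have hunr : ∀ Q'' : Place kB (FMid M B), Q''.restrict FtM = Q' →
      Q''.ramificationIndex FtM = 1 := by
    intro Q'' hQ''
    have hmap := (exists_value_varthetaJ B hB hqM Q' hQnc hj h0 h1 hQ'').1
    obtain ⟨ϖ, hϖ⟩ := IsDiscreteValuationRing.exists_irreducible Q'.toValuationSubring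
    have h1' : Q'.ord (ϖ : FtM) = 1 := Q'.ord_coe_irreducible hϖ
    have h2 := Q''.ord_restrict (F := FtM) (ϖ : FtM)
    rw [hQ'', h1', mul_one, hmap, h1'] at h2
    exact_mod_cast h2.symm
  exact mid_disj_fin B hB hqM hζ Q' hunr i i' hQ₁ hQ₂ hu₁ (fun _ => hS₁.value)
    (fun _ => hS₂.value) hP₁.2 hP₂.2

end Fermat.Agent.BR3.SDD.FibreCanDisjMid
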