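import Fermat.Agent.BR3.EllPurity.ValuesMid
import Fermat.Agent.BR3.MidChartAllFinal

/-!
# Program C, node (W4-CAN-MOD), input `hMM`/`dMM` of `(disj)`: the finite points, via the purity plug

`midTubeAll_disj_finAll` : two tubes `midTubeAll … (i.rep) Q₁''`, `midTubeAll … (i'.rep) Q₂''` of
points of middle components over the same FINITE non-crossing point `Q'` of `can` which meet belong
to the same point — at EVERY finite non-crossing point, in particular at the elliptic ordinary
points `j̃(Q') ∈ {0, 1728}` (node (ELL-PUR)), in the shape of `FibreCanDisjMid.midTubeAll_disj_fin` /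
`midTubeAll_disj_cusp` (helper21) without the hypotheses `ord j̃ = ord (j̃ - 1728) = 0`.

Proof: `midTubeAll` is the tube of the regular chart `MidChartAll.midRegAll` (sheet datum
`MidChartAllFinal.hasMidSheetM`), it lies over the tube of `Q'`, and the tubes of ANY two regular
charts of middle components at two different points over `Q'` are disjoint
(`EllPurity.ell_disjoint_mid_of_ring_ne`, `ell_disjoint_mid_of_place_ne`: the values of the étale
generator of the purity plug separate the points).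
-/

set_option autoImplicit false
set_option linter.style.haveILetI false
set_option linter.unusedSectionVars false

noncomputable section

set_option synthInstance.maxHeartbeats 400000

namespace Fermat.Agent.BR3.SDD.FibreCanDisjMid

open ModularCurve AlgebraicCurve HahnSeries Polynomial Fermat.Agent.X0 Fermat.Agent.Val
open Fermat.Agent.Hecke.AL Fermat.Agent.BR.TwoVal Fermat.Agent.BR.ResGen Fermat.Agent.Red
open Fermat.Agent.BR.TwoValInst Fermat.Agent.BR3.FibreProd Fermat.Agent.BR.ConstRedTwo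
open Fermat.Agent.BR3.CoverK Fermat.Agent.BR2.LevelGen
open Fermat.Agent.BR.S0 Fermat.Agent.BR.S0.PointDict Fermat.Agent.BR.S0.RedModular
open Fermat.Agent.BR.S0.RedHyp Fermat.Agent.BR3.RegAtlas Fermat.Agent.BR3.MidChartAll
open Fermat.Agent.BR3.MidChartAllFinal Fermat.Agent.BR3.EllPurity

variable {M q : ℕ} [NeZero M] [hq : Fact q.Prime]
variable (B : ValuationSubring (AlgebraicClosure ℚ)) (hB : B.LiesOverPrime q) (hqM : ¬ q ∣ M)
variable {ζ : Kbˣ} (hζ : IsPrimitiveRoot ζ q)

local notation "kB" => IsLocalRing.ResidueField B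
local notation "FtM" => modularFunctionFieldFullC (IsLocalRing.ResidueField B) M

/-- (shortcut instances) -/
local instance (priority := 100000) instAlgKFtDE : Algebra kB FtM := inferInstance
local instance (priority := 100000) instAlgKFMidDE : Algebra kB (FMid M B) := inferInstance
local instance (priority := 100000) instAlgFtFMidDE : Algebra FtM (FMid M B) := inferInstance
local instance (priority := 100000) instTowerMidDE : IsScalarTower kB FtM (FMid M B) :=
  inferInstance

include hB in
set_option maxHeartbeats 1600000 in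
/-- **(dMM) at EVERY finite non-crossing point of `can`** (elliptic ordinary points included): two
tubes of points of middle components over the same finite non-crossing point `Q'` of `can` which
meet belong to the same point. -/
theorem midTubeAll_disj_finAll
    [FiniteDimensional (modularFunctionFieldFullC (IsLocalRing.ResidueField B) M) (FMid M B)]
    (h2 : nuTwo M = 0) (h3 : nuThree M = 0)
    (H : AtlasHyp (chartDataModular B hB hqM) (jx M q))
    (i i' : Mid B hB hqM hζ) {Q₁'' Q₂'' : Place kB (FMid M B)} {Q' : Place kB FtM}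
    (hQ₁ : Q₁''.restrict FtM = Q') (hQ₂ : Q₂''.restrict FtM = Q')
    (hQnc : ∀ e : Crossing (chartDataModular B hB hqM), Q' ≠ z₁ (chartDataModular B hB hqM) e)
    (hj : jFullC kB M ∈ Q'.toValuationSubring)
    {P : Place Kb (Fb (M * q * q))}
    (hP₁ : P ∈ midTubeAll B hB hqM hζ H (i.rep B hB hqM hζ) Q₁'' (by rw [hQ₁]; exact hQnc))
    (hP₂ : P ∈ midTubeAll B hB hqM hζ H (i'.rep B hB hqM hζ) Q₂'' (by rw [hQ₂]; exact hQnc)) :
    i = i' ∧ Q₁'' = Q₂'' := by
  have hfin : Q'.adicValuation (jFullC kB M) ≤ 1 :=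
    Fermat.Agent.BR3.CoverSmooth.mem_iff_le_one.1 hj
  have hnc₁ : ∀ e : Crossing (chartDataModular B hB hqM),
      Q₁''.restrict FtM ≠ z₁ (chartDataModular B hB hqM) e := by rw [hQ₁]; exact hQnc
  have hnc₂ : ∀ e : Crossing (chartDataModular B hB hqM),
      Q₂''.restrict FtM ≠ z₁ (chartDataModular B hB hqM) e := by rw [hQ₂]; exact hQnc
  have hsub₁ : ∀ P ∈ midTubeAll B hB hqM hζ H (i.rep B hB hqM hζ) Q₁'' hnc₁,
      H.r (P.restrictAlong (alpha2 M q) (isIntegral_fb (alpha2 M q))) =
        (⟨0, Q'⟩ : Σ _ : Fin 2, Place kB FtM) := by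
    intro P hP
    have h := restrictAlong_mem_of_mem_midTubeAll B hB hqM hζ H (i.rep B hB hqM hζ) Q₁'' hnc₁
      (isIntegral_fb (alpha2 M q)) hP
    rw [hQ₁] at h
    exact h
  have hsub₂ : ∀ P ∈ midTubeAll B hB hqM hζ H (i'.rep B hB hqM hζ) Q₂'' hnc₂,
      H.r (P.restrictAlong (alpha2 M q) (isIntegral_fb (alpha2 M q))) =
        (⟨0, Q'⟩ : Σ _ : Fin 2, Place kB FtM) := by
    intro P hP
    have h := restrictAlong_mem_of_mem_midTubeAll B hB hqM hζ H (i'.rep B hB hqM hζ) Q₂'' hnc₂
      (isIntegral_fb (alpha2 M q)) hP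
    rw [hQ₂] at h
    exact h
  have hii : i = i' := by
    by_contra hne
    have hW : w2 B hB hqM hζ (i'.rep B hB hqM hζ).2 ≠ w2 B hB hqM hζ (i.rep B hB hqM hζ).2 := by
      rw [Mid.w2_rep, Mid.w2_rep]
      exact fun h => hne (Mid.ring_injective B hB hqM hζ h.symm)
    have hd := ell_disjoint_mid_of_ring_ne B hB hqM hζ h2 h3 H Q' hQnc hfin
      (i.rep B hB hqM hζ).2 (i'.rep B hB hqM hζ).2 hW hQ₁ hQ₂
      (midRegAll B hB hqM hζ H (i.rep B hB hqM hζ) Q₁'' hnc₁
        (hasMidSheetM B hB hqM hζ h2 h3 H (i.rep B hB hqM hζ) Q₁'' hnc₁))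
      (midRegAll B hB hqM hζ H (i'.rep B hB hqM hζ) Q₂'' hnc₂
        (hasMidSheetM B hB hqM hζ h2 h3 H (i'.rep B hB hqM hζ) Q₂'' hnc₂)) hsub₁ hsub₂
    exact Set.disjoint_left.1 hd hP₁ hP₂
  subst hii
  refine ⟨rfl, ?_⟩
  by_contra hne
  have hd := ell_disjoint_mid_of_place_ne B hB hqM hζ h2 h3 H Q' hQnc hfin
    (i.rep B hB hqM hζ).2 hQ₁ hQ₂ hne
    (midRegAll B hB hqM hζ H (i.rep B hB hqM hζ) Q₁'' hnc₁
      (hasMidSheetM B hB hqM hζ h2 h3 H (i.rep B hB hqM hζ) Q₁'' hnc₁))
    (midRegAll B hB hqM hζ H (i.rep B hB hqM hζ) Q₂'' hnc₂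
      (hasMidSheetM B hB hqM hζ h2 h3 H (i.rep B hB hqM hζ) Q₂'' hnc₂)) hsub₁ hsub₂
  exact Set.disjoint_left.1 hd hP₁ hP₂

end Fermat.Agent.BR3.SDD.FibreCanDisjMid
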