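import Fermat.Agent.BR3.SDD.FibreCanDisjMid
import Fermat.Agent.BR3.CuspSheet.MidCusp
import Fermat.Agent.BR3.CuspMid.CuspAll
import Fermat.Agent.BR3.MidUnitOrd

/-!
# Program C, node (W4-CAN-MOD), input `hMM` of `(disj)`: the instances

* finite points: generator `thetaGen (TB' M q) (jBar (M*q)) 1 z` (helper6, `MidUnitOrd`),
  `c₁ = T̄ · θ j̃`, `a = TbarM` : `resFormula_fin`, **`mid_disj_fin`**;
* cusps: generator `thetaCuspInf 2 z` (helper2/helper21), `c₁ = -(ρ²/j̃) · θ j̃`, `a = aCusp` :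
  `resFormula_cusp`, **`mid_disj_cusp`** (unramifiedness over the cusps discharged);
* **`exists_midChartCusp_val`** : helper2's `exists_midChartCusp` together with the VALUE clause
  `θ̄ (Q'') = ū` needed by `mid_disj_cusp` (the chart alone forgets which residue `ū` is).

In all statements the tube membership is the second component of `mem_coverTube`:
`∃ c, IsValueAt P θ c ∧ B.valuation (c - u) < 1`  (`(mem_coverTube.1 hP).2`).
-/

set_option autoImplicit false
set_option linter.style.haveILetI false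
set_option linter.unusedSectionVars false

noncomputable section

/- S36 build-time patch: file-local shortcut instances. They only shorten instance search;
each is the instance that the search finds anyway (reducible, same terms after unfolding). -/
local instance (priority := 100000) Fermat.Agent.BR3.FastInst.instAlgFullC_SDD_FibreCanDisjMidInst
    {k : Type*} [Field k] (N : ℕ) :
    Algebra k ↥(ModularCurve.modularFunctionFieldFullC k N) := inferInstance
local instance (priority := 100000) Fermat.Agent.BR3.FastInst.instFieldFullC_SDD_FibreCanDisjMidInst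
    {k : Type*} [Field k] (N : ℕ) :
    Field ↥(ModularCurve.modularFunctionFieldFullC k N) := inferInstance
local instance (priority := 100000) Fermat.Agent.BR3.FastInst.instAlgLaurent_SDD_FibreCanDisjMidInst
    {k : Type*} [Field k] : Algebra k (LaurentSeries k) := inferInstance


set_option synthInstance.maxHeartbeats 400000

namespace Fermat.Agent.BR3.SDD.FibreCanDisjMid

open ModularCurve AlgebraicCurve HahnSeries Polynomial Fermat.Agent.X0 Fermat.Agent.Val
open Fermat.Agent.Hecke.AL Fermat.Agent.BR.TwoVal Fermat.Agent.BR.ResGen Fermat.Agent.Red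
open Fermat.Agent.BR.TwoValInst Fermat.Agent.BR3.FibreProd Fermat.Agent.BR.ConstRedTwo
open Fermat.Agent.BR3.CoverK Fermat.Agent.BR3.IgSq Fermat.Agent.BR3.KummerGenus
open Fermat.Agent.BR3.KummerGenus.MidInst Fermat.Agent.BR.ModUnit
open Fermat.Agent.BR.S0 Fermat.Agent.BR.S0.PointDict Fermat.Agent.BR.S0.RedModular
open Fermat.Agent.BR.S0.RedHyp Fermat.Agent.BR3.RegAtlas

variable {M q : ℕ} [NeZero M] [hq : Fact q.Prime]
variable (B : ValuationSubring (AlgebraicClosure ℚ)) (hB : B.LiesOverPrime q) (hqM : ¬ q ∣ M)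
variable {ζ : Kbˣ} (hζ : IsPrimitiveRoot ζ q)

local notation "kB" => IsLocalRing.ResidueField B
local notation "FtM" => modularFunctionFieldFullC (IsLocalRing.ResidueField B) M

/-- (shortcut instances) -/
local instance (priority := 100000) instAlgKFtDI : Algebra kB FtM := inferInstance
local instance (priority := 100000) instAlgKFMidDI : Algebra kB (FMid M B) := inferInstance
local instance (priority := 100000) instAlgFtFMidDI : Algebra FtM (FMid M B) := inferInstance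
local instance (priority := 100000) instTowerMidDI : IsScalarTower kB FtM (FMid M B) :=
  inferInstance

/-! ### Finite points: `θ = β₂ T' · U / (z - 1)` -/

theorem one_inv_mem_O1 : (1 : Fb (M * q))⁻¹ ∈ O1 M B hB := by
  rw [inv_one]
  exact (O1 M B hB).one_mem

include hB in
/-- the residue of the finite generator is `T̄ · θ j̃` -/
theorem resFormula_fin :
    res2 B hB hqM ⟨TB' M q, TB'_mem_O2 M q B hB hqM⟩ *
        thetaL kB (res1 M B hB ⟨jBar (M * q), jBar_mem_O1 B hB⟩) *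
          res1 M B hB ⟨(1 : Fb (M * q))⁻¹, one_inv_mem_O1 B hB⟩ =
      ((Fermat.Agent.BR3.MidUnitOrd.TbarM B hB hqM : FtM) : LaurentSeries kB) *
        thetaL kB (jqModC kB) := by
  have h1 : (⟨(1 : Fb (M * q))⁻¹, one_inv_mem_O1 B hB⟩ : O1 M B hB) = 1 := Subtype.ext inv_one
  rw [res2_TB', Fermat.Agent.BR3.FibreProd.res1_jBar, h1, map_one, mul_one,
    Fermat.Agent.BR3.MidUnitOrd.coe_TbarM]

set_option maxHeartbeats 1000000 in
include hB hqM in
/-- **(hMM) at the finite points**, generator `thetaGen (TB' M q) (jBar (M*q)) 1 z`. -/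
theorem mid_disj_fin [FiniteDimensional FtM (FMid M B)] (Q' : Place kB FtM)
    (hunr : ∀ Q'' : Place kB (FMid M B), Q''.restrict FtM = Q' → Q''.ramificationIndex FtM = 1)
    (i i' : Mid B hB hqM hζ)
    {Q'' Q''' : Place kB (FMid M B)} (hQ'' : Q''.restrict FtM = Q')
    (hQ''' : Q'''.restrict FtM = Q') {u u' : B} (hu0 : IsLocalRing.residue B u ≠ 0)
    (hval : ∀ hmem : thetaGen hqM (TB' M q) (jBar (M * q)) 1
        ((ζ ^ (((i.rep B hB hqM hζ : Fin (q - 1)) : ℕ) + 1) : Kbˣ) : Kb) ∈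
          w2 B hB hqM hζ (i.rep B hB hqM hζ).2,
      IsValueAt Q'' (resMid B hB hqM hζ (i.rep B hB hqM hζ).2 ⟨_, hmem⟩)
        (IsLocalRing.residue B u))
    (hval' : ∀ hmem : thetaGen hqM (TB' M q) (jBar (M * q)) 1
        ((ζ ^ (((i'.rep B hB hqM hζ : Fin (q - 1)) : ℕ) + 1) : Kbˣ) : Kb) ∈
          w2 B hB hqM hζ (i'.rep B hB hqM hζ).2,
      IsValueAt Q''' (resMid B hB hqM hζ (i'.rep B hB hqM hζ).2 ⟨_, hmem⟩)
        (IsLocalRing.residue B u'))
    {P : Place Kb (Fb (M * q * q))}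
    (hP : ∃ c : Kb, IsValueAt P (thetaGen hqM (TB' M q) (jBar (M * q)) 1
        ((ζ ^ (((i.rep B hB hqM hζ : Fin (q - 1)) : ℕ) + 1) : Kbˣ) : Kb)) c ∧
      B.valuation (c - (u : Kb)) < 1)
    (hP' : ∃ c : Kb, IsValueAt P (thetaGen hqM (TB' M q) (jBar (M * q)) 1
        ((ζ ^ (((i'.rep B hB hqM hζ : Fin (q - 1)) : ℕ) + 1) : Kbˣ) : Kb)) c ∧
      B.valuation (c - (u' : Kb)) < 1) :
    i = i' ∧ Q'' = Q''' :=
  mid_eq_of_values_mid B hB hqM hζ (TB'_mem_O2 M q B hB hqM) (jBar_mem_O1 B hB)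
    (one_inv_mem_O1 B hB) (Fermat.Agent.BR3.MidUnitOrd.TbarM B hB hqM) (resFormula_fin B hB hqM)
    Q' hunr i i' hQ'' hQ''' hu0 hval hval' hP hP'

/-! ### Cusps: `θ = (1 - θ∞)² (j/j(s^{q²}) - 1)/(z - 1)` -/

/-- `a = -ρ²/j̃ ∈ F̃_M` -/
def aCusp : FtM :=
  ⟨-(Fermat.Agent.BR3.CuspMid.rhoInf (q := q) B ^ 2 * (jqModC kB)⁻¹),
    neg_mem (mul_mem (pow_mem (full_degeneracyC_le kB (one_dvd M)
      (Fermat.Agent.BR3.CuspMid.rhoInf_mem_level_one B)) 2) (inv_mem (jqModC_mem_full kB M)))⟩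

include hB in
/-- the residue of the cusp generator is `-(ρ²/j̃) · θ j̃` -/
theorem resFormula_cusp :
    res2 B hB hqM ⟨Fermat.Agent.BR3.CuspMid.rInf M q 2,
        Fermat.Agent.BR3.CuspMid.rInf_mem_O2 B hB hqM 2⟩ *
        thetaL kB (res1 M B hB ⟨(jBar (M * q))⁻¹, Fermat.Agent.BR3.CuspMid.jBar_inv_mem_O1 B hB⟩) *
          res1 M B hB ⟨((jBar (M * q))⁻¹)⁻¹,
            Fermat.Agent.BR3.CuspMid.jBar_inv_inv_mem_O1 B hB⟩ =
      ((aCusp (M := M) (q := q) B : FtM) : LaurentSeries kB) * thetaL kB (jqModC kB) := by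
  have hj : jqModC kB ≠ 0 := jqModC_ne_zero_of_nontrivial kB
  rw [Fermat.Agent.BR3.CuspMid.res_formula_cInf B hB hqM 2, Fermat.Agent.BR3.CuspMid.cInf,
    Fermat.Agent.BR3.CuspMid.thetaL_inv_jqModC]
  show _ = -(Fermat.Agent.BR3.CuspMid.rhoInf (q := q) B ^ 2 * (jqModC kB)⁻¹) *
    thetaL kB (jqModC kB)
  field_simp

set_option maxHeartbeats 1000000 in
include hB hqM in
/-- **(hMM) at the cusps**, generator `thetaCuspInf 2 z`. -/
theorem mid_disj_cusp [FiniteDimensional FtM (FMid M B)] (Q' : Place kB FtM)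
    (hcusp : Q'.adicValuation ((jFullC kB M)⁻¹) < 1)
    (i i' : Mid B hB hqM hζ)
    {Q'' Q''' : Place kB (FMid M B)} (hQ'' : Q''.restrict FtM = Q')
    (hQ''' : Q'''.restrict FtM = Q') {u u' : B} (hu0 : IsLocalRing.residue B u ≠ 0)
    (hval : ∀ hmem : Fermat.Agent.BR3.CuspMid.thetaCuspInf (M := M) hqM 2
        ((ζ ^ (((i.rep B hB hqM hζ : Fin (q - 1)) : ℕ) + 1) : Kbˣ) : Kb) ∈
          w2 B hB hqM hζ (i.rep B hB hqM hζ).2,
      IsValueAt Q'' (resMid B hB hqM hζ (i.rep B hB hqM hζ).2 ⟨_, hmem⟩)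
        (IsLocalRing.residue B u))
    (hval' : ∀ hmem : Fermat.Agent.BR3.CuspMid.thetaCuspInf (M := M) hqM 2
        ((ζ ^ (((i'.rep B hB hqM hζ : Fin (q - 1)) : ℕ) + 1) : Kbˣ) : Kb) ∈
          w2 B hB hqM hζ (i'.rep B hB hqM hζ).2,
      IsValueAt Q''' (resMid B hB hqM hζ (i'.rep B hB hqM hζ).2 ⟨_, hmem⟩)
        (IsLocalRing.residue B u'))
    {P : Place Kb (Fb (M * q * q))}
    (hP : ∃ c : Kb, IsValueAt P (Fermat.Agent.BR3.CuspMid.thetaCuspInf (M := M) hqM 2
        ((ζ ^ (((i.rep B hB hqM hζ : Fin (q - 1)) : ℕ) + 1) : Kbˣ) : Kb)) c ∧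
      B.valuation (c - (u : Kb)) < 1)
    (hP' : ∃ c : Kb, IsValueAt P (Fermat.Agent.BR3.CuspMid.thetaCuspInf (M := M) hqM 2
        ((ζ ^ (((i'.rep B hB hqM hζ : Fin (q - 1)) : ℕ) + 1) : Kbˣ) : Kb)) c ∧
      B.valuation (c - (u' : Kb)) < 1) :
    i = i' ∧ Q'' = Q''' :=
  mid_eq_of_values_mid B hB hqM hζ (Fermat.Agent.BR3.CuspMid.rInf_mem_O2 B hB hqM 2)
    (Fermat.Agent.BR3.CuspMid.jBar_inv_mem_O1 B hB)
    (Fermat.Agent.BR3.CuspMid.jBar_inv_inv_mem_O1 B hB) (aCusp B) (resFormula_cusp B hB hqM)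
    Q' (fun _ h => Fermat.Agent.BR3.CuspMid.ramificationIndex_cusp_all B hB hqM Q' hcusp h)
    i i' hQ'' hQ''' hu0 hval hval' hP hP'

/-! ### The chart at the cusps, with the value clause -/

include hζ in
set_option maxHeartbeats 1600000 in
/-- **(SC4) helper2's `exists_midChartCusp` with the value clause**: the regular chart of
`mid = w₂ b₀` at `Q''` over a cusp `Q'` of `can` on the sheet `θ ≡ u`, where `ū` IS the value of
`θ̄` at `Q''`. -/
theorem exists_midChartCusp_val [FiniteDimensional FtM (FMid M B)]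
    (H : AtlasHyp (chartDataModular B hB hqM) (jx M q))
    (Q' : Place kB FtM) (hQnc : ∀ e, Q' ≠ z₁ (chartDataModular B hB hqM) e)
    (hQ : Q'.adicValuation ((jFullC kB M)⁻¹) < 1) (b₀ : Fin (q - 1))
    {Q'' : Place kB (FMid M B)} (hQ'' : Q''.restrict FtM = Q')
    (harch : ∀ a c : Kb, B.valuation a < 1 → c ≠ 0 → ∃ N : ℕ, B.valuation a ^ N ≤ B.valuation c) :
    letI := algebraAlong (alpha2 M q)
    haveI : Module.Finite (Fb (M * q)) (Fb (M * q * q)) := Fermat.Agent.BR3.CuspSheet.finite_alpha2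
    ∃ (u : B), IsLocalRing.residue B u ≠ 0 ∧
      (∀ hmem : Fermat.Agent.BR3.CuspMid.thetaCuspInf (M := M) hqM 2
          ((ζ ^ ((b₀ : ℕ) + 1) : Kbˣ) : Kb) ∈ w2 B hB hqM hζ b₀.2,
        IsValueAt Q'' (resMid B hB hqM hζ b₀.2 ⟨_, hmem⟩) (IsLocalRing.residue B u)) ∧
      ∃ C : RegChart B (constRedMid B hB hqM hζ b₀.2).O (constRedMid B hB hqM hζ b₀.2).res Q''
        (coverTube B {P | H.r P = ⟨0, Q'⟩}
          (Fermat.Agent.BR3.CuspMid.thetaCuspInf (M := M) hqM 2
            ((ζ ^ ((b₀ : ℕ) + 1) : Kbˣ) : Kb)) u),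
        C.chart.t = alpha2 M q (regChartCan B hB hqM H Q' hQnc).chart.t := by
  letI := algebraAlong (alpha2 M q)
  haveI := isScalarTower_along (alpha2 M q)
  haveI : Module.Finite (Fb (M * q)) (Fb (M * q * q)) := Fermat.Agent.BR3.CuspSheet.finite_alpha2
  haveI : Algebra.IsSeparable (Fb (M * q)) (Fb (M * q * q)) :=
    Algebra.IsAlgebraic.isSeparable_of_perfectField
  obtain ⟨u, ψ, ψc, hu0, hsheet⟩ :=
    Fermat.Agent.BR3.CuspSheet.exists_coverSheet_mid_cusp_chart B hB hqM hζ H Q' hQnc hQ b₀ hQ''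
  exact ⟨u, hu0, fun _ => hsheet.value,
    coverRegChartOfConstRed (constRedW1 B hB hqM) (regChartCan B hB hqM H Q' hQnc) hsheet harch,
    rfl⟩

end Fermat.Agent.BR3.SDD.FibreCanDisjMid
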