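import Mathlib
import Fermat.Agent.BR3.SDD.FibreCan
import Fermat.Agent.BR3.SDD.ModularFrame
import Fermat.Agent.BR3.KummerGenus.MidInst
import Fermat.Agent.BR3.CoverK.OfConstRed
import Fermat.Agent.BR3.CoverK.FibreInsepMod

/-!
# Program C (S36), node I7 (W4-CAN-MOD): the smooth discs of `can` along `α₂`, modular instance

For `(M, q, B)`, a point `Q'` of the component `can` of `S'` (residue field `F̃_M`) with a regular
chart `C` on its tube `T'`, and the tube families `TH`, `TM` of the horizontal and the middle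
components of `S''` (residue fields `FtAll B hB hqM hζ FZ`): from ONE `CoverK.CoverSheet` along `α₂`
at the point `Q'` of `cInf` (`HInf`: SC1 at the finite points, SC2 at the cusps) and ONE at every
place `Q''` of `FMid M B` over `Q'` for every middle component (`HMid`: SC3/SC4), with the tubes of
these points the corresponding `coverTube`s, pairwise disjoint (`hIM`, `hMM`):

* `card_fiber_FMid` : there are exactly `fMid` places of `FMid M B` over `Q'` (the sheets are
  unramified: field `ord_map`), hence `one_add_sum_card_fiber : 1 + ∑ i, #(fibre) = q = [F'' : F']`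
  (`card_mid_mul`);
* **`exh_can_mod`** : every place of `F̄_{Mq²}` over `T'` along `α₂` lies in `TH false Q'` or in
  some `TM i Q''`, `Q''` over `Q'` (= the clause `cOld` / `hOld` of `Partition` over `can`);
* `smoothFibre_can_mod` : the `CoverK.Fibre.SmoothFibre T' (tubeOf TH TM TZ)` itself (algebra along
  `α₂`), to be fed to `FibreInsepAlong.fibreOver_of_smoothFibre_along`.
-/

set_option autoImplicit false
set_option linter.style.haveILetI false
set_option linter.unusedSectionVars false
set_option linter.unusedVariables false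

noncomputable section

set_option synthInstance.maxHeartbeats 400000

namespace Fermat.Agent.BR3.SDD.FibreCanMod

open ModularCurve AlgebraicCurve Polynomial IsLocalRing Fermat.Agent.X0 Fermat.Agent.Val
  Fermat.Agent.Red Fermat.Agent.BR.SS Fermat.Agent.BR.S0 Fermat.Agent.BR.ConstRedTwo
  Fermat.Agent.BR3.FibreProd Fermat.Agent.BR3.CInfRes Fermat.Agent.BR3.CoverDict
  Fermat.Agent.BR3.CoverK Fermat.Agent.BR3.CoverK.Fibre Fermat.Agent.BR3.CoverK.Factor
  Fermat.Agent.BR3.SDD.FibreCan Fermat.Agent.BR3.SDD.Modular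
  Fermat.Agent.BR3.KummerGenus.MidInst Fermat.Agent.BR2.LevelGen Fermat.Agent.Hecke.AL
  Fermat.Agent.BR.TwoVal

variable {M q : ℕ} [NeZero M] [hq : Fact q.Prime] [NeZero q]
variable (B : ValuationSubring (AlgebraicClosure ℚ)) (hB : B.LiesOverPrime q) (hqM : ¬ q ∣ M)
variable [IsAlgClosed (ResidueField B)]
variable {ζ : Kbˣ} (hζ : IsPrimitiveRoot ζ q)

local notation "kB" => IsLocalRing.ResidueField B
local notation "FtM" => modularFunctionFieldFullC (IsLocalRing.ResidueField B) M

/-- (shortcut instances) -/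
local instance (priority := 100000) instAlgKFtCM : Algebra kB FtM := inferInstance
local instance (priority := 100000) instAlgKFMidCM : Algebra kB (FMid M B) := inferInstance
local instance (priority := 100000) instAlgFtFMidCM : Algebra FtM (FMid M B) := inferInstance
local instance (priority := 100000) instTowerMidCM : IsScalarTower kB FtM (FMid M B) :=
  inferInstance
local instance (priority := 100000) instIsIntegralMidCM [FiniteDimensional FtM (FMid M B)] :
    Algebra.IsIntegral FtM (FMid M B) :=
  Algebra.IsIntegral.of_finite _ _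

/-! ### The number of places of `FMid M B` over an unramified point -/

/-- **There are `fMid` places of `FMid M B` over a point `Q'` of `F̃_M` over which every place
satisfies `ord_map`.** -/
theorem card_fiber_FMid [FiniteDimensional FtM (FMid M B)] (Q' : Place kB FtM)
    (h : ∀ w : Place kB (FMid M B), w.restrict FtM = Q' →
      ∀ f : FtM, w.ord (algebraMap FtM (FMid M B) f) = Q'.ord f) :
    haveI := (riemannPkg_FMid B hB hqM).principal
    (Q'.fiber (FMid M B)).card = fMid M B hB := by
  haveI := (riemannPkg_FMid B hB hqM).principal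
  haveI := isSeparable_FMid B hB hqM
  haveI : FundamentalIdentity kB FtM (FMid M B) := Fermat.Agent.FF.fundamentalIdentity
  rw [← finrank_FMid B hB hqM]
  exact card_fiber_of_ord_map Q' ((riemannPkg_FtM B hB hqM).deg_one Q')
    (riemannPkg_FMid B hB hqM).deg_one h

/-- **The count**: `1 + ∑ i, #{places of mid i over Q'} = q`. -/
theorem one_add_sum_card_fiber [FiniteDimensional FtM (FMid M B)] (Q' : Place kB FtM)
    (h : ∀ w : Place kB (FMid M B), w.restrict FtM = Q' →
      ∀ f : FtM, w.ord (algebraMap FtM (FMid M B) f) = Q'.ord f) :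
    haveI := (riemannPkg_FMid B hB hqM).principal
    1 + ∑ _i : MidM B hB hqM hζ, (Q'.fiber (FMid M B)).card = q := by
  haveI := (riemannPkg_FMid B hB hqM).principal
  rw [card_fiber_FMid B hB hqM Q' h, Finset.sum_const, Finset.card_univ, smul_eq_mul,
    card_mid_mul B hB hqM hζ]
  have := hq.out.two_le
  omega

/-! ### The fibre over the tube of a point of `can` -/

section Fibre

variable {FZ : SSpM B hB hqM → Type} [∀ e, Field (FZ e)] [∀ e, Algebra (ResidueField B) (FZ e)]
  {TH : ∀ b : Bool, Place (ResidueField B) (FtAll B hB hqM hζ FZ (Sum.inl (Sum.inl b))) →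
    Set (Place (AlgebraicClosure ℚ) (Fb (M * q * q)))}
  {TM : ∀ i : MidM B hB hqM hζ, Place (ResidueField B) (FtAll B hB hqM hζ FZ (mid i)) →
    Set (Place (AlgebraicClosure ℚ) (Fb (M * q * q)))}
  {TZ : ∀ e : SSpM B hB hqM, Place (ResidueField B) (FtAll B hB hqM hζ FZ (ze e)) →
    Set (Place (AlgebraicClosure ℚ) (Fb (M * q * q)))}

set_option maxHeartbeats 4000000 in
/-- **The fibre of `S''` over the tube of a point `Q'` of `can`, along `α₂`** (modular instance of
`FibreCan.smoothFibre_can`): the point `Q'` of `cInf` and, for every middle component, the places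
of `FMid M B` over `Q'`. -/
def smoothFibre_can_mod [FiniteDimensional FtM (FMid M B)]
    {T' : Set (Place Kb (Fb (M * q)))} (Q' : Place kB FtM)
    (C : RegChart B (constRedW1 B hB hqM).O (constRedW1 B hB hqM).res Q' T')
    (harch : ∀ a c : Kb, B.valuation a < 1 → c ≠ 0 →
      ∃ N : ℕ, B.valuation a ^ N ≤ B.valuation c)
    (HInf : letI := algebraAlong (alpha2 M q)
      haveI := isScalarTower_along (alpha2 M q)
      haveI := isIntegral_along (alpha2 M q) (isIntegral_fb (alpha2 M q))
      ∃ (θ : Fb (M * q * q)) (Ψ ψ ψc : (Fb (M * q))[X]) (u : B),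
        CoverSheet B (IsLocalRing.residue B) (constRedW1 B hB hqM).O (constRedW1 B hB hqM).res Q'
          (constRedCInf B hB hqM).O (constRedCInf B hB hqM).res Q' C.chart.R θ Ψ ψ ψc u ∧
        TH false Q' = coverTube B T' θ u)
    (HMid : letI := algebraAlong (alpha2 M q)
      haveI := isScalarTower_along (alpha2 M q)
      haveI := isIntegral_along (alpha2 M q) (isIntegral_fb (alpha2 M q))
      ∀ (i : MidM B hB hqM hζ) (Q'' : Place kB (FMid M B)), Q''.restrict FtM = Q' →
        ∃ (θ : Fb (M * q * q)) (Ψ ψ ψc : (Fb (M * q))[X]) (u : B),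
          CoverSheet B (IsLocalRing.residue B) (constRedW1 B hB hqM).O (constRedW1 B hB hqM).res Q'
            (CM B hB hqM hζ i).O (CM B hB hqM hζ i).res Q'' C.chart.R θ Ψ ψ ψc u ∧
          TM i Q'' = coverTube B T' θ u)
    (hIM : ∀ (i : MidM B hB hqM hζ) (Q'' : Place kB (FMid M B)), Q''.restrict FtM = Q' →
      ∀ P, P ∈ TH false Q' → P ∉ TM i Q'')
    (hMM : ∀ (i i' : MidM B hB hqM hζ) (Q'' Q''' : Place kB (FMid M B)),
      Q''.restrict FtM = Q' → Q'''.restrict FtM = Q' → ∀ P, P ∈ TM i Q'' → P ∈ TM i' Q''' →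
        (⟨mid i, Q''⟩ : Σ v, Place kB (FtAll B hB hqM hζ FZ v)) = ⟨mid i', Q'''⟩) :
    letI := algebraAlong (alpha2 M q)
    haveI := isScalarTower_along (alpha2 M q)
    haveI := isIntegral_along (alpha2 M q) (isIntegral_fb (alpha2 M q))
    SmoothFibre T' (tubeOf TH TM TZ) := by
  letI := algebraAlong (alpha2 M q)
  haveI := isScalarTower_along (alpha2 M q)
  haveI := isIntegral_along (alpha2 M q) (isIntegral_fb (alpha2 M q))
  haveI : Module.Finite (Fb (M * q)) (Fb (M * q * q)) :=
    Fermat.Agent.Hecke.finiteAlong_heckeAlphaBar (M * q) q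
  haveI : FundamentalIdentity Kb (Fb (M * q)) (Fb (M * q * q)) :=
    fundamentalIdentityAlong_fb (alpha2 M q)
  haveI := (riemannPkg_FMid B hB hqM).principal
  letI : Algebra FtM (FtAll B hB hqM hζ FZ cInf) := Algebra.id FtM
  haveI : IsScalarTower kB FtM (FtAll B hB hqM hζ FZ cInf) :=
    (IsScalarTower.right : IsScalarTower kB FtM FtM)
  letI : ∀ i : MidM B hB hqM hζ, Algebra FtM (FtAll B hB hqM hζ FZ (mid i)) := fun _ =>
    (inferInstance : Algebra FtM (FMid M B))
  haveI : ∀ i : MidM B hB hqM hζ, IsScalarTower kB FtM (FtAll B hB hqM hζ FZ (mid i)) := fun _ =>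
    (inferInstance : IsScalarTower kB FtM (FMid M B))
  have hord : ∀ w : Place kB (FMid M B), w.restrict FtM = Q' →
      ∀ f : FtM, w.ord (algebraMap FtM (FMid M B) f) = Q'.ord f := by
    intro w hw f
    obtain ⟨i⟩ : Nonempty (MidM B hB hqM hζ) := by
      by_contra hne
      rw [not_nonempty_iff] at hne
      have h1 := card_mid_mul B hB hqM hζ
      rw [Fintype.card_eq_zero, zero_mul] at h1
      have := hq.out.two_le
      omega
    obtain ⟨θ, Ψ, ψ, ψc, u, H, -⟩ := HMid i w hw
    exact H.ord_map f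
  refine smoothFibre_can (Ft := FtAll B hB hqM hζ FZ) (OInf := (constRedCInf B hB hqM).O)
    (resInf := (constRedCInf B hB hqM).res) (OM := fun i => (CM B hB hqM hζ i).O)
    (resM := fun i => (CM B hB hqM hζ i).res) C (constHyp_of_constRed (constRedW1 B hB hqM))
    (valueGroupEq_of_constRed (constRedW1 B hB hqM)) harch Q'
    (fun _ => Q'.fiber (FMid M B)) HInf
    (fun i Q'' hQ => HMid i Q'' (Place.mem_fiber.mp hQ))
    (fun i Q'' hQ => hIM i Q'' (Place.mem_fiber.mp hQ))
    (fun i i' Q'' Q''' hQ hQ' => hMM i i' Q'' Q''' (Place.mem_fiber.mp hQ) (Place.mem_fiber.mp hQ'))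
    ?_ (fun P => RedHyp.place_deg_eq_one P) (fun P => RedHyp.place_deg_eq_one P)
  rw [show Module.finrank (Fb (M * q)) (Fb (M * q * q)) = q from finrankAlong_alpha2]
  exact one_add_sum_card_fiber B hB hqM hζ Q' hord

set_option maxHeartbeats 4000000 in
/-- **Exhaustion over the tube of a point `Q'` of `can`, along `α₂`** (the clause `cOld` / `hOld`
of `Partition` over the smooth discs of `can`): every place of `F̄_{Mq²}` over `T'` lies in the tube
of the point `Q'` of `cInf` or in the tube of a place of some middle component over `Q'`. -/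
theorem exh_can_mod [FiniteDimensional FtM (FMid M B)]
    {T' : Set (Place Kb (Fb (M * q)))} (Q' : Place kB FtM)
    (C : RegChart B (constRedW1 B hB hqM).O (constRedW1 B hB hqM).res Q' T')
    (harch : ∀ a c : Kb, B.valuation a < 1 → c ≠ 0 →
      ∃ N : ℕ, B.valuation a ^ N ≤ B.valuation c)
    (HInf : letI := algebraAlong (alpha2 M q)
      haveI := isScalarTower_along (alpha2 M q)
      haveI := isIntegral_along (alpha2 M q) (isIntegral_fb (alpha2 M q))
      ∃ (θ : Fb (M * q * q)) (Ψ ψ ψc : (Fb (M * q))[X]) (u : B),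
        CoverSheet B (IsLocalRing.residue B) (constRedW1 B hB hqM).O (constRedW1 B hB hqM).res Q'
          (constRedCInf B hB hqM).O (constRedCInf B hB hqM).res Q' C.chart.R θ Ψ ψ ψc u ∧
        TH false Q' = coverTube B T' θ u)
    (HMid : letI := algebraAlong (alpha2 M q)
      haveI := isScalarTower_along (alpha2 M q)
      haveI := isIntegral_along (alpha2 M q) (isIntegral_fb (alpha2 M q))
      ∀ (i : MidM B hB hqM hζ) (Q'' : Place kB (FMid M B)), Q''.restrict FtM = Q' →
        ∃ (θ : Fb (M * q * q)) (Ψ ψ ψc : (Fb (M * q))[X]) (u : B),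
          CoverSheet B (IsLocalRing.residue B) (constRedW1 B hB hqM).O (constRedW1 B hB hqM).res Q'
            (CM B hB hqM hζ i).O (CM B hB hqM hζ i).res Q'' C.chart.R θ Ψ ψ ψc u ∧
          TM i Q'' = coverTube B T' θ u)
    (hIM : ∀ (i : MidM B hB hqM hζ) (Q'' : Place kB (FMid M B)), Q''.restrict FtM = Q' →
      ∀ P, P ∈ TH false Q' → P ∉ TM i Q'')
    (hMM : ∀ (i i' : MidM B hB hqM hζ) (Q'' Q''' : Place kB (FMid M B)),
      Q''.restrict FtM = Q' → Q'''.restrict FtM = Q' → ∀ P, P ∈ TM i Q'' → P ∈ TM i' Q''' →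
        (⟨mid i, Q''⟩ : Σ v, Place kB (FtAll B hB hqM hζ FZ v)) = ⟨mid i', Q'''⟩)
    (P : Place Kb (Fb (M * q * q)))
    (hP : P.restrictAlong (alpha2 M q) (isIntegral_fb (alpha2 M q)) ∈ T') :
    P ∈ TH false Q' ∨
      ∃ (i : MidM B hB hqM hζ) (Q'' : Place kB (FMid M B)), Q''.restrict FtM = Q' ∧
        P ∈ TM i Q'' := by
  letI := algebraAlong (alpha2 M q)
  haveI := isScalarTower_along (alpha2 M q)
  haveI := isIntegral_along (alpha2 M q) (isIntegral_fb (alpha2 M q))
  haveI := (riemannPkg_FMid B hB hqM).principal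
  obtain ⟨x, hx, hPx⟩ := (smoothFibre_can_mod B hB hqM hζ (TZ := fun _ _ => ∅) Q' C harch HInf HMid
    hIM hMM).exh P hP
  have hx' : x ∈ canFib (Ft := FtAll B hB hqM hζ FZ) Q' (fun _ => Q'.fiber (FMid M B)) := hx
  rcases mem_canFib.mp hx' with rfl | ⟨i, Q'', hQ, rfl⟩
  · exact Or.inl hPx
  · exact Or.inr ⟨i, Q'', Place.mem_fiber.mp hQ, hPx⟩

end Fibre

end Fermat.Agent.BR3.SDD.FibreCanMod

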