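import Fermat.Agent.BR3.SDD.ModularC
import Fermat.Agent.BR3.KummerCompUnif
import Fermat.Agent.BR3.KummerCompGlue
import Fermat.Agent.BR3.EquivActsKummerRel
import Fermat.Agent.BR3.EquivActsKummer
import Fermat.Agent.BR3.MidGal
import Fermat.Agent.BR3.KummerGenus.MidFamily
import Fermat.Agent.BR3.VertPtsU

/-!
# Program C (S36), node (COMP-MOD): the map `comp` of `S''` at the frame `(M, q, B)`, without a setup

The binder `comp : SSpM → KP → MidM` of `SDD.Modular.XRaw` is `KummerCompUnif.compU hex hval`; its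
input `hval` (bijectivity of the value map) comes from the equivariance of the Kummer relation under
the tame generator `σ0`.  The equivariance lemmas of `MidGal` (`exists_perm_mid`, `mapsComp_phi`) are
stated for a SETUP on `F̄_{Mq²}`, and the setup of `S''` depends on `comp`: here are the SETUP-FREE
twins, at the level of the family `CM i = constRedMid …` of the constant reductions of the middle
components.

* `MapsC C C' g a` : `g` maps the constant reduction `C` to `C'`, inducing `a` on the residue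
  fields; `exists_mapsC` (twin of `EquivUnique.exists_mapsComp`);
* `exists_perm_midC` : every inertia element `s` permutes the `CM i`, `P` being characterised by
  `s • y ∈ (P i).ring ↔ y ∈ i.ring`; `perm_unique` : this characterisation determines `P`;
* `mapsC_linear` : the induced isomorphisms fix `F̃_M`; `placeMap_pMid` : they fix the Kummer places
  `MidFamily.pMid … e`;
* **`kummerRel_equivariantM`** : (I3) for `CM`, `pK := MidFamily.pMid …`, for ANY permutation `P`
  with the characterisation (so also for THE permutation of `MidGal.exists_perm_mid` on the final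
  setup);
* **`hval_modular`** : the input `hval` of `compU` (`q ≠ 2`); **`hcomp_modular`** : the hypothesis
  `hcomp` of (G6) for `compU`.
-/

set_option autoImplicit false
set_option linter.style.haveILetI false
set_option linter.unusedSectionVars false
set_option linter.unusedVariables false
set_option synthInstance.maxHeartbeats 400000

open ModularCurve AlgebraicCurve

noncomputable section

namespace Fermat.Agent.BR3.SDD.ModularComp

open IsLocalRing Fermat.Agent.X0 Fermat.Agent.Red Fermat.Agent.Val Fermat.Agent.BR.SS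
  Fermat.Agent.BR3.FibreProd Fermat.Agent.BR.TwoVal Fermat.Agent.BR.TwoValInst
  Fermat.Agent.BR.ConstRedTwo Fermat.Agent.BR3.PlaceIso Fermat.Agent.BR3.EquivUnique
  Fermat.Agent.BR3.EquivInert Fermat.Agent.BR3.SDD.Modular Fermat.Agent.BR3.KummerGenus
  Fermat.Agent.BR3.KummerGenus.MidInst Fermat.Agent.BR3.IgSq Fermat.Agent.BR3.SepNComp
  Fermat.Agent.BR3.SepNCompRel Fermat.Agent.BR3.KummerCompMod Fermat.Agent.BR3.KummerCompUnif
  Fermat.Agent.BR3.KummerCompGlue Fermat.Agent.BR3.EquivActsKummerRel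
  Fermat.Agent.BR3.EquivActsKummer Fermat.Agent.BR3.VertPtsU Fermat.Agent.BR.InertiaRed
  Fermat.Agent.Jac

/-! ### The abstract layer: maps between two constant reductions -/

section Abstract

variable {K F k : Type*} [Field K] [Field F] [Algebra K F] [Field k]
  {A : ValuationSubring K} {π : A →+* k} {Ft Ft' : Type*} [Field Ft] [Field Ft'] [Algebra k Ft]
  [Algebra k Ft']

/-- `g` maps the constant reduction `C` to the constant reduction `C'`, inducing the isomorphism
`a` of the residue fields (setup-free twin of `FiltPerm.MapsComp`). -/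
structure MapsC (C : ConstRed (F := F) (Ft := Ft) A π) (C' : ConstRed (F := F) (Ft := Ft') A π)
    (g : SemilinearAut K F) (a : Ft ≃ₐ[k] Ft') : Prop where
  smul_mem : ∀ y : F, y ∈ C.O → g • y ∈ C'.O
  res_smul : ∀ (y : F) (hy : y ∈ C.O) (hy' : g • y ∈ C'.O),
    C'.res ⟨g • y, hy'⟩ = a (C.res ⟨y, hy⟩)

/-- `g` as a ring homomorphism `C.O →+* C'.O` -/
def smulHomC (C : ConstRed (F := F) (Ft := Ft) A π) (C' : ConstRed (F := F) (Ft := Ft') A π)
    (g : SemilinearAut K F) (hmem : ∀ y, y ∈ C.O → g • y ∈ C'.O) : C.O →+* C'.O where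
  toFun y := ⟨g • (y : F), hmem _ y.2⟩
  map_one' := Subtype.ext (smul_one g)
  map_mul' x y := Subtype.ext (smul_mul' g _ _)
  map_zero' := Subtype.ext (smul_zero g)
  map_add' x y := Subtype.ext (smul_add g _ _)

theorem isUnit_smulHomC_iff (C : ConstRed (F := F) (Ft := Ft) A π)
    (C' : ConstRed (F := F) (Ft := Ft') A π) (g : SemilinearAut K F)
    (hmem : ∀ y, g • y ∈ C'.O ↔ y ∈ C.O) (y : C.O) :
    IsUnit (smulHomC C C' g (fun y => (hmem y).mpr) y) ↔ IsUnit y := by
  refine ⟨fun hu => ?_, fun hu => hu.map _⟩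
  obtain ⟨z, hz⟩ := isUnit_iff_exists_inv.mp hu
  have hz' : g⁻¹ • (z : F) ∈ C.O := by rw [← hmem, smul_inv_smul]; exact z.2
  refine isUnit_iff_exists_inv.mpr ⟨⟨g⁻¹ • (z : F), hz'⟩, Subtype.ext ?_⟩
  have h1 : g • (y : F) * (z : F) = 1 := congrArg Subtype.val hz
  show (y : F) * g⁻¹ • (z : F) = 1
  have h2 : g • ((y : F) * g⁻¹ • (z : F)) = g • (1 : F) := by
    rw [smul_mul', smul_inv_smul, h1, smul_one]
  exact MulAction.injective g h2

/-- A semilinear automorphism which maps the ring of `C` ONTO the ring of `C'`, with base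
automorphism trivial on `k`, induces a `k`-isomorphism of the residue fields. -/
theorem exists_mapsC (hπ : Function.Surjective π) (C : ConstRed (F := F) (Ft := Ft) A π)
    (C' : ConstRed (F := F) (Ft := Ft') A π) (g : SemilinearAut K F)
    (hb : BaseResTrivial π g) (hmem : ∀ y, g • y ∈ C'.O ↔ y ∈ C.O) :
    ∃ a : Ft ≃ₐ[k] Ft', MapsC C C' g a := by
  set gO := smulHomC C C' g (fun y => (hmem y).mpr) with hgO
  set ψ : C.O →+* Ft' := C'.res.comp gO with hψ
  have hψsurj : Function.Surjective ψ := by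
    intro t
    obtain ⟨z, rfl⟩ := C'.res_surjective t
    have hz : g⁻¹ • (z : F) ∈ C.O := by rw [← hmem, smul_inv_smul]; exact z.2
    refine ⟨⟨g⁻¹ • (z : F), hz⟩, ?_⟩
    show C'.res ⟨g • (g⁻¹ • (z : F)), _⟩ = _
    congr 1
    exact Subtype.ext (smul_inv_smul g _)
  have hker : RingHom.ker C.res ≤ RingHom.ker ψ := by
    intro y hy
    rw [RingHom.mem_ker] at hy ⊢
    show C'.res (gO y) = 0
    rw [C.res_eq_zero_iff] at hy
    rw [C'.res_eq_zero_iff]
    rwa [isUnit_smulHomC_iff C C' g hmem]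
  set a₁ : Ft →+* Ft' := C.res.liftOfRightInverse (Function.surjInv C.res_surjective)
    (Function.rightInverse_surjInv _) ⟨ψ, hker⟩ with ha₁
  have ha₁_apply : ∀ y : C.O, a₁ (C.res y) = ψ y := fun y =>
    RingHom.liftOfRightInverse_comp_apply _ _ _ _ y
  have hbij : Function.Bijective a₁ := by
    refine ⟨a₁.injective, fun t => ?_⟩
    obtain ⟨y, rfl⟩ := hψsurj t
    exact ⟨C.res y, ha₁_apply y⟩
  have hcomm : ∀ c : k, (RingEquiv.ofBijective a₁ hbij) (algebraMap k Ft c) =
      algebraMap k Ft' c := by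
    intro c
    obtain ⟨⟨c', hc'⟩, rfl⟩ := hπ c
    obtain ⟨hσ, hσe⟩ := hb c' hc'
    have h1 : algebraMap K F c' ∈ C.O := (C.algebraMap_mem_iff c').mpr hc'
    have h2 : algebraMap K F (SemilinearAut.baseAut g c') ∈ C'.O :=
      (C'.algebraMap_mem_iff _).mpr hσ
    rw [RingEquiv.ofBijective_apply, ← C.res_algebraMap c' hc' h1, ha₁_apply, ← hσe,
      ← C'.res_algebraMap _ hσ h2]
    show C'.res ⟨g • algebraMap K F c', _⟩ = _
    congr 1
    exact Subtype.ext (SemilinearAut.smul_algebraMap g c')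
  refine ⟨AlgEquiv.ofRingEquiv (f := RingEquiv.ofBijective a₁ hbij) hcomm,
    fun y hy => (hmem y).mpr hy, fun y hy hy' => ?_⟩
  show _ = a₁ (C.res ⟨y, hy⟩)
  rw [ha₁_apply]
  rfl

end Abstract

/-! ### The frame `(M, q, B)` -/

variable {M q : ℕ} [NeZero M] [hq : Fact q.Prime]
variable (B : ValuationSubring (AlgebraicClosure ℚ)) (hB : B.LiesOverPrime q) (hqM : ¬ q ∣ M)
variable [IsAlgClosed (ResidueField B)]
variable {ζ : Kbˣ} (hζ : IsPrimitiveRoot ζ q)

local notation "kB" => IsLocalRing.ResidueField B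
local notation "FtM" => modularFunctionFieldFullC (IsLocalRing.ResidueField B) M

local instance (priority := 100000) instAlgKFtComp : Algebra kB FtM := inferInstance
local instance (priority := 100000) instAlgKFMidComp : Algebra kB (FMid M B) := inferInstance
local instance (priority := 100000) instAlgFtFMidComp : Algebra FtM (FMid M B) := inferInstance
local instance (priority := 100000) instTowerMidComp : IsScalarTower kB FtM (FMid M B) :=
  inferInstance

section Perm

/-- **Every inertia element permutes the constant reductions of the middle components** (setup-free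
twin of `MidGal.exists_perm_mid`). -/
theorem exists_perm_midC {s : Kb ≃ₐ[ℚ] Kb} (hs : s ∈ B.inertiaSubgroupIn ℚ) :
    ∃ (P : Equiv.Perm (MidM B hB hqM hζ)) (a : MidM B hB hqM hζ → (FMid M B ≃ₐ[kB] FMid M B)),
      (∀ i, MapsC (CM B hB hqM hζ i) (CM B hB hqM hζ (P i)) (galAut (M * q * q) s) (a i)) ∧
      ∀ (i : MidM B hB hqM hζ) (y : Fb (M * q * q)),
        galAut (M * q * q) s • y ∈ (P i).ring B hB hqM hζ ↔ y ∈ i.ring B hB hqM hζ := by
  have h1 := fun i => exists_mid_gal B hB hqM hζ (mem_decomposition_of_mem_inertiaIn hs) i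
  choose P hP using h1
  have hinj : Function.Injective P := by
    intro i i' h
    apply Mid.ring_injective B hB hqM hζ
    ext y
    rw [← hP i y, ← hP i' y, h]
  have hbij : Function.Bijective P := Finite.injective_iff_bijective.mp hinj
  have h2 : ∀ i, ∃ a : FMid M B ≃ₐ[kB] FMid M B,
      MapsC (CM B hB hqM hζ i) (CM B hB hqM hζ (P i)) (galAut (M * q * q) s) a := fun i =>
    exists_mapsC IsLocalRing.residue_surjective (CM B hB hqM hζ i) (CM B hB hqM hζ (P i))
      (galAut (M * q * q) s) (Fermat.Agent.BR3.MidGal.baseResTrivial_gal B _ hs) (by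
        intro y
        rw [CM_O, CM_O]
        exact hP i y)
  choose a ha using h2
  exact ⟨Equiv.ofBijective P hbij, a, ha, hP⟩

/-- the characterisation `s • y ∈ (P i).ring ↔ y ∈ i.ring` determines the permutation -/
theorem perm_unique {g : SemilinearAut Kb (Fb (M * q * q))}
    {P P' : MidM B hB hqM hζ → MidM B hB hqM hζ}
    (hP : ∀ (i : MidM B hB hqM hζ) (y : Fb (M * q * q)),
      g • y ∈ (P i).ring B hB hqM hζ ↔ y ∈ i.ring B hB hqM hζ)
    (hP' : ∀ (i : MidM B hB hqM hζ) (y : Fb (M * q * q)),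
      g • y ∈ (P' i).ring B hB hqM hζ ↔ y ∈ i.ring B hB hqM hζ) (i : MidM B hB hqM hζ) :
    P i = P' i := by
  apply Mid.ring_injective B hB hqM hζ
  ext y
  have h1 := hP i (g⁻¹ • y)
  have h2 := hP' i (g⁻¹ • y)
  rw [smul_inv_smul] at h1 h2
  exact h1.trans h2.symm

/-- the residue map of a constant reduction depends only on the element -/
theorem res_congr {K F k Ft : Type*} [Field K] [Field F] [Algebra K F] [Field k] [Field Ft]
    [Algebra k Ft] {A : ValuationSubring K} {π : A →+* k}
    (C : ConstRed (F := F) (Ft := Ft) A π) {y y' : F} (h : y = y') (hy : y ∈ C.O)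
    (hy' : y' ∈ C.O) : C.res ⟨y, hy⟩ = C.res ⟨y', hy'⟩ := by
  subst h
  rfl

/-- inertia acts trivially on the residue field of `can` -/
theorem res_can_smul {s : Kb ≃ₐ[ℚ] Kb} (hs : s ∈ B.inertiaSubgroupIn ℚ) (x : Fb (M * q))
    (hx : x ∈ O1 M B hB) (hx' : galAut (M * q) s • x ∈ O1 M B hB) :
    (constRedW1 B hB hqM).res ⟨galAut (M * q) s • x, hx'⟩ =
      (constRedW1 B hB hqM).res ⟨x, hx⟩ := by
  apply Subtype.ext
  exact (coe_constRedW1_res B hB hqM ⟨_, hx'⟩).trans
    ((Fermat.Agent.BR.GaloisTwo.res1_gal_smul_of_mem_inertia (M := M) B hB hs ⟨x, hx⟩).trans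
      (coe_constRedW1_res B hB hqM ⟨x, hx⟩).symm)

/-- the residue map of the middle component `i` on the image of `α₂` -/
theorem res_CM_alpha2 (i : MidM B hB hqM hζ) (x : Fb (M * q)) (hx : x ∈ O1 M B hB)
    (h' : alpha2 M q x ∈ (CM B hB hqM hζ i).O) :
    (CM B hB hqM hζ i).res ⟨alpha2 M q x, h'⟩ =
      algebraMap FtM (FMid M B) ((constRedW1 B hB hqM).res ⟨x, hx⟩) :=
  resMid_alpha2 B hB hqM hζ (i.rep B hB hqM hζ).2 x hx

theorem alpha2_mem_CM (i : MidM B hB hqM hζ) (x : Fb (M * q)) (hx : x ∈ O1 M B hB) :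
    alpha2 M q x ∈ (CM B hB hqM hζ i).O :=
  (alpha2_mem_w2_iff B hB hqM hζ (i.rep B hB hqM hζ).2 _).2 hx

/-- **The isomorphisms of the residue fields of the middle components induced by inertia elements
are linear over `F̃_M`.** -/
theorem mapsC_linear {s : Kb ≃ₐ[ℚ] Kb} (hs : s ∈ B.inertiaSubgroupIn ℚ)
    {i j : MidM B hB hqM hζ} {a : FMid M B ≃ₐ[kB] FMid M B}
    (ha : MapsC (CM B hB hqM hζ i) (CM B hB hqM hζ j) (galAut (M * q * q) s) a) (c : FtM) :
    a (algebraMap FtM (FMid M B) c) = algebraMap FtM (FMid M B) c := by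
  obtain ⟨⟨x, hx1⟩, rfl⟩ := (constRedW1 B hB hqM).res_surjective c
  have hx1' : x ∈ O1 M B hB := hx1
  have hxi := alpha2_mem_CM B hB hqM hζ i x hx1'
  have hdec := mem_decomposition_of_mem_inertiaIn hs
  have hx' : galAut (M * q) s • x ∈ O1 M B hB :=
    (Fermat.Agent.BR.GaloisTwo.gal_smul_mem_O1_iff (M := M) B hB hdec).mpr hx1'
  have hres := res_can_smul B hB hqM hs x hx1' hx'
  have h2 : galAut (M * q * q) s • alpha2 M q x = alpha2 M q (galAut (M * q) s • x) :=
    gal_smul_alpha2 s _
  have hxj := alpha2_mem_CM B hB hqM hζ j _ hx'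
  have hxj' : galAut (M * q * q) s • alpha2 M q x ∈ (CM B hB hqM hζ j).O :=
    ha.smul_mem _ hxi
  have e1 := res_CM_alpha2 B hB hqM hζ i x hx1' hxi
  have e2 := res_CM_alpha2 B hB hqM hζ j _ hx' hxj
  have e3 := ha.res_smul _ hxi hxj'
  have e4 := res_congr (CM B hB hqM hζ j) h2 hxj' hxj
  exact (congrArg a e1).symm.trans (e3.symm.trans (e4.trans (e2.trans (congrArg _ hres))))

/-- **The isomorphisms induced by inertia elements fix the Kummer places.** -/
theorem placeMap_pMid {SSp : Type}
    {a : FMid M B ≃ₐ[kB] FMid M B}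
    (ha : ∀ c : FtM, a (algebraMap FtM (FMid M B) c) = algebraMap FtM (FMid M B) c)
    (z : SSp → Place kB FtM)
    (hcop : ∀ e, IsCoprime ((z e).ord (deltaMid B hB hqM)) (fMid M B hB : ℤ)) (e : SSp) :
    placeMap a (MidFamily.pMid B hB hqM z hcop e) = MidFamily.pMid B hB hqM z hcop e := by
  haveI := finiteDimensional_FMid B hB hqM
  apply MidFamily.eq_pMid B hB hqM z hcop e
  have h1 := comap_placeMap_of_comm
    (IsScalarTower.toAlgHom kB FtM (FMid M B) : FtM →ₐ[kB] FMid M B)
    (IsScalarTower.toAlgHom kB FtM (FMid M B) : FtM →ₐ[kB] FMid M B) a ha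
    (MidFamily.pMid B hB hqM z hcop e)
  have h2 := MidFamily.pMid_restrict B hB hqM z hcop e
  apply Place.ext
  exact h1.trans (congrArg Place.toValuationSubring h2)

end Perm

/-! ### The Kummer relation and `comp` -/

section Comp

variable {KP : Type}
  (z : SSpM B hB hqM → Place (IsLocalRing.ResidueField B)
    (modularFunctionFieldFullC (IsLocalRing.ResidueField B) M))
  (hcop : ∀ e, IsCoprime ((z e).ord (deltaMid B hB hqM)) (fMid M B hB : ℤ))
  (θ : SSpM B hB hqM → Fb (M * q * q)) (c : SSpM B hB hqM → KP → B)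

set_option maxHeartbeats 2000000 in
/-- **(I3) at the frame**: the Kummer relation is equivariant under every inertia element `σ` which
multiplies the Kummer functions by a unit `ε` (for the tame generator: `ε ≡ -1`), for THE
permutation `P` of the middle components induced by `σ`. -/
theorem kummerRel_equivariantM {σ : Kb ≃ₐ[ℚ] Kb} (hσ : σ ∈ B.inertiaSubgroupIn ℚ)
    (P : Equiv.Perm (MidM B hB hqM hζ))
    (hP : ∀ (i : MidM B hB hqM hζ) (y : Fb (M * q * q)),
      galAut (M * q * q) σ • y ∈ (P i).ring B hB hqM hζ ↔ y ∈ i.ring B hB hqM hζ)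
    {ε : B} (hε : IsUnit ε)
    (hθ : ∀ e, galAut (M * q * q) σ • θ e = algebraMap Kb (Fb (M * q * q)) (ε : Kb) * θ e)
    (p : SSpM B hB hqM → Equiv.Perm KP)
    (hc : ∀ e s, σ (c e s : Kb) - (ε : Kb) * (c e (p e s) : Kb) ∈ B.nonunits)
    (e : SSpM B hB hqM) (j : MidM B hB hqM hζ) (s : KP)
    (h : KummerRel (CM B hB hqM hζ) (MidFamily.pMid B hB hqM z hcop) θ c e j s) :
    KummerRel (CM B hB hqM hζ) (MidFamily.pMid B hB hqM z hcop) θ c e (P j) (p e s) := by
  obtain ⟨P', a, ha, hP'⟩ := exists_perm_midC B hB hqM hζ hσ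
  have hPP : ∀ i, P' i = P i := fun i =>
    perm_unique B hB hqM hζ (g := galAut (M * q * q) σ) (P := P') (P' := P) hP' hP i
  have ha' : ∀ i, MapsC (CM B hB hqM hζ i) (CM B hB hqM hζ (P i)) (galAut (M * q * q) σ) (a i) := by
    intro i
    rw [← hPP i]
    exact ha i
  exact kummerRel_equivariant (CM B hB hqM hζ) (MidFamily.pMid B hB hqM z hcop) θ c
    (galAut (M * q * q) σ) P a (fun j y hy => (ha' j).smul_mem y hy)
    (fun j y hy hy' => (ha' j).res_smul y hy hy')
    (fun e j => placeMap_pMid B hB hqM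
      (fun t => mapsC_linear B hB hqM hζ hσ (ha' j) t) z hcop e)
    hε hθ p hc e j s h

/-- the unit `-1` of `B` -/
theorem isUnit_neg_one_B : IsUnit (-1 : B) := isUnit_one.neg

/-- **The hypothesis `hc` for the sign `ε = -1`**: an inertia element fixes the residues of the
values, so `hc` is the antisymmetry `c e (p e s) ≡ - c e s` of the values
(`VertPtsU.rootsK_rev` for `p e = rev q`). -/
theorem hc_of_neg {σ : Kb ≃ₐ[ℚ] Kb} (hσ : σ ∈ B.inertiaSubgroupIn ℚ)
    (p : SSpM B hB hqM → Equiv.Perm KP)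
    (hrev : ∀ e s, (c e (p e s) : Kb) + (c e s : Kb) ∈ B.nonunits)
    (e : SSpM B hB hqM) (s : KP) :
    σ (c e s : Kb) - (((-1 : B) : B) : Kb) * (c e (p e s) : Kb) ∈ B.nonunits := by
  have h1 : B.valuation (σ (c e s : Kb) - (c e s : Kb)) < 1 :=
    Fermat.Agent.S05.valuation_apply_sub_lt_one B hσ ((B.valuation_le_one_iff _).mpr (c e s).2)
  have h2 : B.valuation ((c e (p e s) : Kb) + (c e s : Kb)) < 1 :=
    B.mem_nonunits_iff.mp (hrev e s)
  have h3 : σ (c e s : Kb) - (((-1 : B) : B) : Kb) * (c e (p e s) : Kb) =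
      (σ (c e s : Kb) - (c e s : Kb)) + ((c e (p e s) : Kb) + (c e s : Kb)) := by
    have : (((-1 : B) : B) : Kb) = -1 := by norm_num
    rw [this]
    ring
  rw [h3]
  exact B.mem_nonunits_iff.mpr
    (lt_of_le_of_lt (B.valuation.map_add _ _) (max_lt h1 h2))

variable [Fintype KP]

set_option maxHeartbeats 2000000 in
/-- **The input `hval` of `compU` at the frame** (`q ≠ 2`): the value map of the Kummer relation is
bijective, from (I1) `hex`, the injectivity of the values, `card KP = midCard q`, and the equivariance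
under ONE inertia element `σ` acting on the Kummer functions through a unit `ε`, with `p e`
transitive on `KP` (for the tame generator: `ε ≡ -1`, `p e = rev q`). -/
theorem hval_modular (hKP : Fintype.card KP = midCard q) (h2 : nuTwo M = 0) (h3 : nuThree M = 0)
    (hcinj : ∀ e s s', residue B (c e s) = residue B (c e s') → s = s')
    (hex : ∀ e j, ∃ s, ValAt (CM B hB hqM hζ) (MidFamily.pMid B hB hqM z hcop) θ
      (fun e s => residue B (c e s)) e j s)
    {σ : Kb ≃ₐ[ℚ] Kb} (hσ : σ ∈ B.inertiaSubgroupIn ℚ) {ε : B} (hε : IsUnit ε)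
    (hθ : ∀ e, galAut (M * q * q) σ • θ e = algebraMap Kb (Fb (M * q * q)) (ε : Kb) * θ e)
    (p : SSpM B hB hqM → Equiv.Perm KP) (hp : ∀ e s s', ∃ n : ℕ, ((p e) ^ n) s = s')
    (hc : ∀ e s, σ (c e s : Kb) - (ε : Kb) * (c e (p e s) : Kb) ∈ B.nonunits)
    (e : SSpM B hB hqM) : Function.Bijective (val hex e) := by
  obtain ⟨P, a, ha, hP⟩ := exists_perm_midC B hB hqM hζ hσ
  exact bijective_val_modular_of_equivariant B hB hqM hζ (fun e s s' h => hcinj e s s' h) hex hKP
    h2 h3 P p hp
    (valAt_equivariant_of_kummerRel c P p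
      (kummerRel_equivariantM B hB hqM hζ z hcop θ c hσ P hP hε hθ p hc)) e

set_option maxHeartbeats 2000000 in
/-- **The hypothesis `hcomp` of (G6) at the frame**, for `comp := compU hex hval` (uniform in `q`):
for every inertia element `σ` acting on the Kummer functions through a unit `ε`
(`σ (c e s) ≡ ε c e (p e s)`) and THE permutation `P` of the middle components induced by `σ`
(e.g. the one of `MidGal.exists_perm_mid` on the final setup),
`comp e (p e s) = P (comp e s)`.  For `q = 2` there is one middle component and nothing to prove. -/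
theorem hcomp_modular [Nonempty (MidM B hB hqM hζ)] [Nonempty KP]
    (hcinj : ∀ e s s', residue B (c e s) = residue B (c e s') → s = s')
    (hex : q ≠ 2 → ∀ e j, ∃ s, ValAt (CM B hB hqM hζ) (MidFamily.pMid B hB hqM z hcop) θ
      (fun e s => residue B (c e s)) e j s)
    (hval : ∀ hq2 : q ≠ 2, ∀ e, Function.Bijective (val (hex hq2) e))
    {σ : Kb ≃ₐ[ℚ] Kb} (hσ : σ ∈ B.inertiaSubgroupIn ℚ)
    (P : Equiv.Perm (MidM B hB hqM hζ))
    (hP : ∀ (i : MidM B hB hqM hζ) (y : Fb (M * q * q)),
      galAut (M * q * q) σ • y ∈ (P i).ring B hB hqM hζ ↔ y ∈ i.ring B hB hqM hζ)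
    {ε : B} (hε : IsUnit ε)
    (hθ : q ≠ 2 → ∀ e,
      galAut (M * q * q) σ • θ e = algebraMap Kb (Fb (M * q * q)) (ε : Kb) * θ e)
    (p : SSpM B hB hqM → Equiv.Perm KP)
    (hc : q ≠ 2 → ∀ e s, σ (c e s : Kb) - (ε : Kb) * (c e (p e s) : Kb) ∈ B.nonunits)
    (e : SSpM B hB hqM) (s : KP) :
    compU hex hval e (p e s) = P (compU hex hval e s) :=
  compU_hcomp hex hval (subsingleton_mid_of_two B hB hqM hζ) (fun e s s' h => hcinj e s s' h) P p
    (fun hq2 => valAt_equivariant_of_kummerRel c P p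
      (kummerRel_equivariantM B hB hqM hζ z hcop θ c hσ P hP hε (hθ hq2) p (hc hq2))) e s

end Comp

end Fermat.Agent.BR3.SDD.ModularComp
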