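import Fermat.Agent.BR3.SDD.ModularComp
import Fermat.Agent.BR3.KummerNodeInputs
import Fermat.Agent.BR3.KummerMidValue
import Fermat.Agent.BR3.KummerNodeNames
import Fermat.Agent.BR3.SDD.ModularC
import Fermat.Agent.BR3.KummerCompGlue
import Fermat.Agent.BR3.KummerGenus.MidFamily

/-!
# Program C (S36), node (COMP-FINAL): the raw binder `comp` of the final call

* `hθ₂_or_modular` : (I1) at the frame of the integrator: the Kummer function
  `θ_e = thetaOf u_e ϖ₂ U_g d` of the vertical component `z e` has the value `c̄₀` or `-c̄₀` at the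
  Kummer place of EVERY middle component `w₂ b` over `z₁ e` (`KummerMidValue.hθ₂_or_mid` fed with
  `KummerNodeInputs.exists_vertAlg_outer` over the levels of the outer node of `S'ref_a`);
* `hasValue_or_modular` : the same at THE names of the frame (`BR3/KummerNodeNames.lean`:
  `kumTheta`, `kumC0`, `zePackM`), on the component `CM j` of any middle index `j`, at
  `pK e := MidFamily.pMid … z₁ hcop e`: the value is `kumC0 e s` or `kumC0 e (rev s)`;
* **`hex_modular`** : the input `hex` of `KummerCompUnif.compU` (the literal shape of the variable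
  `hex` of `BR3/KummerNodeFam.lean`): for `q` odd, every middle component `j` takes at `e` one of
  the values `residue B (kumC0 e s)`;
* `hcinj_modular`, `hrev_modular` : the values are pairwise distinct and `rev` is the sign.
-/

set_option autoImplicit false
set_option linter.unusedSectionVars false
set_option linter.style.haveILetI false
set_option synthInstance.maxHeartbeats 400000
set_option maxHeartbeats 1600000

noncomputable section

/- S36 build-time patch: file-local shortcut instances. They only shorten instance search;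
each is the instance that the search finds anyway (reducible, same terms after unfolding). -/
local instance (priority := 100000) Fermat.Agent.BR3.FastInst.instAlgFullC_SDD_ModularCompFinal
    {k : Type*} [Field k] (N : ℕ) :
    Algebra k ↥(ModularCurve.modularFunctionFieldFullC k N) := inferInstance
local instance (priority := 100000) Fermat.Agent.BR3.FastInst.instFieldFullC_SDD_ModularCompFinal
    {k : Type*} [Field k] (N : ℕ) :
    Field ↥(ModularCurve.modularFunctionFieldFullC k N) := inferInstance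
local instance (priority := 100000) Fermat.Agent.BR3.FastInst.instAlgLaurent_SDD_ModularCompFinal
    {k : Type*} [Field k] : Algebra k (LaurentSeries k) := inferInstance


namespace Fermat.Agent.BR3.SDD.ModularCompFinal

open Polynomial ModularCurve AlgebraicCurve IsLocalRing
open Fermat.Agent.X0 Fermat.Agent.Val Fermat.Agent.Red Fermat.Agent.BR.Kron
open Fermat.Agent.BR.Centre Fermat.Agent.BR.SS Fermat.Agent.BR.Refine
open Fermat.Agent.BR.S0 Fermat.Agent.BR.S0.RedModular Fermat.Agent.BR.S0.PointDict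
open Fermat.Agent.BR.Inst.AnnulusInstFinal Fermat.Agent.BR.Inst.NodeInstFinal
open Fermat.Agent.BR.Inst.Levels
open Fermat.Agent.BR.Inst.FKCover Fermat.Agent.BR.Final
open Fermat.Agent.BR3.FibreProd Fermat.Agent.BR3.VertTaylor Fermat.Agent.BR3.VertTaylorAt
open Fermat.Agent.BR3.CircleN
open Fermat.Agent.BR3.SplitBranch Fermat.Agent.BR3.SplitNodeChart Fermat.Agent.BR3.SplitCoord
open Fermat.Agent.BR3.CoverSmooth Fermat.Agent.Good.Bridge
open Fermat.Agent.BR3.SplitModular Fermat.Agent.BR3.SplitModularTw Fermat.Agent.BR3.HeckePoly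
open Fermat.Agent.BR3.SSParam
open Fermat.Agent.BR3.KummerComps Fermat.Agent.BR3.KummerOfVert Fermat.Agent.BR3.KummerLevels
open Fermat.Agent.BR3.KummerModAbs Fermat.Agent.BR3.KummerNodeInputs
open Fermat.Agent.BR3.SDD.Modular Fermat.Agent.BR3.SplitNode Fermat.Agent.BR3.SplitModularRef
open Fermat.Agent.BR3.SRef Fermat.Agent.BR3.SRef.Modular Fermat.Agent.BR2.SetupOfData
open Fermat.Agent.BR3.VertResidue Fermat.Agent.BR3.VertPtsDef Fermat.Agent.BR3.VertSheet
open Fermat.Agent.BR3.KummerVertSide Fermat.Agent.BR3.KummerMidSide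
open Fermat.Agent.BR3.KummerGenus.MidInst Fermat.Agent.BR3.MidKummerNodeOrd
open Fermat.Agent.BR.ConstRedTwo Fermat.Agent.BR.TwoValInst Fermat.Agent.BR.P1
open Fermat.Agent.BR.Circle Fermat.Agent.BR3.ThickSDDPlug Fermat.Agent.BR.S0.ThickFinal
open Fermat.Agent.BR3.VertPtsU Fermat.Agent.BR3.IgSq
open Fermat.Agent.BR3.KummerGenus
open Fermat.Agent.BR3.SepNComp Fermat.Agent.BR3.SepNCompRel Fermat.Agent.BR3.KummerCompMod
open Fermat.Agent.BR3.KummerCompGlue

variable {M q : ℕ} [NeZero M] [hq : Fact q.Prime]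

/-- the cover along `α₂` -/
local instance instAlgAlpha2MCF : Algebra (Fb (M * q)) (Fb (M * q * q)) :=
  algebraAlong (alpha2 M q)

local instance instTowerAlpha2MCF : IsScalarTower Kb (Fb (M * q)) (Fb (M * q * q)) :=
  isScalarTower_along (alpha2 M q)

local instance instFiniteAlpha2MCF : Module.Finite (Fb (M * q)) (Fb (M * q * q)) :=
  Fermat.Agent.Hecke.finiteAlong_heckeAlphaBar (M * q) q

variable (B : ValuationSubring Kb) (hB : B.LiesOverPrime q) (hqM : ¬ q ∣ M)
  [IsAlgClosed (ResidueField B)] [CharP (ResidueField B) q]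

local notation "kB" => ResidueField B
local notation "FtM" => modularFunctionFieldFullC (IsLocalRing.ResidueField B) M

/-- (shortcut instances) -/
local instance (priority := 100000) instAlgKFtMCF : Algebra kB FtM := inferInstance
local instance (priority := 100000) instAlgKFMidMCF : Algebra kB (FMid M B) := inferInstance
local instance (priority := 100000) instAlgFtFMidMCF : Algebra FtM (FMid M B) := inferInstance
local instance (priority := 100000) instTowerMidMCF : IsScalarTower kB FtM (FMid M B) :=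
  inferInstance

section Generic

variable (h2 : nuTwo M = 0) (h3 : nuThree M = 0) (e : Crossing (chartDataModular B hB hqM))
  {g g' g'' : Fb M} (P : IsSSParam B hB hqM e g g' g'')
  {β ρ : ResidueField B} [Fact (Irreducible (vertBar q β ρ))]
  {Z : ValuationSubring (Fb (M * q * q))} {resZ : Z →+* AdjoinRoot (vertBar q β ρ)}
  (Hv : VertComp (core (DtM B hB hqM) e) (gaugeA q B hB hqM e) (admA B hB hqM h2 h3 e).1
    (admA B hB hqM h2 h3 e).2 Z resZ
    (Ug M q g / alpha2 M q (algebraMap Kb (Fb (M * q)) (gaugeA q B hB hqM e))))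
  (hq2 : q ≠ 2) (hβ : β ≠ 0) (hρ : ρ ≠ 0) {c : ResidueField B} (hc : c ^ 2 = ρ)
  {c₀ : B} (hc₀ : IsLocalRing.residue B c₀ = c / β)
  {ζ : Kbˣ} (hζ : IsPrimitiveRoot ζ q) {b : ℕ} (hb : b < q - 1)
  (hv : IsCoprime ((z₁ (chartDataModular B hB hqM) e).ord (deltaMid B hB hqM))
    (fMid M B hB : ℤ))
  {d : ℕ} (hqd : q = 2 * d + 1)

include P Hv hc₀ hqd hq2 hβ hρ hc in
set_option maxHeartbeats 4000000 in
/-- **(I1) at the frame of the integrator**: the value of `θ_e` at the Kummer place over `z₁ e` of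
EVERY middle component `w₂ b` is `c̄₀` or `-c̄₀`, `c₀` a lift of `c / β`, `c ^ 2 = ρ`. -/
theorem hθ₂_or_modular :
    (∃ h : thetaOf (annulusCoord (DtM B hB hqM) e) (pi2 q) (Ug M q g) d -
          algebraMap Kb (Fb (M * q * q)) (c₀ : Kb) ∈ w2 B hB hqM hζ hb,
        (pMidOver B hB hqM (z₁ (chartDataModular B hB hqM) e) hv).adicValuation
          (resMid B hB hqM hζ hb ⟨_, h⟩) < 1) ∨
      (∃ h : thetaOf (annulusCoord (DtM B hB hqM) e) (pi2 q) (Ug M q g) d +
          algebraMap Kb (Fb (M * q * q)) (c₀ : Kb) ∈ w2 B hB hqM hζ hb,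
        (pMidOver B hB hqM (z₁ (chartDataModular B hB hqM) e) hv).adicValuation
          (resMid B hB hqM hζ hb ⟨_, h⟩) < 1) := by
  have hq1 := hq.out.one_lt
  have hd : 1 ≤ d := by omega
  have H0 := outerHyp_outerLevelsRef B hB hqM (gaugeA q B hB hqM) (admA B hB hqM h2 h3) e
    (hg_of_isGaugeA B hB hqM (gaugeA q B hB hqM) e (isGaugeA B hB hqM h2 h3))
  have H := outerHyp_levelsConst H0 {pi2 q, (c₀ : Kb)}
  have OB := outerBranchA B hB hqM h2 h3 e
  have X₁ := branchComp_levelsConst OB.X₂ {pi2 q, (c₀ : Kb)}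
  have X₂ := branchComp_levelsConst OB.X₁ {pi2 q, (c₀ : Kb)}
  have hUr := Ug_notMem_range_alpha2' B hB hqM (nonempty_crossing (DtM B hB hqM)) e h2 h3 P
  have hU0 : Ug M q g ≠ 0 := fun h => hUr ⟨0, by rw [map_zero, h]⟩
  have hY₁ := hY_ptK Hv hq2 hβ hρ hc (yOf_eq_div (gaugeA q B hB hqM e) (Ug M q g))
  have hθ₁ := hθ_ptK Hv hq2 hβ hρ hc (yOf_eq_div (gaugeA q B hB hqM e) (Ug M q g)) hU0 hqd
    (pi2_pow_d hqd) hc₀
  obtain ⟨Bc, A₀, Rr, η₁, Hpol, V⟩ := exists_vertAlg_outer h2 h3 P H rfl hqd hd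
    (pi2_pow hq1).symm (pi2_pow_d hqd)
    (fun i' => mem_K'_levelsConst _ (by simp) i')
    (valuation_lift_eq_one B hβ hρ hc hc₀)
    (fun i' => mem_K'_levelsConst _ (by simp) i') X₁
    (overComp_ptK Hv hq2 hβ hρ hc) hY₁ hθ₁
  exact Fermat.Agent.BR3.KummerMidValue.hθ₂_or_mid B hB hqM e hζ hb h2 h3 P hv
    (L := levelsConst (levelsOutA B hB hqM h2 h3 e) {pi2 q, (c₀ : Kb)})
    (by rw [← map_pow, pi2_pow hq1]) X₂ V

end Generic

section Final

variable (h2 : nuTwo M = 0) (h3 : nuThree M = 0) {ζ : Kbˣ} (hζ : IsPrimitiveRoot ζ q)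
  (hcop : ∀ e : SSpM B hB hqM,
    IsCoprime ((z₁ (chartDataModular B hB hqM) e).ord (deltaMid B hB hqM)) (fMid M B hB : ℤ))

omit [IsAlgClosed (ResidueField B)] [CharP (ResidueField B) q] [NeZero M] in
/-- the shape `θ + c₀` of the second alternative is `HasValue` at `-c₀` -/
theorem hasValue_neg_of_add {Ft : Type*} [Field Ft] [Algebra (ResidueField B) Ft]
    {C : ConstRed (F := Fb (M * q * q)) (Ft := Ft) B (residue B)}
    {Q : Place (ResidueField B) Ft} {θ : Fb (M * q * q)} {c₀ : B}
    (H : ∃ h : θ + algebraMap Kb (Fb (M * q * q)) (c₀ : Kb) ∈ C.O,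
      Q.adicValuation (C.res ⟨_, h⟩) < 1) :
    HasValue C Q θ (-c₀) := by
  obtain ⟨h, hlt⟩ := H
  have heq : θ - algebraMap Kb (Fb (M * q * q)) ((-c₀ : B) : Kb) =
      θ + algebraMap Kb (Fb (M * q * q)) (c₀ : Kb) := by
    rw [show ((-c₀ : B) : Kb) = -(c₀ : Kb) from rfl, map_neg, sub_neg_eq_add]
  have hm : θ - algebraMap Kb (Fb (M * q * q)) ((-c₀ : B) : Kb) ∈ C.O := by
    rw [heq]
    exact h
  refine ⟨hm, ?_⟩
  have h1 : (⟨θ - algebraMap Kb (Fb (M * q * q)) ((-c₀ : B) : Kb), hm⟩ : C.O) =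
      ⟨θ + algebraMap Kb (Fb (M * q * q)) (c₀ : Kb), h⟩ := Subtype.ext heq
  rw [h1]
  exact hlt

set_option maxHeartbeats 4000000 in
/-- **(I1) at the names of the frame**: on EVERY middle component `CM j`, at the Kummer place
`pK e` over `z₁ e`, the Kummer function `kumTheta e` has the value `kumC0 e s` or
`kumC0 e (rev s)` (`q` odd). -/
theorem hasValue_or_modular (hq2 : q ≠ 2) (e : SSpM B hB hqM) (j : MidM B hB hqM hζ)
    (s : KPq q) :
    HasValue (CM B hB hqM hζ j)
        (MidFamily.pMid B hB hqM (z₁ (chartDataModular B hB hqM)) hcop e)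
        (kumTheta B hB hqM h2 h3 e) (kumC0 B hB hqM h2 h3 e s) ∨
      HasValue (CM B hB hqM hζ j)
        (MidFamily.pMid B hB hqM (z₁ (chartDataModular B hB hqM)) hcop e)
        (kumTheta B hB hqM h2 h3 e) (kumC0 B hB hqM h2 h3 e (rev q s)) := by
  have key := hθ₂_or_modular B hB hqM h2 h3 e (zePackM B hB hqM h2 h3 e).P
    (vertCompM B hB hqM h2 h3 e) hq2 (zePackM B hB hqM h2 h3 e).hβ
    (zePackM B hB hqM h2 h3 e).hρ (rootsK_sq q (zePackM B hB hqM h2 h3 e).ρ s)
    (residue_kumC0 B hB hqM h2 h3 e s) hζ (j.rep B hB hqM hζ).2 (hcop e) (two_mul_midDeg hq2)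
  rcases key with h | h
  · exact Or.inl h
  · refine Or.inr (hasValue_congr ?_ (hasValue_neg_of_add B
      (C := CM B hB hqM hζ j)
      (Q := MidFamily.pMid B hB hqM (z₁ (chartDataModular B hB hqM)) hcop e) h))
    rw [map_neg, residue_kumC0_rev]

/-- **(COMP-FINAL (1)) `hex` of the final call** (`q` odd): every middle component `j` takes at
the supersingular point `e` one of the values `residue B (kumC0 e s)`, `s : KPq q`, at its Kummer
place `pK e`.  Literal shape of the variable `hex` of `BR3/KummerNodeFam.lean`. -/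
theorem hex_modular : q ≠ 2 → ∀ e j, ∃ s, ValAt (CM B hB hqM hζ)
    (MidFamily.pMid B hB hqM (z₁ (chartDataModular B hB hqM)) hcop)
    (kumTheta B hB hqM h2 h3)
    (fun e s => IsLocalRing.residue B (kumC0 B hB hqM h2 h3 e s)) e j s := by
  intro hq2 e j
  rcases hasValue_or_modular B hB hqM h2 h3 hζ hcop hq2 e j (default : KPq q) with h | h
  · exact ⟨default, (valAt_iff_kummerRel (kumC0 B hB hqM h2 h3)).mpr h⟩
  · exact ⟨rev q default, (valAt_iff_kummerRel (kumC0 B hB hqM h2 h3)).mpr h⟩

/-- the values `residue B (kumC0 e s)` are pairwise distinct (the hypothesis `hcinj` of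
`KummerCompGlue`, `hr` of `KummerCompMod`) -/
theorem hcinj_modular (e : SSpM B hB hqM) (s s' : KPq q)
    (h : IsLocalRing.residue B (kumC0 B hB hqM h2 h3 e s) =
      IsLocalRing.residue B (kumC0 B hB hqM h2 h3 e s')) : s = s' :=
  residue_kumC0_injective B hB hqM h2 h3 e h

/-- `rev` is the sign on the values -/
theorem hrev_modular (e : SSpM B hB hqM) (s : KPq q) :
    IsLocalRing.residue B (kumC0 B hB hqM h2 h3 e (rev q s)) =
      -IsLocalRing.residue B (kumC0 B hB hqM h2 h3 e s) :=
  residue_kumC0_rev B hB hqM h2 h3 e s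

end Final

end Fermat.Agent.BR3.SDD.ModularCompFinal
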