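import Mathlib
import Fermat.Agent.BR3.GeoSigma
import Fermat.Agent.BR3.ThickSDDPlug
import Fermat.Agent.BR3.VertEquivUg
import Fermat.Agent.BR3.EquivSRefModular
import Fermat.Agent.BR3.FibreProdMidGal
import Fermat.Agent.BR3.IgSq.Uniform

/-!
# Program C (S36), node (COMP-MOD), the sign: the tame generator multiplies the Kummer functions by `-1`

`θ = u / X ^ d`, `X = ϖ₂ / U` (`KummerOfVert.thetaOf`, `xOf`), `q = 2 d + 1`.  If `g` fixes `u` and `U`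
and the base automorphism multiplies the constant `ϖ₂ ^ d` by `ε⁻¹`, then `g • θ = ε θ`.  For the tame
generator `σ0` of `GeoSigma.exists_tame_generator` (`σ0 ϖ = ζ₀ ϖ`, `ζ₀` primitive of order
`(q - 1) (q + 1)`, `ϖ = unifSDD q`) the constants `ϖ ^ ((q + 1) d)` (`= ϖ₂ ^ d` for `ϖ₂ = ϖ ^ (q + 1)`)
and `gaugeSDD q ^ (d + 1)` (`= ϖ₂ ^ d` too) are multiplied by `-1`.

* `smul_theta_form` : the abstract computation, any `ε ≠ 0` (the expanded form of
  `KummerOfVert.thetaOf`: `thetaOf u ϖ₂ U d = algebraMap u * ((algebraMap ϖ₂ * U⁻¹) ^ d)⁻¹` by `rfl`);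
* `pow_half_eq_neg_one`, `apply_unif_pow_eq_neg`, `apply_gauge_pow_eq_neg` : the sign of the constants;
* **`galAut_smul_kumTheta`** : at the frame, for the expanded form of the Kummer function
  `kumTheta e = α₂ (annulusCoord e) * ((algebraMap (unifSDD q ^ (q + 1)) * (Ug M q g)⁻¹) ^ midDeg q)⁻¹`,
  `g ∈ CMod M (W0 B q) (K0 q)`, `q` odd, `σ` the tame generator:
  `galAut σ • θ = algebraMap (-1) * θ` = the hypothesis `hθ` of `ModularComp.kummerRel_equivariantM` /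
  `hval_modular` / `hcomp_modular` with `ε := -1`.
-/

set_option autoImplicit false
set_option linter.style.haveILetI false
set_option linter.unusedSectionVars false
set_option linter.unusedVariables false
set_option synthInstance.maxHeartbeats 400000

open ModularCurve AlgebraicCurve

noncomputable section

namespace Fermat.Agent.BR3.SDD.ModularThetaSign

open Fermat.Agent.Red Fermat.Agent.X0 Fermat.Agent.Jac
  Fermat.Agent.BR3.HeckePoly Fermat.Agent.BR3.ThickSDDPlug Fermat.Agent.BR3.FibreProd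
  Fermat.Agent.BR.Inst.LevelsInst Fermat.Agent.BR.S0.ThickFinal Fermat.Agent.BR.S0
  Fermat.Agent.BR.S0.PointDict Fermat.Agent.BR.S0.RedModular Fermat.Agent.BR.Final
  Fermat.Agent.BR2.SetupOfData

/-! ### The abstract computation -/

section Abstract

variable {K F₂ : Type*} [Field K] [Field F₂] [Algebra K F₂]

/-- `g • (x / (ϖ₂ / U) ^ d) = ε (x / (ϖ₂ / U) ^ d)` if `g` fixes `x`, `U` and multiplies the constant
`ϖ₂ ^ d` by `ε⁻¹`. -/
theorem smul_theta_form (g : SemilinearAut K F₂) {x U : F₂} {ϖ₂ ε : K} {d : ℕ}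
    (hx : g • x = x) (hU : g • U = U) (hε : ε ≠ 0)
    (hϖ : SemilinearAut.baseAut g (ϖ₂ ^ d) = ε⁻¹ * ϖ₂ ^ d) :
    g • (x * ((algebraMap K F₂ ϖ₂ * U⁻¹) ^ d)⁻¹) =
      algebraMap K F₂ ε * (x * ((algebraMap K F₂ ϖ₂ * U⁻¹) ^ d)⁻¹) := by
  have h1 : (algebraMap K F₂ ϖ₂ * U⁻¹) ^ d = algebraMap K F₂ (ϖ₂ ^ d) * (U ^ d)⁻¹ := by
    rw [mul_pow, inv_pow, map_pow]
  have h2 : g • (algebraMap K F₂ (ϖ₂ ^ d) * (U ^ d)⁻¹) =
      algebraMap K F₂ (ε⁻¹ * ϖ₂ ^ d) * (U ^ d)⁻¹ := by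
    rw [smul_mul', SemilinearAut.smul_algebraMap, hϖ, smul_inv'', smul_pow', hU]
  rw [h1, smul_mul', smul_inv'', h2, hx, map_mul, map_inv₀]
  have hε' : algebraMap K F₂ ε ≠ 0 := (_root_.map_ne_zero _).mpr hε
  by_cases hz : algebraMap K F₂ (ϖ₂ ^ d) * (U ^ d)⁻¹ = 0
  · have hz' : (algebraMap K F₂ ε)⁻¹ * algebraMap K F₂ (ϖ₂ ^ d) * (U ^ d)⁻¹ = 0 := by
      rw [mul_assoc, hz, mul_zero]
    rw [hz', hz, inv_zero, mul_zero, mul_zero]
  · field_simp

end Abstract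

/-! ### The sign of the constants -/

section Sign

/-- a primitive root of even order `2 n` has `ζ ^ n = -1` -/
theorem pow_half_eq_neg_one {R : Type*} [CommRing R] [IsDomain R] {ζ : R} {n : ℕ} (hn : 0 < n)
    (hζ : IsPrimitiveRoot ζ (2 * n)) : ζ ^ n = -1 := by
  have h1 : (ζ ^ n) ^ 2 = 1 := by
    rw [← pow_mul, mul_comm]
    exact hζ.pow_eq_one
  have h2 : ζ ^ n ≠ 1 := by
    intro h
    have := hζ.dvd_of_pow_eq_one n h
    have h3 := Nat.le_of_dvd hn this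
    omega
  have h3 : (ζ ^ n - 1) * (ζ ^ n + 1) = 0 := by
    have : (ζ ^ n - 1) * (ζ ^ n + 1) = (ζ ^ n) ^ 2 - 1 := by ring
    rw [this, h1, sub_self]
  rcases mul_eq_zero.mp h3 with h | h
  · exact absurd (sub_eq_zero.mp h) h2
  · exact eq_neg_of_add_eq_zero_left h

local notation "Qb" => AlgebraicClosure ℚ

variable {q d : ℕ} (hd : 2 * d + 1 = q) {σ : Qb ≃ₐ[ℚ] Qb} {ϖ ζ₀ : Qb}
  (hσϖ : σ ϖ = ζ₀ * ϖ) (hζ₀ : IsPrimitiveRoot ζ₀ ((q - 1) * (q + 1)))

include hd hσϖ hζ₀ in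
/-- `σ (ϖ ^ ((q + 1) d)) = - ϖ ^ ((q + 1) d)` (`ϖ₂ = ϖ ^ (q + 1)`, `ϖ₂ ^ d`) -/
theorem apply_unif_pow_eq_neg (hd0 : 0 < d) : σ (ϖ ^ ((q + 1) * d)) = -ϖ ^ ((q + 1) * d) := by
  have hn : 0 < (q + 1) * d := Nat.mul_pos (by omega) hd0
  have hord : (q - 1) * (q + 1) = 2 * ((q + 1) * d) := by
    have : q - 1 = 2 * d := by omega
    rw [this]
    ring
  rw [hord] at hζ₀
  rw [map_pow, hσϖ, mul_pow, pow_half_eq_neg_one hn hζ₀, neg_one_mul]

include hd hσϖ hζ₀ in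
/-- `σ ((ϖ ^ (q - 1)) ^ (d + 1)) = - (ϖ ^ (q - 1)) ^ (d + 1)` (`a₀ = ϖ ^ (q - 1)`, `a₀ ^ (d + 1)`) -/
theorem apply_gauge_pow_eq_neg (hd0 : 0 < d) :
    σ ((ϖ ^ (q - 1)) ^ (d + 1)) = -(ϖ ^ (q - 1)) ^ (d + 1) := by
  have h1 : (ϖ ^ (q - 1)) ^ (d + 1) = ϖ ^ ((q + 1) * d) := by
    rw [← pow_mul]
    congr 1
    have : q - 1 = 2 * d := by omega
    rw [this]
    have : q + 1 = 2 * d + 2 := by omega
    rw [this]
    ring
  rw [h1]
  exact apply_unif_pow_eq_neg hd hσϖ hζ₀ hd0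

end Sign

/-! ### The frame `(M, q, B)` -/

section Modular

variable {M q : ℕ} [NeZero M] [hq : Fact q.Prime]

/-- shortcut instance (the search is slow) -/
local instance algResFtMSign (B : ValuationSubring Kb) :
    Algebra (IsLocalRing.ResidueField B)
      (modularFunctionFieldFullC (IsLocalRing.ResidueField B) M) := inferInstance

variable (B : ValuationSubring (AlgebraicClosure ℚ)) (hB : B.LiesOverPrime q)

/-- `2 * midDeg q + 1 = q` for `q` odd -/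
theorem two_mul_midDeg_add_one (hq2 : q ≠ 2) : 2 * Fermat.Agent.BR3.IgSq.midDeg q + 1 = q := by
  have h := Fermat.Agent.BR3.IgSq.midDeg_mul_midCard hq.out
  rw [Fermat.Agent.BR3.IgSq.midCard_of_ne_two hq2] at h
  omega

variable {hqM : ¬ q ∣ M} [IsAlgClosed (IsLocalRing.ResidueField B)]

/-- **THE sign lemma of the Kummer function of `z e`** (`q` odd), in the EXPANDED form of the board's
`kumTheta e = α₂ u_e * (kumX e ^ midDeg q)⁻¹`, `kumX e = algebraMap (ϖ ^ (q + 1)) * (Ug M q g)⁻¹`: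
the tame generator (`σ ϖ = ζ₀ ϖ`, `ζ₀` primitive of order `(q - 1) (q + 1)`, `ϖ = unifSDD q`) multiplies
it by `-1`. -/
theorem galAut_smul_kumTheta (Dt : ModularData M q B hB hqM) {σ : GQ}
    (hσ : σ ∈ B.inertiaSubgroupIn ℚ) {ζ₀ : Kb} (hσϖ : σ (unifSDD q) = ζ₀ * unifSDD q)
    (hζ₀ : IsPrimitiveRoot ζ₀ ((q - 1) * (q + 1))) (hq2 : q ≠ 2)
    (e : Crossing (chartDataModular B hB hqM))
    {g : Fb M} (hg : g ∈ CMod M (W0 B q) (K0 q)) :
    galAut (M * q * q) σ •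
        (alpha2 M q (annulusCoord Dt e) *
          ((algebraMap Kb (Fb (M * q * q)) (unifSDD q ^ (q + 1)) * (Ug M q g)⁻¹) ^
            Fermat.Agent.BR3.IgSq.midDeg q)⁻¹) =
      algebraMap Kb (Fb (M * q * q)) (-1) *
        (alpha2 M q (annulusCoord Dt e) *
          ((algebraMap Kb (Fb (M * q * q)) (unifSDD q ^ (q + 1)) * (Ug M q g)⁻¹) ^
            Fermat.Agent.BR3.IgSq.midDeg q)⁻¹) := by
  refine smul_theta_form (galAut (M * q * q) σ) ?_
    (Fermat.Agent.BR3.VertEquivUg.galAut_smul_Ug B hB hσ hg) (neg_ne_zero.mpr one_ne_zero) ?_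
  · rw [Fermat.Agent.BR3.FibreProd.gal_smul_alpha2 σ _,
      Fermat.Agent.BR3.EquivSRefModular.annulusCoord_smul Dt hσ e]
  · show σ ((unifSDD q ^ (q + 1)) ^ Fermat.Agent.BR3.IgSq.midDeg q) =
      (-1 : Kb)⁻¹ * (unifSDD q ^ (q + 1)) ^ Fermat.Agent.BR3.IgSq.midDeg q
    have hd0 : 0 < Fermat.Agent.BR3.IgSq.midDeg q := by
      have h1 := two_mul_midDeg_add_one (hq := hq) hq2
      have h2 := hq.out.two_le
      omega
    rw [← pow_mul, apply_unif_pow_eq_neg (two_mul_midDeg_add_one hq2) hσϖ hζ₀ hd0]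
    norm_num

/-- the same with the sign as an element of `B` (the shape of `hθ` in `ModularComp`, `ε := (-1 : B)`) -/
theorem galAut_smul_kumTheta_B (Dt : ModularData M q B hB hqM) {σ : GQ}
    (hσ : σ ∈ B.inertiaSubgroupIn ℚ) {ζ₀ : Kb} (hσϖ : σ (unifSDD q) = ζ₀ * unifSDD q)
    (hζ₀ : IsPrimitiveRoot ζ₀ ((q - 1) * (q + 1))) (hq2 : q ≠ 2)
    (e : Crossing (chartDataModular B hB hqM))
    {g : Fb M} (hg : g ∈ CMod M (W0 B q) (K0 q)) :
    galAut (M * q * q) σ •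
        (alpha2 M q (annulusCoord Dt e) *
          ((algebraMap Kb (Fb (M * q * q)) (unifSDD q ^ (q + 1)) * (Ug M q g)⁻¹) ^
            Fermat.Agent.BR3.IgSq.midDeg q)⁻¹) =
      algebraMap Kb (Fb (M * q * q)) (((-1 : B) : B) : Kb) *
        (alpha2 M q (annulusCoord Dt e) *
          ((algebraMap Kb (Fb (M * q * q)) (unifSDD q ^ (q + 1)) * (Ug M q g)⁻¹) ^
            Fermat.Agent.BR3.IgSq.midDeg q)⁻¹) := by
  have h1 : (((-1 : B) : B) : Kb) = -1 := by norm_num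
  rw [h1]
  exact galAut_smul_kumTheta B hB Dt hσ hσϖ hζ₀ hq2 e hg

end Modular

end Fermat.Agent.BR3.SDD.ModularThetaSign
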