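import Fermat.Agent.BR3.SDD.PartitionMod
import Fermat.Agent.BR3.KummerGenus.MidFamily

/-!
# Program C (S36), node I7 (W4-MOD), part 2: the Kummer places at the modular frame

With `pMid e s := MidFamily.pMid B hB hqM (z₁ D) hcop e` (helper5: THE place of `FMid M B` over the
supersingular point `z₁ e`, independent of `s`) the hypotheses `hMid`, `complMid` of
`under_modular` hold:

* `hMid_pMid` : `uMidM (comp e s) (pMid e) = z₁ e` (`pMid_restrict`);
* `complMid_pMid` : a point of a middle component over a supersingular point is a Kummer place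
  (`eq_pMid` and `hsurj : ∀ e i, ∃ s, comp e s = i`);
* `canFib_not_branch_pMid` : `canFib_not_branch` for these Kummer places.
-/

set_option autoImplicit false
set_option linter.style.haveILetI false
set_option linter.unusedSectionVars false
set_option linter.unusedVariables false
set_option synthInstance.maxHeartbeats 400000

open ModularCurve AlgebraicCurve

noncomputable section

namespace Fermat.Agent.BR3.SDD.Modular

open IsLocalRing Fermat.Agent.X0 Fermat.Agent.Red Fermat.Agent.Val
  Fermat.Agent.BR.SS Fermat.Agent.BR.S0 Fermat.Agent.BR.S0.PointDict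
  Fermat.Agent.BR.S0.RedModular Fermat.Agent.BR2.SetupOfData Fermat.Agent.BR3.FibreProd
  Fermat.Agent.BR3.SRef.Modular Fermat.Agent.BR3.SDD.Partition Fermat.Agent.BR3.KummerGenus
  Fermat.Agent.BR3.KummerGenus.MidInst

local notation "Qb" => AlgebraicClosure ℚ

variable {M q : ℕ} [NeZero M] [hq : Fact q.Prime] [NeZero q]
variable (B : ValuationSubring (AlgebraicClosure ℚ)) (hB : B.LiesOverPrime q) (hqM : ¬ q ∣ M)
variable [IsAlgClosed (ResidueField B)]
variable {ζ : Kbˣ} (hζ : IsPrimitiveRoot ζ q)

local notation "kB" => IsLocalRing.ResidueField B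
local notation "FtM" => modularFunctionFieldFullC (IsLocalRing.ResidueField B) M

/-- (shortcut instances) -/
local instance (priority := 100000) instAlgebraFtMShortcutQ :
    Algebra (IsLocalRing.ResidueField B)
      (modularFunctionFieldFullC (IsLocalRing.ResidueField B) M) :=
  inferInstance
local instance (priority := 100000) instAlgKFMidQ :
    Algebra (IsLocalRing.ResidueField B) (FMid M B) := inferInstance
local instance (priority := 100000) instAlgFtFMidQ :
    Algebra (modularFunctionFieldFullC (IsLocalRing.ResidueField B) M) (FMid M B) := inferInstance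
local instance (priority := 100000) instTowerMidQ :
    IsScalarTower (IsLocalRing.ResidueField B)
      (modularFunctionFieldFullC (IsLocalRing.ResidueField B) M) (FMid M B) :=
  inferInstance
local instance (priority := 100000) instFieldFtAllQ {FZ : SSpM B hB hqM → Type}
    [∀ e, Field (FZ e)] (v : Comp (MidM B hB hqM hζ) (SSpM B hB hqM)) :
    Field (FtAll B hB hqM hζ FZ v) := instFieldFtOf v
local instance (priority := 100000) instAlgFtAllQ {FZ : SSpM B hB hqM → Type}
    [∀ e, Field (FZ e)] [∀ e, Algebra (IsLocalRing.ResidueField B) (FZ e)]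
    (v : Comp (MidM B hB hqM hζ) (SSpM B hB hqM)) :
    Algebra (IsLocalRing.ResidueField B) (FtAll B hB hqM hζ FZ v) := instAlgebraFtOf v

variable {FZ : SSpM B hB hqM → Type} [∀ e, Field (FZ e)] [∀ e, Algebra (ResidueField B) (FZ e)]
  {KP : Type} (comp : SSpM B hB hqM → KP → MidM B hB hqM hζ)
  (hcop : ∀ e : SSpM B hB hqM,
    IsCoprime ((z₁ (chartDataModular B hB hqM) e).ord (deltaMid B hB hqM)) (fMid M B hB : ℤ))

/-- The Kummer places of the middle components at the frame, in the shape of the argument `pMid`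
of `under_modular` / `caseInputOfRaw`. -/
def pMidM (FZ : SSpM B hB hqM → Type) [∀ e, Field (FZ e)] [∀ e, Algebra (ResidueField B) (FZ e)]
    (e : SSpM B hB hqM) (s : KP) : Place kB (FtAll B hB hqM hζ FZ (mid (comp e s))) :=
  MidFamily.pMid B hB hqM (z₁ (chartDataModular B hB hqM)) hcop e

/-- **`hMid` of `under_modular`.** -/
theorem hMid_pMid (e : SSpM B hB hqM) (s : KP) :
    uMidM B hB hqM hζ FZ (comp e s) (pMidM B hB hqM hζ comp hcop FZ e s) =
      z₁ (chartDataModular B hB hqM) e := by
  haveI := finiteDimensional_FMid B hB hqM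
  exact MidFamily.pMid_restrict B hB hqM (z₁ (chartDataModular B hB hqM)) hcop e

/-- **`complMid` of `under_modular`**: a point of a middle component over a supersingular point is
a Kummer place. -/
theorem complMid_pMid (hsurj : ∀ e i, ∃ s, comp e s = i) (i : MidM B hB hqM hζ)
    (Q : Place kB (FtAll B hB hqM hζ FZ (mid i))) (e' : SSpM B hB hqM)
    (h : uMidM B hB hqM hζ FZ i Q = z₁ (chartDataModular B hB hqM) e') :
    ∃ e s, (⟨mid i, Q⟩ : Σ v, Place kB (FtAll B hB hqM hζ FZ v)) =
      ⟨mid (comp e s), pMidM B hB hqM hζ comp hcop FZ e s⟩ := by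
  haveI := finiteDimensional_FMid B hB hqM
  obtain ⟨s, rfl⟩ := hsurj e' i
  refine ⟨e', s, ?_⟩
  have h1 : (show Place kB (FMid M B) from Q) =
      MidFamily.pMid B hB hqM (z₁ (chartDataModular B hB hqM)) hcop e' :=
    MidFamily.eq_pMid B hB hqM (z₁ (chartDataModular B hB hqM)) hcop e' h
  exact congrArg (Sigma.mk (mid (comp e' s))) h1

/-- `canFib_not_branch` for the Kummer places `pMidM`. -/
theorem canFib_not_branch_pMid
    (zW : ∀ e, Place (IsLocalRing.ResidueField B) (FtAll B hB hqM hζ FZ (ze e)))
    (zT : ∀ e, Place (IsLocalRing.ResidueField B) (FtAll B hB hqM hζ FZ (ze e)))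
    (zK : ∀ e, KP → Place (IsLocalRing.ResidueField B) (FtAll B hB hqM hζ FZ (ze e)))
    (Q' : Place kB FtM) (hnc : ∀ e, Q' ≠ z₁ (chartDataModular B hB hqM) e) :
    ∀ y ∈ (canFib B hB hqM hζ FZ Q' : Set (Σ v, Place kB (FtAll B hB hqM hζ FZ v))),
      (∀ x : Node (SSpM B hB hqM) KP,
        (⟨src comp x, s₁Of comp (pInfM B hB hqM) (pMidM B hB hqM hζ comp hcop FZ) zW x⟩ :
          Σ v, Place kB (FtAll B hB hqM hζ FZ v)) ≠ y) ∧
      ∀ x : Node (SSpM B hB hqM) KP,
        (⟨tgt x, s₂Of (pZeroM B hB hqM) zT zK x⟩ :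
          Σ v, Place kB (FtAll B hB hqM hζ FZ v)) ≠ y :=
  canFib_not_branch B hB hqM hζ comp (pMidM B hB hqM hζ comp hcop FZ) zW zT zK Q' hnc
    (hMid_pMid B hB hqM hζ comp hcop)

end Fermat.Agent.BR3.SDD.Modular
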