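import Fermat.Agent.BR3.SDD.ModularComp
import Fermat.Agent.BR3.SDD.ModularThetaSign
import Fermat.Agent.BR3.SDD.PartitionModPts
import Fermat.Agent.BR3.KummerNodeNames
import Fermat.Agent.BR3.GeoSigma

/-!
# Program C (S36), node (COMP-FINAL), second half: THE map `comp` of the final call from (I1)

Frame of `BR3/KummerNodeFam` (helper7): `CM i = constRedMid … (i.rep).2`, the Kummer places
`pK e := MidFamily.pMid … z₁ hcop e`, THE Kummer function `θ e := kumTheta … e` and THE values
`c e s := kumC0 … e s` (`BR3/KummerNodeNames`).  The ONLY input is (I1)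

  `hex : q ≠ 2 → ∀ e j, ∃ s, ValAt CM pK kumTheta (fun e s => residue B (kumC0 e s)) e j s`

(a VARIABLE here; producer: `ModularCompFinal.hex_modular`, helper4).

* `hrev_kumC0`, `hcinj_kumC0` : the antisymmetry and the injectivity of the values;
* `hθ_kumTheta` : the sign of the tame generator on `kumTheta` (`ModularThetaSign`);
* **`hvalM hex`** : the input `hval` of `compU` (the tame generator is chosen inside);
* **`compM hex := compU hex (hvalM hex)`**, `compM_hall` (`hsurj`), `compM_surj` (`comp_surj`),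
  `compM_injective`, `pMidM_injective` (`pMid_injective` for `pMid := pMidM … (compM hex) hcop FZ`);
* **`hcompM hex`** : `compM hex e (rev q s) = P (compM hex e s)` for the tame generator `σ0` and THE
  permutation `P` of the middle components induced by `σ0` (= the binder `hcomp` of
  `ModularTameFinal.ht_of_family`).
-/

set_option autoImplicit false
set_option linter.style.haveILetI false
set_option linter.unusedSectionVars false
set_option linter.unusedVariables false
set_option synthInstance.maxHeartbeats 400000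
set_option maxHeartbeats 1600000

open ModularCurve AlgebraicCurve

noncomputable section

/- S36 build-time patch: file-local shortcut instances. They only shorten instance search;
each is the instance that the search finds anyway (reducible, same terms after unfolding). -/
local instance (priority := 100000) Fermat.Agent.BR3.FastInst.instAlgFullC_SDD_ModularCompM
    {k : Type*} [Field k] (N : ℕ) :
    Algebra k ↥(ModularCurve.modularFunctionFieldFullC k N) := inferInstance
local instance (priority := 100000) Fermat.Agent.BR3.FastInst.instFieldFullC_SDD_ModularCompM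
    {k : Type*} [Field k] (N : ℕ) :
    Field ↥(ModularCurve.modularFunctionFieldFullC k N) := inferInstance
local instance (priority := 100000) Fermat.Agent.BR3.FastInst.instAlgLaurent_SDD_ModularCompM
    {k : Type*} [Field k] : Algebra k (LaurentSeries k) := inferInstance


namespace Fermat.Agent.BR3.SDD.ModularCompM

open IsLocalRing Fermat.Agent.X0 Fermat.Agent.Red Fermat.Agent.Val Fermat.Agent.Jac
  Fermat.Agent.BR.SS Fermat.Agent.BR.S0 Fermat.Agent.BR.S0.RedModular
  Fermat.Agent.BR.S0.PointDict Fermat.Agent.BR2.SetupOfData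
  Fermat.Agent.BR3.FibreProd Fermat.Agent.BR3.SDD Fermat.Agent.BR3.SDD.Modular
  Fermat.Agent.BR3.KummerGenus Fermat.Agent.BR3.KummerGenus.MidInst Fermat.Agent.BR3.IgSq
  Fermat.Agent.BR3.SepNComp Fermat.Agent.BR3.SepNCompRel Fermat.Agent.BR3.KummerCompMod
  Fermat.Agent.BR3.KummerCompUnif Fermat.Agent.BR3.KummerCompGlue Fermat.Agent.BR3.VertPtsU
  Fermat.Agent.BR3.KummerNodeInputs Fermat.Agent.BR3.ThickSDDPlug
  Fermat.Agent.BR3.SDD.ModularComp Fermat.Agent.BR3.SDD.ModularThetaSign

variable {M q : ℕ} [NeZero M] [hq : Fact q.Prime]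
variable (B : ValuationSubring Kb) (hB : B.LiesOverPrime q) (hqM : ¬ q ∣ M)
  [IsAlgClosed (ResidueField B)] [CharP (ResidueField B) q]
  (h2 : nuTwo M = 0) (h3 : nuThree M = 0)
  {ζ : Kbˣ} (hζ : IsPrimitiveRoot ζ q)

local notation "kB" => ResidueField B
local notation "FtM" => modularFunctionFieldFullC (IsLocalRing.ResidueField B) M

/-- (shortcut instances) -/
local instance (priority := 100000) instAlgKFtCM : Algebra kB FtM := inferInstance
local instance (priority := 100000) instAlgKFMidCM : Algebra kB (FMid M B) := inferInstance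
local instance (priority := 100000) instAlgFtFMidCM : Algebra FtM (FMid M B) := inferInstance
local instance (priority := 100000) instTowerMidCM : IsScalarTower kB FtM (FMid M B) :=
  inferInstance

/-! ### The values -/

/-- `c₀ e (rev s) + c₀ e s ∈ 𝔪_B` -/
theorem hrev_kumC0 (e : SSpM B hB hqM) (s : KPq q) :
    ((kumC0 B hB hqM h2 h3 e (rev q s) : B) : Kb) + ((kumC0 B hB hqM h2 h3 e s : B) : Kb) ∈
      B.nonunits := by
  have h1 : residue B (kumC0 B hB hqM h2 h3 e (rev q s) + kumC0 B hB hqM h2 h3 e s) = 0 := by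
    rw [map_add, residue_kumC0_rev, neg_add_cancel]
  have h3' : kumC0 B hB hqM h2 h3 e (rev q s) + kumC0 B hB hqM h2 h3 e s ∈
      IsLocalRing.maximalIdeal B := (IsLocalRing.residue_eq_zero_iff _).mp h1
  rw [B.mem_nonunits_iff]
  exact (B.valuation_lt_one_iff _).mp h3'

/-- the values are pairwise distinct -/
theorem hcinj_kumC0 (e : SSpM B hB hqM) (s s' : KPq q)
    (h : residue B (kumC0 B hB hqM h2 h3 e s) = residue B (kumC0 B hB hqM h2 h3 e s')) :
    s = s' :=
  residue_kumC0_injective B hB hqM h2 h3 e h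

/-- **the sign of the tame generator on the Kummer functions** -/
theorem hθ_kumTheta {σ : GQ} (hσ : σ ∈ B.inertiaSubgroupIn ℚ) {ζ₀ : Kb}
    (hσϖ : σ (unifSDD q) = ζ₀ * unifSDD q)
    (hζ₀ : IsPrimitiveRoot ζ₀ ((q - 1) * (q + 1))) (hq2 : q ≠ 2) (e : SSpM B hB hqM) :
    galAut (M * q * q) σ • kumTheta B hB hqM h2 h3 e =
      algebraMap Kb (Fb (M * q * q)) (((-1 : B) : B) : Kb) * kumTheta B hB hqM h2 h3 e :=
  galAut_smul_kumTheta_B B hB (DtM B hB hqM) hσ hσϖ hζ₀ hq2 e (zePackM B hB hqM h2 h3 e).P.hg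

/-! ### `comp` -/

variable (hcop : ∀ e : SSpM B hB hqM,
    IsCoprime ((z₁ (chartDataModular B hB hqM) e).ord (deltaMid B hB hqM)) (fMid M B hB : ℤ))
  (hex : q ≠ 2 → ∀ e j, ∃ s, ValAt (CM B hB hqM hζ)
    (MidFamily.pMid B hB hqM (z₁ (chartDataModular B hB hqM)) hcop) (kumTheta B hB hqM h2 h3)
    (fun e s => residue B (kumC0 B hB hqM h2 h3 e s)) e j s)

/-- **The input `hval` of `compU`**: the value map of the Kummer relation is bijective (`q` odd). -/
theorem hvalM (hq2 : q ≠ 2) (e : SSpM B hB hqM) : Function.Bijective (val (hex hq2) e) := by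
  obtain ⟨σ, hσI, ζ₀, hζ₀, hσϖ, -⟩ :=
    Fermat.Agent.BR3.GeoSigma.exists_tame_generator (B := B) hq.out hB
      (unifSDD_pow hq.out.one_lt)
  exact hval_modular B hB hqM hζ (z₁ (chartDataModular B hB hqM)) hcop (kumTheta B hB hqM h2 h3)
    (kumC0 B hB hqM h2 h3) (card_KPq q) h2 h3 (hcinj_kumC0 B hB hqM h2 h3) (hex hq2) hσI
    (isUnit_neg_one_B B) (hθ_kumTheta B hB hqM h2 h3 hσI hσϖ hζ₀ hq2) (fun _ => rev q)
    (fun _ => rev_transitive q)
    (hc_of_neg B hB hqM (kumC0 B hB hqM h2 h3) hσI (fun _ => rev q) (hrev_kumC0 B hB hqM h2 h3)) e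

variable [Nonempty (MidM B hB hqM hζ)]

/-- **THE map `comp` of the final call**: the middle component through the Kummer point `s` of
`z e` (uniformly in `q`). -/
def compM : SSpM B hB hqM → KPq q → MidM B hB hqM hζ :=
  compU hex (hvalM B hB hqM h2 h3 hζ hcop hex)

/-- `hsurj` of `modelAt_of_raw` -/
theorem compM_hall (e : SSpM B hB hqM) (i : MidM B hB hqM hζ) :
    ∃ s, compM B hB hqM h2 h3 hζ hcop hex e s = i :=
  compU_hall hex (hvalM B hB hqM h2 h3 hζ hcop hex) (subsingleton_mid_of_two B hB hqM hζ) e i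

/-- the binder `comp_surj` of `XRaw` -/
theorem compM_surj (i : MidM B hB hqM hζ) : ∃ e s, compM B hB hqM h2 h3 hζ hcop hex e s = i := by
  obtain ⟨e⟩ := nonempty_SSpM B hB hqM
  exact ⟨e, compM_hall B hB hqM h2 h3 hζ hcop hex e i⟩

theorem compM_injective (e : SSpM B hB hqM) :
    Function.Injective (compM B hB hqM h2 h3 hζ hcop hex e) :=
  compU_injective hex (hvalM B hB hqM h2 h3 hζ hcop hex) (fun h => subsingleton_KPq h) e

/-- the Kummer relation holds on `compM e s` (`q` odd) -/
theorem valAt_compM (hq2 : q ≠ 2) (e : SSpM B hB hqM) (s : KPq q) :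
    ValAt (CM B hB hqM hζ) (MidFamily.pMid B hB hqM (z₁ (chartDataModular B hB hqM)) hcop)
      (kumTheta B hB hqM h2 h3) (fun e s => residue B (kumC0 B hB hqM h2 h3 e s)) e
      (compM B hB hqM h2 h3 hζ hcop hex e s) s :=
  valAt_compU hex (hvalM B hB hqM h2 h3 hζ hcop hex) hq2 e s

/-- **The binder `hcomp` of (G6)**: for the tame generator `σ0` and THE permutation `P` of the
middle components induced by `σ0` (characterised by `σ0 • y ∈ (P i).ring ↔ y ∈ i.ring`, the fourth
component of `MidGal.exists_perm_mid` on the final setup). -/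
theorem hcompM {σ : GQ} (hσ : σ ∈ B.inertiaSubgroupIn ℚ) {ζ₀ : Kb}
    (hσϖ : σ (unifSDD q) = ζ₀ * unifSDD q) (hζ₀ : IsPrimitiveRoot ζ₀ ((q - 1) * (q + 1)))
    (P : Equiv.Perm (MidM B hB hqM hζ))
    (hP : ∀ (i : MidM B hB hqM hζ) (y : Fb (M * q * q)),
      galAut (M * q * q) σ • y ∈ (P i).ring B hB hqM hζ ↔ y ∈ i.ring B hB hqM hζ)
    (e : SSpM B hB hqM) (s : KPq q) :
    compM B hB hqM h2 h3 hζ hcop hex e (rev q s) = P (compM B hB hqM h2 h3 hζ hcop hex e s) :=
  hcomp_modular B hB hqM hζ (z₁ (chartDataModular B hB hqM)) hcop (kumTheta B hB hqM h2 h3)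
    (kumC0 B hB hqM h2 h3) (hcinj_kumC0 B hB hqM h2 h3) hex (hvalM B hB hqM h2 h3 hζ hcop hex) hσ
    P hP (isUnit_neg_one_B B) (fun hq2 => hθ_kumTheta B hB hqM h2 h3 hσ hσϖ hζ₀ hq2)
    (fun _ => rev q)
    (fun _ => hc_of_neg B hB hqM (kumC0 B hB hqM h2 h3) hσ (fun _ => rev q)
      (hrev_kumC0 B hB hqM h2 h3)) e s

/-! ### The Kummer places -/

variable (FZ : SSpM B hB hqM → Type) [∀ e, Field (FZ e)] [∀ e, Algebra (ResidueField B) (FZ e)]

/-- **The binder `pMid_injective` of `XRaw`** for `pMid := pMidM … (compM …) hcop FZ`. -/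
theorem pMidM_injective (e : SSpM B hB hqM) (s : KPq q) (e' : SSpM B hB hqM) (s' : KPq q)
    (h : (⟨mid (compM B hB hqM h2 h3 hζ hcop hex e s),
        pMidM B hB hqM hζ (compM B hB hqM h2 h3 hζ hcop hex) hcop FZ e s⟩ :
        Σ v, Place (ResidueField B) (FtAll B hB hqM hζ FZ v)) =
      ⟨mid (compM B hB hqM h2 h3 hζ hcop hex e' s'),
        pMidM B hB hqM hζ (compM B hB hqM h2 h3 hζ hcop hex) hcop FZ e' s'⟩) :
    e = e' ∧ s = s' :=
  pMid_injective_of (compM B hB hqM h2 h3 hζ hcop hex)
    (compM_injective B hB hqM h2 h3 hζ hcop hex)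
    (MidFamily.pMid B hB hqM (z₁ (chartDataModular B hB hqM)) hcop)
    (MidFamily.pMid_injective B hB hqM (z₁ (chartDataModular B hB hqM)) hcop
      (Fermat.Agent.BR3.ThickOneCount.z₁_injective B hB hqM h2 h3)) e s e' s' h

end Fermat.Agent.BR3.SDD.ModularCompM
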