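import Fermat.Agent.BR3.SDD.ModularRawW
import Fermat.Agent.BR3.SDD.ModularZePts
import Fermat.Agent.BR3.SDD.ModularTubes

/-!
# Program C (S36), node (FINAL): the final call of `ModularRawW.modelAt_of_raw_thick`

THE final assembly of the stable model of `X₀(M q²)` (`M` without elliptic points), layer by layer.
This file: the frame of the final call,

* `FZ := FZM`, `CZ := CZM`, `hZc := hZcM` (`BR3/SDD/ModularZe.lean`), `KP := VertPtsU.KPq q`,
  `zT zK zW := zTM zKM zWM`, `hZ hze hz hd`, `smZe := smZeM` (`BR3/SDD/ModularZePts.lean`);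
* `nodeTube := nodeTubeM B hB hqM tubeT tubeK tubeW`, `smTube := smTubeM B hB hqM hζ midTube (TZM …)`,
  `smInf := smInfM …`, `smZero := smZeroM …` (`BR3/SDD/ModularTubes.lean`);
* `thickW e := thick (DtM …) (Fr e)` (the wild node `nW e` lives over the inner node of `Fr e`);

`modelAt_final_Z` : `S36Plug.ModelAt M q lam B` from the remaining binders of `modelAt_of_raw_thick`
in their literal shapes.
-/

set_option autoImplicit false
set_option linter.style.haveILetI false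
set_option linter.unusedSectionVars false
set_option linter.unusedVariables false
set_option linter.style.longLine false
set_option synthInstance.maxHeartbeats 400000
set_option maxHeartbeats 4000000
set_option backward.isDefEq.respectTransparency.types true

open ModularCurve AlgebraicCurve

noncomputable section

namespace Fermat.Agent.BR3.SDD.ModularFinal

open IsLocalRing Fermat.Agent.Jac Fermat.Agent.X0 Fermat.Agent.Red Fermat.Agent.Val
  Fermat.Agent.BR.SS Fermat.Agent.BR Fermat.Agent.BR.InertiaRed Fermat.Agent.BR.UnramCyclo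
  Fermat.Agent.BR3.EquivInert Fermat.Agent.BR3.TorGlue Fermat.Agent.BR2.Filt
  Fermat.Agent.BR3.FiltMaps Fermat.Agent.BR3.FiltPerm
  Fermat.Agent.BR.S0 Fermat.Agent.BR.S0.PointDict Fermat.Agent.BR.S0.RedModular
  Fermat.Agent.BR3.FibreProd Fermat.Agent.BR.TwoVal Fermat.Agent.BR.Refine
  Fermat.Agent.BR.Circle Fermat.Agent.BR3.CircleN Fermat.Agent.BR3.SplitBranch
  Fermat.Agent.BR3.ThickSDDPlug Fermat.Agent.BR3.SDD.Partition Fermat.Agent.BR3.SRef.Modular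
  Fermat.Agent.BR2.SetupOfData Fermat.Agent.BR3.SDD.Modular Fermat.Agent.BR3.SDD
  Fermat.Agent.BR3.VertPtsU Fermat.Agent.BR3.IgSq Fermat.Agent.BR3.VertBetaFr

local notation "Qb" => AlgebraicClosure ℚ

variable {M q : ℕ} [NeZero M] [hq : Fact q.Prime] [NeZero q]
variable (B : ValuationSubring (AlgebraicClosure ℚ)) (hB : B.LiesOverPrime q) (hqM : ¬ q ∣ M)
variable [IsAlgClosed (ResidueField B)] [CharP (ResidueField B) q]
variable {ζ : Kbˣ} (hζ : IsPrimitiveRoot ζ q)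

local notation "kB" => IsLocalRing.ResidueField B
local notation "FtM" => modularFunctionFieldFullC (IsLocalRing.ResidueField B) M

/-- (shortcut instances) -/
local instance (priority := 100000) instAlgebraFtMShortcutFin :
    Algebra (IsLocalRing.ResidueField B)
      (modularFunctionFieldFullC (IsLocalRing.ResidueField B) M) :=
  inferInstance
local instance (priority := 100000) instAlgKFMidFin :
    Algebra (IsLocalRing.ResidueField B) (FMid M B) := inferInstance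
local instance (priority := 100000) instAlgFtFMidFin :
    Algebra (modularFunctionFieldFullC (IsLocalRing.ResidueField B) M) (FMid M B) := inferInstance
local instance (priority := 100000) instTowerMidFin :
    IsScalarTower (IsLocalRing.ResidueField B)
      (modularFunctionFieldFullC (IsLocalRing.ResidueField B) M) (FMid M B) :=
  inferInstance
local instance (priority := 100000) instFieldFtAllFin {FZ : SSpM B hB hqM → Type}
    [∀ e, Field (FZ e)] (v : Comp (MidM B hB hqM hζ) (SSpM B hB hqM)) :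
    Field (FtAll B hB hqM hζ FZ v) := instFieldFtOf v
local instance (priority := 100000) instAlgFtAllFin {FZ : SSpM B hB hqM → Type}
    [∀ e, Field (FZ e)] [∀ e, Algebra (IsLocalRing.ResidueField B) (FZ e)]
    (v : Comp (MidM B hB hqM hζ) (SSpM B hB hqM)) :
    Algebra (IsLocalRing.ResidueField B) (FtAll B hB hqM hζ FZ v) := instAlgebraFtOf v

variable (h2 : nuTwo M = 0) (h3 : nuThree M = 0)

/-- **The binder `smZe`** of `modelAt_of_raw_thick` for `smTube := smTubeM … midTube (TZM …)`. -/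
def smZeF
    (midTube : MidM B hB hqM hζ → Place (ResidueField B) (FMid M B) →
      Set (Place Kb (Fb (M * q * q)))) :
    ∀ (e : SSpM B hB hqM)
      (Q : Place (ResidueField B) (FtAll B hB hqM hζ (FZM B hB hqM h2 h3) (ze e))),
    Q ≠ zWM B hB hqM h2 h3 e → Q ≠ zTM B hB hqM h2 h3 e → (∀ s, Q ≠ zKM B hB hqM h2 h3 e s) →
    SmoothChart B (CAll B hB hqM hζ (CZM B hB hqM h2 h3) (ze e)).O
      (CAll B hB hqM hζ (CZM B hB hqM h2 h3) (ze e)).res Q
      (smTubeM B hB hqM hζ midTube (TZM B hB hqM h2 h3) ⟨ze e, Q⟩) :=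
  fun e Q hW hT hK => smZeM B hB hqM h2 h3 e Q hW hT hK

variable
  (comp : SSpM B hB hqM → (KPq q) → MidM B hB hqM hζ) (comp_surj : ∀ i, ∃ e s, comp e s = i)
  (pMid : ∀ e s, Place (ResidueField B) (FtAll B hB hqM hζ (FZM B hB hqM h2 h3) (mid (comp e s))))
  (pMid_injective : ∀ e s e' s', (⟨mid (comp e s), pMid e s⟩ :
    Σ v, Place (ResidueField B) (FtAll B hB hqM hζ (FZM B hB hqM h2 h3) v)) = ⟨mid (comp e' s'), pMid e' s'⟩ →
      e = e' ∧ s = s')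
  (tubeT : SSpM B hB hqM → Set (Place Kb (Fb (M * q * q))))
  (tubeK : SSpM B hB hqM → KPq q → Set (Place Kb (Fb (M * q * q))))
  (tubeW : SSpM B hB hqM → Set (Place Kb (Fb (M * q * q))))
  (midTube : MidM B hB hqM hζ → Place (ResidueField B) (FMid M B) →
    Set (Place Kb (Fb (M * q * q))))
  (cover : ∀ P, ∃ y, P ∈ tubeS comp (pInfM B hB hqM) pMid (zWM B hB hqM h2 h3) (pZeroM B hB hqM) (zTM B hB hqM h2 h3) (zKM B hB hqM h2 h3) (nodeTubeM B hB hqM tubeT tubeK tubeW)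
    (smTubeM B hB hqM hζ midTube (TZM B hB hqM h2 h3)) y)
  (disjoint : ∀ P y y',
    P ∈ tubeS comp (pInfM B hB hqM) pMid (zWM B hB hqM h2 h3) (pZeroM B hB hqM) (zTM B hB hqM h2 h3) (zKM B hB hqM h2 h3) (nodeTubeM B hB hqM tubeT tubeK tubeW) (smTubeM B hB hqM hζ midTube (TZM B hB hqM h2 h3)) y →
    P ∈ tubeS comp (pInfM B hB hqM) pMid (zWM B hB hqM h2 h3) (pZeroM B hB hqM) (zTM B hB hqM h2 h3) (zKM B hB hqM h2 h3) (nodeTubeM B hB hqM tubeT tubeK tubeW) (smTubeM B hB hqM hζ midTube (TZM B hB hqM h2 h3)) y' → y = y')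
  (smMid : ∀ (i : MidM B hB hqM hζ) (Q : Place (ResidueField B) (FtAll B hB hqM hζ (FZM B hB hqM h2 h3) (mid i))),
    (∀ e s, (⟨mid i, Q⟩ : Σ v, Place (ResidueField B) (FtAll B hB hqM hζ (FZM B hB hqM h2 h3) v)) ≠
      ⟨mid (comp e s), pMid e s⟩) →
    SmoothChart B (CAll B hB hqM hζ (CZM B hB hqM h2 h3) (mid i)).O (CAll B hB hqM hζ (CZM B hB hqM h2 h3) (mid i)).res Q
      ((smTubeM B hB hqM hζ midTube (TZM B hB hqM h2 h3)) ⟨mid i, Q⟩))
  (chT : ∀ e, NodeChart B (CAll B hB hqM hζ (CZM B hB hqM h2 h3) cInf).O (CAll B hB hqM hζ (CZM B hB hqM h2 h3) (ze e)).O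
    (CAll B hB hqM hζ (CZM B hB hqM h2 h3) cInf).res (CAll B hB hqM hζ (CZM B hB hqM h2 h3) (ze e)).res (pInfM B hB hqM e) ((zTM B hB hqM h2 h3) e)
    ((nodeTubeM B hB hqM tubeT tubeK tubeW) (nT e)))
  (chK : ∀ e s, NodeChart B (CAll B hB hqM hζ (CZM B hB hqM h2 h3) (mid (comp e s))).O
    (CAll B hB hqM hζ (CZM B hB hqM h2 h3) (ze e)).O (CAll B hB hqM hζ (CZM B hB hqM h2 h3) (mid (comp e s))).res
    (CAll B hB hqM hζ (CZM B hB hqM h2 h3) (ze e)).res (pMid e s) ((zKM B hB hqM h2 h3) e s) ((nodeTubeM B hB hqM tubeT tubeK tubeW) (nk e s)))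
  (chW : ∀ e, NodeChart B (CAll B hB hqM hζ (CZM B hB hqM h2 h3) (ze e)).O (CAll B hB hqM hζ (CZM B hB hqM h2 h3) SDD.cZero).O
    (CAll B hB hqM hζ (CZM B hB hqM h2 h3) (ze e)).res (CAll B hB hqM hζ (CZM B hB hqM h2 h3) SDD.cZero).res ((zWM B hB hqM h2 h3) e)
    (pZeroM B hB hqM e) ((nodeTubeM B hB hqM tubeT tubeK tubeW) (nW e)))

/-- the abbreviation of `XRaw` at the frame of the final call -/
local notation "XR" =>
  XRaw B hB hqM hζ h2 h3 (CZM B hB hqM h2 h3) (hZcM B hB hqM h2 h3) comp comp_surj pMid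
    (zTM B hB hqM h2 h3) (zKM B hB hqM h2 h3) (zWM B hB hqM h2 h3) pMid_injective
    (zKM_injective B hB hqM h2 h3) (zTM_ne_zKM B hB hqM h2 h3) (zWM_ne_zTM B hB hqM h2 h3)
    (zWM_ne_zKM B hB hqM h2 h3) (nodeTubeM B hB hqM tubeT tubeK tubeW)
    (smTubeM B hB hqM hζ midTube (TZM B hB hqM h2 h3)) cover disjoint
    (smInfM B hB hqM hζ (CZM B hB hqM h2 h3) midTube (TZM B hB hqM h2 h3))
    (smZeroM B hB hqM hζ (CZM B hB hqM h2 h3) midTube (TZM B hB hqM h2 h3)) smMid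
    (smZeF B hB hqM hζ h2 h3 midTube) chT chK chW

variable {ιT : SSpM B hB hqM → Type} {ιK : SSpM B hB hqM → (KPq q) → Type}
  {ιW : SSpM B hB hqM → Type}
  (LT : ∀ e, AnnulusLevels B ((nodeTubeM B hB hqM tubeT tubeK tubeW) (nT e)) (ιT e))
  (LK : ∀ e s, AnnulusLevels B ((nodeTubeM B hB hqM tubeT tubeK tubeW) (nk e s)) (ιK e s))
  (LW : ∀ e, AnnulusLevels B ((nodeTubeM B hB hqM tubeT tubeK tubeW) (nW e)) (ιW e))
  (T₁ : ∀ e, BranchComp (residue B) (CAll B hB hqM hζ (CZM B hB hqM h2 h3) cInf).O (CAll B hB hqM hζ (CZM B hB hqM h2 h3) cInf).res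
    (pInfM B hB hqM e) (LT e))
  (T₂ : ∀ e, BranchComp (residue B) (CAll B hB hqM hζ (CZM B hB hqM h2 h3) (ze e)).O
    (CAll B hB hqM hζ (CZM B hB hqM h2 h3) (ze e)).res ((zTM B hB hqM h2 h3) e) (LT e))
  (K₁ : ∀ e s, BranchComp (residue B) (CAll B hB hqM hζ (CZM B hB hqM h2 h3) (mid (comp e s))).O
    (CAll B hB hqM hζ (CZM B hB hqM h2 h3) (mid (comp e s))).res (pMid e s) (LK e s))
  (K₂ : ∀ e s, BranchComp (residue B) (CAll B hB hqM hζ (CZM B hB hqM h2 h3) (ze e)).O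
    (CAll B hB hqM hζ (CZM B hB hqM h2 h3) (ze e)).res ((zKM B hB hqM h2 h3) e s) (LK e s))
  (W₁ : ∀ e, BranchComp (residue B) (CAll B hB hqM hζ (CZM B hB hqM h2 h3) (ze e)).O
    (CAll B hB hqM hζ (CZM B hB hqM h2 h3) (ze e)).res ((zWM B hB hqM h2 h3) e) (LW e))
  (W₂ : ∀ e, BranchComp (residue B) (CAll B hB hqM hζ (CZM B hB hqM h2 h3) SDD.cZero).O
    (CAll B hB hqM hζ (CZM B hB hqM h2 h3) SDD.cZero).res (pZeroM B hB hqM e) (LW e))
  (T_v_src : ∀ e, (LT e).v ∈ (CAll B hB hqM hζ (CZM B hB hqM h2 h3) cInf).O.nonunits)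
  (T_u_tgt : ∀ e, (LT e).u ∈ (CAll B hB hqM hζ (CZM B hB hqM h2 h3) (ze e)).O.nonunits)
  (K_v_src : ∀ e s, (LK e s).v ∈ (CAll B hB hqM hζ (CZM B hB hqM h2 h3) (mid (comp e s))).O.nonunits)
  (K_u_tgt : ∀ e s, (LK e s).u ∈ (CAll B hB hqM hζ (CZM B hB hqM h2 h3) (ze e)).O.nonunits)
  (W_v_src : ∀ e, (LW e).v ∈ (CAll B hB hqM hζ (CZM B hB hqM h2 h3) (ze e)).O.nonunits)
  (W_u_tgt : ∀ e, (LW e).u ∈ (CAll B hB hqM hζ (CZM B hB hqM h2 h3) SDD.cZero).O.nonunits)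
  (T_unif₁ : ∀ e, ∃ i, ∃ t : ((LT e).level i).R,
    (pInfM B hB hqM e).ord ((CAll B hB hqM hζ (CZM B hB hqM h2 h3) cInf).res ⟨t, (T₁ e).le i t t.2⟩) = 1)
  (T_unif₂ : ∀ e, ∃ i, ∃ t : ((LT e).level i).R,
    ((zTM B hB hqM h2 h3) e).ord ((CAll B hB hqM hζ (CZM B hB hqM h2 h3) (ze e)).res ⟨t, (T₂ e).le i t t.2⟩) = 1)
  (K_unif₁ : ∀ e s, ∃ i, ∃ t : ((LK e s).level i).R,
    (pMid e s).ord ((CAll B hB hqM hζ (CZM B hB hqM h2 h3) (mid (comp e s))).res ⟨t, (K₁ e s).le i t t.2⟩) = 1)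
  (K_unif₂ : ∀ e s, ∃ i, ∃ t : ((LK e s).level i).R,
    ((zKM B hB hqM h2 h3) e s).ord ((CAll B hB hqM hζ (CZM B hB hqM h2 h3) (ze e)).res ⟨t, (K₂ e s).le i t t.2⟩) = 1)
  (W_unif₁ : ∀ e, ∃ i, ∃ t : ((LW e).level i).R,
    ((zWM B hB hqM h2 h3) e).ord ((CAll B hB hqM hζ (CZM B hB hqM h2 h3) (ze e)).res ⟨t, (W₁ e).le i t t.2⟩) = 1)
  (W_unif₂ : ∀ e, ∃ i, ∃ t : ((LW e).level i).R,
    (pZeroM B hB hqM e).ord ((CAll B hB hqM hζ (CZM B hB hqM h2 h3) SDD.cZero).res ⟨t, (W₂ e).le i t t.2⟩) = 1)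

include T₁ T₂ K₁ K₂ W₁ W₂ T_v_src T_u_tgt K_v_src K_u_tgt W_v_src W_u_tgt T_unif₁ T_unif₂ K_unif₁
  K_unif₂ W_unif₁ W_unif₂ in
/-- **`S36Plug.ModelAt` at the frame of the final call**: the group (Z) of the vertical components,
the horizontal charts and the thickness at the wild nodes are plugged. -/
theorem modelAt_final_Z [Fintype (SSpM B hB hqM)]
    (sep_comp : ∀ x w, w ≠ (XR).toInput.setup.src x → w ≠ (XR).toInput.setup.tgt x →
      SepComp (XR).toInput.setup x w)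
    (sep : ∀ x x', x ≠ x' → Separated (XR).toInput.setup x x')
    (lam : ℕ) (hlam : lam.Prime) (hqlam : q ≠ lam)
    -- (G7)
    (hsurj : ∀ e i, ∃ s, comp e s = i)
    (dM : MidM B hB hqM hζ → ℤ) (hdM : ∑ i, dM i = (q : ℤ) - 1)
    (hRH : ∀ i, dM i * (2 * (genusFF Qb (Fb M) : ℤ) - 2) +
        (Fintype.card (SSpM B hB hqM) : ℤ) * (dM i - 1) ≤
      2 * (genusFF (ResidueField B) (FMid M B) : ℤ) - 2)
    -- (G3)
    (κ₀ : SSpM B hB hqM → (KPq q) → Qb)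
    (hT : ∀ e, (LT e).thick = gaugeA q B hB hqM e)
    (hW : ∀ e, (LW e).thick = (gaugeB q B hB hqM e)⁻¹ * thick (DtM B hB hqM) (Fr B hB hqM e))
    (hκ : ∀ e s, B.valuation (κ₀ e s) = 1)
    (hK : ∀ e s, gaugeA q B hB hqM e = κ₀ e s * (LK e s).thick ^ midDeg q)
    -- (G4)
    (hrest : ∀ s ∈ B.inertiaSubgroupIn ℚ, s (unifSDD q) = unifSDD q →
      (∀ a ∈ cycloField Qb q, s a = a) → (∀ ζ' : Qb, ζ' ^ q = 1 → s ζ' = ζ') →
      (∀ e, ActsTrivially ((CZM B hB hqM h2 h3) e).O (galAut (M * q * q) s)) ∧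
      (∀ x, ∀ P ∈ (nodeTubeM B hB hqM tubeT tubeK tubeW) x, galAut (M * q * q) s • P ∈ (nodeTubeM B hB hqM tubeT tubeK tubeW) x) ∧
      (∀ y, ∀ P ∈ (smTubeM B hB hqM hζ midTube (TZM B hB hqM h2 h3)) y, galAut (M * q * q) s • P ∈ (smTubeM B hB hqM hζ midTube (TZM B hB hqM h2 h3)) y) ∧
      (∀ e, galAut (M * q * q) s • (LT e).u = (LT e).u) ∧
      (∀ e t, galAut (M * q * q) s • (LK e t).u = (LK e t).u) ∧
      ∀ e, galAut (M * q * q) s • (LW e).u = (LW e).u)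
    -- (G5)
    (e₂ : ℕ) (he₂ : e₂ ≠ 0)
    (hvert : ∀ e : SSpM B hB hqM, ∃ s ∈ B.inertiaSubgroupIn ℚ,
      ∃ a : (FZM B hB hqM h2 h3) e ≃ₐ[ResidueField B] (FZM B hB hqM h2 h3) e,
        MapsComp (XR).toInput.setup (galAut (M * q * q) s) (ze e) (ze e) a ∧
        ∀ x : Pic0 (ResidueField B) ((FZM B hB hqM h2 h3) e), SemilinearAut.ofAlgAut a • x = x → e₂ • x = 0)
    -- (G6)
    (ht : S36Plug.TameProp M q lam B (XR).toInput) : S36Plug.ModelAt M q lam B :=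
  modelAt_of_raw_thick B hB hqM hζ h2 h3 (CZM B hB hqM h2 h3) (hZcM B hB hqM h2 h3) comp comp_surj
    pMid (zTM B hB hqM h2 h3) (zKM B hB hqM h2 h3) (zWM B hB hqM h2 h3) pMid_injective
    (zKM_injective B hB hqM h2 h3) (zTM_ne_zKM B hB hqM h2 h3) (zWM_ne_zTM B hB hqM h2 h3)
    (zWM_ne_zKM B hB hqM h2 h3) (nodeTubeM B hB hqM tubeT tubeK tubeW)
    (smTubeM B hB hqM hζ midTube (TZM B hB hqM h2 h3)) cover disjoint
    (smInfM B hB hqM hζ (CZM B hB hqM h2 h3) midTube (TZM B hB hqM h2 h3))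
    (smZeroM B hB hqM hζ (CZM B hB hqM h2 h3) midTube (TZM B hB hqM h2 h3)) smMid
    (smZeF B hB hqM hζ h2 h3 midTube) chT chK chW
    LT LK LW T₁ T₂ K₁ K₂ W₁ W₂ T_v_src T_u_tgt K_v_src K_u_tgt W_v_src W_u_tgt T_unif₁ T_unif₂
    K_unif₁ K_unif₂ W_unif₁ W_unif₂ sep_comp sep lam hlam hqlam (zePts_hZ B hB hqM h2 h3)
    (zePts_hze B hB hqM h2 h3) hsurj dM hdM hRH (zePts_hz (q := q)) (zePts_hd (q := q)) κ₀
    (fun e => thick (DtM B hB hqM) (Fr B hB hqM e))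
    (fun e => valuation_thick_DtM B hB hqM h2 h3 (Fr B hB hqM e)) hT hW hκ hK hrest e₂ he₂ hvert ht

end Fermat.Agent.BR3.SDD.ModularFinal
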