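import Fermat.Agent.BR3.SDD.ModularRawW
import Fermat.Agent.BR3.SDD.PartitionModPts
import Fermat.Agent.BR3.MidKummerPlaces

/-!
# Program C (S36), node I7 (integrator), part 18: the (G7) binders `dM`, `hdM`, `hRH` at the frame

For the final call of `SDD.Modular.modelAt_of_raw_thick`:

* `hcopM B hB hqM h2 h3` : the coprimality `(ord_{z₁ e} δ, fMid) = 1` at every supersingular point
  (the argument `hcop` of `pMidM`, `MidFamily.pMid`);
* `dMM_G7 := fun _ => (fMid M B hB : ℤ)`, `hdM_G7` : `∑ i, dM i = q - 1`,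
  `hRH_G7` : the Riemann–Hurwitz inequality of the middle components, in the LITERAL shapes of the
  binders `dM`, `hdM`, `hRH` of `modelAt_of_raw(_thick)`;
* `thickWFr`, `hthickWFr` : the thickness family `e ↦ thick (DtM …) (Fr e)` at the wild nodes and
  its absolute value (the binders `thickW`, `hthickW` of `modelAt_of_raw_thick`).
-/

set_option autoImplicit false
set_option linter.style.haveILetI false
set_option linter.unusedSectionVars false
set_option linter.unusedVariables false
set_option synthInstance.maxHeartbeats 400000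

open ModularCurve AlgebraicCurve

noncomputable section

namespace Fermat.Agent.BR3.SDD.Modular

open IsLocalRing Fermat.Agent.X0 Fermat.Agent.Red Fermat.Agent.Val
  Fermat.Agent.BR.SS Fermat.Agent.BR.S0 Fermat.Agent.BR.S0.PointDict
  Fermat.Agent.BR.S0.RedModular Fermat.Agent.BR2.SetupOfData Fermat.Agent.BR3.FibreProd
  Fermat.Agent.BR3.SRef.Modular Fermat.Agent.BR3.KummerGenus
  Fermat.Agent.BR3.KummerGenus.MidInst Fermat.Agent.BR3.VertBetaFr

local notation "Qb" => AlgebraicClosure ℚ

variable {M q : ℕ} [NeZero M] [hq : Fact q.Prime] [NeZero q]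
variable (B : ValuationSubring (AlgebraicClosure ℚ)) (hB : B.LiesOverPrime q) (hqM : ¬ q ∣ M)
variable [IsAlgClosed (ResidueField B)]
variable {ζ : Kbˣ} (hζ : IsPrimitiveRoot ζ q)

/-- (shortcut instances) -/
local instance (priority := 100000) instAlgebraFtMShortcutG7 :
    Algebra (IsLocalRing.ResidueField B)
      (modularFunctionFieldFullC (IsLocalRing.ResidueField B) M) :=
  inferInstance
local instance (priority := 100000) instAlgKFMidG7 :
    Algebra (IsLocalRing.ResidueField B) (FMid M B) := inferInstance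

/-- **`hcop`**: `(ord_{z₁ e} δ, fMid) = 1` at every supersingular point. -/
theorem hcopM (h2 : nuTwo M = 0) (h3 : nuThree M = 0) (e : SSpM B hB hqM) :
    IsCoprime ((z₁ (chartDataModular B hB hqM) e).ord (deltaMid B hB hqM)) (fMid M B hB : ℤ) := by
  haveI := Fermat.Agent.Val.charP_residueField_of_liesOverPrime B hB
  exact Fermat.Agent.BR3.MidKummerPlaces.isCoprime_ord_deltaMid_z₁ B hB hqM e h2 h3

/-- **`dM`** of `modelAt_of_raw(_thick)`: the degree of every middle component over `F̃_M`. -/
def dMM_G7 (_i : MidM B hB hqM hζ) : ℤ := (fMid M B hB : ℤ)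

/-- **`hdM`** of `modelAt_of_raw(_thick)`. -/
theorem hdM_G7 : ∑ i, dMM_G7 B hB hqM hζ i = (q : ℤ) - 1 :=
  MidFamily.hd_mid B hB hqM hζ

/-- **`hRH`** of `modelAt_of_raw(_thick)`. -/
theorem hRH_G7 [Fintype (SSpM B hB hqM)] (h2 : nuTwo M = 0) (h3 : nuThree M = 0)
    (i : MidM B hB hqM hζ) :
    dMM_G7 B hB hqM hζ i * (2 * (genusFF Qb (Fb M) : ℤ) - 2) +
        (Fintype.card (SSpM B hB hqM) : ℤ) * (dMM_G7 B hB hqM hζ i - 1) ≤
      2 * (genusFF (ResidueField B) (FMid M B) : ℤ) - 2 :=
  MidFamily.hRH_mid B hB hqM (z₁ (chartDataModular B hB hqM)) (hcopM B hB hqM h2 h3)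
    (Fermat.Agent.BR3.ThickOneCount.z₁_injective B hB hqM h2 h3)

/-- **`thickW`** of `modelAt_of_raw_thick`: the thickness of the swapped crossing. -/
def thickWFr (e : SSpM B hB hqM) : Qb := thick (DtM B hB hqM) (Fr B hB hqM e)

/-- **`hthickW`** of `modelAt_of_raw_thick`. -/
theorem hthickWFr (h2 : nuTwo M = 0) (h3 : nuThree M = 0) (e : SSpM B hB hqM) :
    B.valuation (thickWFr B hB hqM e) = B.valuation (q : Qb) :=
  valuation_thick_DtM B hB hqM h2 h3 (Fr B hB hqM e)

end Fermat.Agent.BR3.SDD.Modular
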