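import Mathlib
import Fermat.Agent.BR3.SDD.ModularNodeT
import Fermat.Agent.BR3.SDD.ModularNodeTEquiv
import Fermat.Agent.BR3.SDD.ModularZePts
import Fermat.Agent.BR3.SDD.PartitionModPts
import Fermat.Agent.BR3.SplitNodeTwoClauses
import Fermat.Agent.BR3.MidKummerPlaces
import Fermat.Agent.BR3.EquivTubesNode

/-!
# Program C (S36), node (N2-MERGE): the family of the Kummer nodes `nk e s` of `S''`, ALL primes `q`

For `KP := VertPtsU.KPq q`, helper5's `zePackM`, `FZ := FZM …`, `CZ := CZM …`, `zK := zKM …`,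
`pMid := pMidM … comp (hcopM …) (FZM …)` and an ARBITRARY `comp : SSpM → KPq q → MidM`:

* `tubeKM … tubeKodd e s` : the raw tube of `nk e s`, uniformly in `q`
  (`q = 2` : helper12's `SplitNodeTwoClauses.tubeK2`, the second split sheet `W ≡ 0` over the
  outer node of `S'ref_a`; `q ≠ 2` : the parameter `tubeKodd e s`, e.g. helper7's `kumTube e s`);
* `NodeKOdd … comp tubeKodd` : the ONE named hypothesis at `q ≠ 2`, in `SplitNode.NodeOut` shape
  (bundle + `(G3)` clause `gaugeA e = κ * thick ^ midDeg q`, `|κ| = 1` + `(G4)` clause on `L.u`);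
* `exists_nodeKM` : the merge by `q = 2 ∨ q ≠ 2` at `Prop` level; `ιKM`, `nodeKM`, `κ₀M`, `LKM`;
* the binders of `SDD.Modular.modelAt_of_raw` for the nodes `nk e s` in their literal shapes:
  `K₁M K₂M K_v_srcM K_u_tgtM K_unif₁M K_unif₂M chKM`, `(G3)` `hκM hKM`, `(G4)` `smul_LKM_u`;
* the merged tube clauses: `tube_a_nkM` (`subK`), `tube_b_nkM`, `dTK_M`, `dKK_M`, `annSheetKM`
  (`XK`, degree `midDeg q`), `sum_midDeg` (`hd` of `hOuter_modular`), `smul_mem_tubeKM`
  (rich elements and the tame generator).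
-/

set_option autoImplicit false
set_option linter.unusedSectionVars false
set_option linter.unusedVariables false
set_option linter.style.haveILetI false
set_option synthInstance.maxHeartbeats 400000

noncomputable section

/- S36 build-time patch: file-local shortcut instances. They only shorten instance search;
each is the instance that the search finds anyway (reducible, same terms after unfolding). -/
local instance (priority := 100000) Fermat.Agent.BR3.FastInst.instAlgFullC_SDD_ModularNodeK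
    {k : Type*} [Field k] (N : ℕ) :
    Algebra k ↥(ModularCurve.modularFunctionFieldFullC k N) := inferInstance
local instance (priority := 100000) Fermat.Agent.BR3.FastInst.instFieldFullC_SDD_ModularNodeK
    {k : Type*} [Field k] (N : ℕ) :
    Field ↥(ModularCurve.modularFunctionFieldFullC k N) := inferInstance
local instance (priority := 100000) Fermat.Agent.BR3.FastInst.instAlgLaurent_SDD_ModularNodeK
    {k : Type*} [Field k] : Algebra k (LaurentSeries k) := inferInstance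


namespace Fermat.Agent.BR3.SDD.ModularNodeK

open ModularCurve AlgebraicCurve IsLocalRing Polynomial
open Fermat.Agent.Red Fermat.Agent.Val Fermat.Agent.X0 Fermat.Agent.Hecke Fermat.Agent.Jac
open Fermat.Agent.BR.SS Fermat.Agent.BR.Refine Fermat.Agent.BR.TwoVal Fermat.Agent.BR.TwoValInst
open Fermat.Agent.BR.Circle Fermat.Agent.BR.S0 Fermat.Agent.BR.S0.PointDict Fermat.Agent.BR.P1
open Fermat.Agent.BR.S0.RedModular Fermat.Agent.BR.Final Fermat.Agent.BR.Inst.AnnulusInstFinal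
open Fermat.Agent.BR.InertiaRed Fermat.Agent.BR.ValTwo Fermat.Agent.BR.UnramCyclo
open Fermat.Agent.BR2.SetupOfData Fermat.Agent.BR3.CircleN Fermat.Agent.BR3.SRef
open Fermat.Agent.BR3.SRef.Modular Fermat.Agent.BR3.SubAnnChart Fermat.Agent.BR3.SDD.Modular
open Fermat.Agent.BR3.SplitLevels Fermat.Agent.BR3.SplitBranch Fermat.Agent.BR3.CoverSmooth
open Fermat.Agent.BR3.FibreProd Fermat.Agent.BR3.HeckePoly Fermat.Agent.BR3.SSParam
open Fermat.Agent.BR3.VertResidue Fermat.Agent.BR3.VertSheet Fermat.Agent.BR3.VertPtsDef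
open Fermat.Agent.BR3.SplitCompsCInf Fermat.Agent.BR3.CInfRes Fermat.Agent.BR3.SplitNode
open Fermat.Agent.BR3.VertBetaFr Fermat.Agent.BR3.VertPtsU Fermat.Agent.BR3.IgSq
open Fermat.Agent.BR3.KummerGenus Fermat.Agent.BR3.KummerGenus.MidInst
open Fermat.Agent.BR3.EquivSRefModular Fermat.Agent.BR3.EquivTubes Fermat.Agent.BR3.VertEquivUg
open Fermat.Agent.BR3.VertEquivMod Fermat.Agent.BR3.ThickSDDPlug
open Fermat.Agent.BR3.SplitNodeTwoMod Fermat.Agent.BR3.SplitNodeTwoClauses
open Fermat.Agent.BR3.MidKummerPlaces Fermat.Agent.BR3.SDD.Partition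

local notation "Kb" => AlgebraicClosure ℚ

variable {M q : ℕ} [NeZero M] [hq : Fact q.Prime] [NeZero q]
variable (B : ValuationSubring (AlgebraicClosure ℚ)) (hB : B.LiesOverPrime q) (hqM : ¬ q ∣ M)
variable [IsAlgClosed (ResidueField B)] [CharP (ResidueField B) q]
  [PerfectField (ResidueField B)]
variable {ζ : Kbˣ} (hζ : IsPrimitiveRoot ζ q)

local notation "kB" => IsLocalRing.ResidueField B
local notation "FtM" => modularFunctionFieldFullC (IsLocalRing.ResidueField B) M

/-- (shortcut instance) -/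
local instance (priority := 100000) instAlgebraFtMShortcutNodeK :
    Algebra (IsLocalRing.ResidueField B)
      (modularFunctionFieldFullC (IsLocalRing.ResidueField B) M) :=
  inferInstance

/-- (shortcut instance) -/
local instance (priority := 100000) instAlgebraFMidShortcutNodeK :
    Algebra (IsLocalRing.ResidueField B) (FMid M B) :=
  inferInstance

/-- (shortcut instance) -/
local instance (priority := 100000) instAlgFtFMidNodeK :
    Algebra (modularFunctionFieldFullC (IsLocalRing.ResidueField B) M) (FMid M B) := inferInstance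

/-- (shortcut instance) -/
local instance (priority := 100000) instTowerMidNodeK :
    IsScalarTower (IsLocalRing.ResidueField B)
      (modularFunctionFieldFullC (IsLocalRing.ResidueField B) M) (FMid M B) :=
  inferInstance

variable (h2 : nuTwo M = 0) (h3 : nuThree M = 0)

/-! ### the frame: `hcop`, the Kummer place, the tube at `q = 2` -/

include h2 h3 in
/-- **`hcop`** : `(ord_{z₁ e} δ, fMid) = 1` at every crossing. -/
theorem hcopM (e : SSpM B hB hqM) :
    IsCoprime ((z₁ (chartDataModular B hB hqM) e).ord (deltaMid B hB hqM)) (fMid M B hB : ℤ) :=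
  isCoprime_ord_deltaMid_z₁ B hB hqM e h2 h3

/-- THE place of the middle components over `z₁ e` (`= pMidM … comp (hcopM …) FZ e s` for every
`comp`, `FZ`, `s`, by `rfl`). -/
def pMidK (e : SSpM B hB hqM) : Place kB (FMid M B) :=
  pMidOver B hB hqM (z₁ (chartDataModular B hB hqM) e) (hcopM B hB hqM h2 h3 e)

/-- **The raw tube of the Kummer node at `q = 2`** (helper12's `tubeK2` at the chain of
`zePackM`): the sheet `W ≡ 0` over the outer node of `S'ref_a` at `e`. -/
def tubeK2M (e : SSpM B hB hqM) : Set (Place Kb (Fb (M * q * q))) :=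
  tubeK2 B hB hqM h2 h3 e (zePackM B hB hqM h2 h3 e).g (zePackM B hB hqM h2 h3 e).g'

variable (comp : SSpM B hB hqM → KPq q → MidM B hB hqM hζ)
  (tubeKodd : SSpM B hB hqM → KPq q → Set (Place Kb (Fb (M * q * q))))

/-- **The raw tube of the Kummer node `nk e s`**, uniformly in `q`. -/
def tubeKM (e : SSpM B hB hqM) (s : KPq q) : Set (Place Kb (Fb (M * q * q))) :=
  if q = 2 then tubeK2M B hB hqM h2 h3 e else tubeKodd e s

theorem tubeKM_of_two (hq2 : q = 2) (e : SSpM B hB hqM) (s : KPq q) :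
    tubeKM B hB hqM h2 h3 tubeKodd e s = tubeK2M B hB hqM h2 h3 e := if_pos hq2

theorem tubeKM_of_ne_two (hq2 : q ≠ 2) (e : SSpM B hB hqM) (s : KPq q) :
    tubeKM B hB hqM h2 h3 tubeKodd e s = tubeKodd e s := if_neg hq2

/-! ### the package of one node -/

/-- **The package of the Kummer node `nk e s` on a raw tube `T`**: a bundle `SplitNode.NodeOut`
(the middle component `comp e s` at its place over `z₁ e` —— `z e` at `zKM e s`), the clause
`(G3)` (`gaugeA e = κ * thick ^ midDeg q`, `|κ| = 1`) and the clause `(G4)` on the coordinate. -/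
def NodePkg (e : SSpM B hB hqM) (s : KPq q) (T : Set (Place Kb (Fb (M * q * q)))) : Prop :=
  ∃ (ι : Type)
    (N : NodeOut B (residue B) (CM B hB hqM hζ (comp e s)).O (CM B hB hqM hζ (comp e s)).res
      (pMidK B hB hqM h2 h3 e) (zePackM B hB hqM h2 h3 e).Z (zePackM B hB hqM h2 h3 e).resZ
      (zKM B hB hqM h2 h3 e s) T ι) (κ : Kb),
    B.valuation κ = 1 ∧ gaugeA q B hB hqM e = κ * N.L.thick ^ midDeg q ∧
      ∀ σ ∈ B.inertiaSubgroupIn ℚ, σ (unifSDD q) = unifSDD q →
        (∀ a ∈ cycloField Kb q, σ a = a) → (∀ ζ' : Kb, ζ' ^ q = 1 → σ ζ' = ζ') →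
        galAut (M * q * q) σ • N.L.u = N.L.u

/-- **The named hypothesis at `q ≠ 2`**: the Kummer nodes on the tubes `tubeKodd e s`, in
`NodeOut` shape. -/
def NodeKOdd : Prop :=
  q ≠ 2 → ∀ (e : SSpM B hB hqM) (s : KPq q), NodePkg B hB hqM hζ h2 h3 comp e s (tubeKodd e s)

set_option maxHeartbeats 4000000 in
/-- **The data of the Kummer node at `q = 2`** (helper12's `nodeOutK2` at the chain of `zePackM`,
`b := (comp e s).rep`). -/
def nodeK2M (hq2 : q = 2) (e : SSpM B hB hqM) (s : KPq q) :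
    NodeOut B (residue B) (CM B hB hqM hζ (comp e s)).O (CM B hB hqM hζ (comp e s)).res
      (pMidK B hB hqM h2 h3 e) (zePackM B hB hqM h2 h3 e).Z (zePackM B hB hqM h2 h3 e).resZ
      (zKM B hB hqM h2 h3 e s) (tubeK2M B hB hqM h2 h3 e) (idxOutA B hB hqM h2 h3 e) :=
  nodeOutK2 B hB hqM h2 h3 e (zePackM B hB hqM h2 h3 e).P hζ
    ((comp e s).rep B hB hqM hζ).2 hq2
    (sheetHyp_levelsOutA_two B hB hqM h2 h3 e (zePackM B hB hqM h2 h3 e).P hq2)
    (hcopM B hB hqM h2 h3 e) (vertCompM B hB hqM h2 h3 e)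
    (zePackM B hB hqM h2 h3 e).hβ (zePackM B hB hqM h2 h3 e).hρ
    (zePackM B hB hqM h2 h3 e).hred
    (ord_U_ptKFam_pos q (zePackM B hB hqM h2 h3 e).hβ (zePackM B hB hqM h2 h3 e).hρ s)

set_option maxHeartbeats 4000000 in
/-- the coordinate of the levels of the Kummer node at `q = 2` is `α₂ u_e` -/
theorem nodeK2M_u (hq2 : q = 2) (e : SSpM B hB hqM) (s : KPq q) :
    (nodeK2M B hB hqM hζ h2 h3 comp hq2 e s).L.u =
      alpha2 M q (annulusCoord (DtM B hB hqM) e) :=
  nodeOutK2_u B hB hqM h2 h3 e (zePackM B hB hqM h2 h3 e).P hζ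
    ((comp e s).rep B hB hqM hζ).2 hq2
    (sheetHyp_levelsOutA_two B hB hqM h2 h3 e (zePackM B hB hqM h2 h3 e).P hq2)
    (hcopM B hB hqM h2 h3 e) (vertCompM B hB hqM h2 h3 e)
    (zePackM B hB hqM h2 h3 e).hβ (zePackM B hB hqM h2 h3 e).hρ
    (zePackM B hB hqM h2 h3 e).hred
    (ord_U_ptKFam_pos q (zePackM B hB hqM h2 h3 e).hβ (zePackM B hB hqM h2 h3 e).hρ s)

set_option maxHeartbeats 4000000 in
/-- the thickness of the levels of the Kummer node at `q = 2` is the gauge -/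
theorem nodeK2M_thick (hq2 : q = 2) (e : SSpM B hB hqM) (s : KPq q) :
    (nodeK2M B hB hqM hζ h2 h3 comp hq2 e s).L.thick = gaugeA q B hB hqM e :=
  nodeOutK2_thick B hB hqM h2 h3 e (zePackM B hB hqM h2 h3 e).P hζ
    ((comp e s).rep B hB hqM hζ).2 hq2
    (sheetHyp_levelsOutA_two B hB hqM h2 h3 e (zePackM B hB hqM h2 h3 e).P hq2)
    (hcopM B hB hqM h2 h3 e) (vertCompM B hB hqM h2 h3 e)
    (zePackM B hB hqM h2 h3 e).hβ (zePackM B hB hqM h2 h3 e).hρ
    (zePackM B hB hqM h2 h3 e).hred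
    (ord_U_ptKFam_pos q (zePackM B hB hqM h2 h3 e).hβ (zePackM B hB hqM h2 h3 e).hρ s)

/-- **The Kummer node at `q = 2`**, as a package (`κ = 1`). -/
theorem nodePkg_two (hq2 : q = 2) (e : SSpM B hB hqM) (s : KPq q) :
    NodePkg B hB hqM hζ h2 h3 comp e s (tubeK2M B hB hqM h2 h3 e) := by
  refine ⟨idxOutA B hB hqM h2 h3 e, nodeK2M B hB hqM hζ h2 h3 comp hq2 e s, 1, map_one _, ?_, ?_⟩
  · have hd : midDeg q = 1 := by
      rw [hq2]
      exact midDeg_two
    rw [nodeK2M_thick, one_mul, hd, pow_one]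
  · intro σ hσ _ _ _
    rw [nodeK2M_u, alpha2_galAut]
    exact congrArg (alpha2 M q) (annulusCoord_smul (DtM B hB hqM) hσ e)

/-! ### the merge -/

/-- **The Kummer node `nk e s`, every prime `q`**: `q = 2` from helper12's node, `q ≠ 2` from the
named hypothesis. -/
theorem exists_nodeKM (hodd : NodeKOdd B hB hqM hζ h2 h3 comp tubeKodd) (e : SSpM B hB hqM)
    (s : KPq q) :
    NodePkg B hB hqM hζ h2 h3 comp e s (tubeKM B hB hqM h2 h3 tubeKodd e s) := by
  rcases eq_or_ne q 2 with hq2 | hq2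
  · rw [tubeKM_of_two B hB hqM h2 h3 tubeKodd hq2]
    exact nodePkg_two B hB hqM hζ h2 h3 comp hq2 e s
  · rw [tubeKM_of_ne_two B hB hqM h2 h3 tubeKodd hq2]
    exact hodd hq2 e s

variable (hodd : NodeKOdd B hB hqM hζ h2 h3 comp tubeKodd)

/-- the index type of the levels of `nk e s` -/
def ιKM (e : SSpM B hB hqM) (s : KPq q) : Type :=
  Classical.choose (exists_nodeKM B hB hqM hζ h2 h3 comp tubeKodd hodd e s)

/-- **The data of the node `nk e s` of `S''`** for the chosen family. -/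
def nodeKM (e : SSpM B hB hqM) (s : KPq q) :
    NodeOut B (residue B) (CM B hB hqM hζ (comp e s)).O (CM B hB hqM hζ (comp e s)).res
      (pMidK B hB hqM h2 h3 e) (zePackM B hB hqM h2 h3 e).Z (zePackM B hB hqM h2 h3 e).resZ
      (zKM B hB hqM h2 h3 e s) (tubeKM B hB hqM h2 h3 tubeKodd e s)
      (ιKM B hB hqM hζ h2 h3 comp tubeKodd hodd e s) :=
  Classical.choose
    (Classical.choose_spec (exists_nodeKM B hB hqM hζ h2 h3 comp tubeKodd hodd e s))

/-- the constant `κ₀ e s` of `(G3)` -/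
def κ₀M (e : SSpM B hB hqM) (s : KPq q) : Kb :=
  Classical.choose (Classical.choose_spec
    (Classical.choose_spec (exists_nodeKM B hB hqM hζ h2 h3 comp tubeKodd hodd e s)))

/-- the levels of the node `nk e s` -/
def LKM (e : SSpM B hB hqM) (s : KPq q) :
    AnnulusLevels B (tubeKM B hB hqM h2 h3 tubeKodd e s)
      (ιKM B hB hqM hζ h2 h3 comp tubeKodd hodd e s) :=
  (nodeKM B hB hqM hζ h2 h3 comp tubeKodd hodd e s).L

/-- **(G3) `hκ`** -/
theorem hκM (e : SSpM B hB hqM) (s : KPq q) :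
    B.valuation (κ₀M B hB hqM hζ h2 h3 comp tubeKodd hodd e s) = 1 :=
  (Classical.choose_spec (Classical.choose_spec
    (Classical.choose_spec (exists_nodeKM B hB hqM hζ h2 h3 comp tubeKodd hodd e s)))).1

/-- **(G3) `hK`** -/
theorem hKM (e : SSpM B hB hqM) (s : KPq q) :
    gaugeA q B hB hqM e = κ₀M B hB hqM hζ h2 h3 comp tubeKodd hodd e s *
      (LKM B hB hqM hζ h2 h3 comp tubeKodd hodd e s).thick ^ midDeg q :=
  (Classical.choose_spec (Classical.choose_spec
    (Classical.choose_spec (exists_nodeKM B hB hqM hζ h2 h3 comp tubeKodd hodd e s)))).2.1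

/-- **(G4), coordinates**: the clause `galAut s • (LK e t).u = (LK e t).u` of `hrest`. -/
theorem smul_LKM_u {σ : GQ} (hσ : σ ∈ B.inertiaSubgroupIn ℚ) (h1 : σ (unifSDD q) = unifSDD q)
    (hc : ∀ a ∈ cycloField Kb q, σ a = a) (hr : ∀ ζ' : Kb, ζ' ^ q = 1 → σ ζ' = ζ')
    (e : SSpM B hB hqM) (s : KPq q) :
    galAut (M * q * q) σ • (LKM B hB hqM hζ h2 h3 comp tubeKodd hodd e s).u =
      (LKM B hB hqM hζ h2 h3 comp tubeKodd hodd e s).u :=
  (Classical.choose_spec (Classical.choose_spec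
    (Classical.choose_spec (exists_nodeKM B hB hqM hζ h2 h3 comp tubeKodd hodd e s)))).2.2
    σ hσ h1 hc hr

/-! ### the binders of `modelAt_of_raw` for the nodes `nk e s` -/

section Binders

set_option maxHeartbeats 4000000 in
/-- the Kummer places in the shape of the binder `pMid` -/
theorem pMidM_eq (e : SSpM B hB hqM) (s : KPq q) :
    pMidM B hB hqM hζ comp (hcopM B hB hqM h2 h3) (FZM B hB hqM h2 h3) e s =
      pMidK B hB hqM h2 h3 e := rfl

set_option maxHeartbeats 4000000 in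
/-- the binder `K₁` -/
theorem K₁M (e : SSpM B hB hqM) (s : KPq q) :
    BranchComp (residue B)
      (CAll B hB hqM hζ (CZM B hB hqM h2 h3) (mid (comp e s))).O
      (CAll B hB hqM hζ (CZM B hB hqM h2 h3) (mid (comp e s))).res
      (pMidM B hB hqM hζ comp (hcopM B hB hqM h2 h3) (FZM B hB hqM h2 h3) e s)
      (LKM B hB hqM hζ h2 h3 comp tubeKodd hodd e s) :=
  (nodeKM B hB hqM hζ h2 h3 comp tubeKodd hodd e s).X₁

set_option maxHeartbeats 4000000 in
/-- the binder `K₂` -/
theorem K₂M (e : SSpM B hB hqM) (s : KPq q) :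
    BranchComp (residue B)
      (CAll B hB hqM hζ (CZM B hB hqM h2 h3) (ze e)).O
      (CAll B hB hqM hζ (CZM B hB hqM h2 h3) (ze e)).res
      (zKM B hB hqM h2 h3 e s)
      (LKM B hB hqM hζ h2 h3 comp tubeKodd hodd e s) :=
  (nodeKM B hB hqM hζ h2 h3 comp tubeKodd hodd e s).X₂

set_option maxHeartbeats 4000000 in
/-- the binder `K_v_src` -/
theorem K_v_srcM (e : SSpM B hB hqM) (s : KPq q) :
    (LKM B hB hqM hζ h2 h3 comp tubeKodd hodd e s).v ∈
      (CAll B hB hqM hζ (CZM B hB hqM h2 h3) (mid (comp e s))).O.nonunits :=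
  (nodeKM B hB hqM hζ h2 h3 comp tubeKodd hodd e s).v_src

set_option maxHeartbeats 4000000 in
/-- the binder `K_u_tgt` -/
theorem K_u_tgtM (e : SSpM B hB hqM) (s : KPq q) :
    (LKM B hB hqM hζ h2 h3 comp tubeKodd hodd e s).u ∈
      (CAll B hB hqM hζ (CZM B hB hqM h2 h3) (ze e)).O.nonunits :=
  (nodeKM B hB hqM hζ h2 h3 comp tubeKodd hodd e s).u_tgt

set_option maxHeartbeats 4000000 in
/-- the binder `K_unif₁` -/
theorem K_unif₁M (e : SSpM B hB hqM) (s : KPq q) :
    ∃ i, ∃ t : ((LKM B hB hqM hζ h2 h3 comp tubeKodd hodd e s).level i).R,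
      (pMidM B hB hqM hζ comp (hcopM B hB hqM h2 h3) (FZM B hB hqM h2 h3) e s).ord
        ((CAll B hB hqM hζ (CZM B hB hqM h2 h3) (mid (comp e s))).res
          ⟨t, (K₁M B hB hqM hζ h2 h3 comp tubeKodd hodd e s).le i t t.2⟩) = 1 :=
  (nodeKM B hB hqM hζ h2 h3 comp tubeKodd hodd e s).unif₁

set_option maxHeartbeats 4000000 in
/-- the binder `K_unif₂` -/
theorem K_unif₂M (e : SSpM B hB hqM) (s : KPq q) :
    ∃ i, ∃ t : ((LKM B hB hqM hζ h2 h3 comp tubeKodd hodd e s).level i).R,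
      (zKM B hB hqM h2 h3 e s).ord
        ((CAll B hB hqM hζ (CZM B hB hqM h2 h3) (ze e)).res
          ⟨t, (K₂M B hB hqM hζ h2 h3 comp tubeKodd hodd e s).le i t t.2⟩) = 1 :=
  (nodeKM B hB hqM hζ h2 h3 comp tubeKodd hodd e s).unif₂

set_option maxHeartbeats 4000000 in
/-- the binder `chK` (against `nodeTube (nk e s) := tubeKM … e s`) -/
def chKM (e : SSpM B hB hqM) (s : KPq q) :
    NodeChart B (CAll B hB hqM hζ (CZM B hB hqM h2 h3) (mid (comp e s))).O
      (CAll B hB hqM hζ (CZM B hB hqM h2 h3) (ze e)).O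
      (CAll B hB hqM hζ (CZM B hB hqM h2 h3) (mid (comp e s))).res
      (CAll B hB hqM hζ (CZM B hB hqM h2 h3) (ze e)).res
      (pMidM B hB hqM hζ comp (hcopM B hB hqM h2 h3) (FZM B hB hqM h2 h3) e s)
      (zKM B hB hqM h2 h3 e s) (tubeKM B hB hqM h2 h3 tubeKodd e s) :=
  (nodeKM B hB hqM hζ h2 h3 comp tubeKodd hodd e s).chart
    Fermat.Agent.BR3.SplitNodeChart.residue_eq_zero_of_lt
    (fun x hx => (Fermat.Agent.BR.S0.SmoothAssembly.constRed_res_eq_zero_iff
      (CM B hB hqM hζ (comp e s)) x).mpr hx)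
    (fun x hx => (Fermat.Agent.BR.S0.SmoothAssembly.constRed_res_eq_zero_iff
      (CZM B hB hqM h2 h3 e) x).mpr hx)

end Binders

/-! ### the merged tube clauses -/

section Tubes

omit hodd

set_option maxHeartbeats 4000000 in
/-- **`tube_a_nk` / `subK`**: the tube of `nk e s` lies over the outer node of `S'ref_a` along
`α₂`. -/
theorem tube_a_nkM (hα : (alpha2 M q).toRingHom.IsIntegral)
    (hoddA : q ≠ 2 → ∀ e s, ∀ P ∈ tubeKodd e s,
      P.restrictAlong (alpha2 M q) hα ∈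
        tube (srefM (DtM B hB hqM) (gaugeA q B hB hqM) (admA B hB hqM h2 h3))
          (outer (inputs (DtM B hB hqM)) (gaugeA q B hB hqM) (admA B hB hqM h2 h3) e))
    (e : SSpM B hB hqM) (s : KPq q) :
    ∀ P ∈ tubeKM B hB hqM h2 h3 tubeKodd e s,
      P.restrictAlong (alpha2 M q) hα ∈
        tube (srefM (DtM B hB hqM) (gaugeA q B hB hqM) (admA B hB hqM h2 h3))
          (outer (inputs (DtM B hB hqM)) (gaugeA q B hB hqM) (admA B hB hqM h2 h3) e) := by
  intro P hP
  rcases eq_or_ne q 2 with hq2 | hq2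
  · rw [tubeKM_of_two B hB hqM h2 h3 tubeKodd hq2] at hP
    exact tube_a_K2 B hB hqM h2 h3 e (zePackM B hB hqM h2 h3 e).g
      (zePackM B hB hqM h2 h3 e).g' hα P hP
  · rw [tubeKM_of_ne_two B hB hqM h2 h3 tubeKodd hq2] at hP
    exact hoddA hq2 e s P hP

set_option maxHeartbeats 4000000 in
/-- **`tube_b_nk`**: the tube of `nk e s` lies over the inner node of `S'ref_b` at `Fr e` along
`β₂`. -/
theorem tube_b_nkM (hα : (alpha2 M q).toRingHom.IsIntegral)
    (hβ : (beta2 M q).toRingHom.IsIntegral)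
    (hoddB : q ≠ 2 → ∀ e s, ∀ P ∈ tubeKodd e s,
      P.restrictAlong (beta2 M q) hβ ∈
        tube (srefM (DtM B hB hqM) (gaugeB q B hB hqM) (admB B hB hqM h2 h3))
          (inner (inputs (DtM B hB hqM)) (gaugeB q B hB hqM) (admB B hB hqM h2 h3)
            (Fr B hB hqM e)))
    (e : SSpM B hB hqM) (s : KPq q) :
    ∀ P ∈ tubeKM B hB hqM h2 h3 tubeKodd e s,
      P.restrictAlong (beta2 M q) hβ ∈
        tube (srefM (DtM B hB hqM) (gaugeB q B hB hqM) (admB B hB hqM h2 h3))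
          (inner (inputs (DtM B hB hqM)) (gaugeB q B hB hqM) (admB B hB hqM h2 h3)
            (Fr B hB hqM e)) := by
  intro P hP
  rcases eq_or_ne q 2 with hq2 | hq2
  · rw [tubeKM_of_two B hB hqM h2 h3 tubeKodd hq2] at hP
    exact tube_b_K2 B hB hqM h2 h3 e hq2 (zePackM B hB hqM h2 h3 e).P hα hβ P hP
  · rw [tubeKM_of_ne_two B hB hqM h2 h3 tubeKodd hq2] at hP
    exact hoddB hq2 e s P hP

set_option maxHeartbeats 4000000 in
/-- **`dTK`**: the tubes of `nT e` (helper16's `tubeTM`) and of `nk e s` are disjoint. -/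
theorem dTK_M
    (hoddTK : q ≠ 2 → ∀ e s P, P ∈ tubeTM B hB hqM h2 h3 e → P ∈ tubeKodd e s → False)
    (e : SSpM B hB hqM) (s : KPq q) (P : Place Kb (Fb (M * q * q)))
    (hT : P ∈ tubeTM B hB hqM h2 h3 e) (hK : P ∈ tubeKM B hB hqM h2 h3 tubeKodd e s) : False := by
  rcases eq_or_ne q 2 with hq2 | hq2
  · rw [tubeKM_of_two B hB hqM h2 h3 tubeKodd hq2] at hK
    exact dTK2 B hB hqM h2 h3 e (zePackM B hB hqM h2 h3 e).g
      (zePackM B hB hqM h2 h3 e).g' hT hK
  · rw [tubeKM_of_ne_two B hB hqM h2 h3 tubeKodd hq2] at hK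
    exact hoddTK hq2 e s P hT hK

/-- **`dKK`**: the tubes of `nk e s`, `nk e s'` are disjoint for `s ≠ s'`. -/
theorem dKK_M
    (hoddKK : q ≠ 2 → ∀ e s s' P, P ∈ tubeKodd e s → P ∈ tubeKodd e s' → s = s')
    (e : SSpM B hB hqM) (s s' : KPq q) (P : Place Kb (Fb (M * q * q)))
    (hs : P ∈ tubeKM B hB hqM h2 h3 tubeKodd e s)
    (hs' : P ∈ tubeKM B hB hqM h2 h3 tubeKodd e s') : s = s' := by
  rcases eq_or_ne q 2 with hq2 | hq2
  · exact (subsingleton_KPq hq2).elim s s'
  · rw [tubeKM_of_ne_two B hB hqM h2 h3 tubeKodd hq2] at hs hs'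
    exact hoddKK hq2 e s s' P hs hs'

set_option maxHeartbeats 4000000 in
/-- **`XK`**: the annulus sheet of degree `midDeg q` of `nk e s` along `α₂`. -/
theorem annSheetKM
    (hoddX : q ≠ 2 → ∀ e s, Nonempty (AnnSheet B (tubeKodd e s)
      (alpha2 M q (annulusCoord (DtM B hB hqM) e)) (gaugeA q B hB hqM e) (midDeg q)))
    (e : SSpM B hB hqM) (s : KPq q) :
    Nonempty (AnnSheet B (tubeKM B hB hqM h2 h3 tubeKodd e s)
      (alpha2 M q (annulusCoord (DtM B hB hqM) e)) (gaugeA q B hB hqM e) (midDeg q)) := by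
  rcases eq_or_ne q 2 with hq2 | hq2
  · have hd : midDeg q = 1 := by
      rw [hq2]
      exact midDeg_two
    rw [tubeKM_of_two B hB hqM h2 h3 tubeKodd hq2, hd]
    exact ⟨annSheetK2 B hB hqM h2 h3 e
      (sheetHyp_levelsOutA_two B hB hqM h2 h3 e (zePackM B hB hqM h2 h3 e).P hq2)⟩
  · rw [tubeKM_of_ne_two B hB hqM h2 h3 tubeKodd hq2]
    exact hoddX hq2 e s

omit [NeZero M] [NeZero q] in
/-- **`hd` of `hOuter_modular`** (`d e s := midDeg q`). -/
theorem sum_midDeg : 1 + ∑ _s : KPq q, midDeg q = q := by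
  have h := hd_KPq hq.out
  rw [Finset.sum_const, Finset.card_univ, smul_eq_mul, Nat.mul_comm]
  omega

set_option maxHeartbeats 4000000 in
/-- **(G4)/(G6) at `q = 2`**: the raw tube of the Kummer node is stable under EVERY element of the
inertia group. -/
theorem smul_mem_tubeK2M {σ : Kb ≃ₐ[ℚ] Kb} (hσ : σ ∈ B.inertiaSubgroupIn ℚ)
    (e : SSpM B hB hqM) {P : Place Kb (Fb (M * q * q))}
    (hP : P ∈ tubeK2M B hB hqM h2 h3 e) :
    galAut (M * q * q) σ • P ∈ tubeK2M B hB hqM h2 h3 e :=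
  Fermat.Agent.BR3.EquivTubesNode.smul_mem_nodeTube_outer_alpha (DtM B hB hqM)
    (gaugeA q B hB hqM) (admA B hB hqM h2 h3) hσ e
    (galAut_smul_splitW B hB hσ (zePackM B hB hqM h2 h3 e).P.hg
      (zePackM B hB hqM h2 h3 e).P.hg') (0 : B) hP

/-- **(G4)/(G6), tubes**: the raw tubes of the Kummer nodes under an inertia element `σ` which
permutes the tubes `tubeKodd e s` by `p e` (rich elements: `p e = 1`; the tame generator:
`p e = rev q`). -/
theorem smul_mem_tubeKM {σ : Kb ≃ₐ[ℚ] Kb} (hσ : σ ∈ B.inertiaSubgroupIn ℚ)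
    (p : SSpM B hB hqM → Equiv.Perm (KPq q))
    (hoddS : q ≠ 2 → ∀ e s, ∀ P ∈ tubeKodd e s,
      galAut (M * q * q) σ • P ∈ tubeKodd e (p e s))
    (e : SSpM B hB hqM) (s : KPq q) :
    ∀ P ∈ tubeKM B hB hqM h2 h3 tubeKodd e s,
      galAut (M * q * q) σ • P ∈ tubeKM B hB hqM h2 h3 tubeKodd e (p e s) := by
  intro P hP
  rcases eq_or_ne q 2 with hq2 | hq2
  · rw [tubeKM_of_two B hB hqM h2 h3 tubeKodd hq2] at hP ⊢
    exact smul_mem_tubeK2M B hB hqM h2 h3 hσ e hP
  · rw [tubeKM_of_ne_two B hB hqM h2 h3 tubeKodd hq2] at hP ⊢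
    exact hoddS hq2 e s P hP

/-- **(G4), tubes, rich elements** (`p e = 1`). -/
theorem smul_mem_tubeKM_rich {σ : Kb ≃ₐ[ℚ] Kb} (hσ : σ ∈ B.inertiaSubgroupIn ℚ)
    (hoddS : q ≠ 2 → ∀ e s, ∀ P ∈ tubeKodd e s, galAut (M * q * q) σ • P ∈ tubeKodd e s)
    (e : SSpM B hB hqM) (s : KPq q) :
    ∀ P ∈ tubeKM B hB hqM h2 h3 tubeKodd e s,
      galAut (M * q * q) σ • P ∈ tubeKM B hB hqM h2 h3 tubeKodd e s :=
  smul_mem_tubeKM B hB hqM h2 h3 tubeKodd hσ (fun _ => 1) hoddS e s

end Tubes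

end Fermat.Agent.BR3.SDD.ModularNodeK
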