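import Mathlib
import Fermat.Agent.BR3.SDD.ModularNodeK
import Fermat.Agent.BR3.KummerNodeFam
import Fermat.Agent.BR3.KummerTubeDisj
import Fermat.Agent.BR3.KummerAnnSheet

/-!
# Program C (S36), node (N2-FINAL), part 1: the tube clauses of the Kummer nodes `nk e s` at THE
family, hypothesis-free, ALL primes `q`

For `tubeKodd := KummerNodeInputs.kumTube B hB hqM h2 h3` (helper7) in `ModularNodeK.tubeKM`:

* `tubeKF B hB hqM h2 h3 e s` : THE raw tube of `nk e s` (`q = 2` : `tubeK2M … e`; `q ≠ 2` :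
  `kumTube … e s`);
* on `kumTube` (valid for every `q`): `tube_a_kum`, `tube_b_kum` (`TubesBFinal.tube_b_nk_of_small`
  at `Y := kumY e`, `t := gaugeA e`), `value_kumTheta`, `annSheet_kum`
  (`KummerAnnSheet.annSheet` at helper7's `kummerHypM`, degree `midDeg q`);
* merged, hypothesis-free, in the literal consumer shapes (`partition_closed`, `hOuter_modular`,
  `ModularSep`): `tube_a_nkF` (`subK` / `tube_a_nk`), `tube_b_nkF` (`tube_b_nk`), `dTK_F`,
  `dKK_F` (helper24's `dTK_kum`, `dKK_kum`), `annSheetKF` (`XK`).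
-/

set_option autoImplicit false
set_option linter.unusedSectionVars false
set_option linter.unusedVariables false
set_option linter.style.haveILetI false
set_option synthInstance.maxHeartbeats 400000

noncomputable section

/- S36 build-time patch: file-local shortcut instances. They only shorten instance search;
each is the instance that the search finds anyway (reducible, same terms after unfolding). -/
local instance (priority := 100000) Fermat.Agent.BR3.FastInst.instAlgFullC_SDD_ModularNodeKTubes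
    {k : Type*} [Field k] (N : ℕ) :
    Algebra k ↥(ModularCurve.modularFunctionFieldFullC k N) := inferInstance
local instance (priority := 100000) Fermat.Agent.BR3.FastInst.instFieldFullC_SDD_ModularNodeKTubes
    {k : Type*} [Field k] (N : ℕ) :
    Field ↥(ModularCurve.modularFunctionFieldFullC k N) := inferInstance
local instance (priority := 100000) Fermat.Agent.BR3.FastInst.instAlgLaurent_SDD_ModularNodeKTubes
    {k : Type*} [Field k] : Algebra k (LaurentSeries k) := inferInstance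


namespace Fermat.Agent.BR3.SDD.ModularNodeKFinal

open ModularCurve AlgebraicCurve IsLocalRing Polynomial
open Fermat.Agent.Red Fermat.Agent.Val Fermat.Agent.X0 Fermat.Agent.Hecke
open Fermat.Agent.BR.SS Fermat.Agent.BR.Refine Fermat.Agent.BR.TwoVal Fermat.Agent.BR.TwoValInst
open Fermat.Agent.BR.Circle Fermat.Agent.BR.S0 Fermat.Agent.BR.S0.PointDict Fermat.Agent.BR.P1
open Fermat.Agent.BR.S0.RedModular Fermat.Agent.BR.Final Fermat.Agent.BR.Inst.AnnulusInstFinal
open Fermat.Agent.BR2.SetupOfData Fermat.Agent.BR3.CircleN Fermat.Agent.BR3.SRef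
open Fermat.Agent.BR3.SRef.Modular Fermat.Agent.BR3.SDD.Modular
open Fermat.Agent.BR3.SplitLevels Fermat.Agent.BR3.SplitBranch Fermat.Agent.BR3.CoverSmooth
open Fermat.Agent.BR3.FibreProd Fermat.Agent.BR3.HeckePoly Fermat.Agent.BR3.SSParam
open Fermat.Agent.BR3.SplitNode Fermat.Agent.BR3.VertBetaFr Fermat.Agent.BR3.VertPtsU
open Fermat.Agent.BR3.IgSq Fermat.Agent.BR3.ThickSDDPlug Fermat.Agent.BR3.SDD.Partition
open Fermat.Agent.BR3.KummerGenus Fermat.Agent.BR3.KummerGenus.MidInst
open Fermat.Agent.BR3.KummerComps Fermat.Agent.BR3.KummerOfVert Fermat.Agent.BR3.KummerLevels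
open Fermat.Agent.BR3.KummerModAbs Fermat.Agent.BR3.KummerCompMod Fermat.Agent.BR3.KummerCompUnif
open Fermat.Agent.BR3.KummerNodeInputs Fermat.Agent.BR3.KummerNodeFam
open Fermat.Agent.BR3.KummerTubeDisj Fermat.Agent.BR3.SDD.ModularNodeK

local notation "Kb" => AlgebraicClosure ℚ

variable {M q : ℕ} [NeZero M] [hq : Fact q.Prime] [NeZero q]
variable (B : ValuationSubring (AlgebraicClosure ℚ)) (hB : B.LiesOverPrime q) (hqM : ¬ q ∣ M)
variable [IsAlgClosed (ResidueField B)] [CharP (ResidueField B) q]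
  [PerfectField (ResidueField B)]

local notation "kB" => IsLocalRing.ResidueField B
local notation "FtM" => modularFunctionFieldFullC (IsLocalRing.ResidueField B) M

/-- (shortcut instances) -/
local instance (priority := 100000) instAlgKFtNKF : Algebra kB FtM := inferInstance
local instance (priority := 100000) instAlgKFMidNKF : Algebra kB (FMid M B) := inferInstance
local instance (priority := 100000) instAlgFtFMidNKF : Algebra FtM (FMid M B) := inferInstance
local instance (priority := 100000) instTowerMidNKF : IsScalarTower kB FtM (FMid M B) :=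
  inferInstance

variable (h2 : nuTwo M = 0) (h3 : nuThree M = 0)

/-! ### the tube -/

/-- **THE raw tube of the Kummer node `nk e s`** of `S''`: helper12's second split sheet at
`q = 2`, helper7's Kummer tube `kumTube … e s` at `q ≠ 2`. -/
def tubeKF (e : SSpM B hB hqM) (s : KPq q) : Set (Place Kb (Fb (M * q * q))) :=
  tubeKM B hB hqM h2 h3 (kumTube B hB hqM h2 h3) e s

theorem tubeKF_eq (e : SSpM B hB hqM) (s : KPq q) :
    tubeKF B hB hqM h2 h3 e s = tubeKM B hB hqM h2 h3 (kumTube B hB hqM h2 h3) e s := rfl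

theorem tubeKF_of_two (hq2 : q = 2) (e : SSpM B hB hqM) (s : KPq q) :
    tubeKF B hB hqM h2 h3 e s = tubeK2M B hB hqM h2 h3 e :=
  tubeKM_of_two B hB hqM h2 h3 _ hq2 e s

theorem tubeKF_of_ne_two (hq2 : q ≠ 2) (e : SSpM B hB hqM) (s : KPq q) :
    tubeKF B hB hqM h2 h3 e s = kumTube B hB hqM h2 h3 e s :=
  tubeKM_of_ne_two B hB hqM h2 h3 _ hq2 e s

/-! ### the clauses on `kumTube` -/

omit [NeZero M] [NeZero q] in
/-- the gauge does not vanish -/
theorem gaugeSDD_ne_zero_NKF : gaugeSDD q ≠ 0 := by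
  intro h
  have h1 := gaugeSDD_pow hq.out.one_lt
  rw [h, zero_pow (Nat.succ_ne_zero q)] at h1
  exact (Nat.cast_ne_zero.mpr hq.out.ne_zero) h1.symm

set_option maxHeartbeats 4000000 in
/-- **`tube_a_nk` on the Kummer tube**: it lies over the outer node of `S'ref_a` along `α₂`. -/
theorem tube_a_kum (hα : (alpha2 M q).toRingHom.IsIntegral) (e : SSpM B hB hqM) (s : KPq q) :
    ∀ P ∈ kumTube B hB hqM h2 h3 e s,
      P.restrictAlong (alpha2 M q) hα ∈
        tube (srefM (DtM B hB hqM) (gaugeA q B hB hqM) (admA B hB hqM h2 h3))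
          (outer (inputs (DtM B hB hqM)) (gaugeA q B hB hqM) (admA B hB hqM h2 h3) e) :=
  fun _ hP => hP.1

set_option maxHeartbeats 4000000 in
/-- the value of `θ_e` on the Kummer tube -/
theorem value_kumTheta (e : SSpM B hB hqM) (s : KPq q) :
    ∀ P ∈ kumTube B hB hqM h2 h3 e s,
      ∃ d : Kb, IsValueAt P (kumTheta B hB hqM h2 h3 e) d ∧
        B.valuation (d - ((kumC0 B hB hqM h2 h3 e s : B) : Kb)) < 1 :=
  fun _ hP => hP.2.2.2

set_option maxHeartbeats 4000000 in
/-- the value of `Y_e = U_e / a₀` on the Kummer tube is small -/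
theorem value_kumY (e : SSpM B hB hqM) (s : KPq q) :
    ∀ P ∈ kumTube B hB hqM h2 h3 e s,
      ∃ d : Kb, IsValueAt P (kumY B hB hqM h2 h3 e) d ∧ B.valuation d < 1 :=
  fun _ hP => hP.2.2.1

set_option maxHeartbeats 4000000 in
/-- **`tube_b_nk` on the Kummer tube**: it lies over the inner node of `S'ref_b` at `Fr e` along
`β₂`. -/
theorem tube_b_kum (hα : (alpha2 M q).toRingHom.IsIntegral)
    (hβ : (beta2 M q).toRingHom.IsIntegral) (e : SSpM B hB hqM) (s : KPq q) :
    ∀ P ∈ kumTube B hB hqM h2 h3 e s,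
      P.restrictAlong (beta2 M q) hβ ∈
        tube (srefM (DtM B hB hqM) (gaugeB q B hB hqM) (admB B hB hqM h2 h3))
          (inner (inputs (DtM B hB hqM)) (gaugeB q B hB hqM) (admB B hB hqM h2 h3)
            (Fr B hB hqM e)) := by
  intro P hP
  obtain ⟨d, hd, hdlt⟩ := value_kumY B hB hqM h2 h3 e s P hP
  have h0 : algebraMap Kb (Fb (M * q * q)) (gaugeA q B hB hqM e) ≠ 0 := by
    rw [Ne, map_eq_zero]
    exact gaugeSDD_ne_zero_NKF
  refine Fermat.Agent.BR3.SDD.TubesBFinal.tube_b_nk_of_small B hB hqM e h2 h3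
    (zePackM B hB hqM h2 h3 e).P hα hβ (admA B hB hqM h2 h3) (admB B hB hqM h2 h3)
    (tube_a_kum B hB hqM h2 h3 hα e s P hP) hd hdlt
    (t := gaugeA q B hB hqM e) rfl ?_
  show Ug M q (zePackM B hB hqM h2 h3 e).g =
    Ug M q (zePackM B hB hqM h2 h3 e).g *
      (algebraMap Kb (Fb (M * q * q)) (gaugeA q B hB hqM e))⁻¹ *
        algebraMap Kb (Fb (M * q * q)) (gaugeA q B hB hqM e)
  exact (inv_mul_cancel_right₀ h0 _).symm

section Ann

variable {ζ : Kbˣ} (hζ : IsPrimitiveRoot ζ q) [Nonempty (MidM B hB hqM hζ)]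
  (hcop : ∀ e : SSpM B hB hqM,
    IsCoprime ((z₁ (chartDataModular B hB hqM) e).ord (deltaMid B hB hqM)) (fMid M B hB : ℤ))
  (hex : q ≠ 2 → ∀ e j, ∃ s, ValAt (CM B hB hqM hζ)
    (MidFamily.pMid B hB hqM (z₁ (chartDataModular B hB hqM)) hcop)
    (kumTheta B hB hqM h2 h3)
    (fun e s => IsLocalRing.residue B (kumC0 B hB hqM h2 h3 e s)) e j s)
  (hval : ∀ hq2 : q ≠ 2, ∀ e, Function.Bijective (val (hex hq2) e))

include hex hval in
set_option maxHeartbeats 4000000 in
/-- **`XK` on the Kummer tube** (`q` odd): the annulus sheet of degree `midDeg q` along `α₂`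
(`KummerAnnSheet.annSheet` at helper7's `kummerHypM`, `κ₀ = 1`). -/
theorem annSheet_kum (hq2 : q ≠ 2) (e : SSpM B hB hqM) (s : KPq q) :
    Nonempty (AnnSheet B (kumTube B hB hqM h2 h3 e s)
      (alpha2 M q (annulusCoord (DtM B hB hqM) e)) (gaugeA q B hB hqM e) (midDeg q)) := by
  letI := algebraAlong (alpha2 M q)
  haveI := isScalarTower_along (alpha2 M q)
  haveI : Module.Finite (Fb (M * q)) (Fb (M * q * q)) :=
    Fermat.Agent.Hecke.finiteAlong_heckeAlphaBar (M * q) q
  have A := Fermat.Agent.BR3.KummerAnnSheet.annSheet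
    (kummerHypM B hB hqM h2 h3 hζ hcop hex hval hq2 e s) (map_one _)
  rw [levelsConst_u, levelsConst_thick, levelsOutA_u, levelsOutA_thick] at A
  exact ⟨A⟩

include hex hval in
/-- **`XK`**, every `q`: the annulus sheet of degree `midDeg q` of `nk e s` along `α₂`. -/
theorem annSheetKF (e : SSpM B hB hqM) (s : KPq q) :
    Nonempty (AnnSheet B (tubeKF B hB hqM h2 h3 e s)
      (alpha2 M q (annulusCoord (DtM B hB hqM) e)) (gaugeA q B hB hqM e) (midDeg q)) :=
  annSheetKM B hB hqM h2 h3 (kumTube B hB hqM h2 h3)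
    (fun hq2 e s => annSheet_kum B hB hqM h2 h3 hζ hcop hex hval hq2 e s) e s

end Ann

/-! ### the merged clauses, hypothesis-free -/

/-- **`tube_a_nk` / `subK`**, every `q`. -/
theorem tube_a_nkF (hα : (alpha2 M q).toRingHom.IsIntegral) (e : SSpM B hB hqM) (s : KPq q) :
    ∀ P ∈ tubeKF B hB hqM h2 h3 e s,
      P.restrictAlong (alpha2 M q) hα ∈
        tube (srefM (DtM B hB hqM) (gaugeA q B hB hqM) (admA B hB hqM h2 h3))
          (outer (inputs (DtM B hB hqM)) (gaugeA q B hB hqM) (admA B hB hqM h2 h3) e) :=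
  tube_a_nkM B hB hqM h2 h3 (kumTube B hB hqM h2 h3) hα
    (fun _ e s => tube_a_kum B hB hqM h2 h3 hα e s) e s

/-- **`tube_b_nk`**, every `q`. -/
theorem tube_b_nkF (hα : (alpha2 M q).toRingHom.IsIntegral)
    (hβ : (beta2 M q).toRingHom.IsIntegral) (e : SSpM B hB hqM) (s : KPq q) :
    ∀ P ∈ tubeKF B hB hqM h2 h3 e s,
      P.restrictAlong (beta2 M q) hβ ∈
        tube (srefM (DtM B hB hqM) (gaugeB q B hB hqM) (admB B hB hqM h2 h3))
          (inner (inputs (DtM B hB hqM)) (gaugeB q B hB hqM) (admB B hB hqM h2 h3)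
            (Fr B hB hqM e)) :=
  tube_b_nkM B hB hqM h2 h3 (kumTube B hB hqM h2 h3) hα hβ
    (fun _ e s => tube_b_kum B hB hqM h2 h3 hα hβ e s) e s

/-- **`dTK`**, every `q`: the tubes of `nT e` and `nk e s` are disjoint. -/
theorem dTK_F (hα : (alpha2 M q).toRingHom.IsIntegral) (e : SSpM B hB hqM) (s : KPq q)
    (P : Place Kb (Fb (M * q * q))) (hT : P ∈ tubeTM B hB hqM h2 h3 e)
    (hK : P ∈ tubeKF B hB hqM h2 h3 e s) : False :=
  dTK_M B hB hqM h2 h3 (kumTube B hB hqM h2 h3)
    (fun _ => dTK_kum B hB hqM h2 h3 hα) e s P hT hK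

/-- **`dKK`**, every `q`: the tubes of `nk e s`, `nk e s'` are disjoint for `s ≠ s'`. -/
theorem dKK_F (e : SSpM B hB hqM) (s s' : KPq q) (P : Place Kb (Fb (M * q * q)))
    (hs : P ∈ tubeKF B hB hqM h2 h3 e s) (hs' : P ∈ tubeKF B hB hqM h2 h3 e s') : s = s' :=
  dKK_M B hB hqM h2 h3 (kumTube B hB hqM h2 h3)
    (fun _ => dKK_kum B hB hqM h2 h3) e s s' P hs hs'

end Fermat.Agent.BR3.SDD.ModularNodeKFinal
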