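import Fermat.Agent.BR3.SDD.ModularZe
import Fermat.Agent.BR3.SDD.ModularC
import Fermat.Agent.BR3.VertPtsU
import Fermat.Agent.BR3.KummerVertSide
import Fermat.Agent.BR3.KummerMidSide
import Fermat.Agent.BR3.SplitNode.Inputs

/-!
# Program C (S36), node (SEP-Θ): the Kummer block of `SDD.ModularSep` (`sep_comp` / `sep`)

Frame of `SDD.ModularZe`: `Z_e := zePackM B hB hqM h2 h3 e` (the chain quadruple, `β_e`, `ρ_e`, the
valuation ring `Z` of the vertical component `z e` and its residue map), `FZ := FZM`, `CZ := CZM`,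
`KP := VertPtsU.KPq q`, `zK e s := ptKFam q Z_e.hβ Z_e.hρ s`.

* `thetaK e = α₂ u_e / X ^ d`, `X = ϖ₂ / U_{g_e}`, `ϖ₂ = unifSDD q ^ (q + 1)`, `d = midDeg q` : the
  Kummer function of `z e` (`q` odd); `thetaK_eq_thetaOf` (`rfl`): it is
  `KummerOfVert.thetaOf (core (DtM …) e).u ϖ₂ (Ug M q g_e) (midDeg q)` along `α₂`;
* `thetaK_mem_Z_value` (`q ≠ 2`) : `thetaK e ∈ Z_e` and its residue has the value
  `rootsK q ρ_e s / β_e` at the Kummer point `s` (`KummerVertSide.hθ_ptK` at `vertCompM`);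
* `annulusCoord_mem_O1`, `thetaK_mem_w2` : `thetaK e` lies in EVERY middle valuation ring `w₂ b`
  (`u_e ∈ O1` by `SplitNode.branchComp_can`, `X` a unit of `w₂ b` by `MidKummerNodeOrd.red_xOf`);
* `ThetaM e := if q = 2 then 1 else thetaK e`, `cM e s := if q = 2 then 1 else rootsK q ρ_e s / β_e`
  (at `q = 2` there is ONE Kummer point and every clause is trivial);
* the block, in the literal shapes of `ModularSep.sepInputRaw` / `SepNModular.sepInputModularOfTheta`:
  **`cM_injective`** (`hc`), **`ThetaM_mem_mid`** (`hmid`), **`ThetaM_mem_ze`** (`hze`),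
  **`isValueAt_ThetaM`** (`hval`), and `hpole_of_value` (`hpole` from the value clause of the tube
  of `nk e s`: a function with a value at `P` has no pole at `P`).
-/

set_option autoImplicit false
set_option linter.style.haveILetI false
set_option linter.unusedSectionVars false
set_option synthInstance.maxHeartbeats 400000

noncomputable section

/- S36 build-time patch: file-local shortcut instances. They only shorten instance search;
each is the instance that the search finds anyway (reducible, same terms after unfolding). -/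
local instance (priority := 100000) Fermat.Agent.BR3.FastInst.instAlgFullC_SDD_ModularTheta
    {k : Type*} [Field k] (N : ℕ) :
    Algebra k ↥(ModularCurve.modularFunctionFieldFullC k N) := inferInstance
local instance (priority := 100000) Fermat.Agent.BR3.FastInst.instFieldFullC_SDD_ModularTheta
    {k : Type*} [Field k] (N : ℕ) :
    Field ↥(ModularCurve.modularFunctionFieldFullC k N) := inferInstance
local instance (priority := 100000) Fermat.Agent.BR3.FastInst.instAlgLaurent_SDD_ModularTheta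
    {k : Type*} [Field k] : Algebra k (LaurentSeries k) := inferInstance


namespace Fermat.Agent.BR3.SDD.ModularTheta

open Polynomial ModularCurve AlgebraicCurve IsLocalRing
open Fermat.Agent.X0 Fermat.Agent.Val Fermat.Agent.Red Fermat.Agent.Hecke
open Fermat.Agent.BR.Circle Fermat.Agent.BR.S0 Fermat.Agent.BR.S0.RedModular
open Fermat.Agent.BR.S0.PointDict Fermat.Agent.BR.Final
open Fermat.Agent.BR3.FibreProd Fermat.Agent.BR3.VertResidue Fermat.Agent.BR3.HeckePoly
open Fermat.Agent.BR3.SSParam Fermat.Agent.BR3.ThickSDDPlug Fermat.Agent.BR3.SDD.Modular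
open Fermat.Agent.BR2.SetupOfData Fermat.Agent.BR3.SRef.Modular Fermat.Agent.BR3.VertSheet
open Fermat.Agent.BR3.KummerOfVert Fermat.Agent.BR3.VertPtsU Fermat.Agent.BR3.IgSq
open Fermat.Agent.BR3.VertResField Fermat.Agent.BR3.VertPtsDef Fermat.Agent.BR3.SDD

variable {M q : ℕ} [NeZero M] [hq : Fact q.Prime]
variable (B : ValuationSubring Kb) (hB : B.LiesOverPrime q) (hqM : ¬ q ∣ M)
variable [IsAlgClosed (ResidueField B)] [CharP (ResidueField B) q]
variable (h2 : nuTwo M = 0) (h3 : nuThree M = 0)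

local notation "kB" => ResidueField B

/-- the Kummer function of the vertical component `z e` (`q` odd):
`θ_e = α₂ u_e / X ^ d`, `X = ϖ₂ / U_{g_e}`, `ϖ₂ = ϖ ^ (q + 1)`, `d = (q - 1) / 2` -/
def thetaK (e : Crossing (chartDataModular B hB hqM)) : Fb (M * q * q) :=
  alpha2 M q (annulusCoord (DtM B hB hqM) e) *
    (xOf (unifSDD q ^ (q + 1)) (Ug M q (zePackM B hB hqM h2 h3 e).g) ^ midDeg q)⁻¹

theorem thetaK_eq_thetaOf (e : Crossing (chartDataModular B hB hqM)) :
    letI := algebraAlong (alpha2 M q)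
    thetaK B hB hqM h2 h3 e =
      thetaOf (core (DtM B hB hqM) e).u (unifSDD q ^ (q + 1))
        (Ug M q (zePackM B hB hqM h2 h3 e).g) (midDeg q) := rfl

/-- arithmetic: `ϖ₂ ^ d = a₀ ^ (d + 1)` for `ϖ₂ = ϖ ^ (q + 1)`, `a₀ = ϖ ^ (q - 1)`, `q = 2 d + 1` -/
theorem unif_pow_midDeg (hq2 : q ≠ 2) :
    (unifSDD q ^ (q + 1)) ^ midDeg q = gaugeSDD q ^ (midDeg q + 1) := by
  obtain ⟨j, hj⟩ := hq.out.odd_of_ne_two hq2
  have hd : midDeg q = j := by
    unfold midDeg
    rw [if_neg hq2]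
    omega
  rw [hd, gaugeSDD, ← pow_mul, ← pow_mul]
  congr 1
  have : q - 1 = 2 * j := by omega
  rw [this, hj]
  ring

theorem two_mul_midDeg (hq2 : q ≠ 2) : q = 2 * midDeg q + 1 := by
  obtain ⟨j, hj⟩ := hq.out.odd_of_ne_two hq2
  unfold midDeg
  rw [if_neg hq2]
  omega

set_option maxHeartbeats 1600000 in
/-- **(hze, hval) at `q` odd**: the Kummer function lies in `Z_e` and its residue has the value
`rootsK s / β_e` at the Kummer point `s`. -/
theorem thetaK_mem_Z_value (hq2 : q ≠ 2) (e : Crossing (chartDataModular B hB hqM))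
    (s : KPq q) :
    ∃ h : thetaK B hB hqM h2 h3 e ∈ (zePackM B hB hqM h2 h3 e).Z,
      IsValueAt (ptKFam q (zePackM B hB hqM h2 h3 e).hβ (zePackM B hB hqM h2 h3 e).hρ s)
        ((zePackM B hB hqM h2 h3 e).resZ ⟨_, h⟩)
        (rootsK q (zePackM B hB hqM h2 h3 e).ρ s / (zePackM B hB hqM h2 h3 e).β) := by
  letI := algebraAlong (alpha2 M q)
  haveI := isScalarTower_along (alpha2 M q)
  have H := vertCompM B hB hqM h2 h3 e
  obtain ⟨c₀, hc₀⟩ := IsLocalRing.residue_surjective (R := B)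
    (rootsK q (zePackM B hB hqM h2 h3 e).ρ s / (zePackM B hB hqM h2 h3 e).β)
  have hU0 : Ug M q (zePackM B hB hqM h2 h3 e).g ≠ 0 :=
    Fermat.Agent.BR3.VertAllLevels.Ug_ne_zero (zePackM B hB hqM h2 h3 e).P.nonconst
  obtain ⟨hm, hlt⟩ := Fermat.Agent.BR3.KummerVertSide.hθ_ptK H hq2
    (zePackM B hB hqM h2 h3 e).hβ (zePackM B hB hqM h2 h3 e).hρ
    (rootsK_sq q (zePackM B hB hqM h2 h3 e).ρ s)
    (U := Ug M q (zePackM B hB hqM h2 h3 e).g)
    (Fermat.Agent.BR3.KummerVertSide.yOf_eq_div _ _) hU0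
    (ϖ₂ := unifSDD q ^ (q + 1)) (d := midDeg q) (two_mul_midDeg hq2) (unif_pow_midDeg hq2) hc₀
  have hc₀R : algebraMap Kb (Fb (M * q)) (c₀ : Kb) ∈
      circleRing (core (DtM B hB hqM) e) (gaugeA q B hB hqM e) (admA B hB hqM h2 h3 e).1
        (admA B hB hqM h2 h3 e).2 :=
    (algebraMap_mem_circleRing_iff _ _ _ _ _).mpr c₀.2
  have hm3 : algebraMap Kb (Fb (M * q * q)) (c₀ : Kb) ∈ (zePackM B hB hqM h2 h3 e).Z := by
    rw [IsScalarTower.algebraMap_apply Kb (Fb (M * q)) (Fb (M * q * q))]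
    exact H.map_mem hc₀R
  have hres3 : (zePackM B hB hqM h2 h3 e).resZ ⟨algebraMap Kb (Fb (M * q * q)) (c₀ : Kb), hm3⟩ =
      algebraMap kB (FZM B hB hqM h2 h3 e)
        (rootsK q (zePackM B hB hqM h2 h3 e).ρ s / (zePackM B hB hqM h2 h3 e).β) := by
    have e1 : (⟨algebraMap Kb (Fb (M * q * q)) (c₀ : Kb), hm3⟩ : (zePackM B hB hqM h2 h3 e).Z) =
        ⟨algebraMap (Fb (M * q)) (Fb (M * q * q)) (algebraMap Kb (Fb (M * q)) (c₀ : Kb)),
          H.map_mem hc₀R⟩ := by
      apply Subtype.ext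
      exact IsScalarTower.algebraMap_apply Kb (Fb (M * q)) (Fb (M * q * q)) _
    rw [e1, H.compat ⟨algebraMap Kb (Fb (M * q)) (c₀ : Kb), hc₀R⟩ (H.map_mem hc₀R),
      (constHyp_circle _ _ _ _).res_const (c₀ : Kb) c₀.2 hc₀R]
    have e2 : (⟨(c₀ : Kb), c₀.2⟩ : B) = c₀ := rfl
    rw [e2, hc₀, ← AdjoinRoot.algebraMap_eq, ← IsScalarTower.algebraMap_apply]
  have hθ : thetaK B hB hqM h2 h3 e ∈ (zePackM B hB hqM h2 h3 e).Z := by
    have := add_mem hm hm3
    rwa [sub_add_cancel] at this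
  refine ⟨hθ, ?_⟩
  rw [ptKFam_eq_ptKBar q _ _ hq2 s]
  unfold IsValueAt
  have e3 : (zePackM B hB hqM h2 h3 e).resZ ⟨thetaK B hB hqM h2 h3 e, hθ⟩ -
      algebraMap kB (AdjoinRoot (vertBar q (zePackM B hB hqM h2 h3 e).β
        (zePackM B hB hqM h2 h3 e).ρ))
        (rootsK q (zePackM B hB hqM h2 h3 e).ρ s / (zePackM B hB hqM h2 h3 e).β) =
      (zePackM B hB hqM h2 h3 e).resZ ⟨_, hm⟩ := by
    rw [← hres3, ← map_sub]
    rfl
  rw [e3]
  exact hlt

/-! ### the middle components -/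

section Mid

open Fermat.Agent.BR3.MidKummerAbs Fermat.Agent.BR3.MidKummerNodeOrd
open Fermat.Agent.BR.TwoVal

variable {ζ : Kbˣ} (hζ : IsPrimitiveRoot ζ q) {b : ℕ} (hb : b < q - 1)

theorem valuation_unif2 :
    B.valuation (unifSDD q ^ (q + 1)) ^ (q - 1) = B.valuation (q : Kb) := by
  rw [← map_pow, ← pow_mul, mul_comm, unifSDD_pow hq.out.one_lt]

/-- the annulus coordinate at `e` lies in the valuation ring of `'can'` -/
theorem annulusCoord_mem_O1 (e : Crossing (chartDataModular B hB hqM)) :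
    annulusCoord (DtM B hB hqM) e ∈ O1 M B hB :=
  (Fermat.Agent.BR3.SplitNode.branchComp_can B hB hqM (nonempty_crossing (DtM B hB hqM)) e).le
    (∅ : Finset Kb) _
    ((Fermat.Agent.BR.Inst.AnnulusInstFinal.annulusLevels_modular_final B hB hqM
      (nonempty_crossing (DtM B hB hqM)) e).level (∅ : Finset Kb)).u_mem

set_option maxHeartbeats 1600000 in
/-- **(hmid)**: the Kummer function of `z e` lies in EVERY middle valuation ring `w₂ b`. -/
theorem thetaK_mem_w2 (e : Crossing (chartDataModular B hB hqM)) :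
    thetaK B hB hqM h2 h3 e ∈ w2 B hB hqM hζ hb := by
  obtain ⟨y, c, hy0, hyred, -, -⟩ :=
    exists_FMid_witness_red B hB hqM e hζ hb h2 h3 (zePackM B hB hqM h2 h3 e).P
  obtain ⟨a, ha0, hX⟩ := red_xOf B hB hqM hζ hb (valuation_unif2 B) hy0 hyred
  have hXinv := Red.inv (resMid_eq_zero_iff_not_isUnit B hB hqM hζ hb) hX
    (mul_ne_zero ((_root_.map_ne_zero _).mpr ha0) (inv_ne_zero hy0))
  have h1 : (xOf (unifSDD q ^ (q + 1)) (Ug M q (zePackM B hB hqM h2 h3 e).g) ^ midDeg q)⁻¹ ∈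
      w2 B hB hqM hζ hb := by
    rw [← inv_pow]
    exact pow_mem hXinv.mem _
  exact mul_mem ((alpha2_mem_w2_iff B hB hqM hζ hb _).2 (annulusCoord_mem_O1 B hB hqM e)) h1

end Mid

/-! ### the block -/

section Block

open Fermat.Agent.BR.TwoVal

/-- the residue map of `CZM e` is `resZ_e` (pointwise form) -/
theorem CZM_res_apply (e : Crossing (chartDataModular B hB hqM)) (x : Fb (M * q * q))
    (h : x ∈ (CZM B hB hqM h2 h3 e).O) :
    (CZM B hB hqM h2 h3 e).res ⟨x, h⟩ = (zePackM B hB hqM h2 h3 e).resZ ⟨x, h⟩ := rfl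

/-- **The Kummer function of `z e`, uniformly in `q`** (`1` at `q = 2`, where there is one Kummer
point). -/
def ThetaM (e : Crossing (chartDataModular B hB hqM)) : Fb (M * q * q) :=
  if q = 2 then 1 else thetaK B hB hqM h2 h3 e

/-- **Its values at the Kummer points**: `rootsK s / β_e` (`1` at `q = 2`). -/
def cM (e : Crossing (chartDataModular B hB hqM)) (s : KPq q) : kB :=
  if q = 2 then 1
  else rootsK q (zePackM B hB hqM h2 h3 e).ρ s / (zePackM B hB hqM h2 h3 e).β

theorem ThetaM_of_two (hq2 : q = 2) (e : Crossing (chartDataModular B hB hqM)) :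
    ThetaM B hB hqM h2 h3 e = 1 := if_pos hq2

theorem ThetaM_of_ne_two (hq2 : q ≠ 2) (e : Crossing (chartDataModular B hB hqM)) :
    ThetaM B hB hqM h2 h3 e = thetaK B hB hqM h2 h3 e := if_neg hq2

theorem cM_of_two (hq2 : q = 2) (e : Crossing (chartDataModular B hB hqM)) (s : KPq q) :
    cM B hB hqM h2 h3 e s = 1 := if_pos hq2

theorem cM_of_ne_two (hq2 : q ≠ 2) (e : Crossing (chartDataModular B hB hqM)) (s : KPq q) :
    cM B hB hqM h2 h3 e s =
      rootsK q (zePackM B hB hqM h2 h3 e).ρ s / (zePackM B hB hqM h2 h3 e).β := if_neg hq2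

/-- **(hc)** the values at the Kummer points are pairwise distinct -/
theorem cM_injective (e : Crossing (chartDataModular B hB hqM)) :
    Function.Injective (cM B hB hqM h2 h3 e) := by
  intro s s' hss
  by_cases hq2 : q = 2
  · exact (subsingleton_KPq hq2).elim _ _
  · rw [cM_of_ne_two B hB hqM h2 h3 hq2, cM_of_ne_two B hB hqM h2 h3 hq2] at hss
    have hβ := (zePackM B hB hqM h2 h3 e).hβ
    exact rootsK_injective q (zePackM B hB hqM h2 h3 e).hρ
      (by field_simp at hss; exact hss)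

/-- **(hze)** the Kummer function lies in the valuation ring of `z e` (`CZM` form) -/
theorem ThetaM_mem_CZM (e : Crossing (chartDataModular B hB hqM)) :
    ThetaM B hB hqM h2 h3 e ∈ (CZM B hB hqM h2 h3 e).O := by
  by_cases hq2 : q = 2
  · rw [ThetaM_of_two B hB hqM h2 h3 hq2]
    exact one_mem _
  · rw [ThetaM_of_ne_two B hB hqM h2 h3 hq2]
    obtain ⟨s⟩ : Nonempty (KPq q) := ⟨⟨0, by unfold midCard; split_ifs; all_goals norm_num⟩⟩
    exact (thetaK_mem_Z_value B hB hqM h2 h3 hq2 e s).1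

set_option maxHeartbeats 1600000 in
/-- **(hval)** the value of the residue of the Kummer function at the Kummer point `s` of `z e`
(`CZM` form) -/
theorem isValueAt_ThetaM_CZM (e : Crossing (chartDataModular B hB hqM)) (s : KPq q)
    (h : ThetaM B hB hqM h2 h3 e ∈ (CZM B hB hqM h2 h3 e).O) :
    IsValueAt (ptKFam q (zePackM B hB hqM h2 h3 e).hβ (zePackM B hB hqM h2 h3 e).hρ s)
      ((CZM B hB hqM h2 h3 e).res ⟨ThetaM B hB hqM h2 h3 e, h⟩) (cM B hB hqM h2 h3 e s) := by
  rw [CZM_res_apply]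
  by_cases hq2 : q = 2
  · have e1 : (⟨ThetaM B hB hqM h2 h3 e, h⟩ : (zePackM B hB hqM h2 h3 e).Z) = 1 :=
      Subtype.ext (ThetaM_of_two B hB hqM h2 h3 hq2 e)
    rw [e1, map_one, cM_of_two B hB hqM h2 h3 hq2]
    exact isValueAt_one _
  · obtain ⟨hm, hv⟩ := thetaK_mem_Z_value B hB hqM h2 h3 hq2 e s
    have e1 : (⟨ThetaM B hB hqM h2 h3 e, h⟩ : (zePackM B hB hqM h2 h3 e).Z) =
        ⟨thetaK B hB hqM h2 h3 e, hm⟩ := Subtype.ext (ThetaM_of_ne_two B hB hqM h2 h3 hq2 e)
    rw [e1, cM_of_ne_two B hB hqM h2 h3 hq2]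
    exact hv

/-- **(hpole)** from the value clause of the tube: a function with a value at `P` has no pole at
`P`. -/
theorem hpole_of_value (e : Crossing (chartDataModular B hB hqM))
    {T : Set (Place Kb (Fb (M * q * q)))}
    (hT : ∀ P ∈ T, ∃ d : Kb, IsValueAt P (ThetaM B hB hqM h2 h3 e) d) :
    ∀ P ∈ T, 0 ≤ P.ord (ThetaM B hB hqM h2 h3 e) := by
  intro P hP
  obtain ⟨d, hd⟩ := hT P hP
  rcases (P.adicValuation_le_one_iff).1 hd.adicValuation_le_one with h0 | h0
  · rw [h0, Place.ord_zero]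
  · exact h0

end Block

/-! ### the literal shapes of `ModularSep.sepInputRaw` (frame `FZ := FZM`, `CZ := CZM`) -/

section Literal

variable {ζ : Kbˣ} (hζ : IsPrimitiveRoot ζ q)

/-- **(hmid)**: `Θ e` lies in the valuation ring of every middle component -/
theorem ThetaM_mem_mid (e : Crossing (chartDataModular B hB hqM)) (i : MidM B hB hqM hζ) :
    ThetaM B hB hqM h2 h3 e ∈ (CAll B hB hqM hζ (CZM B hB hqM h2 h3) (mid i)).O := by
  show ThetaM B hB hqM h2 h3 e ∈ w2 B hB hqM hζ (i.rep B hB hqM hζ).2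
  by_cases hq2 : q = 2
  · rw [ThetaM_of_two B hB hqM h2 h3 hq2]
    exact one_mem _
  · rw [ThetaM_of_ne_two B hB hqM h2 h3 hq2]
    exact thetaK_mem_w2 B hB hqM h2 h3 hζ _ e

/-- **(hze)**: `Θ e` lies in the valuation ring of `z e` -/
theorem ThetaM_mem_ze (e : Crossing (chartDataModular B hB hqM)) :
    ThetaM B hB hqM h2 h3 e ∈ (CAll B hB hqM hζ (CZM B hB hqM h2 h3) (ze e)).O :=
  ThetaM_mem_CZM B hB hqM h2 h3 e

/-- **(hval)**: the residue of `Θ e` on `z e` has the value `cM e s` at the Kummer point `s` -/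
theorem isValueAt_ThetaM (e : Crossing (chartDataModular B hB hqM)) (s : KPq q) :
    IsValueAt (K := kB) (F := FZM B hB hqM h2 h3 e)
      (ptKFam q (zePackM B hB hqM h2 h3 e).hβ (zePackM B hB hqM h2 h3 e).hρ s)
      ((CAll B hB hqM hζ (CZM B hB hqM h2 h3) (ze e)).res
        ⟨ThetaM B hB hqM h2 h3 e, ThetaM_mem_ze B hB hqM h2 h3 hζ e⟩)
      (cM B hB hqM h2 h3 e s) :=
  isValueAt_ThetaM_CZM B hB hqM h2 h3 e s _

end Literal

end Fermat.Agent.BR3.SDD.ModularTheta
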