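import Fermat.Agent.BR3.SDD.ModularTubesMid
import Fermat.Agent.BR3.SDD.ModularTubes
import Fermat.Agent.BR3.MidChartAllFinal

/-!
# Program C (S36), node (MID-M), final layer: the family terms of the middle components against
`smTubeM`, hypothesis-free (`nuTwo M = nuThree M = 0`)

The terms of `SDD/ModularTubesMid.lean` at the atlas `atlas (DtM ..)` of the frame, for
`smTube := smTubeM B hB hqM hζ (midTubeM B hB hqM hζ (atlas (DtM B hB hqM))) zeTube` (`zeTube`
arbitrary), the named hypothesis `MidSheetHyp` being discharged by helper6's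
`MidChartAllFinal.hasMidSheetM`:

* `midSheetHypM` : `MidSheetHyp B hB hqM hζ H` (any `H`);
* `regMidF` (= `regMid` of `dIM_M`), `regMidF_t` (= `hMid_t` for `smMid := fun i Q h =>
  (regMidF i Q h).chart`), `smMidF` (= `smMid`), `smMidF_t` (= `hMid_t`, `C' := canChartM`),
  `subMidF` (= `subMid`), `dIM_F` (= `dIM`);
* `hsmMid_richF_all` (the clause of the middle components of `hrest` of `modelAt_of_raw`),
  `hsmMid_richF` (= `hsmMid` of `hT_stable_of_raw`), `hsmMid_tameF` (= `hsmMid` of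
  `tameProp_of_rawTubes`).
-/

set_option autoImplicit false
set_option linter.style.haveILetI false
set_option linter.unusedSectionVars false
set_option linter.unusedVariables false
set_option synthInstance.maxHeartbeats 400000

open ModularCurve AlgebraicCurve

noncomputable section

/- S36 build-time patch: file-local shortcut instances. They only shorten instance search;
each is the instance that the search finds anyway (reducible, same terms after unfolding). -/
local instance (priority := 100000) Fermat.Agent.BR3.FastInst.instAlgFullC_SDD_ModularTubesMidFinal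
    {k : Type*} [Field k] (N : ℕ) :
    Algebra k ↥(ModularCurve.modularFunctionFieldFullC k N) := inferInstance
local instance (priority := 100000) Fermat.Agent.BR3.FastInst.instFieldFullC_SDD_ModularTubesMidFinal
    {k : Type*} [Field k] (N : ℕ) :
    Field ↥(ModularCurve.modularFunctionFieldFullC k N) := inferInstance
local instance (priority := 100000) Fermat.Agent.BR3.FastInst.instAlgLaurent_SDD_ModularTubesMidFinal
    {k : Type*} [Field k] : Algebra k (LaurentSeries k) := inferInstance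


namespace Fermat.Agent.BR3.SDD.ModularTubesMidFinal

open IsLocalRing Fermat.Agent.Jac Fermat.Agent.X0 Fermat.Agent.Red Fermat.Agent.Val
  Fermat.Agent.BR.SS Fermat.Agent.BR.S0 Fermat.Agent.BR.S0.PointDict
  Fermat.Agent.BR.S0.RedModular Fermat.Agent.BR.S0.RedHyp Fermat.Agent.BR2.SetupOfData
  Fermat.Agent.BR3.FibreProd Fermat.Agent.BR.TwoVal Fermat.Agent.BR.ValTwo
  Fermat.Agent.BR.ConstRedTwo
  Fermat.Agent.BR3.SRef.Modular Fermat.Agent.BR3.SDD Fermat.Agent.BR3.SDD.Modular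
  Fermat.Agent.BR3.SDD.Partition Fermat.Agent.BR3.KummerGenus
  Fermat.Agent.BR3.KummerGenus.MidInst Fermat.Agent.BR3.CoverK Fermat.Agent.BR3.RegAtlas
  Fermat.Agent.BR3.MidChartAll Fermat.Agent.BR3.PlaceIso Fermat.Agent.BR3.FiltPerm
  Fermat.Agent.BR3.EquivTubesSmooth Fermat.Agent.BR3.SDD.ModularTubesMid
  Fermat.Agent.BR3.MidChartAllFinal

local notation "Qb" => AlgebraicClosure ℚ

variable {M q : ℕ} [NeZero M] [hq : Fact q.Prime] [NeZero q]
variable (B : ValuationSubring (AlgebraicClosure ℚ)) (hB : B.LiesOverPrime q) (hqM : ¬ q ∣ M)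
variable [IsAlgClosed (ResidueField B)]
variable {ζ : Kbˣ} (hζ : IsPrimitiveRoot ζ q)

local notation "kB" => IsLocalRing.ResidueField B
local notation "FtM" => modularFunctionFieldFullC (IsLocalRing.ResidueField B) M

/-- (shortcut instances) -/
local instance (priority := 100000) instAlgebraFtMShortcutTMF :
    Algebra (IsLocalRing.ResidueField B)
      (modularFunctionFieldFullC (IsLocalRing.ResidueField B) M) :=
  inferInstance
local instance (priority := 100000) instAlgKFMidTMF :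
    Algebra (IsLocalRing.ResidueField B) (FMid M B) := inferInstance
local instance (priority := 100000) instAlgFtFMidTMF :
    Algebra (modularFunctionFieldFullC (IsLocalRing.ResidueField B) M) (FMid M B) := inferInstance
local instance (priority := 100000) instTowerMidTMF :
    IsScalarTower (IsLocalRing.ResidueField B)
      (modularFunctionFieldFullC (IsLocalRing.ResidueField B) M) (FMid M B) :=
  inferInstance
local instance (priority := 100000) instFieldFtAllTMF {FZ : SSpM B hB hqM → Type}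
    [∀ e, Field (FZ e)] (v : Comp (MidM B hB hqM hζ) (SSpM B hB hqM)) :
    Field (FtAll B hB hqM hζ FZ v) := instFieldFtOf v
local instance (priority := 100000) instAlgFtAllTMF {FZ : SSpM B hB hqM → Type}
    [∀ e, Field (FZ e)] [∀ e, Algebra (IsLocalRing.ResidueField B) (FZ e)]
    (v : Comp (MidM B hB hqM hζ) (SSpM B hB hqM)) :
    Algebra (IsLocalRing.ResidueField B) (FtAll B hB hqM hζ FZ v) := instAlgebraFtOf v

/-- the atlas of the frame -/
local notation "atlM" => Fermat.Agent.BR2.SetupOfData.atlas (DtM B hB hqM)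

variable (h2 : nuTwo M = 0) (h3 : nuThree M = 0)

include h2 h3

/-- **The named hypothesis of `SDD/ModularTubesMid.lean`, discharged** (helper6's
`hasMidSheetM`). -/
theorem midSheetHypM (H : AtlasHyp (chartDataModular B hB hqM) (jx M q)) :
    MidSheetHyp B hB hqM hζ H := by
  haveI := finiteDimensional_FMid B hB hqM
  exact fun b₀ Q'' hnc => hasMidSheetM B hB hqM hζ h2 h3 H b₀ Q'' hnc

variable {FZ : SSpM B hB hqM → Type} [∀ e, Field (FZ e)] [∀ e, Algebra (ResidueField B) (FZ e)]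
  {KP : Type} (comp : SSpM B hB hqM → KP → MidM B hB hqM hζ)
  (pMid : ∀ e s, Place (IsLocalRing.ResidueField B) (FtAll B hB hqM hζ FZ (mid (comp e s))))
  (zeTube : ∀ e : SSpM B hB hqM, Place (IsLocalRing.ResidueField B) (FZ e) →
    Set (Place (AlgebraicClosure ℚ) (Fb (M * q * q))))
  (CZ : ∀ e, ConstRed (F := Fb (M * q * q)) (Ft := FZ e) B (residue B))

/-- THE raw tubes of the smooth points at the frame, with the raw tubes `midTubeM` of the middle
components at the atlas of the frame -/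
local notation "smT" =>
  smTubeM B hB hqM hζ (midTubeM B hB hqM hζ atlM) zeTube

omit h2 h3 in
/-- `hsm` of `SDD/ModularTubesMid.lean` for `smTubeM` -/
theorem hsmF (i : MidM B hB hqM hζ) (Q : Place kB (FtAll B hB hqM hζ FZ (mid i))) :
    smT ⟨mid i, Q⟩ = midTubeM B hB hqM hζ atlM i Q := rfl

/-- **`regMid` of `dIM_M`.** -/
def regMidF
    (complMid : ∀ i Q e', uMidM B hB hqM hζ FZ i Q = z₁ (chartDataModular B hB hqM) e' →
      ∃ e s, (⟨mid i, Q⟩ : Σ v, Place kB (FtAll B hB hqM hζ FZ v)) =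
        ⟨mid (comp e s), pMid e s⟩)
    (i : MidM B hB hqM hζ) (Q : Place kB (FtAll B hB hqM hζ FZ (mid i)))
    (h : ∀ e s, (⟨mid i, Q⟩ : Σ v, Place kB (FtAll B hB hqM hζ FZ v)) ≠
      ⟨mid (comp e s), pMid e s⟩) :
    RegChart B (CM B hB hqM hζ i).O (CM B hB hqM hζ i).res Q
      (midTubeM B hB hqM hζ atlM i Q) :=
  regMidFam B hB hqM hζ atlM comp pMid
    (midSheetHypM B hB hqM hζ h2 h3 atlM) complMid i Q h

/-- **`hMid_t` of `hcan_modular` / `partition_modular`** for
`smMid := fun i Q h => (regMidF .. i Q h).chart`. -/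
theorem regMidF_t
    (complMid : ∀ i Q e', uMidM B hB hqM hζ FZ i Q = z₁ (chartDataModular B hB hqM) e' →
      ∃ e s, (⟨mid i, Q⟩ : Σ v, Place kB (FtAll B hB hqM hζ FZ v)) =
        ⟨mid (comp e s), pMid e s⟩)
    (i : MidM B hB hqM hζ) (Q : Place kB (FtAll B hB hqM hζ FZ (mid i)))
    (h : ∀ e s, (⟨mid i, Q⟩ : Σ v, Place kB (FtAll B hB hqM hζ FZ v)) ≠
      ⟨mid (comp e s), pMid e s⟩)
    (h' : ∀ e, uMidM B hB hqM hζ FZ i Q ≠ z₁ (chartDataModular B hB hqM) e) :
    (regMidF B hB hqM hζ h2 h3 comp pMid complMid i Q h).chart.t =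
      alpha2 M q (canChartM B hB hqM (uMidM B hB hqM hζ FZ i Q) h').t :=
  regMidM_t B hB hqM hζ atlM
    (midSheetHypM B hB hqM hζ h2 h3 atlM) i Q _

/-- **`smMid` of `SDD.Modular.modelAt_of_raw` / `hcan_modular` / `partition_modular`** for
`smTube := smTubeM ..`. -/
def smMidF
    (complMid : ∀ i Q e', uMidM B hB hqM hζ FZ i Q = z₁ (chartDataModular B hB hqM) e' →
      ∃ e s, (⟨mid i, Q⟩ : Σ v, Place kB (FtAll B hB hqM hζ FZ v)) =
        ⟨mid (comp e s), pMid e s⟩)
    (i : MidM B hB hqM hζ)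
    (Q : Place (ResidueField B) (FtAll B hB hqM hζ FZ (mid i)))
    (h : ∀ e s, (⟨mid i, Q⟩ : Σ v, Place (ResidueField B) (FtAll B hB hqM hζ FZ v)) ≠
      ⟨mid (comp e s), pMid e s⟩) :
    SmoothChart B (CAll B hB hqM hζ CZ (mid i)).O (CAll B hB hqM hζ CZ (mid i)).res Q
      (smT ⟨mid i, Q⟩) :=
  smMidM B hB hqM hζ atlM comp pMid smT CZ
    (midSheetHypM B hB hqM hζ h2 h3 atlM) complMid
    (fun _ _ => rfl) i Q h

/-- **`hMid_t` of `hcan_modular` / `partition_modular`** for `smMid := smMidF ..`,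
`C' := canChartM B hB hqM`. -/
theorem smMidF_t
    (complMid : ∀ i Q e', uMidM B hB hqM hζ FZ i Q = z₁ (chartDataModular B hB hqM) e' →
      ∃ e s, (⟨mid i, Q⟩ : Σ v, Place kB (FtAll B hB hqM hζ FZ v)) =
        ⟨mid (comp e s), pMid e s⟩)
    (i : MidM B hB hqM hζ) (Q : Place kB (FtAll B hB hqM hζ FZ (mid i)))
    (h : ∀ e s, (⟨mid i, Q⟩ : Σ v, Place kB (FtAll B hB hqM hζ FZ v)) ≠
      ⟨mid (comp e s), pMid e s⟩)
    (h' : ∀ e, uMidM B hB hqM hζ FZ i Q ≠ z₁ (chartDataModular B hB hqM) e) :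
    (smMidF B hB hqM hζ h2 h3 comp pMid zeTube CZ complMid i Q h).t =
      alpha2 M q (canChartM B hB hqM (uMidM B hB hqM hζ FZ i Q) h').t :=
  smMidM_t B hB hqM hζ atlM comp pMid smT CZ
    (midSheetHypM B hB hqM hζ h2 h3 atlM) complMid
    (fun _ _ => rfl) i Q h h'

omit h2 h3 in
/-- **`subMid` of `under_modular` / `hcan_modular` / `partition_modular`** for
`smTube := smTubeM ..`. -/
theorem subMidF :
    ∀ i (Q : Place kB (FtAll B hB hqM hζ FZ (mid i))),
      (∀ e s, (⟨mid i, Q⟩ : Σ v, Place kB (FtAll B hB hqM hζ FZ v)) ≠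
        ⟨mid (comp e s), pMid e s⟩) →
      ∀ P ∈ smT ⟨mid i, Q⟩, (setup (DtM B hB hqM)).r (rhoA M q P) =
        ⟨0, uMidM B hB hqM hζ FZ i Q⟩ :=
  subMidM B hB hqM hζ atlM comp pMid smT (fun _ _ => rfl)

/-- **`dIM` of `under_modular` / `hcan_modular` / `partition_modular`** for
`smTube := smTubeM ..` (helper3's `dIM_M`). -/
theorem dIM_F
    (complMid : ∀ i Q e', uMidM B hB hqM hζ FZ i Q = z₁ (chartDataModular B hB hqM) e' →
      ∃ e s, (⟨mid i, Q⟩ : Σ v, Place kB (FtAll B hB hqM hζ FZ v)) =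
        ⟨mid (comp e s), pMid e s⟩) :
    ∀ i (Q : Place kB (FtAll B hB hqM hζ FZ cInf))
      (Q' : Place kB (FtAll B hB hqM hζ FZ (mid i))) P, (∀ e, Q ≠ pInfM B hB hqM e) →
      (∀ e s, (⟨mid i, Q'⟩ : Σ v, Place kB (FtAll B hB hqM hζ FZ v)) ≠
        ⟨mid (comp e s), pMid e s⟩) →
      uInfM B hB hqM hζ FZ Q = uMidM B hB hqM hζ FZ i Q' → P ∈ smT ⟨cInf, Q⟩ →
      P ∈ smT ⟨mid i, Q'⟩ → False :=
  dIM_M B hB hqM hζ comp pMid (midTubeM B hB hqM hζ atlM) zeTube
    (regMidF B hB hqM hζ h2 h3 comp pMid complMid) (subMidF B hB hqM hζ comp pMid zeTube)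

/-! ### the raw tubes under the inertia elements -/

/-- **The clause of the middle components of `hrest` of `SDD.Modular.modelAt_of_raw`** for
`smTube := smTubeM ..` (EVERY point of every middle component). -/
theorem hsmMid_richF_all {s : Kb ≃ₐ[ℚ] Kb} (hs : s ∈ B.inertiaSubgroupIn ℚ)
    (h3' : ∀ ζ' : Qb, ζ' ^ q = 1 → s ζ' = ζ')
    (i : MidM B hB hqM hζ) (Q : Place kB (FtAll B hB hqM hζ FZ (mid i))) :
    ∀ Pl ∈ smT ⟨mid i, Q⟩, galAut (M * q * q) s • Pl ∈ smT ⟨mid i, Q⟩ :=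
  hsmMid_rich_all B hB hqM hζ atlM smT
    (midSheetHypM B hB hqM hζ h2 h3 atlM) (fun _ _ => rfl) hs h3' i Q

/-- **`hsmMid` of `EquivTubeFam.hT_stable_of_raw`** for `smTube := smTubeM ..`. -/
theorem hsmMid_richF {s : Kb ≃ₐ[ℚ] Kb} (hs : s ∈ B.inertiaSubgroupIn ℚ)
    (h3' : ∀ ζ' : Qb, ζ' ^ q = 1 → s ζ' = ζ') :
    ∀ (i : MidM B hB hqM hζ) (Q : Place (ResidueField B) (FtAll B hB hqM hζ FZ (mid i))),
      (∀ e s', (⟨mid i, Q⟩ : Σ v, Place (ResidueField B) (FtAll B hB hqM hζ FZ v)) ≠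
        ⟨mid (comp e s'), pMid e s'⟩) →
      ∀ Pl ∈ smT ⟨mid i, Q⟩, (fun Pl => galAut (M * q * q) s • Pl) Pl ∈ smT ⟨mid i, Q⟩ :=
  hsmMid_rich B hB hqM hζ atlM comp pMid smT
    (midSheetHypM B hB hqM hζ h2 h3 atlM) (fun _ _ => rfl) hs h3'

/-- **`hsmMid` of `SDD.ModularTameRaw.tameProp_of_rawTubes`** for `smTube := smTubeM ..`. -/
theorem hsmMid_tameF
    (X : CaseInput (F := Fb (M * q * q)) B (MidM B hB hqM hζ) (SSpM B hB hqM) KP
      (FtAll B hB hqM hζ FZ))
    (hXC : X.C = CAll B hB hqM hζ CZ)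
    (σ0 : GQ) (hσ0 : σ0 ∈ B.inertiaSubgroupIn ℚ) (P : Equiv.Perm (MidM B hB hqM hζ))
    (aMid : ∀ i, FtAll B hB hqM hζ FZ (mid i) ≃ₐ[kB] FtAll B hB hqM hζ FZ (mid (P i)))
    (hMid : ∀ i, MapsComp X.toInput.setup (galAut (M * q * q) σ0) (mid i) (mid (P i))
      (aMid i)) :
    ∀ (i : MidM B hB hqM hζ) (Q : Place kB (FtAll B hB hqM hζ FZ (mid i))),
      (∀ e s', (⟨mid i, Q⟩ : Σ v, Place kB (FtAll B hB hqM hζ FZ v)) ≠
        ⟨mid (X.comp e s'), X.pMid e s'⟩) →
      ∀ Pl ∈ smT ⟨mid i, Q⟩,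
        galAut (M * q * q) σ0 • Pl ∈ smT ⟨mid (P i), placeMap (aMid i) Q⟩ :=
  hsmMid_tame B hB hqM hζ atlM smT CZ
    (midSheetHypM B hB hqM hζ h2 h3 atlM) X hXC (fun _ _ => rfl) σ0 hσ0 P
    aMid hMid

end Fermat.Agent.BR3.SDD.ModularTubesMidFinal
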