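import Mathlib
import Fermat.Agent.BR3.VertSigmaU
import Fermat.Agent.BR3.VertEquivUg
import Fermat.Agent.BR3.SDD.ModularZe
import Fermat.Agent.BR3.EquivVert

/-!
# Program C (S36), (G5) `hvert` and the vertical inputs of (G6), for THE family `zePackM`

`X : SDD.CaseInput … (FtOf FH FM (FZM B hB hqM h2 h3))` (any `Mid`, `KP`, `FH`, `FM`; e.g.
`Ft := FtAll B hB hqM hζ (FZM …)`) with `hXze : ∀ e, X.C (ze e) = CZM B hB hqM h2 h3 e`
(`:= fun e => congrFun hXC (ze e)` for `hXC : X.C = CAll B hB hqM hζ (CZM …)`).  All the clauses of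
`BR3/VertSigmaBar`, `BR3/VertSigmaU` are discharged from the fields of `zePackM`:

* `mem_O_ze_iff`, `res_ze_eq` : `(X.C (ze e)).O = Z_e`, `(X.C (ze e)).res = resZ_e` pointwise;
* **`hvertM`** : the hypothesis `hvert` (G5) of `SDD.Modular.modelAt_of_cases(All)` /
  `modelAt_of_raw`, `e₂ = q + 1`, HYPOTHESIS-FREE;
* **`exists_aZeM`** : for `σ`, `ζ₀` as in `GeoSigma.exists_tame_generator`: `aZe`, `hZe`, `hzW`, `hzT`,
  `hab`, `haU`, `hzK` of `EquivActsCases.tameProp_of_kinds` with `zW e := ptZBar`, `zT e := ptIBar`,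
  `zK e := ptKFam`, `KP := KPq q`, `p e := rev q`, HYPOTHESIS-FREE;
* **`actsTrivially_CZM`** : clause (1) of `hrest` (`SDD.Modular.hparts_of_rest`): the rich inertia
  elements (fixing `unifSDD q`) act trivially on `(CZM … e).O`.
-/

set_option autoImplicit false
set_option linter.unusedSectionVars false
set_option linter.unusedVariables false
set_option linter.style.haveILetI false
set_option synthInstance.maxHeartbeats 400000

noncomputable section

/- S36 build-time patch: file-local shortcut instances. They only shorten instance search;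
each is the instance that the search finds anyway (reducible, same terms after unfolding). -/
local instance (priority := 100000) Fermat.Agent.BR3.FastInst.instAlgFullC_SDD_ModularVert
    {k : Type*} [Field k] (N : ℕ) :
    Algebra k ↥(ModularCurve.modularFunctionFieldFullC k N) := inferInstance
local instance (priority := 100000) Fermat.Agent.BR3.FastInst.instFieldFullC_SDD_ModularVert
    {k : Type*} [Field k] (N : ℕ) :
    Field ↥(ModularCurve.modularFunctionFieldFullC k N) := inferInstance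
local instance (priority := 100000) Fermat.Agent.BR3.FastInst.instAlgLaurent_SDD_ModularVert
    {k : Type*} [Field k] : Algebra k (LaurentSeries k) := inferInstance


namespace Fermat.Agent.BR3.SDD.ModularVert

open Polynomial ModularCurve AlgebraicCurve IsLocalRing
open Fermat.Agent.X0 Fermat.Agent.Val Fermat.Agent.Red Fermat.Agent.Jac
open Fermat.Agent.BR.Circle Fermat.Agent.BR.S0 Fermat.Agent.BR.S0.RedModular
open Fermat.Agent.BR.S0.PointDict Fermat.Agent.BR.SS Fermat.Agent.BR2.Filt Fermat.Agent.BR.Final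
open Fermat.Agent.BR.InertiaRed Fermat.Agent.BR.Refine Fermat.Agent.BR2.SetupOfData
open Fermat.Agent.BR3.FibreProd Fermat.Agent.BR3.FiltPerm Fermat.Agent.BR3.FiltMaps
open Fermat.Agent.BR3.SRef Fermat.Agent.BR3.SRef.Modular Fermat.Agent.BR3.VertEquivSDD
open Fermat.Agent.BR3.SDD.Modular Fermat.Agent.BR3.ThickSDDPlug
open Fermat.Agent.BR3.SDD Fermat.Agent.BR3.VertSigmaBar Fermat.Agent.BR3.VertSigmaU
open Fermat.Agent.BR3.VertResidue Fermat.Agent.BR3.VertResField
open Fermat.Agent.BR3.VertPtsDef Fermat.Agent.BR3.PlaceIso Fermat.Agent.BR3.VertPtsU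
open Fermat.Agent.BR3.SSParam Fermat.Agent.BR3.EquivInert Fermat.Agent.BR3.HeckePoly

variable {M q : ℕ} [NeZero M] [hq : Fact q.Prime]

/-- shortcut instance (the search is slow) -/
local instance algResFtMVert (B : ValuationSubring Kb) :
    Algebra (ResidueField B) (modularFunctionFieldFullC (ResidueField B) M) := inferInstance

/-- shortcut instance (the search is slow) -/
local instance (priority := 100000) algKbFbVert (N : ℕ) : Algebra Kb (Fb N) := inferInstance

variable (B : ValuationSubring Kb) (hB : B.LiesOverPrime q) (hqM : ¬ q ∣ M)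
  [IsAlgClosed (ResidueField B)] [CharP (ResidueField B) q]
  (h2 : nuTwo M = 0) (h3 : nuThree M = 0)

variable {Mid KP : Type} {FH : Bool → Type} {FM : Mid → Type}
  [∀ b, Field (FH b)] [∀ i, Field (FM i)]
  [∀ b, Algebra (ResidueField B) (FH b)] [∀ i, Algebra (ResidueField B) (FM i)]
  (X : CaseInput (F := Fb (M * q * q)) B Mid (Crossing (chartDataModular B hB hqM)) KP
    (FtOf FH FM (FZM B hB hqM h2 h3)))
  (hXze : ∀ e, X.C (ze e) = CZM B hB hqM h2 h3 e)

include hXze in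
theorem O_ze_eq (e : Crossing (chartDataModular B hB hqM)) :
    (X.C (ze e)).O = (zePackM B hB hqM h2 h3 e).Z := by
  rw [hXze e, CZM_O]

include hXze in
theorem mem_O_ze_iff (e : Crossing (chartDataModular B hB hqM)) (t : Fb (M * q * q)) :
    t ∈ (X.C (ze e)).O ↔ t ∈ (zePackM B hB hqM h2 h3 e).Z := by
  rw [O_ze_eq B hB hqM h2 h3 X hXze e]

include hXze in
theorem res_ze_eq (e : Crossing (chartDataModular B hB hqM)) (t : Fb (M * q * q))
    (h : t ∈ (X.C (ze e)).O) (h' : t ∈ (zePackM B hB hqM h2 h3 e).Z) :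
    (X.C (ze e)).res ⟨t, h⟩ = (zePackM B hB hqM h2 h3 e).resZ ⟨t, h'⟩ := by
  have key : ∀ (C' : ConstRed (F := Fb (M * q * q)) (Ft := FZM B hB hqM h2 h3 e) B (residue B)),
      X.C (ze e) = C' → ∀ (h : t ∈ (X.C (ze e)).O) (h'' : t ∈ C'.O),
        (X.C (ze e)).res ⟨t, h⟩ = C'.res ⟨t, h''⟩ := by
    intro C' hC
    subst hC
    intro _ _
    rfl
  have h'' : t ∈ (CZM B hB hqM h2 h3 e).O := by rw [CZM_O]; exact h'
  rw [key _ (hXze e) h h'']
  exact DFunLike.congr_fun (CZM_res B hB hqM h2 h3 e) ⟨t, h''⟩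

include hXze in
theorem hcomapM (e : Crossing (chartDataModular B hB hqM)) :
    ((X.C (ze e)).O).comap (alpha2 M q : Fb (M * q) →+* Fb (M * q * q)) =
      ringEA B hB hqM h2 h3 e := by
  rw [O_ze_eq B hB hqM h2 h3 X hXze e]
  exact (zePackM B hB hqM h2 h3 e).comap_eq

include hXze in
theorem huniqM (e : Crossing (chartDataModular B hB hqM))
    (Z' : ValuationSubring (Fb (M * q * q)))
    (h : Z'.comap (alpha2 M q : Fb (M * q) →+* Fb (M * q * q)) = ringEA B hB hqM h2 h3 e) :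
    Z' = (X.C (ze e)).O := by
  rw [O_ze_eq B hB hqM h2 h3 X hXze e]
  exact (zePackM B hB hqM h2 h3 e).unique Z' h

include hXze in
theorem hcompatM (e : Crossing (chartDataModular B hB hqM)) (y : ringEA B hB hqM h2 h3 e)
    (h : alpha2 M q (y : Fb (M * q)) ∈ (X.C (ze e)).O) :
    (X.C (ze e)).res ⟨alpha2 M q (y : Fb (M * q)), h⟩ =
      AdjoinRoot.of (vertBar q (zePackM B hB hqM h2 h3 e).β (zePackM B hB hqM h2 h3 e).ρ)
        (resE (DtM B hB hqM) (gaugeA q B hB hqM) (admA B hB hqM h2 h3) e y) := by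
  have h' := (mem_O_ze_iff B hB hqM h2 h3 X hXze e _).mp h
  rw [res_ze_eq B hB hqM h2 h3 X hXze e _ h h']
  exact (zePackM B hB hqM h2 h3 e).compat y h'

include hXze in
theorem hθM (e : Crossing (chartDataModular B hB hqM)) :
    Ug M q (zePackM B hB hqM h2 h3 e).g /
        alpha2 M q (algebraMap Kb (Fb (M * q)) (gaugeA q B hB hqM e)) ∈ (X.C (ze e)).O :=
  (mem_O_ze_iff B hB hqM h2 h3 X hXze e _).mpr (zePackM B hB hqM h2 h3 e).θ_mem

include hXze in
theorem hrootM (e : Crossing (chartDataModular B hB hqM)) :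
    (X.C (ze e)).res ⟨Ug M q (zePackM B hB hqM h2 h3 e).g /
        alpha2 M q (algebraMap Kb (Fb (M * q)) (gaugeA q B hB hqM e)),
      hθM B hB hqM h2 h3 X hXze e⟩ =
      AdjoinRoot.root (vertBar q (zePackM B hB hqM h2 h3 e).β (zePackM B hB hqM h2 h3 e).ρ) :=
  (res_ze_eq B hB hqM h2 h3 X hXze e _ _ (zePackM B hB hqM h2 h3 e).θ_mem).trans
    (zePackM B hB hqM h2 h3 e).res_θ

set_option maxHeartbeats 1000000 in
include hXze in
/-- **(G5) `hvert`, hypothesis-free**: the hypothesis `hvert` of `SDD.Modular.modelAt_of_cases(All)`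
and `modelAt_of_raw` with `e₂ := q + 1`, for the family `FZM`, `CZM`. -/
theorem hvertM : ∀ e : Crossing (chartDataModular B hB hqM), ∃ s ∈ B.inertiaSubgroupIn ℚ,
    ∃ a : FZM B hB hqM h2 h3 e ≃ₐ[ResidueField B] FZM B hB hqM h2 h3 e,
      MapsComp X.toInput.setup (galAut (M * q * q) s) (ze e) (ze e) a ∧
      ∀ x : Pic0 (ResidueField B) (FZM B hB hqM h2 h3 e),
        SemilinearAut.ofAlgAut a • x = x → (q + 1) • x = 0 :=
  hvert_bar B hB hqM h2 h3 (fun e => (zePackM B hB hqM h2 h3 e).hβ)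
    (fun e => (zePackM B hB hqM h2 h3 e).hρ) X (hcomapM B hB hqM h2 h3 X hXze)
    (huniqM B hB hqM h2 h3 X hXze) (hcompatM B hB hqM h2 h3 X hXze)
    (fun e => Ug M q (zePackM B hB hqM h2 h3 e).g) (hθM B hB hqM h2 h3 X hXze)
    (hrootM B hB hqM h2 h3 X hXze)
    (fun e s hs => Fermat.Agent.BR3.VertEquivUg.galAut_smul_Ug B hB hs
      (zePackM B hB hqM h2 h3 e).P.hg)

set_option maxHeartbeats 1000000 in
include hXze in
/-- **The vertical inputs of (G6), hypothesis-free**: `aZe`, `hZe`, `hzW`, `hzT`, `hzK` of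
`EquivActsCases.tameProp_of_kinds` for `σ`, `ζ₀` as in `GeoSigma.exists_tame_generator`
(`ϖ := unifSDD q`), with `zW e := ptZBar`, `zT e := ptIBar`, `zK e := ptKFam`, `KP := KPq q`,
`p e := rev q`. -/
theorem exists_aZeM {σ : GQ} (hσ : σ ∈ B.inertiaSubgroupIn ℚ) {ζ₀ : Kb}
    (hσϖ : σ (unifSDD q ^ (q - 1)) = ζ₀ ^ (q - 1) * unifSDD q ^ (q - 1))
    (hprim : IsPrimitiveRoot (resOf B (ζ₀ ^ (q - 1))) (q + 1)) :
    ∃ aZe : ∀ e, FZM B hB hqM h2 h3 e ≃ₐ[ResidueField B] FZM B hB hqM h2 h3 e,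
      (∀ e, MapsComp X.toInput.setup (galAut (M * q * q) σ) (ze e) (ze e) (aZe e)) ∧
      (∀ e, aZe e (AdjoinRoot.of (vertBar q (zePackM B hB hqM h2 h3 e).β
            (zePackM B hB hqM h2 h3 e).ρ)
          (RatFunc.C (zePackM B hB hqM h2 h3 e).β * RatFunc.X)) =
        (resOf B (ζ₀ ^ (q - 1)))⁻¹ • AdjoinRoot.of (vertBar q (zePackM B hB hqM h2 h3 e).β
            (zePackM B hB hqM h2 h3 e).ρ)
          (RatFunc.C (zePackM B hB hqM h2 h3 e).β * RatFunc.X)) ∧
      (∀ e, aZe e (AdjoinRoot.root (vertBar q (zePackM B hB hqM h2 h3 e).β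
            (zePackM B hB hqM h2 h3 e).ρ)) =
        (resOf B (ζ₀ ^ (q - 1)))⁻¹ • AdjoinRoot.root (vertBar q (zePackM B hB hqM h2 h3 e).β
            (zePackM B hB hqM h2 h3 e).ρ)) ∧
      (∀ e, placeMap (aZe e) (ptZBar q (zePackM B hB hqM h2 h3 e).hβ
          (zePackM B hB hqM h2 h3 e).hρ) =
        ptZBar q (zePackM B hB hqM h2 h3 e).hβ (zePackM B hB hqM h2 h3 e).hρ) ∧
      (∀ e, placeMap (aZe e) (ptIBar q (zePackM B hB hqM h2 h3 e).hβ
          (zePackM B hB hqM h2 h3 e).hρ) =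
        ptIBar q (zePackM B hB hqM h2 h3 e).hβ (zePackM B hB hqM h2 h3 e).hρ) ∧
      ∀ e (s : KPq q), placeMap (aZe e) (ptKFam q (zePackM B hB hqM h2 h3 e).hβ
          (zePackM B hB hqM h2 h3 e).hρ s) =
        ptKFam q (zePackM B hB hqM h2 h3 e).hβ (zePackM B hB hqM h2 h3 e).hρ (rev q s) := by
  obtain ⟨aZe, hZe, hab, haU, hzW, hzT, -, -⟩ :=
    exists_aZe_bar B hB hqM h2 h3 (fun e => (zePackM B hB hqM h2 h3 e).hβ)
      (fun e => (zePackM B hB hqM h2 h3 e).hρ) X (hcomapM B hB hqM h2 h3 X hXze)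
      (huniqM B hB hqM h2 h3 X hXze) (hcompatM B hB hqM h2 h3 X hXze)
      (fun e => Ug M q (zePackM B hB hqM h2 h3 e).g) (hθM B hB hqM h2 h3 X hXze)
      (hrootM B hB hqM h2 h3 X hXze) hσ hσϖ hprim
      (fun e => Fermat.Agent.BR3.VertEquivUg.galAut_smul_Ug B hB hσ
        (zePackM B hB hqM h2 h3 e).P.hg)
  exact ⟨aZe, hZe, hab, haU, hzW, hzT, fun e s =>
    placeMap_ptKFam q (zePackM B hB hqM h2 h3 e).hβ (zePackM B hB hqM h2 h3 e).hρ
      (hab e) (haU e) hprim.inv s⟩

set_option maxHeartbeats 1000000 in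
include hXze in
/-- **Clause (1) of `hrest`** (`SDD.Modular.hparts_of_rest`): every inertia element fixing the
uniformiser `unifSDD q` acts trivially on the vertical components. -/
theorem actsTrivially_CZM {s : GQ} (hs : s ∈ B.inertiaSubgroupIn ℚ)
    (hs1 : s (unifSDD q) = unifSDD q) (e : Crossing (chartDataModular B hB hqM)) :
    ActsTrivially (CZM B hB hqM h2 h3 e).O (galAut (M * q * q) s) := by
  have hgen : IntermediateField.adjoin (ResidueField B)
      {AdjoinRoot.of (vertBar q (zePackM B hB hqM h2 h3 e).β (zePackM B hB hqM h2 h3 e).ρ)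
          (RatFunc.C (zePackM B hB hqM h2 h3 e).β * RatFunc.X),
        X.toInput.setup.res (ze e) ⟨Ug M q (zePackM B hB hqM h2 h3 e).g /
          alpha2 M q (algebraMap Kb (Fb (M * q)) (gaugeA q B hB hqM e)),
          hθM B hB hqM h2 h3 X hXze e⟩} = ⊤ :=
    (congrArg (fun t => IntermediateField.adjoin (ResidueField B)
      {AdjoinRoot.of (vertBar q (zePackM B hB hqM h2 h3 e).β (zePackM B hB hqM h2 h3 e).ρ)
          (RatFunc.C (zePackM B hB hqM h2 h3 e).β * RatFunc.X), t})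
      (hrootM B hB hqM h2 h3 X hXze e)).trans
      (vertBar_hgen (q := q) (ρ := (zePackM B hB hqM h2 h3 e).ρ) (zePackM B hB hqM h2 h3 e).hβ)
  have h := Fermat.Agent.BR3.EquivVert.actsTrivially_ringEA B hB hqM h2 h3 e X.toInput.setup
    (ze e) (hcomapM B hB hqM h2 h3 X hXze e) (huniqM B hB hqM h2 h3 X hXze e)
    (AdjoinRoot.of (vertBar q (zePackM B hB hqM h2 h3 e).β (zePackM B hB hqM h2 h3 e).ρ))
    (hcompatM B hB hqM h2 h3 X hXze e) hs hs1 (Ug M q (zePackM B hB hqM h2 h3 e).g)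
    (Fermat.Agent.BR3.VertEquivUg.galAut_smul_Ug B hB hs (zePackM B hB hqM h2 h3 e).P.hg)
    (hθM B hB hqM h2 h3 X hXze e) hgen
  have hO : X.toInput.setup.O (ze e) = (CZM B hB hqM h2 h3 e).O :=
    congrArg (fun C => C.O) (hXze e)
  rwa [hO] at h

end Fermat.Agent.BR3.SDD.ModularVert
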