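import Mathlib
import Fermat.Agent.BR3.SDD.ModularNodeW
import Fermat.Agent.BR3.SplitNode.SheetB
import Fermat.Agent.BR3.SplitModularRefB

/-!
# Program C (S36), node (N3-FAM), closed: the split-sheet hypotheses `HWM` of the nodes `nW e`

`hWM_closed : HWM B hB hqM h2 h3` from helper6's engine `SplitNode.SheetB.sheetHypB` at the levels
`levelsInB … (Fr e)` (fields: helper19's `SplitModularRefB.levelsInB_*`) and the chain quadruple of
`zePackM … e`.
-/

set_option autoImplicit false
set_option linter.unusedSectionVars false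
set_option linter.style.haveILetI false
set_option synthInstance.maxHeartbeats 400000

noncomputable section

namespace Fermat.Agent.BR3.SDD.Modular

open Polynomial ModularCurve AlgebraicCurve IsLocalRing
open Fermat.Agent.X0 Fermat.Agent.Val Fermat.Agent.Red Fermat.Agent.Hecke
open Fermat.Agent.BR.SS Fermat.Agent.BR.Refine Fermat.Agent.BR.Circle Fermat.Agent.BR.S0
open Fermat.Agent.BR.S0.RedModular Fermat.Agent.BR.S0.PointDict
open Fermat.Agent.BR.Inst.AnnulusInstFinal Fermat.Agent.BR.Final
open Fermat.Agent.BR3.FibreProd Fermat.Agent.BR3.SSParam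
open Fermat.Agent.BR2.SetupOfData Fermat.Agent.BR3.CircleN Fermat.Agent.BR3.SRef
open Fermat.Agent.BR3.SRef.Modular Fermat.Agent.BR3.SplitNode Fermat.Agent.BR3.SplitLevels
open Fermat.Agent.BR3.SplitCompsModB Fermat.Agent.BR3.VertBetaFr
open Fermat.Agent.BR3.SplitModularRefB

variable {M q : ℕ} [NeZero M] [hq : Fact q.Prime]
variable (B : ValuationSubring Kb)

local notation "kB" => ResidueField B

/-- (shortcut instance) -/
local instance (priority := 100000) instAlgebraFtMShortcutNodeWClosed :
    Algebra (IsLocalRing.ResidueField B)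
      (modularFunctionFieldFullC (IsLocalRing.ResidueField B) M) :=
  inferInstance

variable (hB : B.LiesOverPrime q) (hqM : ¬ q ∣ M)
  [IsAlgClosed (ResidueField B)] [CharP (ResidueField B) q]
  (h2 : nuTwo M = 0) (h3 : nuThree M = 0)

set_option maxHeartbeats 4000000 in
/-- **The split-sheet hypotheses of the nodes `nW e` hold.** -/
theorem hWM_closed : HWM B hB hqM h2 h3 := by
  intro e
  exact Fermat.Agent.BR3.SplitNode.SheetB.sheetHypB (e := e) (e' := Fr B hB hqM e) h2 h3
    (zePackM B hB hqM h2 h3 e).P (zePackM B hB hqM h2 h3 e).P'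
    (idx := idxInBVal B hB hqM h2 h3 (Fr B hB hqM e))
    ⟨levelsInB_le B hB hqM h2 h3 (Fr B hB hqM e), levelsInB_v B hB hqM h2 h3 (Fr B hB hqM e),
      levelsInB_thick' B hB hqM h2 h3 (Fr B hB hqM e),
      levelsInB_gauge B hB hqM h2 h3 (Fr B hB hqM e),
      levelsInB_hT B hB hqM h2 h3 (Fr B hB hqM e),
      levelsInB_hRK B hB hqM h2 h3 (Fr B hB hqM e)⟩
    (hK0_levelsInB B hB hqM h2 h3 (Fr B hB hqM e))

end Fermat.Agent.BR3.SDD.Modular
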