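import Fermat.Agent.BR3.SDD.PartitionClosedM
import Fermat.Agent.BR3.SDD.ModularNodeWClosed
import Fermat.Agent.BR3.SDD.ModularNodeK
import Fermat.Agent.BR3.KummerTubeDisj

/-!
# Program C (S36), node I7 (PARTITION-DONE): `cover ∧ disjoint` at THE node tubes of the frame

`partition_closedM` (`PartitionClosedM`) at

* `HW := hWM_closed ..` (helper5 `ModularNodeWClosed`, hypothesis-free) and
* `tubeK := tubeKM .. tubeKodd` (helper15 `ModularNodeK`: the Kummer tubes for ALL primes `q`;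
  `q = 2` : helper12's `tubeK2`, hypothesis-free; `q ≠ 2` : the parameter `tubeKodd`).

* **`partition_doneK`** : `tubeKodd` ARBITRARY; the named hypotheses are the four `q ≠ 2` clauses
  of `ModularNodeK` on `tubeKodd` (`hoddX` = `XK`, `hoddA` = `subK`, `hoddTK`, `hoddKK`), in the
  LITERAL shapes of `annSheetKM`, `tube_a_nkM`, `dTK_M`, `dKK_M`.
* **`partition_done`** : `tubeKodd := kumTube ..` (helper7 `KummerNodeNames`), with `dTK`, `dKK`
  from helper24's `KummerTubeDisj` (`dTK_kum`, `dKK_kum`); named = `hoddX`, `hoddA` only.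

`hsurj` and `pMid_injective` are binders of `modelAt_of_raw` itself (the caller has them).
-/

set_option autoImplicit false
set_option linter.style.haveILetI false
set_option linter.unusedSectionVars false
set_option linter.unusedVariables false
set_option synthInstance.maxHeartbeats 400000

open ModularCurve AlgebraicCurve

noncomputable section

namespace Fermat.Agent.BR3.SDD.ModularPlug

open IsLocalRing Fermat.Agent.X0 Fermat.Agent.Red Fermat.Agent.Val
  Fermat.Agent.BR.SS Fermat.Agent.BR.Refine Fermat.Agent.BR.Circle Fermat.Agent.BR.P1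
  Fermat.Agent.BR.AnnulusRed
  Fermat.Agent.BR.S0 Fermat.Agent.BR.S0.PointDict Fermat.Agent.BR.S0.RedModular
  Fermat.Agent.BR.S0.RedHyp
  Fermat.Agent.BR2.SetupOfData Fermat.Agent.BR3.FibreProd Fermat.Agent.BR3.CircleN
  Fermat.Agent.BR3.SRef Fermat.Agent.BR3.SRef.Modular Fermat.Agent.BR3.CoverDict
  Fermat.Agent.BR3.SDD.Partition Fermat.Agent.BR3.SDD.Modular Fermat.Agent.BR3.KummerGenus
  Fermat.Agent.BR3.KummerGenus.MidInst Fermat.Agent.BR2.LevelGen Fermat.Agent.BR3.CoverK
  Fermat.Agent.BR.ConstRedTwo Fermat.Agent.BR3.CInfRes Fermat.Agent.BR.TwoVal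
  Fermat.Agent.BR3.SDD.ModularEt Fermat.Agent.BR3.SDD.ModularZePart
  Fermat.Agent.BR3.SDD.ModularTubesMid Fermat.Agent.BR3.VertPtsU Fermat.Agent.BR3.IgSq
  Fermat.Agent.BR3.ThickSDDPlug Fermat.Agent.BR3.RegAtlas Fermat.Agent.BR3.SDD.ModularTubesMidDisj
  Fermat.Agent.BR3.SDD.ModularNodeK

local notation "Qb" => AlgebraicClosure ℚ

variable {M q : ℕ} [NeZero M] [hq : Fact q.Prime] [NeZero q]
variable (B : ValuationSubring (AlgebraicClosure ℚ)) (hB : B.LiesOverPrime q) (hqM : ¬ q ∣ M)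
variable [IsAlgClosed (ResidueField B)] [CharP (ResidueField B) q]
variable {ζ : Kbˣ} (hζ : IsPrimitiveRoot ζ q)
variable (h2 : nuTwo M = 0) (h3 : nuThree M = 0)

local notation "kB" => IsLocalRing.ResidueField B
local notation "FtM" => modularFunctionFieldFullC (IsLocalRing.ResidueField B) M

/-- (shortcut instances) -/
local instance (priority := 100000) instAlgebraFtMShortcutPDone :
    Algebra (IsLocalRing.ResidueField B)
      (modularFunctionFieldFullC (IsLocalRing.ResidueField B) M) :=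
  inferInstance
local instance (priority := 100000) instAlgKFMidPDone :
    Algebra (IsLocalRing.ResidueField B) (FMid M B) := inferInstance
local instance (priority := 100000) instAlgFtFMidPDone :
    Algebra (modularFunctionFieldFullC (IsLocalRing.ResidueField B) M) (FMid M B) := inferInstance
local instance (priority := 100000) instTowerMidPDone :
    IsScalarTower (IsLocalRing.ResidueField B)
      (modularFunctionFieldFullC (IsLocalRing.ResidueField B) M) (FMid M B) :=
  inferInstance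
local instance (priority := 100000) instFieldFtAllPDone {FZ : SSpM B hB hqM → Type}
    [∀ e, Field (FZ e)] (v : Comp (MidM B hB hqM hζ) (SSpM B hB hqM)) :
    Field (FtAll B hB hqM hζ FZ v) := instFieldFtOf v
local instance (priority := 100000) instAlgFtAllPDone {FZ : SSpM B hB hqM → Type}
    [∀ e, Field (FZ e)] [∀ e, Algebra (IsLocalRing.ResidueField B) (FZ e)]
    (v : Comp (MidM B hB hqM hζ) (SSpM B hB hqM)) :
    Algebra (IsLocalRing.ResidueField B) (FtAll B hB hqM hζ FZ v) := instAlgebraFtOf v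

variable (H : AtlasHyp (chartDataModular B hB hqM) (jx M q))
  (comp : SSpM B hB hqM → KPq q → MidM B hB hqM hζ)
  (hcop : ∀ e : SSpM B hB hqM,
    IsCoprime ((z₁ (chartDataModular B hB hqM) e).ord (deltaMid B hB hqM)) (fMid M B hB : ℤ))
  (tubeKodd : SSpM B hB hqM → KPq q → Set (Place (AlgebraicClosure ℚ) (Fb (M * q * q))))

/-- the Kummer places of the frame -/
local notation "pM" => pMidM B hB hqM hζ comp hcop (FZM B hB hqM h2 h3)
/-- the raw tubes of the smooth points -/
local notation "sT" =>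
  smTubeM B hB hqM hζ (midTubeM B hB hqM hζ H) (TZM B hB hqM h2 h3)

set_option maxHeartbeats 3200000 in
/-- **(PARTITION-DONE, `tubeKodd` arbitrary)** `cover ∧ disjoint` of `SDD.Modular.modelAt_of_raw`
for `nodeTube := nodeTubeM .. (tubeTM ..) (tubeKM .. tubeKodd) (tubeWM ..)`; the named hypotheses
are the four `q ≠ 2` clauses of helper15's `ModularNodeK` on `tubeKodd`. -/
theorem partition_doneK
    (hsurj : ∀ e i, ∃ s, comp e s = i)
    (pMid_injective : ∀ e s e' s', (⟨mid (comp e s), pM e s⟩ :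
      Σ v, Place (ResidueField B) (FtAll B hB hqM hζ (FZM B hB hqM h2 h3) v)) =
        ⟨mid (comp e' s'), pM e' s'⟩ → e = e' ∧ s = s')
    -- the `q ≠ 2` clauses of `ModularNodeK` (literal shapes of `annSheetKM`, `tube_a_nkM`,
    -- `dTK_M`, `dKK_M`)
    (hoddX : q ≠ 2 → ∀ e s, Nonempty (AnnSheet B (tubeKodd e s)
      (alpha2 M q (annulusCoord (DtM B hB hqM) e)) (gaugeA q B hB hqM e) (midDeg q)))
    (hoddA : q ≠ 2 → ∀ e s, ∀ P ∈ tubeKodd e s,
      P.restrictAlong (alpha2 M q) (isIntegral_alpha2 M q) ∈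
        tube (srefM (DtM B hB hqM) (gaugeA q B hB hqM) (admA B hB hqM h2 h3))
          (outer (inputs (DtM B hB hqM)) (gaugeA q B hB hqM) (admA B hB hqM h2 h3) e))
    (hoddTK : q ≠ 2 → ∀ e s P, P ∈ tubeTM B hB hqM h2 h3 e → P ∈ tubeKodd e s → False)
    (hoddKK : q ≠ 2 → ∀ e s s' P, P ∈ tubeKodd e s → P ∈ tubeKodd e s' → s = s') :
    (∀ P, ∃ y, P ∈ tubeS comp (pInfM B hB hqM) pM (zWM B hB hqM h2 h3) (pZeroM B hB hqM)
      (zTM B hB hqM h2 h3) (zKM B hB hqM h2 h3)
      (nodeTubeM B hB hqM (tubeTM B hB hqM h2 h3) (tubeKM B hB hqM h2 h3 tubeKodd)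
        (tubeWM B hB hqM h2 h3)) sT y) ∧
    ∀ P y y',
      P ∈ tubeS comp (pInfM B hB hqM) pM (zWM B hB hqM h2 h3) (pZeroM B hB hqM)
        (zTM B hB hqM h2 h3) (zKM B hB hqM h2 h3)
        (nodeTubeM B hB hqM (tubeTM B hB hqM h2 h3) (tubeKM B hB hqM h2 h3 tubeKodd)
          (tubeWM B hB hqM h2 h3)) sT y →
      P ∈ tubeS comp (pInfM B hB hqM) pM (zWM B hB hqM h2 h3) (pZeroM B hB hqM)
        (zTM B hB hqM h2 h3) (zKM B hB hqM h2 h3)
        (nodeTubeM B hB hqM (tubeTM B hB hqM h2 h3) (tubeKM B hB hqM h2 h3 tubeKodd)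
          (tubeWM B hB hqM h2 h3)) sT y' →
      y = y' :=
  partition_closedM B hB hqM hζ h2 h3 H comp hcop (tubeKM B hB hqM h2 h3 tubeKodd)
    hsurj pMid_injective (hWM_closed B hB hqM h2 h3)
    (fun e s => annSheetKM B hB hqM h2 h3 tubeKodd hoddX e s)
    (fun e s P hP => tube_a_nkM B hB hqM h2 h3 tubeKodd (isIntegral_alpha2 M q) hoddA e s P hP)
    (fun e s P hT hK => dTK_M B hB hqM h2 h3 tubeKodd hoddTK e s P hT hK)
    (fun e s s' P hs hs' => dKK_M B hB hqM h2 h3 tubeKodd hoddKK e s s' P hs hs')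

set_option maxHeartbeats 3200000 in
/-- **(PARTITION-DONE)** `cover ∧ disjoint` of `SDD.Modular.modelAt_of_raw` at THE node tubes of
the frame: `tubeTM`, `tubeKM .. (kumTube ..)`, `tubeWM`.  Named: the annulus sheets (`hoddX`) and
the inclusions along `α₂` (`hoddA`) of helper7's `kumTube` at `q ≠ 2`. -/
theorem partition_done
    (hsurj : ∀ e i, ∃ s, comp e s = i)
    (pMid_injective : ∀ e s e' s', (⟨mid (comp e s), pM e s⟩ :
      Σ v, Place (ResidueField B) (FtAll B hB hqM hζ (FZM B hB hqM h2 h3) v)) =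
        ⟨mid (comp e' s'), pM e' s'⟩ → e = e' ∧ s = s')
    (hoddX : q ≠ 2 → ∀ e s, Nonempty (AnnSheet B
      (Fermat.Agent.BR3.KummerNodeInputs.kumTube B hB hqM h2 h3 e s)
      (alpha2 M q (annulusCoord (DtM B hB hqM) e)) (gaugeA q B hB hqM e) (midDeg q)))
    (hoddA : q ≠ 2 → ∀ e s,
      ∀ P ∈ Fermat.Agent.BR3.KummerNodeInputs.kumTube B hB hqM h2 h3 e s,
      P.restrictAlong (alpha2 M q) (isIntegral_alpha2 M q) ∈
        tube (srefM (DtM B hB hqM) (gaugeA q B hB hqM) (admA B hB hqM h2 h3))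
          (outer (inputs (DtM B hB hqM)) (gaugeA q B hB hqM) (admA B hB hqM h2 h3) e)) :
    (∀ P, ∃ y, P ∈ tubeS comp (pInfM B hB hqM) pM (zWM B hB hqM h2 h3) (pZeroM B hB hqM)
      (zTM B hB hqM h2 h3) (zKM B hB hqM h2 h3)
      (nodeTubeM B hB hqM (tubeTM B hB hqM h2 h3)
        (tubeKM B hB hqM h2 h3 (Fermat.Agent.BR3.KummerNodeInputs.kumTube B hB hqM h2 h3))
        (tubeWM B hB hqM h2 h3)) sT y) ∧
    ∀ P y y',
      P ∈ tubeS comp (pInfM B hB hqM) pM (zWM B hB hqM h2 h3) (pZeroM B hB hqM)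
        (zTM B hB hqM h2 h3) (zKM B hB hqM h2 h3)
        (nodeTubeM B hB hqM (tubeTM B hB hqM h2 h3)
          (tubeKM B hB hqM h2 h3 (Fermat.Agent.BR3.KummerNodeInputs.kumTube B hB hqM h2 h3))
          (tubeWM B hB hqM h2 h3)) sT y →
      P ∈ tubeS comp (pInfM B hB hqM) pM (zWM B hB hqM h2 h3) (pZeroM B hB hqM)
        (zTM B hB hqM h2 h3) (zKM B hB hqM h2 h3)
        (nodeTubeM B hB hqM (tubeTM B hB hqM h2 h3)
          (tubeKM B hB hqM h2 h3 (Fermat.Agent.BR3.KummerNodeInputs.kumTube B hB hqM h2 h3))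
          (tubeWM B hB hqM h2 h3)) sT y' →
      y = y' :=
  partition_doneK B hB hqM hζ h2 h3 H comp hcop
    (Fermat.Agent.BR3.KummerNodeInputs.kumTube B hB hqM h2 h3) hsurj pMid_injective hoddX hoddA
    (fun _ => Fermat.Agent.BR3.KummerTubeDisj.dTK_kum B hB hqM h2 h3 (isIntegral_alpha2 M q))
    (fun _ => Fermat.Agent.BR3.KummerTubeDisj.dKK_kum B hB hqM h2 h3)

end Fermat.Agent.BR3.SDD.ModularPlug
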