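import Fermat.Agent.BR3.SDD.ModularFinal
import Fermat.Agent.BR3.SDD.ModularCompM
import Fermat.Agent.BR3.SDD.ModularCompFinal
import Fermat.Agent.BR3.SDD.ModularNodeK
import Fermat.Agent.BR3.SDD.PartitionDone
import Fermat.Agent.BR3.SDD.ModularTubesMidFinal
import Fermat.Agent.BR3.SDD.ModularG7
import Fermat.Agent.BR3.SDD.ModularVert
import Fermat.Agent.BR3.KummerNodeFam
import Fermat.Agent.BR3.KummerNodeOutFam
import Fermat.Agent.BR3.SDD.ModularNodeKTubes
import Fermat.Agent.BR3.SDD.ModularSepFinal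
import Fermat.Agent.BR3.SDD.ModularTheta
import Fermat.Agent.BR3.KummerTubeFam
import Fermat.Agent.BR3.KummerTubeFamEquiv
import Fermat.Agent.BR3.EquivRestM
import Fermat.Agent.BR3.EquivTubesMNodes
import Fermat.Agent.BR3.EquivTubesVertMod

/-!
# Program C (S36), node (FINAL-B): second engine of the final call

On top of helper20's frame `ModularFinal.modelAt_final_Z` (the group (Z), the horizontal charts and
the thickness at the wild nodes plugged), THE remaining closed groups are plugged: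

* `comp := compF` (`ModularCompM.compM` at `hex := ModularCompFinal.hex_modular`),
  `pMid := pMidM … compF hcop FZM`, `comp_surj`, `hsurj`, `pMid_injective`;
* the node tubes `tubeTM`, `tubeKM … kumTube`, `tubeWM`, the middle tubes `midTubeM … atlas`;
* `cover`, `disjoint := partition_done` (named: `hoddX`, `hoddA`);
* `smMid := smMidF`;
* the three node columns: `ModularNodeT` (`nT e`), `ModularNodeK` (`nk e s`, from the named
  `NodeKOdd`), `ModularNodeW` at `HW := hWM_closed` (`nW e`), with `(G3)`;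
* `(G7)` `dM hdM hRH := ModularG7`; `(G5)` `e₂ := q + 1`, `hvert := ModularVert.hvertM`.

`XF` : THE by-cases input of the final call;
`modelAt_finalB_core` : `S36Plug.ModelAt M q lam B` from the groups `sep_comp`, `sep` (separation),
`hrest` (G4) and `ht` (G6) in their literal shapes at `XF`.
-/

set_option autoImplicit false
set_option linter.style.haveILetI false
set_option linter.unusedSectionVars false
set_option linter.unusedVariables false
set_option linter.style.longLine false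
set_option synthInstance.maxHeartbeats 400000
set_option maxHeartbeats 4000000
set_option backward.isDefEq.respectTransparency.types true

open ModularCurve AlgebraicCurve

noncomputable section

namespace Fermat.Agent.BR3.SDD.ModularFinalB

open IsLocalRing Fermat.Agent.Jac Fermat.Agent.X0 Fermat.Agent.Red Fermat.Agent.Val
  Fermat.Agent.BR.SS Fermat.Agent.BR Fermat.Agent.BR.InertiaRed Fermat.Agent.BR.UnramCyclo
  Fermat.Agent.BR3.EquivInert Fermat.Agent.BR3.TorGlue Fermat.Agent.BR2.Filt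
  Fermat.Agent.BR3.FiltMaps Fermat.Agent.BR3.FiltPerm
  Fermat.Agent.BR.S0 Fermat.Agent.BR.S0.PointDict Fermat.Agent.BR.S0.RedModular
  Fermat.Agent.BR3.FibreProd Fermat.Agent.BR.TwoVal Fermat.Agent.BR.Refine
  Fermat.Agent.BR.Circle Fermat.Agent.BR3.CircleN Fermat.Agent.BR3.SplitBranch
  Fermat.Agent.BR3.ThickSDDPlug Fermat.Agent.BR3.SDD.Partition Fermat.Agent.BR3.SRef
  Fermat.Agent.BR3.SRef.Modular
  Fermat.Agent.BR2.SetupOfData Fermat.Agent.BR3.SDD.Modular Fermat.Agent.BR3.SDD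
  Fermat.Agent.BR3.VertPtsU Fermat.Agent.BR3.IgSq Fermat.Agent.BR3.VertBetaFr
  Fermat.Agent.BR3.KummerGenus Fermat.Agent.BR3.KummerGenus.MidInst
  Fermat.Agent.BR3.SDD.ModularFinal Fermat.Agent.BR3.SDD.ModularCompM
  Fermat.Agent.BR3.SDD.ModularCompFinal Fermat.Agent.BR3.SDD.ModularPlug
  Fermat.Agent.BR3.SDD.ModularTubesMid Fermat.Agent.BR3.SDD.ModularTubesMidFinal
  Fermat.Agent.BR3.KummerNodeInputs Fermat.Agent.BR3.SDD.ModularVert

local notation "Qb" => AlgebraicClosure ℚ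

variable {M q : ℕ} [NeZero M] [hq : Fact q.Prime] [NeZero q]
variable (B : ValuationSubring (AlgebraicClosure ℚ)) (hB : B.LiesOverPrime q) (hqM : ¬ q ∣ M)
variable [IsAlgClosed (ResidueField B)] [CharP (ResidueField B) q]
variable {ζ : Kbˣ} (hζ : IsPrimitiveRoot ζ q)

local notation "kB" => IsLocalRing.ResidueField B
local notation "FtM" => modularFunctionFieldFullC (IsLocalRing.ResidueField B) M

/-- (shortcut instances) -/
local instance (priority := 100000) instAlgebraFtMShortcutFinB :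
    Algebra (IsLocalRing.ResidueField B)
      (modularFunctionFieldFullC (IsLocalRing.ResidueField B) M) :=
  inferInstance
local instance (priority := 100000) instAlgKFMidFinB :
    Algebra (IsLocalRing.ResidueField B) (FMid M B) := inferInstance
local instance (priority := 100000) instAlgFtFMidFinB :
    Algebra (modularFunctionFieldFullC (IsLocalRing.ResidueField B) M) (FMid M B) := inferInstance
local instance (priority := 100000) instTowerMidFinB :
    IsScalarTower (IsLocalRing.ResidueField B)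
      (modularFunctionFieldFullC (IsLocalRing.ResidueField B) M) (FMid M B) :=
  inferInstance
local instance (priority := 100000) instFieldFtAllFinB {FZ : SSpM B hB hqM → Type}
    [∀ e, Field (FZ e)] (v : Comp (MidM B hB hqM hζ) (SSpM B hB hqM)) :
    Field (FtAll B hB hqM hζ FZ v) := instFieldFtOf v
local instance (priority := 100000) instAlgFtAllFinB {FZ : SSpM B hB hqM → Type}
    [∀ e, Field (FZ e)] [∀ e, Algebra (IsLocalRing.ResidueField B) (FZ e)]
    (v : Comp (MidM B hB hqM hζ) (SSpM B hB hqM)) :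
    Algebra (IsLocalRing.ResidueField B) (FtAll B hB hqM hζ FZ v) := instAlgebraFtOf v

variable (h2 : nuTwo M = 0) (h3 : nuThree M = 0)

/-! ### `comp`, `pMid` -/

include h2 h3 in
/-- **`hcop`** of the final call -/
theorem hcopF : ∀ e : SSpM B hB hqM,
    IsCoprime ((z₁ (chartDataModular B hB hqM) e).ord (deltaMid B hB hqM)) (fMid M B hB : ℤ) :=
  ModularNodeK.hcopM B hB hqM h2 h3

/-- **THE map `comp` of the final call** -/
def compF : SSpM B hB hqM → KPq q → MidM B hB hqM hζ :=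
  haveI := Fermat.Agent.BR3.KummerNodeFam.nonempty_MidM B hB hqM hζ
  compM B hB hqM h2 h3 hζ (hcopF B hB hqM h2 h3)
    (hex_modular B hB hqM h2 h3 hζ (hcopF B hB hqM h2 h3))

/-- `hsurj` -/
theorem compF_hall (e : SSpM B hB hqM) (i : MidM B hB hqM hζ) :
    ∃ s, compF B hB hqM hζ h2 h3 e s = i :=
  haveI := Fermat.Agent.BR3.KummerNodeFam.nonempty_MidM B hB hqM hζ
  compM_hall B hB hqM h2 h3 hζ (hcopF B hB hqM h2 h3)
    (hex_modular B hB hqM h2 h3 hζ (hcopF B hB hqM h2 h3)) e i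

/-- `comp_surj` -/
theorem compF_surj (i : MidM B hB hqM hζ) : ∃ e s, compF B hB hqM hζ h2 h3 e s = i :=
  haveI := Fermat.Agent.BR3.KummerNodeFam.nonempty_MidM B hB hqM hζ
  compM_surj B hB hqM h2 h3 hζ (hcopF B hB hqM h2 h3)
    (hex_modular B hB hqM h2 h3 hζ (hcopF B hB hqM h2 h3)) i

/-- the Kummer places of the final call -/
local notation "pMF" =>
  pMidM B hB hqM hζ (compF B hB hqM hζ h2 h3) (hcopF B hB hqM h2 h3) (FZM B hB hqM h2 h3)

/-- `pMid_injective` -/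
theorem pMidF_injective (e : SSpM B hB hqM) (s : KPq q) (e' : SSpM B hB hqM) (s' : KPq q)
    (h : (⟨mid (compF B hB hqM hζ h2 h3 e s), pMF e s⟩ :
        Σ v, Place (ResidueField B) (FtAll B hB hqM hζ (FZM B hB hqM h2 h3) v)) =
      ⟨mid (compF B hB hqM hζ h2 h3 e' s'), pMF e' s'⟩) :
    e = e' ∧ s = s' :=
  haveI := Fermat.Agent.BR3.KummerNodeFam.nonempty_MidM B hB hqM hζ
  pMidM_injective B hB hqM h2 h3 hζ (hcopF B hB hqM h2 h3)
    (hex_modular B hB hqM h2 h3 hζ (hcopF B hB hqM h2 h3)) (FZM B hB hqM h2 h3) e s e' s' h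

/-! ### the tubes, the named hypotheses at `q ≠ 2`, the partition -/

/-- the atlas of the frame -/
local notation "atlM" => Fermat.Agent.BR2.SetupOfData.atlas (DtM B hB hqM)

/-- the raw tubes of the middle components -/
local notation "mTubeF" => midTubeM B hB hqM hζ atlM

/-- the raw tubes of the nodes -/
local notation "nTubeF" =>
  nodeTubeM B hB hqM (tubeTM B hB hqM h2 h3)
    (ModularNodeK.tubeKM B hB hqM h2 h3 (kumTube B hB hqM h2 h3)) (tubeWM B hB hqM h2 h3)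

/-- the raw tubes of the smooth points -/
local notation "sTubeF" => smTubeM B hB hqM hζ mTubeF (TZM B hB hqM h2 h3)

/-- **The named hypotheses of the Kummer nodes at `q ≠ 2`** (N2 column, on helper7's `kumTube`):
`ModularNodeK.NodeKOdd` at `comp := compF`, and the clauses `hoddX`, `hoddA` of
`PartitionDone.partition_done`. -/
def OddHyp : Prop :=
  ModularNodeK.NodeKOdd B hB hqM hζ h2 h3 (compF B hB hqM hζ h2 h3) (kumTube B hB hqM h2 h3) ∧
  (q ≠ 2 → ∀ e s, Nonempty (AnnSheet B (kumTube B hB hqM h2 h3 e s)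
      (alpha2 M q (annulusCoord (DtM B hB hqM) e)) (gaugeA q B hB hqM e) (midDeg q))) ∧
  (q ≠ 2 → ∀ e s, ∀ P ∈ kumTube B hB hqM h2 h3 e s,
      P.restrictAlong (alpha2 M q) (isIntegral_alpha2 M q) ∈
        tube (srefM (DtM B hB hqM) (gaugeA q B hB hqM) (admA B hB hqM h2 h3))
          (outer (inputs (DtM B hB hqM)) (gaugeA q B hB hqM) (admA B hB hqM h2 h3) e))

/-- **The named hypotheses of the Kummer nodes at `q ≠ 2` are theorems**: `NodeKOdd` from
helper22's `KummerNodeOutFam.nodePkg_compU`, `hoddX`, `hoddA` from helper15's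
`ModularNodeKTubes` (`annSheet_kum`, `tube_a_kum`). -/
theorem oddHypF : OddHyp B hB hqM hζ h2 h3 := by
  haveI := Fermat.Agent.BR3.KummerNodeFam.nonempty_MidM B hB hqM hζ
  refine ⟨?_, ?_, ?_⟩
  · intro hq2 e s
    exact Fermat.Agent.BR3.KummerNodeOutFam.nodePkg_compU B hB hqM h2 h3 hζ
      (hcopF B hB hqM h2 h3) (hex_modular B hB hqM h2 h3 hζ (hcopF B hB hqM h2 h3))
      (hvalM B hB hqM h2 h3 hζ (hcopF B hB hqM h2 h3)
        (hex_modular B hB hqM h2 h3 hζ (hcopF B hB hqM h2 h3))) hq2 e s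
  · intro hq2 e s
    exact ModularNodeKFinal.annSheet_kum B hB hqM h2 h3 hζ (hcopF B hB hqM h2 h3)
      (hex_modular B hB hqM h2 h3 hζ (hcopF B hB hqM h2 h3))
      (hvalM B hB hqM h2 h3 hζ (hcopF B hB hqM h2 h3)
        (hex_modular B hB hqM h2 h3 hζ (hcopF B hB hqM h2 h3))) hq2 e s
  · intro _ e s
    exact ModularNodeKFinal.tube_a_kum B hB hqM h2 h3 (isIntegral_alpha2 M q) e s

/-- **`cover ∧ disjoint`** of the final call -/
theorem partitionF (Ho : OddHyp B hB hqM hζ h2 h3) :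
    (∀ P, ∃ y, P ∈ tubeS (compF B hB hqM hζ h2 h3) (pInfM B hB hqM) pMF (zWM B hB hqM h2 h3)
      (pZeroM B hB hqM) (zTM B hB hqM h2 h3) (zKM B hB hqM h2 h3) nTubeF sTubeF y) ∧
    ∀ P y y',
      P ∈ tubeS (compF B hB hqM hζ h2 h3) (pInfM B hB hqM) pMF (zWM B hB hqM h2 h3)
        (pZeroM B hB hqM) (zTM B hB hqM h2 h3) (zKM B hB hqM h2 h3) nTubeF sTubeF y →
      P ∈ tubeS (compF B hB hqM hζ h2 h3) (pInfM B hB hqM) pMF (zWM B hB hqM h2 h3)
        (pZeroM B hB hqM) (zTM B hB hqM h2 h3) (zKM B hB hqM h2 h3) nTubeF sTubeF y' →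
      y = y' :=
  partition_done B hB hqM hζ h2 h3 atlM (compF B hB hqM hζ h2 h3) (hcopF B hB hqM h2 h3)
    (compF_hall B hB hqM hζ h2 h3) (pMidF_injective B hB hqM hζ h2 h3) Ho.2.1 Ho.2.2

/-- **`smMid`** of the final call -/
def smMidFF (i : MidM B hB hqM hζ)
    (Q : Place (ResidueField B) (FtAll B hB hqM hζ (FZM B hB hqM h2 h3) (mid i)))
    (h : ∀ e s, (⟨mid i, Q⟩ :
        Σ v, Place (ResidueField B) (FtAll B hB hqM hζ (FZM B hB hqM h2 h3) v)) ≠
      ⟨mid (compF B hB hqM hζ h2 h3 e s), pMF e s⟩) :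
    SmoothChart B (CAll B hB hqM hζ (CZM B hB hqM h2 h3) (mid i)).O
      (CAll B hB hqM hζ (CZM B hB hqM h2 h3) (mid i)).res Q (sTubeF ⟨mid i, Q⟩) :=
  smMidF B hB hqM hζ h2 h3 (compF B hB hqM hζ h2 h3) pMF (TZM B hB hqM h2 h3)
    (CZM B hB hqM h2 h3)
    (complMid_pMid B hB hqM hζ (FZ := FZM B hB hqM h2 h3) (compF B hB hqM hζ h2 h3)
      (hcopF B hB hqM h2 h3) (compF_hall B hB hqM hζ h2 h3)) i Q h

/-! ### THE by-cases input of the final call -/

/-- **THE by-cases input `X` of the final call** (`ModularRaw.XRaw` at THE family). -/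
def XF (Ho : OddHyp B hB hqM hζ h2 h3) :
    CaseInput (F := Fb (M * q * q)) B (MidM B hB hqM hζ) (SSpM B hB hqM) (KPq q)
      (FtAll B hB hqM hζ (FZM B hB hqM h2 h3)) :=
  XRaw B hB hqM hζ h2 h3 (CZM B hB hqM h2 h3) (hZcM B hB hqM h2 h3) (compF B hB hqM hζ h2 h3)
    (compF_surj B hB hqM hζ h2 h3) pMF
    (zTM B hB hqM h2 h3) (zKM B hB hqM h2 h3) (zWM B hB hqM h2 h3)
    (pMidF_injective B hB hqM hζ h2 h3)
    (zKM_injective B hB hqM h2 h3) (zTM_ne_zKM B hB hqM h2 h3) (zWM_ne_zTM B hB hqM h2 h3)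
    (zWM_ne_zKM B hB hqM h2 h3) nTubeF sTubeF
    (partitionF B hB hqM hζ h2 h3 Ho).1 (partitionF B hB hqM hζ h2 h3 Ho).2
    (smInfM B hB hqM hζ (CZM B hB hqM h2 h3) mTubeF (TZM B hB hqM h2 h3))
    (smZeroM B hB hqM hζ (CZM B hB hqM h2 h3) mTubeF (TZM B hB hqM h2 h3))
    (smMidFF B hB hqM hζ h2 h3)
    (smZeF B hB hqM hζ h2 h3 mTubeF)
    (fun e => chTM B hB hqM h2 h3 e hζ)
    (fun e s => ModularNodeK.chKM B hB hqM hζ h2 h3 (compF B hB hqM hζ h2 h3)
      (kumTube B hB hqM h2 h3) Ho.1 e s)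
    (fun e => chWM B hB hqM h2 h3 hζ (hWM_closed B hB hqM h2 h3) e)

theorem XF_C (Ho : OddHyp B hB hqM hζ h2 h3) :
    (XF B hB hqM hζ h2 h3 Ho).C = CAll B hB hqM hζ (CZM B hB hqM h2 h3) := rfl

/-! ### the final call, modulo separation, (G4), (G6) -/

/-- **(FINAL-B, core)** `S36Plug.ModelAt M q lam B` from the groups `sep_comp`, `sep`
(separation), `hrest` (G4) and `ht` (G6) at THE input `XF`, and the named hypotheses of the
Kummer nodes at `q ≠ 2`. -/
theorem modelAt_finalB_core [Fintype (SSpM B hB hqM)] (Ho : OddHyp B hB hqM hζ h2 h3)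
    (sep_comp : ∀ x w, w ≠ (XF B hB hqM hζ h2 h3 Ho).toInput.setup.src x →
      w ≠ (XF B hB hqM hζ h2 h3 Ho).toInput.setup.tgt x →
      SepComp (XF B hB hqM hζ h2 h3 Ho).toInput.setup x w)
    (sep : ∀ x x', x ≠ x' → Separated (XF B hB hqM hζ h2 h3 Ho).toInput.setup x x')
    (lam : ℕ) (hlam : lam.Prime) (hqlam : q ≠ lam)
    (hrest : ∀ s ∈ B.inertiaSubgroupIn ℚ, s (unifSDD q) = unifSDD q →
      (∀ a ∈ cycloField Qb q, s a = a) → (∀ ζ' : Qb, ζ' ^ q = 1 → s ζ' = ζ') →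
      (∀ e, ActsTrivially ((CZM B hB hqM h2 h3) e).O (galAut (M * q * q) s)) ∧
      (∀ x, ∀ P ∈ nTubeF x, galAut (M * q * q) s • P ∈ nTubeF x) ∧
      (∀ y, ∀ P ∈ sTubeF y, galAut (M * q * q) s • P ∈ sTubeF y) ∧
      (∀ e, galAut (M * q * q) s • (LTM B hB hqM h2 h3 e).u = (LTM B hB hqM h2 h3 e).u) ∧
      (∀ e t, galAut (M * q * q) s •
          (ModularNodeK.LKM B hB hqM hζ h2 h3 (compF B hB hqM hζ h2 h3)
            (kumTube B hB hqM h2 h3) Ho.1 e t).u =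
        (ModularNodeK.LKM B hB hqM hζ h2 h3 (compF B hB hqM hζ h2 h3)
            (kumTube B hB hqM h2 h3) Ho.1 e t).u) ∧
      ∀ e, galAut (M * q * q) s • (LWM B hB hqM h2 h3 (hWM_closed B hB hqM h2 h3) e).u =
        (LWM B hB hqM h2 h3 (hWM_closed B hB hqM h2 h3) e).u)
    (ht : S36Plug.TameProp M q lam B (XF B hB hqM hζ h2 h3 Ho).toInput) :
    S36Plug.ModelAt M q lam B :=
  modelAt_final_Z B hB hqM hζ h2 h3 (compF B hB hqM hζ h2 h3) (compF_surj B hB hqM hζ h2 h3) pMF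
    (pMidF_injective B hB hqM hζ h2 h3) (tubeTM B hB hqM h2 h3)
    (ModularNodeK.tubeKM B hB hqM h2 h3 (kumTube B hB hqM h2 h3)) (tubeWM B hB hqM h2 h3) mTubeF
    (partitionF B hB hqM hζ h2 h3 Ho).1 (partitionF B hB hqM hζ h2 h3 Ho).2
    (smMidFF B hB hqM hζ h2 h3)
    (fun e => chTM B hB hqM h2 h3 e hζ)
    (fun e s => ModularNodeK.chKM B hB hqM hζ h2 h3 (compF B hB hqM hζ h2 h3)
      (kumTube B hB hqM h2 h3) Ho.1 e s)
    (fun e => chWM B hB hqM h2 h3 hζ (hWM_closed B hB hqM h2 h3) e)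
    (ιT := fun e => ιTM B hB hqM h2 h3 e)
    (ιK := fun e s => ModularNodeK.ιKM B hB hqM hζ h2 h3 (compF B hB hqM hζ h2 h3)
      (kumTube B hB hqM h2 h3) Ho.1 e s)
    (ιW := fun e => Fermat.Agent.BR3.SplitNode.idxInB B hB hqM h2 h3 (Fr B hB hqM e))
    (fun e => LTM B hB hqM h2 h3 e)
    (fun e s => ModularNodeK.LKM B hB hqM hζ h2 h3 (compF B hB hqM hζ h2 h3)
      (kumTube B hB hqM h2 h3) Ho.1 e s)
    (fun e => LWM B hB hqM h2 h3 (hWM_closed B hB hqM h2 h3) e)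
    (fun e => T₁M B hB hqM h2 h3 e hζ) (fun e => T₂M B hB hqM h2 h3 e hζ)
    (fun e s => ModularNodeK.K₁M B hB hqM hζ h2 h3 (compF B hB hqM hζ h2 h3)
      (kumTube B hB hqM h2 h3) Ho.1 e s)
    (fun e s => ModularNodeK.K₂M B hB hqM hζ h2 h3 (compF B hB hqM hζ h2 h3)
      (kumTube B hB hqM h2 h3) Ho.1 e s)
    (fun e => W₁M B hB hqM h2 h3 hζ (hWM_closed B hB hqM h2 h3) e)
    (fun e => W₂M B hB hqM h2 h3 hζ (hWM_closed B hB hqM h2 h3) e)
    (fun e => T_v_srcM B hB hqM h2 h3 e hζ) (fun e => T_u_tgtM B hB hqM h2 h3 e hζ)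
    (fun e s => ModularNodeK.K_v_srcM B hB hqM hζ h2 h3 (compF B hB hqM hζ h2 h3)
      (kumTube B hB hqM h2 h3) Ho.1 e s)
    (fun e s => ModularNodeK.K_u_tgtM B hB hqM hζ h2 h3 (compF B hB hqM hζ h2 h3)
      (kumTube B hB hqM h2 h3) Ho.1 e s)
    (fun e => W_v_srcM B hB hqM h2 h3 hζ (hWM_closed B hB hqM h2 h3) e)
    (fun e => W_u_tgtM B hB hqM h2 h3 hζ (hWM_closed B hB hqM h2 h3) e)
    (fun e => T_unif₁M B hB hqM h2 h3 e hζ) (fun e => T_unif₂M B hB hqM h2 h3 e hζ)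
    (fun e s => ModularNodeK.K_unif₁M B hB hqM hζ h2 h3 (compF B hB hqM hζ h2 h3)
      (kumTube B hB hqM h2 h3) Ho.1 e s)
    (fun e s => ModularNodeK.K_unif₂M B hB hqM hζ h2 h3 (compF B hB hqM hζ h2 h3)
      (kumTube B hB hqM h2 h3) Ho.1 e s)
    (fun e => W_unif₁M B hB hqM h2 h3 hζ (hWM_closed B hB hqM h2 h3) e)
    (fun e => W_unif₂M B hB hqM h2 h3 hζ (hWM_closed B hB hqM h2 h3) e)
    sep_comp sep lam hlam hqlam (compF_hall B hB hqM hζ h2 h3)
    (dMM_G7 B hB hqM hζ) (hdM_G7 B hB hqM hζ) (hRH_G7 B hB hqM hζ h2 h3)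
    (ModularNodeK.κ₀M B hB hqM hζ h2 h3 (compF B hB hqM hζ h2 h3) (kumTube B hB hqM h2 h3) Ho.1)
    (fun e => hTM B hB hqM h2 h3 e)
    (fun e => hWM B hB hqM h2 h3 (hWM_closed B hB hqM h2 h3) e)
    (fun e s => ModularNodeK.hκM B hB hqM hζ h2 h3 (compF B hB hqM hζ h2 h3)
      (kumTube B hB hqM h2 h3) Ho.1 e s)
    (fun e s => ModularNodeK.hKM B hB hqM hζ h2 h3 (compF B hB hqM hζ h2 h3)
      (kumTube B hB hqM h2 h3) Ho.1 e s)
    hrest (q + 1) (Nat.succ_ne_zero q)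
    (hvertM B hB hqM h2 h3 (XF B hB hqM hζ h2 h3 Ho) (fun e => rfl)) ht

/-! ### separation -/

/-- **`hpole`** : the Kummer function has no pole on the raw tubes of the Kummer nodes -/
theorem hpoleF (e : SSpM B hB hqM) (s : KPq q) :
    ∀ P ∈ ModularNodeK.tubeKM B hB hqM h2 h3 (kumTube B hB hqM h2 h3) e s,
      0 ≤ P.ord (ModularTheta.ThetaM B hB hqM h2 h3 e) := by
  intro P hP
  by_cases hq2 : q = 2
  · rw [ModularTheta.ThetaM_of_two B hB hqM h2 h3 hq2, Place.ord_one]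
  · rw [ModularTheta.ThetaM_of_ne_two B hB hqM h2 h3 hq2]
    rw [ModularNodeK.tubeKM_of_ne_two B hB hqM h2 h3 _ hq2] at hP
    exact Fermat.Agent.BR3.KummerTubeFam.hpole_kum B hB hqM h2 h3 e s P hP

/-- **`sep_comp`** of the final call -/
theorem sep_compF (Ho : OddHyp B hB hqM hζ h2 h3) :
    ∀ x w, w ≠ (XF B hB hqM hζ h2 h3 Ho).toInput.setup.src x →
      w ≠ (XF B hB hqM hζ h2 h3 Ho).toInput.setup.tgt x →
      SepComp (XF B hB hqM hζ h2 h3 Ho).toInput.setup x w :=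
  ModularSepFinal.sep_comp_final B hB hqM hζ h2 h3 (compF B hB hqM hζ h2 h3)
    (compF_surj B hB hqM hζ h2 h3) pMF (pMidF_injective B hB hqM hζ h2 h3)
    (ModularNodeK.tubeKM B hB hqM h2 h3 (kumTube B hB hqM h2 h3)) (tubeWM B hB hqM h2 h3) sTubeF
    (partitionF B hB hqM hζ h2 h3 Ho).1 (partitionF B hB hqM hζ h2 h3 Ho).2
    (smInfM B hB hqM hζ (CZM B hB hqM h2 h3) mTubeF (TZM B hB hqM h2 h3))
    (smZeroM B hB hqM hζ (CZM B hB hqM h2 h3) mTubeF (TZM B hB hqM h2 h3))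
    (smMidFF B hB hqM hζ h2 h3)
    (smZeF B hB hqM hζ h2 h3 mTubeF)
    (fun e => chTM B hB hqM h2 h3 e hζ)
    (fun e s => ModularNodeK.chKM B hB hqM hζ h2 h3 (compF B hB hqM hζ h2 h3)
      (kumTube B hB hqM h2 h3) Ho.1 e s)
    (fun e => chWM B hB hqM h2 h3 hζ (hWM_closed B hB hqM h2 h3) e)
    (isIntegral_alpha2 M q) (Fermat.Agent.BR2.LevelGen.isIntegral_fb (beta2 M q))
    (fun e s P hP => ModularNodeKFinal.tube_a_nkF B hB hqM h2 h3 (isIntegral_alpha2 M q) e s P hP)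
    (fun e P hP => tube_a_nWM B hB hqM h2 h3 (isIntegral_alpha2 M q)
      (Fermat.Agent.BR2.LevelGen.isIntegral_fb (beta2 M q)) e P hP)
    (fun e s P hP => ModularNodeKFinal.tube_b_nkF B hB hqM h2 h3 (isIntegral_alpha2 M q)
      (Fermat.Agent.BR2.LevelGen.isIntegral_fb (beta2 M q)) e s P hP)
    (ModularTheta.ThetaM B hB hqM h2 h3) (ModularTheta.cM B hB hqM h2 h3)
    (ModularTheta.cM_injective B hB hqM h2 h3)
    (fun e i => ModularTheta.ThetaM_mem_mid B hB hqM h2 h3 hζ e i)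
    (ModularTheta.ThetaM_mem_ze B hB hqM h2 h3 hζ)
    (hpoleF B hB hqM h2 h3)
    (ModularTheta.isValueAt_ThetaM B hB hqM h2 h3 hζ)
    (compF_hall B hB hqM hζ h2 h3)

/-- **`sep`** of the final call -/
theorem sepF (Ho : OddHyp B hB hqM hζ h2 h3) :
    ∀ x x', x ≠ x' → Separated (XF B hB hqM hζ h2 h3 Ho).toInput.setup x x' :=
  ModularSepFinal.sep_final B hB hqM hζ h2 h3 (compF B hB hqM hζ h2 h3)
    (compF_surj B hB hqM hζ h2 h3) pMF (pMidF_injective B hB hqM hζ h2 h3)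
    (ModularNodeK.tubeKM B hB hqM h2 h3 (kumTube B hB hqM h2 h3)) (tubeWM B hB hqM h2 h3) sTubeF
    (partitionF B hB hqM hζ h2 h3 Ho).1 (partitionF B hB hqM hζ h2 h3 Ho).2
    (smInfM B hB hqM hζ (CZM B hB hqM h2 h3) mTubeF (TZM B hB hqM h2 h3))
    (smZeroM B hB hqM hζ (CZM B hB hqM h2 h3) mTubeF (TZM B hB hqM h2 h3))
    (smMidFF B hB hqM hζ h2 h3)
    (smZeF B hB hqM hζ h2 h3 mTubeF)
    (fun e => chTM B hB hqM h2 h3 e hζ)
    (fun e s => ModularNodeK.chKM B hB hqM hζ h2 h3 (compF B hB hqM hζ h2 h3)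
      (kumTube B hB hqM h2 h3) Ho.1 e s)
    (fun e => chWM B hB hqM h2 h3 hζ (hWM_closed B hB hqM h2 h3) e)
    (isIntegral_alpha2 M q) (Fermat.Agent.BR2.LevelGen.isIntegral_fb (beta2 M q))
    (fun e s P hP => ModularNodeKFinal.tube_a_nkF B hB hqM h2 h3 (isIntegral_alpha2 M q) e s P hP)
    (fun e P hP => tube_a_nWM B hB hqM h2 h3 (isIntegral_alpha2 M q)
      (Fermat.Agent.BR2.LevelGen.isIntegral_fb (beta2 M q)) e P hP)
    (fun e s P hP => ModularNodeKFinal.tube_b_nkF B hB hqM h2 h3 (isIntegral_alpha2 M q)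
      (Fermat.Agent.BR2.LevelGen.isIntegral_fb (beta2 M q)) e s P hP)
    (ModularTheta.ThetaM B hB hqM h2 h3) (ModularTheta.cM B hB hqM h2 h3)
    (ModularTheta.cM_injective B hB hqM h2 h3)
    (fun e i => ModularTheta.ThetaM_mem_mid B hB hqM h2 h3 hζ e i)
    (ModularTheta.ThetaM_mem_ze B hB hqM h2 h3 hζ)
    (hpoleF B hB hqM h2 h3)
    (ModularTheta.isValueAt_ThetaM B hB hqM h2 h3 hζ)
    (compF_hall B hB hqM hζ h2 h3)

/-! ### (G4) -/

/-- **`hrest`** of the final call -/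
theorem hrestF (Ho : OddHyp B hB hqM hζ h2 h3) :
    ∀ s ∈ B.inertiaSubgroupIn ℚ, s (unifSDD q) = unifSDD q →
      (∀ a ∈ cycloField Qb q, s a = a) → (∀ ζ' : Qb, ζ' ^ q = 1 → s ζ' = ζ') →
      (∀ e, ActsTrivially ((CZM B hB hqM h2 h3) e).O (galAut (M * q * q) s)) ∧
      (∀ x, ∀ P ∈ nTubeF x, galAut (M * q * q) s • P ∈ nTubeF x) ∧
      (∀ y, ∀ P ∈ sTubeF y, galAut (M * q * q) s • P ∈ sTubeF y) ∧
      (∀ e, galAut (M * q * q) s • (LTM B hB hqM h2 h3 e).u = (LTM B hB hqM h2 h3 e).u) ∧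
      (∀ e t, galAut (M * q * q) s •
          (ModularNodeK.LKM B hB hqM hζ h2 h3 (compF B hB hqM hζ h2 h3)
            (kumTube B hB hqM h2 h3) Ho.1 e t).u =
        (ModularNodeK.LKM B hB hqM hζ h2 h3 (compF B hB hqM hζ h2 h3)
            (kumTube B hB hqM h2 h3) Ho.1 e t).u) ∧
      ∀ e, galAut (M * q * q) s • (LWM B hB hqM h2 h3 (hWM_closed B hB hqM h2 h3) e).u =
        (LWM B hB hqM h2 h3 (hWM_closed B hB hqM h2 h3) e).u :=
  Fermat.Agent.BR3.EquivRestM.hrestM B hB hqM hζ mTubeF (TZM B hB hqM h2 h3)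
    (tubeTM B hB hqM h2 h3) (ModularNodeK.tubeKM B hB hqM h2 h3 (kumTube B hB hqM h2 h3))
    (tubeWM B hB hqM h2 h3) (CZM B hB hqM h2 h3)
    (fun e => LTM B hB hqM h2 h3 e)
    (fun e s => ModularNodeK.LKM B hB hqM hζ h2 h3 (compF B hB hqM hζ h2 h3)
      (kumTube B hB hqM h2 h3) Ho.1 e s)
    (fun e => LWM B hB hqM h2 h3 (hWM_closed B hB hqM h2 h3) e)
    (fun s hs h1 _ _ e => actsTrivially_CZM B hB hqM h2 h3 (XF B hB hqM hζ h2 h3 Ho)
      (fun _ => rfl) hs h1 e)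
    (Fermat.Agent.BR3.EquivTubesMNodes.hnTM B hB hqM h2 h3)
    (fun s hs h1 _ _ e t => ModularNodeK.smul_mem_tubeKM_rich B hB hqM h2 h3
      (kumTube B hB hqM h2 h3) hs
      (fun _ => Fermat.Agent.BR3.KummerTubeFam.smul_mem_kumTube_rich_kum B hB hqM h2 h3 hs h1) e t)
    (Fermat.Agent.BR3.EquivTubesMNodes.hnWM B hB hqM h2 h3)
    (fun s hs _ _ hr i Q => hsmMid_richF_all B hB hqM hζ h2 h3 (FZ := FZM B hB hqM h2 h3)
      (TZM B hB hqM h2 h3) hs hr i Q)
    (fun s hs h1 _ _ e Q => Fermat.Agent.BR3.EquivTubesVertMod.smul_mem_zeTubeM_rich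
      B hB hqM h2 h3 hs h1 e Q)
    (Fermat.Agent.BR3.EquivTubesMNodes.huTM B hB hqM h2 h3)
    (fun s hs h1 hc hr e t => ModularNodeK.smul_LKM_u B hB hqM hζ h2 h3
      (compF B hB hqM hζ h2 h3) (kumTube B hB hqM h2 h3) Ho.1 hs h1 hc hr e t)
    (Fermat.Agent.BR3.EquivTubesMNodes.huWM B hB hqM h2 h3 (hWM_closed B hB hqM h2 h3))

/-- **(FINAL-B, modulo (G6))** `S36Plug.ModelAt M q lam B` from `ht` only. -/
theorem modelAt_finalB_of_ht [Fintype (SSpM B hB hqM)]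
    (lam : ℕ) (hlam : lam.Prime) (hqlam : q ≠ lam)
    (ht : S36Plug.TameProp M q lam B
      (XF B hB hqM hζ h2 h3 (oddHypF B hB hqM hζ h2 h3)).toInput) :
    S36Plug.ModelAt M q lam B :=
  modelAt_finalB_core B hB hqM hζ h2 h3 (oddHypF B hB hqM hζ h2 h3)
    (sep_compF B hB hqM hζ h2 h3 (oddHypF B hB hqM hζ h2 h3))
    (sepF B hB hqM hζ h2 h3 (oddHypF B hB hqM hζ h2 h3)) lam hlam hqlam
    (hrestF B hB hqM hζ h2 h3 (oddHypF B hB hqM hζ h2 h3)) ht

end Fermat.Agent.BR3.SDD.ModularFinalB
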