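import Mathlib
import Fermat.Agent.BR3.SDD.ModularNodeTEquiv
import Fermat.Agent.BR3.EquivSRefRotFibre

/-!
# Program C (S36), node (N1-FAM), (G6): the raw tube of `nT e` under EVERY inertia element

`ModularNodeTEquiv.smul_mem_tubeTM` needs `σ (unifSDD q) = unifSDD q` (the rich elements of (G4)).
The tame generator `σ0` of (G6) does not fix `unifSDD q`; but the tube of the OUTER node of
`S'ref_a` at `e` is stable under every element of the inertia group
(`EquivSRefRotFibre.smul_mem_outer_srefM_iff`), and so is the generator `splitW` of the sheet: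

* `smul_mem_tubeTM_inertia` : `P ∈ tubeTM … e → galAut (M q²) σ • P ∈ tubeTM … e` for EVERY
  `σ ∈ B.inertiaSubgroupIn ℚ` (twin of `ModularNodeKTwo.smul_mem_tubeKTwoM`);
* `hnT_inertia` : the clause `hnT` of `ModularTameRaw.tameProp_of_rawTubes` (at `σ0`) and of
  `EquivRestM.hrestM` (at the rich `s`) for `nodeTube (nT e) := tubeTM … e`.
-/

set_option autoImplicit false
set_option linter.unusedSectionVars false
set_option linter.style.haveILetI false
set_option synthInstance.maxHeartbeats 400000

noncomputable section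

namespace Fermat.Agent.BR3.SDD.ModularNodeTame

open ModularCurve AlgebraicCurve IsLocalRing Polynomial
open Fermat.Agent.Red Fermat.Agent.Val Fermat.Agent.X0 Fermat.Agent.Hecke Fermat.Agent.Jac
open Fermat.Agent.BR.SS Fermat.Agent.BR.Refine Fermat.Agent.BR.TwoVal Fermat.Agent.BR.TwoValInst
open Fermat.Agent.BR.Circle Fermat.Agent.BR.S0 Fermat.Agent.BR.S0.PointDict Fermat.Agent.BR.P1
open Fermat.Agent.BR.S0.RedModular Fermat.Agent.BR.Final Fermat.Agent.BR.Inst.AnnulusInstFinal
open Fermat.Agent.BR.InertiaRed Fermat.Agent.BR.ValTwo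
open Fermat.Agent.BR2.SetupOfData Fermat.Agent.BR3.CircleN Fermat.Agent.BR3.SRef
open Fermat.Agent.BR3.SRef.Modular Fermat.Agent.BR3.SDD.Modular Fermat.Agent.BR3.SubAnnChart
open Fermat.Agent.BR3.SplitLevels Fermat.Agent.BR3.SplitBranch Fermat.Agent.BR3.CoverSmooth
open Fermat.Agent.BR3.FibreProd Fermat.Agent.BR3.HeckePoly Fermat.Agent.BR3.SSParam
open Fermat.Agent.BR3.SplitCompsCInf Fermat.Agent.BR3.SplitNode
open Fermat.Agent.BR3.EquivSRefModular Fermat.Agent.BR3.EquivTubes Fermat.Agent.BR3.VertEquivUg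
open Fermat.Agent.BR3.VertEquivMod Fermat.Agent.BR3.ThickSDDPlug
open Fermat.Agent.BR3.EquivSRefRotFibre

local notation "Kb" => AlgebraicClosure ℚ

variable {M q : ℕ} [NeZero M] [hq : Fact q.Prime]
variable (B : ValuationSubring (AlgebraicClosure ℚ)) (hB : B.LiesOverPrime q) (hqM : ¬ q ∣ M)
variable [IsAlgClosed (ResidueField B)] [CharP (ResidueField B) q]
  [PerfectField (ResidueField B)]

local notation "kB" => IsLocalRing.ResidueField B
local notation "FtM" => modularFunctionFieldFullC (IsLocalRing.ResidueField B) M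

/-- (shortcut instance) -/
local instance (priority := 100000) instAlgebraFtMShortcutNodeTame :
    Algebra (IsLocalRing.ResidueField B)
      (modularFunctionFieldFullC (IsLocalRing.ResidueField B) M) :=
  inferInstance

variable (h2 : nuTwo M = 0) (h3 : nuThree M = 0) (e : Crossing (chartDataModular B hB hqM))
  {σ : GQ}

set_option maxHeartbeats 4000000 in
/-- **(G4)/(G6), tubes**: the raw tube of `nT e` is stable under EVERY element of the inertia
group (no hypothesis on `σ (unifSDD q)`). -/
theorem smul_mem_tubeTM_inertia (hσ : σ ∈ B.inertiaSubgroupIn ℚ)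
    {P : Place (AlgebraicClosure ℚ) (Fb (M * q * q))} (hP : P ∈ tubeTM B hB hqM h2 h3 e) :
    galAut (M * q * q) σ • P ∈ tubeTM B hB hqM h2 h3 e := by
  letI := algebraAlong (alpha2 M q)
  haveI := isScalarTower_along (alpha2 M q)
  haveI : Module.Finite (Fb (M * q)) (Fb (M * q * q)) :=
    Fermat.Agent.Hecke.finiteAlong_heckeAlphaBar (M * q) q
  exact smul_mem_coverTube_of_fixed B (galAut (M * q * q) σ) (galAut (M * q) σ)
    (alpha2_galAut σ) (isInertial_galAut (M * q * q) B hσ)
    (fun P' hP' => (smul_mem_outer_srefM_iff (DtM B hB hqM) (gaugeA q B hB hqM)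
      (admA B hB hqM h2 h3) hσ e P').mpr hP')
    (galAut_smul_splitW B hB hσ (zePackM B hB hqM h2 h3 e).P.hg
      (zePackM B hB hqM h2 h3 e).P.hg') (1 : B) hP

/-- **The clause `hnT`** of `ModularTameRaw.tameProp_of_rawTubes` (`σ0` the tame generator) and of
`EquivRestM.hrestM` (the rich elements), for `nodeTube (nT e) := tubeTM … e`: every inertia
element. -/
theorem hnT_inertia (hσ : σ ∈ B.inertiaSubgroupIn ℚ) :
    ∀ e, ∀ Pl ∈ tubeTM B hB hqM h2 h3 e, galAut (M * q * q) σ • Pl ∈ tubeTM B hB hqM h2 h3 e :=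
  fun e _ hPl => smul_mem_tubeTM_inertia B hB hqM h2 h3 e hσ hPl

end Fermat.Agent.BR3.SDD.ModularNodeTame
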