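import Fermat.Agent.BR3.SDD.PartitionDone
import Fermat.Agent.BR3.SDD.ModularNodeKTubes
import Fermat.Agent.BR3.SDD.ModularCompM

/-!
# Program C (S36), node I7 (PARTITION-DONE at THE map `comp`): `cover ∧ disjoint`, hypothesis-free

`partition_doneK` (`PartitionDone`) at

* `comp := compM .. hcop hex` (helper27 `ModularCompM`: THE map `comp` of the final call;
  `hsurj := compM_hall`, `pMid_injective := pMidM_injective .. (FZM ..)`),
* `tubeKodd := kumTube ..` (helper7), i.e. `tubeK := tubeKF ..` (helper15 `ModularNodeKTubes`: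
  `XK` at `q ≠ 2` := `annSheet_kum`, `subK` at `q ≠ 2` := `tube_a_kum`; `dTK`, `dKK` at `q ≠ 2` :=
  helper24's `dTK_kum`, `dKK_kum`).

* **`partition_doneM`** : `cover ∧ disjoint` of `SDD.Modular.modelAt_of_raw` (= the variables
  `cover`, `disjoint` of `ModularFinal.modelAt_final_Z`) at `comp := compM ..`,
  `pMid := pMidM .. (compM ..) hcop (FZM ..)`, `tubeT := tubeTM ..`, `tubeK := tubeKF ..`,
  `tubeW := tubeWM ..`, `midTube := midTubeM .. H` — NO named hypothesis: the inputs are the
  atlas hypothesis `H` (any), `hcop` (final: `hcopM`) and `hex` (final: `hex_modular`), which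
  are parameters of `compM` itself.
-/

set_option autoImplicit false
set_option linter.style.haveILetI false
set_option linter.unusedSectionVars false
set_option linter.unusedVariables false
set_option synthInstance.maxHeartbeats 400000

open ModularCurve AlgebraicCurve

noncomputable section

/- S36 build-time patch: file-local shortcut instances. They only shorten instance search;
each is the instance that the search finds anyway (reducible, same terms after unfolding). -/
local instance (priority := 100000) Fermat.Agent.BR3.FastInst.instAlgFullC_SDD_PartitionDoneM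
    {k : Type*} [Field k] (N : ℕ) :
    Algebra k ↥(ModularCurve.modularFunctionFieldFullC k N) := inferInstance
local instance (priority := 100000) Fermat.Agent.BR3.FastInst.instFieldFullC_SDD_PartitionDoneM
    {k : Type*} [Field k] (N : ℕ) :
    Field ↥(ModularCurve.modularFunctionFieldFullC k N) := inferInstance
local instance (priority := 100000) Fermat.Agent.BR3.FastInst.instAlgLaurent_SDD_PartitionDoneM
    {k : Type*} [Field k] : Algebra k (LaurentSeries k) := inferInstance


namespace Fermat.Agent.BR3.SDD.ModularPlug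

open IsLocalRing Fermat.Agent.X0 Fermat.Agent.Red Fermat.Agent.Val
  Fermat.Agent.BR.SS Fermat.Agent.BR.Refine Fermat.Agent.BR.Circle Fermat.Agent.BR.P1
  Fermat.Agent.BR.AnnulusRed
  Fermat.Agent.BR.S0 Fermat.Agent.BR.S0.PointDict Fermat.Agent.BR.S0.RedModular
  Fermat.Agent.BR.S0.RedHyp
  Fermat.Agent.BR2.SetupOfData Fermat.Agent.BR3.FibreProd Fermat.Agent.BR3.CircleN
  Fermat.Agent.BR3.SRef Fermat.Agent.BR3.SRef.Modular Fermat.Agent.BR3.CoverDict
  Fermat.Agent.BR3.SDD.Partition Fermat.Agent.BR3.SDD.Modular Fermat.Agent.BR3.KummerGenus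
  Fermat.Agent.BR3.KummerGenus.MidInst Fermat.Agent.BR2.LevelGen Fermat.Agent.BR3.CoverK
  Fermat.Agent.BR.ConstRedTwo Fermat.Agent.BR3.CInfRes Fermat.Agent.BR.TwoVal
  Fermat.Agent.BR3.SDD.ModularEt Fermat.Agent.BR3.SDD.ModularZePart
  Fermat.Agent.BR3.SDD.ModularTubesMid Fermat.Agent.BR3.VertPtsU Fermat.Agent.BR3.IgSq
  Fermat.Agent.BR3.ThickSDDPlug Fermat.Agent.BR3.RegAtlas Fermat.Agent.BR3.SDD.ModularTubesMidDisj
  Fermat.Agent.BR3.SDD.ModularNodeK Fermat.Agent.BR3.SDD.ModularNodeKFinal
  Fermat.Agent.BR3.SDD.ModularCompM Fermat.Agent.BR3.KummerNodeInputs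
  Fermat.Agent.BR3.SepNComp Fermat.Agent.BR3.SepNCompRel Fermat.Agent.BR3.KummerCompMod

local notation "Qb" => AlgebraicClosure ℚ

variable {M q : ℕ} [NeZero M] [hq : Fact q.Prime] [NeZero q]
variable (B : ValuationSubring (AlgebraicClosure ℚ)) (hB : B.LiesOverPrime q) (hqM : ¬ q ∣ M)
variable [IsAlgClosed (ResidueField B)] [CharP (ResidueField B) q]
variable {ζ : Kbˣ} (hζ : IsPrimitiveRoot ζ q)
variable (h2 : nuTwo M = 0) (h3 : nuThree M = 0)

local notation "kB" => IsLocalRing.ResidueField B
local notation "FtM" => modularFunctionFieldFullC (IsLocalRing.ResidueField B) M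

/-- (shortcut instances) -/
local instance (priority := 100000) instAlgebraFtMShortcutPDoneM :
    Algebra (IsLocalRing.ResidueField B)
      (modularFunctionFieldFullC (IsLocalRing.ResidueField B) M) :=
  inferInstance
local instance (priority := 100000) instAlgKFMidPDoneM :
    Algebra (IsLocalRing.ResidueField B) (FMid M B) := inferInstance
local instance (priority := 100000) instAlgFtFMidPDoneM :
    Algebra (modularFunctionFieldFullC (IsLocalRing.ResidueField B) M) (FMid M B) := inferInstance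
local instance (priority := 100000) instTowerMidPDoneM :
    IsScalarTower (IsLocalRing.ResidueField B)
      (modularFunctionFieldFullC (IsLocalRing.ResidueField B) M) (FMid M B) :=
  inferInstance
local instance (priority := 100000) instFieldFtAllPDoneM {FZ : SSpM B hB hqM → Type}
    [∀ e, Field (FZ e)] (v : Comp (MidM B hB hqM hζ) (SSpM B hB hqM)) :
    Field (FtAll B hB hqM hζ FZ v) := instFieldFtOf v
local instance (priority := 100000) instAlgFtAllPDoneM {FZ : SSpM B hB hqM → Type}
    [∀ e, Field (FZ e)] [∀ e, Algebra (IsLocalRing.ResidueField B) (FZ e)]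
    (v : Comp (MidM B hB hqM hζ) (SSpM B hB hqM)) :
    Algebra (IsLocalRing.ResidueField B) (FtAll B hB hqM hζ FZ v) := instAlgebraFtOf v

variable (H : AtlasHyp (chartDataModular B hB hqM) (jx M q))
  (hcop : ∀ e : SSpM B hB hqM,
    IsCoprime ((z₁ (chartDataModular B hB hqM) e).ord (deltaMid B hB hqM)) (fMid M B hB : ℤ))
  (hex : q ≠ 2 → ∀ e j, ∃ s, ValAt (CM B hB hqM hζ)
    (MidFamily.pMid B hB hqM (z₁ (chartDataModular B hB hqM)) hcop) (kumTheta B hB hqM h2 h3)
    (fun e s => residue B (kumC0 B hB hqM h2 h3 e s)) e j s)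
  [Nonempty (MidM B hB hqM hζ)]

/-- THE map `comp` of the final call -/
local notation "cM" => compM B hB hqM h2 h3 hζ hcop hex
/-- the Kummer places of the frame -/
local notation "pM" => pMidM B hB hqM hζ (compM B hB hqM h2 h3 hζ hcop hex) hcop
  (FZM B hB hqM h2 h3)
/-- the raw tubes of the smooth points -/
local notation "sT" =>
  smTubeM B hB hqM hζ (midTubeM B hB hqM hζ H) (TZM B hB hqM h2 h3)
/-- the raw tubes of the nodes -/
local notation "nTb" =>
  nodeTubeM B hB hqM (tubeTM B hB hqM h2 h3) (tubeKF B hB hqM h2 h3) (tubeWM B hB hqM h2 h3)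

set_option maxHeartbeats 3200000 in
/-- **(PARTITION-DONE at THE map `comp`)** `cover ∧ disjoint` of `SDD.Modular.modelAt_of_raw`
(the variables `cover`, `disjoint` of `ModularFinal.modelAt_final_Z`) at `comp := compM ..`,
`pMid := pMidM .. (compM ..) hcop (FZM ..)`, `tubeT tubeK tubeW := tubeTM tubeKF tubeWM`,
`midTube := midTubeM .. H`: hypothesis-free. -/
theorem partition_doneM :
    (∀ P, ∃ y, P ∈ tubeS cM (pInfM B hB hqM) pM (zWM B hB hqM h2 h3) (pZeroM B hB hqM)
      (zTM B hB hqM h2 h3) (zKM B hB hqM h2 h3) nTb sT y) ∧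
    ∀ P y y',
      P ∈ tubeS cM (pInfM B hB hqM) pM (zWM B hB hqM h2 h3) (pZeroM B hB hqM)
        (zTM B hB hqM h2 h3) (zKM B hB hqM h2 h3) nTb sT y →
      P ∈ tubeS cM (pInfM B hB hqM) pM (zWM B hB hqM h2 h3) (pZeroM B hB hqM)
        (zTM B hB hqM h2 h3) (zKM B hB hqM h2 h3) nTb sT y' →
      y = y' :=
  partition_doneK B hB hqM hζ h2 h3 H (compM B hB hqM h2 h3 hζ hcop hex) hcop
    (kumTube B hB hqM h2 h3)
    (compM_hall B hB hqM h2 h3 hζ hcop hex)
    (pMidM_injective B hB hqM h2 h3 hζ hcop hex (FZM B hB hqM h2 h3))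
    (fun hq2 e s => annSheet_kum B hB hqM h2 h3 hζ hcop hex
      (hvalM B hB hqM h2 h3 hζ hcop hex) hq2 e s)
    (fun _ e s => tube_a_kum B hB hqM h2 h3 (isIntegral_alpha2 M q) e s)
    (fun _ => Fermat.Agent.BR3.KummerTubeDisj.dTK_kum B hB hqM h2 h3 (isIntegral_alpha2 M q))
    (fun _ => Fermat.Agent.BR3.KummerTubeDisj.dKK_kum B hB hqM h2 h3)

/-- `cover` of `modelAt_final_Z` at THE family -/
theorem cover_doneM :
    ∀ P, ∃ y, P ∈ tubeS cM (pInfM B hB hqM) pM (zWM B hB hqM h2 h3) (pZeroM B hB hqM)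
      (zTM B hB hqM h2 h3) (zKM B hB hqM h2 h3) nTb sT y :=
  (partition_doneM B hB hqM hζ h2 h3 H hcop hex).1

/-- `disjoint` of `modelAt_final_Z` at THE family -/
theorem disjoint_doneM :
    ∀ P y y',
      P ∈ tubeS cM (pInfM B hB hqM) pM (zWM B hB hqM h2 h3) (pZeroM B hB hqM)
        (zTM B hB hqM h2 h3) (zKM B hB hqM h2 h3) nTb sT y →
      P ∈ tubeS cM (pInfM B hB hqM) pM (zWM B hB hqM h2 h3) (pZeroM B hB hqM)
        (zTM B hB hqM h2 h3) (zKM B hB hqM h2 h3) nTb sT y' →
      y = y' :=
  (partition_doneM B hB hqM hζ h2 h3 H hcop hex).2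

end Fermat.Agent.BR3.SDD.ModularPlug
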