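import Fermat.Agent.BR3.SDD.ModularSmAClosed
import Fermat.Agent.BR3.SDD.PartitionDoneM

/-!
# Program C (S36), node (G6): the `a`-side `hsm` at THE family of the final call, hypothesis-free

`ModularSmAClosed.hsm_a_closed` (helper24) at the node tubes of the final call
`tubeT tubeK tubeW := tubeTM tubeKF tubeWM`, with the eight node terms of the partition group
plugged exactly as in `PartitionClosedM.partition_closedM` / `PartitionDoneM.partition_doneM`:

* (N1) `XT := annSheetTM`, `subT := tube_a_nTM` (helper16 `ModularNodeT`);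
* (N2) `XK := annSheetKF`, `subK := tube_a_nkF`, `dTK := dTK_F`, `dKK := dKK_F`
  (helper15 `ModularNodeKTubes`);
* (N3) `XW := annSheet_nWM (hWM_closed ..)`, `subW := tube_a_nWM` (helper5 `ModularNodeW`,
  `ModularNodeWClosed`).

* **`hsmA_doneM`** : for `X` GENERIC with `hpInf hpZero hzW hzT hzK hTHf hTMf hTZf` (all `rfl` for
  `X := XRaw ..` at the frame of `ModularFinal.modelAt_final_Z` with
  `tubeT tubeK tubeW := tubeTM tubeKF tubeWM`, ANY `comp pMid smTube cover ..`), the binder `hsmA`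
  of `ModularTameFinalM.ht_modular` (= the binder `hsm` of `ModularPushA.hpa_modular`) VERBATIM.
  The parameters `hcop hex hval` are those of `annSheetKF` (final call: `hcopM`, `hex_modular`,
  `hvalM`).
-/

set_option autoImplicit false
set_option linter.style.haveILetI false
set_option linter.unusedSectionVars false
set_option linter.unusedVariables false
set_option synthInstance.maxHeartbeats 400000

open ModularCurve AlgebraicCurve

noncomputable section

namespace Fermat.Agent.BR3.SDD.ModularSmADone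

open IsLocalRing Fermat.Agent.X0 Fermat.Agent.Red Fermat.Agent.Val
  Fermat.Agent.BR.SS Fermat.Agent.BR.Refine Fermat.Agent.BR.Circle Fermat.Agent.BR.P1
  Fermat.Agent.BR.AnnulusRed
  Fermat.Agent.BR.S0 Fermat.Agent.BR.S0.PointDict Fermat.Agent.BR.S0.RedModular
  Fermat.Agent.BR.S0.RedHyp
  Fermat.Agent.BR2.SetupOfData Fermat.Agent.BR3.FibreProd Fermat.Agent.BR3.CircleN
  Fermat.Agent.BR3.SRef Fermat.Agent.BR3.SRef.Modular Fermat.Agent.BR3.CoverDict
  Fermat.Agent.BR3.SDD Fermat.Agent.BR3.SDD.Partition Fermat.Agent.BR3.SDD.Modular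
  Fermat.Agent.BR3.KummerGenus
  Fermat.Agent.BR3.KummerGenus.MidInst Fermat.Agent.BR2.LevelGen Fermat.Agent.BR3.CoverK
  Fermat.Agent.BR.ConstRedTwo Fermat.Agent.BR3.CInfRes Fermat.Agent.BR.TwoVal
  Fermat.Agent.BR3.SDD.ModularPlug Fermat.Agent.BR3.VertPtsU Fermat.Agent.BR3.IgSq
  Fermat.Agent.BR3.ThickSDDPlug
  Fermat.Agent.BR3.SDD.ModularNodeK Fermat.Agent.BR3.SDD.ModularNodeKFinal
  Fermat.Agent.BR3.SDD.ModularCompM Fermat.Agent.BR3.KummerNodeInputs
  Fermat.Agent.BR3.SepNComp Fermat.Agent.BR3.SepNCompRel Fermat.Agent.BR3.KummerCompMod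
  Fermat.Agent.BR3.SDD.ModularSmAClosed

local notation "Qb" => AlgebraicClosure ℚ

variable {M q : ℕ} [NeZero M] [hq : Fact q.Prime] [NeZero q]
variable (B : ValuationSubring (AlgebraicClosure ℚ)) (hB : B.LiesOverPrime q) (hqM : ¬ q ∣ M)
variable [IsAlgClosed (ResidueField B)] [CharP (ResidueField B) q]
variable {ζ : Kbˣ} (hζ : IsPrimitiveRoot ζ q)
variable (h2 : nuTwo M = 0) (h3 : nuThree M = 0)

local notation "kB" => IsLocalRing.ResidueField B
local notation "FtM" => modularFunctionFieldFullC (IsLocalRing.ResidueField B) M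

/-- (shortcut instances) -/
local instance (priority := 100000) instAlgebraFtMShortcutSmADone :
    Algebra (IsLocalRing.ResidueField B)
      (modularFunctionFieldFullC (IsLocalRing.ResidueField B) M) :=
  inferInstance
local instance (priority := 100000) instAlgKFMidSmADone :
    Algebra (IsLocalRing.ResidueField B) (FMid M B) := inferInstance
local instance (priority := 100000) instAlgFtFMidSmADone :
    Algebra (modularFunctionFieldFullC (IsLocalRing.ResidueField B) M) (FMid M B) := inferInstance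
local instance (priority := 100000) instTowerMidSmADone :
    IsScalarTower (IsLocalRing.ResidueField B)
      (modularFunctionFieldFullC (IsLocalRing.ResidueField B) M) (FMid M B) :=
  inferInstance
local instance (priority := 100000) instFieldFtAllSmADone {FZ : SSpM B hB hqM → Type}
    [∀ e, Field (FZ e)] (v : Comp (MidM B hB hqM hζ) (SSpM B hB hqM)) :
    Field (FtAll B hB hqM hζ FZ v) := instFieldFtOf v
local instance (priority := 100000) instAlgFtAllSmADone {FZ : SSpM B hB hqM → Type}
    [∀ e, Field (FZ e)] [∀ e, Algebra (IsLocalRing.ResidueField B) (FZ e)]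
    (v : Comp (MidM B hB hqM hζ) (SSpM B hB hqM)) :
    Algebra (IsLocalRing.ResidueField B) (FtAll B hB hqM hζ FZ v) := instAlgebraFtOf v

variable
  (X : CaseInput (F := Fb (M * q * q)) B (MidM B hB hqM hζ) (SSpM B hB hqM) (KPq q)
    (FtAll B hB hqM hζ (FZM B hB hqM h2 h3)))
  (smTube : (Σ v, Place (IsLocalRing.ResidueField B)
      (FtAll B hB hqM hζ (FZM B hB hqM h2 h3) v)) →
    Set (Place (AlgebraicClosure ℚ) (Fb (M * q * q))))
  (hcop : ∀ e : SSpM B hB hqM,
    IsCoprime ((z₁ (chartDataModular B hB hqM) e).ord (deltaMid B hB hqM)) (fMid M B hB : ℤ))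
  (hex : q ≠ 2 → ∀ e j, ∃ s, ValAt (CM B hB hqM hζ)
    (MidFamily.pMid B hB hqM (z₁ (chartDataModular B hB hqM)) hcop) (kumTheta B hB hqM h2 h3)
    (fun e s => residue B (kumC0 B hB hqM h2 h3 e s)) e j s)
  (hval : ∀ hq2 : q ≠ 2, ∀ e, Function.Bijective (val (hex hq2) e))
  [Nonempty (MidM B hB hqM hζ)]

/-- the raw tubes of the nodes of the final call -/
local notation "nTb" =>
  nodeTubeM B hB hqM (tubeTM B hB hqM h2 h3) (tubeKF B hB hqM h2 h3) (tubeWM B hB hqM h2 h3)

include hcop hex hval in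
set_option maxHeartbeats 1600000 in
/-- **(G6) the `a`-side `hsm` at THE family of the final call, hypothesis-free**: a smooth place of
`S''` lies, along `α₂`, over a smooth place of `S'ref_a` — the binder `hsmA` of
`ModularTameFinalM.ht_modular` / `hsm` of `ModularPushA.hpa_modular` VERBATIM. -/
theorem hsmA_doneM
    (hpInf : X.pInf = pInfM B hB hqM) (hpZero : X.pZero = pZeroM B hB hqM)
    (hzW : X.zW = zWM B hB hqM h2 h3) (hzT : X.zT = zTM B hB hqM h2 h3)
    (hzK : X.zK = zKM B hB hqM h2 h3)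
    (hTHf : X.TH = THf X.comp X.pInf X.pMid X.zW X.pZero X.zT X.zK nTb smTube)
    (hTMf : X.TM = TMf X.comp X.pInf X.pMid X.zW X.pZero X.zT X.zK nTb smTube)
    (hTZf : X.TZ = TZf X.comp X.pInf X.pMid X.zW X.pZero X.zT X.zK nTb smTube) :
    ∀ P : Place Qb (Fb (M * q * q)), X.toInput.setup.IsSmoothPlace P →
      (srefM (DtM B hB hqM) (gaugeA q B hB hqM) (admA B hB hqM h2 h3)).IsSmoothPlace
        (P.restrictAlong (alpha2 M q) (Fermat.Agent.Hecke.heckeAlphaBarIntegral (M * q) q)) :=
  hsm_a_closed B hB hqM hζ h2 h3 X (tubeTM B hB hqM h2 h3) (tubeKF B hB hqM h2 h3)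
    (tubeWM B hB hqM h2 h3) smTube hpInf hpZero hzW hzT hzK hTHf hTMf hTZf
    (fun e => annSheetTM B hB hqM h2 h3 e)
    (fun e P hP => tube_a_nTM B hB hqM h2 h3 e (isIntegral_alpha2 M q) hP)
    (fun e s => annSheetKF B hB hqM h2 h3 hζ hcop hex hval e s)
    (fun e s P hP => tube_a_nkF B hB hqM h2 h3 (isIntegral_alpha2 M q) e s P hP)
    (fun e s P hT hK => dTK_F B hB hqM h2 h3 (isIntegral_alpha2 M q) e s P hT hK)
    (fun e s s' P hs hs' => dKK_F B hB hqM h2 h3 e s s' P hs hs')
    (fun e => annSheet_nWM B hB hqM h2 h3 (hWM_closed B hB hqM h2 h3) e)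
    (fun e P hP => tube_a_nWM B hB hqM h2 h3 (isIntegral_alpha2 M q)
      (isIntegral_fb (beta2 M q)) e P hP)
    (Fermat.Agent.Hecke.heckeAlphaBarIntegral (M * q) q)

end Fermat.Agent.BR3.SDD.ModularSmADone
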