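import Fermat.Agent.BR3.SDD.PartitionModZe

/-!
# Program C (S36), node (P-CIRC): the places over the critical circles at the modular frame

The clause `cCirc` of `SDD.Modular.hcover_modular` / `partition_modular` in its LITERAL binder
shape, in the frame of `BR3/SDD/PartitionModZe.lean` (`FZ := FZM`, `zW/zT/zK := zWM/zTM/zKM`, raw
tube of the point `Q` of `z e` `:= TZM B hB hqM h2 h3 e Q`):

* `ne_special_of_ord` : a generic point of `z e` (`ord_Q b̃ = 0`) is none of the special points;
* **`cCirc_modular`** : every place `P` of `X₀(M q²)` with `P ∘ α₂` on the critical circle of `e`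
  lies in the raw smooth tube of a point `⟨ze e, Q⟩` of `S''` which is not a branch
  (`VertSheet.exists_mem_ptTube_all` at `vertCompM_final`).
-/

set_option autoImplicit false
set_option linter.style.haveILetI false
set_option linter.unusedSectionVars false
set_option linter.unusedVariables false
set_option synthInstance.maxHeartbeats 400000

open ModularCurve AlgebraicCurve

noncomputable section

/- S36 build-time patch: file-local shortcut instances. They only shorten instance search;
each is the instance that the search finds anyway (reducible, same terms after unfolding). -/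
local instance (priority := 100000) Fermat.Agent.BR3.FastInst.instAlgFullC_SDD_PartitionModCirc
    {k : Type*} [Field k] (N : ℕ) :
    Algebra k ↥(ModularCurve.modularFunctionFieldFullC k N) := inferInstance
local instance (priority := 100000) Fermat.Agent.BR3.FastInst.instFieldFullC_SDD_PartitionModCirc
    {k : Type*} [Field k] (N : ℕ) :
    Field ↥(ModularCurve.modularFunctionFieldFullC k N) := inferInstance
local instance (priority := 100000) Fermat.Agent.BR3.FastInst.instAlgLaurent_SDD_PartitionModCirc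
    {k : Type*} [Field k] : Algebra k (LaurentSeries k) := inferInstance


namespace Fermat.Agent.BR3.SDD.ModularZePart

open IsLocalRing Fermat.Agent.X0 Fermat.Agent.Red Fermat.Agent.Val
  Fermat.Agent.BR.SS Fermat.Agent.BR.Refine Fermat.Agent.BR.Circle Fermat.Agent.BR.P1
  Fermat.Agent.BR.AnnulusRed
  Fermat.Agent.BR.S0 Fermat.Agent.BR.S0.PointDict Fermat.Agent.BR.S0.RedModular
  Fermat.Agent.BR2.SetupOfData Fermat.Agent.BR3.FibreProd Fermat.Agent.BR3.CircleN
  Fermat.Agent.BR3.SRef Fermat.Agent.BR3.SRef.Modular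
  Fermat.Agent.BR3.SDD.Partition Fermat.Agent.BR3.SDD.Modular
  Fermat.Agent.BR3.VertResidue Fermat.Agent.BR3.VertResField Fermat.Agent.BR3.VertPtsDef
  Fermat.Agent.BR3.VertPtsU Fermat.Agent.BR3.VertSheet Fermat.Agent.BR3.ThickSDDPlug

local notation "Qb" => AlgebraicClosure ℚ

variable {M q : ℕ} [NeZero M] [hq : Fact q.Prime] [NeZero q]
variable (B : ValuationSubring (AlgebraicClosure ℚ)) (hB : B.LiesOverPrime q) (hqM : ¬ q ∣ M)
variable [IsAlgClosed (ResidueField B)] [CharP (ResidueField B) q]
variable {ζ : Kbˣ} (hζ : IsPrimitiveRoot ζ q)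
variable (h2 : nuTwo M = 0) (h3 : nuThree M = 0)

local notation "kB" => IsLocalRing.ResidueField B
local notation "FtM" => modularFunctionFieldFullC (IsLocalRing.ResidueField B) M

/-- (shortcut instances) -/
local instance (priority := 100000) instAlgebraFtMShortcutZeCirc :
    Algebra (IsLocalRing.ResidueField B)
      (modularFunctionFieldFullC (IsLocalRing.ResidueField B) M) :=
  inferInstance
local instance (priority := 100000) instAlgKFMidZeCirc :
    Algebra (IsLocalRing.ResidueField B) (FMid M B) := inferInstance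
local instance (priority := 100000) instFieldFtAllZeCirc {FZ : SSpM B hB hqM → Type}
    [∀ e, Field (FZ e)] (v : Comp (MidM B hB hqM hζ) (SSpM B hB hqM)) :
    Field (FtAll B hB hqM hζ FZ v) := instFieldFtOf v
local instance (priority := 100000) instAlgFtAllZeCirc {FZ : SSpM B hB hqM → Type}
    [∀ e, Field (FZ e)] [∀ e, Algebra (IsLocalRing.ResidueField B) (FZ e)]
    (v : Comp (MidM B hB hqM hζ) (SSpM B hB hqM)) :
    Algebra (IsLocalRing.ResidueField B) (FtAll B hB hqM hζ FZ v) := instAlgebraFtOf v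

/-- A generic point of `z e` (`b̃ = β T` has neither zero nor pole) is none of the special points
`zW e`, `zT e`, `zK e s`. -/
theorem ne_special_of_ord (e : SSpM B hB hqM) {Q : Place kB (FZM B hB hqM h2 h3 e)}
    (hQ0 : Q.ord (AdjoinRoot.of
      (vertBar q (zePackM B hB hqM h2 h3 e).β (zePackM B hB hqM h2 h3 e).ρ)
      (RatFunc.C (zePackM B hB hqM h2 h3 e).β * RatFunc.X)) = 0) :
    Q ≠ zWM B hB hqM h2 h3 e ∧ Q ≠ zTM B hB hqM h2 h3 e ∧
      ∀ s : KPq q, Q ≠ zKM B hB hqM h2 h3 e s := by
  refine ⟨ne_ptZBar_of_ord q _ _ hQ0, ne_ptIBar_of_ord q _ _ hQ0, fun s h => ?_⟩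
  rw [h, zKM_eq, ord_b_ptKFam] at hQ0
  have h1 : (1 : ℤ) ≤ ((Fermat.Agent.BR3.IgSq.midDeg q : ℕ) : ℤ) := by
    exact_mod_cast one_le_midDeg (q := q)
  omega

section Circ

variable (comp : SSpM B hB hqM → KPq q → MidM B hB hqM hζ)
  (pMid : ∀ e s, Place (IsLocalRing.ResidueField B)
    (FtAll B hB hqM hζ (FZM B hB hqM h2 h3) (mid (comp e s))))
  (smTube : (Σ v, Place (IsLocalRing.ResidueField B)
      (FtAll B hB hqM hζ (FZM B hB hqM h2 h3) v)) →
    Set (Place (AlgebraicClosure ℚ) (Fb (M * q * q))))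
  (hsmZe : ∀ (e : SSpM B hB hqM)
    (Q : Place (IsLocalRing.ResidueField B) (FZM B hB hqM h2 h3 e)),
    smTube ⟨ze e, Q⟩ = TZM B hB hqM h2 h3 e Q)

include hsmZe in
set_option maxHeartbeats 1600000 in
/-- **`cCirc`** of `hcover_modular` / `partition_modular`: every place over the critical circle of
`e` lies in the raw smooth tube of a point of the vertical component `z e` which is not a
branch. -/
theorem cCirc_modular (e : SSpM B hB hqM) (P : Place (AlgebraicClosure ℚ) (Fb (M * q * q)))
    (hP : rhoA M q P ∈ circle (inputs (DtM B hB hqM)) (gaugeA q B hB hqM) e) :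
    ∃ y, (∀ x : Node (SSpM B hB hqM) (KPq q),
        (⟨src comp x, s₁Of comp (pInfM B hB hqM) pMid (zWM B hB hqM h2 h3) x⟩ :
          Σ v, Place kB (FtAll B hB hqM hζ (FZM B hB hqM h2 h3) v)) ≠ y) ∧
      (∀ x : Node (SSpM B hB hqM) (KPq q),
        (⟨tgt x, s₂Of (pZeroM B hB hqM) (zTM B hB hqM h2 h3) (zKM B hB hqM h2 h3) x⟩ :
          Σ v, Place kB (FtAll B hB hqM hζ (FZM B hB hqM h2 h3) v)) ≠ y) ∧ P ∈ smTube y := by
  obtain ⟨Q, hQ0, hPQ⟩ := exists_mem_ptTube_all B hB hqM (nonempty_crossing (DtM B hB hqM)) e h2 h3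
    (zePackM B hB hqM h2 h3 e).P (gaugeSDD q)
    (gaugeSDD_bounds B hB hqM (nonempty_crossing (DtM B hB hqM)) e h2 h3).1
    (gaugeSDD_bounds B hB hqM (nonempty_crossing (DtM B hB hqM)) e h2 h3).2
    (by rw [← map_pow, gaugeSDD_pow hq.out.one_lt])
    (zePackM B hB hqM h2 h3 e).hβ (zePackM B hB hqM h2 h3 e).hρ
    (vertCompM_final B hB hqM h2 h3 e) (P'' := P) hP.1 hP.2
  obtain ⟨hW, hT, hK⟩ := ne_special_of_ord B hB hqM h2 h3 e hQ0
  obtain ⟨n1, n2⟩ := not_branch_ze comp (pInfM B hB hqM) pMid (zWM B hB hqM h2 h3)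
    (pZeroM B hB hqM) (zTM B hB hqM h2 h3) (zKM B hB hqM h2 h3) (e := e) (Q := Q) hW hT hK
  refine ⟨⟨ze e, Q⟩, n1, n2, ?_⟩
  rw [hsmZe e Q]
  exact hPQ

end Circ

end Fermat.Agent.BR3.SDD.ModularZePart
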