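import Fermat.Agent.BR3.CoverK.Defs
import Fermat.Agent.BR3.SepN
import Fermat.Agent.BR3.SRef.Modular
import Fermat.Agent.BR3.SDD.TubesBCentre
import Fermat.Agent.BR.Circle.Basic

/-!
# Program C (S36), node (b-1) (helper15): smooth places of `S''` lie over smooth places of `S'ref_b`

* `valuation_evalAt_eq_of_regChart` : **the circle lemma** (abstract).  `Cb` the `K`-level contract
  of the tube `Tb` of a node of a model of `F'`, `b` an admissible gauge, `φ : F' → F''`, `Z` a
  valuation ring of `F''` with `Z.comap φ = circleRing Cb b`, `RC : RegChart A Z resZ Q T''` a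
  regular chart at a point `Q` of the component `Z` whose tube `T''` lies over `Tb`.  Then
  `|u(P ∘ φ)| = |b|` for every `P ∈ T''`: the functions `φ (u / b)` and `φ (b / u)` are integral on
  `Z` and without poles on `T''`, hence units of the local ring of the chart (`normal`), hence of
  absolute value one on `T''` (`centred`).  NO analysis of the special points is needed: the existence
  of a regular chart at `Q` forces the conclusion.
* `restrictAlong_mem_circle`, `restrictAlong_beta2_mem_circle_Fr` : the same in the shape of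
  `SRef.circle` for `S' = SetupOfData.setup Dt` along `β₂`;
* `isSmoothPlace_srefM_of_circle`, `isSmoothPlace_srefM_of_smooth`, `isSmoothPlace_srefM_beta` : the
  field `hsmb` for `S'ref_b = srefM Dt b₀ hadmb` along `β₂` from the `a`-side statement
  (`P ∘ α₂` a smooth place of `S'ref_a`) and the circle lemma on the vertical components.
-/

set_option autoImplicit false
set_option linter.unusedSectionVars false
set_option linter.style.haveILetI false
set_option synthInstance.maxHeartbeats 400000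
set_option maxHeartbeats 1600000

noncomputable section

/- S36 build-time patch: file-local shortcut instances. They only shorten instance search;
each is the instance that the search finds anyway (reducible, same terms after unfolding). -/
local instance (priority := 100000) Fermat.Agent.BR3.FastInst.instAlgFullC_SDD_SmoothB
    {k : Type*} [Field k] (N : ℕ) :
    Algebra k ↥(ModularCurve.modularFunctionFieldFullC k N) := inferInstance
local instance (priority := 100000) Fermat.Agent.BR3.FastInst.instFieldFullC_SDD_SmoothB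
    {k : Type*} [Field k] (N : ℕ) :
    Field ↥(ModularCurve.modularFunctionFieldFullC k N) := inferInstance
local instance (priority := 100000) Fermat.Agent.BR3.FastInst.instAlgLaurent_SDD_SmoothB
    {k : Type*} [Field k] : Algebra k (LaurentSeries k) := inferInstance


namespace Fermat.Agent.BR3.SDD.SmoothB

open AlgebraicCurve IsLocalRing Fermat.Agent.Red Fermat.Agent.BR.Centre Fermat.Agent.BR.Circle
open Fermat.Agent.BR.S0 Fermat.Agent.BR3.CoverK Fermat.Agent.BR.SS Fermat.Agent.BR.Refine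

/-! ### The circle lemma -/

section Abstract

variable {K : Type*} [Field K] {F' F'' : Type*} [Field F'] [Field F''] [Algebra K F']
  [Algebra K F''] {A : ValuationSubring K} [IsAlgClosed (ResidueField A)]
  {k : Type*} [Field k] {Ft : Type*} [Field Ft] [Algebra k Ft]

omit [IsAlgClosed (ResidueField A)] in
/-- a function with a value at a place has no pole there -/
theorem ord_nonneg_of_isValueAt {F : Type*} [Field F] [Algebra K F] {P : Place K F} {h : F}
    {c : K} (hc : IsValueAt P h c) : 0 ≤ P.ord h := by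
  rcases (P.adicValuation_le_one_iff).1 hc.adicValuation_le_one with h0 | h0
  · rw [h0, Place.ord_zero]
  · exact h0

/-- **The circle lemma.** -/
theorem valuation_evalAt_eq_of_regChart {Tb : Set (Place K F')} (Cb : AnnulusCore A Tb) (b : K)
    (hb1 : A.valuation Cb.thick < A.valuation b) (hb2 : A.valuation b < 1)
    (φ : F' →ₐ[K] F'') (hφ : φ.toRingHom.IsIntegral)
    {Z : ValuationSubring F''} {resZ : Z →+* Ft} {Q : Place k Ft} {T'' : Set (Place K F'')}
    (RC : RegChart A Z resZ Q T'')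
    (hcomap : Z.comap (φ : F' →+* F'') = circleRing Cb b hb1 hb2)
    (hT : ∀ P ∈ T'', P.restrictAlong φ hφ ∈ Tb) {P : Place K F''} (hP : P ∈ T'') :
    A.valuation (evalAt (P.restrictAlong φ hφ) Cb.u) = A.valuation b := by
  have hb0 : b ≠ 0 := gauge_ne_zero hb1
  have hyC : b⁻¹ • Cb.u ∈ circleRing Cb b hb1 hb2 := coord_mem_circleRing Cb b hb1 hb2
  have hyu : IsUnit (⟨b⁻¹ • Cb.u, hyC⟩ : circleRing Cb b hb1 hb2) := by
    by_contra hnu
    have h0 := (circleRes_eq_zero_iff Cb b hb1 hb2 ⟨b⁻¹ • Cb.u, hyC⟩).mpr hnu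
    rw [circleRes_coord] at h0
    exact RatFunc.X_ne_zero h0
  have hyinvC : (b⁻¹ • Cb.u)⁻¹ ∈ circleRing Cb b hb1 hb2 := by
    obtain ⟨w, hw⟩ := hyu.exists_right_inv
    have h1 : (b⁻¹ • Cb.u) * (w : F') = 1 := by
      have := congrArg (fun t : circleRing Cb b hb1 hb2 => (t : F')) hw
      simpa using this
    rw [inv_eq_of_mul_eq_one_right h1]
    exact w.2
  have hφy : φ (b⁻¹ • Cb.u) ∈ Z := by
    have h : b⁻¹ • Cb.u ∈ Z.comap (φ : F' →+* F'') := by rw [hcomap]; exact hyC
    exact h
  have hφyinv : φ (b⁻¹ • Cb.u)⁻¹ ∈ Z := by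
    have h : (b⁻¹ • Cb.u)⁻¹ ∈ Z.comap (φ : F' →+* F'') := by rw [hcomap]; exact hyinvC
    exact h
  have hval : ∀ P' ∈ T'', ∃ c : K, c ≠ 0 ∧ IsValueAt P' (φ (b⁻¹ • Cb.u)) (b⁻¹ * c) ∧
      IsValueAt (P'.restrictAlong φ hφ) Cb.u c := by
    intro P' hP'
    obtain ⟨c, hc, h1, -⟩ := Cb.val_mem _ (hT P' hP')
    have hc0 : c ≠ 0 := by
      rintro rfl
      rw [map_zero] at h1
      exact not_lt_zero h1
    refine ⟨c, hc0, ?_, hc⟩
    rw [← Fermat.Agent.BR3.SepN.isValueAt_restrictAlong_iff φ hφ]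
    exact hc.smul b⁻¹
  have hR : φ (b⁻¹ • Cb.u) ∈ RC.chart.R := RC.chart.normal _ hφy (fun P' hP' => by
    obtain ⟨c, -, hc, -⟩ := hval P' hP'
    exact ord_nonneg_of_isValueAt hc)
  have hRinv : φ (b⁻¹ • Cb.u)⁻¹ ∈ RC.chart.R := RC.chart.normal _ hφyinv (fun P' hP' => by
    obtain ⟨c, hc0, hc, -⟩ := hval P' hP'
    rw [map_inv₀]
    exact ord_nonneg_of_isValueAt (Fermat.Agent.BR.Centre.IsValueAt.inv hc
      (mul_ne_zero (inv_ne_zero hb0) hc0)))
  obtain ⟨hint, -⟩ := RC.centred P hP
  obtain ⟨c, hc0, hc, hcu⟩ := hval P hP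
  have hbc0 : b⁻¹ * c ≠ 0 := mul_ne_zero (inv_ne_zero hb0) hc0
  have e1 : evalAt P (φ (b⁻¹ • Cb.u)) = b⁻¹ * c := evalAt_eq_of_isValueAt hc
  have e2 : evalAt P (φ (b⁻¹ • Cb.u)⁻¹) = (b⁻¹ * c)⁻¹ := by
    rw [map_inv₀]
    exact evalAt_eq_of_isValueAt (Fermat.Agent.BR.Centre.IsValueAt.inv hc hbc0)
  have m1 : b⁻¹ * c ∈ A := by
    rw [← e1]; exact hint.evalAt_mem hR
  have m2 : (b⁻¹ * c)⁻¹ ∈ A := by
    rw [← e2]; exact hint.evalAt_mem hRinv
  have v1 : A.valuation (b⁻¹ * c) ≤ 1 := (A.valuation_le_one_iff _).mpr m1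
  have v2 : A.valuation (b⁻¹ * c)⁻¹ ≤ 1 := (A.valuation_le_one_iff _).mpr m2
  have hpos : 0 < A.valuation (b⁻¹ * c) := zero_lt_iff.mpr ((_root_.map_ne_zero _).mpr hbc0)
  rw [map_inv₀, inv_le_one₀ hpos] at v2
  have v3 : A.valuation (b⁻¹ * c) = 1 := le_antisymm v1 v2
  rw [evalAt_eq_of_isValueAt hcu]
  rw [map_mul, map_inv₀] at v3
  exact ((inv_mul_eq_one₀ ((_root_.map_ne_zero _).mpr hb0)).mp v3).symm

end Abstract

/-! ### The modular frame -/

section Modular

open ModularCurve Fermat.Agent.X0 Fermat.Agent.Val Fermat.Agent.BR.TwoVal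
open Fermat.Agent.BR.S0.PointDict Fermat.Agent.BR.S0.RedModular Fermat.Agent.BR.Final
open Fermat.Agent.BR2.SetupOfData Fermat.Agent.BR3.CircleN Fermat.Agent.BR3.SRef
open Fermat.Agent.BR3.SRef.Modular Fermat.Agent.BR3.FibreProd Fermat.Agent.BR3.VertBetaFr

variable {M q : ℕ} [NeZero M] [hq : Fact q.Prime]
variable {B : ValuationSubring (AlgebraicClosure ℚ)} {hB : B.LiesOverPrime q} {hqM : ¬ q ∣ M}
variable [IsAlgClosed (ResidueField B)]

local notation "Kb" => AlgebraicClosure ℚ

/-- (shortcut instance: the search through the generic instances costs seconds per declaration) -/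
local instance (priority := 100000) instAlgebraFtMShortcutSmB :
    Algebra (IsLocalRing.ResidueField B)
      (modularFunctionFieldFullC (IsLocalRing.ResidueField B) M) :=
  inferInstance

variable (Dt : ModularData M q B hB hqM)
  (a₀ b₀ : Crossing (chartDataModular B hB hqM) → Kb)
  (hadma : ∀ e, (inputs Dt).adm e (a₀ e)) (hadmb : ∀ e, (inputs Dt).adm e (b₀ e))
  {k : Type*} [Field k] {Ft : Type*} [Field Ft] [Algebra k Ft]

/-- **The circle lemma for `S'ref_b`**: the tube of a regular chart of a component `Z` with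
`Z.comap β₂ = ringE Dt b₀ hadmb e'` lying over the tube of `e'` along `β₂` lies over the circle of
`e'`. -/
theorem restrictAlong_mem_circle (e' : Crossing (chartDataModular B hB hqM))
    (hβ : (beta2 M q).toRingHom.IsIntegral)
    {Z : ValuationSubring (Fb (M * q * q))} {resZ : Z →+* Ft} {Q : Place k Ft}
    {T'' : Set (Place Kb (Fb (M * q * q)))} (RC : RegChart B Z resZ Q T'')
    (hcomap : Z.comap (beta2 M q : Fb (M * q) →+* Fb (M * q * q)) = ringE Dt b₀ hadmb e')
    (hT : ∀ P ∈ T'', P.restrictAlong (beta2 M q) hβ ∈ tube (setup Dt) e')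
    {P : Place Kb (Fb (M * q * q))} (hP : P ∈ T'') :
    P.restrictAlong (beta2 M q) hβ ∈ circle (inputs Dt) b₀ e' :=
  ⟨hT P hP, valuation_evalAt_eq_of_regChart (core Dt e') (b₀ e') (hadmb e').1 (hadmb e').2
    (beta2 M q) hβ RC hcomap hT hP⟩

/-- The same at `e' = Fr e` for a tube lying over the tube of `e` along `α₂` (the tubes
`ptTube … Q` of the smooth points of the vertical component `z e`). -/
theorem restrictAlong_beta2_mem_circle_Fr (e : Crossing (chartDataModular B hB hqM))
    (hα : (alpha2 M q).toRingHom.IsIntegral) (hβ : (beta2 M q).toRingHom.IsIntegral)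
    {Z : ValuationSubring (Fb (M * q * q))} {resZ : Z →+* Ft} {Q : Place k Ft}
    {T'' : Set (Place Kb (Fb (M * q * q)))} (RC : RegChart B Z resZ Q T'')
    (hcomap : Z.comap (beta2 M q : Fb (M * q) →+* Fb (M * q * q)) =
      ringE Dt b₀ hadmb (Fr B hB hqM e))
    (hT : ∀ P ∈ T'', P.restrictAlong (alpha2 M q) hα ∈ tube (setup Dt) e)
    {P : Place Kb (Fb (M * q * q))} (hP : P ∈ T'') :
    P.restrictAlong (beta2 M q) hβ ∈ circle (inputs Dt) b₀ (Fr B hB hqM e) :=
  restrictAlong_mem_circle Dt b₀ hadmb (Fr B hB hqM e) hβ RC hcomap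
    (fun P' hP' => Fermat.Agent.BR3.SDD.TubesBCentre.restrictAlong_beta2_mem_tube Dt e P' hα hβ
      (hT P' hP')) hP

/-- A place of a circle is a smooth place of `S'ref`. -/
theorem isSmoothPlace_srefM_of_circle {P' : Place Kb (Fb (M * q))}
    {e' : Crossing (chartDataModular B hB hqM)} (h : P' ∈ circle (inputs Dt) b₀ e') :
    (srefM Dt b₀ hadmb).IsSmoothPlace P' :=
  (isSmoothPlace_sref_iff (inputs Dt) b₀ hadmb P').mpr (Or.inl ⟨e', h⟩)

/-- A place over a smooth place of `S'` along `α₂` lies over a smooth place of `S'ref_b` along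
`β₂`. -/
theorem isSmoothPlace_srefM_of_smooth
    (hα : (alpha2 M q).toRingHom.IsIntegral) (hβ : (beta2 M q).toRingHom.IsIntegral)
    {P : Place Kb (Fb (M * q * q))}
    (h : (setup Dt).IsSmoothPlace (P.restrictAlong (alpha2 M q) hα)) :
    (srefM Dt b₀ hadmb).IsSmoothPlace (P.restrictAlong (beta2 M q) hβ) := by
  have h' := (Fermat.Agent.BR3.SDD.TubesBCentre.isSmoothPlace_restrictAlong_iff Dt P hα hβ).mp h
  refine (isSmoothPlace_sref_iff (inputs Dt) b₀ hadmb _).mpr (Or.inr fun e' he' => ?_)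
  exact (isSmoothPlace_iff Dt _).mp h' e' he'

/-- **The field `hsmb`**: if `P ∘ α₂` is a smooth place of `S'ref_a` and the places over the
circles of `S'ref_a` lie over the circles of `S'ref_b` (`restrictAlong_beta2_mem_circle_Fr`), then
`P ∘ β₂` is a smooth place of `S'ref_b`. -/
theorem isSmoothPlace_srefM_beta
    (hα : (alpha2 M q).toRingHom.IsIntegral) (hβ : (beta2 M q).toRingHom.IsIntegral)
    {P : Place Kb (Fb (M * q * q))}
    (hA : (srefM Dt a₀ hadma).IsSmoothPlace (P.restrictAlong (alpha2 M q) hα))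
    (hZ : ∀ e, P.restrictAlong (alpha2 M q) hα ∈ circle (inputs Dt) a₀ e →
      P.restrictAlong (beta2 M q) hβ ∈ circle (inputs Dt) b₀ (Fr B hB hqM e)) :
    (srefM Dt b₀ hadmb).IsSmoothPlace (P.restrictAlong (beta2 M q) hβ) := by
  rcases (isSmoothPlace_sref_iff (inputs Dt) a₀ hadma _).mp hA with ⟨e, he⟩ | h
  · exact isSmoothPlace_srefM_of_circle Dt b₀ hadmb (hZ e he)
  · refine isSmoothPlace_srefM_of_smooth Dt b₀ hadmb hα hβ ?_
    exact (isSmoothPlace_iff Dt _).mpr fun e he => h e he

end Modular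

end Fermat.Agent.BR3.SDD.SmoothB
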