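import Mathlib
import Fermat.Agent.BR3.SDD.SmoothB
import Fermat.Agent.BR3.SDD.PartitionModCirc

/-!
# Program C (S36), node (G6): the binder `hsm` of `ModularPushB.hpb_modular` (helper12, second
engine) — smooth places of `S'ref_a` along `α₂` give smooth places of `S'ref_b` along `β₂`

For ANY place `P` of `X₀(M q²)` (no hypothesis on `P` with respect to `S''`):

* `exists_mem_TZM_of_circle` : if `P ∘ α₂` lies on the critical circle of `e` (gauge `gaugeA`),
  then `P` lies in the raw smooth tube `TZM e Q` of a GENERIC point `Q` of the vertical component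
  `z e` (the proof of helper24's `cCirc_modular`, keeping `Q`);
* `restrictAlong_beta2_mem_circle_of_circle` : then `P ∘ β₂` lies on the critical circle of `Fr e`
  (gauge `gaugeB`) — helper15's circle lemma `SmoothB.restrictAlong_beta2_mem_circle_Fr` at the
  regular chart `regZeM e Q` of `z e` and `hZcM_beta` (`z e` lies over `E_{Fr e}` along `β₂`);
* **`isSmoothPlace_srefB_of_srefA`** : `P ∘ α₂` smooth for `S'ref_a` ⟹ `P ∘ β₂` smooth for `S'ref_b`;
* **`hsmB_of_hsmA`** : the binder `hsm` of `ModularPushB.hpb_modular` from the binder `hsm` of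
  `ModularPushA.hpa_modular` (`ModularSmA.hsmA_modular` / `ModularSmAClosed.hsm_a_closed`), for ANY
  predicate on places in place of `X.toInput.setup.IsSmoothPlace`.
-/

set_option autoImplicit false
set_option linter.style.haveILetI false
set_option linter.unusedSectionVars false
set_option linter.unusedVariables false
set_option synthInstance.maxHeartbeats 400000
set_option maxHeartbeats 1600000

open ModularCurve AlgebraicCurve

noncomputable section

/- S36 build-time patch: file-local shortcut instances. They only shorten instance search;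
each is the instance that the search finds anyway (reducible, same terms after unfolding). -/
local instance (priority := 100000) Fermat.Agent.BR3.FastInst.instAlgFullC_SDD_ModularSmBeta
    {k : Type*} [Field k] (N : ℕ) :
    Algebra k ↥(ModularCurve.modularFunctionFieldFullC k N) := inferInstance
local instance (priority := 100000) Fermat.Agent.BR3.FastInst.instFieldFullC_SDD_ModularSmBeta
    {k : Type*} [Field k] (N : ℕ) :
    Field ↥(ModularCurve.modularFunctionFieldFullC k N) := inferInstance
local instance (priority := 100000) Fermat.Agent.BR3.FastInst.instAlgLaurent_SDD_ModularSmBeta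
    {k : Type*} [Field k] : Algebra k (LaurentSeries k) := inferInstance


namespace Fermat.Agent.BR3.SDD.ModularSmBeta

open IsLocalRing Fermat.Agent.X0 Fermat.Agent.Red Fermat.Agent.Val
  Fermat.Agent.BR.SS Fermat.Agent.BR.Refine Fermat.Agent.BR.Circle Fermat.Agent.BR.P1
  Fermat.Agent.BR.AnnulusRed
  Fermat.Agent.BR.S0 Fermat.Agent.BR.S0.PointDict Fermat.Agent.BR.S0.RedModular
  Fermat.Agent.BR2.SetupOfData Fermat.Agent.BR3.FibreProd Fermat.Agent.BR3.CircleN
  Fermat.Agent.BR3.SRef Fermat.Agent.BR3.SRef.Modular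
  Fermat.Agent.BR3.SDD.Partition Fermat.Agent.BR3.SDD.Modular
  Fermat.Agent.BR3.VertResidue Fermat.Agent.BR3.VertResField Fermat.Agent.BR3.VertPtsDef
  Fermat.Agent.BR3.VertPtsU Fermat.Agent.BR3.VertSheet Fermat.Agent.BR3.ThickSDDPlug
  Fermat.Agent.BR3.SDD.ModularZePart Fermat.Agent.BR3.SDD.SmoothB Fermat.Agent.BR3.VertBetaFr

local notation "Qb" => AlgebraicClosure ℚ

variable {M q : ℕ} [NeZero M] [hq : Fact q.Prime] [NeZero q]
variable (B : ValuationSubring (AlgebraicClosure ℚ)) (hB : B.LiesOverPrime q) (hqM : ¬ q ∣ M)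
variable [IsAlgClosed (ResidueField B)] [CharP (ResidueField B) q]
variable (h2 : nuTwo M = 0) (h3 : nuThree M = 0)

local notation "kB" => IsLocalRing.ResidueField B
local notation "FtM" => modularFunctionFieldFullC (IsLocalRing.ResidueField B) M

/-- (shortcut instance) -/
local instance (priority := 100000) instAlgebraFtMShortcutSmBeta :
    Algebra (IsLocalRing.ResidueField B)
      (modularFunctionFieldFullC (IsLocalRing.ResidueField B) M) :=
  inferInstance

set_option maxHeartbeats 4000000 in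
/-- **Every place over the critical circle of `e` lies in the raw smooth tube of a generic point of
the vertical component `z e`.** -/
theorem exists_mem_TZM_of_circle (e : SSpM B hB hqM)
    (P : Place (AlgebraicClosure ℚ) (Fb (M * q * q)))
    (hP : rhoA M q P ∈ circle (inputs (DtM B hB hqM)) (gaugeA q B hB hqM) e) :
    ∃ Q : Place kB (FZM B hB hqM h2 h3 e),
      Q ≠ zWM B hB hqM h2 h3 e ∧ Q ≠ zTM B hB hqM h2 h3 e ∧
        (∀ s : KPq q, Q ≠ zKM B hB hqM h2 h3 e s) ∧ P ∈ TZM B hB hqM h2 h3 e Q := by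
  obtain ⟨Q, hQ0, hPQ⟩ := exists_mem_ptTube_all B hB hqM (nonempty_crossing (DtM B hB hqM)) e h2 h3
    (zePackM B hB hqM h2 h3 e).P (gaugeSDD q)
    (gaugeSDD_bounds B hB hqM (nonempty_crossing (DtM B hB hqM)) e h2 h3).1
    (gaugeSDD_bounds B hB hqM (nonempty_crossing (DtM B hB hqM)) e h2 h3).2
    (by rw [← map_pow, gaugeSDD_pow hq.out.one_lt])
    (zePackM B hB hqM h2 h3 e).hβ (zePackM B hB hqM h2 h3 e).hρ
    (vertCompM_final B hB hqM h2 h3 e) (P'' := P) hP.1 hP.2
  obtain ⟨hW, hT, hK⟩ := ne_special_of_ord B hB hqM h2 h3 e hQ0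
  exact ⟨Q, hW, hT, hK, hPQ⟩

set_option maxHeartbeats 4000000 in
/-- the raw smooth tubes of `z e` lie over the tube of `e` along `α₂` -/
theorem restrictAlong_alpha2_mem_tube_of_mem_TZM (e : SSpM B hB hqM)
    (Q : Place kB (FZM B hB hqM h2 h3 e)) (hα : (alpha2 M q).toRingHom.IsIntegral)
    {P : Place (AlgebraicClosure ℚ) (Fb (M * q * q))} (hP : P ∈ TZM B hB hqM h2 h3 e Q) :
    P.restrictAlong (alpha2 M q) hα ∈ tube (setup (DtM B hB hqM)) e := by
  letI := algebraAlong (alpha2 M q)
  haveI := isScalarTower_along (alpha2 M q)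
  haveI := isIntegral_along (alpha2 M q) (isIntegral_alpha2 M q)
  obtain ⟨c, -, -, hc, -⟩ :=
    subZe_raw (inputs (DtM B hB hqM)) (gaugeA q B hB hqM) (admA B hB hqM h2 h3) e hP
  exact hc.1

include h2 h3 in
set_option maxHeartbeats 4000000 in
/-- **circle → circle**: if `P ∘ α₂` lies on the critical circle of `e` (for `S'ref_a`), then
`P ∘ β₂` lies on the critical circle of `Fr e` (for `S'ref_b`). -/
theorem restrictAlong_beta2_mem_circle_of_circle (e : SSpM B hB hqM)
    (hα : (alpha2 M q).toRingHom.IsIntegral) (hβ : (beta2 M q).toRingHom.IsIntegral)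
    (P : Place (AlgebraicClosure ℚ) (Fb (M * q * q)))
    (hP : P.restrictAlong (alpha2 M q) hα ∈
      circle (inputs (DtM B hB hqM)) (gaugeA q B hB hqM) e) :
    P.restrictAlong (beta2 M q) hβ ∈
      circle (inputs (DtM B hB hqM)) (gaugeB q B hB hqM) (Fr B hB hqM e) := by
  obtain ⟨Q, hW, hT, hK, hPQ⟩ := exists_mem_TZM_of_circle B hB hqM h2 h3 e P hP
  exact restrictAlong_beta2_mem_circle_Fr (DtM B hB hqM) (gaugeB q B hB hqM)
    (admB B hB hqM h2 h3) e hα hβ (regZeM B hB hqM h2 h3 e Q hW hT hK)
    (hZcM_beta B hB hqM h2 h3 e)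
    (fun P' hP' => restrictAlong_alpha2_mem_tube_of_mem_TZM B hB hqM h2 h3 e Q hα hP') hPQ

/-- **`S'ref_a`-smooth along `α₂` ⟹ `S'ref_b`-smooth along `β₂`**, for every place of
`X₀(M q²)`. -/
theorem isSmoothPlace_srefB_of_srefA
    (hα : (alpha2 M q).toRingHom.IsIntegral) (hβ : (beta2 M q).toRingHom.IsIntegral)
    {P : Place (AlgebraicClosure ℚ) (Fb (M * q * q))}
    (hA : (srefM (DtM B hB hqM) (gaugeA q B hB hqM) (admA B hB hqM h2 h3)).IsSmoothPlace
      (P.restrictAlong (alpha2 M q) hα)) :
    (srefM (DtM B hB hqM) (gaugeB q B hB hqM) (admB B hB hqM h2 h3)).IsSmoothPlace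
      (P.restrictAlong (beta2 M q) hβ) :=
  isSmoothPlace_srefM_beta (DtM B hB hqM) (gaugeA q B hB hqM) (gaugeB q B hB hqM)
    (admA B hB hqM h2 h3) (admB B hB hqM h2 h3) hα hβ hA
    (fun e he => restrictAlong_beta2_mem_circle_of_circle B hB hqM h2 h3 e hα hβ P he)

/-- **The binder `hsm` of `ModularPushB.hpb_modular`** from the binder `hsm` of
`ModularPushA.hpa_modular` (any predicate `Sm` on places, e.g.
`X.toInput.setup.IsSmoothPlace`; `hα := Hecke.heckeAlphaBarIntegral (M * q) q`,
`hβ := LevelGen.isIntegral_fb (beta2 M q)` in the two binders — any proofs, by proof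
irrelevance). -/
theorem hsmB_of_hsmA (hα : (alpha2 M q).toRingHom.IsIntegral)
    (hβ : (beta2 M q).toRingHom.IsIntegral)
    (Sm : Place (AlgebraicClosure ℚ) (Fb (M * q * q)) → Prop)
    (hsmA : ∀ P, Sm P →
      (srefM (DtM B hB hqM) (gaugeA q B hB hqM) (admA B hB hqM h2 h3)).IsSmoothPlace
        (P.restrictAlong (alpha2 M q) hα)) :
    ∀ P, Sm P →
      (srefM (DtM B hB hqM) (gaugeB q B hB hqM) (admB B hB hqM h2 h3)).IsSmoothPlace
        (P.restrictAlong (beta2 M q) hβ) :=
  fun P hP => isSmoothPlace_srefB_of_srefA B hB hqM h2 h3 hα hβ (hsmA P hP)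

end Fermat.Agent.BR3.SDD.ModularSmBeta
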