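import Mathlib
import Fermat.Agent.BR3.SDD.ModularZe
import Fermat.Agent.BR3.SDD.ModularFrame
import Fermat.Agent.BR3.KummerGenus.MidFamily
import Fermat.Agent.BR3.EquivActsKummer
import Fermat.Agent.BR3.PushModExcPlug
import Fermat.Agent.BR3.PushModMidA
import Fermat.Agent.BR3.PushModExcU
import Fermat.Agent.BR3.MidKummerPlaces
import Fermat.Agent.BR3.CoverK.FibreInsepMod
import Fermat.Agent.BR3.FullPlug
import Fermat.Agent.BR3.FullExc

/-!
# Program C (S36), node (G6) `hpa`, part 1: the three `MultiVal.Full` families along `α₂` in the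
frame of `SDD.Modular` (`DtM`, `gaugeA`, `admA`, `FZM`, `CZM`, `zePackM`)

`X : SDD.CaseInput B (MidM …) (SSpM …) (KPq q) (FtAll … (FZM …))` with
`hXC : X.C = CAll … (CZM …)` (`rfl` for `X := XRaw …`).

* `srefA_O_inr`, `hOeM` : the valuation ring of the exceptional component of a level `x` of `S'ref_a`
  is `ringEA x.1` = the circle ring of `zePackM x.1` (statement-level, no unfolding downstream);
* `hwOpt`, `hwZero`, `hwZe` : the valuation rings of the components of `S''` from `hXC`;
* `DcanM` (`FullPlug.fullCanA`), `DetM` (`FullPlug.fullEtA`), `DexcM` (`FullExc.fullExc` at the data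
  of `zePackM`): the arguments `Dcan`, `Det`, `Dexc` of `PushModFull.hpa_of_fulls` with
  `κc v = Fin (fAll v)`, `κz = Fin q`, `κe x = Fin q`.
-/

set_option autoImplicit false
set_option linter.style.haveILetI false
set_option linter.unusedSectionVars false
set_option linter.unusedVariables false
set_option synthInstance.maxHeartbeats 400000

open ModularCurve AlgebraicCurve

noncomputable section

/- S36 build-time patch: file-local shortcut instances. They only shorten instance search;
each is the instance that the search finds anyway (reducible, same terms after unfolding). -/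
local instance (priority := 100000) Fermat.Agent.BR3.FastInst.instAlgFullC_SDD_ModularPushAFull
    {k : Type*} [Field k] (N : ℕ) :
    Algebra k ↥(ModularCurve.modularFunctionFieldFullC k N) := inferInstance
local instance (priority := 100000) Fermat.Agent.BR3.FastInst.instFieldFullC_SDD_ModularPushAFull
    {k : Type*} [Field k] (N : ℕ) :
    Field ↥(ModularCurve.modularFunctionFieldFullC k N) := inferInstance
local instance (priority := 100000) Fermat.Agent.BR3.FastInst.instAlgLaurent_SDD_ModularPushAFull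
    {k : Type*} [Field k] : Algebra k (LaurentSeries k) := inferInstance


namespace Fermat.Agent.BR3.SDD.ModularPushA

open IsLocalRing Fermat.Agent.Jac Fermat.Agent.X0 Fermat.Agent.Red Fermat.Agent.Val
  Fermat.Agent.BR.SS Fermat.Agent.BR Fermat.Agent.BR.Refine
  Fermat.Agent.BR.Circle Fermat.Agent.BR.P1 Fermat.Agent.BR.PicFunct
  Fermat.Agent.BR.S0 Fermat.Agent.BR.S0.PointDict Fermat.Agent.BR.S0.RedModular
  Fermat.Agent.BR.Final Fermat.Agent.BR.Inst.AnnulusInstFinal
  Fermat.Agent.BR3.FibreProd Fermat.Agent.BR.TwoVal Fermat.Agent.BR.TwoValInst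
  Fermat.Agent.BR2.Filt Fermat.Agent.BR2.SetupOfData Fermat.Agent.BR.ConstRedTwo
  Fermat.Agent.BR.LevelTransfer Fermat.Agent.BR2.LevelMaps Fermat.Agent.BR3.G5Multi
  Fermat.Agent.BR3.TorGlue Fermat.Agent.BR3.GeoTor Fermat.Agent.BR3.GeoTorPush
  Fermat.Agent.BR3.CircleN Fermat.Agent.BR3.SRef Fermat.Agent.BR3.SRef.Modular
  Fermat.Agent.BR3.SDD Fermat.Agent.BR3.SDD.Modular Fermat.Agent.BR3.KummerGenus
  Fermat.Agent.BR3.EquivActsKummer Fermat.Agent.BR3.KummerGenus.MidInst Fermat.Agent.BR3.IgSq
  Fermat.Agent.BR3.PushGlue Fermat.Agent.BR3.PushShapes Fermat.Agent.BR3.MultiVal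
  Fermat.Agent.BR3.PushModFull Fermat.Agent.BR3.VertPtsU Fermat.Agent.BR3.VertPtsDef
  Fermat.Agent.BR3.VertResidue Fermat.Agent.BR3.ThickSDDPlug

local notation "Qb" => AlgebraicClosure ℚ

variable {M q : ℕ} [NeZero M] [hq : Fact q.Prime] [NeZero q]
variable (B : ValuationSubring (AlgebraicClosure ℚ)) (hB : B.LiesOverPrime q) (hqM : ¬ q ∣ M)
variable [IsAlgClosed (ResidueField B)] [CharP (ResidueField B) q]
variable {ζ : Kbˣ} (hζ : IsPrimitiveRoot ζ q)

local notation "kB" => IsLocalRing.ResidueField B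
local notation "FtM" => modularFunctionFieldFullC (IsLocalRing.ResidueField B) M

local instance (priority := 100000) instAlgKFtPushA : Algebra kB FtM := inferInstance
local instance (priority := 100000) instAlgKFMidPushA : Algebra kB (FMid M B) := inferInstance
local instance (priority := 100000) instAlgFtFMidPushA : Algebra FtM (FMid M B) :=
  inferInstance
local instance (priority := 100000) instTowerMidPushA : IsScalarTower kB FtM (FMid M B) :=
  inferInstance

variable (h2 : nuTwo M = 0) (h3 : nuThree M = 0)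


/-- the valuation ring of the exceptional component of a level of `S'ref_a` -/
theorem srefA_O_inr (x : (oneLevel (inputs (DtM B hB hqM)) (gaugeA q B hB hqM)
      (admA B hB hqM h2 h3)).X) :
    (srefM (DtM B hB hqM) (gaugeA q B hB hqM) (admA B hB hqM h2 h3)).O (Sum.inr x) =
      ringEA B hB hqM h2 h3 x.1 := rfl

/-- (shortcut instance) -/
local instance (priority := 100000) instFieldFZMPushA : ∀ e, Field (FZM B hB hqM h2 h3 e) :=
  inferInstance

/-- (shortcut instance) -/
local instance (priority := 100000) instAlgebraFZMPushA :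
    ∀ e, Algebra (IsLocalRing.ResidueField B) (FZM B hB hqM h2 h3 e) :=
  inferInstance

variable
  (X : CaseInput (F := Fb (M * q * q)) B (MidM B hB hqM hζ) (SSpM B hB hqM) (KPq q)
    (FtAll B hB hqM hζ (FZM B hB hqM h2 h3)))

/-- the valuation rings of `cInf` and of the middle components -/
theorem hwOpt (hXC : X.C = CAll B hB hqM hζ (CZM B hB hqM h2 h3)) :
    ∀ v : Option (MidM B hB hqM hζ),
      X.toInput.setup.O (wOpt cInf v) = OAll B hB hqM hζ v := by
  rintro (_ | i)
  · show (X.C cInf).O = _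
    rw [hXC]
    rfl
  · show (X.C (mid i)).O = _
    rw [hXC]
    exact CAll_mid_O B hB hqM hζ (CZM B hB hqM h2 h3) i

theorem hwZero (hXC : X.C = CAll B hB hqM hζ (CZM B hB hqM h2 h3)) :
    X.toInput.setup.O SDD.cZero = Fermat.Agent.BR3.CZero.cZero B hB hqM := by
  show (X.C SDD.cZero).O = _
  rw [hXC]
  rfl

set_option maxHeartbeats 4000000 in
theorem hwZe (hXC : X.C = CAll B hB hqM hζ (CZM B hB hqM h2 h3)) (e : SSpM B hB hqM) :
    X.toInput.setup.O (ze e) = (zePackM B hB hqM h2 h3 e).Z := by
  show (X.C (ze e)).O = _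
  rw [hXC]
  exact CZM_O B hB hqM h2 h3 e


/-! ### the three `Full` families along `α₂` -/

/-- (a-can): `cInf` and the middle components over `'can'` -/
def DcanM (hXC : X.C = CAll B hB hqM hζ (CZM B hB hqM h2 h3)) :
    letI := algebraAlong (alpha2 M q)
    MultiVal.Full ((setup (DtM B hB hqM)).O 0)
      (fun j : Option (MidM B hB hqM hζ) => X.toInput.setup.O (wOpt cInf j))
      (fun v => Fin (fAll B hB hqM hζ v)) :=
  Fermat.Agent.BR3.FullPlug.fullCanA B hB hqM hζ
    (srefM (DtM B hB hqM) (gaugeA q B hB hqM) (admA B hB hqM h2 h3)) X.toInput.setup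
    (Sum.inl 0) rfl (wOpt cInf) (hwOpt B hB hqM hζ h2 h3 X hXC)

/-- (a-et): `cZero` over `'et'` -/
def DetM (hXC : X.C = CAll B hB hqM hζ (CZM B hB hqM h2 h3)) :
    letI := algebraAlong (alpha2 M q)
    MultiVal.Full ((setup (DtM B hB hqM)).O 1)
      (fun _ : Unit => X.toInput.setup.O SDD.cZero) (fun _ => Fin q) :=
  Fermat.Agent.BR3.FullPlug.fullEtA B hB hqM
    (srefM (DtM B hB hqM) (gaugeA q B hB hqM) (admA B hB hqM h2 h3)) X.toInput.setup
    (Sum.inl 1) rfl SDD.cZero (hwZero B hB hqM hζ h2 h3 X hXC)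


set_option maxHeartbeats 4000000 in
/-- the valuation ring of the exceptional component of a level of `S'ref_a` is the circle ring of
`zePackM` -/
theorem hOeM (x : (oneLevel (inputs (DtM B hB hqM)) (gaugeA q B hB hqM)
      (admA B hB hqM h2 h3)).X) :
    (srefM (DtM B hB hqM) (gaugeA q B hB hqM) (admA B hB hqM h2 h3)).O (Sum.inr x) =
      circleRing
        (annulusLevels_modular_final B hB hqM (nonempty_crossing (DtM B hB hqM)) x.1).core
        (gaugeSDD q)
        (gaugeSDD_bounds B hB hqM (nonempty_crossing (DtM B hB hqM)) x.1 h2 h3).1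
        (gaugeSDD_bounds B hB hqM (nonempty_crossing (DtM B hB hqM)) x.1 h2 h3).2 :=
  (srefA_O_inr B hB hqM h2 h3 x).trans
    ((hZcM B hB hqM h2 h3 x.1).symm.trans (zePackM B hB hqM h2 h3 x.1).comap_eq)

/-- (a-exc): the vertical component `z e` over the exceptional component of `e` -/
def DexcM (hXC : X.C = CAll B hB hqM hζ (CZM B hB hqM h2 h3))
    (x : (oneLevel (inputs (DtM B hB hqM)) (gaugeA q B hB hqM) (admA B hB hqM h2 h3)).X) :
    letI := algebraAlong (alpha2 M q)
    MultiVal.Full
      ((srefM (DtM B hB hqM) (gaugeA q B hB hqM) (admA B hB hqM h2 h3)).O (Sum.inr x))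
      (fun _ : Unit => X.toInput.setup.O (ze x.1)) (fun _ => Fin q) :=
  Fermat.Agent.BR3.FullExc.fullExc B hB _ _ _ _ (zePackM B hB hqM h2 h3 x.1).resZ
    (zePackM B hB hqM h2 h3 x.1).comap_eq (zePackM B hB hqM h2 h3 x.1).ker
    (zePackM B hB hqM h2 h3 x.1).compat (zePackM B hB hqM h2 h3 x.1).θ_mem
    (zePackM B hB hqM h2 h3 x.1).res_θ
    (srefM (DtM B hB hqM) (gaugeA q B hB hqM) (admA B hB hqM h2 h3)) X.toInput.setup
    (Sum.inr x) (hOeM B hB hqM h2 h3 x) (ze x.1) (hwZe B hB hqM hζ h2 h3 X hXC x.1)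

end Fermat.Agent.BR3.SDD.ModularPushA
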