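import Mathlib
import Fermat.Agent.BR3.SDD.ModularPushAFull

/-!
# Program C (S36), node (G6): the binder `hpa` of `ModularTameRaw.tameProp_of_rawTubes` as ONE term

Frame of `SDD.Modular` (`DtM`, `gaugeA`, `admA`, `FZM`, `CZM`, `zePackM`, `pInfM`, `pZeroM`),
`X : SDD.CaseInput B (MidM …) (SSpM …) (KPq q) (FtAll … (FZM …))` GENERIC with
`hXC : X.C = CAll … (CZM …)`, `hpInf`, `hpZero`, `hzT`, `hzW`, `hzK` (`ptIBar`, `ptZBar`, `ptKFam` at
`(zePackM … e).hβ/.hρ`), the Kummer places `hpM` (helper27's binder, `z e = z₁ e`), `hall`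
(all `rfl` / on-main terms for `X := XRaw …`).

* `res_cInf_alpha2`, `res_cZero_alpha2`, `res_mid_alpha2'`, `res_ze_alpha2` : the
  residue maps of the components of `S''` on the image of `α₂` (`C` generalised, `subst`);
* `VInf` (identity), `VZero` (`qExpandFullC`), `VMid i` (`algebraMap F̃_M (FMid M B)`), `VZe e`
  (`AdjoinRoot.of`) : the residue extensions, `hresInf/Zero/Mid/Ze`;
* `hVInf`, `hVZero` (`FibreInsepMod.isValueAt_underFrob` + `SimpleZeros.z₂_eq_frob_smul_z₁`),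
  `hVMid`, `hordMid` (`fMid = midDeg q`), `huniqMid` : the values / orders / uniqueness;
* **`hpa_modular`** : the binder `hpa` VERBATIM with
  `ιa := Fin 2 ⊕ (oneLevel (inputs DtM) gaugeA admA).X`, `vWa := old 1`, `vTa := old 0`,
  `vEa := exc`, `d := midDeg q` (uniform in `q`), from `PushModFull.hpa_of_fulls` at
  `DcanM / DetM / DexcM`, the exceptional kind by `PushModExcU.exc_hyps_a_fam`; what is left is
  `hsm` (smooth places of `S''` restrict to smooth places of `S'ref_a` along `α₂`).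
-/

set_option autoImplicit false
set_option linter.style.haveILetI false
set_option linter.unusedSectionVars false
set_option linter.unusedVariables false
set_option synthInstance.maxHeartbeats 400000

open ModularCurve AlgebraicCurve

noncomputable section

/- S36 build-time patch: file-local shortcut instances. They only shorten instance search;
each is the instance that the search finds anyway (reducible, same terms after unfolding). -/
local instance (priority := 100000) Fermat.Agent.BR3.FastInst.instAlgFullC_SDD_ModularPushA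
    {k : Type*} [Field k] (N : ℕ) :
    Algebra k ↥(ModularCurve.modularFunctionFieldFullC k N) := inferInstance
local instance (priority := 100000) Fermat.Agent.BR3.FastInst.instFieldFullC_SDD_ModularPushA
    {k : Type*} [Field k] (N : ℕ) :
    Field ↥(ModularCurve.modularFunctionFieldFullC k N) := inferInstance
local instance (priority := 100000) Fermat.Agent.BR3.FastInst.instAlgLaurent_SDD_ModularPushA
    {k : Type*} [Field k] : Algebra k (LaurentSeries k) := inferInstance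


namespace Fermat.Agent.BR3.SDD.ModularPushA

open IsLocalRing Fermat.Agent.Jac Fermat.Agent.X0 Fermat.Agent.Red Fermat.Agent.Val
  Fermat.Agent.BR.SS Fermat.Agent.BR Fermat.Agent.BR.Refine
  Fermat.Agent.BR.Circle Fermat.Agent.BR.P1 Fermat.Agent.BR.PicFunct
  Fermat.Agent.BR.S0 Fermat.Agent.BR.S0.PointDict Fermat.Agent.BR.S0.RedModular
  Fermat.Agent.BR.Final Fermat.Agent.BR.Inst.AnnulusInstFinal
  Fermat.Agent.BR3.FibreProd Fermat.Agent.BR.TwoVal Fermat.Agent.BR.TwoValInst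
  Fermat.Agent.BR2.Filt Fermat.Agent.BR2.SetupOfData Fermat.Agent.BR.ConstRedTwo
  Fermat.Agent.BR.LevelTransfer Fermat.Agent.BR2.LevelMaps Fermat.Agent.BR3.G5Multi
  Fermat.Agent.BR3.TorGlue Fermat.Agent.BR3.GeoTor Fermat.Agent.BR3.GeoTorPush
  Fermat.Agent.BR3.CircleN Fermat.Agent.BR3.SRef Fermat.Agent.BR3.SRef.Modular
  Fermat.Agent.BR3.SDD Fermat.Agent.BR3.SDD.Modular Fermat.Agent.BR3.KummerGenus
  Fermat.Agent.BR3.EquivActsKummer Fermat.Agent.BR3.KummerGenus.MidInst Fermat.Agent.BR3.IgSq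
  Fermat.Agent.BR3.PushGlue Fermat.Agent.BR3.PushShapes Fermat.Agent.BR3.MultiVal
  Fermat.Agent.BR3.PushModFull Fermat.Agent.BR3.VertPtsU Fermat.Agent.BR3.VertPtsDef
  Fermat.Agent.BR3.VertResidue Fermat.Agent.BR3.ThickSDDPlug

local notation "Qb" => AlgebraicClosure ℚ

variable {M q : ℕ} [NeZero M] [hq : Fact q.Prime] [NeZero q]
variable (B : ValuationSubring (AlgebraicClosure ℚ)) (hB : B.LiesOverPrime q) (hqM : ¬ q ∣ M)
variable [IsAlgClosed (ResidueField B)] [CharP (ResidueField B) q]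
variable {ζ : Kbˣ} (hζ : IsPrimitiveRoot ζ q)

local notation "kB" => IsLocalRing.ResidueField B
local notation "FtM" => modularFunctionFieldFullC (IsLocalRing.ResidueField B) M

local instance (priority := 100000) instAlgKFtPushA2 : Algebra kB FtM := inferInstance
local instance (priority := 100000) instAlgKFMidPushA2 : Algebra kB (FMid M B) := inferInstance
local instance (priority := 100000) instAlgFtFMidPushA2 : Algebra FtM (FMid M B) :=
  inferInstance
local instance (priority := 100000) instTowerMidPushA2 : IsScalarTower kB FtM (FMid M B) :=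
  inferInstance

variable (h2 : nuTwo M = 0) (h3 : nuThree M = 0)


/-- (shortcut instance) -/
local instance (priority := 100000) instFieldFZMPushA2 : ∀ e, Field (FZM B hB hqM h2 h3 e) :=
  inferInstance

/-- (shortcut instance) -/
local instance (priority := 100000) instAlgebraFZMPushA2 :
    ∀ e, Algebra (IsLocalRing.ResidueField B) (FZM B hB hqM h2 h3 e) :=
  inferInstance

variable
  (X : CaseInput (F := Fb (M * q * q)) B (MidM B hB hqM hζ) (SSpM B hB hqM) (KPq q)
    (FtAll B hB hqM hζ (FZM B hB hqM h2 h3)))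

/-! ### the residue maps of the components of `S''` on the image of `α₂` -/

/-- `cInf` over `'can'`: the residue extension is the identity of `F̃_M` -/
theorem res_cInf_alpha2
    (C : ∀ v, ConstRed (F := Fb (M * q * q)) (Ft := FtAll B hB hqM hζ (FZM B hB hqM h2 h3) v) B
      (residue B)) (hC : C = CAll B hB hqM hζ (CZM B hB hqM h2 h3))
    (y : (setup (DtM B hB hqM)).O 0) (h : alpha2 M q (y : Fb (M * q)) ∈ (C cInf).O) :
    ((C cInf).res ⟨alpha2 M q (y : Fb (M * q)), h⟩ : FtM) = (setup (DtM B hB hqM)).res 0 y := by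
  subst hC
  exact Fermat.Agent.BR3.CInfRes.resInf_alpha2 B hB hqM (y : Fb (M * q)) y.2

/-- `cZero` over `'et'`: the residue extension is the relative Frobenius `qExpandFullC` -/
theorem res_cZero_alpha2
    (C : ∀ v, ConstRed (F := Fb (M * q * q)) (Ft := FtAll B hB hqM hζ (FZM B hB hqM h2 h3) v) B
      (residue B)) (hC : C = CAll B hB hqM hζ (CZM B hB hqM h2 h3))
    (y : (setup (DtM B hB hqM)).O 1) (h : alpha2 M q (y : Fb (M * q)) ∈ (C SDD.cZero).O) :
    ((C SDD.cZero).res ⟨alpha2 M q (y : Fb (M * q)), h⟩ : FtM) =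
      Fermat.Agent.Hecke.qExpandFullC kB M q ((setup (DtM B hB hqM)).res 1 y) := by
  subst hC
  exact Fermat.Agent.BR3.CoverK.FibreInsepMod.res_cZero_alpha2 B hB hqM (y : Fb (M * q)) y.2

set_option maxHeartbeats 1000000 in
/-- `mid i` over `'can'`: the residue extension is `algebraMap F̃_M (FMid M B)`
(`= ModularTame.res_mid_alpha2`, restated to keep the import closure small) -/
theorem res_mid_alpha2'
    (C : ∀ v, ConstRed (F := Fb (M * q * q)) (Ft := FtAll B hB hqM hζ (FZM B hB hqM h2 h3) v) B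
      (residue B)) (hC : C = CAll B hB hqM hζ (CZM B hB hqM h2 h3)) (i : MidM B hB hqM hζ)
    (y : (setup (DtM B hB hqM)).O 0) (h : alpha2 M q (y : Fb (M * q)) ∈ (C (mid i)).O) :
    ((C (mid i)).res ⟨alpha2 M q (y : Fb (M * q)), h⟩ : FMid M B) =
      algebraMap FtM (FMid M B) ((setup (DtM B hB hqM)).res 0 y) := by
  subst hC
  exact resMid_alpha2 B hB hqM hζ (i.rep B hB hqM hζ).2 (y : Fb (M * q)) y.2

set_option maxHeartbeats 4000000 in
/-- `z e` over the exceptional component of `e`: the residue extension is `AdjoinRoot.of` -/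
theorem res_ze_alpha2
    (C : ∀ v, ConstRed (F := Fb (M * q * q)) (Ft := FtAll B hB hqM hζ (FZM B hB hqM h2 h3) v) B
      (residue B)) (hC : C = CAll B hB hqM hζ (CZM B hB hqM h2 h3)) (e : SSpM B hB hqM)
    (y : circleRing ((inputs (DtM B hB hqM)).ch e).toCore (gaugeA q B hB hqM e)
      (admA B hB hqM h2 h3 e).1 (admA B hB hqM h2 h3 e).2)
    (h : alpha2 M q (y : Fb (M * q)) ∈ (C (ze e)).O) :
    ((C (ze e)).res ⟨alpha2 M q (y : Fb (M * q)), h⟩ : FZM B hB hqM h2 h3 e) =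
      AdjoinRoot.of (vertBar q (zePackM B hB hqM h2 h3 e).β (zePackM B hB hqM h2 h3 e).ρ)
        (circleRes ((inputs (DtM B hB hqM)).ch e).toCore (gaugeA q B hB hqM e)
          (admA B hB hqM h2 h3 e).1 (admA B hB hqM h2 h3 e).2 y) := by
  subst hC
  exact (zePackM B hB hqM h2 h3 e).compat y h


/-! ### the residue extensions -/

/-- the residue extension of `cInf` over `'can'` along `α₂`: the identity -/
def VInf : FtM →+* FtAll B hB hqM hζ (FZM B hB hqM h2 h3) cInf := RingHom.id FtM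

/-- the residue extension of `cZero` over `'et'` along `α₂`: the relative Frobenius -/
def VZero : FtM →+* FtAll B hB hqM hζ (FZM B hB hqM h2 h3) SDD.cZero :=
  Fermat.Agent.Hecke.qExpandFullC kB M q

/-- the residue extension of `mid i` over `'can'` along `α₂` -/
def VMid (i : MidM B hB hqM hζ) : FtM →+* FtAll B hB hqM hζ (FZM B hB hqM h2 h3) (mid i) :=
  algebraMap FtM (FMid M B)

/-- the residue extension of `z e` over the exceptional component along `α₂` -/
def VZe (e : SSpM B hB hqM) : RatFunc kB →+* FtAll B hB hqM hζ (FZM B hB hqM h2 h3) (ze e) :=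
  AdjoinRoot.of (vertBar q (zePackM B hB hqM h2 h3 e).β (zePackM B hB hqM h2 h3 e).ρ)

theorem hresInf (hXC : X.C = CAll B hB hqM hζ (CZM B hB hqM h2 h3))
    (y : (setup (DtM B hB hqM)).O 0) (h : alpha2 M q (y : Fb (M * q)) ∈ (X.C cInf).O) :
    (X.C cInf).res ⟨alpha2 M q (y : Fb (M * q)), h⟩ =
      VInf B hB hqM hζ h2 h3 ((setup (DtM B hB hqM)).res 0 y) :=
  res_cInf_alpha2 B hB hqM hζ h2 h3 X.C hXC y h

theorem hresZero (hXC : X.C = CAll B hB hqM hζ (CZM B hB hqM h2 h3))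
    (y : (setup (DtM B hB hqM)).O 1) (h : alpha2 M q (y : Fb (M * q)) ∈ (X.C SDD.cZero).O) :
    (X.C SDD.cZero).res ⟨alpha2 M q (y : Fb (M * q)), h⟩ =
      VZero B hB hqM hζ h2 h3 ((setup (DtM B hB hqM)).res 1 y) :=
  res_cZero_alpha2 B hB hqM hζ h2 h3 X.C hXC y h

theorem hresMid (hXC : X.C = CAll B hB hqM hζ (CZM B hB hqM h2 h3)) (i : MidM B hB hqM hζ)
    (y : (setup (DtM B hB hqM)).O 0) (h : alpha2 M q (y : Fb (M * q)) ∈ (X.C (mid i)).O) :
    (X.C (mid i)).res ⟨alpha2 M q (y : Fb (M * q)), h⟩ =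
      VMid B hB hqM hζ h2 h3 i ((setup (DtM B hB hqM)).res 0 y) :=
  res_mid_alpha2' B hB hqM hζ h2 h3 X.C hXC i y h

theorem hresZe (hXC : X.C = CAll B hB hqM hζ (CZM B hB hqM h2 h3)) (e : SSpM B hB hqM)
    (y : circleRing ((inputs (DtM B hB hqM)).ch e).toCore (gaugeA q B hB hqM e)
      (admA B hB hqM h2 h3 e).1 (admA B hB hqM h2 h3 e).2)
    (h : alpha2 M q (y : Fb (M * q)) ∈ (X.C (ze e)).O) :
    (X.C (ze e)).res ⟨alpha2 M q (y : Fb (M * q)), h⟩ =
      VZe B hB hqM hζ h2 h3 e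
        (circleRes ((inputs (DtM B hB hqM)).ch e).toCore (gaugeA q B hB hqM e)
          (admA B hB hqM h2 h3 e).1 (admA B hB hqM h2 h3 e).2 y) :=
  res_ze_alpha2 B hB hqM hζ h2 h3 X.C hXC e y h


/-! ### the values -/

theorem hVInf (hpInf : ∀ e, X.pInf e = pInfM B hB hqM e) (e : SSpM B hB hqM) (g : FtM) (c : kB)
    (h : IsValueAt (X.pInf e) (VInf B hB hqM hζ h2 h3 g) c) :
    IsValueAt ((setup (DtM B hB hqM)).s₁ e) g c := by
  rw [hpInf e] at h
  exact h

theorem hVZero (hpZero : ∀ e, X.pZero e = pZeroM B hB hqM e) (e : SSpM B hB hqM) (g : FtM)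
    (c : kB) (h : IsValueAt (X.pZero e) (VZero B hB hqM hζ h2 h3 g) c) :
    IsValueAt ((setup (DtM B hB hqM)).s₂ e) g c := by
  rw [hpZero e] at h
  have h1 := Fermat.Agent.BR3.CoverK.FibreInsepMod.isValueAt_underFrob B (q := q)
    (pZeroM B hB hqM e) g c h
  have h2 : Fermat.Agent.BR3.CoverK.FibreInsepMod.underFrob B (q := q) (pZeroM B hB hqM e) =
      (setup (DtM B hB hqM)).s₂ e :=
    (Fermat.Agent.BR3.SimpleZeros.z₂_eq_frob_smul_z₁ B hB hqM e).symm
  rw [h2] at h1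
  exact h1


section Mid

variable (z : SSpM B hB hqM → Place (IsLocalRing.ResidueField B)
    (modularFunctionFieldFullC (IsLocalRing.ResidueField B) M))
  (hz : ∀ e, z e = z₁ (chartDataModular B hB hqM) e)
  (hcop : ∀ e, IsCoprime ((z e).ord (deltaMid B hB hqM)) (fMid M B hB : ℤ))
  (hpM : ∀ e s, toConst (X.comp e s) (X.pMid e s) = MidFamily.pMid B hB hqM z hcop e)

include hz hpM in
theorem hVMid (e : SSpM B hB hqM) (s : KPq q) (g : FtM) (c : kB)
    (h : IsValueAt (X.pMid e s) (VMid B hB hqM hζ h2 h3 (X.comp e s) g) c) :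
    IsValueAt ((setup (DtM B hB hqM)).s₁ e) g c := by
  haveI := finiteDimensional_FMid B hB hqM
  have h1 : (toConst (X.comp e s) (X.pMid e s)).restrict FtM = z e := by
    rw [hpM e s]
    exact MidFamily.pMid_restrict B hB hqM z hcop e
  have h2 := Fermat.Agent.BR3.PushModMidA.isValueAt_of_restrict_eq h1 g c h
  rw [hz e] at h2
  exact h2

include hz hpM in
theorem hordMid (e₀ : SSpM B hB hqM) (e : SSpM B hB hqM) (s : KPq q) (g : FtM) :
    (X.pMid e s).ord (VMid B hB hqM hζ h2 h3 (X.comp e s) g) =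
      ((midDeg q : ℕ) : ℤ) * ((setup (DtM B hB hqM)).s₁ e).ord g := by
  have h1 := MidFamily.ord_pMid_algebraMap B hB hqM z hcop e g
  rw [← hpM e s, hz e,
    Fermat.Agent.BR3.MidKummerPlaces.fMid_eq_midDeg B hB hqM e₀ h2 h3] at h1
  exact h1

include hz hpM in
theorem huniqMid (e : SSpM B hB hqM) (s : KPq q)
    (Q : Place kB (FtAll B hB hqM hζ (FZM B hB hqM h2 h3) (mid (X.comp e s))))
    (hQ : ∀ (g : FtM) (c : kB), IsValueAt Q (VMid B hB hqM hζ h2 h3 (X.comp e s) g) c →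
      IsValueAt ((setup (DtM B hB hqM)).s₁ e) g c) : Q = X.pMid e s := by
  haveI := finiteDimensional_FMid B hB hqM
  have hdeg : ∀ P : Place kB FtM, P.deg = 1 := fun P =>
    (Fermat.Agent.Val.riemannPkg_modL_residueField M hqM B hB).deg_one P
  have h1 : (toConst (X.comp e s) Q).restrict FtM = z e :=
    Fermat.Agent.BR3.PushModMidA.restrict_eq_of_isValueAt hdeg (toConst (X.comp e s) Q) (z e)
      (fun g c h => by rw [hz e]; exact hQ g c h)
  have h2 := MidFamily.eq_pMid B hB hqM z hcop e h1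
  exact h2.trans (hpM e s).symm

end Mid


/-! ### the binder `hpa` -/

section Final

variable (z : SSpM B hB hqM → Place (IsLocalRing.ResidueField B)
    (modularFunctionFieldFullC (IsLocalRing.ResidueField B) M))
  (hz : ∀ e, z e = z₁ (chartDataModular B hB hqM) e)
  (hcop : ∀ e, IsCoprime ((z e).ord (deltaMid B hB hqM)) (fMid M B hB : ℤ))
  (hpM : ∀ e s, toConst (X.comp e s) (X.pMid e s) = MidFamily.pMid B hB hqM z hcop e)

include hz hpM in
set_option maxHeartbeats 8000000 in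
/-- **(G6) `hpa` for `(M, q, B)`**: the binder `hpa` of `ModularTameRaw.tameProp_of_rawTubes` with
`ιa := Fin 2 ⊕ (oneLevel (inputs DtM) gaugeA admA).X`, `vWa := old 1`, `vTa := old 0`,
`vEa := exc`, `d := midDeg q`, modulo `hsm`. -/
theorem hpa_modular (hXC : X.C = CAll B hB hqM hζ (CZM B hB hqM h2 h3))
    (hpInf : ∀ e, X.pInf e = pInfM B hB hqM e) (hpZero : ∀ e, X.pZero e = pZeroM B hB hqM e)
    (hzT : ∀ e, X.zT e =
      ptIBar q (zePackM B hB hqM h2 h3 e).hβ (zePackM B hB hqM h2 h3 e).hρ)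
    (hzW : ∀ e, X.zW e =
      ptZBar q (zePackM B hB hqM h2 h3 e).hβ (zePackM B hB hqM h2 h3 e).hρ)
    (hzK : ∀ e s, X.zK e s =
      ptKFam q (zePackM B hB hqM h2 h3 e).hβ (zePackM B hB hqM h2 h3 e).hρ s)
    (hall : ∀ e i, ∃ s, X.comp e s = i)
    (hsm : ∀ P : Place Kb (Fb (M * q * q)), X.toInput.setup.IsSmoothPlace P →
      (srefM (DtM B hB hqM) (gaugeA q B hB hqM) (admA B hB hqM h2 h3)).IsSmoothPlace
        (P.restrictAlong (alpha2 M q) (Fermat.Agent.Hecke.heckeAlphaBarIntegral (M * q) q)))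
    (lam : ℕ) (hlam : lam ≠ 0) :
    ∀ (m : ℕ) (z' : JZero (M * q * q))
      (D : Divisor.degZero (K := Qb) (F := Fb (M * q * q)))
      (f : Fb (M * q * q)) (u : ∀ v, FtAll B hB hqM hζ (FZM B hB hqM h2 h3) v),
      IsGood X.toInput.setup (lam ^ m) z' D f u → alphaDown (M * q) q z' = 0 →
      ∀ (av bv : Node (SSpM B hB hqM) (KPq q) → ResidueField B) (ha0 : ∀ e, av e ≠ 0)
        (hb0 : ∀ e, bv e ≠ 0),
      (∀ e, IsValueAt (X.toInput.setup.s₁ e) (u (X.toInput.setup.src e)) (av e)) →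
      (∀ e, IsValueAt (X.toInput.setup.s₂ e) (u (X.toInput.setup.tgt e)) (bv e)) →
      ∃ κ₀ : Fin 2 ⊕ (oneLevel (inputs (DtM B hB hqM)) (gaugeA q B hB hqM)
          (admA B hB hqM h2 h3)).X → ResidueField B, (∀ v, κ₀ v ≠ 0) ∧
        (∀ e, valH hor av bv (nW e) ^ q *
            κ₀ (exc (inputs (DtM B hB hqM)) (gaugeA q B hB hqM) (admA B hB hqM h2 h3) e) =
          valV hor av bv (nW e) ^ q *
            κ₀ (old (inputs (DtM B hB hqM)) (gaugeA q B hB hqM) (admA B hB hqM h2 h3) 1)) ∧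
        ∀ e, (valH hor av bv (nT e) * ∏ s, valH hor av bv (nk e s) ^ midDeg q) *
            κ₀ (exc (inputs (DtM B hB hqM)) (gaugeA q B hB hqM) (admA B hB hqM h2 h3) e) =
          (valV hor av bv (nT e) * ∏ s, valV hor av bv (nk e s) ^ midDeg q) *
            κ₀ (old (inputs (DtM B hB hqM)) (gaugeA q B hB hqM) (admA B hB hqM h2 h3) 0) := by
  have hFt := hFtAll B hB hqM hζ (riemannPkg_FZM B hB hqM h2 h3)
  haveI : ∀ w', HasPrincipalDivisors kB (FtAll B hB hqM hζ (FZM B hB hqM h2 h3) w') :=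
    fun w' => (hFt w').principal
  haveI : ∀ e, HasPrincipalDivisors kB (AdjoinRoot (vertBar q (zePackM B hB hqM h2 h3 e).β
      (zePackM B hB hqM h2 h3 e).ρ)) := fun e => (riemannPkg_FZM B hB hqM h2 h3 e).principal
  have hFtM := Fermat.Agent.Val.riemannPkg_modL_residueField M hqM B hB
  have hfin := Fermat.Agent.Hecke.finiteAlong_heckeAlphaBar (M * q) q
  obtain ⟨e₀⟩ := nonempty_SSpM B hB hqM
  haveI : ExpChar FtM q := Fermat.Agent.BR3.FullPlug.expChar_Ft₀ B hB (Ft₀ := fun _ : Fin 2 => FtM) 0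
  obtain ⟨h1, h2', h3', h4, h5, h6⟩ := Fermat.Agent.BR3.PushModExcU.exc_hyps_a_fam (k := kB) q
    (β := fun e => (zePackM B hB hqM h2 h3 e).β) (ρ := fun e => (zePackM B hB hqM h2 h3 e).ρ)
    (fun e => (zePackM B hB hqM h2 h3 e).hβ) (fun e => (zePackM B hB hqM h2 h3 e).hρ) hzT hzW hzK
    (Fermat.Agent.BR3.PushModExcPlug.psiExc (DtM B hB hqM) (gaugeA q B hB hqM)
      (admA B hB hqM h2 h3) X (alpha2 M q) (DcanM B hB hqM hζ h2 h3 X hXC)
      (DetM B hB hqM hζ h2 h3 X hXC) (DexcM B hB hqM hζ h2 h3 X hXC))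
    (Fermat.Agent.BR3.PushModExcPlug.isIntegral_psiExc (DtM B hB hqM) (gaugeA q B hB hqM)
      (admA B hB hqM h2 h3) X (alpha2 M q) (DcanM B hB hqM hζ h2 h3 X hXC)
      (DetM B hB hqM hζ h2 h3 X hXC) (DexcM B hB hqM hζ h2 h3 X hXC) hfin)
    (fun e => Fermat.Agent.BR3.PushModExcA.hXa_of_eq q _
      (fun y => Fermat.Agent.BR3.PushModExcPlug.psiExc_apply (DtM B hB hqM) (gaugeA q B hB hqM)
        (admA B hB hqM h2 h3) X (alpha2 M q) (DcanM B hB hqM hζ h2 h3 X hXC)
        (DetM B hB hqM hζ h2 h3 X hXC) (DexcM B hB hqM hζ h2 h3 X hXC) e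
        (VZe B hB hqM hζ h2 h3 e) (hresZe B hB hqM hζ h2 h3 X hXC e) y))
  exact hpa_of_fulls (DtM B hB hqM) (gaugeA q B hB hqM) (admA B hB hqM h2 h3) X (alpha2 M q)
    (DcanM B hB hqM hζ h2 h3 X hXC) (DetM B hB hqM hζ h2 h3 X hXC)
    (DexcM B hB hqM hζ h2 h3 X hXC) (Fermat.Agent.Val.riemannPkg_bar (M * q)) hFtM hFt
    (Fermat.Agent.Hecke.heckeAlphaBarIntegral (M * q) q) hfin
    (Fermat.Agent.Hecke.normFormulaAlong_alpha (M * q) q) hsm lam hlam (midDeg q)
    (fun j => Fermat.Agent.BR3.FullPlug.fundamentalIdentityAlong_fullCanA B hB hqM hζ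
      (srefM (DtM B hB hqM) (gaugeA q B hB hqM) (admA B hB hqM h2 h3)) X.toInput.setup
      (Sum.inl 0) rfl (wOpt cInf) (hwOpt B hB hqM hζ h2 h3 X hXC) j)
    (Fermat.Agent.BR3.PushModEtA.hInf_of_value (DtM B hB hqM) (gaugeA q B hB hqM)
      (admA B hB hqM h2 h3) X (alpha2 M q) (DcanM B hB hqM hζ h2 h3 X hXC)
      (DetM B hB hqM hζ h2 h3 X hXC) (DexcM B hB hqM hζ h2 h3 X hXC) hFtM hfin
      (VInf B hB hqM hζ h2 h3) (hresInf B hB hqM hζ h2 h3 X hXC) (fun x => ⟨x, rfl⟩)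
      (hVInf B hB hqM hζ h2 h3 X hpInf))
    (Fermat.Agent.BR3.PushModMidA.hMid_of_value (DtM B hB hqM) (gaugeA q B hB hqM)
      (admA B hB hqM h2 h3) X (alpha2 M q) (DcanM B hB hqM hζ h2 h3 X hXC)
      (DetM B hB hqM hζ h2 h3 X hXC) (DexcM B hB hqM hζ h2 h3 X hXC)
      (VMid B hB hqM hζ h2 h3) (hresMid B hB hqM hζ h2 h3 X hXC) hFtM hfin (midDeg q)
      (hVMid B hB hqM hζ h2 h3 X z hz hcop hpM)
      (hordMid B hB hqM hζ h2 h3 X z hz hcop hpM e₀))
    (Fermat.Agent.BR3.PushModEtA.hexhInf'_of_value (DtM B hB hqM) (gaugeA q B hB hqM)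
      (admA B hB hqM h2 h3) X (alpha2 M q) (DcanM B hB hqM hζ h2 h3 X hXC)
      (DetM B hB hqM hζ h2 h3 X hXC) (DexcM B hB hqM hζ h2 h3 X hXC) hFtM hfin
      (VInf B hB hqM hζ h2 h3) (hresInf B hB hqM hζ h2 h3 X hXC) (fun x => ⟨x, rfl⟩)
      (hVInf B hB hqM hζ h2 h3 X hpInf))
    (Fermat.Agent.BR3.PushModMidA.hexhMid_of_value (DtM B hB hqM) (gaugeA q B hB hqM)
      (admA B hB hqM h2 h3) X (alpha2 M q) (DcanM B hB hqM hζ h2 h3 X hXC)
      (DetM B hB hqM hζ h2 h3 X hXC) (DexcM B hB hqM hζ h2 h3 X hXC)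
      (VMid B hB hqM hζ h2 h3) (hresMid B hB hqM hζ h2 h3 X hXC) hfin hall
      (huniqMid B hB hqM hζ h2 h3 X z hz hcop hpM))
    h1 h2' h3' h4 h5 h6
    (Fermat.Agent.BR3.PushModEtA.hZero_of_value (DtM B hB hqM) (gaugeA q B hB hqM)
      (admA B hB hqM h2 h3) X (alpha2 M q) (DcanM B hB hqM hζ h2 h3 X hXC)
      (DetM B hB hqM hζ h2 h3 X hXC) (DexcM B hB hqM hζ h2 h3 X hXC) hFtM hfin
      (VZero B hB hqM hζ h2 h3) (hresZero B hB hqM hζ h2 h3 X hXC)
      (hVZero B hB hqM hζ h2 h3 X hpZero))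
    (Fermat.Agent.BR3.PushModEtA.hpow_of_insep (DtM B hB hqM) (gaugeA q B hB hqM)
      (admA B hB hqM h2 h3) X (alpha2 M q) (DcanM B hB hqM hζ h2 h3 X hXC)
      (DetM B hB hqM hζ h2 h3 X hXC) (DexcM B hB hqM hζ h2 h3 X hXC) hfin (Fintype.card_fin q)
      (Fermat.Agent.BR3.FullPlug.pow_mem_range_fullEtA B hB hqM
        (srefM (DtM B hB hqM) (gaugeA q B hB hqM) (admA B hB hqM h2 h3)) X.toInput.setup
        (Sum.inl 1) rfl SDD.cZero (hwZero B hB hqM hζ h2 h3 X hXC)))

end Final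

end Fermat.Agent.BR3.SDD.ModularPushA
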