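import Mathlib
import Fermat.Agent.BR3.SDD.ModularZePts
import Fermat.Agent.BR3.PushModExcPlugB
import Fermat.Agent.BR3.FullPlugB
import Fermat.Agent.BR3.PushModHorB
import Fermat.Agent.BR3.FullExcBPlug
import Fermat.Agent.BR3.CoverK.FibreInsepMod
import Fermat.Agent.BR3.MidBeta
import Fermat.Agent.BR3.MidKummerPlaces
import Fermat.Agent.BR3.KummerGenus.MidFamily
import Fermat.Agent.BR3.EquivActsKummer
import Fermat.Agent.BR3.ThickSDDPlug

/-!
# Program C (S36), node (G6-PUSH-MOD), the modular instance along `b`: the binder `hpb` of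
`ModularTameRaw.tameProp_of_rawTubes` as ONE term

Frame of `BR3/SDD/ModularRaw` : `FZ := FZM B hB hqM h2 h3`, `CZ := CZM B hB hqM h2 h3`,
`KP := VertPtsU.KPq q`, `X : CaseInput B (MidM …) (SSpM …) (KPq q) (FtAll … FZM)` ANY inputs with
`X.C = CAll … CZM`, `X.pInf = pInfM`, `X.pZero = pZeroM`, `X.zT = zTM`, `X.zW = zWM`, `X.zK = zKM`
and the Kummer places `toConst (X.comp e s) (X.pMid e s) = MidFamily.pMid … z₁ hcop e` (all `rfl`
for `X := XRaw …`).  `S'ref_b = srefM (DtM …) (gaugeB …) (admB …)`, `φ = beta2 M q`, the crossing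
`e` of `S''` lies over the crossing `Fr e` of `S'`.

* the residue maps of the components of `S''` along `β₂` (`C` generalised, `C = CAll …`):
  `res_cInf_beta2_C` (`V = qExpandFullC`), `res_cZero_beta2_C` (`V = id`), `resMid_beta2`,
  `res_mid_beta2_C` (`V = algebraMap F̃_M (FMid M B)`), `res_ze_beta2_C` (`V = (zePackM … e).φ`);
* `FrE` : the involution `Fr` as an equivalence;
* **`hpb_modular`** : the binder `hpb` of `ModularTameRaw.tameProp_of_rawTubes` VERBATIM, with
  `ιb := Fin 2 ⊕ (oneLevel (inputs (DtM …)) (gaugeB …) (admB …)).X`, `vWb := old … 0`,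
  `vTb := old … 1`, `vEb := exc …`, `φ := Fr B hB hqM`, `d := IgSq.midDeg q`, modulo `hsm` only.
-/

set_option autoImplicit false
set_option linter.unusedVariables false
set_option linter.unusedSectionVars false
set_option linter.style.haveILetI false
set_option synthInstance.maxHeartbeats 400000
set_option maxHeartbeats 1600000

noncomputable section

/- S36 build-time patch: file-local shortcut instances. They only shorten instance search;
each is the instance that the search finds anyway (reducible, same terms after unfolding). -/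
local instance (priority := 100000) Fermat.Agent.BR3.FastInst.instAlgFullC_SDD_ModularPushB
    {k : Type*} [Field k] (N : ℕ) :
    Algebra k ↥(ModularCurve.modularFunctionFieldFullC k N) := inferInstance
local instance (priority := 100000) Fermat.Agent.BR3.FastInst.instFieldFullC_SDD_ModularPushB
    {k : Type*} [Field k] (N : ℕ) :
    Field ↥(ModularCurve.modularFunctionFieldFullC k N) := inferInstance
local instance (priority := 100000) Fermat.Agent.BR3.FastInst.instAlgLaurent_SDD_ModularPushB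
    {k : Type*} [Field k] : Algebra k (LaurentSeries k) := inferInstance


namespace Fermat.Agent.BR3.SDD.ModularPushB

open Polynomial ModularCurve AlgebraicCurve IsLocalRing
open Fermat.Agent.Red Fermat.Agent.Val Fermat.Agent.X0 Fermat.Agent.BR.SS Fermat.Agent.BR.Refine
open Fermat.Agent.BR.Circle Fermat.Agent.BR.S0 Fermat.Agent.BR.P1
open Fermat.Agent.BR.S0.PointDict Fermat.Agent.BR.S0.RedModular Fermat.Agent.BR.Final
open Fermat.Agent.BR2.SetupOfData Fermat.Agent.BR3.CircleN Fermat.Agent.BR3.SRef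
open Fermat.Agent.BR3.SRef.Modular Fermat.Agent.BR3.SDD Fermat.Agent.Jac Fermat.Agent.BR
open Fermat.Agent.BR2.Filt Fermat.Agent.BR3.G5Multi Fermat.Agent.BR3.TorGlue
open Fermat.Agent.BR3.GeoTor Fermat.Agent.BR3.GeoTorPush Fermat.Agent.BR3.PushGlue
open Fermat.Agent.BR3.PushShapes Fermat.Agent.BR3.MultiVal Fermat.Agent.BR3.PushModFull
open Fermat.Agent.BR3.PushModNRB Fermat.Agent.BR3.VertPts Fermat.Agent.BR3.VertPtsDef
open Fermat.Agent.BR3.SDD.Modular Fermat.Agent.BR3.FibreProd Fermat.Agent.BR.TwoVal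
open Fermat.Agent.BR.TwoValInst Fermat.Agent.BR.ConstRedTwo Fermat.Agent.BR3.CZeroRes
open Fermat.Agent.BR3.CInfRes Fermat.Agent.BR3.VertBetaFr Fermat.Agent.BR3.VertPtsU
open Fermat.Agent.BR3.IgSq Fermat.Agent.BR3.VertResidue Fermat.Agent.BR3.VertResField
open Fermat.Agent.BR3.CoverK.FibreInsepMod Fermat.Agent.BR2.LevelGen
open Fermat.Agent.BR2.LevelMaps Fermat.Agent.BR.LevelTransfer Fermat.Agent.BR3.EquivActsKummer
open Fermat.Agent.BR3.KummerGenus Fermat.Agent.Hecke Fermat.Agent.BR3.KummerGenus.MidInst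
open Fermat.Agent.BR3.ThickSDDPlug

local notation "Qb" => AlgebraicClosure ℚ

variable {M q : ℕ} [NeZero M] [hq : Fact q.Prime]
variable (B : ValuationSubring (AlgebraicClosure ℚ)) (hB : B.LiesOverPrime q) (hqM : ¬ q ∣ M)
variable [IsAlgClosed (ResidueField B)]
variable {ζ : Kbˣ} (hζ : IsPrimitiveRoot ζ q)

local notation "kB" => IsLocalRing.ResidueField B
local notation "FtM" => modularFunctionFieldFullC (IsLocalRing.ResidueField B) M

/-- (shortcut instances) -/
local instance (priority := 100000) instAlgKFtPushB : Algebra kB FtM := inferInstance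
local instance (priority := 100000) instAlgKFMidPushB : Algebra kB (FMid M B) := inferInstance
local instance (priority := 100000) instAlgFtFMidPushB : Algebra FtM (FMid M B) := inferInstance
local instance (priority := 100000) instTowerMidPushB : IsScalarTower kB FtM (FMid M B) :=
  inferInstance

/-! ### the residue maps of the components of `S''` along `β₂` -/

section ResMaps

variable {FZ : SSpM B hB hqM → Type} [∀ e, Field (FZ e)] [∀ e, Algebra (ResidueField B) (FZ e)]
  (CZ : ∀ e, ConstRed (F := Fb (M * q * q)) (Ft := FZ e) B (residue B))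

/-- compatibility of the residue map of `w₂ b` with the residue map of `et` along `β₂` -/
theorem resMid_beta2 {b : ℕ} (hb : b < q - 1) (x : Fb (M * q)) (hx : x ∈ O2 B hB hqM) :
    resMid B hB hqM hζ hb
        ⟨beta2 M q x, (Fermat.Agent.BR3.MidBeta.beta2_mem_w2_iff B hB hqM hζ hb x).2 hx⟩ =
      algebraMap FtM (FMid M B) ((constRedW2 B hB hqM).res ⟨x, hx⟩) := by
  apply Subtype.ext
  rw [IntermediateField.coe_algebraMap_apply, IntermediateField.algebraMap_apply]
  exact (Fermat.Agent.BR3.MidBeta.resw2_beta2 B hB hqM hζ hb x hx).trans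
    (coe_constRedW2_res B hB hqM ⟨x, hx⟩).symm

/-- the residue map of `cInf` on the image of `β₂` : `V = qExpandFullC` -/
theorem res_cInf_beta2_C [CharP kB q] [PerfectField kB]
    (C : ∀ v, ConstRed (F := Fb (M * q * q)) (Ft := FtAll B hB hqM hζ FZ v) B (residue B))
    (hC : C = CAll B hB hqM hζ CZ) (y : (setup (DtM B hB hqM)).O 0)
    (h : beta2 M q (y : Fb (M * q)) ∈ (C cInf).O) :
    ((C cInf).res ⟨beta2 M q (y : Fb (M * q)), h⟩ : FtM) =
      qExpandFullC kB M q ((setup (DtM B hB hqM)).res 0 y) := by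
  subst hC
  exact res_cInf_beta2 B hB hqM (y : Fb (M * q)) y.2

/-- the residue map of `cZero` on the image of `β₂` : `V = id` -/
theorem res_cZero_beta2_C
    (C : ∀ v, ConstRed (F := Fb (M * q * q)) (Ft := FtAll B hB hqM hζ FZ v) B (residue B))
    (hC : C = CAll B hB hqM hζ CZ) (y : (setup (DtM B hB hqM)).O 1)
    (h : beta2 M q (y : Fb (M * q)) ∈ (C SDD.cZero).O) :
    ((C SDD.cZero).res ⟨beta2 M q (y : Fb (M * q)), h⟩ : FtM) =
      RingHom.id FtM ((setup (DtM B hB hqM)).res 1 y) := by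
  subst hC
  exact resZ_beta2 B hB hqM (y : Fb (M * q)) y.2

/-- the residue map of the middle component `i` on the image of `β₂` : `V = algebraMap` -/
theorem res_mid_beta2_C
    (C : ∀ v, ConstRed (F := Fb (M * q * q)) (Ft := FtAll B hB hqM hζ FZ v) B (residue B))
    (hC : C = CAll B hB hqM hζ CZ) (i : MidM B hB hqM hζ) (y : (setup (DtM B hB hqM)).O 1)
    (h : beta2 M q (y : Fb (M * q)) ∈ (C (mid i)).O) :
    ((C (mid i)).res ⟨beta2 M q (y : Fb (M * q)), h⟩ : FMid M B) =
      algebraMap FtM (FMid M B) ((setup (DtM B hB hqM)).res 1 y) := by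
  subst hC
  exact resMid_beta2 B hB hqM hζ (i.rep B hB hqM hζ).2 (y : Fb (M * q)) y.2

end ResMaps

/-! ### the frame -/

/-- the involution `Fr` of the crossings, as an equivalence -/
def FrE : SSpM B hB hqM ≃ SSpM B hB hqM := (Fr_involutive B hB hqM).toPerm _

@[simp] theorem FrE_apply (e : SSpM B hB hqM) : FrE B hB hqM e = Fr B hB hqM e := rfl

@[simp] theorem FrE_symm_apply (e : SSpM B hB hqM) : (FrE B hB hqM).symm e = Fr B hB hqM e := rfl

section Frame

variable [CharP (ResidueField B) q] (h2 : nuTwo M = 0) (h3 : nuThree M = 0)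
  (X : CaseInput (F := Fb (M * q * q)) B (MidM B hB hqM hζ) (SSpM B hB hqM) (KPq q)
    (FtAll B hB hqM hζ (FZM B hB hqM h2 h3)))

/-- the valuation ring of the vertical component `z e` -/
theorem hwze (hXC : X.C = CAll B hB hqM hζ (CZM B hB hqM h2 h3)) (e : SSpM B hB hqM) :
    X.toInput.setup.O (ze e) = (zePackM B hB hqM h2 h3 e).Z := by
  show (X.C (ze e)).O = _
  rw [hXC]
  exact CZM_O B hB hqM h2 h3 e

/-- the residue map of the vertical component `z e` on the image of `β₂` : `V = (zePackM … e).φ` -/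
theorem res_ze_beta2_C
    (C : ∀ v, ConstRed (F := Fb (M * q * q))
      (Ft := FtAll B hB hqM hζ (FZM B hB hqM h2 h3) v) B (residue B))
    (hC : C = CAll B hB hqM hζ (CZM B hB hqM h2 h3)) (e : SSpM B hB hqM)
    (h1 : B.valuation ((inputs (DtM B hB hqM)).ch (Fr B hB hqM e)).toCore.thick <
      B.valuation (gaugeSDD q ^ q))
    (h2' : B.valuation (gaugeSDD q ^ q) < 1)
    (y : circleRing ((inputs (DtM B hB hqM)).ch (Fr B hB hqM e)).toCore (gaugeSDD q ^ q) h1 h2')
    (h : beta2 M q (y : Fb (M * q)) ∈ (C (ze e)).O) :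
    ((C (ze e)).res ⟨beta2 M q (y : Fb (M * q)), h⟩ : FZM B hB hqM h2 h3 e) =
      (zePackM B hB hqM h2 h3 e).φ
        (circleRes ((inputs (DtM B hB hqM)).ch (Fr B hB hqM e)).toCore (gaugeSDD q ^ q) h1 h2'
          y) := by
  subst hC
  exact (zePackM B hB hqM h2 h3 e).φ_compat (y : Fb (M * q)) y.2 h

end Frame

/-! ### the binder `hpb` -/

section Main

open Fermat.Agent.BR3.PushModExcPlugB Fermat.Agent.BR3.FullPlugB Fermat.Agent.BR3.PushModHorB
open Fermat.Agent.BR3.FullB Fermat.Agent.BR3.FullExcBPlug Fermat.Agent.BR3.FullHoriz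
open Fermat.Agent.BR3.PushModMidA

variable [CharP (ResidueField B) q] (h2 : nuTwo M = 0) (h3 : nuThree M = 0)
  (X : CaseInput (F := Fb (M * q * q)) B (MidM B hB hqM hζ) (SSpM B hB hqM) (KPq q)
    (FtAll B hB hqM hζ (FZM B hB hqM h2 h3)))

set_option maxHeartbeats 8000000 in
/-- **(G6-PUSH-MOD) along `b`, the modular instance, `q` odd**: the binder `hpb` of
`ModularTameRaw.tameProp_of_rawTubes` with `d = (q - 1) / 2`, modulo `hsm`. -/
theorem hpb_modular_odd (hq2 : q ≠ 2)
    (hXC : X.C = CAll B hB hqM hζ (CZM B hB hqM h2 h3))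
    (hpInf : X.pInf = pInfM B hB hqM) (hpZero : X.pZero = pZeroM B hB hqM)
    (hzT : X.zT = zTM B hB hqM h2 h3) (hzW : X.zW = zWM B hB hqM h2 h3)
    (hzK : X.zK = zKM B hB hqM h2 h3)
    (hcop : ∀ e : SSpM B hB hqM,
      IsCoprime ((z₁ (chartDataModular B hB hqM) e).ord (deltaMid B hB hqM)) (fMid M B hB : ℤ))
    (hpM : ∀ e s, toConst (X.comp e s) (X.pMid e s) =
      MidFamily.pMid B hB hqM (z₁ (chartDataModular B hB hqM)) hcop e)
    (hall : ∀ e i, ∃ s, X.comp e s = i)
    (hsm : ∀ P : Place Qb (Fb (M * q * q)), X.toInput.setup.IsSmoothPlace P →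
      (srefM (DtM B hB hqM) (gaugeB q B hB hqM) (admB B hB hqM h2 h3)).IsSmoothPlace
        (P.restrictAlong (beta2 M q) (isIntegral_fb (beta2 M q))))
    {lam : ℕ} (hlam : lam ≠ 0) :
    ∀ (m : ℕ) (z : JZero (M * q * q)) (D : Divisor.degZero (K := Qb) (F := Fb (M * q * q)))
      (f : Fb (M * q * q)) (u : ∀ v, FtAll B hB hqM hζ (FZM B hB hqM h2 h3) v),
      IsGood X.toInput.setup (lam ^ m) z D f u → betaDown (M * q) q z = 0 →
      ∀ (av bv : Node (SSpM B hB hqM) (KPq q) → ResidueField B) (ha0 : ∀ e, av e ≠ 0)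
        (hb0 : ∀ e, bv e ≠ 0),
      (∀ e, IsValueAt (X.toInput.setup.s₁ e) (u (X.toInput.setup.src e)) (av e)) →
      (∀ e, IsValueAt (X.toInput.setup.s₂ e) (u (X.toInput.setup.tgt e)) (bv e)) →
      ∃ κ₀ : Fin 2 ⊕ (oneLevel (inputs (DtM B hB hqM)) (gaugeB q B hB hqM)
          (admB B hB hqM h2 h3)).X → ResidueField B,
        (∀ v, κ₀ v ≠ 0) ∧
        (∀ e, valH hor av bv (nT e) ^ q *
            κ₀ (exc (inputs (DtM B hB hqM)) (gaugeB q B hB hqM) (admB B hB hqM h2 h3)
              (Fr B hB hqM e)) =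
          valV hor av bv (nT e) ^ q *
            κ₀ (old (inputs (DtM B hB hqM)) (gaugeB q B hB hqM) (admB B hB hqM h2 h3) 0)) ∧
        ∀ e, (valH hor av bv (nW e) * ∏ s, valH hor av bv (nk e s) ^ ((q - 1) / 2)) *
            κ₀ (exc (inputs (DtM B hB hqM)) (gaugeB q B hB hqM) (admB B hB hqM h2 h3)
              (Fr B hB hqM e)) =
          (valV hor av bv (nW e) * ∏ s, valV hor av bv (nk e s) ^ ((q - 1) / 2)) *
            κ₀ (old (inputs (DtM B hB hqM)) (gaugeB q B hB hqM) (admB B hB hqM h2 h3) 1) := by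
  haveI : PerfectField kB := Fermat.Agent.BR2.ResInst.perfectField_res B
  haveI := finiteDimensional_FMid B hB hqM
  have hF₀ : RiemannPkg Qb (Fb (M * q)) := Fermat.Agent.Val.riemannPkg_bar (M * q)
  have hFtM : RiemannPkg kB FtM := Fermat.Agent.Val.riemannPkg_modL_residueField M hqM B hB
  have hFt : ∀ w', RiemannPkg kB (FtAll B hB hqM hζ (FZM B hB hqM h2 h3) w') :=
    hFtAll B hB hqM hζ (riemannPkg_FZM B hB hqM h2 h3)
  haveI : HasPrincipalDivisors Qb (Fb (M * q)) := hF₀.principal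
  haveI : HasPrincipalDivisors Qb (Fb (M * q * q)) :=
    (Fermat.Agent.Val.riemannPkg_bar (M * q * q)).principal
  haveI : ∀ w', HasPrincipalDivisors kB (FtAll B hB hqM hζ (FZM B hB hqM h2 h3) w') :=
    fun w' => (hFt w').principal
  have hfin : FiniteAlong Qb (beta2 M q) := finiteAlong_fb (beta2 M q)
  -- the ring identifications
  have hwb : X.toInput.setup.O cInf = w1 M B hB := by
    show (X.C cInf).O = _
    rw [hXC]
    rfl
  have hw : ∀ v, X.toInput.setup.O (wOpt SDD.cZero v) = OAllB B hB hqM hζ v := by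
    rintro (_ | i)
    · show (X.C SDD.cZero).O = _
      rw [hXC]
      rfl
    · show (X.C (mid i)).O = _
      rw [hXC]
      exact CAll_mid_O B hB hqM hζ _ i
  -- the Kummer places lie over `z₁ e`
  have hr : ∀ e s, (toConst (X.comp e s) (X.pMid e s)).restrict FtM =
      z₁ (chartDataModular B hB hqM) e := fun e s => by
    rw [hpM e s]
    exact MidFamily.pMid_restrict B hB hqM _ hcop e
  have hd : ∀ e : SSpM B hB hqM, fMid M B hB = (q - 1) / 2 := fun e => by
    rw [Fermat.Agent.BR3.MidKummerPlaces.fMid_eq_midDeg B hB hqM e h2 h3]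
    exact if_neg hq2
  refine hpb_of_fulls_vert (DtM B hB hqM) (gaugeB q B hB hqM) (admB B hB hqM h2 h3) X
    (beta2 M q) (FrE B hB hqM)
    (fullCanB B hB (setup (DtM B hB hqM)) X.toInput.setup 0 rfl cInf hwb)
    (fullEtB B hB hqM (setup (DtM B hB hqM)) X.toInput.setup hζ 1 rfl (wOpt SDD.cZero) hw)
    (dexcOfCrossing (DtM B hB hqM) (gaugeB q B hB hqM) (admB B hB hqM h2 h3) X (beta2 M q)
      (FrE B hB hqM) (κ := fun _ => Fin q) (fun e =>
        fullExcB B hB _ _ _ _ (zePackM B hB hqM h2 h3 e).hβ (zePackM B hB hqM h2 h3 e).hρ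
          (zePackM B hB hqM h2 h3 e).resZ (zePackM B hB hqM h2 h3 e).comap_beta
          (zePackM B hB hqM h2 h3 e).surj (zePackM B hB hqM h2 h3 e).ker
          (zePackM B hB hqM h2 h3 e).φ (zePackM B hB hqM h2 h3 e).φ_compat
          (zePackM B hB hqM h2 h3 e).φ_C (zePackM B hB hqM h2 h3 e).hβ'
          (zePackM B hB hqM h2 h3 e).hω (zePackM B hB hqM h2 h3 e).φ_rel
          (zePackM B hB hqM h2 h3 e).θ_mem (zePackM B hB hqM h2 h3 e).res_θ
          (srefM (DtM B hB hqM) (gaugeB q B hB hqM) (admB B hB hqM h2 h3)) X.toInput.setup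
          (exc (inputs (DtM B hB hqM)) (gaugeB q B hB hqM) (admB B hB hqM h2 h3)
            (FrE B hB hqM e)) rfl (ze e) (hwze B hB hqM hζ h2 h3 X hXC e)))
    hq2 hF₀ hFtM hFt (isIntegral_fb (beta2 M q)) hfin (normFormulaAlong_fb (beta2 M q)) hsm lam
    hlam ?hInf ?hpow
    (fun e => (zePackM B hB hqM h2 h3 e).hρ) (fun e => (zePackM B hB hqM h2 h3 e).hβ')
    (fun e => (zePackM B hB hqM h2 h3 e).hω)
    (fun e => vertBar_hb (q := q) (ρ := (zePackM B hB hqM h2 h3 e).ρ)
      (zePackM B hB hqM h2 h3 e).hβ)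
    (fun e => vertBar_heq (q := q) (ρ := (zePackM B hB hqM h2 h3 e).ρ)
      (zePackM B hB hqM h2 h3 e).hβ)
    (fun e => vertBar_hgen (q := q) (ρ := (zePackM B hB hqM h2 h3 e).ρ)
      (zePackM B hB hqM h2 h3 e).hβ)
    (fun e s => rootsK q (zePackM B hB hqM h2 h3 e).ρ s)
    (fun e s => rootsK_sq q (zePackM B hB hqM h2 h3 e).ρ s)
    (fun e c' hc' => rootsK_surj q (zePackM B hB hqM h2 h3 e).ρ hc')
    ?hzT ?hzW ?hzK (fun e => (zePackM B hB hqM h2 h3 e).φ) ?hcompat ?hψ₀ ?hFIet ?hZero ?hMid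
    ?hexhZero' ?hexhMid
  case hInf =>
    refine hInfB_of_value _ _ _ X _ _ _ _ _ hFtM hfin (qExpandFullC kB M q)
      (fun y h => res_cInf_beta2_C B hB hqM hζ _ X.C hXC y h) ?_
    intro e g c hg
    rw [hpInf] at hg
    have h1 := isValueAt_underFrob B (pInfM B hB hqM e) g c hg
    have h3' : underFrob B (q := q) (pInfM B hB hqM e) = z₂ (chartDataModular B hB hqM) e :=
      (Fermat.Agent.BR3.SimpleZeros.z₂_eq_frob_smul_z₁ B hB hqM e).symm
    rw [h3'] at h1
    exact h1
  case hpow =>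
    exact hpow_psiB (DtM B hB hqM) (gaugeB q B hB hqM) (admB B hB hqM h2 h3) hζ X
      (FrE B hB hqM) rfl hwb _ _ hfin
  case hzT =>
    intro e
    rw [hzT]
    rfl
  case hzW =>
    intro e
    rw [hzW]
    rfl
  case hzK =>
    intro e s
    rw [hzK]
    exact ptKFam_eq_ptKBar q (zePackM B hB hqM h2 h3 e).hβ (zePackM B hB hqM h2 h3 e).hρ hq2 s
  case hcompat =>
    intro e e' he a ha h1 h2' y h
    subst he
    subst ha
    exact res_ze_beta2_C B hB hqM hζ h2 h3 X.C hXC e h1 h2' y h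
  case hψ₀ =>
    intro e
    exact Fermat.Agent.BR3.FullExcB.mirror_hXb (zePackM B hB hqM h2 h3 e).φ
      (zePackM B hB hqM h2 h3 e).φ_C (zePackM B hB hqM h2 h3 e).φ_rel
  case hFIet =>
    exact hFIet_psiB (DtM B hB hqM) (gaugeB q B hB hqM) (admB B hB hqM h2 h3) hζ X
      (FrE B hB hqM) rfl hw _ _ hfin
  case hZero =>
    refine hZeroB_of_value _ _ _ X _ _ _ _ _ hFtM hfin (RingHom.id FtM)
      (fun y h => res_cZero_beta2_C B hB hqM hζ _ X.C hXC y h) Function.surjective_id ?_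
    intro e g c hg
    rw [hpZero] at hg
    exact hg
  case hexhZero' =>
    refine hexhZeroB'_of_value _ _ _ X _ _ _ _ _ hFtM hfin (RingHom.id FtM)
      (fun y h => res_cZero_beta2_C B hB hqM hζ _ X.C hXC y h) Function.surjective_id ?_
    intro e g c hg
    rw [hpZero] at hg
    exact hg
  case hMid =>
    refine hMidB_of_value _ _ _ X _ _ _ _ _ (fun i => algebraMap FtM (FMid M B))
      (fun i y h => res_mid_beta2_C B hB hqM hζ _ X.C hXC i y h) hFtM hfin ((q - 1) / 2) ?_ ?_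
    · intro e s g c hg
      exact isValueAt_of_restrict_eq (hr e s) g c hg
    · intro e s g
      have h1 := MidFamily.ord_pMid_algebraMap B hB hqM (z₁ (chartDataModular B hB hqM)) hcop e g
      rw [← hpM e s, hd e] at h1
      exact h1
  case hexhMid =>
    refine hexhMidB_of_value _ _ _ X _ _ _ _ _ (fun i => algebraMap FtM (FMid M B))
      (fun i y h => res_mid_beta2_C B hB hqM hζ _ X.C hXC i y h) hfin hall ?_
    intro e s Q hQ
    have h1 : (toConst (X.comp e s) Q).restrict FtM = z₁ (chartDataModular B hB hqM) e :=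
      restrict_eq_of_isValueAt (fun P => hFtM.deg_one P) _ _ hQ
    exact (MidFamily.eq_pMid B hB hqM _ hcop e h1).trans (hpM e s).symm

set_option maxHeartbeats 8000000 in
/-- **(G6-PUSH-MOD) along `b`, the modular instance, `q = 2`**: the binder `hpb` of
`ModularTameRaw.tameProp_of_rawTubes` with `d = 1`, modulo `hsm`. -/
theorem hpb_modular_two (hq2 : q = 2)
    (hXC : X.C = CAll B hB hqM hζ (CZM B hB hqM h2 h3))
    (hpInf : X.pInf = pInfM B hB hqM) (hpZero : X.pZero = pZeroM B hB hqM)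
    (hzT : X.zT = zTM B hB hqM h2 h3) (hzW : X.zW = zWM B hB hqM h2 h3)
    (hzK : X.zK = zKM B hB hqM h2 h3)
    (hcop : ∀ e : SSpM B hB hqM,
      IsCoprime ((z₁ (chartDataModular B hB hqM) e).ord (deltaMid B hB hqM)) (fMid M B hB : ℤ))
    (hpM : ∀ e s, toConst (X.comp e s) (X.pMid e s) =
      MidFamily.pMid B hB hqM (z₁ (chartDataModular B hB hqM)) hcop e)
    (hall : ∀ e i, ∃ s, X.comp e s = i)
    (hsm : ∀ P : Place Qb (Fb (M * q * q)), X.toInput.setup.IsSmoothPlace P →
      (srefM (DtM B hB hqM) (gaugeB q B hB hqM) (admB B hB hqM h2 h3)).IsSmoothPlace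
        (P.restrictAlong (beta2 M q) (isIntegral_fb (beta2 M q))))
    {lam : ℕ} (hlam : lam ≠ 0) :
    ∀ (m : ℕ) (z : JZero (M * q * q)) (D : Divisor.degZero (K := Qb) (F := Fb (M * q * q)))
      (f : Fb (M * q * q)) (u : ∀ v, FtAll B hB hqM hζ (FZM B hB hqM h2 h3) v),
      IsGood X.toInput.setup (lam ^ m) z D f u → betaDown (M * q) q z = 0 →
      ∀ (av bv : Node (SSpM B hB hqM) (KPq q) → ResidueField B) (ha0 : ∀ e, av e ≠ 0)
        (hb0 : ∀ e, bv e ≠ 0),
      (∀ e, IsValueAt (X.toInput.setup.s₁ e) (u (X.toInput.setup.src e)) (av e)) →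
      (∀ e, IsValueAt (X.toInput.setup.s₂ e) (u (X.toInput.setup.tgt e)) (bv e)) →
      ∃ κ₀ : Fin 2 ⊕ (oneLevel (inputs (DtM B hB hqM)) (gaugeB q B hB hqM)
          (admB B hB hqM h2 h3)).X → ResidueField B,
        (∀ v, κ₀ v ≠ 0) ∧
        (∀ e, valH hor av bv (nT e) ^ q *
            κ₀ (exc (inputs (DtM B hB hqM)) (gaugeB q B hB hqM) (admB B hB hqM h2 h3)
              (Fr B hB hqM e)) =
          valV hor av bv (nT e) ^ q *
            κ₀ (old (inputs (DtM B hB hqM)) (gaugeB q B hB hqM) (admB B hB hqM h2 h3) 0)) ∧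
        ∀ e, (valH hor av bv (nW e) * ∏ s, valH hor av bv (nk e s) ^ 1) *
            κ₀ (exc (inputs (DtM B hB hqM)) (gaugeB q B hB hqM) (admB B hB hqM h2 h3)
              (Fr B hB hqM e)) =
          (valV hor av bv (nW e) * ∏ s, valV hor av bv (nk e s) ^ 1) *
            κ₀ (old (inputs (DtM B hB hqM)) (gaugeB q B hB hqM) (admB B hB hqM h2 h3) 1) := by
  subst hq2
  haveI : PerfectField kB := Fermat.Agent.BR2.ResInst.perfectField_res B
  haveI := finiteDimensional_FMid B hB hqM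
  have hF₀ : RiemannPkg Qb (Fb (M * 2)) := Fermat.Agent.Val.riemannPkg_bar (M * 2)
  have hFtM : RiemannPkg kB FtM := Fermat.Agent.Val.riemannPkg_modL_residueField M hqM B hB
  have hFt : ∀ w', RiemannPkg kB (FtAll B hB hqM hζ (FZM B hB hqM h2 h3) w') :=
    hFtAll B hB hqM hζ (riemannPkg_FZM B hB hqM h2 h3)
  haveI : HasPrincipalDivisors Qb (Fb (M * 2)) := hF₀.principal
  haveI : HasPrincipalDivisors Qb (Fb (M * 2 * 2)) :=
    (Fermat.Agent.Val.riemannPkg_bar (M * 2 * 2)).principal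
  haveI : ∀ w', HasPrincipalDivisors kB (FtAll B hB hqM hζ (FZM B hB hqM h2 h3) w') :=
    fun w' => (hFt w').principal
  have hfin : FiniteAlong Qb (beta2 M 2) := finiteAlong_fb (beta2 M 2)
  -- the ring identifications
  have hwb : X.toInput.setup.O cInf = w1 M B hB := by
    show (X.C cInf).O = _
    rw [hXC]
    rfl
  have hw : ∀ v, X.toInput.setup.O (wOpt SDD.cZero v) = OAllB B hB hqM hζ v := by
    rintro (_ | i)
    · show (X.C SDD.cZero).O = _
      rw [hXC]
      rfl
    · show (X.C (mid i)).O = _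
      rw [hXC]
      exact CAll_mid_O B hB hqM hζ _ i
  -- the Kummer places lie over `z₁ e`
  have hr : ∀ e s, (toConst (X.comp e s) (X.pMid e s)).restrict FtM =
      z₁ (chartDataModular B hB hqM) e := fun e s => by
    rw [hpM e s]
    exact MidFamily.pMid_restrict B hB hqM _ hcop e
  have hd : ∀ e : SSpM B hB hqM, fMid M B hB = 1 := fun e => by
    rw [Fermat.Agent.BR3.MidKummerPlaces.fMid_eq_midDeg B hB hqM e h2 h3]
    exact if_pos rfl
  refine hpb_of_fulls_vert₂ (DtM B hB hqM) (gaugeB 2 B hB hqM) (admB B hB hqM h2 h3) X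
    (beta2 M 2) (FrE B hB hqM)
    (fullCanB B hB (setup (DtM B hB hqM)) X.toInput.setup 0 rfl cInf hwb)
    (fullEtB B hB hqM (setup (DtM B hB hqM)) X.toInput.setup hζ 1 rfl (wOpt SDD.cZero) hw)
    (dexcOfCrossing (DtM B hB hqM) (gaugeB 2 B hB hqM) (admB B hB hqM h2 h3) X (beta2 M 2)
      (FrE B hB hqM) (κ := fun _ => Fin 2) (fun e =>
        fullExcB B hB _ _ _ _ (zePackM B hB hqM h2 h3 e).hβ (zePackM B hB hqM h2 h3 e).hρ
          (zePackM B hB hqM h2 h3 e).resZ (zePackM B hB hqM h2 h3 e).comap_beta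
          (zePackM B hB hqM h2 h3 e).surj (zePackM B hB hqM h2 h3 e).ker
          (zePackM B hB hqM h2 h3 e).φ (zePackM B hB hqM h2 h3 e).φ_compat
          (zePackM B hB hqM h2 h3 e).φ_C (zePackM B hB hqM h2 h3 e).hβ'
          (zePackM B hB hqM h2 h3 e).hω (zePackM B hB hqM h2 h3 e).φ_rel
          (zePackM B hB hqM h2 h3 e).θ_mem (zePackM B hB hqM h2 h3 e).res_θ
          (srefM (DtM B hB hqM) (gaugeB 2 B hB hqM) (admB B hB hqM h2 h3)) X.toInput.setup
          (exc (inputs (DtM B hB hqM)) (gaugeB 2 B hB hqM) (admB B hB hqM h2 h3)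
            (FrE B hB hqM e)) rfl (ze e) (hwze B hB hqM hζ h2 h3 X hXC e)))
    rfl hF₀ hFtM hFt (isIntegral_fb (beta2 M 2)) hfin (normFormulaAlong_fb (beta2 M 2)) hsm lam
    hlam ?hInf ?hpow
    (fun e => (zePackM B hB hqM h2 h3 e).hρ) (fun e => (zePackM B hB hqM h2 h3 e).hβ')
    (fun e => (zePackM B hB hqM h2 h3 e).hω)
    (fun e => vertBar_hb (q := 2) (ρ := (zePackM B hB hqM h2 h3 e).ρ)
      (zePackM B hB hqM h2 h3 e).hβ)
    (fun e => vertBar_heq_two (ρ := (zePackM B hB hqM h2 h3 e).ρ)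
      (zePackM B hB hqM h2 h3 e).hβ)
    (fun e => vertBar_hgen (q := 2) (ρ := (zePackM B hB hqM h2 h3 e).ρ)
      (zePackM B hB hqM h2 h3 e).hβ)
    ?hzT ?hzW ?hzK (fun e => (zePackM B hB hqM h2 h3 e).φ) ?hcompat ?hψ₀ ?hFIet ?hZero ?hMid
    ?hexhZero' ?hexhMid
  case hInf =>
    refine hInfB_of_value _ _ _ X _ _ _ _ _ hFtM hfin (qExpandFullC kB M 2)
      (fun y h => res_cInf_beta2_C B hB hqM hζ _ X.C hXC y h) ?_
    intro e g c hg
    rw [hpInf] at hg
    have h1 := isValueAt_underFrob B (pInfM B hB hqM e) g c hg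
    have h3' : underFrob B (q := 2) (pInfM B hB hqM e) = z₂ (chartDataModular B hB hqM) e :=
      (Fermat.Agent.BR3.SimpleZeros.z₂_eq_frob_smul_z₁ B hB hqM e).symm
    rw [h3'] at h1
    exact h1
  case hpow =>
    exact hpow_psiB (DtM B hB hqM) (gaugeB 2 B hB hqM) (admB B hB hqM h2 h3) hζ X
      (FrE B hB hqM) rfl hwb _ _ hfin
  case hzT =>
    intro e
    rw [hzT]
    rfl
  case hzW =>
    intro e
    rw [hzW]
    rfl
  case hzK =>
    intro e s
    rw [hzK]
    exact ptKFam_eq_ptKBar₂ (zePackM B hB hqM h2 h3 e).hβ (zePackM B hB hqM h2 h3 e).hρ s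
  case hcompat =>
    intro e e' he a ha h1 h2' y h
    subst he
    subst ha
    exact res_ze_beta2_C B hB hqM hζ h2 h3 X.C hXC e h1 h2' y h
  case hψ₀ =>
    intro e
    exact Fermat.Agent.BR3.FullExcB.mirror_hXb (zePackM B hB hqM h2 h3 e).φ
      (zePackM B hB hqM h2 h3 e).φ_C (zePackM B hB hqM h2 h3 e).φ_rel
  case hFIet =>
    exact hFIet_psiB (DtM B hB hqM) (gaugeB 2 B hB hqM) (admB B hB hqM h2 h3) hζ X
      (FrE B hB hqM) rfl hw _ _ hfin
  case hZero =>
    refine hZeroB_of_value _ _ _ X _ _ _ _ _ hFtM hfin (RingHom.id FtM)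
      (fun y h => res_cZero_beta2_C B hB hqM hζ _ X.C hXC y h) Function.surjective_id ?_
    intro e g c hg
    rw [hpZero] at hg
    exact hg
  case hexhZero' =>
    refine hexhZeroB'_of_value _ _ _ X _ _ _ _ _ hFtM hfin (RingHom.id FtM)
      (fun y h => res_cZero_beta2_C B hB hqM hζ _ X.C hXC y h) Function.surjective_id ?_
    intro e g c hg
    rw [hpZero] at hg
    exact hg
  case hMid =>
    refine hMidB_of_value _ _ _ X _ _ _ _ _ (fun i => algebraMap FtM (FMid M B))
      (fun i y h => res_mid_beta2_C B hB hqM hζ _ X.C hXC i y h) hFtM hfin 1 ?_ ?_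
    · intro e s g c hg
      exact isValueAt_of_restrict_eq (hr e s) g c hg
    · intro e s g
      have h1 := MidFamily.ord_pMid_algebraMap B hB hqM (z₁ (chartDataModular B hB hqM)) hcop e g
      rw [← hpM e s, hd e] at h1
      exact h1
  case hexhMid =>
    refine hexhMidB_of_value _ _ _ X _ _ _ _ _ (fun i => algebraMap FtM (FMid M B))
      (fun i y h => res_mid_beta2_C B hB hqM hζ _ X.C hXC i y h) hfin hall ?_
    intro e s Q hQ
    have h1 : (toConst (X.comp e s) Q).restrict FtM = z₁ (chartDataModular B hB hqM) e :=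
      restrict_eq_of_isValueAt (fun P => hFtM.deg_one P) _ _ hQ
    exact (MidFamily.eq_pMid B hB hqM _ hcop e h1).trans (hpM e s).symm


/-- **(G6-PUSH-MOD) along `b`, the modular instance**: the binder `hpb` of
`ModularTameRaw.tameProp_of_rawTubes` VERBATIM, with
`ιb := Fin 2 ⊕ (oneLevel (inputs (DtM …)) (gaugeB …) (admB …)).X`, `vWb := old … 0`,
`vTb := old … 1`, `vEb := exc …`, `φ := Fr B hB hqM`, `d := IgSq.midDeg q`, modulo `hsm` only. -/
theorem hpb_modular
    (hXC : X.C = CAll B hB hqM hζ (CZM B hB hqM h2 h3))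
    (hpInf : X.pInf = pInfM B hB hqM) (hpZero : X.pZero = pZeroM B hB hqM)
    (hzT : X.zT = zTM B hB hqM h2 h3) (hzW : X.zW = zWM B hB hqM h2 h3)
    (hzK : X.zK = zKM B hB hqM h2 h3)
    (hcop : ∀ e : SSpM B hB hqM,
      IsCoprime ((z₁ (chartDataModular B hB hqM) e).ord (deltaMid B hB hqM)) (fMid M B hB : ℤ))
    (hpM : ∀ e s, toConst (X.comp e s) (X.pMid e s) =
      MidFamily.pMid B hB hqM (z₁ (chartDataModular B hB hqM)) hcop e)
    (hall : ∀ e i, ∃ s, X.comp e s = i)
    (hsm : ∀ P : Place Qb (Fb (M * q * q)), X.toInput.setup.IsSmoothPlace P →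
      (srefM (DtM B hB hqM) (gaugeB q B hB hqM) (admB B hB hqM h2 h3)).IsSmoothPlace
        (P.restrictAlong (beta2 M q) (isIntegral_fb (beta2 M q))))
    {lam : ℕ} (hlam : lam ≠ 0) :
    ∀ (m : ℕ) (z : JZero (M * q * q)) (D : Divisor.degZero (K := Qb) (F := Fb (M * q * q)))
      (f : Fb (M * q * q)) (u : ∀ v, FtAll B hB hqM hζ (FZM B hB hqM h2 h3) v),
      IsGood X.toInput.setup (lam ^ m) z D f u → betaDown (M * q) q z = 0 →
      ∀ (av bv : Node (SSpM B hB hqM) (KPq q) → ResidueField B) (ha0 : ∀ e, av e ≠ 0)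
        (hb0 : ∀ e, bv e ≠ 0),
      (∀ e, IsValueAt (X.toInput.setup.s₁ e) (u (X.toInput.setup.src e)) (av e)) →
      (∀ e, IsValueAt (X.toInput.setup.s₂ e) (u (X.toInput.setup.tgt e)) (bv e)) →
      ∃ κ₀ : Fin 2 ⊕ (oneLevel (inputs (DtM B hB hqM)) (gaugeB q B hB hqM)
          (admB B hB hqM h2 h3)).X → ResidueField B,
        (∀ v, κ₀ v ≠ 0) ∧
        (∀ e, valH hor av bv (nT e) ^ q *
            κ₀ (exc (inputs (DtM B hB hqM)) (gaugeB q B hB hqM) (admB B hB hqM h2 h3)
              (Fr B hB hqM e)) =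
          valV hor av bv (nT e) ^ q *
            κ₀ (old (inputs (DtM B hB hqM)) (gaugeB q B hB hqM) (admB B hB hqM h2 h3) 0)) ∧
        ∀ e, (valH hor av bv (nW e) * ∏ s, valH hor av bv (nk e s) ^ midDeg q) *
            κ₀ (exc (inputs (DtM B hB hqM)) (gaugeB q B hB hqM) (admB B hB hqM h2 h3)
              (Fr B hB hqM e)) =
          (valV hor av bv (nW e) * ∏ s, valV hor av bv (nk e s) ^ midDeg q) *
            κ₀ (old (inputs (DtM B hB hqM)) (gaugeB q B hB hqM) (admB B hB hqM h2 h3) 1) := by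
  by_cases hq2 : q = 2
  · have hd : midDeg q = 1 := if_pos hq2
    rw [hd]
    exact hpb_modular_two B hB hqM hζ h2 h3 X hq2 hXC hpInf hpZero hzT hzW hzK hcop hpM hall hsm
      hlam
  · have hd : midDeg q = (q - 1) / 2 := if_neg hq2
    rw [hd]
    exact hpb_modular_odd B hB hqM hζ h2 h3 X hq2 hXC hpInf hpZero hzT hzW hzK hcop hpM hall hsm
      hlam

end Main

end Fermat.Agent.BR3.SDD.ModularPushB
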