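import Fermat.Agent.BR3.SDD.ModularTameFinal
import Fermat.Agent.BR3.SDD.ModularPushA
import Fermat.Agent.BR3.SDD.ModularPushB
import Fermat.Agent.BR3.SDD.ModularZePts
import Fermat.Agent.BR3.SDD.ModularVert
import Fermat.Agent.BR3.EquivTubesVertMod

/-!
# Program C (S36), node (G6-FINAL), layer 2: `ht_modular` at THE family

`ModularTameFinal.ht_of_family` at `FZ := FZM`, `KP := KPq q`, `CZ := CZM`, `zT zK zW := zTM zKM
zWM` (everything else of the raw block of `modelAt_of_raw_thick` still arbitrary and implicit), with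

* `hZ := zePts_hZ`, `d := midDeg q`, `hd := hd_KPq`, `φ := Fr B hB hqM`, `p := fun _ => rev q`,
  `hp := rev_transitive`;
* `hpa := ModularPushA.hpa_modular` (helper25), `hpb := ModularPushB.hpb_modular` (helper11), the
  index data `ιa vWa vTa vEa ιb vWb vTb vEb` being theirs; their only open input `hsm` (a smooth
  place of `S''` lies over a smooth place of `S'ref_a` / `S'ref_b`) is `hsmA` / `hsmB`;
* `z := z₁ (chartDataModular B hB hqM)`.

In `ht_modular` the inertia element `σ0` and the vertical block `aZe hZe hzW hzT hzK hsmZe` stay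
explicit, in the literal binder shapes of `ModularTameRaw.tameProp_of_rawTubes`.

`ht_modular_vert` : the same at `zeTube := TZM B hB hqM h2 h3` (`= zeTubeM` of helper26's
`BR3/EquivTubesVertMod.lean`, by `rfl`), for `σ0`, `ζ₀` with the two clauses `hσϖ`, `hprim` of
`GeoSigma.exists_tame_generator` (`ϖ := unifSDD q`): the vertical block is discharged by helper9's
`ModularVert.exists_aZeM` and helper26's `EquivTubesVertMod.hsmZe_tame`.  What is left: `hcop hpM
hall` (Kummer places), `hsmA hsmB`, `hcomp`, `hnT hnK hnW`.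
-/

set_option autoImplicit false
set_option linter.style.haveILetI false
set_option linter.unusedSectionVars false
set_option linter.unusedVariables false
set_option synthInstance.maxHeartbeats 400000
set_option maxHeartbeats 4000000
set_option backward.isDefEq.respectTransparency.types true

open ModularCurve AlgebraicCurve

noncomputable section

namespace Fermat.Agent.BR3.SDD.ModularTameFinalM

open IsLocalRing Fermat.Agent.Jac Fermat.Agent.X0 Fermat.Agent.Red Fermat.Agent.Val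
  Fermat.Agent.BR.SS Fermat.Agent.BR Fermat.Agent.BR.InertiaRed Fermat.Agent.BR.UnramCyclo
  Fermat.Agent.BR3.EquivInert Fermat.Agent.BR.PicFunct
  Fermat.Agent.BR.S0 Fermat.Agent.BR.S0.PointDict Fermat.Agent.BR.S0.RedModular
  Fermat.Agent.BR.S0.RedHyp Fermat.Agent.BR.Final
  Fermat.Agent.BR3.FibreProd Fermat.Agent.BR.TwoVal Fermat.Agent.BR.TwoValInst
  Fermat.Agent.BR2.Filt Fermat.Agent.BR3.FiltMaps Fermat.Agent.BR3.FiltPerm
  Fermat.Agent.BR3.PlaceIso Fermat.Agent.BR2.SetupOfData Fermat.Agent.BR.ConstRedTwo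
  Fermat.Agent.BR.LevelTransfer Fermat.Agent.BR2.LevelMaps Fermat.Agent.BR2.LevelGen
  Fermat.Agent.BR3.G5Multi
  Fermat.Agent.BR3.TorGlue Fermat.Agent.BR3.GeoTor Fermat.Agent.BR3.GeoTorPush
  Fermat.Agent.BR3.GeoFinal Fermat.Agent.BR3.EquivActsSDD
  Fermat.Agent.BR3.SDD Fermat.Agent.BR.Refine Fermat.Agent.BR.Circle
  Fermat.Agent.BR3.CircleN Fermat.Agent.BR3.SRef
  Fermat.Agent.BR3.SDD.Modular Fermat.Agent.BR3.KummerGenus Fermat.Agent.BR3.EquivActsKummer
  Fermat.Agent.BR3.KummerGenus.MidInst Fermat.Agent.BR3.IgSq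
  Fermat.Agent.BR3.SDD.Partition Fermat.Agent.BR3.SDD.ModularTame
  Fermat.Agent.BR3.SDD.ModularTameRaw Fermat.Agent.BR3.SDD.ModularTubesMid
  Fermat.Agent.BR3.SDD.ModularTubesMidFinal Fermat.Agent.BR3.EquivTubesM
  Fermat.Agent.BR3.SRef.Modular Fermat.Agent.BR3.SDD.ModularTameFinal
  Fermat.Agent.BR3.VertPtsU Fermat.Agent.BR3.VertPtsDef Fermat.Agent.BR3.VertBetaFr
  Fermat.Agent.BR3.SDD.ModularPushA Fermat.Agent.BR3.SDD.ModularPushB
  Fermat.Agent.BR3.ThickSDDPlug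

local notation "Qb" => AlgebraicClosure ℚ

variable {M q : ℕ} [NeZero M] [hq : Fact q.Prime] [NeZero q]
variable (B : ValuationSubring (AlgebraicClosure ℚ)) (hB : B.LiesOverPrime q) (hqM : ¬ q ∣ M)
variable [IsAlgClosed (ResidueField B)] [CharP (ResidueField B) q]
variable {ζ : Kbˣ} (hζ : IsPrimitiveRoot ζ q)

local notation "kB" => IsLocalRing.ResidueField B
local notation "FtM" => modularFunctionFieldFullC (IsLocalRing.ResidueField B) M

/-- (shortcut instances) -/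
local instance (priority := 100000) instAlgebraFtMShortcutTFinM :
    Algebra (IsLocalRing.ResidueField B)
      (modularFunctionFieldFullC (IsLocalRing.ResidueField B) M) :=
  inferInstance
local instance (priority := 100000) instAlgKFMidTFinM :
    Algebra (IsLocalRing.ResidueField B) (FMid M B) := inferInstance
local instance (priority := 100000) instAlgFtFMidTFinM :
    Algebra (modularFunctionFieldFullC (IsLocalRing.ResidueField B) M) (FMid M B) := inferInstance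
local instance (priority := 100000) instTowerMidTFinM :
    IsScalarTower (IsLocalRing.ResidueField B)
      (modularFunctionFieldFullC (IsLocalRing.ResidueField B) M) (FMid M B) :=
  inferInstance

variable (h2 : nuTwo M = 0) (h3 : nuThree M = 0)

/-- (shortcut instance) -/
local instance (priority := 100000) instFieldFtAllShortcutTFinM :
    ∀ v, Field (FtAll B hB hqM hζ (FZM B hB hqM h2 h3) v) :=
  inferInstance

/-- (shortcut instance) -/
local instance (priority := 100000) instAlgebraFtAllShortcutTFinM :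
    ∀ v, Algebra (IsLocalRing.ResidueField B) (FtAll B hB hqM hζ (FZM B hB hqM h2 h3) v) :=
  inferInstance

variable
  (hZc : ∀ e, ((CZM B hB hqM h2 h3 e).O).comap (alpha2 M q : Fb (M * q) →+* Fb (M * q * q)) =
    ringEA B hB hqM h2 h3 e)
  (comp : SSpM B hB hqM → KPq q → MidM B hB hqM hζ) (comp_surj : ∀ i, ∃ e s, comp e s = i)
  (pMid : ∀ e s, Place (ResidueField B)
    (FtAll B hB hqM hζ (FZM B hB hqM h2 h3) (mid (comp e s))))
  (pMid_injective : ∀ e s e' s', (⟨mid (comp e s), pMid e s⟩ :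
    Σ v, Place (ResidueField B) (FtAll B hB hqM hζ (FZM B hB hqM h2 h3) v)) =
      ⟨mid (comp e' s'), pMid e' s'⟩ → e = e' ∧ s = s')
  (zK_injective : ∀ e, Function.Injective (zKM B hB hqM h2 h3 e))
  (zT_ne_zK : ∀ e s, zTM B hB hqM h2 h3 e ≠ zKM B hB hqM h2 h3 e s)
  (zW_ne_zT : ∀ e, zWM B hB hqM h2 h3 e ≠ zTM B hB hqM h2 h3 e)
  (zW_ne_zK : ∀ e s, zWM B hB hqM h2 h3 e ≠ zKM B hB hqM h2 h3 e s)
  (nodeTube : Node (SSpM B hB hqM) (KPq q) → Set (Place Kb (Fb (M * q * q))))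
  (smTube : (Σ v, Place (ResidueField B) (FtAll B hB hqM hζ (FZM B hB hqM h2 h3) v)) →
    Set (Place Kb (Fb (M * q * q))))
  (cover : ∀ P, ∃ y, P ∈ tubeS comp (pInfM B hB hqM) pMid (zWM B hB hqM h2 h3)
    (pZeroM B hB hqM) (zTM B hB hqM h2 h3) (zKM B hB hqM h2 h3) nodeTube smTube y)
  (disjoint : ∀ P y y',
    P ∈ tubeS comp (pInfM B hB hqM) pMid (zWM B hB hqM h2 h3) (pZeroM B hB hqM)
      (zTM B hB hqM h2 h3) (zKM B hB hqM h2 h3) nodeTube smTube y →
    P ∈ tubeS comp (pInfM B hB hqM) pMid (zWM B hB hqM h2 h3) (pZeroM B hB hqM)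
      (zTM B hB hqM h2 h3) (zKM B hB hqM h2 h3) nodeTube smTube y' → y = y')
  (smInf : ∀ Q : Place (ResidueField B) (FtAll B hB hqM hζ (FZM B hB hqM h2 h3) cInf),
    (∀ e, Q ≠ pInfM B hB hqM e) →
    SmoothChart B (CAll B hB hqM hζ (CZM B hB hqM h2 h3) cInf).O
      (CAll B hB hqM hζ (CZM B hB hqM h2 h3) cInf).res Q (smTube ⟨cInf, Q⟩))
  (smZero : ∀ Q : Place (ResidueField B) (FtAll B hB hqM hζ (FZM B hB hqM h2 h3) SDD.cZero),
    (∀ e, Q ≠ pZeroM B hB hqM e) →
    SmoothChart B (CAll B hB hqM hζ (CZM B hB hqM h2 h3) SDD.cZero).O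
      (CAll B hB hqM hζ (CZM B hB hqM h2 h3) SDD.cZero).res Q (smTube ⟨SDD.cZero, Q⟩))
  (smMid : ∀ (i : MidM B hB hqM hζ)
    (Q : Place (ResidueField B) (FtAll B hB hqM hζ (FZM B hB hqM h2 h3) (mid i))),
    (∀ e s, (⟨mid i, Q⟩ :
      Σ v, Place (ResidueField B) (FtAll B hB hqM hζ (FZM B hB hqM h2 h3) v)) ≠
      ⟨mid (comp e s), pMid e s⟩) →
    SmoothChart B (CAll B hB hqM hζ (CZM B hB hqM h2 h3) (mid i)).O
      (CAll B hB hqM hζ (CZM B hB hqM h2 h3) (mid i)).res Q (smTube ⟨mid i, Q⟩))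
  (smZe : ∀ (e : SSpM B hB hqM)
    (Q : Place (ResidueField B) (FtAll B hB hqM hζ (FZM B hB hqM h2 h3) (ze e))),
    Q ≠ zWM B hB hqM h2 h3 e → Q ≠ zTM B hB hqM h2 h3 e → (∀ s, Q ≠ zKM B hB hqM h2 h3 e s) →
    SmoothChart B (CAll B hB hqM hζ (CZM B hB hqM h2 h3) (ze e)).O
      (CAll B hB hqM hζ (CZM B hB hqM h2 h3) (ze e)).res Q (smTube ⟨ze e, Q⟩))
  (chT : ∀ e, NodeChart B (CAll B hB hqM hζ (CZM B hB hqM h2 h3) cInf).O
    (CAll B hB hqM hζ (CZM B hB hqM h2 h3) (ze e)).O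
    (CAll B hB hqM hζ (CZM B hB hqM h2 h3) cInf).res
    (CAll B hB hqM hζ (CZM B hB hqM h2 h3) (ze e)).res (pInfM B hB hqM e)
    (zTM B hB hqM h2 h3 e) (nodeTube (nT e)))
  (chK : ∀ e s, NodeChart B (CAll B hB hqM hζ (CZM B hB hqM h2 h3) (mid (comp e s))).O
    (CAll B hB hqM hζ (CZM B hB hqM h2 h3) (ze e)).O
    (CAll B hB hqM hζ (CZM B hB hqM h2 h3) (mid (comp e s))).res
    (CAll B hB hqM hζ (CZM B hB hqM h2 h3) (ze e)).res (pMid e s) (zKM B hB hqM h2 h3 e s)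
    (nodeTube (nk e s)))
  (chW : ∀ e, NodeChart B (CAll B hB hqM hζ (CZM B hB hqM h2 h3) (ze e)).O
    (CAll B hB hqM hζ (CZM B hB hqM h2 h3) SDD.cZero).O
    (CAll B hB hqM hζ (CZM B hB hqM h2 h3) (ze e)).res
    (CAll B hB hqM hζ (CZM B hB hqM h2 h3) SDD.cZero).res (zWM B hB hqM h2 h3 e)
    (pZeroM B hB hqM e) (nodeTube (nW e)))

/-- the abbreviation of `XRaw` at THE family with all its arguments -/
local notation "XRM" =>
  XRaw B hB hqM hζ h2 h3 (CZM B hB hqM h2 h3) hZc comp comp_surj pMid (zTM B hB hqM h2 h3)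
    (zKM B hB hqM h2 h3) (zWM B hB hqM h2 h3) pMid_injective zK_injective zT_ne_zK zW_ne_zT
    zW_ne_zK nodeTube smTube cover disjoint smInf smZero smMid smZe chT chK chW

variable {h2 h3 hZc comp comp_surj pMid pMid_injective zK_injective zT_ne_zK zW_ne_zT
  zW_ne_zK nodeTube smTube cover disjoint smInf smZero smMid smZe chT chK chW}

set_option maxHeartbeats 4000000 in
/-- **(G6-FINAL, layer 2) The binder `ht` of `modelAt_of_raw_thick` at THE family**
(`FZ := FZM`, `KP := KPq q`, `CZ := CZM`, `zT zK zW := zTM zKM zWM`; `hX := rfl`,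
`hsmT := rfl`). -/
theorem ht_modular [Fintype (SSpM B hB hqM)] {lam : ℕ} (hlam0 : lam ≠ 0)
    {X : CaseInput (F := Fb (M * q * q)) B (MidM B hB hqM hζ) (SSpM B hB hqM) (KPq q)
      (FtAll B hB hqM hζ (FZM B hB hqM h2 h3))}
    (hX : X = XRM)
    (H : AtlasHyp (chartDataModular B hB hqM) (jx M q))
    (zeTube : ∀ e : SSpM B hB hqM, Place (IsLocalRing.ResidueField B) (FZM B hB hqM h2 h3 e) →
      Set (Place (AlgebraicClosure ℚ) (Fb (M * q * q))))
    (hsmT : smTube = smTubeM B hB hqM hζ (midTubeM B hB hqM hζ H) zeTube)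
    -- the Kummer places
    (hcop : ∀ e : SSpM B hB hqM,
      IsCoprime ((z₁ (chartDataModular B hB hqM) e).ord (deltaMid B hB hqM)) (fMid M B hB : ℤ))
    (hpM : ∀ e s, toConst (X.comp e s) (X.pMid e s) =
      MidFamily.pMid B hB hqM (z₁ (chartDataModular B hB hqM)) hcop e)
    (hall : ∀ e i, ∃ s, X.comp e s = i)
    -- the open input of the push-forward relations
    (hsmA : ∀ P : Place Kb (Fb (M * q * q)), X.toInput.setup.IsSmoothPlace P →
      (srefM (DtM B hB hqM) (gaugeA q B hB hqM) (admA B hB hqM h2 h3)).IsSmoothPlace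
        (P.restrictAlong (alpha2 M q) (Fermat.Agent.Hecke.heckeAlphaBarIntegral (M * q) q)))
    (hsmB : ∀ P : Place Qb (Fb (M * q * q)), X.toInput.setup.IsSmoothPlace P →
      (srefM (DtM B hB hqM) (gaugeB q B hB hqM) (admB B hB hqM h2 h3)).IsSmoothPlace
        (P.restrictAlong (beta2 M q) (isIntegral_fb (beta2 M q))))
    -- the tame generator
    (σ0 : GQ) (hσ0 : σ0 ∈ B.inertiaSubgroupIn ℚ)
    (hcomp : ∀ P : Equiv.Perm (MidM B hB hqM hζ),
      (∀ (i : MidM B hB hqM hζ) (y : Fb (M * q * q)),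
        galAut (M * q * q) σ0 • y ∈ (P i).ring B hB hqM hζ ↔ y ∈ i.ring B hB hqM hζ) →
      ∀ e s, X.comp e (rev q s) = P (X.comp e s))
    -- the tame generator on the vertical components
    (aZe : ∀ e, FZM B hB hqM h2 h3 e ≃ₐ[kB] FZM B hB hqM h2 h3 e)
    (hZe : ∀ e, MapsComp X.toInput.setup (galAut (M * q * q) σ0) (ze e) (ze e) (aZe e))
    (hzW : ∀ e, placeMap (aZe e) (X.zW e) = X.zW e)
    (hzT : ∀ e, placeMap (aZe e) (X.zT e) = X.zT e)
    (hzK : ∀ e s, placeMap (aZe e) (X.zK e s) = X.zK e (rev q s))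
    -- the raw tubes
    (hnT : ∀ e, ∀ Pl ∈ nodeTube (nT e), galAut (M * q * q) σ0 • Pl ∈ nodeTube (nT e))
    (hnK : ∀ e s, ∀ Pl ∈ nodeTube (nk e s),
      galAut (M * q * q) σ0 • Pl ∈ nodeTube (nk e (rev q s)))
    (hnW : ∀ e, ∀ Pl ∈ nodeTube (nW e), galAut (M * q * q) σ0 • Pl ∈ nodeTube (nW e))
    (hsmZe : ∀ (e : SSpM B hB hqM)
      (Q : Place kB (FtAll B hB hqM hζ (FZM B hB hqM h2 h3) (ze e))),
      Q ≠ X.zW e → Q ≠ X.zT e → (∀ s, Q ≠ X.zK e s) →
      ∀ Pl ∈ smTube ⟨ze e, Q⟩,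
        galAut (M * q * q) σ0 • Pl ∈ smTube ⟨ze e, placeMap (aZe e) Q⟩) :
    S36Plug.TameProp M q lam B X.toInput := by
  have hXC : X.C = CAll B hB hqM hζ (CZM B hB hqM h2 h3) := by rw [hX]; rfl
  have hpInf : X.pInf = pInfM B hB hqM := by rw [hX]; rfl
  have hpZero : X.pZero = pZeroM B hB hqM := by rw [hX]; rfl
  have hzT' : X.zT = zTM B hB hqM h2 h3 := by rw [hX]; rfl
  have hzW' : X.zW = zWM B hB hqM h2 h3 := by rw [hX]; rfl
  have hzK' : X.zK = zKM B hB hqM h2 h3 := by rw [hX]; rfl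
  exact ht_of_family B hB hqM hζ hX H zeTube hsmT (zePts_hZ B hB hqM h2 h3) hlam0 (midDeg q)
    (hd_KPq hq.out) (Fr B hB hqM) (fun _ => rev q) (fun _ s s' => rev_transitive q s s')
    (old (inputs (DtM B hB hqM)) (gaugeA q B hB hqM) (admA B hB hqM h2 h3) 1)
    (old (inputs (DtM B hB hqM)) (gaugeA q B hB hqM) (admA B hB hqM h2 h3) 0)
    (exc (inputs (DtM B hB hqM)) (gaugeA q B hB hqM) (admA B hB hqM h2 h3))
    (hpa_modular B hB hqM hζ h2 h3 X (z₁ (chartDataModular B hB hqM)) (fun _ => rfl) hcop hpM hXC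
      (fun e => by rw [hpInf]) (fun e => by rw [hpZero])
      (fun e => by rw [hzT']; rfl) (fun e => by rw [hzW']; rfl) (fun e s => by rw [hzK']; rfl)
      hall hsmA lam hlam0)
    (old (inputs (DtM B hB hqM)) (gaugeB q B hB hqM) (admB B hB hqM h2 h3) 0)
    (old (inputs (DtM B hB hqM)) (gaugeB q B hB hqM) (admB B hB hqM h2 h3) 1)
    (exc (inputs (DtM B hB hqM)) (gaugeB q B hB hqM) (admB B hB hqM h2 h3))
    (hpb_modular B hB hqM hζ h2 h3 X hXC hpInf hpZero hzT' hzW' hzK' hcop hpM hall hsmB hlam0)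
    (z₁ (chartDataModular B hB hqM)) hcop hpM σ0 hσ0 hcomp aZe hZe hzW hzT hzK hnT hnK hnW hsmZe

set_option maxHeartbeats 4000000 in
/-- **(G6-FINAL, layer 2, vertical block discharged) The binder `ht` of `modelAt_of_raw_thick` at
THE family**, `zeTube := TZM B hB hqM h2 h3`, for a tame generator `σ0` (`hσϖ`, `hprim` as in
`GeoSigma.exists_tame_generator`). -/
theorem ht_modular_vert [Fintype (SSpM B hB hqM)] {lam : ℕ} (hlam0 : lam ≠ 0)
    {X : CaseInput (F := Fb (M * q * q)) B (MidM B hB hqM hζ) (SSpM B hB hqM) (KPq q)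
      (FtAll B hB hqM hζ (FZM B hB hqM h2 h3))}
    (hX : X = XRM)
    (H : AtlasHyp (chartDataModular B hB hqM) (jx M q))
    (hsmT : smTube = smTubeM B hB hqM hζ (midTubeM B hB hqM hζ H) (TZM B hB hqM h2 h3))
    -- the Kummer places
    (hcop : ∀ e : SSpM B hB hqM,
      IsCoprime ((z₁ (chartDataModular B hB hqM) e).ord (deltaMid B hB hqM)) (fMid M B hB : ℤ))
    (hpM : ∀ e s, toConst (X.comp e s) (X.pMid e s) =
      MidFamily.pMid B hB hqM (z₁ (chartDataModular B hB hqM)) hcop e)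
    (hall : ∀ e i, ∃ s, X.comp e s = i)
    -- the open input of the push-forward relations
    (hsmA : ∀ P : Place Kb (Fb (M * q * q)), X.toInput.setup.IsSmoothPlace P →
      (srefM (DtM B hB hqM) (gaugeA q B hB hqM) (admA B hB hqM h2 h3)).IsSmoothPlace
        (P.restrictAlong (alpha2 M q) (Fermat.Agent.Hecke.heckeAlphaBarIntegral (M * q) q)))
    (hsmB : ∀ P : Place Qb (Fb (M * q * q)), X.toInput.setup.IsSmoothPlace P →
      (srefM (DtM B hB hqM) (gaugeB q B hB hqM) (admB B hB hqM h2 h3)).IsSmoothPlace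
        (P.restrictAlong (beta2 M q) (isIntegral_fb (beta2 M q))))
    -- the tame generator
    (σ0 : GQ) (hσ0 : σ0 ∈ B.inertiaSubgroupIn ℚ) {ζ₀ : Kb}
    (hσϖ : σ0 (unifSDD q ^ (q - 1)) = ζ₀ ^ (q - 1) * unifSDD q ^ (q - 1))
    (hprim : IsPrimitiveRoot (resOf B (ζ₀ ^ (q - 1))) (q + 1))
    (hcomp : ∀ P : Equiv.Perm (MidM B hB hqM hζ),
      (∀ (i : MidM B hB hqM hζ) (y : Fb (M * q * q)),
        galAut (M * q * q) σ0 • y ∈ (P i).ring B hB hqM hζ ↔ y ∈ i.ring B hB hqM hζ) →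
      ∀ e s, X.comp e (rev q s) = P (X.comp e s))
    -- the raw tubes of the nodes
    (hnT : ∀ e, ∀ Pl ∈ nodeTube (nT e), galAut (M * q * q) σ0 • Pl ∈ nodeTube (nT e))
    (hnK : ∀ e s, ∀ Pl ∈ nodeTube (nk e s),
      galAut (M * q * q) σ0 • Pl ∈ nodeTube (nk e (rev q s)))
    (hnW : ∀ e, ∀ Pl ∈ nodeTube (nW e), galAut (M * q * q) σ0 • Pl ∈ nodeTube (nW e)) :
    S36Plug.TameProp M q lam B X.toInput := by
  have hXC : X.C = CAll B hB hqM hζ (CZM B hB hqM h2 h3) := by rw [hX]; rfl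
  have hzT' : X.zT = zTM B hB hqM h2 h3 := by rw [hX]; rfl
  have hzW' : X.zW = zWM B hB hqM h2 h3 := by rw [hX]; rfl
  have hzK' : X.zK = zKM B hB hqM h2 h3 := by rw [hX]; rfl
  obtain ⟨aZe, hZe, hab, haU, hzW, hzT, hzK⟩ :=
    Fermat.Agent.BR3.SDD.ModularVert.exists_aZeM B hB hqM h2 h3 X
      (fun e => congrFun hXC (ze e)) hσ0 hσϖ hprim
  refine ht_modular B hB hqM hζ hlam0 hX H (TZM B hB hqM h2 h3) hsmT hcop hpM hall hsmA hsmB
    σ0 hσ0 hcomp aZe hZe (fun e => ?_) (fun e => ?_) (fun e s => ?_) hnT hnK hnW ?_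
  · rw [hzW']; exact hzW e
  · rw [hzT']; exact hzT e
  · rw [hzK']; exact hzK e s
  · rw [hsmT]
    exact Fermat.Agent.BR3.EquivTubesVertMod.hsmZe_tame B hB hqM h2 h3 X.zW X.zT X.zK hσ0 hσϖ
      aZe hab haU

end Fermat.Agent.BR3.SDD.ModularTameFinalM
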