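import Fermat.Agent.BR3.SDD.ModularFinalB
import Fermat.Agent.BR3.SDD.ModularTameFinalM
import Fermat.Agent.BR3.SDD.ModularSmADone
import Fermat.Agent.BR3.SDD.ModularNodeTame
import Fermat.Agent.BR3.GeoSigma
import Fermat.Agent.BR3.SDD.ModularSmBeta
import Fermat.Agent.BR3.ThickOneCount

/-!
# Program C (S36), node (FINAL-B), step 2: the group (G6) `ht` of the final call

`ModularTameFinalM.ht_modular_vert` (helper2) at THE input `XF` of `BR3/SDD/ModularFinalB.lean`:

* `hcop := hcopF`, `hpM := rfl`, `hall := compF_hall`;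
* `hsmA := ModularSmADone.hsmA_doneM` (helper25/helper24);
* `σ0`, `ζ₀` := `GeoSigma.exists_tame_generator` at `ϖ := unifSDD q`;
* `hcomp := ModularCompM.hcompM` (helper27);
* `hnT := ModularNodeTame.hnT_inertia` (helper24), `hnK := ModularNodeK.smul_mem_tubeKM` at
  `KummerTubeFam.smul_mem_kumTube_tame_kum` (helper15/helper8), `hnW := smul_mem_tubeWM`.

* `hsmB := ModularSmBeta.hsmB_of_hsmA` (helper12) at `hsmA`.

* `hsmAF` : the `a`-side of `hsm` at `XF`;
* `htF` : `S36Plug.TameProp M q lam B (XF …).toInput`, hypothesis-free;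
* **`modelAt_finalB`** : `S36Plug.ModelAt M q lam B`, hypothesis-free, in the signature of finding
  #1320 (`modelAt_final`).
-/

set_option autoImplicit false
set_option linter.style.haveILetI false
set_option linter.unusedSectionVars false
set_option linter.unusedVariables false
set_option linter.style.longLine false
set_option synthInstance.maxHeartbeats 400000
set_option maxHeartbeats 4000000
set_option backward.isDefEq.respectTransparency.types true

open ModularCurve AlgebraicCurve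

noncomputable section

namespace Fermat.Agent.BR3.SDD.ModularFinalB

open IsLocalRing Fermat.Agent.Jac Fermat.Agent.X0 Fermat.Agent.Red Fermat.Agent.Val
  Fermat.Agent.BR.SS Fermat.Agent.BR Fermat.Agent.BR.InertiaRed Fermat.Agent.BR.UnramCyclo
  Fermat.Agent.BR3.EquivInert Fermat.Agent.BR3.TorGlue Fermat.Agent.BR2.Filt
  Fermat.Agent.BR3.FiltMaps Fermat.Agent.BR3.FiltPerm
  Fermat.Agent.BR.S0 Fermat.Agent.BR.S0.PointDict Fermat.Agent.BR.S0.RedModular
  Fermat.Agent.BR3.FibreProd Fermat.Agent.BR.TwoVal Fermat.Agent.BR.Refine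
  Fermat.Agent.BR.Circle Fermat.Agent.BR3.CircleN Fermat.Agent.BR3.SplitBranch
  Fermat.Agent.BR3.ThickSDDPlug Fermat.Agent.BR3.SDD.Partition Fermat.Agent.BR3.SRef
  Fermat.Agent.BR3.SRef.Modular
  Fermat.Agent.BR2.SetupOfData Fermat.Agent.BR3.SDD.Modular Fermat.Agent.BR3.SDD
  Fermat.Agent.BR3.VertPtsU Fermat.Agent.BR3.IgSq Fermat.Agent.BR3.VertBetaFr
  Fermat.Agent.BR3.KummerGenus Fermat.Agent.BR3.KummerGenus.MidInst
  Fermat.Agent.BR3.SDD.ModularFinal Fermat.Agent.BR3.SDD.ModularCompM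
  Fermat.Agent.BR3.SDD.ModularCompFinal
  Fermat.Agent.BR3.SDD.ModularTubesMid
  Fermat.Agent.BR3.KummerNodeInputs Fermat.Agent.BR2.LevelGen

local notation "Qb" => AlgebraicClosure ℚ

variable {M q : ℕ} [NeZero M] [hq : Fact q.Prime] [NeZero q]
variable (B : ValuationSubring (AlgebraicClosure ℚ)) (hB : B.LiesOverPrime q) (hqM : ¬ q ∣ M)
variable [IsAlgClosed (ResidueField B)] [CharP (ResidueField B) q]
variable {ζ : Kbˣ} (hζ : IsPrimitiveRoot ζ q)

local notation "kB" => IsLocalRing.ResidueField B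
local notation "FtM" => modularFunctionFieldFullC (IsLocalRing.ResidueField B) M

/-- (shortcut instances) -/
local instance (priority := 100000) instAlgebraFtMShortcutFinB2 :
    Algebra (IsLocalRing.ResidueField B)
      (modularFunctionFieldFullC (IsLocalRing.ResidueField B) M) :=
  inferInstance
local instance (priority := 100000) instAlgKFMidFinB2 :
    Algebra (IsLocalRing.ResidueField B) (FMid M B) := inferInstance
local instance (priority := 100000) instAlgFtFMidFinB2 :
    Algebra (modularFunctionFieldFullC (IsLocalRing.ResidueField B) M) (FMid M B) := inferInstance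
local instance (priority := 100000) instTowerMidFinB2 :
    IsScalarTower (IsLocalRing.ResidueField B)
      (modularFunctionFieldFullC (IsLocalRing.ResidueField B) M) (FMid M B) :=
  inferInstance
local instance (priority := 100000) instFieldFtAllFinB2 {FZ : SSpM B hB hqM → Type}
    [∀ e, Field (FZ e)] (v : Comp (MidM B hB hqM hζ) (SSpM B hB hqM)) :
    Field (FtAll B hB hqM hζ FZ v) := instFieldFtOf v
local instance (priority := 100000) instAlgFtAllFinB2 {FZ : SSpM B hB hqM → Type}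
    [∀ e, Field (FZ e)] [∀ e, Algebra (IsLocalRing.ResidueField B) (FZ e)]
    (v : Comp (MidM B hB hqM hζ) (SSpM B hB hqM)) :
    Algebra (IsLocalRing.ResidueField B) (FtAll B hB hqM hζ FZ v) := instAlgebraFtOf v

variable (h2 : nuTwo M = 0) (h3 : nuThree M = 0)

/-- THE input of the final call -/
local notation "XFF" => XF B hB hqM hζ h2 h3 (oddHypF B hB hqM hζ h2 h3)

/-- **The `a`-side of `hsm`** at THE input of the final call -/
theorem hsmAF : ∀ P : Place Qb (Fb (M * q * q)), (XFF).toInput.setup.IsSmoothPlace P →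
    (srefM (DtM B hB hqM) (gaugeA q B hB hqM) (admA B hB hqM h2 h3)).IsSmoothPlace
      (P.restrictAlong (alpha2 M q) (Fermat.Agent.Hecke.heckeAlphaBarIntegral (M * q) q)) := by
  haveI := Fermat.Agent.BR3.KummerNodeFam.nonempty_MidM B hB hqM hζ
  exact Fermat.Agent.BR3.SDD.ModularSmADone.hsmA_doneM B hB hqM hζ h2 h3 (XFF)
    (smTubeM B hB hqM hζ
      (midTubeM B hB hqM hζ (Fermat.Agent.BR2.SetupOfData.atlas (DtM B hB hqM)))
      (TZM B hB hqM h2 h3))
    (hcopF B hB hqM h2 h3) (hex_modular B hB hqM h2 h3 hζ (hcopF B hB hqM h2 h3))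
    (hvalM B hB hqM h2 h3 hζ (hcopF B hB hqM h2 h3)
      (hex_modular B hB hqM h2 h3 hζ (hcopF B hB hqM h2 h3)))
    rfl rfl rfl rfl rfl rfl rfl rfl

/-- **(G6) `ht` of the final call**, hypothesis-free. -/
theorem htF [Fintype (SSpM B hB hqM)] {lam : ℕ} (hlam0 : lam ≠ 0) :
    S36Plug.TameProp M q lam B (XFF).toInput := by
  haveI := Fermat.Agent.BR3.KummerNodeFam.nonempty_MidM B hB hqM hζ
  obtain ⟨σ0, hσ0, ζ₀, hζ₀, hσϖ, -, -, hσϖ', -, hprim, -⟩ :=
    Fermat.Agent.BR3.GeoSigma.exists_tame_generator (B := B) hq.out hB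
      (unifSDD_pow hq.out.one_lt)
  refine Fermat.Agent.BR3.SDD.ModularTameFinalM.ht_modular_vert B hB hqM hζ (h2 := h2) (h3 := h3)
    hlam0 (X := XFF) rfl (Fermat.Agent.BR2.SetupOfData.atlas (DtM B hB hqM)) rfl
    (hcopF B hB hqM h2 h3) (fun _ _ => rfl) (compF_hall B hB hqM hζ h2 h3)
    (hsmAF B hB hqM hζ h2 h3)
    (Fermat.Agent.BR3.SDD.ModularSmBeta.hsmB_of_hsmA B hB hqM h2 h3
      (Fermat.Agent.Hecke.heckeAlphaBarIntegral (M * q) q) (isIntegral_fb (beta2 M q))
      (fun P => (XFF).toInput.setup.IsSmoothPlace P) (hsmAF B hB hqM hζ h2 h3))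
    σ0 hσ0 hσϖ' hprim ?_ ?_ ?_ ?_
  · -- hcomp
    intro P hP e s
    exact hcompM B hB hqM h2 h3 hζ (hcopF B hB hqM h2 h3)
      (hex_modular B hB hqM h2 h3 hζ (hcopF B hB hqM h2 h3)) hσ0 hσϖ hζ₀ P hP e s
  · -- hnT
    exact Fermat.Agent.BR3.SDD.ModularNodeTame.hnT_inertia B hB hqM h2 h3 hσ0
  · -- hnK
    intro e s
    exact ModularNodeK.smul_mem_tubeKM B hB hqM h2 h3 (kumTube B hB hqM h2 h3) hσ0
      (fun _ => rev q)
      (Fermat.Agent.BR3.KummerTubeFam.smul_mem_kumTube_tame_kum B hB hqM h2 h3 hσ0 hζ₀ hσϖ) e s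
  · -- hnW
    intro e Pl hPl
    exact Fermat.Agent.BR3.EquivTubesMNodes.smul_mem_tubeWM B hB hqM h2 h3 hσ0 e hPl

include hζ h2 h3 in
/-- **(FINAL-B)** `S36Plug.ModelAt M q lam B`, hypothesis-free (frame variables). -/
theorem modelAt_finalB_frame [Fintype (SSpM B hB hqM)]
    (lam : ℕ) (hlam : lam.Prime) (hqlam : q ≠ lam) :
    S36Plug.ModelAt M q lam B :=
  modelAt_finalB_of_ht B hB hqM hζ h2 h3 lam hlam hqlam
    (htF B hB hqM hζ h2 h3 hlam.ne_zero)

end Fermat.Agent.BR3.SDD.ModularFinalB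

namespace Fermat.Agent.BR3.SDD.ModularFinalB

open IsLocalRing Fermat.Agent.X0 Fermat.Agent.BR3.SDD.Modular

/-- **(FINAL-B) THE FINAL CALL**: the stable model data `S36Plug.ModelAt M q lam B` of `X₀(M q²)`
at a place `B` over `q`, for `M` without elliptic points, hypothesis-free (signature of finding
#1320). -/
theorem modelAt_finalB (M q lam : ℕ) [NeZero M] [Fact q.Prime] [NeZero q] (hqM : ¬ q ∣ M)
    (hlam : lam.Prime) (hqlam : q ≠ lam) (h2 : nuTwo M = 0) (h3 : nuThree M = 0)
    (B : ValuationSubring (AlgebraicClosure ℚ)) (hB : B.LiesOverPrime q)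
    [IsAlgClosed (ResidueField B)] [CharP (ResidueField B) q]
    (ζ : Kbˣ) (hζ : IsPrimitiveRoot ζ q) : Fermat.Agent.BR3.S36Plug.ModelAt M q lam B := by
  haveI := Fermat.Agent.BR3.ThickOneCount.finite_crossing B hB hqM
  letI : Fintype (SSpM B hB hqM) := Fintype.ofFinite _
  exact modelAt_finalB_frame B hB hqM hζ h2 h3 lam hlam hqlam

end Fermat.Agent.BR3.SDD.ModularFinalB
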