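import Mathlib
import Fermat.Agent.BR3.SDD.ModularNodeKTubes
import Fermat.Agent.BR3.KummerNodeOutFam
import Fermat.Agent.BR3.KummerTubeClausesMod
import Fermat.Agent.BR3.KummerSigmaSign

/-!
# Program C (S36), node (N2-FINAL), part 2: the Kummer nodes `nk e s` of `S''` at THE family,
hypothesis-free, ALL primes `q`

`comp := KummerCompUnif.compU hex hval` (`hcop`, `hex`, `hval` : the variables of helper7's
`KummerNodeFam`; the final call takes `hex := ModularCompFinal.hex_modular …`,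
`hval := ModularCompM.hvalM …`, i.e. `comp = ModularCompM.compM …` by unfolding),
`tubeK := tubeKF …` (`BR3/SDD/ModularNodeKTubes.lean`):

* `nodeKOddF` : `ModularNodeK.NodeKOdd … (compU hex hval) (kumTube …)` (helper22's
  `KummerNodeOutFam.nodePkg_compU`);
* `ιKF nodeKF κ₀F LKF`, the binders `K₁F K₂F K_v_srcF K_u_tgtF K_unif₁F K_unif₂F chKF` of
  `modelAt_of_raw` in their literal shapes, `(G3)` `hκF hKF`, `(G4)` `smul_LKF_u`;
* `(G4)`/`(G6)` on the raw tubes: `smul_mem_kumTube_rich`, `smul_mem_kumTube_tame` (helper26's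
  `KummerTubeClausesMod` at helper7's names, helper8's sign `KummerSigmaSign.valuation_tame_const`),
  merged: `smul_mem_tubeKF_rich` (the `nk`-part of clause 2 of `hrest`), `smul_mem_tubeKF_tame`
  (`hnK` of `tameProp_of_rawTubes` with `p e := rev q`).
-/

set_option autoImplicit false
set_option linter.unusedSectionVars false
set_option linter.unusedVariables false
set_option linter.style.haveILetI false
set_option synthInstance.maxHeartbeats 400000

noncomputable section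

namespace Fermat.Agent.BR3.SDD.ModularNodeKFinal

open ModularCurve AlgebraicCurve IsLocalRing Polynomial
open Fermat.Agent.Red Fermat.Agent.Val Fermat.Agent.X0 Fermat.Agent.Hecke Fermat.Agent.Jac
open Fermat.Agent.BR.SS Fermat.Agent.BR.Refine Fermat.Agent.BR.TwoVal Fermat.Agent.BR.TwoValInst
open Fermat.Agent.BR.Circle Fermat.Agent.BR.S0 Fermat.Agent.BR.S0.PointDict Fermat.Agent.BR.P1
open Fermat.Agent.BR.S0.RedModular Fermat.Agent.BR.Final Fermat.Agent.BR.Inst.AnnulusInstFinal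
open Fermat.Agent.BR.InertiaRed Fermat.Agent.BR.ValTwo Fermat.Agent.BR.UnramCyclo
open Fermat.Agent.BR2.SetupOfData Fermat.Agent.BR3.CircleN Fermat.Agent.BR3.SRef
open Fermat.Agent.BR3.SRef.Modular Fermat.Agent.BR3.SDD.Modular
open Fermat.Agent.BR3.SplitLevels Fermat.Agent.BR3.SplitBranch Fermat.Agent.BR3.CoverSmooth
open Fermat.Agent.BR3.FibreProd Fermat.Agent.BR3.HeckePoly Fermat.Agent.BR3.SSParam
open Fermat.Agent.BR3.SplitNode Fermat.Agent.BR3.VertBetaFr Fermat.Agent.BR3.VertPtsU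
open Fermat.Agent.BR3.IgSq Fermat.Agent.BR3.ThickSDDPlug Fermat.Agent.BR3.SDD.Partition
open Fermat.Agent.BR3.KummerGenus Fermat.Agent.BR3.KummerGenus.MidInst
open Fermat.Agent.BR3.KummerComps Fermat.Agent.BR3.KummerOfVert Fermat.Agent.BR3.KummerLevels
open Fermat.Agent.BR3.KummerModAbs Fermat.Agent.BR3.KummerCompMod Fermat.Agent.BR3.KummerCompUnif
open Fermat.Agent.BR3.KummerNodeInputs Fermat.Agent.BR3.KummerNodeFam
open Fermat.Agent.BR3.KummerNodeOutFam Fermat.Agent.BR3.SDD.ModularNodeK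
open Fermat.Agent.BR3.EquivSRefModular Fermat.Agent.BR3.VertEquivUg Fermat.Agent.BR3.VertEquivMod

local notation "Kb" => AlgebraicClosure ℚ

variable {M q : ℕ} [NeZero M] [hq : Fact q.Prime] [NeZero q]
variable (B : ValuationSubring (AlgebraicClosure ℚ)) (hB : B.LiesOverPrime q) (hqM : ¬ q ∣ M)
variable [IsAlgClosed (ResidueField B)] [CharP (ResidueField B) q]
  [PerfectField (ResidueField B)]

local notation "kB" => IsLocalRing.ResidueField B
local notation "FtM" => modularFunctionFieldFullC (IsLocalRing.ResidueField B) M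

/-- (shortcut instances) -/
local instance (priority := 100000) instAlgKFtNKG : Algebra kB FtM := inferInstance
local instance (priority := 100000) instAlgKFMidNKG : Algebra kB (FMid M B) := inferInstance
local instance (priority := 100000) instAlgFtFMidNKG : Algebra FtM (FMid M B) := inferInstance
local instance (priority := 100000) instTowerMidNKG : IsScalarTower kB FtM (FMid M B) :=
  inferInstance

variable (h2 : nuTwo M = 0) (h3 : nuThree M = 0)

/-! ### (G4)/(G6) on the raw tubes -/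

section Equiv

variable {σ : Kb ≃ₐ[ℚ] Kb}

set_option maxHeartbeats 4000000 in
/-- **(G4) on the Kummer tubes** (every `q`): stable under the inertia elements fixing
`unifSDD q`. -/
theorem smul_mem_kumTube_rich (hσ : σ ∈ B.inertiaSubgroupIn ℚ)
    (hs1 : σ (unifSDD q) = unifSDD q) (e : SSpM B hB hqM) (s : KPq q) :
    ∀ P ∈ kumTube B hB hqM h2 h3 e s, galAut (M * q * q) σ • P ∈ kumTube B hB hqM h2 h3 e s := by
  intro P hP
  have hϖ₂ : σ (pi2 q) = pi2 q := by
    unfold pi2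
    rw [map_pow, hs1]
  exact Fermat.Agent.BR3.KummerTubeClausesMod.smul_mem_tubeKM_rich B hB hqM h2 h3 e hσ
    (galAut_smul_of_mem_CMod B hB hσ (zePackM B hB hqM h2 h3 e).P.hg) hs1 hϖ₂ hP

set_option maxHeartbeats 4000000 in
/-- **(G6) on the Kummer tubes** (`q` odd): an inertia element `σ` with `σ ϖ = ζ₀ ϖ`, `ζ₀` a
primitive `(q-1)(q+1)`-th root of unity (the tame generator), maps the tube of `s` into the tube
of `rev q s`. -/
theorem smul_mem_kumTube_tame (hq2 : q ≠ 2) (hσ : σ ∈ B.inertiaSubgroupIn ℚ) {ζ₀ : Kb}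
    (hζ₀ : IsPrimitiveRoot ζ₀ ((q - 1) * (q + 1))) (hσϖ : σ (unifSDD q) = ζ₀ * unifSDD q)
    (e : SSpM B hB hqM) (s : KPq q) :
    ∀ P ∈ kumTube B hB hqM h2 h3 e s,
      galAut (M * q * q) σ • P ∈ kumTube B hB hqM h2 h3 e (rev q s) := by
  intro P hP
  have hqd : q = 2 * midDeg q + 1 := two_mul_midDeg hq2
  have hd1 : 1 ≤ midDeg q := by
    have := hq.out.two_le
    omega
  have hϖ0 : unifSDD q ≠ 0 := by
    intro h
    have h1 := gaugeSDD_ne_zero_NKF (q := q)
    apply h1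
    unfold gaugeSDD
    rw [h, zero_pow]
    have := hq.out.two_le
    omega
  have hp0 : pi2 q ≠ 0 := pow_ne_zero _ hϖ0
  exact Fermat.Agent.BR3.KummerTubeClausesMod.smul_mem_tubeKM_tame B hB hqM h2 h3 e hσ
    (galAut_smul_of_mem_CMod B hB hσ (zePackM B hB hqM h2 h3 e).P.hg) hp0
    (Fermat.Agent.BR3.KummerSigmaSign.valuation_tame_const B hqd hd1 hζ₀ hϖ0 σ hσϖ
      (residue_kumC0_rev B hB hqM h2 h3 e s)) hP

/-- **(G4), tubes, rich elements**, every `q`: the `nk`-part of clause 2 of `hrest`. -/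
theorem smul_mem_tubeKF_rich (hσ : σ ∈ B.inertiaSubgroupIn ℚ)
    (hs1 : σ (unifSDD q) = unifSDD q) (e : SSpM B hB hqM) (s : KPq q) :
    ∀ P ∈ tubeKF B hB hqM h2 h3 e s, galAut (M * q * q) σ • P ∈ tubeKF B hB hqM h2 h3 e s :=
  smul_mem_tubeKM_rich B hB hqM h2 h3 (kumTube B hB hqM h2 h3) hσ
    (fun _ e s => smul_mem_kumTube_rich B hB hqM h2 h3 hσ hs1 e s) e s

/-- **(G6), tubes, the tame generator**, every `q`: `hnK` of `tameProp_of_rawTubes` with
`p e := rev q`. -/
theorem smul_mem_tubeKF_tame (hσ : σ ∈ B.inertiaSubgroupIn ℚ) {ζ₀ : Kb}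
    (hζ₀ : IsPrimitiveRoot ζ₀ ((q - 1) * (q + 1))) (hσϖ : σ (unifSDD q) = ζ₀ * unifSDD q)
    (e : SSpM B hB hqM) (s : KPq q) :
    ∀ P ∈ tubeKF B hB hqM h2 h3 e s,
      galAut (M * q * q) σ • P ∈ tubeKF B hB hqM h2 h3 e (rev q s) :=
  smul_mem_tubeKM B hB hqM h2 h3 (kumTube B hB hqM h2 h3) hσ (fun _ => rev q)
    (fun hq2 e s => smul_mem_kumTube_tame B hB hqM h2 h3 hq2 hσ hζ₀ hσϖ e s) e s

end Equiv

/-! ### the nodes -/

variable {ζ : Kbˣ} (hζ : IsPrimitiveRoot ζ q) [Nonempty (MidM B hB hqM hζ)]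
  (hcop : ∀ e : SSpM B hB hqM,
    IsCoprime ((z₁ (chartDataModular B hB hqM) e).ord (deltaMid B hB hqM)) (fMid M B hB : ℤ))
  (hex : q ≠ 2 → ∀ e j, ∃ s, ValAt (CM B hB hqM hζ)
    (MidFamily.pMid B hB hqM (z₁ (chartDataModular B hB hqM)) hcop)
    (kumTheta B hB hqM h2 h3)
    (fun e s => IsLocalRing.residue B (kumC0 B hB hqM h2 h3 e s)) e j s)
  (hval : ∀ hq2 : q ≠ 2, ∀ e, Function.Bijective (val (hex hq2) e))

set_option maxHeartbeats 4000000 in
/-- **The named hypothesis of `ModularNodeK` at `q ≠ 2`, discharged** at `comp := compU hex hval`,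
`tubeKodd := kumTube` (helper22's `nodePkg_compU`). -/
theorem nodeKOddF :
    NodeKOdd B hB hqM hζ h2 h3 (compU hex hval) (kumTube B hB hqM h2 h3) :=
  fun hq2 e s => nodePkg_compU B hB hqM h2 h3 hζ hcop hex hval hq2 e s

/-- the index type of the levels of `nk e s` -/
def ιKF (e : SSpM B hB hqM) (s : KPq q) : Type :=
  ιKM B hB hqM hζ h2 h3 (compU hex hval) (kumTube B hB hqM h2 h3)
    (nodeKOddF B hB hqM h2 h3 hζ hcop hex hval) e s

/-- **The data of the node `nk e s` of `S''`** at THE family. -/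
def nodeKF (e : SSpM B hB hqM) (s : KPq q) :
    NodeOut B (residue B) (CM B hB hqM hζ (compU hex hval e s)).O
      (CM B hB hqM hζ (compU hex hval e s)).res
      (pMidK B hB hqM h2 h3 e) (zePackM B hB hqM h2 h3 e).Z (zePackM B hB hqM h2 h3 e).resZ
      (zKM B hB hqM h2 h3 e s) (tubeKF B hB hqM h2 h3 e s)
      (ιKF B hB hqM h2 h3 hζ hcop hex hval e s) :=
  nodeKM B hB hqM hζ h2 h3 (compU hex hval) (kumTube B hB hqM h2 h3)
    (nodeKOddF B hB hqM h2 h3 hζ hcop hex hval) e s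

/-- the constant `κ₀ e s` of `(G3)` -/
def κ₀F (e : SSpM B hB hqM) (s : KPq q) : Kb :=
  κ₀M B hB hqM hζ h2 h3 (compU hex hval) (kumTube B hB hqM h2 h3)
    (nodeKOddF B hB hqM h2 h3 hζ hcop hex hval) e s

/-- the levels of the node `nk e s` -/
def LKF (e : SSpM B hB hqM) (s : KPq q) :
    AnnulusLevels B (tubeKF B hB hqM h2 h3 e s) (ιKF B hB hqM h2 h3 hζ hcop hex hval e s) :=
  LKM B hB hqM hζ h2 h3 (compU hex hval) (kumTube B hB hqM h2 h3)
    (nodeKOddF B hB hqM h2 h3 hζ hcop hex hval) e s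

/-- **(G3) `hκ`** -/
theorem hκF (e : SSpM B hB hqM) (s : KPq q) :
    B.valuation (κ₀F B hB hqM h2 h3 hζ hcop hex hval e s) = 1 :=
  hκM B hB hqM hζ h2 h3 (compU hex hval) (kumTube B hB hqM h2 h3)
    (nodeKOddF B hB hqM h2 h3 hζ hcop hex hval) e s

/-- **(G3) `hK`** (`d := midDeg q`) -/
theorem hKF (e : SSpM B hB hqM) (s : KPq q) :
    gaugeA q B hB hqM e = κ₀F B hB hqM h2 h3 hζ hcop hex hval e s *
      (LKF B hB hqM h2 h3 hζ hcop hex hval e s).thick ^ midDeg q :=
  hKM B hB hqM hζ h2 h3 (compU hex hval) (kumTube B hB hqM h2 h3)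
    (nodeKOddF B hB hqM h2 h3 hζ hcop hex hval) e s

/-- **(G4), coordinates**: the clause `galAut s • (LK e t).u = (LK e t).u` of `hrest`. -/
theorem smul_LKF_u {σ : Kb ≃ₐ[ℚ] Kb} (hσ : σ ∈ B.inertiaSubgroupIn ℚ)
    (h1 : σ (unifSDD q) = unifSDD q)
    (hc : ∀ a ∈ cycloField Kb q, σ a = a) (hr : ∀ ζ' : Kb, ζ' ^ q = 1 → σ ζ' = ζ')
    (e : SSpM B hB hqM) (s : KPq q) :
    galAut (M * q * q) σ • (LKF B hB hqM h2 h3 hζ hcop hex hval e s).u =
      (LKF B hB hqM h2 h3 hζ hcop hex hval e s).u :=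
  smul_LKM_u B hB hqM hζ h2 h3 (compU hex hval) (kumTube B hB hqM h2 h3)
    (nodeKOddF B hB hqM h2 h3 hζ hcop hex hval) hσ h1 hc hr e s

/-! ### the binders of `modelAt_of_raw` for the nodes `nk e s` -/

section Binders

set_option maxHeartbeats 4000000 in
/-- the binder `K₁` -/
theorem K₁F (e : SSpM B hB hqM) (s : KPq q) :
    BranchComp (residue B)
      (CAll B hB hqM hζ (CZM B hB hqM h2 h3) (mid (compU hex hval e s))).O
      (CAll B hB hqM hζ (CZM B hB hqM h2 h3) (mid (compU hex hval e s))).res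
      (pMidM B hB hqM hζ (compU hex hval) hcop (FZM B hB hqM h2 h3) e s)
      (LKF B hB hqM h2 h3 hζ hcop hex hval e s) :=
  (nodeKF B hB hqM h2 h3 hζ hcop hex hval e s).X₁

set_option maxHeartbeats 4000000 in
/-- the binder `K₂` -/
theorem K₂F (e : SSpM B hB hqM) (s : KPq q) :
    BranchComp (residue B)
      (CAll B hB hqM hζ (CZM B hB hqM h2 h3) (ze e)).O
      (CAll B hB hqM hζ (CZM B hB hqM h2 h3) (ze e)).res
      (zKM B hB hqM h2 h3 e s)
      (LKF B hB hqM h2 h3 hζ hcop hex hval e s) :=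
  (nodeKF B hB hqM h2 h3 hζ hcop hex hval e s).X₂

set_option maxHeartbeats 4000000 in
/-- the binder `K_v_src` -/
theorem K_v_srcF (e : SSpM B hB hqM) (s : KPq q) :
    (LKF B hB hqM h2 h3 hζ hcop hex hval e s).v ∈
      (CAll B hB hqM hζ (CZM B hB hqM h2 h3) (mid (compU hex hval e s))).O.nonunits :=
  (nodeKF B hB hqM h2 h3 hζ hcop hex hval e s).v_src

set_option maxHeartbeats 4000000 in
/-- the binder `K_u_tgt` -/
theorem K_u_tgtF (e : SSpM B hB hqM) (s : KPq q) :
    (LKF B hB hqM h2 h3 hζ hcop hex hval e s).u ∈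
      (CAll B hB hqM hζ (CZM B hB hqM h2 h3) (ze e)).O.nonunits :=
  (nodeKF B hB hqM h2 h3 hζ hcop hex hval e s).u_tgt

set_option maxHeartbeats 4000000 in
/-- the binder `K_unif₁` -/
theorem K_unif₁F (e : SSpM B hB hqM) (s : KPq q) :
    ∃ i, ∃ t : ((LKF B hB hqM h2 h3 hζ hcop hex hval e s).level i).R,
      (pMidM B hB hqM hζ (compU hex hval) hcop (FZM B hB hqM h2 h3) e s).ord
        ((CAll B hB hqM hζ (CZM B hB hqM h2 h3) (mid (compU hex hval e s))).res
          ⟨t, (K₁F B hB hqM h2 h3 hζ hcop hex hval e s).le i t t.2⟩) = 1 :=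
  (nodeKF B hB hqM h2 h3 hζ hcop hex hval e s).unif₁

set_option maxHeartbeats 4000000 in
/-- the binder `K_unif₂` -/
theorem K_unif₂F (e : SSpM B hB hqM) (s : KPq q) :
    ∃ i, ∃ t : ((LKF B hB hqM h2 h3 hζ hcop hex hval e s).level i).R,
      (zKM B hB hqM h2 h3 e s).ord
        ((CAll B hB hqM hζ (CZM B hB hqM h2 h3) (ze e)).res
          ⟨t, (K₂F B hB hqM h2 h3 hζ hcop hex hval e s).le i t t.2⟩) = 1 :=
  (nodeKF B hB hqM h2 h3 hζ hcop hex hval e s).unif₂

set_option maxHeartbeats 4000000 in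
/-- the binder `chK` (against `nodeTube (nk e s) := tubeKF … e s`) -/
def chKF (e : SSpM B hB hqM) (s : KPq q) :
    NodeChart B (CAll B hB hqM hζ (CZM B hB hqM h2 h3) (mid (compU hex hval e s))).O
      (CAll B hB hqM hζ (CZM B hB hqM h2 h3) (ze e)).O
      (CAll B hB hqM hζ (CZM B hB hqM h2 h3) (mid (compU hex hval e s))).res
      (CAll B hB hqM hζ (CZM B hB hqM h2 h3) (ze e)).res
      (pMidM B hB hqM hζ (compU hex hval) hcop (FZM B hB hqM h2 h3) e s)
      (zKM B hB hqM h2 h3 e s) (tubeKF B hB hqM h2 h3 e s) :=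
  (nodeKF B hB hqM h2 h3 hζ hcop hex hval e s).chart
    Fermat.Agent.BR3.SplitNodeChart.residue_eq_zero_of_lt
    (fun x hx => (Fermat.Agent.BR.S0.SmoothAssembly.constRed_res_eq_zero_iff
      (CM B hB hqM hζ (compU hex hval e s)) x).mpr hx)
    (fun x hx => (Fermat.Agent.BR.S0.SmoothAssembly.constRed_res_eq_zero_iff
      (CZM B hB hqM h2 h3 e) x).mpr hx)

end Binders

end Fermat.Agent.BR3.SDD.ModularNodeKFinal
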