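import Fermat.Agent.BR3.SDD.ModularSep
import Fermat.Agent.BR3.SDD.ModularNodeT
import Fermat.Agent.BR3.SDD.ModularZePts
import Fermat.Agent.BR3.SDD.ModularTubes

/-!
# Program C (S36), node (SEP-PLUG): `sep_comp` and `sep` of `modelAt_of_raw` at THE family

helper15's `ModularSep.sep_comp_modular` / `sep_modular` (all raw binders arbitrary) at the family
on main:

* `FZ := FZM …`, `CZ := CZM …`, `hZc := hZcM …` (helper5, `SDD/ModularZe`);
* `KP := KPq q`, `zT zK zW := zTM zKM zWM` with their distinctness (helper20, `SDD/ModularZePts`);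
* `nodeTube := nodeTubeM B hB hqM (tubeTM B hB hqM h2 h3) tubeK tubeW` (helper3 `SDD/ModularTubes`,
  helper16 `SDD/ModularNodeT`), with `tube_a_nT := tube_a_nTM`, `tube_b_nT := tube_b_nTM`
  DISCHARGED.

Kept as NAMED hypotheses, in the literal shapes of `ModularSep` on `tubeK e s` / `tubeW e`
(`nodeTubeM_nk`, `nodeTubeM_nW` are `rfl`): `tube_a_nk`, `tube_b_nk` (N2 owners), `tube_a_nW`
(N3 owner), and the Kummer block `Θ c hc hmid hze hpole hval` (owner `SDD/ModularTheta`).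

* **`sep_comp_final`**, **`sep_final`** : the binders `sep_comp`, `sep` of `modelAt_of_raw` VERBATIM
  for `XRaw …` at the family (all the other raw binders `comp pMid smTube cover disjoint smInf
  smZero smMid smZe chT chK chW` arbitrary: the caller passes the terms of its own `XRaw`).
-/

set_option autoImplicit false
set_option linter.style.haveILetI false
set_option linter.unusedSectionVars false
set_option linter.unusedVariables false
set_option synthInstance.maxHeartbeats 400000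

open ModularCurve AlgebraicCurve

noncomputable section

namespace Fermat.Agent.BR3.SDD.ModularSepFinal

open IsLocalRing Fermat.Agent.Jac Fermat.Agent.X0 Fermat.Agent.Red Fermat.Agent.Val
  Fermat.Agent.BR.SS Fermat.Agent.BR Fermat.Agent.BR.InertiaRed Fermat.Agent.BR.UnramCyclo
  Fermat.Agent.BR.S0 Fermat.Agent.BR.S0.PointDict Fermat.Agent.BR.S0.RedModular
  Fermat.Agent.BR3.FibreProd Fermat.Agent.BR.TwoVal Fermat.Agent.BR.Refine
  Fermat.Agent.BR.Circle Fermat.Agent.BR3.CircleN Fermat.Agent.BR3.SplitBranch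
  Fermat.Agent.BR3.ThickSDDPlug Fermat.Agent.BR3.SDD.Partition Fermat.Agent.BR3.SRef.Modular
  Fermat.Agent.BR2.SetupOfData Fermat.Agent.BR3.SDD.Modular Fermat.Agent.BR3.SDD
  Fermat.Agent.BR3.SRef Fermat.Agent.BR3.SepN Fermat.Agent.BR3.SepNSDD
  Fermat.Agent.BR3.SepNModular Fermat.Agent.BR3.VertBetaFr Fermat.Agent.BR.Final
  Fermat.Agent.BR3.SDD.ModularSep Fermat.Agent.BR3.VertPtsU

local notation "Qb" => AlgebraicClosure ℚ

variable {M q : ℕ} [NeZero M] [hq : Fact q.Prime] [NeZero q]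
variable (B : ValuationSubring (AlgebraicClosure ℚ)) (hB : B.LiesOverPrime q) (hqM : ¬ q ∣ M)
variable [IsAlgClosed (ResidueField B)] [CharP (ResidueField B) q]
  [PerfectField (ResidueField B)]
variable {ζ : Kbˣ} (hζ : IsPrimitiveRoot ζ q)

local notation "kB" => IsLocalRing.ResidueField B
local notation "FtM" => modularFunctionFieldFullC (IsLocalRing.ResidueField B) M

/-- (shortcut instance) -/
local instance (priority := 100000) instAlgebraFtMShortcutSepF :
    Algebra (IsLocalRing.ResidueField B)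
      (modularFunctionFieldFullC (IsLocalRing.ResidueField B) M) :=
  inferInstance

/-- (shortcut instance: the search through the tower takes seconds) -/
local instance (priority := 100000) instAlgebraFMidShortcutSepF :
    Algebra (IsLocalRing.ResidueField B) (FMid M B) :=
  inferInstance

variable (h2 : nuTwo M = 0) (h3 : nuThree M = 0)

/-- (shortcut instance) -/
local instance (priority := 100000) instFieldFtAllShortcutSepF :
    ∀ v, Field (FtAll B hB hqM hζ (FZM B hB hqM h2 h3) v) :=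
  inferInstance

/-- (shortcut instance) -/
local instance (priority := 100000) instAlgebraFtAllShortcutSepF :
    ∀ v, Algebra (IsLocalRing.ResidueField B) (FtAll B hB hqM hζ (FZM B hB hqM h2 h3) v) :=
  inferInstance

variable
  (comp : SSpM B hB hqM → KPq q → MidM B hB hqM hζ) (comp_surj : ∀ i, ∃ e s, comp e s = i)
  (pMid : ∀ e s, Place (ResidueField B)
    (FtAll B hB hqM hζ (FZM B hB hqM h2 h3) (mid (comp e s))))
  (pMid_injective : ∀ e s e' s', (⟨mid (comp e s), pMid e s⟩ :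
    Σ v, Place (ResidueField B) (FtAll B hB hqM hζ (FZM B hB hqM h2 h3) v)) =
      ⟨mid (comp e' s'), pMid e' s'⟩ → e = e' ∧ s = s')
  (tubeK : SSpM B hB hqM → KPq q → Set (Place Kb (Fb (M * q * q))))
  (tubeW : SSpM B hB hqM → Set (Place Kb (Fb (M * q * q))))
  (smTube : (Σ v, Place (ResidueField B) (FtAll B hB hqM hζ (FZM B hB hqM h2 h3) v)) →
    Set (Place Kb (Fb (M * q * q))))

variable
  (cover : ∀ P, ∃ y, P ∈ tubeS comp (pInfM B hB hqM) pMid (zWM B hB hqM h2 h3)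
    (pZeroM B hB hqM) (zTM B hB hqM h2 h3) (zKM B hB hqM h2 h3)
    (nodeTubeM B hB hqM (tubeTM B hB hqM h2 h3) tubeK tubeW) smTube y)
  (disjoint : ∀ P y y',
    P ∈ tubeS comp (pInfM B hB hqM) pMid (zWM B hB hqM h2 h3) (pZeroM B hB hqM)
      (zTM B hB hqM h2 h3) (zKM B hB hqM h2 h3)
      (nodeTubeM B hB hqM (tubeTM B hB hqM h2 h3) tubeK tubeW) smTube y →
    P ∈ tubeS comp (pInfM B hB hqM) pMid (zWM B hB hqM h2 h3) (pZeroM B hB hqM)
      (zTM B hB hqM h2 h3) (zKM B hB hqM h2 h3)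
      (nodeTubeM B hB hqM (tubeTM B hB hqM h2 h3) tubeK tubeW) smTube y' → y = y')
  (smInf : ∀ Q : Place (ResidueField B) (FtAll B hB hqM hζ (FZM B hB hqM h2 h3) cInf),
    (∀ e, Q ≠ pInfM B hB hqM e) →
    SmoothChart B (CAll B hB hqM hζ (CZM B hB hqM h2 h3) cInf).O
      (CAll B hB hqM hζ (CZM B hB hqM h2 h3) cInf).res Q (smTube ⟨cInf, Q⟩))
  (smZero : ∀ Q : Place (ResidueField B) (FtAll B hB hqM hζ (FZM B hB hqM h2 h3) SDD.cZero),
    (∀ e, Q ≠ pZeroM B hB hqM e) →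
    SmoothChart B (CAll B hB hqM hζ (CZM B hB hqM h2 h3) SDD.cZero).O
      (CAll B hB hqM hζ (CZM B hB hqM h2 h3) SDD.cZero).res Q (smTube ⟨SDD.cZero, Q⟩))
  (smMid : ∀ (i : MidM B hB hqM hζ)
    (Q : Place (ResidueField B) (FtAll B hB hqM hζ (FZM B hB hqM h2 h3) (mid i))),
    (∀ e s, (⟨mid i, Q⟩ :
      Σ v, Place (ResidueField B) (FtAll B hB hqM hζ (FZM B hB hqM h2 h3) v)) ≠
        ⟨mid (comp e s), pMid e s⟩) →
    SmoothChart B (CAll B hB hqM hζ (CZM B hB hqM h2 h3) (mid i)).O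
      (CAll B hB hqM hζ (CZM B hB hqM h2 h3) (mid i)).res Q (smTube ⟨mid i, Q⟩))
  (smZe : ∀ (e : SSpM B hB hqM)
    (Q : Place (ResidueField B) (FtAll B hB hqM hζ (FZM B hB hqM h2 h3) (ze e))),
    Q ≠ zWM B hB hqM h2 h3 e → Q ≠ zTM B hB hqM h2 h3 e → (∀ s, Q ≠ zKM B hB hqM h2 h3 e s) →
    SmoothChart B (CAll B hB hqM hζ (CZM B hB hqM h2 h3) (ze e)).O
      (CAll B hB hqM hζ (CZM B hB hqM h2 h3) (ze e)).res Q (smTube ⟨ze e, Q⟩))
  (chT : ∀ e, NodeChart B (CAll B hB hqM hζ (CZM B hB hqM h2 h3) cInf).O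
    (CAll B hB hqM hζ (CZM B hB hqM h2 h3) (ze e)).O
    (CAll B hB hqM hζ (CZM B hB hqM h2 h3) cInf).res
    (CAll B hB hqM hζ (CZM B hB hqM h2 h3) (ze e)).res (pInfM B hB hqM e)
    (zTM B hB hqM h2 h3 e)
    (nodeTubeM B hB hqM (tubeTM B hB hqM h2 h3) tubeK tubeW (nT e)))
  (chK : ∀ e s, NodeChart B (CAll B hB hqM hζ (CZM B hB hqM h2 h3) (mid (comp e s))).O
    (CAll B hB hqM hζ (CZM B hB hqM h2 h3) (ze e)).O
    (CAll B hB hqM hζ (CZM B hB hqM h2 h3) (mid (comp e s))).res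
    (CAll B hB hqM hζ (CZM B hB hqM h2 h3) (ze e)).res (pMid e s) (zKM B hB hqM h2 h3 e s)
    (nodeTubeM B hB hqM (tubeTM B hB hqM h2 h3) tubeK tubeW (nk e s)))
  (chW : ∀ e, NodeChart B (CAll B hB hqM hζ (CZM B hB hqM h2 h3) (ze e)).O
    (CAll B hB hqM hζ (CZM B hB hqM h2 h3) SDD.cZero).O
    (CAll B hB hqM hζ (CZM B hB hqM h2 h3) (ze e)).res
    (CAll B hB hqM hζ (CZM B hB hqM h2 h3) SDD.cZero).res (zWM B hB hqM h2 h3 e)
    (pZeroM B hB hqM e)
    (nodeTubeM B hB hqM (tubeTM B hB hqM h2 h3) tubeK tubeW (nW e)))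

/-- the abbreviation of `XRaw` at the family with all its arguments -/
local notation "XRF" =>
  XRaw B hB hqM hζ h2 h3 (CZM B hB hqM h2 h3) (hZcM B hB hqM h2 h3) comp comp_surj pMid
    (zTM B hB hqM h2 h3) (zKM B hB hqM h2 h3) (zWM B hB hqM h2 h3) pMid_injective
    (zKM_injective B hB hqM h2 h3) (zTM_ne_zKM B hB hqM h2 h3) (zWM_ne_zTM B hB hqM h2 h3)
    (zWM_ne_zKM B hB hqM h2 h3)
    (nodeTubeM B hB hqM (tubeTM B hB hqM h2 h3) tubeK tubeW) smTube cover disjoint smInf smZero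
    smMid smZe chT chK chW

section Sep

variable (hα : (alpha2 M q).toRingHom.IsIntegral) (hβ : (beta2 M q).toRingHom.IsIntegral)
  -- (T) on the raw tubes of the Kummer nodes and of the wild nodes
  (tube_a_nk : ∀ e s, ∀ P ∈ tubeK e s, P.restrictAlong (alpha2 M q) hα ∈
    TAout B hB hqM h2 h3 e)
  (tube_a_nW : ∀ e, ∀ P ∈ tubeW e, P.restrictAlong (alpha2 M q) hα ∈
    TAin B hB hqM h2 h3 e)
  (tube_b_nk : ∀ e s, ∀ P ∈ tubeK e s, P.restrictAlong (beta2 M q) hβ ∈
    TBin B hB hqM h2 h3 (Fr B hB hqM e))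
  -- the Kummer function
  (Θ : SSpM B hB hqM → Fb (M * q * q)) (c : SSpM B hB hqM → KPq q → ResidueField B)
  (hc : ∀ e, Function.Injective (c e))
  (hmid : ∀ e i, Θ e ∈ (CAll B hB hqM hζ (CZM B hB hqM h2 h3) (mid i)).O)
  (hze : ∀ e, Θ e ∈ (CAll B hB hqM hζ (CZM B hB hqM h2 h3) (ze e)).O)
  (hpole : ∀ e s, ∀ P ∈ tubeK e s, 0 ≤ P.ord (Θ e))
  (hval : ∀ e s, IsValueAt (zKM B hB hqM h2 h3 e s)
    ((CAll B hB hqM hζ (CZM B hB hqM h2 h3) (ze e)).res ⟨Θ e, hze e⟩) (c e s))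
  (hsurj : ∀ e i, ∃ s, comp e s = i)

include hα hβ tube_a_nk tube_a_nW tube_b_nk Θ c hc hmid hze hpole hval hsurj in
set_option maxHeartbeats 4000000 in
/-- **The binder `sep_comp` of `modelAt_of_raw` at the family.** -/
theorem sep_comp_final :
    ∀ x w, w ≠ (XRF).toInput.setup.src x → w ≠ (XRF).toInput.setup.tgt x →
      SepComp (XRF).toInput.setup x w :=
  sep_comp_modular B hB hqM hζ h2 h3 (CZM B hB hqM h2 h3) (hZcM B hB hqM h2 h3) comp comp_surj
    pMid (zTM B hB hqM h2 h3) (zKM B hB hqM h2 h3) (zWM B hB hqM h2 h3) pMid_injective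
    (zKM_injective B hB hqM h2 h3) (zTM_ne_zKM B hB hqM h2 h3) (zWM_ne_zTM B hB hqM h2 h3)
    (zWM_ne_zKM B hB hqM h2 h3)
    (nodeTubeM B hB hqM (tubeTM B hB hqM h2 h3) tubeK tubeW) smTube cover disjoint smInf smZero
    smMid smZe chT chK chW hα hβ
    (fun e P hP => tube_a_nTM B hB hqM h2 h3 e hα hP) tube_a_nk tube_a_nW
    (fun e P hP => tube_b_nTM B hB hqM h2 h3 e hα hβ hP) tube_b_nk Θ c hc hmid hze hpole hval
    hsurj

include hα hβ tube_a_nk tube_a_nW tube_b_nk Θ c hc hmid hze hpole hval hsurj in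
set_option maxHeartbeats 4000000 in
/-- **The binder `sep` of `modelAt_of_raw` at the family.** -/
theorem sep_final :
    ∀ x x', x ≠ x' → Separated (XRF).toInput.setup x x' :=
  sep_modular B hB hqM hζ h2 h3 (CZM B hB hqM h2 h3) (hZcM B hB hqM h2 h3) comp comp_surj
    pMid (zTM B hB hqM h2 h3) (zKM B hB hqM h2 h3) (zWM B hB hqM h2 h3) pMid_injective
    (zKM_injective B hB hqM h2 h3) (zTM_ne_zKM B hB hqM h2 h3) (zWM_ne_zTM B hB hqM h2 h3)
    (zWM_ne_zKM B hB hqM h2 h3)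
    (nodeTubeM B hB hqM (tubeTM B hB hqM h2 h3) tubeK tubeW) smTube cover disjoint smInf smZero
    smMid smZe chT chK chW hα hβ
    (fun e P hP => tube_a_nTM B hB hqM h2 h3 e hα hP) tube_a_nk tube_a_nW
    (fun e P hP => tube_b_nTM B hB hqM h2 h3 e hα hβ hP) tube_b_nk Θ c hc hmid hze hpole hval
    hsurj

end Sep

end Fermat.Agent.BR3.SDD.ModularSepFinal
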