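import Fermat.Agent.BR3.SDD.ModularFinal
import Fermat.Agent.BR3.SDD.ModularG7
import Fermat.Agent.BR3.SDD.ModularCompM
import Fermat.Agent.BR3.SDD.ModularCompFinal
import Fermat.Agent.BR3.SDD.ModularNodeT
import Fermat.Agent.BR3.SDD.ModularNodeW
import Fermat.Agent.BR3.SDD.ModularNodeWClosed
import Fermat.Agent.BR3.SDD.ModularNodeK
import Fermat.Agent.BR3.SDD.ModularNodeKTubes
import Fermat.Agent.BR3.SDD.ModularNodeKFinal
import Fermat.Agent.BR3.SDD.ModularTubesMidFinal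
import Fermat.Agent.BR3.SDD.PartitionDone
import Fermat.Agent.BR3.SDD.ModularVert
import Fermat.Agent.BR3.KummerNodeFam
import Fermat.Agent.BR3.SDD.ModularSepFinal
import Fermat.Agent.BR3.SDD.ModularTheta
import Fermat.Agent.BR3.EquivRestM
import Fermat.Agent.BR3.EquivTubesMNodes
import Fermat.Agent.BR3.EquivTubesVertMod

/-!
# Program C (S36), node (FINAL): THE final call

`modelAt_final_Z` (`BR3/SDD/ModularFinal.lean`) at THE family of the raw data of `S''`:

* `comp := compM …` (`ModularCompM`, `hex := hex_modular`), `pMid := pMidM …`;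
* `tubeT tubeK tubeW := tubeTM, tubeKM … kumTube, tubeWM`, `midTube := midTubeM … (atlas (DtM …))`;
* `cover disjoint := partition_done`, `smMid := smMidF`;
* the columns `nT` (`ModularNodeT`), `nk` (`ModularNodeKFinal`), `nW` (`ModularNodeW`, `hWM_closed`);
* (G7) `ModularG7`, (G5) `ModularVert.hvertM`, `e₂ := q + 1`.
-/

set_option autoImplicit false
set_option linter.style.haveILetI false
set_option linter.unusedSectionVars false
set_option linter.unusedVariables false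
set_option linter.style.longLine false
set_option synthInstance.maxHeartbeats 400000
set_option maxHeartbeats 4000000
set_option backward.isDefEq.respectTransparency.types true

open ModularCurve AlgebraicCurve

noncomputable section

/- S36 build-time patch: file-local shortcut instances. They only shorten instance search;
each is the instance that the search finds anyway (reducible, same terms after unfolding). -/
local instance (priority := 100000) Fermat.Agent.BR3.FastInst.instAlgFullC_SDD_ModularFinalCall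
    {k : Type*} [Field k] (N : ℕ) :
    Algebra k ↥(ModularCurve.modularFunctionFieldFullC k N) := inferInstance
local instance (priority := 100000) Fermat.Agent.BR3.FastInst.instFieldFullC_SDD_ModularFinalCall
    {k : Type*} [Field k] (N : ℕ) :
    Field ↥(ModularCurve.modularFunctionFieldFullC k N) := inferInstance
local instance (priority := 100000) Fermat.Agent.BR3.FastInst.instAlgLaurent_SDD_ModularFinalCall
    {k : Type*} [Field k] : Algebra k (LaurentSeries k) := inferInstance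


namespace Fermat.Agent.BR3.SDD.ModularFinal

open IsLocalRing Fermat.Agent.Jac Fermat.Agent.X0 Fermat.Agent.Red Fermat.Agent.Val
  Fermat.Agent.BR.SS Fermat.Agent.BR Fermat.Agent.BR.InertiaRed Fermat.Agent.BR.UnramCyclo
  Fermat.Agent.BR3.EquivInert Fermat.Agent.BR3.TorGlue Fermat.Agent.BR2.Filt
  Fermat.Agent.BR3.FiltMaps Fermat.Agent.BR3.FiltPerm
  Fermat.Agent.BR.S0 Fermat.Agent.BR.S0.PointDict Fermat.Agent.BR.S0.RedModular
  Fermat.Agent.BR3.FibreProd Fermat.Agent.BR.TwoVal Fermat.Agent.BR.Refine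
  Fermat.Agent.BR.Circle Fermat.Agent.BR3.CircleN Fermat.Agent.BR3.SplitBranch
  Fermat.Agent.BR3.ThickSDDPlug Fermat.Agent.BR3.SDD.Partition Fermat.Agent.BR3.SRef.Modular
  Fermat.Agent.BR2.SetupOfData Fermat.Agent.BR3.SDD.Modular Fermat.Agent.BR3.SDD
  Fermat.Agent.BR3.VertPtsU Fermat.Agent.BR3.IgSq Fermat.Agent.BR3.VertBetaFr
  Fermat.Agent.BR3.KummerGenus Fermat.Agent.BR3.KummerGenus.MidInst
  Fermat.Agent.BR3.SDD.ModularTubesMid

local notation "Qb" => AlgebraicClosure ℚ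

variable {M q : ℕ} [NeZero M] [hq : Fact q.Prime] [NeZero q]
variable (B : ValuationSubring (AlgebraicClosure ℚ)) (hB : B.LiesOverPrime q) (hqM : ¬ q ∣ M)
variable [IsAlgClosed (ResidueField B)] [CharP (ResidueField B) q]
variable {ζ : Kbˣ} (hζ : IsPrimitiveRoot ζ q)

local notation "kB" => IsLocalRing.ResidueField B
local notation "FtM" => modularFunctionFieldFullC (IsLocalRing.ResidueField B) M

/-- (shortcut instances) -/
local instance (priority := 100000) instAlgebraFtMShortcutFC :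
    Algebra (IsLocalRing.ResidueField B)
      (modularFunctionFieldFullC (IsLocalRing.ResidueField B) M) :=
  inferInstance
local instance (priority := 100000) instAlgKFMidFC :
    Algebra (IsLocalRing.ResidueField B) (FMid M B) := inferInstance
local instance (priority := 100000) instAlgFtFMidFC :
    Algebra (modularFunctionFieldFullC (IsLocalRing.ResidueField B) M) (FMid M B) := inferInstance
local instance (priority := 100000) instTowerMidFC :
    IsScalarTower (IsLocalRing.ResidueField B)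
      (modularFunctionFieldFullC (IsLocalRing.ResidueField B) M) (FMid M B) :=
  inferInstance
local instance (priority := 100000) instFieldFtAllFC {FZ : SSpM B hB hqM → Type}
    [∀ e, Field (FZ e)] (v : Comp (MidM B hB hqM hζ) (SSpM B hB hqM)) :
    Field (FtAll B hB hqM hζ FZ v) := instFieldFtOf v
local instance (priority := 100000) instAlgFtAllFC {FZ : SSpM B hB hqM → Type}
    [∀ e, Field (FZ e)] [∀ e, Algebra (IsLocalRing.ResidueField B) (FZ e)]
    (v : Comp (MidM B hB hqM hζ) (SSpM B hB hqM)) :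
    Algebra (IsLocalRing.ResidueField B) (FtAll B hB hqM hζ FZ v) := instAlgebraFtOf v
/-- there is a middle component -/
local instance (priority := 100000) instNonemptyMidFC : Nonempty (MidM B hB hqM hζ) :=
  Fermat.Agent.BR3.KummerNodeFam.nonempty_MidM B hB hqM hζ

variable (h2 : nuTwo M = 0) (h3 : nuThree M = 0)

/-! ### the names of the final call -/

/-- `hcop` -/
local notation "hcopF" => Fermat.Agent.BR3.SDD.ModularNodeK.hcopM B hB hqM h2 h3
/-- `hex` -/
local notation "hexF" =>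
  Fermat.Agent.BR3.SDD.ModularCompFinal.hex_modular B hB hqM h2 h3 hζ hcopF
/-- `hval` -/
local notation "hvalF" => Fermat.Agent.BR3.SDD.ModularCompM.hvalM B hB hqM h2 h3 hζ hcopF hexF
/-- THE `comp` -/
local notation "compF" => Fermat.Agent.BR3.SDD.ModularCompM.compM B hB hqM h2 h3 hζ hcopF hexF
/-- `hsurj` -/
local notation "hsurjF" =>
  Fermat.Agent.BR3.SDD.ModularCompM.compM_hall B hB hqM h2 h3 hζ hcopF hexF
/-- `comp_surj` -/
local notation "compF_surj" =>
  Fermat.Agent.BR3.SDD.ModularCompM.compM_surj B hB hqM h2 h3 hζ hcopF hexF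
/-- THE `pMid` -/
local notation "pMidF" => pMidM B hB hqM hζ compF hcopF (FZM B hB hqM h2 h3)
/-- `pMid_injective` -/
local notation "pMidF_inj" =>
  Fermat.Agent.BR3.SDD.ModularCompM.pMidM_injective B hB hqM h2 h3 hζ hcopF hexF
    (FZM B hB hqM h2 h3)
/-- the raw tubes of the nodes -/
local notation "kumT" => Fermat.Agent.BR3.KummerNodeInputs.kumTube B hB hqM h2 h3
local notation "tubeTF" => tubeTM B hB hqM h2 h3
local notation "tubeKFn" => Fermat.Agent.BR3.SDD.ModularNodeK.tubeKM B hB hqM h2 h3 kumT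
local notation "tubeWF" => tubeWM B hB hqM h2 h3
/-- the atlas and the raw tubes of the middle components -/
local notation "HF" => Fermat.Agent.BR2.SetupOfData.atlas (DtM B hB hqM)
local notation "midTubeF" => midTubeM B hB hqM hζ HF
/-- the split sheets of the wild nodes -/
local notation "HWF" => hWM_closed B hB hqM h2 h3

/-- **`cover ∧ disjoint`** at THE family -/
theorem partF :
    (∀ P, ∃ y, P ∈ tubeS compF (pInfM B hB hqM) pMidF (zWM B hB hqM h2 h3) (pZeroM B hB hqM)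
      (zTM B hB hqM h2 h3) (zKM B hB hqM h2 h3)
      (nodeTubeM B hB hqM tubeTF tubeKFn tubeWF)
      (smTubeM B hB hqM hζ midTubeF (TZM B hB hqM h2 h3)) y) ∧
    ∀ P y y',
      P ∈ tubeS compF (pInfM B hB hqM) pMidF (zWM B hB hqM h2 h3) (pZeroM B hB hqM)
        (zTM B hB hqM h2 h3) (zKM B hB hqM h2 h3)
        (nodeTubeM B hB hqM tubeTF tubeKFn tubeWF)
        (smTubeM B hB hqM hζ midTubeF (TZM B hB hqM h2 h3)) y →
      P ∈ tubeS compF (pInfM B hB hqM) pMidF (zWM B hB hqM h2 h3) (pZeroM B hB hqM)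
        (zTM B hB hqM h2 h3) (zKM B hB hqM h2 h3)
        (nodeTubeM B hB hqM tubeTF tubeKFn tubeWF)
        (smTubeM B hB hqM hζ midTubeF (TZM B hB hqM h2 h3)) y' →
      y = y' :=
  Fermat.Agent.BR3.SDD.ModularPlug.partition_done B hB hqM hζ h2 h3 HF compF hcopF hsurjF pMidF_inj
    (fun hq2 e s => Fermat.Agent.BR3.SDD.ModularNodeKFinal.annSheet_kum B hB hqM h2 h3 hζ hcopF
      hexF hvalF hq2 e s)
    (fun _ e s => Fermat.Agent.BR3.SDD.ModularNodeKFinal.tube_a_kum B hB hqM h2 h3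
      (isIntegral_alpha2 M q) e s)

/-- `cover` -/
local notation "coverF" => And.left (partF B hB hqM hζ h2 h3)
/-- `disjoint` -/
local notation "disjointF" => And.right (partF B hB hqM hζ h2 h3)

/-- **`smMid`** at THE family -/
def smMidFin (i : MidM B hB hqM hζ)
    (Q : Place (ResidueField B) (FtAll B hB hqM hζ (FZM B hB hqM h2 h3) (mid i)))
    (h : ∀ e s, (⟨mid i, Q⟩ : Σ v, Place (ResidueField B)
      (FtAll B hB hqM hζ (FZM B hB hqM h2 h3) v)) ≠ ⟨mid (compF e s), pMidF e s⟩) :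
    SmoothChart B (CAll B hB hqM hζ (CZM B hB hqM h2 h3) (mid i)).O
      (CAll B hB hqM hζ (CZM B hB hqM h2 h3) (mid i)).res Q
      (smTubeM B hB hqM hζ midTubeF (TZM B hB hqM h2 h3) ⟨mid i, Q⟩) :=
  Fermat.Agent.BR3.SDD.ModularTubesMidFinal.smMidF B hB hqM hζ h2 h3 compF pMidF
    (TZM B hB hqM h2 h3) (CZM B hB hqM h2 h3)
    (complMid_pMid B hB hqM hζ compF hcopF hsurjF) i Q h

/-- the levels and the charts of the nodes -/
local notation "chTF" => fun e => chTM B hB hqM h2 h3 e hζ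
local notation "chKFn" => fun e s =>
  Fermat.Agent.BR3.SDD.ModularNodeKFinal.chKF B hB hqM h2 h3 hζ hcopF hexF hvalF e s
local notation "chWF" => fun e => chWM B hB hqM h2 h3 hζ HWF e

/-- **THE `XRaw`** of the final call -/
local notation "XRF" =>
  XRaw B hB hqM hζ h2 h3 (CZM B hB hqM h2 h3) (hZcM B hB hqM h2 h3) compF compF_surj pMidF
    (zTM B hB hqM h2 h3) (zKM B hB hqM h2 h3) (zWM B hB hqM h2 h3) pMidF_inj
    (zKM_injective B hB hqM h2 h3) (zTM_ne_zKM B hB hqM h2 h3) (zWM_ne_zTM B hB hqM h2 h3)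
    (zWM_ne_zKM B hB hqM h2 h3) (nodeTubeM B hB hqM tubeTF tubeKFn tubeWF)
    (smTubeM B hB hqM hζ midTubeF (TZM B hB hqM h2 h3)) coverF disjointF
    (smInfM B hB hqM hζ (CZM B hB hqM h2 h3) midTubeF (TZM B hB hqM h2 h3))
    (smZeroM B hB hqM hζ (CZM B hB hqM h2 h3) midTubeF (TZM B hB hqM h2 h3))
    (smMidFin B hB hqM hζ h2 h3)
    (smZeF B hB hqM hζ h2 h3 midTubeF) chTF chKFn chWF

/-- the levels of the nodes -/
local notation "LTF" => fun e => LTM B hB hqM h2 h3 e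
local notation "LKFn" => fun e s =>
  Fermat.Agent.BR3.SDD.ModularNodeKFinal.LKF B hB hqM h2 h3 hζ hcopF hexF hvalF e s
local notation "LWF" => fun e => LWM B hB hqM h2 h3 HWF e

/-- **THE final call, modulo (sep), (G4), (G6)**: `S36Plug.ModelAt M q lam B` from the binders
`sep_comp`, `sep`, `hrest`, `ht` of `modelAt_final_Z` at THE family, in their literal shapes. -/
theorem modelAt_final_core
    (sep_comp : ∀ x w, w ≠ (XRF).toInput.setup.src x → w ≠ (XRF).toInput.setup.tgt x →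
      SepComp (XRF).toInput.setup x w)
    (sep : ∀ x x', x ≠ x' → Separated (XRF).toInput.setup x x')
    (lam : ℕ) (hlam : lam.Prime) (hqlam : q ≠ lam)
    (hrest : ∀ s ∈ B.inertiaSubgroupIn ℚ, s (unifSDD q) = unifSDD q →
      (∀ a ∈ cycloField Qb q, s a = a) → (∀ ζ' : Qb, ζ' ^ q = 1 → s ζ' = ζ') →
      (∀ e, ActsTrivially ((CZM B hB hqM h2 h3) e).O (galAut (M * q * q) s)) ∧
      (∀ x, ∀ P ∈ (nodeTubeM B hB hqM tubeTF tubeKFn tubeWF) x,
        galAut (M * q * q) s • P ∈ (nodeTubeM B hB hqM tubeTF tubeKFn tubeWF) x) ∧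
      (∀ y, ∀ P ∈ (smTubeM B hB hqM hζ midTubeF (TZM B hB hqM h2 h3)) y,
        galAut (M * q * q) s • P ∈ (smTubeM B hB hqM hζ midTubeF (TZM B hB hqM h2 h3)) y) ∧
      (∀ e, galAut (M * q * q) s • ((LTF) e).u = ((LTF) e).u) ∧
      (∀ e t, galAut (M * q * q) s • ((LKFn) e t).u = ((LKFn) e t).u) ∧
      ∀ e, galAut (M * q * q) s • ((LWF) e).u = ((LWF) e).u)
    (ht : S36Plug.TameProp M q lam B (XRF).toInput) : S36Plug.ModelAt M q lam B := by
  letI : Fintype (SSpM B hB hqM) := Fermat.Agent.BR2.SetupOfData.fintypeCrossing (DtM B hB hqM)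
  exact modelAt_final_Z B hB hqM hζ h2 h3 compF compF_surj pMidF pMidF_inj tubeTF tubeKFn tubeWF
    midTubeF coverF disjointF (smMidFin B hB hqM hζ h2 h3) chTF chKFn chWF
    (ιT := fun e => ιTM B hB hqM h2 h3 e)
    (ιK := fun e s =>
      Fermat.Agent.BR3.SDD.ModularNodeKFinal.ιKF B hB hqM h2 h3 hζ hcopF hexF hvalF e s)
    (ιW := fun e => Fermat.Agent.BR3.SplitNode.idxInB B hB hqM h2 h3 (Fr B hB hqM e))
    LTF LKFn LWF
    (fun e => T₁M B hB hqM h2 h3 e hζ) (fun e => T₂M B hB hqM h2 h3 e hζ)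
    (fun e s => Fermat.Agent.BR3.SDD.ModularNodeKFinal.K₁F B hB hqM h2 h3 hζ hcopF hexF hvalF e s)
    (fun e s => Fermat.Agent.BR3.SDD.ModularNodeKFinal.K₂F B hB hqM h2 h3 hζ hcopF hexF hvalF e s)
    (fun e => W₁M B hB hqM h2 h3 hζ HWF e) (fun e => W₂M B hB hqM h2 h3 hζ HWF e)
    (fun e => T_v_srcM B hB hqM h2 h3 e hζ) (fun e => T_u_tgtM B hB hqM h2 h3 e hζ)
    (fun e s =>
      Fermat.Agent.BR3.SDD.ModularNodeKFinal.K_v_srcF B hB hqM h2 h3 hζ hcopF hexF hvalF e s)
    (fun e s =>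
      Fermat.Agent.BR3.SDD.ModularNodeKFinal.K_u_tgtF B hB hqM h2 h3 hζ hcopF hexF hvalF e s)
    (fun e => W_v_srcM B hB hqM h2 h3 hζ HWF e) (fun e => W_u_tgtM B hB hqM h2 h3 hζ HWF e)
    (fun e => T_unif₁M B hB hqM h2 h3 e hζ) (fun e => T_unif₂M B hB hqM h2 h3 e hζ)
    (fun e s =>
      Fermat.Agent.BR3.SDD.ModularNodeKFinal.K_unif₁F B hB hqM h2 h3 hζ hcopF hexF hvalF e s)
    (fun e s =>
      Fermat.Agent.BR3.SDD.ModularNodeKFinal.K_unif₂F B hB hqM h2 h3 hζ hcopF hexF hvalF e s)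
    (fun e => W_unif₁M B hB hqM h2 h3 hζ HWF e) (fun e => W_unif₂M B hB hqM h2 h3 hζ HWF e)
    sep_comp sep lam hlam hqlam hsurjF (dMM_G7 B hB hqM hζ) (hdM_G7 B hB hqM hζ)
    (hRH_G7 B hB hqM hζ h2 h3)
    (fun e s => Fermat.Agent.BR3.SDD.ModularNodeKFinal.κ₀F B hB hqM h2 h3 hζ hcopF hexF hvalF e s)
    (fun e => hTM B hB hqM h2 h3 e) (fun e => hWM B hB hqM h2 h3 HWF e)
    (fun e s => Fermat.Agent.BR3.SDD.ModularNodeKFinal.hκF B hB hqM h2 h3 hζ hcopF hexF hvalF e s)
    (fun e s => Fermat.Agent.BR3.SDD.ModularNodeKFinal.hKF B hB hqM h2 h3 hζ hcopF hexF hvalF e s)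
    hrest (q + 1) (Nat.succ_ne_zero q)
    (Fermat.Agent.BR3.SDD.ModularVert.hvertM B hB hqM h2 h3 (XRF) (fun _ => rfl)) ht

/-! ### (sep) at THE family -/

section SepF

open Fermat.Agent.BR3.SDD.ModularTheta Fermat.Agent.BR3.SDD.ModularSep

/-- **`hpole`** at THE family: the Kummer function has no pole on the tubes of the Kummer nodes -/
theorem hpoleF (e : SSpM B hB hqM) (s : KPq q) :
    ∀ P ∈ tubeKFn e s, 0 ≤ P.ord (ThetaM B hB hqM h2 h3 e) := by
  refine hpole_of_value B hB hqM h2 h3 e ?_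
  intro P hP
  by_cases hq2 : q = 2
  · rw [ThetaM_of_two B hB hqM h2 h3 hq2]
    exact ⟨1, isValueAt_one _⟩
  · rw [ThetaM_of_ne_two B hB hqM h2 h3 hq2]
    rw [Fermat.Agent.BR3.SDD.ModularNodeK.tubeKM_of_ne_two B hB hqM h2 h3 _ hq2] at hP
    obtain ⟨d, hd, -⟩ :=
      Fermat.Agent.BR3.SDD.ModularNodeKFinal.value_kumTheta B hB hqM h2 h3 e s P hP
    exact ⟨d, hd⟩

/-- **`sep_comp`** at THE family -/
theorem sep_compF :
    ∀ x w, w ≠ (XRF).toInput.setup.src x → w ≠ (XRF).toInput.setup.tgt x →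
      SepComp (XRF).toInput.setup x w :=
  Fermat.Agent.BR3.SDD.ModularSepFinal.sep_comp_final B hB hqM hζ h2 h3 compF compF_surj pMidF
    pMidF_inj tubeKFn tubeWF (smTubeM B hB hqM hζ midTubeF (TZM B hB hqM h2 h3)) coverF disjointF
    (smInfM B hB hqM hζ (CZM B hB hqM h2 h3) midTubeF (TZM B hB hqM h2 h3))
    (smZeroM B hB hqM hζ (CZM B hB hqM h2 h3) midTubeF (TZM B hB hqM h2 h3))
    (smMidFin B hB hqM hζ h2 h3) (smZeF B hB hqM hζ h2 h3 midTubeF) chTF chKFn chWF
    (isIntegral_alpha2 M q) (Fermat.Agent.BR2.LevelGen.isIntegral_fb (beta2 M q))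
    (fun e s => Fermat.Agent.BR3.SDD.ModularNodeKFinal.tube_a_nkF B hB hqM h2 h3
      (isIntegral_alpha2 M q) e s)
    (fun e => tube_a_nWM B hB hqM h2 h3 (isIntegral_alpha2 M q) (Fermat.Agent.BR2.LevelGen.isIntegral_fb (beta2 M q)) e)
    (fun e s => Fermat.Agent.BR3.SDD.ModularNodeKFinal.tube_b_nkF B hB hqM h2 h3
      (isIntegral_alpha2 M q) (Fermat.Agent.BR2.LevelGen.isIntegral_fb (beta2 M q)) e s)
    (ThetaM B hB hqM h2 h3) (cM B hB hqM h2 h3) (cM_injective B hB hqM h2 h3)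
    (fun e i => ThetaM_mem_mid B hB hqM h2 h3 hζ e i) (fun e => ThetaM_mem_ze B hB hqM h2 h3 hζ e)
    (hpoleF B hB hqM h2 h3) (fun e s => isValueAt_ThetaM B hB hqM h2 h3 hζ e s) hsurjF

/-- **`sep`** at THE family -/
theorem sepF :
    ∀ x x', x ≠ x' → Separated (XRF).toInput.setup x x' :=
  Fermat.Agent.BR3.SDD.ModularSepFinal.sep_final B hB hqM hζ h2 h3 compF compF_surj pMidF
    pMidF_inj tubeKFn tubeWF (smTubeM B hB hqM hζ midTubeF (TZM B hB hqM h2 h3)) coverF disjointF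
    (smInfM B hB hqM hζ (CZM B hB hqM h2 h3) midTubeF (TZM B hB hqM h2 h3))
    (smZeroM B hB hqM hζ (CZM B hB hqM h2 h3) midTubeF (TZM B hB hqM h2 h3))
    (smMidFin B hB hqM hζ h2 h3) (smZeF B hB hqM hζ h2 h3 midTubeF) chTF chKFn chWF
    (isIntegral_alpha2 M q) (Fermat.Agent.BR2.LevelGen.isIntegral_fb (beta2 M q))
    (fun e s => Fermat.Agent.BR3.SDD.ModularNodeKFinal.tube_a_nkF B hB hqM h2 h3
      (isIntegral_alpha2 M q) e s)
    (fun e => tube_a_nWM B hB hqM h2 h3 (isIntegral_alpha2 M q) (Fermat.Agent.BR2.LevelGen.isIntegral_fb (beta2 M q)) e)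
    (fun e s => Fermat.Agent.BR3.SDD.ModularNodeKFinal.tube_b_nkF B hB hqM h2 h3
      (isIntegral_alpha2 M q) (Fermat.Agent.BR2.LevelGen.isIntegral_fb (beta2 M q)) e s)
    (ThetaM B hB hqM h2 h3) (cM B hB hqM h2 h3) (cM_injective B hB hqM h2 h3)
    (fun e i => ThetaM_mem_mid B hB hqM h2 h3 hζ e i) (fun e => ThetaM_mem_ze B hB hqM h2 h3 hζ e)
    (hpoleF B hB hqM h2 h3) (fun e s => isValueAt_ThetaM B hB hqM h2 h3 hζ e s) hsurjF

end SepF

/-! ### (G4) at THE family -/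

/-- **`hrest`** at THE family -/
theorem hrestF :
    ∀ s ∈ B.inertiaSubgroupIn ℚ, s (unifSDD q) = unifSDD q →
      (∀ a ∈ cycloField Qb q, s a = a) → (∀ ζ' : Qb, ζ' ^ q = 1 → s ζ' = ζ') →
      (∀ e, ActsTrivially ((CZM B hB hqM h2 h3) e).O (galAut (M * q * q) s)) ∧
      (∀ x, ∀ P ∈ (nodeTubeM B hB hqM tubeTF tubeKFn tubeWF) x,
        galAut (M * q * q) s • P ∈ (nodeTubeM B hB hqM tubeTF tubeKFn tubeWF) x) ∧
      (∀ y, ∀ P ∈ (smTubeM B hB hqM hζ midTubeF (TZM B hB hqM h2 h3)) y,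
        galAut (M * q * q) s • P ∈ (smTubeM B hB hqM hζ midTubeF (TZM B hB hqM h2 h3)) y) ∧
      (∀ e, galAut (M * q * q) s • ((LTF) e).u = ((LTF) e).u) ∧
      (∀ e t, galAut (M * q * q) s • ((LKFn) e t).u = ((LKFn) e t).u) ∧
      ∀ e, galAut (M * q * q) s • ((LWF) e).u = ((LWF) e).u :=
  Fermat.Agent.BR3.EquivRestM.hrestM B hB hqM hζ midTubeF (TZM B hB hqM h2 h3) tubeTF tubeKFn
    tubeWF (CZM B hB hqM h2 h3) LTF LKFn LWF
    (fun s hs h1 _ _ e => Fermat.Agent.BR3.SDD.ModularVert.actsTrivially_CZM B hB hqM h2 h3 (XRF)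
      (fun _ => rfl) hs h1 e)
    (Fermat.Agent.BR3.EquivTubesMNodes.hnTM B hB hqM h2 h3)
    (fun s hs h1 _ _ e t =>
      Fermat.Agent.BR3.SDD.ModularNodeKFinal.smul_mem_tubeKF_rich B hB hqM h2 h3 hs h1 e t)
    (Fermat.Agent.BR3.EquivTubesMNodes.hnWM B hB hqM h2 h3)
    (fun s hs _ _ h3' i Q =>
      Fermat.Agent.BR3.SDD.ModularTubesMidFinal.hsmMid_richF_all B hB hqM hζ h2 h3
        (TZM B hB hqM h2 h3) hs h3' i Q)
    (fun s hs h1 _ _ e Q =>
      Fermat.Agent.BR3.EquivTubesVertMod.smul_mem_zeTubeM_rich B hB hqM h2 h3 hs h1 e Q)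
    (Fermat.Agent.BR3.EquivTubesMNodes.huTM B hB hqM h2 h3)
    (fun s hs h1 hc hr e t =>
      Fermat.Agent.BR3.SDD.ModularNodeKFinal.smul_LKF_u B hB hqM h2 h3 hζ hcopF hexF hvalF hs h1
        hc hr e t)
    (Fermat.Agent.BR3.EquivTubesMNodes.huWM B hB hqM h2 h3 HWF)

end Fermat.Agent.BR3.SDD.ModularFinal
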