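import Fermat.Agent.BR3.SDD.ModularCompM
import Fermat.Agent.BR3.SDD.ModularCompFinal
import Fermat.Agent.BR3.SDD.ModularG7
import Fermat.Agent.BR3.SDD.ModularZePts
import Fermat.Agent.BR3.KummerNodeFam

/-!
# Program C (S36), node (FINAL), slice `comp`: THE map `comp` and THE Kummer places of the final call

Closed terms (no hypothesis besides the frame `B hB hqM h2 h3 hζ`) for the binders
`comp comp_surj pMid pMid_injective hsurj` of `ModularFinal.modelAt_final_Z`
(= `ModularRawW.modelAt_of_raw_thick`), and for the binder `hcomp` of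
`ModularTameFinal.ht_of_family`:

* `hexF` := `ModularCompFinal.hex_modular … (hcopM …)` (I1);
* `hvalF` := `ModularCompM.hvalM … hexF`;
* **`compF`** `:= ModularCompM.compM … (hcopM …) hexF` `= KummerCompUnif.compU hexF hvalF` (`rfl`);
* **`pMidF`** `:= pMidM B hB hqM hζ compF (hcopM …) (FZM …)`;
* `compF_surj` (`comp_surj`), `compF_hall` (`hsurj`), `pMidF_injective` (`pMid_injective`),
  `compF_injective`, `valAt_compF`;
* `hcompF` : `compF e (rev q s) = P (compF e s)` for a tame generator `σ0`.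
-/

set_option autoImplicit false
set_option linter.style.haveILetI false
set_option linter.unusedSectionVars false
set_option linter.unusedVariables false
set_option synthInstance.maxHeartbeats 400000
set_option maxHeartbeats 1600000

open ModularCurve AlgebraicCurve

noncomputable section

namespace Fermat.Agent.BR3.SDD.ModularFinalComp

open IsLocalRing Fermat.Agent.X0 Fermat.Agent.Red Fermat.Agent.Val Fermat.Agent.Jac
  Fermat.Agent.BR.SS Fermat.Agent.BR.S0 Fermat.Agent.BR.S0.RedModular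
  Fermat.Agent.BR.S0.PointDict Fermat.Agent.BR2.SetupOfData
  Fermat.Agent.BR3.FibreProd Fermat.Agent.BR3.SDD Fermat.Agent.BR3.SDD.Modular
  Fermat.Agent.BR3.KummerGenus Fermat.Agent.BR3.KummerGenus.MidInst Fermat.Agent.BR3.IgSq
  Fermat.Agent.BR3.SepNComp Fermat.Agent.BR3.SepNCompRel Fermat.Agent.BR3.KummerCompMod
  Fermat.Agent.BR3.KummerCompUnif Fermat.Agent.BR3.KummerCompGlue Fermat.Agent.BR3.VertPtsU
  Fermat.Agent.BR3.KummerNodeInputs Fermat.Agent.BR3.ThickSDDPlug
  Fermat.Agent.BR3.SDD.ModularComp Fermat.Agent.BR3.SDD.ModularCompM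
  Fermat.Agent.BR3.SDD.ModularCompFinal

variable {M q : ℕ} [NeZero M] [hq : Fact q.Prime] [NeZero q]
variable (B : ValuationSubring Kb) (hB : B.LiesOverPrime q) (hqM : ¬ q ∣ M)
  [IsAlgClosed (ResidueField B)] [CharP (ResidueField B) q]
  (h2 : nuTwo M = 0) (h3 : nuThree M = 0)
  {ζ : Kbˣ} (hζ : IsPrimitiveRoot ζ q)

/-- (shortcut instances) -/
local instance (priority := 100000) instAlgKFtFC :
    Algebra (ResidueField B) (modularFunctionFieldFullC (IsLocalRing.ResidueField B) M) :=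
  inferInstance
local instance (priority := 100000) instAlgKFMidFC : Algebra (ResidueField B) (FMid M B) :=
  inferInstance
local instance (priority := 100000) instAlgFtFMidFC :
    Algebra (modularFunctionFieldFullC (IsLocalRing.ResidueField B) M) (FMid M B) :=
  inferInstance
local instance (priority := 100000) instTowerMidFC :
    IsScalarTower (ResidueField B) (modularFunctionFieldFullC (IsLocalRing.ResidueField B) M)
      (FMid M B) :=
  inferInstance

/-- **(I1) at the frame of the final call** (`hcop := hcopM`) -/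
theorem hexF : q ≠ 2 → ∀ e j, ∃ s, ValAt (CM B hB hqM hζ)
    (MidFamily.pMid B hB hqM (z₁ (chartDataModular B hB hqM)) (hcopM B hB hqM h2 h3))
    (kumTheta B hB hqM h2 h3)
    (fun e s => residue B (kumC0 B hB hqM h2 h3 e s)) e j s :=
  hex_modular B hB hqM h2 h3 hζ (hcopM B hB hqM h2 h3)

/-- the input `hval` of `compU` at the frame of the final call -/
theorem hvalF (hq2 : q ≠ 2) (e : SSpM B hB hqM) :
    Function.Bijective (val (hexF B hB hqM h2 h3 hζ hq2) e) :=
  hvalM B hB hqM h2 h3 hζ (hcopM B hB hqM h2 h3) (hexF B hB hqM h2 h3 hζ) hq2 e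

/-- **THE map `comp` of the final call** -/
def compF : SSpM B hB hqM → KPq q → MidM B hB hqM hζ :=
  haveI : Nonempty (MidM B hB hqM hζ) := Fermat.Agent.BR3.KummerNodeFam.nonempty_MidM B hB hqM hζ
  compM B hB hqM h2 h3 hζ (hcopM B hB hqM h2 h3) (hexF B hB hqM h2 h3 hζ)

/-- `compF` is `compU` at `hexF`, `hvalF` (the frame of `BR3/KummerNodeFam`) -/
theorem compF_eq_compU :
    compF B hB hqM h2 h3 hζ =
      (haveI : Nonempty (MidM B hB hqM hζ) :=
        Fermat.Agent.BR3.KummerNodeFam.nonempty_MidM B hB hqM hζ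
      compU (hexF B hB hqM h2 h3 hζ) (hvalF B hB hqM h2 h3 hζ)) :=
  rfl

/-- **`hsurj`** of the final call -/
theorem compF_hall (e : SSpM B hB hqM) (i : MidM B hB hqM hζ) :
    ∃ s, compF B hB hqM h2 h3 hζ e s = i :=
  haveI : Nonempty (MidM B hB hqM hζ) := Fermat.Agent.BR3.KummerNodeFam.nonempty_MidM B hB hqM hζ
  compM_hall B hB hqM h2 h3 hζ (hcopM B hB hqM h2 h3) (hexF B hB hqM h2 h3 hζ) e i

/-- **`comp_surj`** of the final call -/
theorem compF_surj (i : MidM B hB hqM hζ) : ∃ e s, compF B hB hqM h2 h3 hζ e s = i :=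
  haveI : Nonempty (MidM B hB hqM hζ) := Fermat.Agent.BR3.KummerNodeFam.nonempty_MidM B hB hqM hζ
  compM_surj B hB hqM h2 h3 hζ (hcopM B hB hqM h2 h3) (hexF B hB hqM h2 h3 hζ) i

theorem compF_injective (e : SSpM B hB hqM) : Function.Injective (compF B hB hqM h2 h3 hζ e) :=
  haveI : Nonempty (MidM B hB hqM hζ) := Fermat.Agent.BR3.KummerNodeFam.nonempty_MidM B hB hqM hζ
  compM_injective B hB hqM h2 h3 hζ (hcopM B hB hqM h2 h3) (hexF B hB hqM h2 h3 hζ) e

/-- the Kummer relation on `compF e s` (`q` odd) -/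
theorem valAt_compF (hq2 : q ≠ 2) (e : SSpM B hB hqM) (s : KPq q) :
    ValAt (CM B hB hqM hζ)
      (MidFamily.pMid B hB hqM (z₁ (chartDataModular B hB hqM)) (hcopM B hB hqM h2 h3))
      (kumTheta B hB hqM h2 h3) (fun e s => residue B (kumC0 B hB hqM h2 h3 e s)) e
      (compF B hB hqM h2 h3 hζ e s) s :=
  haveI : Nonempty (MidM B hB hqM hζ) := Fermat.Agent.BR3.KummerNodeFam.nonempty_MidM B hB hqM hζ
  valAt_compM B hB hqM h2 h3 hζ (hcopM B hB hqM h2 h3) (hexF B hB hqM h2 h3 hζ) hq2 e s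

/-- **THE Kummer places `pMid` of the final call** -/
def pMidF (e : SSpM B hB hqM) (s : KPq q) :
    Place (ResidueField B)
      (FtAll B hB hqM hζ (FZM B hB hqM h2 h3) (mid (compF B hB hqM h2 h3 hζ e s))) :=
  pMidM B hB hqM hζ (compF B hB hqM h2 h3 hζ) (hcopM B hB hqM h2 h3) (FZM B hB hqM h2 h3) e s

/-- **`pMid_injective`** of the final call -/
theorem pMidF_injective (e : SSpM B hB hqM) (s : KPq q) (e' : SSpM B hB hqM) (s' : KPq q)
    (h : (⟨mid (compF B hB hqM h2 h3 hζ e s), pMidF B hB hqM h2 h3 hζ e s⟩ :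
        Σ v, Place (ResidueField B) (FtAll B hB hqM hζ (FZM B hB hqM h2 h3) v)) =
      ⟨mid (compF B hB hqM h2 h3 hζ e' s'), pMidF B hB hqM h2 h3 hζ e' s'⟩) :
    e = e' ∧ s = s' :=
  haveI : Nonempty (MidM B hB hqM hζ) := Fermat.Agent.BR3.KummerNodeFam.nonempty_MidM B hB hqM hζ
  pMidM_injective B hB hqM h2 h3 hζ (hcopM B hB hqM h2 h3) (hexF B hB hqM h2 h3 hζ)
    (FZM B hB hqM h2 h3) e s e' s' h

/-- **The binder `hcomp` of `ModularTameFinal.ht_of_family`** at `comp := compF`, for a tame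
generator `σ` (`GeoSigma.exists_tame_generator`). -/
theorem hcompF {σ : GQ} (hσ : σ ∈ B.inertiaSubgroupIn ℚ) {ζ₀ : Kb}
    (hσϖ : σ (unifSDD q) = ζ₀ * unifSDD q) (hζ₀ : IsPrimitiveRoot ζ₀ ((q - 1) * (q + 1)))
    (P : Equiv.Perm (MidM B hB hqM hζ))
    (hP : ∀ (i : MidM B hB hqM hζ) (y : Fb (M * q * q)),
      galAut (M * q * q) σ • y ∈ (P i).ring B hB hqM hζ ↔ y ∈ i.ring B hB hqM hζ)
    (e : SSpM B hB hqM) (s : KPq q) :
    compF B hB hqM h2 h3 hζ e (rev q s) = P (compF B hB hqM h2 h3 hζ e s) :=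
  haveI : Nonempty (MidM B hB hqM hζ) := Fermat.Agent.BR3.KummerNodeFam.nonempty_MidM B hB hqM hζ
  hcompM B hB hqM h2 h3 hζ (hcopM B hB hqM h2 h3) (hexF B hB hqM h2 h3 hζ) hσ hσϖ hζ₀ P hP e s

end Fermat.Agent.BR3.SDD.ModularFinalComp
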