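import Fermat.Agent.BR3.SDD.ModularFinalCall
import Fermat.Agent.BR3.SDD.ModularTameFinalM
import Fermat.Agent.BR3.SDD.ModularSmADone
import Fermat.Agent.BR3.SDD.ModularSmBeta
import Fermat.Agent.BR3.SDD.ModularNodeTame

/-!
# Program C (S36), node (FINAL): `modelAt_final`

The last binder `ht` (G6) of `modelAt_final_core` (`BR3/SDD/ModularFinalCall.lean`) at THE family:
`ModularTameFinalM.ht_modular_vert` for the tame generator of `GeoSigma.exists_tame_generator`, with
`hsmA := hsmA_doneM`, `hsmB := hsmB_of_hsmA`, `hcomp := hcompM`, `hnT := hnT_inertia`,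
`hnK := smul_mem_tubeKF_tame`, `hnW := smul_mem_tubeWM`; then

  `modelAt_final : S36Plug.ModelAt M q lam B`

hypothesis-free (`M` without elliptic points, `q ∤ M`, `lam ≠ q` primes).
-/

set_option autoImplicit false
set_option linter.style.haveILetI false
set_option linter.unusedSectionVars false
set_option linter.unusedVariables false
set_option linter.style.longLine false
set_option synthInstance.maxHeartbeats 400000
set_option maxHeartbeats 4000000
set_option backward.isDefEq.respectTransparency.types true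

open ModularCurve AlgebraicCurve

noncomputable section

/- S36 build-time patch: file-local shortcut instances. They only shorten instance search;
each is the instance that the search finds anyway (reducible, same terms after unfolding). -/
local instance (priority := 100000) Fermat.Agent.BR3.FastInst.instAlgFullC_SDD_ModularFinalDone
    {k : Type*} [Field k] (N : ℕ) :
    Algebra k ↥(ModularCurve.modularFunctionFieldFullC k N) := inferInstance
local instance (priority := 100000) Fermat.Agent.BR3.FastInst.instFieldFullC_SDD_ModularFinalDone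
    {k : Type*} [Field k] (N : ℕ) :
    Field ↥(ModularCurve.modularFunctionFieldFullC k N) := inferInstance
local instance (priority := 100000) Fermat.Agent.BR3.FastInst.instAlgLaurent_SDD_ModularFinalDone
    {k : Type*} [Field k] : Algebra k (LaurentSeries k) := inferInstance


namespace Fermat.Agent.BR3.SDD.ModularFinal

open IsLocalRing Fermat.Agent.Jac Fermat.Agent.X0 Fermat.Agent.Red Fermat.Agent.Val
  Fermat.Agent.BR.SS Fermat.Agent.BR Fermat.Agent.BR.InertiaRed Fermat.Agent.BR.UnramCyclo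
  Fermat.Agent.BR3.EquivInert Fermat.Agent.BR3.TorGlue Fermat.Agent.BR2.Filt
  Fermat.Agent.BR3.FiltMaps Fermat.Agent.BR3.FiltPerm
  Fermat.Agent.BR.S0 Fermat.Agent.BR.S0.PointDict Fermat.Agent.BR.S0.RedModular
  Fermat.Agent.BR3.FibreProd Fermat.Agent.BR.TwoVal Fermat.Agent.BR.Refine
  Fermat.Agent.BR.Circle Fermat.Agent.BR3.CircleN Fermat.Agent.BR3.SplitBranch
  Fermat.Agent.BR3.ThickSDDPlug Fermat.Agent.BR3.SDD.Partition Fermat.Agent.BR3.SRef.Modular
  Fermat.Agent.BR2.SetupOfData Fermat.Agent.BR3.SDD.Modular Fermat.Agent.BR3.SDD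
  Fermat.Agent.BR3.VertPtsU Fermat.Agent.BR3.IgSq Fermat.Agent.BR3.VertBetaFr
  Fermat.Agent.BR3.KummerGenus Fermat.Agent.BR3.KummerGenus.MidInst
  Fermat.Agent.BR3.SDD.ModularTubesMid

local notation "Qb" => AlgebraicClosure ℚ

variable {M q : ℕ} [NeZero M] [hq : Fact q.Prime] [NeZero q]
variable (B : ValuationSubring (AlgebraicClosure ℚ)) (hB : B.LiesOverPrime q) (hqM : ¬ q ∣ M)
variable [IsAlgClosed (ResidueField B)] [CharP (ResidueField B) q]
variable {ζ : Kbˣ} (hζ : IsPrimitiveRoot ζ q)

local notation "kB" => IsLocalRing.ResidueField B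
local notation "FtM" => modularFunctionFieldFullC (IsLocalRing.ResidueField B) M

/-- (shortcut instances) -/
local instance (priority := 100000) instAlgebraFtMShortcutFD :
    Algebra (IsLocalRing.ResidueField B)
      (modularFunctionFieldFullC (IsLocalRing.ResidueField B) M) :=
  inferInstance
local instance (priority := 100000) instAlgKFMidFD :
    Algebra (IsLocalRing.ResidueField B) (FMid M B) := inferInstance
local instance (priority := 100000) instAlgFtFMidFD :
    Algebra (modularFunctionFieldFullC (IsLocalRing.ResidueField B) M) (FMid M B) := inferInstance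
local instance (priority := 100000) instTowerMidFD :
    IsScalarTower (IsLocalRing.ResidueField B)
      (modularFunctionFieldFullC (IsLocalRing.ResidueField B) M) (FMid M B) :=
  inferInstance
local instance (priority := 100000) instFieldFtAllFD {FZ : SSpM B hB hqM → Type}
    [∀ e, Field (FZ e)] (v : Comp (MidM B hB hqM hζ) (SSpM B hB hqM)) :
    Field (FtAll B hB hqM hζ FZ v) := instFieldFtOf v
local instance (priority := 100000) instAlgFtAllFD {FZ : SSpM B hB hqM → Type}
    [∀ e, Field (FZ e)] [∀ e, Algebra (IsLocalRing.ResidueField B) (FZ e)]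
    (v : Comp (MidM B hB hqM hζ) (SSpM B hB hqM)) :
    Algebra (IsLocalRing.ResidueField B) (FtAll B hB hqM hζ FZ v) := instAlgebraFtOf v
/-- there is a middle component -/
local instance (priority := 100000) instNonemptyMidFD : Nonempty (MidM B hB hqM hζ) :=
  Fermat.Agent.BR3.KummerNodeFam.nonempty_MidM B hB hqM hζ

variable (h2 : nuTwo M = 0) (h3 : nuThree M = 0)

/-! ### the names of the final call -/

/-- `hcop` -/
local notation "hcopF" => Fermat.Agent.BR3.SDD.ModularNodeK.hcopM B hB hqM h2 h3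
/-- `hex` -/
local notation "hexF" =>
  Fermat.Agent.BR3.SDD.ModularCompFinal.hex_modular B hB hqM h2 h3 hζ hcopF
/-- `hval` -/
local notation "hvalF" => Fermat.Agent.BR3.SDD.ModularCompM.hvalM B hB hqM h2 h3 hζ hcopF hexF
/-- THE `comp` -/
local notation "compF" => Fermat.Agent.BR3.SDD.ModularCompM.compM B hB hqM h2 h3 hζ hcopF hexF
/-- `hsurj` -/
local notation "hsurjF" =>
  Fermat.Agent.BR3.SDD.ModularCompM.compM_hall B hB hqM h2 h3 hζ hcopF hexF
/-- `comp_surj` -/
local notation "compF_surj" =>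
  Fermat.Agent.BR3.SDD.ModularCompM.compM_surj B hB hqM h2 h3 hζ hcopF hexF
/-- THE `pMid` -/
local notation "pMidF" => pMidM B hB hqM hζ compF hcopF (FZM B hB hqM h2 h3)
/-- `pMid_injective` -/
local notation "pMidF_inj" =>
  Fermat.Agent.BR3.SDD.ModularCompM.pMidM_injective B hB hqM h2 h3 hζ hcopF hexF
    (FZM B hB hqM h2 h3)
/-- the raw tubes of the nodes -/
local notation "kumT" => Fermat.Agent.BR3.KummerNodeInputs.kumTube B hB hqM h2 h3
local notation "tubeTF" => tubeTM B hB hqM h2 h3
local notation "tubeKFn" => Fermat.Agent.BR3.SDD.ModularNodeK.tubeKM B hB hqM h2 h3 kumT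
local notation "tubeWF" => tubeWM B hB hqM h2 h3
/-- the atlas and the raw tubes of the middle components -/
local notation "HF" => Fermat.Agent.BR2.SetupOfData.atlas (DtM B hB hqM)
local notation "midTubeF" => midTubeM B hB hqM hζ HF
/-- the split sheets of the wild nodes -/
local notation "HWF" => hWM_closed B hB hqM h2 h3

/-- `cover` -/
local notation "coverF" => And.left (partF B hB hqM hζ h2 h3)
/-- `disjoint` -/
local notation "disjointF" => And.right (partF B hB hqM hζ h2 h3)

/-- the levels and the charts of the nodes -/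
local notation "chTF" => fun e => chTM B hB hqM h2 h3 e hζ
local notation "chKFn" => fun e s =>
  Fermat.Agent.BR3.SDD.ModularNodeKFinal.chKF B hB hqM h2 h3 hζ hcopF hexF hvalF e s
local notation "chWF" => fun e => chWM B hB hqM h2 h3 hζ HWF e

/-- **THE `XRaw`** of the final call -/
local notation "XRF" =>
  XRaw B hB hqM hζ h2 h3 (CZM B hB hqM h2 h3) (hZcM B hB hqM h2 h3) compF compF_surj pMidF
    (zTM B hB hqM h2 h3) (zKM B hB hqM h2 h3) (zWM B hB hqM h2 h3) pMidF_inj
    (zKM_injective B hB hqM h2 h3) (zTM_ne_zKM B hB hqM h2 h3) (zWM_ne_zTM B hB hqM h2 h3)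
    (zWM_ne_zKM B hB hqM h2 h3) (nodeTubeM B hB hqM tubeTF tubeKFn tubeWF)
    (smTubeM B hB hqM hζ midTubeF (TZM B hB hqM h2 h3)) coverF disjointF
    (smInfM B hB hqM hζ (CZM B hB hqM h2 h3) midTubeF (TZM B hB hqM h2 h3))
    (smZeroM B hB hqM hζ (CZM B hB hqM h2 h3) midTubeF (TZM B hB hqM h2 h3))
    (smMidFin B hB hqM hζ h2 h3)
    (smZeF B hB hqM hζ h2 h3 midTubeF) chTF chKFn chWF

/-- the levels of the nodes -/
local notation "LTF" => fun e => LTM B hB hqM h2 h3 e
local notation "LKFn" => fun e s =>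
  Fermat.Agent.BR3.SDD.ModularNodeKFinal.LKF B hB hqM h2 h3 hζ hcopF hexF hvalF e s
local notation "LWF" => fun e => LWM B hB hqM h2 h3 HWF e


/-! ### (G6) at THE family -/

/-- **`ht`** at THE family -/
theorem htF [Fintype (SSpM B hB hqM)] {lam : ℕ} (hlam0 : lam ≠ 0) :
    S36Plug.TameProp M q lam B (XRF).toInput := by
  obtain ⟨σ0, hσ0, ζ₀, hζ₀, hσϖ, -, -, hσϖ', -, hprim, -⟩ :=
    Fermat.Agent.BR3.GeoSigma.exists_tame_generator (B := B) hq.out hB
      (unifSDD_pow hq.out.one_lt)
  have hsmA := Fermat.Agent.BR3.SDD.ModularSmADone.hsmA_doneM B hB hqM hζ h2 h3 (XRF)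
    (smTubeM B hB hqM hζ midTubeF (TZM B hB hqM h2 h3)) hcopF hexF hvalF rfl rfl rfl rfl rfl rfl
    rfl rfl
  exact Fermat.Agent.BR3.SDD.ModularTameFinalM.ht_modular_vert B hB hqM hζ hlam0 (X := XRF) rfl
    HF rfl hcopF (fun _ _ => rfl) hsurjF hsmA
    (Fermat.Agent.BR3.SDD.ModularSmBeta.hsmB_of_hsmA B hB hqM h2 h3
      (Fermat.Agent.Hecke.heckeAlphaBarIntegral (M * q) q)
      (Fermat.Agent.BR2.LevelGen.isIntegral_fb (beta2 M q))
      (fun P => (XRF).toInput.setup.IsSmoothPlace P) hsmA)
    σ0 hσ0 hσϖ' hprim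
    (fun P hP e s => Fermat.Agent.BR3.SDD.ModularCompM.hcompM B hB hqM h2 h3 hζ hcopF hexF hσ0
      hσϖ hζ₀ P hP e s)
    (fun e Pl hPl => Fermat.Agent.BR3.SDD.ModularNodeTame.hnT_inertia B hB hqM h2 h3 hσ0 e Pl hPl)
    (fun e s Pl hPl => Fermat.Agent.BR3.SDD.ModularNodeKFinal.smul_mem_tubeKF_tame B hB hqM h2 h3
      hσ0 hζ₀ hσϖ e s Pl hPl)
    (fun e Pl hPl => Fermat.Agent.BR3.EquivTubesMNodes.smul_mem_tubeWM B hB hqM h2 h3 hσ0 e hPl)

include hB hqM hζ h2 h3 in
/-- **THE final call**: the stable model of `X₀(M q²)` at `B`, in the frame of the final assembly. -/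
theorem modelAt_final_frame (lam : ℕ) (hlam : lam.Prime) (hqlam : q ≠ lam) :
    S36Plug.ModelAt M q lam B := by
  letI : Fintype (SSpM B hB hqM) := Fermat.Agent.BR2.SetupOfData.fintypeCrossing (DtM B hB hqM)
  exact modelAt_final_core B hB hqM hζ h2 h3 (sep_compF B hB hqM hζ h2 h3) (sepF B hB hqM hζ h2 h3)
    lam hlam hqlam (hrestF B hB hqM hζ h2 h3) (htF B hB hqM hζ h2 h3 hlam.ne_zero)

end Fermat.Agent.BR3.SDD.ModularFinal

namespace Fermat.Agent.BR3.SDD.ModularFinal

open IsLocalRing Fermat.Agent.X0 Fermat.Agent.BR.SS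

/-- **`S36Plug.ModelAt M q lam B`, hypothesis-free** (`M` without elliptic points, `q ∤ M`,
`lam ≠ q` primes): the input of `Modular.modelProvider_of_modelAt_frame`. -/
theorem modelAt_final (M q lam : ℕ) [NeZero M] [Fact q.Prime] [NeZero q] (hqM : ¬ q ∣ M)
    (hlam : lam.Prime) (hqlam : q ≠ lam) (h2 : nuTwo M = 0) (h3 : nuThree M = 0)
    (B : ValuationSubring (AlgebraicClosure ℚ)) (hB : B.LiesOverPrime q)
    [IsAlgClosed (ResidueField B)] [CharP (ResidueField B) q] (ζ : Kbˣ)
    (hζ : IsPrimitiveRoot ζ q) : S36Plug.ModelAt M q lam B :=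
  modelAt_final_frame B hB hqM hζ h2 h3 lam hlam hqlam

end Fermat.Agent.BR3.SDD.ModularFinal
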