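import Fermat.Agent.BR3.SDD.ModularRaw

/-!
# Program C (S36), node I7 (integrator), part 16: the raw tubes of `S''` BY KINDS

The owners of the pieces of `S''` deliver their tubes kind by kind (`nT e`, `nk e s`, `nW e` for the
nodes; `cInf`, `cZero`, `mid i`, `ze e` for the smooth points).  The two constructors below assemble
them into the arguments `nodeTube`, `smTube` of `SDD.Modular.XRaw` / `modelAt_of_raw`; every
evaluation is `rfl`.

* `nodeTubeK tT tK tW : Node SSp KP → Set P`;
* `smTubeK tInf tZero tMid tZe : (Σ v, Place kB (FtAll … v)) → Set P`;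
* `forall_nodeTubeK`, `forall_smTubeK` : a statement on all raw tubes, kind by kind.
-/

set_option autoImplicit false
set_option linter.style.haveILetI false
set_option linter.unusedSectionVars false
set_option linter.unusedVariables false
set_option synthInstance.maxHeartbeats 400000

open ModularCurve AlgebraicCurve

noncomputable section

namespace Fermat.Agent.BR3.SDD.Modular

open IsLocalRing Fermat.Agent.X0 Fermat.Agent.Red Fermat.Agent.Val Fermat.Agent.BR.SS
  Fermat.Agent.BR Fermat.Agent.BR3.FibreProd Fermat.Agent.BR.S0 Fermat.Agent.BR.S0.PointDict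
  Fermat.Agent.BR.S0.RedModular

section Node

variable {SSp KP : Type} {P : Type*}

/-- **The raw node tubes, by kinds.** -/
def nodeTubeK (tT : SSp → Set P) (tK : SSp → KP → Set P) (tW : SSp → Set P) :
    Node SSp KP → Set P
  | (e, Sum.inl false) => tT e
  | (e, Sum.inr s) => tK e s
  | (e, Sum.inl true) => tW e

variable (tT : SSp → Set P) (tK : SSp → KP → Set P) (tW : SSp → Set P)

@[simp] theorem nodeTubeK_nT (e : SSp) : nodeTubeK tT tK tW (nT e) = tT e := rfl

@[simp] theorem nodeTubeK_nk (e : SSp) (s : KP) : nodeTubeK tT tK tW (nk e s) = tK e s := rfl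

@[simp] theorem nodeTubeK_nW (e : SSp) : nodeTubeK tT tK tW (nW e) = tW e := rfl

/-- a statement on all the raw node tubes, kind by kind -/
theorem forall_nodeTubeK {p : Node SSp KP → Set P → Prop} (hT : ∀ e, p (nT e) (tT e))
    (hK : ∀ e s, p (nk e s) (tK e s)) (hW : ∀ e, p (nW e) (tW e)) :
    ∀ x, p x (nodeTubeK tT tK tW x)
  | (e, Sum.inl false) => hT e
  | (e, Sum.inr s) => hK e s
  | (e, Sum.inl true) => hW e

end Node

variable {M q : ℕ} [NeZero M] [hq : Fact q.Prime] [NeZero q]
variable (B : ValuationSubring (AlgebraicClosure ℚ)) (hB : B.LiesOverPrime q) (hqM : ¬ q ∣ M)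
variable [IsAlgClosed (ResidueField B)]
variable {ζ : Kbˣ} (hζ : IsPrimitiveRoot ζ q)

local notation "kB" => IsLocalRing.ResidueField B
local notation "FtM" => modularFunctionFieldFullC (IsLocalRing.ResidueField B) M

/-- (shortcut instance) -/
local instance (priority := 100000) instAlgebraFtMShortcutK :
    Algebra (IsLocalRing.ResidueField B)
      (modularFunctionFieldFullC (IsLocalRing.ResidueField B) M) :=
  inferInstance

/-- (shortcut instance: the search through the tower takes seconds) -/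
local instance (priority := 100000) instAlgebraFMidShortcutK :
    Algebra (IsLocalRing.ResidueField B) (FMid M B) :=
  inferInstance

variable {FZ : SSpM B hB hqM → Type} [∀ e, Field (FZ e)] [∀ e, Algebra (ResidueField B) (FZ e)]
  {P : Type*}

/-- (shortcut instance) -/
local instance (priority := 100000) instFieldFtAllShortcutK :
    ∀ v, Field (FtAll B hB hqM hζ FZ v) :=
  inferInstance

/-- (shortcut instance) -/
local instance (priority := 100000) instAlgebraFtAllShortcutK :
    ∀ v, Algebra (IsLocalRing.ResidueField B) (FtAll B hB hqM hζ FZ v) :=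
  inferInstance

/-- **The raw smooth tubes, by kinds.** -/
def smTubeK (tInf tZero : Place kB FtM → Set P)
    (tMid : MidM B hB hqM hζ → Place kB (FMid M B) → Set P)
    (tZe : ∀ e : SSpM B hB hqM, Place kB (FZ e) → Set P) :
    (Σ v, Place kB (FtAll B hB hqM hζ FZ v)) → Set P
  | ⟨Sum.inl (Sum.inl false), Q⟩ => tInf Q
  | ⟨Sum.inl (Sum.inl true), Q⟩ => tZero Q
  | ⟨Sum.inl (Sum.inr i), Q⟩ => tMid i Q
  | ⟨Sum.inr e, Q⟩ => tZe e Q

variable
  (tInf tZero : Place (IsLocalRing.ResidueField B)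
    (modularFunctionFieldFullC (IsLocalRing.ResidueField B) M) → Set P)
  (tMid : MidM B hB hqM hζ → Place (IsLocalRing.ResidueField B) (FMid M B) → Set P)
  (tZe : ∀ e : SSpM B hB hqM, Place (IsLocalRing.ResidueField B) (FZ e) → Set P)

@[simp] theorem smTubeK_cInf (Q : Place kB (FtAll B hB hqM hζ FZ cInf)) :
    smTubeK B hB hqM hζ tInf tZero tMid tZe ⟨cInf, Q⟩ = tInf Q := rfl

@[simp] theorem smTubeK_cZero (Q : Place kB (FtAll B hB hqM hζ FZ SDD.cZero)) :
    smTubeK B hB hqM hζ tInf tZero tMid tZe ⟨SDD.cZero, Q⟩ = tZero Q := rfl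

@[simp] theorem smTubeK_mid (i : MidM B hB hqM hζ)
    (Q : Place kB (FtAll B hB hqM hζ FZ (mid i))) :
    smTubeK B hB hqM hζ tInf tZero tMid tZe ⟨mid i, Q⟩ = tMid i Q := rfl

@[simp] theorem smTubeK_ze (e : SSpM B hB hqM) (Q : Place kB (FtAll B hB hqM hζ FZ (ze e))) :
    smTubeK B hB hqM hζ tInf tZero tMid tZe ⟨ze e, Q⟩ = tZe e Q := rfl

/-- a statement on all the raw smooth tubes, kind by kind -/
theorem forall_smTubeK {p : (Σ v, Place kB (FtAll B hB hqM hζ FZ v)) → Set P → Prop}
    (hInf : ∀ Q : Place kB FtM, p ⟨cInf, Q⟩ (tInf Q))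
    (hZero : ∀ Q : Place kB FtM, p ⟨SDD.cZero, Q⟩ (tZero Q))
    (hMid : ∀ i (Q : Place kB (FMid M B)), p ⟨mid i, Q⟩ (tMid i Q))
    (hZe : ∀ e (Q : Place kB (FZ e)), p ⟨ze e, Q⟩ (tZe e Q)) :
    ∀ y, p y (smTubeK B hB hqM hζ tInf tZero tMid tZe y)
  | ⟨Sum.inl (Sum.inl false), Q⟩ => hInf Q
  | ⟨Sum.inl (Sum.inl true), Q⟩ => hZero Q
  | ⟨Sum.inl (Sum.inr i), Q⟩ => hMid i Q
  | ⟨Sum.inr e, Q⟩ => hZe e Q

end Fermat.Agent.BR3.SDD.Modular
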