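import Mathlib
import Fermat.Agent.BR3.SDD.ModularNodeK
import Fermat.Agent.BR3.KummerNodeOutFam

/-!
# Program C (S36), node (N2-ODD), second engine, part 4: the named hypothesis
`ModularNodeK.NodeKOdd` discharged

helper15's merge `BR3/SDD/ModularNodeK.lean` leaves ONE named hypothesis at `q` odd:
`NodeKOdd B hB hqM hζ h2 h3 comp tubeKodd` (the Kummer nodes in `SplitNode.NodeOut` shape with the
clauses (G3) and (G4)).  With helper7's names (`kumTube`, …) and the bundle `nodeKum` of
`BR3/KummerNodeOutFam.lean`: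

* `nodeKOdd_kum` : `NodeKOdd … comp (kumTube …)` for ANY `comp`, from the residue fact `hθ₂`
  (`θ_e ≡ c₀ e s` at the Kummer place of the middle component `comp e s`);
* **`nodeKOdd_compU`** : `NodeKOdd … (compU hex hval) (kumTube …)`, hypothesis-free (the map `comp`
  of the final call).
-/

set_option autoImplicit false
set_option linter.unusedSectionVars false
set_option linter.style.haveILetI false
set_option synthInstance.maxHeartbeats 400000
set_option maxHeartbeats 1600000

noncomputable section

namespace Fermat.Agent.BR3.SDD.ModularNodeKOdd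

open ModularCurve AlgebraicCurve IsLocalRing Polynomial
open Fermat.Agent.Red Fermat.Agent.Val Fermat.Agent.X0 Fermat.Agent.Hecke Fermat.Agent.Jac
open Fermat.Agent.BR.SS Fermat.Agent.BR.S0 Fermat.Agent.BR.S0.PointDict
open Fermat.Agent.BR.S0.RedModular
open Fermat.Agent.BR3.SDD.Modular Fermat.Agent.BR3.SDD.ModularNodeK
open Fermat.Agent.BR3.FibreProd Fermat.Agent.BR3.VertPtsU Fermat.Agent.BR3.IgSq
open Fermat.Agent.BR3.KummerGenus Fermat.Agent.BR3.KummerGenus.MidInst
open Fermat.Agent.BR3.SepNComp Fermat.Agent.BR3.SepNCompRel Fermat.Agent.BR3.KummerCompMod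
open Fermat.Agent.BR3.KummerCompUnif Fermat.Agent.BR3.KummerCompGlue
open Fermat.Agent.BR3.KummerNodeInputs Fermat.Agent.BR3.KummerNodeFam
open Fermat.Agent.BR3.KummerNodeOutFam

local notation "Kb" => AlgebraicClosure ℚ

variable {M q : ℕ} [NeZero M] [hq : Fact q.Prime] [NeZero q]
variable (B : ValuationSubring (AlgebraicClosure ℚ)) (hB : B.LiesOverPrime q) (hqM : ¬ q ∣ M)
variable [IsAlgClosed (ResidueField B)] [CharP (ResidueField B) q]
  [PerfectField (ResidueField B)]
variable {ζ : Kbˣ} (hζ : IsPrimitiveRoot ζ q)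

local notation "kB" => IsLocalRing.ResidueField B
local notation "FtM" => modularFunctionFieldFullC (IsLocalRing.ResidueField B) M

/-- (shortcut instances) -/
local instance (priority := 100000) instAlgKFtNKO : Algebra kB FtM := inferInstance
local instance (priority := 100000) instAlgKFMidNKO : Algebra kB (FMid M B) := inferInstance
local instance (priority := 100000) instAlgFtFMidNKO : Algebra FtM (FMid M B) := inferInstance
local instance (priority := 100000) instTowerMidNKO : IsScalarTower kB FtM (FMid M B) :=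
  inferInstance

variable (h2 : nuTwo M = 0) (h3 : nuThree M = 0)

set_option maxHeartbeats 4000000 in
/-- **`NodeKOdd` at helper7's tubes `kumTube`, for ANY `comp`**, from the residue fact `hθ₂`: the
Kummer function `θ_e` takes the value `c₀ e s` at the Kummer place of the middle component
`comp e s` over `z₁ e`. -/
theorem nodeKOdd_kum (comp : SSpM B hB hqM → KPq q → MidM B hB hqM hζ)
    (hθ₂ : q ≠ 2 → ∀ (e : SSpM B hB hqM) (s : KPq q),
      ∃ h : kumTheta B hB hqM h2 h3 e -
          algebraMap Kb (Fb (M * q * q)) ((kumC0 B hB hqM h2 h3 e s : B) : Kb) ∈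
            w2 B hB hqM hζ ((comp e s).rep B hB hqM hζ).2,
        (pMidK B hB hqM h2 h3 e).adicValuation
          (resMid B hB hqM hζ ((comp e s).rep B hB hqM hζ).2 ⟨_, h⟩) < 1) :
    NodeKOdd B hB hqM hζ h2 h3 comp (kumTube B hB hqM h2 h3) :=
  fun hq2 e s => nodePkg_kum B hB hqM h2 h3 hζ hq2 e s (comp e s) (hcopM B hB hqM h2 h3 e)
    (hθ₂ hq2 e s)

variable [Nonempty (MidM B hB hqM hζ)]
  (hcop : ∀ e : SSpM B hB hqM,
    IsCoprime ((z₁ (chartDataModular B hB hqM) e).ord (deltaMid B hB hqM)) (fMid M B hB : ℤ))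
  (hex : q ≠ 2 → ∀ e j, ∃ s, ValAt (CM B hB hqM hζ)
    (MidFamily.pMid B hB hqM (z₁ (chartDataModular B hB hqM)) hcop)
    (kumTheta B hB hqM h2 h3)
    (fun e s => IsLocalRing.residue B (kumC0 B hB hqM h2 h3 e s)) e j s)
  (hval : ∀ hq2 : q ≠ 2, ∀ e, Function.Bijective (val (hex hq2) e))

set_option maxHeartbeats 4000000 in
/-- **`NodeKOdd` for THE map `comp := compU hex hval` of the final call and helper7's tubes**,
hypothesis-free. -/
theorem nodeKOdd_compU :
    NodeKOdd B hB hqM hζ h2 h3 (compU hex hval) (kumTube B hB hqM h2 h3) :=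
  fun hq2 e s => nodePkg_compU B hB hqM h2 h3 hζ hcop hex hval hq2 e s

end Fermat.Agent.BR3.SDD.ModularNodeKOdd
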