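import Mathlib
import Fermat.Agent.BR3.SplitNodeTwoMod
import Fermat.Agent.BR3.SplitNodeTwoClauses
import Fermat.Agent.BR3.SDD.ModularZePts
import Fermat.Agent.BR3.SDD.ModularC
import Fermat.Agent.BR3.MidKummerPlaces
import Fermat.Agent.BR3.SDD.ModularNodeT

/-!
# Program C (S36), node (N2-TWO), part 7 (helper12): the family of the Kummer nodes `nk e s` of
`S''` at `q = 2`, in the frame of the integrator

Twin of helper16's `SDD/ModularNodeT.lean` (the nodes `nT e`).  With helper5's ONE choice per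
crossing `zePackM B hB hqM h2 h3 e`, `FZ := FZM …`, `CZ := CZM …`, `zK := zKM …` (helper20),
`KP := VertPtsU.KPq q`, and ANY middle component `i : MidM B hB hqM hζ` (for `q = 2` there is only
one), for `q = 2`:

* `tubeKTwoM B hB hqM h2 h3 e` : the raw tube of the nodes `nk e s`
  (`= coverTube B (tube S'ref_a (outer e)) (splitW M q g_e g'_e) 0` along `α₂`: the SECOND split
  sheet; `= SplitNodeTwoClauses.tubeK2 … g_e g'_e` by `rfl`);
* `nodeKTwoM hq2 … hζ i e s` : the bundle `SplitNode.NodeOut` of `nk e s` on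
  `(CAll … (mid i))` at `MidFamily.pMid … e` (`= pMidM … e s`, `rfl`) and `(CAll … (ze e))` at
  `zKM … e s`; `ιKTwoM`, `LKTwoM` (the levels);
* the binders of `SDD.Modular.modelAt_of_raw` / `YRaw` for the nodes `nk e s` in their literal
  shapes: `K₁TwoM`, `K₂TwoM`, `K_v_srcTwoM`, `K_u_tgtTwoM`, `K_unif₁TwoM`, `K_unif₂TwoM`, `chKTwoM`,
  `hKTwoM` ((G3) `hK` with `κ₀ = 1`, `d = midDeg q`), `LKTwoM_thick`, `LKTwoM_u`;
* `mem_tubeKTwoM_iff`, `tube_a_nKTwoM` (`subK`), `tube_b_nKTwoM` (`tube_b_nk`), `value_tubeKTwoM`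
  (`hWK`), `annSheetKTwoM` (`XK`, degree `1`), `not_mem_tubeKTwoM_of_mem_tubeTM` (`dTK`).
-/

set_option autoImplicit false
set_option linter.unusedSectionVars false
set_option linter.style.haveILetI false
set_option synthInstance.maxHeartbeats 400000

noncomputable section

namespace Fermat.Agent.BR3.SDD.ModularNodeKTwo

open ModularCurve AlgebraicCurve IsLocalRing Polynomial
open Fermat.Agent.Red Fermat.Agent.Val Fermat.Agent.X0 Fermat.Agent.Hecke
open Fermat.Agent.BR.SS Fermat.Agent.BR.Refine Fermat.Agent.BR.TwoVal Fermat.Agent.BR.TwoValInst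
open Fermat.Agent.BR.Circle Fermat.Agent.BR.S0 Fermat.Agent.BR.S0.PointDict Fermat.Agent.BR.P1
open Fermat.Agent.BR.S0.RedModular Fermat.Agent.BR.Final Fermat.Agent.BR.Inst.AnnulusInstFinal
open Fermat.Agent.BR2.SetupOfData Fermat.Agent.BR3.CircleN Fermat.Agent.BR3.SRef
open Fermat.Agent.BR3.SRef.Modular Fermat.Agent.BR3.SDD.Modular Fermat.Agent.BR3.SubAnnChart
open Fermat.Agent.BR3.SplitLevels Fermat.Agent.BR3.SplitBranch Fermat.Agent.BR3.CoverSmooth
open Fermat.Agent.BR3.FibreProd Fermat.Agent.BR3.HeckePoly Fermat.Agent.BR3.SSParam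
open Fermat.Agent.BR3.VertResidue Fermat.Agent.BR3.VertSheet Fermat.Agent.BR3.VertPtsDef
open Fermat.Agent.BR3.SplitCompsCInf Fermat.Agent.BR3.SplitNode
open Fermat.Agent.BR3.VertBetaFr Fermat.Agent.BR3.VertPtsU Fermat.Agent.BR3.IgSq
open Fermat.Agent.BR3.KummerGenus Fermat.Agent.BR3.KummerGenus.MidInst
open Fermat.Agent.BR3.MidKummerPlaces
open Fermat.Agent.BR3.SplitNodeTwoMod Fermat.Agent.BR3.SplitNodeTwoClauses

local notation "Kb" => AlgebraicClosure ℚ

variable {M q : ℕ} [NeZero M] [hq : Fact q.Prime]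
variable (B : ValuationSubring (AlgebraicClosure ℚ)) (hB : B.LiesOverPrime q) (hqM : ¬ q ∣ M)
variable [IsAlgClosed (ResidueField B)] [CharP (ResidueField B) q]
  [PerfectField (ResidueField B)]

local notation "kB" => IsLocalRing.ResidueField B
local notation "FtM" => modularFunctionFieldFullC (IsLocalRing.ResidueField B) M

/-- (shortcut instances) -/
local instance (priority := 100000) instAlgebraFtMShortcutNodeK2 :
    Algebra (IsLocalRing.ResidueField B)
      (modularFunctionFieldFullC (IsLocalRing.ResidueField B) M) :=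
  inferInstance
local instance (priority := 100000) instAlgebraFMidShortcutNodeK2 :
    Algebra (IsLocalRing.ResidueField B) (FMid M B) :=
  inferInstance

variable (h2 : nuTwo M = 0) (h3 : nuThree M = 0) (e : Crossing (chartDataModular B hB hqM))

/-- **The raw tube of the nodes `nk e s` of `S''` at `q = 2`**: the places over the outer node of
`S'ref_a` at `e` (along `α₂`) at which `W_e = U_{g_e} / α₂(-(α g_e - (β g'_e)^q))` has a value
`≡ 0`. -/
def tubeKTwoM : Set (Place (AlgebraicClosure ℚ) (Fb (M * q * q))) :=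
  tubeK2 B hB hqM h2 h3 e (zePackM B hB hqM h2 h3 e).g (zePackM B hB hqM h2 h3 e).g'

/-- the index type of the levels of `nk e s` (`q = 2`) -/
abbrev ιKTwoM : Type := idxOutA B hB hqM h2 h3 e

include h2 h3 in
/-- the coprimality hypothesis of the Kummer places of the middle components -/
theorem hcopM (e : Crossing (chartDataModular B hB hqM)) :
    IsCoprime ((z₁ (chartDataModular B hB hqM) e).ord (deltaMid B hB hqM)) (fMid M B hB : ℤ) :=
  isCoprime_ord_deltaMid_z₁ B hB hqM e h2 h3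

variable {ζ : (AlgebraicClosure ℚ)ˣ} (hζ : IsPrimitiveRoot ζ q)

set_option maxHeartbeats 4000000 in
/-- **The data of the node `nk e s` of `S''` at `q = 2`** for the chosen family. -/
def nodeKTwoM (hq2 : q = 2) (i : MidM B hB hqM hζ) (s : KPq q) :
    NodeOut B (residue B) (CAll B hB hqM hζ (CZM B hB hqM h2 h3) (mid i)).O
      (CAll B hB hqM hζ (CZM B hB hqM h2 h3) (mid i)).res
      (MidFamily.pMid B hB hqM (z₁ (chartDataModular B hB hqM)) (hcopM B hB hqM h2 h3) e)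
      (CAll B hB hqM hζ (CZM B hB hqM h2 h3) (ze e)).O
      (CAll B hB hqM hζ (CZM B hB hqM h2 h3) (ze e)).res
      (zKM B hB hqM h2 h3 e s)
      (tubeKTwoM B hB hqM h2 h3 e) (ιKTwoM B hB hqM h2 h3 e) :=
  nodeOutK2 B hB hqM h2 h3 e (zePackM B hB hqM h2 h3 e).P hζ (i.rep B hB hqM hζ).2 hq2
    (sheetHyp_levelsOutA_two B hB hqM h2 h3 e (zePackM B hB hqM h2 h3 e).P hq2)
    (hcopM B hB hqM h2 h3 e) (vertCompM B hB hqM h2 h3 e)
    (zePackM B hB hqM h2 h3 e).hβ (zePackM B hB hqM h2 h3 e).hρ (zePackM B hB hqM h2 h3 e).hred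
    (ord_U_ptKFam_pos q (zePackM B hB hqM h2 h3 e).hβ (zePackM B hB hqM h2 h3 e).hρ s)

variable (hq2 : q = 2) (i : MidM B hB hqM hζ) (s : KPq q)

/-- the levels of the node `nk e s` (`q = 2`) -/
def LKTwoM : AnnulusLevels B (tubeKTwoM B hB hqM h2 h3 e) (ιKTwoM B hB hqM h2 h3 e) :=
  (nodeKTwoM B hB hqM h2 h3 e hζ hq2 i s).L

set_option maxHeartbeats 4000000 in
/-- the thickness of the levels of `nk e s` (`q = 2`) is the gauge -/
theorem LKTwoM_thick :
    (LKTwoM B hB hqM h2 h3 e hζ hq2 i s).thick = gaugeA q B hB hqM e :=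
  nodeOutK2_thick B hB hqM h2 h3 e (zePackM B hB hqM h2 h3 e).P hζ (i.rep B hB hqM hζ).2 hq2
    (sheetHyp_levelsOutA_two B hB hqM h2 h3 e (zePackM B hB hqM h2 h3 e).P hq2)
    (hcopM B hB hqM h2 h3 e) (vertCompM B hB hqM h2 h3 e)
    (zePackM B hB hqM h2 h3 e).hβ (zePackM B hB hqM h2 h3 e).hρ (zePackM B hB hqM h2 h3 e).hred
    (ord_U_ptKFam_pos q (zePackM B hB hqM h2 h3 e).hβ (zePackM B hB hqM h2 h3 e).hρ s)

set_option maxHeartbeats 4000000 in
/-- **(G3) `hK`** (`κ₀ e s := 1`, `d := midDeg q`) -/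
theorem hKTwoM :
    gaugeA q B hB hqM e = 1 * (LKTwoM B hB hqM h2 h3 e hζ hq2 i s).thick ^ midDeg q :=
  hK_two B hB hqM h2 h3 e (zePackM B hB hqM h2 h3 e).P hζ (i.rep B hB hqM hζ).2 hq2
    (sheetHyp_levelsOutA_two B hB hqM h2 h3 e (zePackM B hB hqM h2 h3 e).P hq2)
    (hcopM B hB hqM h2 h3 e) (vertCompM B hB hqM h2 h3 e)
    (zePackM B hB hqM h2 h3 e).hβ (zePackM B hB hqM h2 h3 e).hρ (zePackM B hB hqM h2 h3 e).hred
    (ord_U_ptKFam_pos q (zePackM B hB hqM h2 h3 e).hβ (zePackM B hB hqM h2 h3 e).hρ s)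

set_option maxHeartbeats 4000000 in
/-- the coordinate of the levels of `nk e s` (`q = 2`) is `α₂ u_e` -/
theorem LKTwoM_u :
    (LKTwoM B hB hqM h2 h3 e hζ hq2 i s).u = alpha2 M q (annulusCoord (DtM B hB hqM) e) :=
  nodeOutK2_u B hB hqM h2 h3 e (zePackM B hB hqM h2 h3 e).P hζ (i.rep B hB hqM hζ).2 hq2
    (sheetHyp_levelsOutA_two B hB hqM h2 h3 e (zePackM B hB hqM h2 h3 e).P hq2)
    (hcopM B hB hqM h2 h3 e) (vertCompM B hB hqM h2 h3 e)
    (zePackM B hB hqM h2 h3 e).hβ (zePackM B hB hqM h2 h3 e).hρ (zePackM B hB hqM h2 h3 e).hred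
    (ord_U_ptKFam_pos q (zePackM B hB hqM h2 h3 e).hβ (zePackM B hB hqM h2 h3 e).hρ s)

/-! ### the binders of `modelAt_of_raw` for the nodes `nk e s` (`q = 2`) -/

section Binders

set_option maxHeartbeats 4000000 in
/-- the binder `K₁` -/
theorem K₁TwoM : BranchComp (residue B) (CAll B hB hqM hζ (CZM B hB hqM h2 h3) (mid i)).O
    (CAll B hB hqM hζ (CZM B hB hqM h2 h3) (mid i)).res
    (MidFamily.pMid B hB hqM (z₁ (chartDataModular B hB hqM)) (hcopM B hB hqM h2 h3) e)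
    (LKTwoM B hB hqM h2 h3 e hζ hq2 i s) :=
  (nodeKTwoM B hB hqM h2 h3 e hζ hq2 i s).X₁

set_option maxHeartbeats 4000000 in
/-- the binder `K₂` (with `zK e s := zKM … e s`) -/
theorem K₂TwoM : BranchComp (residue B) (CAll B hB hqM hζ (CZM B hB hqM h2 h3) (ze e)).O
    (CAll B hB hqM hζ (CZM B hB hqM h2 h3) (ze e)).res (zKM B hB hqM h2 h3 e s)
    (LKTwoM B hB hqM h2 h3 e hζ hq2 i s) :=
  (nodeKTwoM B hB hqM h2 h3 e hζ hq2 i s).X₂

set_option maxHeartbeats 4000000 in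
/-- the binder `K_v_src` -/
theorem K_v_srcTwoM :
    (LKTwoM B hB hqM h2 h3 e hζ hq2 i s).v ∈
      (CAll B hB hqM hζ (CZM B hB hqM h2 h3) (mid i)).O.nonunits :=
  (nodeKTwoM B hB hqM h2 h3 e hζ hq2 i s).v_src

set_option maxHeartbeats 4000000 in
/-- the binder `K_u_tgt` -/
theorem K_u_tgtTwoM :
    (LKTwoM B hB hqM h2 h3 e hζ hq2 i s).u ∈
      (CAll B hB hqM hζ (CZM B hB hqM h2 h3) (ze e)).O.nonunits :=
  (nodeKTwoM B hB hqM h2 h3 e hζ hq2 i s).u_tgt

set_option maxHeartbeats 4000000 in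
/-- the binder `K_unif₁` -/
theorem K_unif₁TwoM : ∃ j, ∃ t : ((LKTwoM B hB hqM h2 h3 e hζ hq2 i s).level j).R,
    (MidFamily.pMid B hB hqM (z₁ (chartDataModular B hB hqM)) (hcopM B hB hqM h2 h3) e).ord
      ((CAll B hB hqM hζ (CZM B hB hqM h2 h3) (mid i)).res
        ⟨t, (K₁TwoM B hB hqM h2 h3 e hζ hq2 i s).le j t t.2⟩) = 1 :=
  (nodeKTwoM B hB hqM h2 h3 e hζ hq2 i s).unif₁

set_option maxHeartbeats 4000000 in
/-- the binder `K_unif₂` -/
theorem K_unif₂TwoM : ∃ j, ∃ t : ((LKTwoM B hB hqM h2 h3 e hζ hq2 i s).level j).R,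
    (zKM B hB hqM h2 h3 e s).ord
      ((CAll B hB hqM hζ (CZM B hB hqM h2 h3) (ze e)).res
        ⟨t, (K₂TwoM B hB hqM h2 h3 e hζ hq2 i s).le j t t.2⟩) = 1 :=
  (nodeKTwoM B hB hqM h2 h3 e hζ hq2 i s).unif₂

set_option maxHeartbeats 4000000 in
/-- the binder `chK` (against `nodeTube (nk e s) := tubeKTwoM … e`) -/
def chKTwoM : NodeChart B (CAll B hB hqM hζ (CZM B hB hqM h2 h3) (mid i)).O
    (CAll B hB hqM hζ (CZM B hB hqM h2 h3) (ze e)).O
    (CAll B hB hqM hζ (CZM B hB hqM h2 h3) (mid i)).res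
    (CAll B hB hqM hζ (CZM B hB hqM h2 h3) (ze e)).res
    (MidFamily.pMid B hB hqM (z₁ (chartDataModular B hB hqM)) (hcopM B hB hqM h2 h3) e)
    (zKM B hB hqM h2 h3 e s) (tubeKTwoM B hB hqM h2 h3 e) :=
  chartK2 B hB hqM h2 h3 e (zePackM B hB hqM h2 h3 e).P hζ (i.rep B hB hqM hζ).2 hq2
    (sheetHyp_levelsOutA_two B hB hqM h2 h3 e (zePackM B hB hqM h2 h3 e).P hq2)
    (hcopM B hB hqM h2 h3 e) (vertCompM B hB hqM h2 h3 e)
    (zePackM B hB hqM h2 h3 e).hβ (zePackM B hB hqM h2 h3 e).hρ (zePackM B hB hqM h2 h3 e).hred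
    (ord_U_ptKFam_pos q (zePackM B hB hqM h2 h3 e).hβ (zePackM B hB hqM h2 h3 e).hρ s)

end Binders

/-! ### the tube of `nk e s` (`q = 2`) -/

set_option maxHeartbeats 4000000 in
/-- the unfolding of the raw tube -/
theorem mem_tubeKTwoM_iff (hα : (alpha2 M q).toRingHom.IsIntegral)
    (P : Place (AlgebraicClosure ℚ) (Fb (M * q * q))) :
    P ∈ tubeKTwoM B hB hqM h2 h3 e ↔
      P.restrictAlong (alpha2 M q) hα ∈
          tube (srefM (DtM B hB hqM) (gaugeA q B hB hqM) (admA B hB hqM h2 h3))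
            (outer (inputs (DtM B hB hqM)) (gaugeA q B hB hqM) (admA B hB hqM h2 h3) e) ∧
        ∃ d : AlgebraicClosure ℚ,
          IsValueAt P (splitW M q (zePackM B hB hqM h2 h3 e).g (zePackM B hB hqM h2 h3 e).g') d ∧
            B.valuation (d - 0) < 1 := Iff.rfl

set_option maxHeartbeats 4000000 in
/-- **`tube_a_nk`** (`subK`): the tube of `nk e s` lies over the outer node of `S'ref_a` along
`α₂` -/
theorem tube_a_nKTwoM (hα : (alpha2 M q).toRingHom.IsIntegral)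
    {P : Place (AlgebraicClosure ℚ) (Fb (M * q * q))} (hP : P ∈ tubeKTwoM B hB hqM h2 h3 e) :
    P.restrictAlong (alpha2 M q) hα ∈
      tube (srefM (DtM B hB hqM) (gaugeA q B hB hqM) (admA B hB hqM h2 h3))
        (outer (inputs (DtM B hB hqM)) (gaugeA q B hB hqM) (admA B hB hqM h2 h3) e) :=
  ((mem_tubeKTwoM_iff B hB hqM h2 h3 e hα P).mp hP).1

set_option maxHeartbeats 4000000 in
/-- **`hWK`**: the value of the generator on the tube of `nk e s` -/
theorem value_tubeKTwoM {P : Place (AlgebraicClosure ℚ) (Fb (M * q * q))}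
    (hP : P ∈ tubeKTwoM B hB hqM h2 h3 e) :
    ∃ d : AlgebraicClosure ℚ,
      IsValueAt P (splitW M q (zePackM B hB hqM h2 h3 e).g (zePackM B hB hqM h2 h3 e).g') d ∧
        B.valuation (d - 0) < 1 :=
  value_W_K2 B hB hqM h2 h3 e _ _ P hP

include hq2 in
set_option maxHeartbeats 4000000 in
/-- **`tube_b_nk`** (`q = 2`): the tube of `nk e s` lies over the INNER node of `S'ref_b` at
`Fr e` along `β₂`. -/
theorem tube_b_nKTwoM (hα : (alpha2 M q).toRingHom.IsIntegral)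
    (hβ : (beta2 M q).toRingHom.IsIntegral)
    {P : Place (AlgebraicClosure ℚ) (Fb (M * q * q))} (hP : P ∈ tubeKTwoM B hB hqM h2 h3 e) :
    P.restrictAlong (beta2 M q) hβ ∈
      tube (srefM (DtM B hB hqM) (gaugeB q B hB hqM) (admB B hB hqM h2 h3))
        (inner (inputs (DtM B hB hqM)) (gaugeB q B hB hqM) (admB B hB hqM h2 h3)
          (Fr B hB hqM e)) :=
  tube_b_K2 B hB hqM h2 h3 e hq2 (zePackM B hB hqM h2 h3 e).P hα hβ P hP

include hq2 in
set_option maxHeartbeats 4000000 in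
/-- **the annulus sheet of degree one of `nk e s` along `α₂`** (`XK` of `hOuter_modular`,
`d e s = 1 = midDeg 2`) -/
theorem annSheetKTwoM :
    Nonempty (Fermat.Agent.BR3.SDD.Partition.AnnSheet B (tubeKTwoM B hB hqM h2 h3 e)
      (alpha2 M q (annulusCoord (DtM B hB hqM) e)) (gaugeA q B hB hqM e) 1) :=
  ⟨annSheetK2 B hB hqM h2 h3 e
    (sheetHyp_levelsOutA_two B hB hqM h2 h3 e (zePackM B hB hqM h2 h3 e).P hq2)⟩

/-- **`dTK`**: the tubes of `nT e` (helper16's `tubeTM`) and of `nk e s` are disjoint. -/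
theorem not_mem_tubeKTwoM_of_mem_tubeTM
    {P : Place (AlgebraicClosure ℚ) (Fb (M * q * q))} (hP : P ∈ tubeTM B hB hqM h2 h3 e) :
    P ∉ tubeKTwoM B hB hqM h2 h3 e :=
  dTK2 B hB hqM h2 h3 e _ _ hP

end Fermat.Agent.BR3.SDD.ModularNodeKTwo
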