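import Mathlib
import Fermat.Agent.BR3.SDD.ModularNodeKTwo
import Fermat.Agent.BR3.SDD.ModularNodeTEquiv
import Fermat.Agent.BR3.EquivSRefRotFibre

/-!
# Program C (S36), node (N2-TWO), part 8 (helper12), (G4)/(G6): the Kummer nodes `nk e s` at
`q = 2` are stable under the inertia group

Twin of helper16's `SDD/ModularNodeTEquiv.lean`.  For EVERY `σ` in the inertia group of `B` (no
hypothesis on `σ (unifSDD q)`: the rich elements of (G4) AND the tame generator `σ0` of (G6)):

* `galAut_smul_LKTwoM_u` : the coordinate `α₂ u_e` of the levels of `nk e s` is fixed by `σ`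
  (the clause `galAut s • (LK e t).u = (LK e t).u` of `hrest`);
* `smul_mem_tubeKTwoM` : the raw tube `tubeKTwoM … e` is stable under `σ` (the clause
  `∀ P ∈ nodeTube (nk e s), galAut s • P ∈ nodeTube (nk e s)` of `hrest`; for `σ0` the raw clause
  `hnK` : `P ∈ tubeK e s → σ0 • P ∈ tubeK e (rev s)`, the tube does not depend on `s`).
-/

set_option autoImplicit false
set_option linter.unusedSectionVars false
set_option linter.style.haveILetI false
set_option synthInstance.maxHeartbeats 400000

noncomputable section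

namespace Fermat.Agent.BR3.SDD.ModularNodeKTwo

open ModularCurve AlgebraicCurve IsLocalRing Polynomial
open Fermat.Agent.Red Fermat.Agent.Val Fermat.Agent.X0 Fermat.Agent.Hecke Fermat.Agent.Jac
open Fermat.Agent.BR.SS Fermat.Agent.BR.Refine Fermat.Agent.BR.TwoVal Fermat.Agent.BR.TwoValInst
open Fermat.Agent.BR.Circle Fermat.Agent.BR.S0 Fermat.Agent.BR.S0.PointDict Fermat.Agent.BR.P1
open Fermat.Agent.BR.S0.RedModular Fermat.Agent.BR.Final Fermat.Agent.BR.Inst.AnnulusInstFinal
open Fermat.Agent.BR.InertiaRed Fermat.Agent.BR.ValTwo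
open Fermat.Agent.BR2.SetupOfData Fermat.Agent.BR3.CircleN Fermat.Agent.BR3.SRef
open Fermat.Agent.BR3.SRef.Modular Fermat.Agent.BR3.SDD.Modular Fermat.Agent.BR3.SubAnnChart
open Fermat.Agent.BR3.SplitLevels Fermat.Agent.BR3.SplitBranch Fermat.Agent.BR3.CoverSmooth
open Fermat.Agent.BR3.FibreProd Fermat.Agent.BR3.HeckePoly Fermat.Agent.BR3.SSParam
open Fermat.Agent.BR3.SplitCompsCInf Fermat.Agent.BR3.SplitNode
open Fermat.Agent.BR3.EquivSRefModular Fermat.Agent.BR3.EquivTubes Fermat.Agent.BR3.VertEquivUg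
open Fermat.Agent.BR3.VertEquivMod Fermat.Agent.BR3.ThickSDDPlug
open Fermat.Agent.BR3.EquivSRefRotFibre Fermat.Agent.BR3.VertPtsU
open Fermat.Agent.BR3.SplitNodeTwoClauses

local notation "Kb" => AlgebraicClosure ℚ

variable {M q : ℕ} [NeZero M] [hq : Fact q.Prime]
variable (B : ValuationSubring (AlgebraicClosure ℚ)) (hB : B.LiesOverPrime q) (hqM : ¬ q ∣ M)
variable [IsAlgClosed (ResidueField B)] [CharP (ResidueField B) q]
  [PerfectField (ResidueField B)]

local notation "kB" => IsLocalRing.ResidueField B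
local notation "FtM" => modularFunctionFieldFullC (IsLocalRing.ResidueField B) M

/-- (shortcut instances) -/
local instance (priority := 100000) instAlgebraFtMShortcutNodeK2E :
    Algebra (IsLocalRing.ResidueField B)
      (modularFunctionFieldFullC (IsLocalRing.ResidueField B) M) :=
  inferInstance
local instance (priority := 100000) instAlgebraFMidShortcutNodeK2E :
    Algebra (IsLocalRing.ResidueField B) (FMid M B) :=
  inferInstance

variable (h2 : nuTwo M = 0) (h3 : nuThree M = 0) (e : Crossing (chartDataModular B hB hqM))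
  {σ : GQ} {ζ : (AlgebraicClosure ℚ)ˣ} (hζ : IsPrimitiveRoot ζ q)
  (hq2 : q = 2) (i : MidM B hB hqM hζ) (s : KPq q)

set_option maxHeartbeats 4000000 in
/-- **(G4), coordinates**: the coordinate of the levels of `nk e s` (`q = 2`) is fixed by the
inertia group. -/
theorem galAut_smul_LKTwoM_u (hσ : σ ∈ B.inertiaSubgroupIn ℚ) :
    galAut (M * q * q) σ • (LKTwoM B hB hqM h2 h3 e hζ hq2 i s).u =
      (LKTwoM B hB hqM h2 h3 e hζ hq2 i s).u := by
  rw [LKTwoM_u, alpha2_galAut]
  exact congrArg (alpha2 M q) (annulusCoord_smul (DtM B hB hqM) hσ e)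

set_option maxHeartbeats 4000000 in
/-- **(G4)/(G6), tubes**: the raw tube of `nk e s` (`q = 2`) is stable under EVERY element of the
inertia group. -/
theorem smul_mem_tubeKTwoM (hσ : σ ∈ B.inertiaSubgroupIn ℚ)
    {P : Place (AlgebraicClosure ℚ) (Fb (M * q * q))} (hP : P ∈ tubeKTwoM B hB hqM h2 h3 e) :
    galAut (M * q * q) σ • P ∈ tubeKTwoM B hB hqM h2 h3 e := by
  letI := algebraAlong (alpha2 M q)
  haveI := isScalarTower_along (alpha2 M q)
  haveI : Module.Finite (Fb (M * q)) (Fb (M * q * q)) :=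
    Fermat.Agent.Hecke.finiteAlong_heckeAlphaBar (M * q) q
  exact smul_mem_coverTube_of_fixed B (galAut (M * q * q) σ) (galAut (M * q) σ)
    (alpha2_galAut σ) (isInertial_galAut (M * q * q) B hσ)
    (fun P' hP' => (smul_mem_outer_srefM_iff (DtM B hB hqM) (gaugeA q B hB hqM)
      (admA B hB hqM h2 h3) hσ e P').mpr hP')
    (galAut_smul_splitW B hB hσ (zePackM B hB hqM h2 h3 e).P.hg
      (zePackM B hB hqM h2 h3 e).P.hg') (0 : B) hP

end Fermat.Agent.BR3.SDD.ModularNodeKTwo
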