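import Mathlib
import Fermat.Agent.BR3.SDD.ModularNodeW
import Fermat.Agent.BR3.EquivTubesNodeB

/-!
# Program C (S36), node (N3-FAM), (G4)/(G6): the nodes `nW e` are stable under the inertia group

For `σ` in the inertia group of `B` (helper10's `EquivTubesNode` / `EquivTubesNodeB` at the family
`zePackM`):

* `galAut_smul_WsplitM` : the generator `W_b = WsplitM … e` of the split sheet of `nW e` is fixed by
  `σ` (`g_e, g'_e ∈ CMod M (W0 B q) (K0 q)`);
* `smul_mem_tubeWM` : the raw tube `tubeWM … e` is stable under EVERY `σ` of the inertia group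
  (the clause `∀ P ∈ nodeTube (nW e), galAut s • P ∈ nodeTube (nW e)` of `hrest` for the rich `s`
  AND the clause `hnW` of `tameProp_of_rawTubes` for the tame generator `σ0`);
* `galAut_smul_LWM_u` : the coordinate `β₂ (b₀⁻¹ • u_{Fr e})` of the levels of `nW e` is fixed by
  the `σ` fixing the uniformiser `unifSDD q` (the clause `galAut s • (LW e).u = (LW e).u` of
  `hrest`).
-/

set_option autoImplicit false
set_option linter.unusedSectionVars false
set_option linter.style.haveILetI false
set_option synthInstance.maxHeartbeats 400000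

noncomputable section

namespace Fermat.Agent.BR3.SDD.Modular

open Polynomial ModularCurve AlgebraicCurve IsLocalRing
open Fermat.Agent.X0 Fermat.Agent.Val Fermat.Agent.Red Fermat.Agent.Hecke Fermat.Agent.Jac
open Fermat.Agent.BR.SS Fermat.Agent.BR.Refine Fermat.Agent.BR.Circle Fermat.Agent.BR.S0
open Fermat.Agent.BR.S0.RedModular Fermat.Agent.BR.S0.PointDict
open Fermat.Agent.BR.Inst.AnnulusInstFinal Fermat.Agent.BR.Final
open Fermat.Agent.BR.ValTwo Fermat.Agent.BR.InertiaRed
open Fermat.Agent.BR3.FibreProd Fermat.Agent.BR3.SSParam Fermat.Agent.BR3.ThickSDDPlug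
open Fermat.Agent.BR2.SetupOfData Fermat.Agent.BR3.CircleN Fermat.Agent.BR3.SRef
open Fermat.Agent.BR3.SRef.Modular Fermat.Agent.BR3.SplitNode Fermat.Agent.BR3.SplitLevels
open Fermat.Agent.BR3.SplitCompsModB Fermat.Agent.BR3.VertBetaFr Fermat.Agent.BR3.HeckePoly
open Fermat.Agent.BR3.EquivTubesNode Fermat.Agent.BR3.CoverSmooth

variable {M q : ℕ} [NeZero M] [hq : Fact q.Prime]
variable (B : ValuationSubring Kb)

local notation "kB" => ResidueField B

/-- (shortcut instance) -/
local instance (priority := 100000) instAlgebraFtMShortcutNodeWEquiv :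
    Algebra (IsLocalRing.ResidueField B)
      (modularFunctionFieldFullC (IsLocalRing.ResidueField B) M) :=
  inferInstance

variable (hB : B.LiesOverPrime q) (hqM : ¬ q ∣ M)
  [IsAlgClosed (ResidueField B)] [CharP (ResidueField B) q]
  (h2 : nuTwo M = 0) (h3 : nuThree M = 0) {σ : Kb ≃ₐ[ℚ] Kb}

/-- **The generator of the split sheet of `nW e` is fixed by the inertia group.** -/
theorem galAut_smul_WsplitM (hσ : σ ∈ B.inertiaSubgroupIn ℚ) (e : SSpM B hB hqM) :
    galAut (M * q * q) σ • WsplitM B hB hqM h2 h3 e = WsplitM B hB hqM h2 h3 e :=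
  gal_smul_splitWB_of_mem_CMod B hB hσ (zePackM B hB hqM h2 h3 e).P.hg
    (zePackM B hB hqM h2 h3 e).P.hg'

set_option maxHeartbeats 4000000 in
/-- **(G4)/(G6), tubes**: the raw tube of `nW e` is stable under EVERY element of the inertia
group (rich `s` and tame generator `σ0`). -/
theorem smul_mem_tubeWM (hσ : σ ∈ B.inertiaSubgroupIn ℚ) (e : SSpM B hB hqM)
    {P : Place Kb (Fb (M * q * q))} (hP : P ∈ tubeWM B hB hqM h2 h3 e) :
    galAut (M * q * q) σ • P ∈ tubeWM B hB hqM h2 h3 e :=
  smul_mem_nodeTube_inner_beta (DtM B hB hqM) (gaugeB q B hB hqM) (admB B hB hqM h2 h3) hσ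
    (Fr B hB hqM e) (galAut_smul_WsplitM B hB hqM h2 h3 hσ e) (1 : B) hP

set_option maxHeartbeats 4000000 in
/-- **(G4), coordinates**: the coordinate of the levels of `nW e` is fixed by the inertia elements
fixing the uniformiser. -/
theorem galAut_smul_LWM_u (hσ : σ ∈ B.inertiaSubgroupIn ℚ) (hu : σ (unifSDD q) = unifSDD q)
    (HW : HWM B hB hqM h2 h3) (e : SSpM B hB hqM) :
    galAut (M * q * q) σ • (LWM B hB hqM h2 h3 HW e).u = (LWM B hB hqM h2 h3 HW e).u := by
  rw [LWM_u]
  exact gal_smul_beta2_smul_coord (DtM B hB hqM) hσ (Fr B hB hqM e)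
    (apply_inv_gaugeB_of_fixed B hB hqM (Fr B hB hqM e) hu)

end Fermat.Agent.BR3.SDD.Modular
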