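import Mathlib
import Fermat.Agent.BR3.SplitModularRefB
import Fermat.Agent.BR3.SplitModularB
import Fermat.Agent.BR3.SDD.ModularNodeW

/-!
# Program C (S36), node (N3): the split-sheet hypothesis `HWM` of the column `nW e` — DISCHARGED

`BR3/SDD/ModularNodeW.lean` (helper5) builds the whole `nW e` column of
`ModularRaw.modelAt_of_raw` from ONE named hypothesis

  `HWM B hB hqM h2 h3 : ∀ e, SheetHyp (levelsInB … (Fr e)) (splitWB M q g_e g'_e) (1 : B)`

(along `β₂`).  This file proves it:

* `innerHypB_levelsInB e'` : helper16's levels `levelsInB … e'` of the inner node of `S'ref_b`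
  satisfy `SplitModularB.InnerHypB` (fields = helper19's `SplitModularRefB.levelsInB_*`);
* `sheetHyp_levelsInB e' P' hg'' htw hU` : the split sheet over `levelsInB … e'`
  (`SplitModularB.InnerHypB.sheetHyp`), in the literal shape of `HWM`;
* `hWM_modular : HWM B hB hqM h2 h3` : at `e' := Fr e` with the chain quadruple of `zePackM … e`
  (`P'`, the twist `g''` of `g` from `P`, and `U_g ∉ α₂ F₁` from the `a`-side at `e`,
  `SplitModularTw.Ug_notMem_range_alpha2'`).
-/

set_option autoImplicit false
set_option linter.unusedSectionVars false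
set_option linter.style.haveILetI false
set_option synthInstance.maxHeartbeats 400000

noncomputable section

namespace Fermat.Agent.BR3.SDD.ModularNodeWHyp

open Polynomial ModularCurve AlgebraicCurve IsLocalRing
open Fermat.Agent.X0 Fermat.Agent.Val Fermat.Agent.Red Fermat.Agent.Hecke
open Fermat.Agent.BR.SS Fermat.Agent.BR.Refine Fermat.Agent.BR.Circle Fermat.Agent.BR.S0
open Fermat.Agent.BR.S0.RedModular Fermat.Agent.BR.S0.PointDict Fermat.Agent.BR.Inst.SpecIso
open Fermat.Agent.BR.Inst.AnnulusInstFinal Fermat.Agent.BR.Final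
open Fermat.Agent.BR.ResGen Fermat.Agent.BR.TwoVal
open Fermat.Agent.BR3.FibreProd
open Fermat.Agent.BR3.SSParam Fermat.Agent.BR3.ThickSDDPlug
open Fermat.Agent.BR2.SetupOfData Fermat.Agent.BR3.CircleN Fermat.Agent.BR3.SRef
open Fermat.Agent.BR3.SRef.Modular Fermat.Agent.BR3.CoverSmooth
open Fermat.Agent.BR3.SplitNode Fermat.Agent.BR3.SplitLevels
open Fermat.Agent.BR3.SplitCompsModB Fermat.Agent.BR3.SDD Fermat.Agent.BR3.SDD.Modular
open Fermat.Agent.BR3.HeckePoly
open Fermat.Agent.BR3.SplitModularB Fermat.Agent.BR3.SplitModularRefB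
open Fermat.Agent.BR3.SplitModularTw
open Fermat.Agent.BR3.SubAnnChart Fermat.Agent.BR.Inst.LevelsInst
open Fermat.Agent.BR.S0.ThickFinal Fermat.Agent.BR3.VertBetaFr

variable {M q : ℕ} [NeZero M] [hq : Fact q.Prime]
variable (B : ValuationSubring Kb)

local notation "kB" => ResidueField B

/-- (shortcut instance) -/
local instance (priority := 100000) instAlgebraFtMShortcutNodeWHyp :
    Algebra (IsLocalRing.ResidueField B)
      (modularFunctionFieldFullC (IsLocalRing.ResidueField B) M) :=
  inferInstance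

variable (hB : B.LiesOverPrime q) (hqM : ¬ q ∣ M)
  [IsAlgClosed (ResidueField B)] [CharP (ResidueField B) q]
  (h2 : nuTwo M = 0) (h3 : nuThree M = 0)

set_option maxHeartbeats 4000000 in
/-- helper16's levels of the inner node of `S'ref_b` at the crossing `e'` satisfy the hypotheses
`InnerHypB` of the split sheet along `β₂` (fields: helper19's `SplitModularRefB.levelsInB_*`). -/
theorem innerHypB_levelsInB (e' : Crossing (chartDataModular B hB hqM)) :
    InnerHypB B hB hqM (nonempty_crossing (DtF B hB hqM)) e' (levelsInB B hB hqM h2 h3 e')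
      (idxInBVal B hB hqM h2 h3 e') (gaugeB q B hB hqM e') where
  le := levelsInB_le B hB hqM h2 h3 e'
  u_eq := levelsInB_u' B hB hqM h2 h3 e'
  v_eq := levelsInB_v B hB hqM h2 h3 e'
  thick_eq := levelsInB_thick' B hB hqM h2 h3 e'
  rho_mem := levelsInB_rho_mem B hB hqM h2 h3 e'
  hK0 := hK0_levelsInB B hB hqM h2 h3 e'
  gauge := levelsInB_gauge B hB hqM h2 h3 e'
  hT := levelsInB_hT B hB hqM h2 h3 e'
  hRK := levelsInB_hRK B hB hqM h2 h3 e'

set_option maxHeartbeats 4000000 in
/-- **The split sheet `W_b ≡ 1` of `X₀(M q²) → X₀(M q)` along `β₂` over helper16's levels of the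
inner node of `S'ref_b` at the crossing `e'`**, in the literal shape of `HWM`. -/
theorem sheetHyp_levelsInB (e' : Crossing (chartDataModular B hB hqM)) {g' g₀ g g'' : Fb M}
    (P' : IsSSParam B hB hqM e' g' g₀ g) (hg'' : g'' ∈ CMod M (W0 B q) (K0 q))
    (htw : redMF B hB hqM ⟨g'', mem_OM_of_mem_CMod_base B hB hqM hg''⟩ =
      frobAutFullC kB M q • redMF B hB hqM ⟨g, mem_OM_of_mem_CMod_base B hB hqM P'.hg''⟩)
    (hU : Ug M q g ∉ Set.range (alpha2 M q)) :
    letI := algebraAlong (beta2 M q)
    haveI := isScalarTower_along (beta2 M q)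
    haveI : Module.Finite (Fb (M * q)) (Fb (M * q * q)) :=
      Fermat.Agent.Hecke.finiteAlong_heckeBetaBar (M * q) q
    SheetHyp (levelsInB B hB hqM h2 h3 e') (splitWB M q g g') (1 : B) :=
  (innerHypB_levelsInB B hB hqM h2 h3 e').sheetHyp P' h2 h3 hg'' htw hU

set_option maxHeartbeats 4000000 in
/-- **The named hypothesis `HWM` of the column `nW e` holds**: the split sheets of all the wild
nodes `nW e`, at the chain quadruples of `zePackM`. -/
theorem hWM_modular : HWM B hB hqM h2 h3 := fun e =>
  sheetHyp_levelsInB B hB hqM h2 h3 (Fr B hB hqM e) (zePackM B hB hqM h2 h3 e).P'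
    (zePackM B hB hqM h2 h3 e).P.hg'' (zePackM B hB hqM h2 h3 e).P.twist
    (Ug_notMem_range_alpha2' B hB hqM (nonempty_crossing (DtF B hB hqM)) e h2 h3
      (zePackM B hB hqM h2 h3 e).P)

end Fermat.Agent.BR3.SDD.ModularNodeWHyp
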