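import Fermat.Agent.BR3.SDD.ModularFrame

/-!
# Program C (S36), node I7 (integrator), part 19: the provider from `ModelAt` with the full frame

`modelProvider_of_modelAt_frame` : `S36Plug.ModelProvider` from `S36Plug.ModelAt M q lam B` proved
in the frame of the final assembly, i.e. with the instance binders `[Fact q.Prime]`,
`[IsAlgClosed (ResidueField B)]`, `[CharP (ResidueField B) q]` and a primitive `q`-th root of unity
`ζ : Kbˣ` (chosen inside).  The last step of `Fermat/Agent/S36.lean` is then
`S36Plug.s36_of_provider (modelProvider_of_modelAt_frame fun M q lam … => modelAt_final …) …`.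
-/

set_option autoImplicit false
set_option linter.style.haveILetI false
set_option linter.unusedSectionVars false
set_option linter.unusedVariables false

open ModularCurve AlgebraicCurve

namespace Fermat.Agent.BR3.SDD.Modular

open IsLocalRing Fermat.Agent.X0 Fermat.Agent.BR.SS

local notation "Qb" => AlgebraicClosure ℚ

/-- **`S36Plug.ModelProvider` from `ModelAt` in the frame of the final assembly**: the instances
`[Fact q.Prime]`, `[IsAlgClosed (ResidueField B)]`, `[CharP (ResidueField B) q]` are binders and a
primitive `q`-th root of unity `ζ : Kbˣ` is given. -/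
theorem modelProvider_of_modelAt_frame
    (h : ∀ (M q lam : ℕ) [NeZero M] [Fact q.Prime] [NeZero q], ¬ q ∣ M → lam.Prime → q ≠ lam →
      nuTwo M = 0 → nuThree M = 0 → ∀ (B : ValuationSubring Qb), B.LiesOverPrime q →
      ∀ [IsAlgClosed (ResidueField B)] [CharP (ResidueField B) q] (ζ : Kbˣ),
        IsPrimitiveRoot ζ q → S36Plug.ModelAt M q lam B) :
    S36Plug.ModelProvider := by
  refine modelProvider_of_modelAt ?_
  intro M q lam _ hq _ hqM hlam hqlam h2 h3 B hB _
  haveI : CharP (ResidueField B) q := Fermat.Agent.Val.charP_residueField_of_liesOverPrime B hB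
  obtain ⟨ζ₀, hζ₀⟩ := HasEnoughRootsOfUnity.exists_primitiveRoot Kb q
  have hζu : IsPrimitiveRoot (hζ₀.isUnit (NeZero.ne q)).unit q := by
    rw [← IsPrimitiveRoot.coe_units_iff]
    exact hζ₀
  exact h M q lam hqM hlam hqlam h2 h3 B hB _ hζu

end Fermat.Agent.BR3.SDD.Modular
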