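import Fermat.Agent.BR3.SDD.TubeFam

/-!
# Program C (S36), node I7 (integrator), part 13: stability of the tube families built from raw tubes

For the families `tubeFam` / `tubeS` / `THf`, `TMf`, `TZf` of `SDD/TubeFam.lean` (helper3) and a map
`g` of the places (the action of an inertia element which fixes every point of the special fibre):
if every raw node tube and every raw smooth tube is stable under `g`, so are the families — the
shape of the three tube clauses of `hparts` in `SDD.Modular.modelAt_of_casesAll` (G4) for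
`X := caseInputOfRaw …` (`X.TH = THf …`, `X.TM = TMf …`, `X.TZ = TZf …` by `rfl`).
-/

set_option autoImplicit false
set_option linter.unusedSectionVars false

namespace Fermat.Agent.BR3.SDD.Partition

open AlgebraicCurve IsLocalRing Fermat.Agent.Red Fermat.Agent.BR.SS

section Generic

variable {k : Type*} [Field k] {ι : Type*} {Ft : ι → Type*} [∀ v, Field (Ft v)]
  [∀ v, Algebra k (Ft v)] {ν : Type*} {σ : Type*}
  (src tgt : ν → ι) (s₁ : ∀ x, Place k (Ft (src x))) (s₂ : ∀ x, Place k (Ft (tgt x)))
  (nodeTube : ν → Set σ) (smTube : (Σ v, Place k (Ft v)) → Set σ)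

/-- The family `tubeFam` is stable under a map which stabilises the raw tubes. -/
theorem map_mem_tubeFam (g : σ → σ) (hnode : ∀ x, ∀ P ∈ nodeTube x, g P ∈ nodeTube x)
    (hsm : ∀ y, ∀ P ∈ smTube y, g P ∈ smTube y) (y : Σ v, Place k (Ft v)) (P : σ)
    (hP : P ∈ tubeFam src tgt s₁ s₂ nodeTube smTube y) :
    g P ∈ tubeFam src tgt s₁ s₂ nodeTube smTube y := by
  unfold tubeFam at hP ⊢
  split_ifs at hP ⊢ with h h'
  · exact hnode _ P hP
  · exact absurd hP (Set.notMem_empty P)
  · exact hsm y P hP

end Generic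

section Families

variable {K F'' k : Type*} [Field K] [Field F''] [Algebra K F''] [Field k]
  {Mid SSp KP : Type} {Ft : Comp Mid SSp → Type} [∀ v, Field (Ft v)] [∀ v, Algebra k (Ft v)]
  (comp : SSp → KP → Mid)
  (pInf : SSp → Place k (Ft cInf)) (pMid : ∀ e s, Place k (Ft (mid (comp e s))))
  (zW : ∀ e, Place k (Ft (ze e))) (pZero : SSp → Place k (Ft cZero))
  (zT : ∀ e, Place k (Ft (ze e))) (zK : ∀ e, KP → Place k (Ft (ze e)))
  (nodeTube : Node SSp KP → Set (Place K F''))
  (smTube : (Σ v, Place k (Ft v)) → Set (Place K F''))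
  (g : Place K F'' → Place K F'')
  (hnode : ∀ x, ∀ P ∈ nodeTube x, g P ∈ nodeTube x)
  (hsm : ∀ y, ∀ P ∈ smTube y, g P ∈ smTube y)

include hnode hsm

theorem map_mem_tubeS (y : Σ v, Place k (Ft v)) (P : Place K F'')
    (hP : P ∈ tubeS comp pInf pMid zW pZero zT zK nodeTube smTube y) :
    g P ∈ tubeS comp pInf pMid zW pZero zT zK nodeTube smTube y :=
  map_mem_tubeFam _ _ _ _ nodeTube smTube g hnode hsm y P hP

theorem map_mem_THf (b : Bool) (Q : Place k (Ft (Sum.inl (Sum.inl b)))) (P : Place K F'')
    (hP : P ∈ THf comp pInf pMid zW pZero zT zK nodeTube smTube b Q) :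
    g P ∈ THf comp pInf pMid zW pZero zT zK nodeTube smTube b Q :=
  map_mem_tubeS comp pInf pMid zW pZero zT zK nodeTube smTube g hnode hsm _ P hP

theorem map_mem_TMf (i : Mid) (Q : Place k (Ft (mid i))) (P : Place K F'')
    (hP : P ∈ TMf comp pInf pMid zW pZero zT zK nodeTube smTube i Q) :
    g P ∈ TMf comp pInf pMid zW pZero zT zK nodeTube smTube i Q :=
  map_mem_tubeS comp pInf pMid zW pZero zT zK nodeTube smTube g hnode hsm _ P hP

theorem map_mem_TZf (e : SSp) (Q : Place k (Ft (ze e))) (P : Place K F'')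
    (hP : P ∈ TZf comp pInf pMid zW pZero zT zK nodeTube smTube e Q) :
    g P ∈ TZf comp pInf pMid zW pZero zT zK nodeTube smTube e Q :=
  map_mem_tubeS comp pInf pMid zW pZero zT zK nodeTube smTube g hnode hsm _ P hP

end Families

end Fermat.Agent.BR3.SDD.Partition
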