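import Fermat.Agent.BR3.SDD.ModularRaw

/-!
# Program C (S36), node I7 (integrator), part 17: `modelAt_of_raw` with a FREE thickness at `nW e`

(HOLE #2 of the audit.)  The node `nW e` of `S''` is built over the INNER sub-annulus of the SWAPPED
crossing `Fr e` of `S'ref_b`; its thickness is `(gaugeB (Fr e))⁻¹ * thick (Fr e)`, and
`thick (DtM …) (Fr e)`, `thick (DtM …) e` are not provably equal (only their absolute values, `|q|`).
`ThickSDDPlug.richProp_of_gauges` accepts ANY family `thick'` with `|thick' e| = |q|`: the theorems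
below are `richProp_of_cases`, `modelAt_of_cases`, `modelAt_of_casesAll`, `modelAt_of_raw` with the
hypothesis `hW : (LW e).thick = (gaugeB e)⁻¹ * thickW e` for a free `thickW` with
`hthickW : ∀ e, |thickW e| = |q|` (e.g. `thickW e := thick (DtM …) (Fr e)`,
`hthickW e := valuation_thick_DtM … (Fr e)`).
-/

set_option autoImplicit false
set_option linter.style.haveILetI false
set_option linter.unusedSectionVars false
set_option linter.unusedVariables false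
set_option synthInstance.maxHeartbeats 400000

open ModularCurve AlgebraicCurve

noncomputable section

/- S36 build-time patch: file-local shortcut instances. They only shorten instance search;
each is the instance that the search finds anyway (reducible, same terms after unfolding). -/
local instance (priority := 100000) Fermat.Agent.BR3.FastInst.instAlgFullC_SDD_ModularRawW
    {k : Type*} [Field k] (N : ℕ) :
    Algebra k ↥(ModularCurve.modularFunctionFieldFullC k N) := inferInstance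
local instance (priority := 100000) Fermat.Agent.BR3.FastInst.instFieldFullC_SDD_ModularRawW
    {k : Type*} [Field k] (N : ℕ) :
    Field ↥(ModularCurve.modularFunctionFieldFullC k N) := inferInstance
local instance (priority := 100000) Fermat.Agent.BR3.FastInst.instAlgLaurent_SDD_ModularRawW
    {k : Type*} [Field k] : Algebra k (LaurentSeries k) := inferInstance


namespace Fermat.Agent.BR3.SDD.Modular

open IsLocalRing Fermat.Agent.Jac Fermat.Agent.X0 Fermat.Agent.Red Fermat.Agent.Val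
  Fermat.Agent.BR.SS Fermat.Agent.BR Fermat.Agent.BR.InertiaRed Fermat.Agent.BR.UnramCyclo
  Fermat.Agent.BR3.EquivInert Fermat.Agent.BR3.TorGlue Fermat.Agent.BR2.Filt
  Fermat.Agent.BR3.FiltMaps Fermat.Agent.BR3.FiltPerm
  Fermat.Agent.BR.S0 Fermat.Agent.BR.S0.PointDict Fermat.Agent.BR.S0.RedModular
  Fermat.Agent.BR3.FibreProd Fermat.Agent.BR.TwoVal Fermat.Agent.BR.Refine
  Fermat.Agent.BR.Circle Fermat.Agent.BR3.CircleN Fermat.Agent.BR3.SplitBranch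
  Fermat.Agent.BR3.ThickSDDPlug Fermat.Agent.BR3.SDD.Partition Fermat.Agent.BR3.SRef.Modular
  Fermat.Agent.BR2.SetupOfData Fermat.Agent.BR3.ThickSDD Fermat.Agent.BR.LevelTransfer
  Fermat.Agent.BR2.LevelMaps

local notation "Qb" => AlgebraicClosure ℚ

variable {M q : ℕ} [NeZero M] [hq : Fact q.Prime] [NeZero q]
variable (B : ValuationSubring (AlgebraicClosure ℚ)) (hB : B.LiesOverPrime q) (hqM : ¬ q ∣ M)
variable [IsAlgClosed (ResidueField B)]
variable {ζ : Kbˣ} (hζ : IsPrimitiveRoot ζ q)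

local notation "kB" => IsLocalRing.ResidueField B
local notation "FtM" => modularFunctionFieldFullC (IsLocalRing.ResidueField B) M

/-- (shortcut instance) -/
local instance (priority := 100000) instAlgebraFtMShortcutV :
    Algebra (IsLocalRing.ResidueField B)
      (modularFunctionFieldFullC (IsLocalRing.ResidueField B) M) :=
  inferInstance

/-- (shortcut instance: the search through the tower takes seconds) -/
local instance (priority := 100000) instAlgebraFMidShortcutV :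
    Algebra (IsLocalRing.ResidueField B) (FMid M B) :=
  inferInstance


section Top

variable {KP : Type} [Fintype KP] [Fintype (SSpM B hB hqM)]
  {Ft : Comp (MidM B hB hqM hζ) (SSpM B hB hqM) → Type} [∀ v, Field (Ft v)]
  [∀ v, Algebra (ResidueField B) (Ft v)]
  (X : CaseInput (F := Fb (M * q * q)) B (MidM B hB hqM hζ) (SSpM B hB hqM) KP Ft)
  {ιT : SSpM B hB hqM → Type} {ιK : SSpM B hB hqM → KP → Type} {ιW : SSpM B hB hqM → Type}
  (Y : CaseCircle X ιT ιK ιW)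

/-- **(G3)+(G4) for the by-cases inputs**, with a free thickness `thickW` (`|thickW e| = |q|`) at
the wild nodes. -/
theorem richProp_of_cases_thick
    {d : ℕ} (hd : d * Fintype.card KP + 1 = q) (κ₀ : SSpM B hB hqM → KP → Qb)
    (thickW : SSpM B hB hqM → Qb)
    (hthickW : ∀ e, B.valuation (thickW e) = B.valuation (q : Qb))
    (hT : ∀ e, (Y.LT e).thick = gaugeA q B hB hqM e)
    (hW : ∀ e, (Y.LW e).thick = (gaugeB q B hB hqM e)⁻¹ * thickW e)
    (hκ : ∀ e s, B.valuation (κ₀ e s) = 1)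
    (hK : ∀ e s, gaugeA q B hB hqM e = κ₀ e s * (Y.LK e s).thick ^ d)
    (hparts : ∀ s ∈ B.inertiaSubgroupIn ℚ, s (unifSDD q) = unifSDD q →
      (∀ a ∈ cycloField Qb q, s a = a) → (∀ ζ' : Qb, ζ' ^ q = 1 → s ζ' = ζ') →
      ActsTrivially (X.C cInf).O (galAut (M * q * q) s) ∧
      ActsTrivially (X.C cZero).O (galAut (M * q * q) s) ∧
      (∀ i, ActsTrivially (X.C (mid i)).O (galAut (M * q * q) s)) ∧
      (∀ e, ActsTrivially (X.C (ze e)).O (galAut (M * q * q) s)) ∧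
      (∀ b Q, ∀ P ∈ X.TH b Q, galAut (M * q * q) s • P ∈ X.TH b Q) ∧
      (∀ i Q, ∀ P ∈ X.TM i Q, galAut (M * q * q) s • P ∈ X.TM i Q) ∧
      (∀ e Q, ∀ P ∈ X.TZ e Q, galAut (M * q * q) s • P ∈ X.TZ e Q) ∧
      (∀ e, galAut (M * q * q) s • (Y.LT e).u = (Y.LT e).u) ∧
      (∀ e t, galAut (M * q * q) s • (Y.LK e t).u = (Y.LK e t).u) ∧
      ∀ e, galAut (M * q * q) s • (Y.LW e).u = (Y.LW e).u) :
    S36Plug.RichProp M q B X.toInput Y.toCircleData :=
  richProp_of_gauges hq.out (unifSDD_pow hq.out.one_lt) hd thickW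
    (gaugeA q B hB hqM) (gaugeB q B hB hqM) κ₀ hthickW
    (fun e => valuation_gaugeSDD_pow hq.out.one_lt B (hthickW e))
    (fun e => valuation_gaugeSDD_pow_q hq.out.one_lt B (hthickW e)) hT hW hκ hK
    (fun s hs h1 h2' h3' => by
      obtain ⟨hInf, hZero, hMid, hZe, hTH, hTM, hTZ, huT, huK, huW⟩ := hparts s hs h1 h2' h3'
      exact Fermat.Agent.BR3.EquivGlueCases.trivialAction_of_cases_gen X Y _
        (Fermat.Agent.BR3.EquivHoriz.isInertial_gal (M * q * q) B hs) hInf hZero hMid hZe hTH hTM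
        hTZ huT huK huW)

/-- **`S36Plug.ModelAt` from the by-cases inputs and the outputs of the owners** (G2)–(G7), with a
free thickness at the wild nodes. -/
theorem modelAt_of_cases_thick (lam : ℕ) (hlam : lam.Prime) (hqlam : q ≠ lam)
    (h2 : nuTwo M = 0) (h3 : nuThree M = 0)
    (hFt : ∀ v, RiemannPkg (ResidueField B) (Ft v))
    (hInf : (X.C cInf).O = w1 M B hB)
    (hZero : (X.C SDD.cZero).O = Fermat.Agent.BR3.CZero.cZero B hB hqM)
    (hMid : ∀ i, (X.C (mid i)).O = i.ring B hB hqM hζ)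
    {gz : ℤ}
    (hgZero : (genusFF (ResidueField B) (Ft cZero) : ℤ) = (genusFF Qb (Fb M) : ℤ))
    (hgInf : (genusFF (ResidueField B) (Ft cInf) : ℤ) = (genusFF Qb (Fb M) : ℤ))
    (hze : ∀ e, (genusFF (ResidueField B) (Ft (ze e)) : ℤ) = gz)
    (hsurj : ∀ e i, ∃ s, X.comp e s = i)
    (dM : MidM B hB hqM hζ → ℤ) (hdM : ∑ i, dM i = (q : ℤ) - 1)
    (hRH : ∀ i, dM i * (2 * (genusFF Qb (Fb M) : ℤ) - 2) +
        (Fintype.card (SSpM B hB hqM) : ℤ) * (dM i - 1) ≤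
      2 * (genusFF (ResidueField B) (Ft (mid i)) : ℤ) - 2)
    (hz : (q : ℤ) + 1 ≤ 2 * gz + (Fintype.card KP : ℤ))
    {d : ℕ} (hd : d * Fintype.card KP + 1 = q) (κ₀ : SSpM B hB hqM → KP → Qb)
    (thickW : SSpM B hB hqM → Qb)
    (hthickW : ∀ e, B.valuation (thickW e) = B.valuation (q : Qb))
    (hT : ∀ e, (Y.LT e).thick = gaugeA q B hB hqM e)
    (hW : ∀ e, (Y.LW e).thick = (gaugeB q B hB hqM e)⁻¹ * thickW e)
    (hκ : ∀ e s, B.valuation (κ₀ e s) = 1)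
    (hK : ∀ e s, gaugeA q B hB hqM e = κ₀ e s * (Y.LK e s).thick ^ d)
    (hparts : ∀ s ∈ B.inertiaSubgroupIn ℚ, s (unifSDD q) = unifSDD q →
      (∀ a ∈ cycloField Qb q, s a = a) → (∀ ζ' : Qb, ζ' ^ q = 1 → s ζ' = ζ') →
      ActsTrivially (X.C cInf).O (galAut (M * q * q) s) ∧
      ActsTrivially (X.C cZero).O (galAut (M * q * q) s) ∧
      (∀ i, ActsTrivially (X.C (mid i)).O (galAut (M * q * q) s)) ∧
      (∀ e, ActsTrivially (X.C (ze e)).O (galAut (M * q * q) s)) ∧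
      (∀ b Q, ∀ P ∈ X.TH b Q, galAut (M * q * q) s • P ∈ X.TH b Q) ∧
      (∀ i Q, ∀ P ∈ X.TM i Q, galAut (M * q * q) s • P ∈ X.TM i Q) ∧
      (∀ e Q, ∀ P ∈ X.TZ e Q, galAut (M * q * q) s • P ∈ X.TZ e Q) ∧
      (∀ e, galAut (M * q * q) s • (Y.LT e).u = (Y.LT e).u) ∧
      (∀ e t, galAut (M * q * q) s • (Y.LK e t).u = (Y.LK e t).u) ∧
      ∀ e, galAut (M * q * q) s • (Y.LW e).u = (Y.LW e).u)
    (e₂ : ℕ) (he₂ : e₂ ≠ 0)
    (hvert : ∀ e : SSpM B hB hqM, ∃ s ∈ B.inertiaSubgroupIn ℚ,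
      ∃ a : Ft (ze e) ≃ₐ[ResidueField B] Ft (ze e),
        MapsComp X.toInput.setup (galAut (M * q * q) s) (ze e) (ze e) a ∧
        ∀ x : Pic0 (ResidueField B) (Ft (ze e)), SemilinearAut.ofAlgAut a • x = x → e₂ • x = 0)
    (ht : S36Plug.TameProp M q lam B X.toInput) : S36Plug.ModelAt M q lam B :=
  modelAt_of_props B hB hqM hζ X Y lam hFt
    (genusProp_of_cases B hB hqM hζ X h2 h3 hFt hgZero hgInf hze hsurj dM hdM hRH hz)
    (richProp_of_cases_thick B hB hqM hζ X Y hd κ₀ thickW hthickW hT hW hκ hK hparts)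
    (kindProp_of_cases B hB hqM hζ X lam hlam hqlam hFt hInf hZero hMid e₂ he₂ hvert) ht

end Top

section CasesAll

variable {FZ : SSpM B hB hqM → Type} [∀ e, Field (FZ e)] [∀ e, Algebra (ResidueField B) (FZ e)]
  {KP : Type} [Fintype KP] [Fintype (SSpM B hB hqM)]
  (CZ : ∀ e, ConstRed (F := Fb (M * q * q)) (Ft := FZ e) B (residue B))
  (X : CaseInput (F := Fb (M * q * q)) B (MidM B hB hqM hζ) (SSpM B hB hqM) KP
    (FtAll B hB hqM hζ FZ))
  {ιT : SSpM B hB hqM → Type} {ιK : SSpM B hB hqM → KP → Type} {ιW : SSpM B hB hqM → Type}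
  (Y : CaseCircle X ιT ιK ιW)

/-- **`S36Plug.ModelAt` from the by-cases inputs with `C := CAll …`**, with a free thickness at the
wild nodes. -/
theorem modelAt_of_casesAll_thick (hXC : X.C = CAll B hB hqM hζ CZ)
    (lam : ℕ) (hlam : lam.Prime) (hqlam : q ≠ lam) (h2 : nuTwo M = 0) (h3 : nuThree M = 0)
    (hZ : ∀ e, RiemannPkg (ResidueField B) (FZ e))
    {gz : ℤ} (hze : ∀ e, (genusFF (ResidueField B) (FZ e) : ℤ) = gz)
    (hsurj : ∀ e i, ∃ s, X.comp e s = i)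
    (dM : MidM B hB hqM hζ → ℤ) (hdM : ∑ i, dM i = (q : ℤ) - 1)
    (hRH : ∀ i, dM i * (2 * (genusFF Qb (Fb M) : ℤ) - 2) +
        (Fintype.card (SSpM B hB hqM) : ℤ) * (dM i - 1) ≤
      2 * (genusFF (ResidueField B) (FMid M B) : ℤ) - 2)
    (hz : (q : ℤ) + 1 ≤ 2 * gz + (Fintype.card KP : ℤ))
    {d : ℕ} (hd : d * Fintype.card KP + 1 = q) (κ₀ : SSpM B hB hqM → KP → Qb)
    (thickW : SSpM B hB hqM → Qb)
    (hthickW : ∀ e, B.valuation (thickW e) = B.valuation (q : Qb))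
    (hT : ∀ e, (Y.LT e).thick = gaugeA q B hB hqM e)
    (hW : ∀ e, (Y.LW e).thick = (gaugeB q B hB hqM e)⁻¹ * thickW e)
    (hκ : ∀ e s, B.valuation (κ₀ e s) = 1)
    (hK : ∀ e s, gaugeA q B hB hqM e = κ₀ e s * (Y.LK e s).thick ^ d)
    (hparts : ∀ s ∈ B.inertiaSubgroupIn ℚ, s (unifSDD q) = unifSDD q →
      (∀ a ∈ cycloField Qb q, s a = a) → (∀ ζ' : Qb, ζ' ^ q = 1 → s ζ' = ζ') →
      ActsTrivially (w1 M B hB) (galAut (M * q * q) s) ∧
      ActsTrivially (Fermat.Agent.BR3.CZero.cZero B hB hqM) (galAut (M * q * q) s) ∧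
      (∀ i : MidM B hB hqM hζ, ActsTrivially (i.ring B hB hqM hζ) (galAut (M * q * q) s)) ∧
      (∀ e, ActsTrivially (CZ e).O (galAut (M * q * q) s)) ∧
      (∀ b Q, ∀ P ∈ X.TH b Q, galAut (M * q * q) s • P ∈ X.TH b Q) ∧
      (∀ i Q, ∀ P ∈ X.TM i Q, galAut (M * q * q) s • P ∈ X.TM i Q) ∧
      (∀ e Q, ∀ P ∈ X.TZ e Q, galAut (M * q * q) s • P ∈ X.TZ e Q) ∧
      (∀ e, galAut (M * q * q) s • (Y.LT e).u = (Y.LT e).u) ∧
      (∀ e t, galAut (M * q * q) s • (Y.LK e t).u = (Y.LK e t).u) ∧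
      ∀ e, galAut (M * q * q) s • (Y.LW e).u = (Y.LW e).u)
    (e₂ : ℕ) (he₂ : e₂ ≠ 0)
    (hvert : ∀ e : SSpM B hB hqM, ∃ s ∈ B.inertiaSubgroupIn ℚ,
      ∃ a : FZ e ≃ₐ[ResidueField B] FZ e,
        MapsComp X.toInput.setup (galAut (M * q * q) s) (ze e) (ze e) a ∧
        ∀ x : Pic0 (ResidueField B) (FZ e), SemilinearAut.ofAlgAut a • x = x → e₂ • x = 0)
    (ht : S36Plug.TameProp M q lam B X.toInput) : S36Plug.ModelAt M q lam B := by
  have hInf : (X.C cInf).O = w1 M B hB := by rw [hXC]; rfl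
  have hZero : (X.C SDD.cZero).O = Fermat.Agent.BR3.CZero.cZero B hB hqM := by rw [hXC]; rfl
  have hMid : ∀ i, (X.C (mid i)).O = i.ring B hB hqM hζ := fun i => by
    rw [hXC]; exact CAll_mid_O B hB hqM hζ CZ i
  have hZe : ∀ e, (X.C (ze e)).O = (CZ e).O := fun e => by rw [hXC]; rfl
  refine modelAt_of_cases_thick B hB hqM hζ X Y lam hlam hqlam h2 h3 (hFtAll B hB hqM hζ hZ) hInf
    hZero hMid (genus_cZero_FtAll B hB hqM hζ) (genus_cInf_FtAll B hB hqM hζ) hze hsurj dM hdM hRH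
    hz hd κ₀ thickW hthickW hT hW hκ hK ?_ e₂ he₂ hvert ht
  intro s hs h1 h2' h3'
  obtain ⟨a1, a2, a3, a4, a5⟩ := hparts s hs h1 h2' h3'
  refine ⟨hInf ▸ a1, hZero ▸ a2, fun i => (hMid i) ▸ a3 i, fun e => (hZe e) ▸ a4 e, a5⟩

end CasesAll

variable (h2 : nuTwo M = 0) (h3 : nuThree M = 0)
  {FZ : SSpM B hB hqM → Type} [∀ e, Field (FZ e)] [∀ e, Algebra (ResidueField B) (FZ e)]
  {KP : Type}

/-- (shortcut instance) -/
local instance (priority := 100000) instFieldFtAllShortcutV :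
    ∀ v, Field (FtAll B hB hqM hζ FZ v) :=
  inferInstance

/-- (shortcut instance) -/
local instance (priority := 100000) instAlgebraFtAllShortcutV :
    ∀ v, Algebra (IsLocalRing.ResidueField B) (FtAll B hB hqM hζ FZ v) :=
  inferInstance

variable
  (CZ : ∀ e, ConstRed (F := Fb (M * q * q)) (Ft := FZ e) B (residue B))
  (hZc : ∀ e, ((CZ e).O).comap (alpha2 M q : Fb (M * q) →+* Fb (M * q * q)) =
    ringEA B hB hqM h2 h3 e)
  (comp : SSpM B hB hqM → KP → MidM B hB hqM hζ) (comp_surj : ∀ i, ∃ e s, comp e s = i)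
  (pMid : ∀ e s, Place (ResidueField B) (FtAll B hB hqM hζ FZ (mid (comp e s))))
  (zT : ∀ e, Place (ResidueField B) (FtAll B hB hqM hζ FZ (ze e)))
  (zK : ∀ e, KP → Place (ResidueField B) (FtAll B hB hqM hζ FZ (ze e)))
  (zW : ∀ e, Place (ResidueField B) (FtAll B hB hqM hζ FZ (ze e)))
  (pMid_injective : ∀ e s e' s', (⟨mid (comp e s), pMid e s⟩ :
    Σ v, Place (ResidueField B) (FtAll B hB hqM hζ FZ v)) = ⟨mid (comp e' s'), pMid e' s'⟩ →
      e = e' ∧ s = s')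
  (zK_injective : ∀ e, Function.Injective (zK e)) (zT_ne_zK : ∀ e s, zT e ≠ zK e s)
  (zW_ne_zT : ∀ e, zW e ≠ zT e) (zW_ne_zK : ∀ e s, zW e ≠ zK e s)
  (nodeTube : Node (SSpM B hB hqM) KP → Set (Place Kb (Fb (M * q * q))))
  (smTube : (Σ v, Place (ResidueField B) (FtAll B hB hqM hζ FZ v)) →
    Set (Place Kb (Fb (M * q * q))))
  (cover : ∀ P, ∃ y, P ∈ tubeS comp (pInfM B hB hqM) pMid zW (pZeroM B hB hqM) zT zK nodeTube
    smTube y)
  (disjoint : ∀ P y y',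
    P ∈ tubeS comp (pInfM B hB hqM) pMid zW (pZeroM B hB hqM) zT zK nodeTube smTube y →
    P ∈ tubeS comp (pInfM B hB hqM) pMid zW (pZeroM B hB hqM) zT zK nodeTube smTube y' → y = y')
  (smInf : ∀ Q : Place (ResidueField B) (FtAll B hB hqM hζ FZ cInf),
    (∀ e, Q ≠ pInfM B hB hqM e) →
    SmoothChart B (CAll B hB hqM hζ CZ cInf).O (CAll B hB hqM hζ CZ cInf).res Q
      (smTube ⟨cInf, Q⟩))
  (smZero : ∀ Q : Place (ResidueField B) (FtAll B hB hqM hζ FZ SDD.cZero),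
    (∀ e, Q ≠ pZeroM B hB hqM e) →
    SmoothChart B (CAll B hB hqM hζ CZ SDD.cZero).O (CAll B hB hqM hζ CZ SDD.cZero).res Q
      (smTube ⟨SDD.cZero, Q⟩))
  (smMid : ∀ (i : MidM B hB hqM hζ) (Q : Place (ResidueField B) (FtAll B hB hqM hζ FZ (mid i))),
    (∀ e s, (⟨mid i, Q⟩ : Σ v, Place (ResidueField B) (FtAll B hB hqM hζ FZ v)) ≠
      ⟨mid (comp e s), pMid e s⟩) →
    SmoothChart B (CAll B hB hqM hζ CZ (mid i)).O (CAll B hB hqM hζ CZ (mid i)).res Q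
      (smTube ⟨mid i, Q⟩))
  (smZe : ∀ (e : SSpM B hB hqM) (Q : Place (ResidueField B) (FtAll B hB hqM hζ FZ (ze e))),
    Q ≠ zW e → Q ≠ zT e → (∀ s, Q ≠ zK e s) →
    SmoothChart B (CAll B hB hqM hζ CZ (ze e)).O (CAll B hB hqM hζ CZ (ze e)).res Q
      (smTube ⟨ze e, Q⟩))
  (chT : ∀ e, NodeChart B (CAll B hB hqM hζ CZ cInf).O (CAll B hB hqM hζ CZ (ze e)).O
    (CAll B hB hqM hζ CZ cInf).res (CAll B hB hqM hζ CZ (ze e)).res (pInfM B hB hqM e) (zT e)
    (nodeTube (nT e)))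
  (chK : ∀ e s, NodeChart B (CAll B hB hqM hζ CZ (mid (comp e s))).O
    (CAll B hB hqM hζ CZ (ze e)).O (CAll B hB hqM hζ CZ (mid (comp e s))).res
    (CAll B hB hqM hζ CZ (ze e)).res (pMid e s) (zK e s) (nodeTube (nk e s)))
  (chW : ∀ e, NodeChart B (CAll B hB hqM hζ CZ (ze e)).O (CAll B hB hqM hζ CZ SDD.cZero).O
    (CAll B hB hqM hζ CZ (ze e)).res (CAll B hB hqM hζ CZ SDD.cZero).res (zW e)
    (pZeroM B hB hqM e) (nodeTube (nW e)))

/-- the abbreviation of `XRaw` with all its arguments -/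
local notation "XR" =>
  XRaw B hB hqM hζ h2 h3 CZ hZc comp comp_surj pMid zT zK zW pMid_injective zK_injective zT_ne_zK
    zW_ne_zT zW_ne_zK nodeTube smTube cover disjoint smInf smZero smMid smZe chT chK chW


variable {ιT : SSpM B hB hqM → Type} {ιK : SSpM B hB hqM → KP → Type}
  {ιW : SSpM B hB hqM → Type}
  (LT : ∀ e, AnnulusLevels B (nodeTube (nT e)) (ιT e))
  (LK : ∀ e s, AnnulusLevels B (nodeTube (nk e s)) (ιK e s))
  (LW : ∀ e, AnnulusLevels B (nodeTube (nW e)) (ιW e))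
  (T₁ : ∀ e, BranchComp (residue B) (CAll B hB hqM hζ CZ cInf).O (CAll B hB hqM hζ CZ cInf).res
    (pInfM B hB hqM e) (LT e))
  (T₂ : ∀ e, BranchComp (residue B) (CAll B hB hqM hζ CZ (ze e)).O
    (CAll B hB hqM hζ CZ (ze e)).res (zT e) (LT e))
  (K₁ : ∀ e s, BranchComp (residue B) (CAll B hB hqM hζ CZ (mid (comp e s))).O
    (CAll B hB hqM hζ CZ (mid (comp e s))).res (pMid e s) (LK e s))
  (K₂ : ∀ e s, BranchComp (residue B) (CAll B hB hqM hζ CZ (ze e)).O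
    (CAll B hB hqM hζ CZ (ze e)).res (zK e s) (LK e s))
  (W₁ : ∀ e, BranchComp (residue B) (CAll B hB hqM hζ CZ (ze e)).O
    (CAll B hB hqM hζ CZ (ze e)).res (zW e) (LW e))
  (W₂ : ∀ e, BranchComp (residue B) (CAll B hB hqM hζ CZ SDD.cZero).O
    (CAll B hB hqM hζ CZ SDD.cZero).res (pZeroM B hB hqM e) (LW e))
  (T_v_src : ∀ e, (LT e).v ∈ (CAll B hB hqM hζ CZ cInf).O.nonunits)
  (T_u_tgt : ∀ e, (LT e).u ∈ (CAll B hB hqM hζ CZ (ze e)).O.nonunits)
  (K_v_src : ∀ e s, (LK e s).v ∈ (CAll B hB hqM hζ CZ (mid (comp e s))).O.nonunits)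
  (K_u_tgt : ∀ e s, (LK e s).u ∈ (CAll B hB hqM hζ CZ (ze e)).O.nonunits)
  (W_v_src : ∀ e, (LW e).v ∈ (CAll B hB hqM hζ CZ (ze e)).O.nonunits)
  (W_u_tgt : ∀ e, (LW e).u ∈ (CAll B hB hqM hζ CZ SDD.cZero).O.nonunits)
  (T_unif₁ : ∀ e, ∃ i, ∃ t : ((LT e).level i).R,
    (pInfM B hB hqM e).ord ((CAll B hB hqM hζ CZ cInf).res ⟨t, (T₁ e).le i t t.2⟩) = 1)
  (T_unif₂ : ∀ e, ∃ i, ∃ t : ((LT e).level i).R,
    (zT e).ord ((CAll B hB hqM hζ CZ (ze e)).res ⟨t, (T₂ e).le i t t.2⟩) = 1)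
  (K_unif₁ : ∀ e s, ∃ i, ∃ t : ((LK e s).level i).R,
    (pMid e s).ord ((CAll B hB hqM hζ CZ (mid (comp e s))).res ⟨t, (K₁ e s).le i t t.2⟩) = 1)
  (K_unif₂ : ∀ e s, ∃ i, ∃ t : ((LK e s).level i).R,
    (zK e s).ord ((CAll B hB hqM hζ CZ (ze e)).res ⟨t, (K₂ e s).le i t t.2⟩) = 1)
  (W_unif₁ : ∀ e, ∃ i, ∃ t : ((LW e).level i).R,
    (zW e).ord ((CAll B hB hqM hζ CZ (ze e)).res ⟨t, (W₁ e).le i t t.2⟩) = 1)
  (W_unif₂ : ∀ e, ∃ i, ∃ t : ((LW e).level i).R,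
    (pZeroM B hB hqM e).ord ((CAll B hB hqM hζ CZ SDD.cZero).res ⟨t, (W₂ e).le i t t.2⟩) = 1)


include T₁ T₂ K₁ K₂ W₁ W₂ T_v_src T_u_tgt K_v_src K_u_tgt W_v_src W_u_tgt T_unif₁ T_unif₂ K_unif₁
  K_unif₂ W_unif₁ W_unif₂ in
/-- **`S36Plug.ModelAt` from the raw data of the owners**, with a free thickness `thickW`
(`|thickW e| = |q|`) at the wild nodes `nW e` (e.g. `thickW e := thick (DtM …) (Fr e)`). -/
theorem modelAt_of_raw_thick [Fintype KP] [Fintype (SSpM B hB hqM)]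
    (sep_comp : ∀ x w, w ≠ (XR).toInput.setup.src x → w ≠ (XR).toInput.setup.tgt x →
      SepComp (XR).toInput.setup x w)
    (sep : ∀ x x', x ≠ x' → Separated (XR).toInput.setup x x')
    (lam : ℕ) (hlam : lam.Prime) (hqlam : q ≠ lam)
    (hZ : ∀ e, RiemannPkg (ResidueField B) (FZ e))
    -- (G7)
    {gz : ℤ} (hze : ∀ e, (genusFF (ResidueField B) (FZ e) : ℤ) = gz)
    (hsurj : ∀ e i, ∃ s, comp e s = i)
    (dM : MidM B hB hqM hζ → ℤ) (hdM : ∑ i, dM i = (q : ℤ) - 1)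
    (hRH : ∀ i, dM i * (2 * (genusFF Qb (Fb M) : ℤ) - 2) +
        (Fintype.card (SSpM B hB hqM) : ℤ) * (dM i - 1) ≤
      2 * (genusFF (ResidueField B) (FMid M B) : ℤ) - 2)
    (hz : (q : ℤ) + 1 ≤ 2 * gz + (Fintype.card KP : ℤ))
    -- (G3)
    {d : ℕ} (hd : d * Fintype.card KP + 1 = q) (κ₀ : SSpM B hB hqM → KP → Qb)
    (thickW : SSpM B hB hqM → Qb)
    (hthickW : ∀ e, B.valuation (thickW e) = B.valuation (q : Qb))
    (hT : ∀ e, (LT e).thick = gaugeA q B hB hqM e)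
    (hW : ∀ e, (LW e).thick = (gaugeB q B hB hqM e)⁻¹ * thickW e)
    (hκ : ∀ e s, B.valuation (κ₀ e s) = 1)
    (hK : ∀ e s, gaugeA q B hB hqM e = κ₀ e s * (LK e s).thick ^ d)
    -- (G4)
    (hrest : ∀ s ∈ B.inertiaSubgroupIn ℚ, s (unifSDD q) = unifSDD q →
      (∀ a ∈ cycloField Qb q, s a = a) → (∀ ζ' : Qb, ζ' ^ q = 1 → s ζ' = ζ') →
      (∀ e, ActsTrivially (CZ e).O (galAut (M * q * q) s)) ∧
      (∀ x, ∀ P ∈ nodeTube x, galAut (M * q * q) s • P ∈ nodeTube x) ∧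
      (∀ y, ∀ P ∈ smTube y, galAut (M * q * q) s • P ∈ smTube y) ∧
      (∀ e, galAut (M * q * q) s • (LT e).u = (LT e).u) ∧
      (∀ e t, galAut (M * q * q) s • (LK e t).u = (LK e t).u) ∧
      ∀ e, galAut (M * q * q) s • (LW e).u = (LW e).u)
    -- (G5)
    (e₂ : ℕ) (he₂ : e₂ ≠ 0)
    (hvert : ∀ e : SSpM B hB hqM, ∃ s ∈ B.inertiaSubgroupIn ℚ,
      ∃ a : FZ e ≃ₐ[ResidueField B] FZ e,
        MapsComp (XR).toInput.setup (galAut (M * q * q) s) (ze e) (ze e) a ∧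
        ∀ x : Pic0 (ResidueField B) (FZ e), SemilinearAut.ofAlgAut a • x = x → e₂ • x = 0)
    -- (G6)
    (ht : S36Plug.TameProp M q lam B (XR).toInput) : S36Plug.ModelAt M q lam B := by
  refine modelAt_of_casesAll_thick B hB hqM hζ CZ (XR)
    (YRaw B hB hqM hζ h2 h3 CZ hZc comp comp_surj pMid zT zK zW pMid_injective zK_injective
      zT_ne_zK zW_ne_zT zW_ne_zK nodeTube smTube cover disjoint smInf smZero smMid smZe chT chK chW
      LT LK LW T₁ T₂ K₁ K₂ W₁ W₂ T_v_src T_u_tgt K_v_src K_u_tgt W_v_src W_u_tgt T_unif₁ T_unif₂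
      K_unif₁ K_unif₂ W_unif₁ W_unif₂ sep_comp sep)
    rfl lam hlam hqlam h2 h3 hZ hze hsurj dM hdM hRH hz hd κ₀ thickW hthickW hT hW hκ hK ?_ e₂ he₂
    hvert ht
  refine hparts_of_rest B hB hqM hζ CZ (XR) _ ?_
  intro s hs h1 h2' h3'
  obtain ⟨a1, a2, a3, a4, a5, a6⟩ := hrest s hs h1 h2' h3'
  refine ⟨a1, ?_, ?_, ?_, a4, a5, a6⟩
  · intro b Q P hP
    exact map_mem_THf comp (pInfM B hB hqM) pMid zW (pZeroM B hB hqM) zT zK nodeTube smTube
      (fun P => galAut (M * q * q) s • P) a2 a3 b Q P hP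
  · intro i Q P hP
    exact map_mem_TMf comp (pInfM B hB hqM) pMid zW (pZeroM B hB hqM) zT zK nodeTube smTube
      (fun P => galAut (M * q * q) s • P) a2 a3 i Q P hP
  · intro e Q P hP
    exact map_mem_TZf comp (pInfM B hB hqM) pMid zW (pZeroM B hB hqM) zT zK nodeTube smTube
      (fun P => galAut (M * q * q) s • P) a2 a3 e Q P hP

end Fermat.Agent.BR3.SDD.Modular
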