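import Fermat.Agent.BR3.SDD.ModularRestFinal
import Fermat.Agent.BR3.SDD.ModularNodeKFinal
import Fermat.Agent.BR3.SDD.ModularNodeWClosed
import Fermat.Agent.BR3.SDD.ModularCompM

/-!
# Program C (S36), node (G4-DONE): the binder `hrest` at THE final family, hypothesis-free

`hrest_family` (`BR3/SDD/ModularRestFinal.lean`) at the Kummer column of the FINAL call

* `tubeK := tubeKF …`, `LK := LKF … hcop hex (hvalM … hcop hex)`
  (`BR3/SDD/ModularNodeKFinal.lean`; `comp = compM … hcop hex` of `BR3/SDD/ModularCompM.lean`),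
* `LW := LWM … (hWM_closed …)` (`BR3/SDD/ModularNodeWClosed.lean`),
* `midTube := midTubeM B hB hqM hζ H` for ANY proof `H` of the atlas hypothesis,

i.e. the binder `hrest` of `SDD.Modular.modelAt_of_raw_thick` / `ModularFinal.modelAt_final_Z`
VERBATIM at `tubeT tubeK tubeW := tubeTM tubeKF tubeWM`, `LT LK LW := LTM LKF LWM`. The only
inputs are the parameters `hcop`, `hex` of `compM` itself (final: `hcopM`, `hex_modular`) and the
by-cases input `X` of the frame (final: `X := XRaw …`, `hXC := XRaw_C …`, i.e. `rfl`).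
-/

set_option autoImplicit false
set_option linter.style.haveILetI false
set_option linter.unusedSectionVars false
set_option linter.unusedVariables false
set_option synthInstance.maxHeartbeats 400000

open ModularCurve AlgebraicCurve

noncomputable section

namespace Fermat.Agent.BR3.SDD.ModularRestDone

open IsLocalRing Fermat.Agent.Jac Fermat.Agent.X0 Fermat.Agent.Red Fermat.Agent.Val
  Fermat.Agent.BR.SS Fermat.Agent.BR Fermat.Agent.BR.InertiaRed Fermat.Agent.BR.UnramCyclo
  Fermat.Agent.BR3.EquivInert Fermat.Agent.BR.S0 Fermat.Agent.BR.S0.PointDict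
  Fermat.Agent.BR.S0.RedModular Fermat.Agent.BR.S0.RedHyp Fermat.Agent.BR3.FibreProd
  Fermat.Agent.BR.TwoVal Fermat.Agent.BR.Refine Fermat.Agent.BR.Circle Fermat.Agent.BR3.CircleN
  Fermat.Agent.BR3.ThickSDDPlug Fermat.Agent.BR3.SDD Fermat.Agent.BR3.SDD.Modular
  Fermat.Agent.BR2.SetupOfData Fermat.Agent.BR3.SDD.ModularTubesMid
  Fermat.Agent.BR3.SDD.ModularTubesMidFinal Fermat.Agent.BR3.VertBetaFr
  Fermat.Agent.BR3.SplitNode Fermat.Agent.BR3.VertPtsU Fermat.Agent.BR3.IgSq
  Fermat.Agent.BR3.KummerGenus Fermat.Agent.BR3.KummerGenus.MidInst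
  Fermat.Agent.BR3.KummerCompMod Fermat.Agent.BR3.KummerNodeInputs
  Fermat.Agent.BR3.SDD.ModularNodeK Fermat.Agent.BR3.SDD.ModularNodeKFinal
  Fermat.Agent.BR3.SDD.ModularCompM Fermat.Agent.BR3.SDD.ModularRestFinal
  Fermat.Agent.BR3.RegAtlas

local notation "Qb" => AlgebraicClosure ℚ

variable {M q : ℕ} [NeZero M] [hq : Fact q.Prime] [NeZero q]
variable (B : ValuationSubring (AlgebraicClosure ℚ)) (hB : B.LiesOverPrime q) (hqM : ¬ q ∣ M)
variable [IsAlgClosed (ResidueField B)] [CharP (ResidueField B) q]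
  [PerfectField (ResidueField B)]
variable {ζ : Kbˣ} (hζ : IsPrimitiveRoot ζ q)
variable (h2 : nuTwo M = 0) (h3 : nuThree M = 0)

local notation "kB" => IsLocalRing.ResidueField B
local notation "FtM" => modularFunctionFieldFullC (IsLocalRing.ResidueField B) M

/-- (shortcut instances) -/
local instance (priority := 100000) instAlgebraFtMShortcutRestDone :
    Algebra (IsLocalRing.ResidueField B)
      (modularFunctionFieldFullC (IsLocalRing.ResidueField B) M) :=
  inferInstance
local instance (priority := 100000) instAlgKFMidRestDone :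
    Algebra (IsLocalRing.ResidueField B) (FMid M B) := inferInstance
local instance (priority := 100000) instAlgFtFMidRestDone :
    Algebra (modularFunctionFieldFullC (IsLocalRing.ResidueField B) M) (FMid M B) := inferInstance
local instance (priority := 100000) instTowerMidRestDone :
    IsScalarTower (IsLocalRing.ResidueField B)
      (modularFunctionFieldFullC (IsLocalRing.ResidueField B) M) (FMid M B) :=
  inferInstance
local instance (priority := 100000) instFieldFtAllRestDone {FZ : SSpM B hB hqM → Type}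
    [∀ e, Field (FZ e)] (v : Comp (MidM B hB hqM hζ) (SSpM B hB hqM)) :
    Field (FtAll B hB hqM hζ FZ v) := instFieldFtOf v
local instance (priority := 100000) instAlgFtAllRestDone {FZ : SSpM B hB hqM → Type}
    [∀ e, Field (FZ e)] [∀ e, Algebra (IsLocalRing.ResidueField B) (FZ e)]
    (v : Comp (MidM B hB hqM hζ) (SSpM B hB hqM)) :
    Algebra (IsLocalRing.ResidueField B) (FtAll B hB hqM hζ FZ v) := instAlgebraFtOf v

variable (H : AtlasHyp (chartDataModular B hB hqM) (jx M q))
  (hcop : ∀ e : SSpM B hB hqM,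
    IsCoprime ((z₁ (chartDataModular B hB hqM) e).ord (deltaMid B hB hqM)) (fMid M B hB : ℤ))
  (hex : q ≠ 2 → ∀ e j, ∃ s, ValAt (CM B hB hqM hζ)
    (MidFamily.pMid B hB hqM (z₁ (chartDataModular B hB hqM)) hcop) (kumTheta B hB hqM h2 h3)
    (fun e s => residue B (kumC0 B hB hqM h2 h3 e s)) e j s)
  [Nonempty (MidM B hB hqM hζ)]

variable
  (X : CaseInput (F := Fb (M * q * q)) B (MidM B hB hqM hζ) (SSpM B hB hqM) (KPq q)
    (FtAll B hB hqM hζ (FZM B hB hqM h2 h3)))
  (hXC : X.C = CAll B hB hqM hζ (CZM B hB hqM h2 h3))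

/-- the raw tubes of the nodes at THE family -/
local notation "nTb" =>
  nodeTubeM B hB hqM (tubeTM B hB hqM h2 h3) (tubeKF B hB hqM h2 h3) (tubeWM B hB hqM h2 h3)
/-- the raw tubes of the smooth points at THE family -/
local notation "sT" =>
  smTubeM B hB hqM hζ (midTubeM B hB hqM hζ H) (TZM B hB hqM h2 h3)
/-- the levels of the Kummer nodes at THE family -/
local notation "LKd" =>
  LKF B hB hqM h2 h3 hζ hcop hex (hvalM B hB hqM h2 h3 hζ hcop hex)

include X hXC in
set_option maxHeartbeats 4000000 in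
/-- **(G4-DONE)** the binder `hrest` of `modelAt_of_raw_thick` / `ModularFinal.modelAt_final_Z`
at THE final family (`tubeT tubeK tubeW := tubeTM tubeKF tubeWM`, `midTube := midTubeM … H`,
`LT LK LW := LTM LKF (LWM … hWM_closed)`), hypothesis-free. -/
theorem hrest_done :
    ∀ s ∈ B.inertiaSubgroupIn ℚ, s (unifSDD q) = unifSDD q →
      (∀ a ∈ cycloField Qb q, s a = a) → (∀ ζ' : Qb, ζ' ^ q = 1 → s ζ' = ζ') →
      (∀ e, ActsTrivially ((CZM B hB hqM h2 h3) e).O (galAut (M * q * q) s)) ∧
      (∀ x, ∀ P ∈ nTb x, galAut (M * q * q) s • P ∈ nTb x) ∧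
      (∀ y, ∀ P ∈ sT y, galAut (M * q * q) s • P ∈ sT y) ∧
      (∀ e, galAut (M * q * q) s • (LTM B hB hqM h2 h3 e).u = (LTM B hB hqM h2 h3 e).u) ∧
      (∀ e t, galAut (M * q * q) s • (LKd e t).u = (LKd e t).u) ∧
      ∀ e, galAut (M * q * q) s • (LWM B hB hqM h2 h3 (hWM_closed B hB hqM h2 h3) e).u =
        (LWM B hB hqM h2 h3 (hWM_closed B hB hqM h2 h3) e).u :=
  hrest_family B hB hqM hζ h2 h3 X hXC (hWM_closed B hB hqM h2 h3) (tubeKF B hB hqM h2 h3)
    (fun e s => LKF B hB hqM h2 h3 hζ hcop hex (hvalM B hB hqM h2 h3 hζ hcop hex) e s)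
    (fun s hs h1 _ _ e t P hP => smul_mem_tubeKF_rich B hB hqM h2 h3 hs h1 e t P hP)
    (fun s hs h1 hc hr e t =>
      smul_LKF_u B hB hqM h2 h3 hζ hcop hex (hvalM B hB hqM h2 h3 hζ hcop hex) hs h1 hc hr e t)

end Fermat.Agent.BR3.SDD.ModularRestDone
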