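import Fermat.Agent.BR3.EquivRestM
import Fermat.Agent.BR3.SDD.ModularTubesMidFinal
import Fermat.Agent.BR3.SDD.ModularVert
import Fermat.Agent.BR3.SDD.ModularNodeTEquiv
import Fermat.Agent.BR3.SDD.ModularNodeWEquiv
import Fermat.Agent.BR3.SDD.ModularNodeK
import Fermat.Agent.BR3.EquivTubesVertMod

/-!
# Program C (S36), node (G4-FINAL), family layer: the binder `hrest` at THE family

`hrest_family` : the binder `hrest` of `SDD.Modular.modelAt_of_raw_thick` VERBATIM at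

* `FZ := FZM …`, `CZ := CZM …`,
* `nodeTube := nodeTubeM B hB hqM (tubeTM …) tubeK (tubeWM …)`,
* `smTube := smTubeM B hB hqM hζ (midTubeM B hB hqM hζ (atlas (DtM …))) (TZM …)`,
* `LT := LTM …`, `LW := LWM … HW` (any proof `HW : HWM …`: `hWM_closed`, `hWM_modular`),

with the column of the Kummer nodes `nk e s` (`tubeK`, `LK`) ARBITRARY, its two clauses being the
ONLY hypotheses (`hnK`, `huK`).

`hrest_modular` : the same at the column `tubeK := tubeKM … tubeKodd`, `LK := LKM … hodd` of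
`BR3/SDD/ModularNodeK.lean` (`KP := KPq q`), from the named hypothesis `hodd : NodeKOdd …` of that
file and the stability `hoddS` of the tubes `tubeKodd e s` (`q ≠ 2`) under the rich elements.
-/

set_option autoImplicit false
set_option linter.style.haveILetI false
set_option linter.unusedSectionVars false
set_option linter.unusedVariables false
set_option synthInstance.maxHeartbeats 400000

open ModularCurve AlgebraicCurve

noncomputable section

namespace Fermat.Agent.BR3.SDD.ModularRestFinal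

open IsLocalRing Fermat.Agent.Jac Fermat.Agent.X0 Fermat.Agent.Red Fermat.Agent.Val
  Fermat.Agent.BR.SS Fermat.Agent.BR Fermat.Agent.BR.InertiaRed Fermat.Agent.BR.UnramCyclo
  Fermat.Agent.BR3.EquivInert Fermat.Agent.BR.S0 Fermat.Agent.BR.S0.PointDict
  Fermat.Agent.BR.S0.RedModular Fermat.Agent.BR.S0.RedHyp Fermat.Agent.BR3.FibreProd
  Fermat.Agent.BR.TwoVal Fermat.Agent.BR.Refine Fermat.Agent.BR.Circle Fermat.Agent.BR3.CircleN
  Fermat.Agent.BR3.ThickSDDPlug Fermat.Agent.BR3.SDD Fermat.Agent.BR3.SDD.Modular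
  Fermat.Agent.BR2.SetupOfData Fermat.Agent.BR3.SDD.ModularTubesMid
  Fermat.Agent.BR3.SDD.ModularTubesMidFinal Fermat.Agent.BR3.VertBetaFr
  Fermat.Agent.BR3.SplitNode

local notation "Qb" => AlgebraicClosure ℚ

variable {M q : ℕ} [NeZero M] [hq : Fact q.Prime] [NeZero q]
variable (B : ValuationSubring (AlgebraicClosure ℚ)) (hB : B.LiesOverPrime q) (hqM : ¬ q ∣ M)
variable [IsAlgClosed (ResidueField B)] [CharP (ResidueField B) q]
variable {ζ : Kbˣ} (hζ : IsPrimitiveRoot ζ q)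

local notation "kB" => IsLocalRing.ResidueField B
local notation "FtM" => modularFunctionFieldFullC (IsLocalRing.ResidueField B) M

/-- (shortcut instance) -/
local instance (priority := 100000) instAlgebraFtMShortcutRestF :
    Algebra (IsLocalRing.ResidueField B)
      (modularFunctionFieldFullC (IsLocalRing.ResidueField B) M) :=
  inferInstance

/-- (shortcut instance: the search through the tower takes seconds) -/
local instance (priority := 100000) instAlgebraFMidShortcutRestF :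
    Algebra (IsLocalRing.ResidueField B) (FMid M B) :=
  inferInstance

variable (h2 : nuTwo M = 0) (h3 : nuThree M = 0) {KP : Type}

/-- the atlas of the frame -/
local notation "atlM" => Fermat.Agent.BR2.SetupOfData.atlas (DtM B hB hqM)

variable
  (X : CaseInput (F := Fb (M * q * q)) B (MidM B hB hqM hζ) (SSpM B hB hqM) KP
    (FtAll B hB hqM hζ (FZM B hB hqM h2 h3)))
  (hXC : X.C = CAll B hB hqM hζ (CZM B hB hqM h2 h3))
  (HW : HWM B hB hqM h2 h3)
  (tubeK : SSpM B hB hqM → KP → Set (Place (AlgebraicClosure ℚ) (Fb (M * q * q))))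
  {ιK : SSpM B hB hqM → KP → Type}
  (LK : ∀ e s, AnnulusLevels B
    (nodeTubeM B hB hqM (tubeTM B hB hqM h2 h3) tubeK (tubeWM B hB hqM h2 h3) (nk e s)) (ιK e s))

include X hXC in
set_option maxHeartbeats 4000000 in
/-- **The binder `hrest` of `modelAt_of_raw_thick` at THE family.** -/
theorem hrest_family
    (hnK : ∀ s ∈ B.inertiaSubgroupIn ℚ, s (unifSDD q) = unifSDD q →
      (∀ a ∈ cycloField Qb q, s a = a) → (∀ ζ' : Qb, ζ' ^ q = 1 → s ζ' = ζ') →
      ∀ e t, ∀ P ∈ tubeK e t, galAut (M * q * q) s • P ∈ tubeK e t)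
    (huK : ∀ s ∈ B.inertiaSubgroupIn ℚ, s (unifSDD q) = unifSDD q →
      (∀ a ∈ cycloField Qb q, s a = a) → (∀ ζ' : Qb, ζ' ^ q = 1 → s ζ' = ζ') →
      ∀ e t, galAut (M * q * q) s • (LK e t).u = (LK e t).u) :
    ∀ s ∈ B.inertiaSubgroupIn ℚ, s (unifSDD q) = unifSDD q →
      (∀ a ∈ cycloField Qb q, s a = a) → (∀ ζ' : Qb, ζ' ^ q = 1 → s ζ' = ζ') →
      (∀ e, ActsTrivially (CZM B hB hqM h2 h3 e).O (galAut (M * q * q) s)) ∧
      (∀ x, ∀ P ∈ nodeTubeM B hB hqM (tubeTM B hB hqM h2 h3) tubeK (tubeWM B hB hqM h2 h3) x,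
        galAut (M * q * q) s • P ∈
          nodeTubeM B hB hqM (tubeTM B hB hqM h2 h3) tubeK (tubeWM B hB hqM h2 h3) x) ∧
      (∀ y, ∀ P ∈ smTubeM B hB hqM hζ (midTubeM B hB hqM hζ atlM) (TZM B hB hqM h2 h3) y,
        galAut (M * q * q) s • P ∈
          smTubeM B hB hqM hζ (midTubeM B hB hqM hζ atlM) (TZM B hB hqM h2 h3) y) ∧
      (∀ e, galAut (M * q * q) s • (LTM B hB hqM h2 h3 e).u = (LTM B hB hqM h2 h3 e).u) ∧
      (∀ e t, galAut (M * q * q) s • (LK e t).u = (LK e t).u) ∧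
      ∀ e, galAut (M * q * q) s • (LWM B hB hqM h2 h3 HW e).u =
        (LWM B hB hqM h2 h3 HW e).u :=
  Fermat.Agent.BR3.EquivRestM.hrestM B hB hqM hζ (midTubeM B hB hqM hζ atlM)
    (TZM B hB hqM h2 h3) (tubeTM B hB hqM h2 h3) tubeK (tubeWM B hB hqM h2 h3)
    (CZM B hB hqM h2 h3) (LTM B hB hqM h2 h3) LK
    (LWM B hB hqM h2 h3 HW)
    (fun s hs h1 _ _ e =>
      Fermat.Agent.BR3.SDD.ModularVert.actsTrivially_CZM B hB hqM h2 h3 X
        (fun e => congrFun hXC (ze e)) hs h1 e)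
    (fun s hs h1 _ _ e P hP => smul_mem_tubeTM B hB hqM h2 h3 e hs h1 hP)
    hnK
    (fun s hs _ _ _ e P hP => smul_mem_tubeWM B hB hqM h2 h3 hs e hP)
    (fun s hs _ _ h3' i Q => hsmMid_richF_all B hB hqM hζ h2 h3 (TZM B hB hqM h2 h3) hs h3' i Q)
    (fun s hs h1 _ _ e Q =>
      Fermat.Agent.BR3.EquivTubesVertMod.smul_mem_zeTubeM_rich B hB hqM h2 h3 hs h1 e Q)
    (fun s hs _ _ _ e => galAut_smul_LTM_u B hB hqM h2 h3 e hs)
    huK
    (fun s hs h1 _ _ e => galAut_smul_LWM_u B hB hqM h2 h3 hs h1 HW e)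

/-! ### at the Kummer column of `ModularNodeK` -/

section NodeK

open Fermat.Agent.BR3.VertPtsU Fermat.Agent.BR3.SDD.ModularNodeK

variable [PerfectField (ResidueField B)]
  (XK : CaseInput (F := Fb (M * q * q)) B (MidM B hB hqM hζ) (SSpM B hB hqM) (KPq q)
    (FtAll B hB hqM hζ (FZM B hB hqM h2 h3)))
  (hXKC : XK.C = CAll B hB hqM hζ (CZM B hB hqM h2 h3))
  (comp : SSpM B hB hqM → KPq q → MidM B hB hqM hζ)
  (tubeKodd : SSpM B hB hqM → KPq q → Set (Place (AlgebraicClosure ℚ) (Fb (M * q * q))))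
  (hodd : NodeKOdd B hB hqM hζ h2 h3 comp tubeKodd)

include XK hXKC in
set_option maxHeartbeats 4000000 in
/-- **The binder `hrest` of `modelAt_of_raw_thick` at THE family**, Kummer column of
`ModularNodeK`. -/
theorem hrest_modular
    (hoddS : ∀ s ∈ B.inertiaSubgroupIn ℚ, s (unifSDD q) = unifSDD q →
      (∀ a ∈ cycloField Qb q, s a = a) → (∀ ζ' : Qb, ζ' ^ q = 1 → s ζ' = ζ') →
      q ≠ 2 → ∀ e t, ∀ P ∈ tubeKodd e t, galAut (M * q * q) s • P ∈ tubeKodd e t) :
    ∀ s ∈ B.inertiaSubgroupIn ℚ, s (unifSDD q) = unifSDD q →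
      (∀ a ∈ cycloField Qb q, s a = a) → (∀ ζ' : Qb, ζ' ^ q = 1 → s ζ' = ζ') →
      (∀ e, ActsTrivially (CZM B hB hqM h2 h3 e).O (galAut (M * q * q) s)) ∧
      (∀ x, ∀ P ∈ nodeTubeM B hB hqM (tubeTM B hB hqM h2 h3)
          (tubeKM B hB hqM h2 h3 tubeKodd) (tubeWM B hB hqM h2 h3) x,
        galAut (M * q * q) s • P ∈ nodeTubeM B hB hqM (tubeTM B hB hqM h2 h3)
          (tubeKM B hB hqM h2 h3 tubeKodd) (tubeWM B hB hqM h2 h3) x) ∧
      (∀ y, ∀ P ∈ smTubeM B hB hqM hζ (midTubeM B hB hqM hζ atlM) (TZM B hB hqM h2 h3) y,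
        galAut (M * q * q) s • P ∈
          smTubeM B hB hqM hζ (midTubeM B hB hqM hζ atlM) (TZM B hB hqM h2 h3) y) ∧
      (∀ e, galAut (M * q * q) s • (LTM B hB hqM h2 h3 e).u = (LTM B hB hqM h2 h3 e).u) ∧
      (∀ e t, galAut (M * q * q) s • (LKM B hB hqM hζ h2 h3 comp tubeKodd hodd e t).u =
        (LKM B hB hqM hζ h2 h3 comp tubeKodd hodd e t).u) ∧
      ∀ e, galAut (M * q * q) s • (LWM B hB hqM h2 h3 HW e).u =
        (LWM B hB hqM h2 h3 HW e).u :=
  hrest_family B hB hqM hζ h2 h3 XK hXKC HW (tubeKM B hB hqM h2 h3 tubeKodd)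
    (LKM B hB hqM hζ h2 h3 comp tubeKodd hodd)
    (fun s hs h1 hc hr e t =>
      smul_mem_tubeKM_rich B hB hqM h2 h3 tubeKodd hs (hoddS s hs h1 hc hr) e t)
    (fun s hs h1 hc hr e t => smul_LKM_u B hB hqM hζ h2 h3 comp tubeKodd hodd hs h1 hc hr e t)

end NodeK

end Fermat.Agent.BR3.SDD.ModularRestFinal
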