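import Fermat.Agent.BR3.SDD.ModularFrame
import Fermat.Agent.BR3.EquivHoriz
import Fermat.Agent.BR3.MidGal

/-!
# Program C (S36), node I7 (integrator), part 14: the horizontal and middle clauses of (G4)

`hparts_of_rest` : the hypothesis `hparts` of `SDD.Modular.modelAt_of_casesAll` from its clauses on
the vertical components, the tubes and the node coordinates; the clauses on `cInf` (`w₁`), `cZero`
and the middle valuations are discharged by `EquivHoriz.actsTrivially_w1`,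
`EquivHoriz.actsTrivially_cZero` (every inertia element) and `MidGal.actsTrivially_mid` (inertia
elements fixing `ζ`).
-/

set_option autoImplicit false
set_option linter.style.haveILetI false
set_option linter.unusedSectionVars false
set_option linter.unusedVariables false
set_option synthInstance.maxHeartbeats 400000

open ModularCurve AlgebraicCurve

noncomputable section

namespace Fermat.Agent.BR3.SDD.Modular

open IsLocalRing Fermat.Agent.Jac Fermat.Agent.X0 Fermat.Agent.Red Fermat.Agent.Val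
  Fermat.Agent.BR.SS Fermat.Agent.BR Fermat.Agent.BR.InertiaRed Fermat.Agent.BR.UnramCyclo
  Fermat.Agent.BR3.EquivInert
  Fermat.Agent.BR.S0 Fermat.Agent.BR.S0.PointDict Fermat.Agent.BR.S0.RedModular
  Fermat.Agent.BR3.FibreProd Fermat.Agent.BR.TwoVal
  Fermat.Agent.BR3.ThickSDDPlug

local notation "Qb" => AlgebraicClosure ℚ

variable {M q : ℕ} [NeZero M] [hq : Fact q.Prime] [NeZero q]
variable (B : ValuationSubring (AlgebraicClosure ℚ)) (hB : B.LiesOverPrime q) (hqM : ¬ q ∣ M)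
variable [IsAlgClosed (ResidueField B)]
variable {ζ : Kbˣ} (hζ : IsPrimitiveRoot ζ q)

/-- (shortcut instance) -/
local instance (priority := 100000) instAlgebraFtMShortcutR :
    Algebra (IsLocalRing.ResidueField B)
      (modularFunctionFieldFullC (IsLocalRing.ResidueField B) M) :=
  inferInstance

include hζ in
/-- The three clauses of `hparts` on `cInf`, `cZero` and the middle components. -/
theorem actsTrivially_horiz_mid {s : GQ} (hs : s ∈ B.inertiaSubgroupIn ℚ)
    (h3 : ∀ ζ' : Qb, ζ' ^ q = 1 → s ζ' = ζ') :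
    ActsTrivially (w1 M B hB) (galAut (M * q * q) s) ∧
      ActsTrivially (Fermat.Agent.BR3.CZero.cZero B hB hqM) (galAut (M * q * q) s) ∧
      ∀ i : MidM B hB hqM hζ, ActsTrivially (i.ring B hB hqM hζ) (galAut (M * q * q) s) := by
  have hζ1 : ((ζ : Kbˣ) : Kb) ^ q = 1 := by
    rw [← Units.val_pow_eq_pow_val, hζ.pow_eq_one, Units.val_one]
  exact ⟨Fermat.Agent.BR3.EquivHoriz.actsTrivially_w1 B hB hs,
    Fermat.Agent.BR3.EquivHoriz.actsTrivially_cZero B hB hqM hs,
    fun i => Fermat.Agent.BR3.MidGal.actsTrivially_mid B hB hqM hζ hs (h3 _ hζ1) i⟩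

section Rest

variable {FZ : SSpM B hB hqM → Type} [∀ e, Field (FZ e)] [∀ e, Algebra (ResidueField B) (FZ e)]
  {KP : Type}
  (CZ : ∀ e, ConstRed (F := Fb (M * q * q)) (Ft := FZ e) B (residue B))
  (X : CaseInput (F := Fb (M * q * q)) B (MidM B hB hqM hζ) (SSpM B hB hqM) KP
    (FtAll B hB hqM hζ FZ))
  {ιT : SSpM B hB hqM → Type} {ιK : SSpM B hB hqM → KP → Type} {ιW : SSpM B hB hqM → Type}
  (Y : CaseCircle X ιT ιK ιW)

/-- **The hypothesis `hparts` of `modelAt_of_casesAll` from its vertical, tube and coordinate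
clauses.** -/
theorem hparts_of_rest
    (hrest : ∀ s ∈ B.inertiaSubgroupIn ℚ, s (unifSDD q) = unifSDD q →
      (∀ a ∈ cycloField Qb q, s a = a) → (∀ ζ' : Qb, ζ' ^ q = 1 → s ζ' = ζ') →
      (∀ e, ActsTrivially (CZ e).O (galAut (M * q * q) s)) ∧
      (∀ b Q, ∀ P ∈ X.TH b Q, galAut (M * q * q) s • P ∈ X.TH b Q) ∧
      (∀ i Q, ∀ P ∈ X.TM i Q, galAut (M * q * q) s • P ∈ X.TM i Q) ∧
      (∀ e Q, ∀ P ∈ X.TZ e Q, galAut (M * q * q) s • P ∈ X.TZ e Q) ∧
      (∀ e, galAut (M * q * q) s • (Y.LT e).u = (Y.LT e).u) ∧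
      (∀ e t, galAut (M * q * q) s • (Y.LK e t).u = (Y.LK e t).u) ∧
      ∀ e, galAut (M * q * q) s • (Y.LW e).u = (Y.LW e).u) :
    ∀ s ∈ B.inertiaSubgroupIn ℚ, s (unifSDD q) = unifSDD q →
      (∀ a ∈ cycloField Qb q, s a = a) → (∀ ζ' : Qb, ζ' ^ q = 1 → s ζ' = ζ') →
      ActsTrivially (w1 M B hB) (galAut (M * q * q) s) ∧
      ActsTrivially (Fermat.Agent.BR3.CZero.cZero B hB hqM) (galAut (M * q * q) s) ∧
      (∀ i : MidM B hB hqM hζ, ActsTrivially (i.ring B hB hqM hζ) (galAut (M * q * q) s)) ∧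
      (∀ e, ActsTrivially (CZ e).O (galAut (M * q * q) s)) ∧
      (∀ b Q, ∀ P ∈ X.TH b Q, galAut (M * q * q) s • P ∈ X.TH b Q) ∧
      (∀ i Q, ∀ P ∈ X.TM i Q, galAut (M * q * q) s • P ∈ X.TM i Q) ∧
      (∀ e Q, ∀ P ∈ X.TZ e Q, galAut (M * q * q) s • P ∈ X.TZ e Q) ∧
      (∀ e, galAut (M * q * q) s • (Y.LT e).u = (Y.LT e).u) ∧
      (∀ e t, galAut (M * q * q) s • (Y.LK e t).u = (Y.LK e t).u) ∧
      ∀ e, galAut (M * q * q) s • (Y.LW e).u = (Y.LW e).u := by
  intro s hs h1 h2 h3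
  obtain ⟨a1, a2, a3⟩ := actsTrivially_horiz_mid B hB hqM hζ hs h3
  exact ⟨a1, a2, a3, hrest s hs h1 h2 h3⟩

end Rest

end Fermat.Agent.BR3.SDD.Modular
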