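import Fermat.Agent.BR3.SDD.ModularRaw
import Fermat.Agent.BR3.SepNModular
import Fermat.Agent.BR3.SDD.TubesBFinal
import Fermat.Agent.BR3.CZero
import Fermat.Agent.BR3.MidBeta

/-!
# Program C (S36), node (SEP-FINAL) (helper15): `sep_comp` and `sep` of `ModularRaw.modelAt_of_raw`

The two binders `sep_comp`, `sep` of `SDD.Modular.modelAt_of_raw` (`BR3/SDD/ModularRaw.lean`) for
`XR := XRaw B hB hqM hζ h2 h3 CZ hZc comp … chT chK chW`, ALL raw binders arbitrary, from
`SepNModular.sepInputModularOfTheta` at `Dt := DtM`, `a₀ := gaugeA`, `b₀ := gaugeB`,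
`Fr := VertBetaFr.Fr`:

* discharged here: (O) the six `comap` facts (`comap_alpha2_w1`, `comap_alpha2_w2`,
  `comap_alpha2_cZero`, `hZc`, `comap_beta2_w1`, `comap_beta2_w2`), `hdeg`, `hall`;
* NAMED hypotheses, stated on the RAW tubes `nodeTube` (`tube (XR).toInput.setup x = nodeTube x`,
  `Partition.tube_setup_ofRaw`): the five tube inclusions (T) `tube_a_nT`, `tube_a_nk`,
  `tube_a_nW`, `tube_b_nT`, `tube_b_nk`, and the Kummer function block `Θ c hc hmid hze hpole hval`;
* `tube_b_nT_raw_of_unit`, `tube_b_nT_raw_of_value`, `tube_b_nk_raw_of_small`,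
  `tube_b_nk_raw_of_value` : the two `b`-side inclusions from the `a`-side ones and the value of
  `U_g` on the raw tubes (`TubesBFinal`).
-/

set_option autoImplicit false
set_option linter.style.haveILetI false
set_option linter.unusedSectionVars false
set_option linter.unusedVariables false
set_option synthInstance.maxHeartbeats 400000

open ModularCurve AlgebraicCurve

noncomputable section

/- S36 build-time patch: file-local shortcut instances. They only shorten instance search;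
each is the instance that the search finds anyway (reducible, same terms after unfolding). -/
local instance (priority := 100000) Fermat.Agent.BR3.FastInst.instAlgFullC_SDD_ModularSep
    {k : Type*} [Field k] (N : ℕ) :
    Algebra k ↥(ModularCurve.modularFunctionFieldFullC k N) := inferInstance
local instance (priority := 100000) Fermat.Agent.BR3.FastInst.instFieldFullC_SDD_ModularSep
    {k : Type*} [Field k] (N : ℕ) :
    Field ↥(ModularCurve.modularFunctionFieldFullC k N) := inferInstance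
local instance (priority := 100000) Fermat.Agent.BR3.FastInst.instAlgLaurent_SDD_ModularSep
    {k : Type*} [Field k] : Algebra k (LaurentSeries k) := inferInstance


namespace Fermat.Agent.BR3.SDD.ModularSep

open IsLocalRing Fermat.Agent.Jac Fermat.Agent.X0 Fermat.Agent.Red Fermat.Agent.Val
  Fermat.Agent.BR.SS Fermat.Agent.BR Fermat.Agent.BR.InertiaRed Fermat.Agent.BR.UnramCyclo
  Fermat.Agent.BR.S0 Fermat.Agent.BR.S0.PointDict Fermat.Agent.BR.S0.RedModular
  Fermat.Agent.BR3.FibreProd Fermat.Agent.BR.TwoVal Fermat.Agent.BR.Refine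
  Fermat.Agent.BR.Circle Fermat.Agent.BR3.CircleN Fermat.Agent.BR3.SplitBranch
  Fermat.Agent.BR3.ThickSDDPlug Fermat.Agent.BR3.SDD.Partition Fermat.Agent.BR3.SRef.Modular
  Fermat.Agent.BR2.SetupOfData Fermat.Agent.BR3.SDD.Modular Fermat.Agent.BR3.SDD
  Fermat.Agent.BR3.SRef Fermat.Agent.BR3.SepN Fermat.Agent.BR3.SepNSDD
  Fermat.Agent.BR3.SepNModular Fermat.Agent.BR3.VertBetaFr Fermat.Agent.BR.Final

local notation "Qb" => AlgebraicClosure ℚ

variable {M q : ℕ} [NeZero M] [hq : Fact q.Prime] [NeZero q]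
variable (B : ValuationSubring (AlgebraicClosure ℚ)) (hB : B.LiesOverPrime q) (hqM : ¬ q ∣ M)
variable [IsAlgClosed (ResidueField B)]
variable {ζ : Kbˣ} (hζ : IsPrimitiveRoot ζ q)

local notation "kB" => IsLocalRing.ResidueField B
local notation "FtM" => modularFunctionFieldFullC (IsLocalRing.ResidueField B) M

/-- (shortcut instance) -/
local instance (priority := 100000) instAlgebraFtMShortcutSep :
    Algebra (IsLocalRing.ResidueField B)
      (modularFunctionFieldFullC (IsLocalRing.ResidueField B) M) :=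
  inferInstance

/-- (shortcut instance: the search through the tower takes seconds) -/
local instance (priority := 100000) instAlgebraFMidShortcutSep :
    Algebra (IsLocalRing.ResidueField B) (FMid M B) :=
  inferInstance

variable (h2 : nuTwo M = 0) (h3 : nuThree M = 0)
  {FZ : SSpM B hB hqM → Type} [∀ e, Field (FZ e)] [∀ e, Algebra (ResidueField B) (FZ e)]
  {KP : Type}

/-- (shortcut instance) -/
local instance (priority := 100000) instFieldFtAllShortcutSep :
    ∀ v, Field (FtAll B hB hqM hζ FZ v) :=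
  inferInstance

/-- (shortcut instance) -/
local instance (priority := 100000) instAlgebraFtAllShortcutSep :
    ∀ v, Algebra (IsLocalRing.ResidueField B) (FtAll B hB hqM hζ FZ v) :=
  inferInstance

variable
  (CZ : ∀ e, ConstRed (F := Fb (M * q * q)) (Ft := FZ e) B (residue B))
  (hZc : ∀ e, ((CZ e).O).comap (alpha2 M q : Fb (M * q) →+* Fb (M * q * q)) =
    ringEA B hB hqM h2 h3 e)
  (comp : SSpM B hB hqM → KP → MidM B hB hqM hζ) (comp_surj : ∀ i, ∃ e s, comp e s = i)
  (pMid : ∀ e s, Place (ResidueField B) (FtAll B hB hqM hζ FZ (mid (comp e s))))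
  (zT : ∀ e, Place (ResidueField B) (FtAll B hB hqM hζ FZ (ze e)))
  (zK : ∀ e, KP → Place (ResidueField B) (FtAll B hB hqM hζ FZ (ze e)))
  (zW : ∀ e, Place (ResidueField B) (FtAll B hB hqM hζ FZ (ze e)))
  (pMid_injective : ∀ e s e' s', (⟨mid (comp e s), pMid e s⟩ :
    Σ v, Place (ResidueField B) (FtAll B hB hqM hζ FZ v)) = ⟨mid (comp e' s'), pMid e' s'⟩ →
      e = e' ∧ s = s')
  (zK_injective : ∀ e, Function.Injective (zK e)) (zT_ne_zK : ∀ e s, zT e ≠ zK e s)
  (zW_ne_zT : ∀ e, zW e ≠ zT e) (zW_ne_zK : ∀ e s, zW e ≠ zK e s)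
  (nodeTube : Node (SSpM B hB hqM) KP → Set (Place Kb (Fb (M * q * q))))
  (smTube : (Σ v, Place (ResidueField B) (FtAll B hB hqM hζ FZ v)) →
    Set (Place Kb (Fb (M * q * q))))
  (cover : ∀ P, ∃ y, P ∈ tubeS comp (pInfM B hB hqM) pMid zW (pZeroM B hB hqM) zT zK nodeTube
    smTube y)
  (disjoint : ∀ P y y',
    P ∈ tubeS comp (pInfM B hB hqM) pMid zW (pZeroM B hB hqM) zT zK nodeTube smTube y →
    P ∈ tubeS comp (pInfM B hB hqM) pMid zW (pZeroM B hB hqM) zT zK nodeTube smTube y' → y = y')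
  (smInf : ∀ Q : Place (ResidueField B) (FtAll B hB hqM hζ FZ cInf),
    (∀ e, Q ≠ pInfM B hB hqM e) →
    SmoothChart B (CAll B hB hqM hζ CZ cInf).O (CAll B hB hqM hζ CZ cInf).res Q
      (smTube ⟨cInf, Q⟩))
  (smZero : ∀ Q : Place (ResidueField B) (FtAll B hB hqM hζ FZ SDD.cZero),
    (∀ e, Q ≠ pZeroM B hB hqM e) →
    SmoothChart B (CAll B hB hqM hζ CZ SDD.cZero).O (CAll B hB hqM hζ CZ SDD.cZero).res Q
      (smTube ⟨SDD.cZero, Q⟩))
  (smMid : ∀ (i : MidM B hB hqM hζ) (Q : Place (ResidueField B) (FtAll B hB hqM hζ FZ (mid i))),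
    (∀ e s, (⟨mid i, Q⟩ : Σ v, Place (ResidueField B) (FtAll B hB hqM hζ FZ v)) ≠
      ⟨mid (comp e s), pMid e s⟩) →
    SmoothChart B (CAll B hB hqM hζ CZ (mid i)).O (CAll B hB hqM hζ CZ (mid i)).res Q
      (smTube ⟨mid i, Q⟩))
  (smZe : ∀ (e : SSpM B hB hqM) (Q : Place (ResidueField B) (FtAll B hB hqM hζ FZ (ze e))),
    Q ≠ zW e → Q ≠ zT e → (∀ s, Q ≠ zK e s) →
    SmoothChart B (CAll B hB hqM hζ CZ (ze e)).O (CAll B hB hqM hζ CZ (ze e)).res Q
      (smTube ⟨ze e, Q⟩))
  (chT : ∀ e, NodeChart B (CAll B hB hqM hζ CZ cInf).O (CAll B hB hqM hζ CZ (ze e)).O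
    (CAll B hB hqM hζ CZ cInf).res (CAll B hB hqM hζ CZ (ze e)).res (pInfM B hB hqM e) (zT e)
    (nodeTube (nT e)))
  (chK : ∀ e s, NodeChart B (CAll B hB hqM hζ CZ (mid (comp e s))).O
    (CAll B hB hqM hζ CZ (ze e)).O (CAll B hB hqM hζ CZ (mid (comp e s))).res
    (CAll B hB hqM hζ CZ (ze e)).res (pMid e s) (zK e s) (nodeTube (nk e s)))
  (chW : ∀ e, NodeChart B (CAll B hB hqM hζ CZ (ze e)).O (CAll B hB hqM hζ CZ SDD.cZero).O
    (CAll B hB hqM hζ CZ (ze e)).res (CAll B hB hqM hζ CZ SDD.cZero).res (zW e)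
    (pZeroM B hB hqM e) (nodeTube (nW e)))

/-! ### The four kinds of sub-annuli of `S'ref_a`, `S'ref_b` (abbreviations) -/

set_option maxHeartbeats 4000000 in
/-- The tube of the outer node of `S'ref_a` at `e` (under `nT e`, `nk e s` along `α₂`). -/
def TAout (e : SSpM B hB hqM) : Set (Place Kb (Fb (M * q))) :=
  Fermat.Agent.BR.Refine.tube
    (srefM (DtM B hB hqM) (gaugeA q B hB hqM) (admA B hB hqM h2 h3))
    (outer (inputs (DtM B hB hqM)) (gaugeA q B hB hqM) (admA B hB hqM h2 h3) e)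

set_option maxHeartbeats 4000000 in
/-- The tube of the inner node of `S'ref_a` at `e` (under `nW e` along `α₂`). -/
def TAin (e : SSpM B hB hqM) : Set (Place Kb (Fb (M * q))) :=
  Fermat.Agent.BR.Refine.tube
    (srefM (DtM B hB hqM) (gaugeA q B hB hqM) (admA B hB hqM h2 h3))
    (inner (inputs (DtM B hB hqM)) (gaugeA q B hB hqM) (admA B hB hqM h2 h3) e)

set_option maxHeartbeats 4000000 in
/-- The tube of the outer node of `S'ref_b` at `e` (under `nT e'`, `Fr e' = e`, along `β₂`). -/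
def TBout (e : SSpM B hB hqM) : Set (Place Kb (Fb (M * q))) :=
  Fermat.Agent.BR.Refine.tube
    (srefM (DtM B hB hqM) (gaugeB q B hB hqM) (admB B hB hqM h2 h3))
    (outer (inputs (DtM B hB hqM)) (gaugeB q B hB hqM) (admB B hB hqM h2 h3) e)

set_option maxHeartbeats 4000000 in
/-- The tube of the inner node of `S'ref_b` at `e` (under `nk e' s`, `Fr e' = e`, along `β₂`). -/
def TBin (e : SSpM B hB hqM) : Set (Place Kb (Fb (M * q))) :=
  Fermat.Agent.BR.Refine.tube
    (srefM (DtM B hB hqM) (gaugeB q B hB hqM) (admB B hB hqM h2 h3))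
    (inner (inputs (DtM B hB hqM)) (gaugeB q B hB hqM) (admB B hB hqM h2 h3) e)

/-! ### The `b`-side inclusions from the `a`-side ones and the value of `U_g` -/

section BSide

open Fermat.Agent.BR3.HeckePoly Fermat.Agent.Hecke Fermat.Agent.BR3.SSParam
  Fermat.Agent.BR3.SDD.TubesBFinal

variable [CharP (ResidueField B) q] (e : SSpM B hB hqM) {g g' g'' : Fb M}
  (hα : (alpha2 M q).toRingHom.IsIntegral) (hβ : (beta2 M q).toRingHom.IsIntegral)
  (T : Set (Place Kb (Fb (M * q * q))))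

set_option maxHeartbeats 4000000 in
/-- **`tube_b_nT` on a raw tube** from `tube_a_nT` and the value of `U_g`:
`|U_g(P)| = |u_e(P ∘ α₂)|`. -/
theorem tube_b_nT_raw_of_value (H : IsSSParam B hB hqM e g g' g'')
    (ha : ∀ P ∈ T, P.restrictAlong (alpha2 M q) hα ∈
      TAout B hB hqM h2 h3 e)
    (hU : ∀ P ∈ T, ∃ cU : Kb, IsValueAt P (Ug M q g) cU ∧
      B.valuation cU = B.valuation (evalAt (P.restrictAlong (alpha2 M q) hα)
        (annulusCoord (DtM B hB hqM) e))) :
    ∀ P ∈ T, P.restrictAlong (beta2 M q) hβ ∈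
      TBout B hB hqM h2 h3 (Fr B hB hqM e) := by
  intro P hP
  obtain ⟨cU, hcU, hv⟩ := hU P hP
  exact tube_b_nT_of_value B hB hqM e h2 h3 H hα hβ (admA B hB hqM h2 h3) (admB B hB hqM h2 h3)
    (ha P hP) hcU hv

set_option maxHeartbeats 4000000 in
/-- **`tube_b_nT` on a raw tube** from `tube_a_nT` on the split sheet:
`U_g = W · α₂ (-(α g - (β g')^q))` with `|W(P)| = 1` on the tube. -/
theorem tube_b_nT_raw_of_unit (H : IsSSParam B hB hqM e g g' g'')
    (ha : ∀ P ∈ T, P.restrictAlong (alpha2 M q) hα ∈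
      TAout B hB hqM h2 h3 e)
    (W : Fb (M * q * q))
    (hWU : Ug M q g =
      W * alpha2 M q (-(heckeAlphaBar Kb M q g - heckeBetaBar Kb M q g' ^ q)))
    (hW : ∀ P ∈ T, ∃ c : Kb, IsValueAt P W c ∧ B.valuation c = 1) :
    ∀ P ∈ T, P.restrictAlong (beta2 M q) hβ ∈
      TBout B hB hqM h2 h3 (Fr B hB hqM e) := by
  intro P hP
  obtain ⟨c, hc, hc1⟩ := hW P hP
  exact tube_b_nT_of_unit B hB hqM e h2 h3 H hα hβ (admA B hB hqM h2 h3) (admB B hB hqM h2 h3)
    (ha P hP) hc hc1 hWU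

set_option maxHeartbeats 4000000 in
/-- **`tube_b_nk` on a raw tube** from `tube_a_nk` and the value of `U_g`:
`|U_g(P)| < |gaugeSDD q|`. -/
theorem tube_b_nk_raw_of_value (H : IsSSParam B hB hqM e g g' g'')
    (ha : ∀ P ∈ T, P.restrictAlong (alpha2 M q) hα ∈
      TAout B hB hqM h2 h3 e)
    (hU : ∀ P ∈ T, ∃ cU : Kb, IsValueAt P (Ug M q g) cU ∧
      B.valuation cU < B.valuation (gaugeSDD q)) :
    ∀ P ∈ T, P.restrictAlong (beta2 M q) hβ ∈
      TBin B hB hqM h2 h3 (Fr B hB hqM e) := by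
  intro P hP
  obtain ⟨cU, hcU, hv⟩ := hU P hP
  exact tube_b_nk_of_value B hB hqM e h2 h3 H hα hβ (admA B hB hqM h2 h3) (admB B hB hqM h2 h3)
    (ha P hP) hcU hv

set_option maxHeartbeats 4000000 in
/-- **`tube_b_nk` on a raw tube** from `tube_a_nk` on the Kummer sheets: `U_g = Y · t`,
`|Y(P)| < 1` on the tube, `|t| = |gaugeSDD q|`. -/
theorem tube_b_nk_raw_of_small (H : IsSSParam B hB hqM e g g' g'')
    (ha : ∀ P ∈ T, P.restrictAlong (alpha2 M q) hα ∈
      TAout B hB hqM h2 h3 e)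
    (Y : Fb (M * q * q)) (t : Kb) (ht : B.valuation t = B.valuation (gaugeSDD q))
    (hYU : Ug M q g = Y * algebraMap Kb (Fb (M * q * q)) t)
    (hY : ∀ P ∈ T, ∃ d : Kb, IsValueAt P Y d ∧ B.valuation d < 1) :
    ∀ P ∈ T, P.restrictAlong (beta2 M q) hβ ∈
      TBin B hB hqM h2 h3 (Fr B hB hqM e) := by
  intro P hP
  obtain ⟨d, hd, hd1⟩ := hY P hP
  exact tube_b_nk_of_small B hB hqM e h2 h3 H hα hβ (admA B hB hqM h2 h3) (admB B hB hqM h2 h3)
    (ha P hP) hd hd1 ht hYU

end BSide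

/-- the abbreviation of `XRaw` with all its arguments -/
local notation "XR" =>
  XRaw B hB hqM hζ h2 h3 CZ hZc comp comp_surj pMid zT zK zW pMid_injective zK_injective zT_ne_zK
    zW_ne_zT zW_ne_zK nodeTube smTube cover disjoint smInf smZero smMid smZe chT chK chW

set_option maxHeartbeats 4000000 in
/-- The tube of every node of `S''` is the raw tube. -/
theorem tube_XRaw (x : Node (SSpM B hB hqM) KP) :
    Fermat.Agent.BR.Refine.tube (XR).toInput.setup x = nodeTube x :=
  tube_setup_ofRaw B comp comp_surj (nonempty_SSpM B hB hqM) (CAll B hB hqM hζ CZ)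
    (CAll_O_injective B hB hqM hζ (DtM B hB hqM) (gaugeA q B hB hqM) (admA B hB hqM h2 h3) CZ hZc)
    (pInfM B hB hqM) (pZeroM B hB hqM) pMid zT zK zW (pInfM_injective B hB hqM h2 h3)
    (pZeroM_injective B hB hqM h2 h3) pMid_injective zK_injective zT_ne_zK zW_ne_zT zW_ne_zK
    nodeTube smTube cover disjoint smInf smZero smMid smZe chT chK chW x

/-! ### The separation inputs on the raw tubes -/

section Sep

variable (hα : (alpha2 M q).toRingHom.IsIntegral) (hβ : (beta2 M q).toRingHom.IsIntegral)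
  -- (T) on the raw tubes
  (tube_a_nT : ∀ e, ∀ P ∈ nodeTube (nT e), P.restrictAlong (alpha2 M q) hα ∈
    TAout B hB hqM h2 h3 e)
  (tube_a_nk : ∀ e s, ∀ P ∈ nodeTube (nk e s), P.restrictAlong (alpha2 M q) hα ∈
    TAout B hB hqM h2 h3 e)
  (tube_a_nW : ∀ e, ∀ P ∈ nodeTube (nW e), P.restrictAlong (alpha2 M q) hα ∈
    TAin B hB hqM h2 h3 e)
  (tube_b_nT : ∀ e, ∀ P ∈ nodeTube (nT e), P.restrictAlong (beta2 M q) hβ ∈
    TBout B hB hqM h2 h3 (Fr B hB hqM e))
  (tube_b_nk : ∀ e s, ∀ P ∈ nodeTube (nk e s), P.restrictAlong (beta2 M q) hβ ∈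
    TBin B hB hqM h2 h3 (Fr B hB hqM e))
  -- the Kummer function
  (Θ : SSpM B hB hqM → Fb (M * q * q)) (c : SSpM B hB hqM → KP → ResidueField B)
  (hc : ∀ e, Function.Injective (c e))
  (hmid : ∀ e i, Θ e ∈ (CAll B hB hqM hζ CZ (mid i)).O)
  (hze : ∀ e, Θ e ∈ (CAll B hB hqM hζ CZ (ze e)).O)
  (hpole : ∀ e s, ∀ P ∈ nodeTube (nk e s), 0 ≤ P.ord (Θ e))
  (hval : ∀ e s, IsValueAt (zK e s) ((CAll B hB hqM hζ CZ (ze e)).res ⟨Θ e, hze e⟩) (c e s))
  (hsurj : ∀ e i, ∃ s, comp e s = i)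

set_option maxHeartbeats 4000000 in
/-- **The separation inputs of `S''` from the raw data.** -/
def sepInputRaw :
    SepInput (XR).toInput (inputs (DtM B hB hqM)) (gaugeA q B hB hqM) (admA B hB hqM h2 h3)
      (inputs (DtM B hB hqM)) (gaugeB q B hB hqM) (admB B hB hqM h2 h3)
      (alpha2 M q) hα (beta2 M q) hβ :=
  sepInputModularOfTheta (DtM B hB hqM) (gaugeA q B hB hqM) (gaugeB q B hB hqM)
    (admA B hB hqM h2 h3) (admB B hB hqM h2 h3) (XR).toInput hα hβ (Fr B hB hqM)
    (comap_alpha2_w1 B hB)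
    (fun i => comap_alpha2_w2 B hB hqM hζ (i.rep B hB hqM hζ).2)
    (Fermat.Agent.BR3.CZero.comap_alpha2_cZero B hB hqM)
    hZc
    (comap_beta2_w1 B hB)
    (fun i => Fermat.Agent.BR3.MidBeta.comap_beta2_w2 B hB hqM hζ (i.rep B hB hqM hζ).2)
    (fun e P hP => tube_a_nT e P (by rwa [tube_XRaw] at hP))
    (fun e s P hP => tube_a_nk e s P (by rwa [tube_XRaw] at hP))
    (fun e P hP => tube_a_nW e P (by rwa [tube_XRaw] at hP))
    (fun e P hP => tube_b_nT e P (by rwa [tube_XRaw] at hP))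
    (fun e s P hP => tube_b_nk e s P (by rwa [tube_XRaw] at hP))
    (fun P => Place.alg_deg_eq_one (jBar_isSepVar (M * q * q)) P)
    Θ c hc hmid hze
    (fun e s P hP => hpole e s P (by rwa [tube_XRaw] at hP))
    hval hsurj

include hα hβ tube_a_nT tube_a_nk tube_a_nW tube_b_nT tube_b_nk Θ c hc hmid hze hpole hval hsurj in
set_option maxHeartbeats 4000000 in
/-- **The binder `sep_comp` of `modelAt_of_raw`.** -/
theorem sep_comp_modular :
    ∀ x w, w ≠ (XR).toInput.setup.src x → w ≠ (XR).toInput.setup.tgt x →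
      SepComp (XR).toInput.setup x w :=
  fun x w h1 h2' =>
    (sepInputRaw B hB hqM hζ h2 h3 CZ hZc comp comp_surj pMid zT zK zW pMid_injective zK_injective
      zT_ne_zK zW_ne_zT zW_ne_zK nodeTube smTube cover disjoint smInf smZero smMid smZe chT chK
      chW hα hβ tube_a_nT tube_a_nk tube_a_nW tube_b_nT tube_b_nk Θ c hc hmid hze hpole hval
      hsurj).sepComp x w h1 h2'

include hα hβ tube_a_nT tube_a_nk tube_a_nW tube_b_nT tube_b_nk Θ c hc hmid hze hpole hval hsurj in
set_option maxHeartbeats 4000000 in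
/-- **The binder `sep` of `modelAt_of_raw`.** -/
theorem sep_modular :
    ∀ x x', x ≠ x' → Separated (XR).toInput.setup x x' :=
  fun x x' hne =>
    (sepInputRaw B hB hqM hζ h2 h3 CZ hZc comp comp_surj pMid zT zK zW pMid_injective zK_injective
      zT_ne_zK zW_ne_zT zW_ne_zK nodeTube smTube cover disjoint smInf smZero smMid smZe chT chK
      chW hα hβ tube_a_nT tube_a_nk tube_a_nW tube_b_nT tube_b_nk Θ c hc hmid hze hpole hval
      hsurj).sep x x' hne

end Sep

end Fermat.Agent.BR3.SDD.ModularSep
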