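import Fermat.Agent.BR3.SDD.ModularSepFinal
import Fermat.Agent.BR3.SDD.ModularNodeW
import Fermat.Agent.BR3.SDD.ModularNodeKTubes
import Fermat.Agent.BR3.SDD.ModularTheta

/-!
# Program C (S36), node (SEP-PLUG), part 2: `sep_comp` and `sep` of `modelAt_of_raw` at THE family,
with NO named hypothesis left

`ModularSepFinal.sep_comp_final` / `sep_final` at

* `tubeK := tubeKF B hB hqM h2 h3` (helper15, `SDD/ModularNodeKTubes`: `tube_a_nkF`, `tube_b_nkF`),
* `tubeW := tubeWM B hB hqM h2 h3` (helper5, `SDD/ModularNodeW`: `tube_a_nWM`),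
* the Kummer block `Θ := ThetaM`, `c := cM` (helper21, `SDD/ModularTheta`: `cM_injective`,
  `ThetaM_mem_mid`, `ThetaM_mem_ze`, `isValueAt_ThetaM`; `hpole` from `hpole_of_value` and the
  value clause `value_kumTheta` of the Kummer tube, `ThetaM = 1` at `q = 2`).

* `hpole_closed` : the clause `hpole` on `tubeKF`;
* **`sep_comp_closed`**, **`sep_closed`** : the binders `sep_comp`, `sep` of `modelAt_of_raw` VERBATIM
  for `XRaw …` at the family, the raw DATA binders `comp pMid smTube cover disjoint smInf smZero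
  smMid smZe chT chK chW` arbitrary (the caller passes the terms of its own `XRaw`), the only
  hypothesis being `hsurj : ∀ e i, ∃ s, comp e s = i`.
-/

set_option autoImplicit false
set_option linter.style.haveILetI false
set_option linter.unusedSectionVars false
set_option linter.unusedVariables false
set_option synthInstance.maxHeartbeats 400000

open ModularCurve AlgebraicCurve

noncomputable section

namespace Fermat.Agent.BR3.SDD.ModularSepFinal

open IsLocalRing Fermat.Agent.Jac Fermat.Agent.X0 Fermat.Agent.Red Fermat.Agent.Val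
  Fermat.Agent.BR.SS Fermat.Agent.BR Fermat.Agent.BR.InertiaRed Fermat.Agent.BR.UnramCyclo
  Fermat.Agent.BR.S0 Fermat.Agent.BR.S0.PointDict Fermat.Agent.BR.S0.RedModular
  Fermat.Agent.BR3.FibreProd Fermat.Agent.BR.TwoVal Fermat.Agent.BR.Refine
  Fermat.Agent.BR.Circle Fermat.Agent.BR3.CircleN Fermat.Agent.BR3.SplitBranch
  Fermat.Agent.BR3.ThickSDDPlug Fermat.Agent.BR3.SDD.Partition Fermat.Agent.BR3.SRef.Modular
  Fermat.Agent.BR2.SetupOfData Fermat.Agent.BR3.SDD.Modular Fermat.Agent.BR3.SDD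
  Fermat.Agent.BR3.SRef Fermat.Agent.BR3.SepN Fermat.Agent.BR3.SepNSDD
  Fermat.Agent.BR3.SepNModular Fermat.Agent.BR3.VertBetaFr Fermat.Agent.BR.Final
  Fermat.Agent.BR3.SDD.ModularSep Fermat.Agent.BR3.VertPtsU
  Fermat.Agent.BR3.SDD.ModularNodeKFinal Fermat.Agent.BR3.SDD.ModularTheta
  Fermat.Agent.BR3.KummerNodeInputs

local notation "Qb" => AlgebraicClosure ℚ

variable {M q : ℕ} [NeZero M] [hq : Fact q.Prime] [NeZero q]
variable (B : ValuationSubring (AlgebraicClosure ℚ)) (hB : B.LiesOverPrime q) (hqM : ¬ q ∣ M)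
variable [IsAlgClosed (ResidueField B)] [CharP (ResidueField B) q]
  [PerfectField (ResidueField B)]
variable {ζ : Kbˣ} (hζ : IsPrimitiveRoot ζ q)

local notation "kB" => IsLocalRing.ResidueField B
local notation "FtM" => modularFunctionFieldFullC (IsLocalRing.ResidueField B) M

/-- (shortcut instance) -/
local instance (priority := 100000) instAlgebraFtMShortcutSepC :
    Algebra (IsLocalRing.ResidueField B)
      (modularFunctionFieldFullC (IsLocalRing.ResidueField B) M) :=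
  inferInstance

/-- (shortcut instance: the search through the tower takes seconds) -/
local instance (priority := 100000) instAlgebraFMidShortcutSepC :
    Algebra (IsLocalRing.ResidueField B) (FMid M B) :=
  inferInstance

variable (h2 : nuTwo M = 0) (h3 : nuThree M = 0)

/-- (shortcut instance) -/
local instance (priority := 100000) instFieldFtAllShortcutSepC :
    ∀ v, Field (FtAll B hB hqM hζ (FZM B hB hqM h2 h3) v) :=
  inferInstance

/-- (shortcut instance) -/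
local instance (priority := 100000) instAlgebraFtAllShortcutSepC :
    ∀ v, Algebra (IsLocalRing.ResidueField B) (FtAll B hB hqM hζ (FZM B hB hqM h2 h3) v) :=
  inferInstance

/-- **(hpole)** the Kummer function `ThetaM e` has no pole on the raw tube of `nk e s` -/
theorem hpole_closed (e : SSpM B hB hqM) (s : KPq q) :
    ∀ P ∈ tubeKF B hB hqM h2 h3 e s, 0 ≤ P.ord (ThetaM B hB hqM h2 h3 e) := by
  refine hpole_of_value B hB hqM h2 h3 e (T := tubeKF B hB hqM h2 h3 e s) ?_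
  intro P hP
  by_cases hq2 : q = 2
  · rw [ThetaM_of_two B hB hqM h2 h3 hq2]
    exact ⟨1, isValueAt_one P⟩
  · rw [ThetaM_of_ne_two B hB hqM h2 h3 hq2]
    rw [tubeKF_of_ne_two B hB hqM h2 h3 hq2] at hP
    obtain ⟨d, hd, -⟩ := value_kumTheta B hB hqM h2 h3 e s P hP
    exact ⟨d, hd⟩

variable
  (comp : SSpM B hB hqM → KPq q → MidM B hB hqM hζ) (comp_surj : ∀ i, ∃ e s, comp e s = i)
  (pMid : ∀ e s, Place (ResidueField B)
    (FtAll B hB hqM hζ (FZM B hB hqM h2 h3) (mid (comp e s))))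
  (pMid_injective : ∀ e s e' s', (⟨mid (comp e s), pMid e s⟩ :
    Σ v, Place (ResidueField B) (FtAll B hB hqM hζ (FZM B hB hqM h2 h3) v)) =
      ⟨mid (comp e' s'), pMid e' s'⟩ → e = e' ∧ s = s')
  (smTube : (Σ v, Place (ResidueField B) (FtAll B hB hqM hζ (FZM B hB hqM h2 h3) v)) →
    Set (Place Kb (Fb (M * q * q))))
  (cover : ∀ P, ∃ y, P ∈ tubeS comp (pInfM B hB hqM) pMid (zWM B hB hqM h2 h3)
    (pZeroM B hB hqM) (zTM B hB hqM h2 h3) (zKM B hB hqM h2 h3)
    (nodeTubeM B hB hqM (tubeTM B hB hqM h2 h3) (tubeKF B hB hqM h2 h3)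
      (tubeWM B hB hqM h2 h3)) smTube y)
  (disjoint : ∀ P y y',
    P ∈ tubeS comp (pInfM B hB hqM) pMid (zWM B hB hqM h2 h3) (pZeroM B hB hqM)
      (zTM B hB hqM h2 h3) (zKM B hB hqM h2 h3)
      (nodeTubeM B hB hqM (tubeTM B hB hqM h2 h3) (tubeKF B hB hqM h2 h3)
        (tubeWM B hB hqM h2 h3)) smTube y →
    P ∈ tubeS comp (pInfM B hB hqM) pMid (zWM B hB hqM h2 h3) (pZeroM B hB hqM)
      (zTM B hB hqM h2 h3) (zKM B hB hqM h2 h3)
      (nodeTubeM B hB hqM (tubeTM B hB hqM h2 h3) (tubeKF B hB hqM h2 h3)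
        (tubeWM B hB hqM h2 h3)) smTube y' → y = y')
  (smInf : ∀ Q : Place (ResidueField B) (FtAll B hB hqM hζ (FZM B hB hqM h2 h3) cInf),
    (∀ e, Q ≠ pInfM B hB hqM e) →
    SmoothChart B (CAll B hB hqM hζ (CZM B hB hqM h2 h3) cInf).O
      (CAll B hB hqM hζ (CZM B hB hqM h2 h3) cInf).res Q (smTube ⟨cInf, Q⟩))
  (smZero : ∀ Q : Place (ResidueField B) (FtAll B hB hqM hζ (FZM B hB hqM h2 h3) SDD.cZero),
    (∀ e, Q ≠ pZeroM B hB hqM e) →
    SmoothChart B (CAll B hB hqM hζ (CZM B hB hqM h2 h3) SDD.cZero).O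
      (CAll B hB hqM hζ (CZM B hB hqM h2 h3) SDD.cZero).res Q (smTube ⟨SDD.cZero, Q⟩))
  (smMid : ∀ (i : MidM B hB hqM hζ)
    (Q : Place (ResidueField B) (FtAll B hB hqM hζ (FZM B hB hqM h2 h3) (mid i))),
    (∀ e s, (⟨mid i, Q⟩ :
      Σ v, Place (ResidueField B) (FtAll B hB hqM hζ (FZM B hB hqM h2 h3) v)) ≠
        ⟨mid (comp e s), pMid e s⟩) →
    SmoothChart B (CAll B hB hqM hζ (CZM B hB hqM h2 h3) (mid i)).O
      (CAll B hB hqM hζ (CZM B hB hqM h2 h3) (mid i)).res Q (smTube ⟨mid i, Q⟩))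
  (smZe : ∀ (e : SSpM B hB hqM)
    (Q : Place (ResidueField B) (FtAll B hB hqM hζ (FZM B hB hqM h2 h3) (ze e))),
    Q ≠ zWM B hB hqM h2 h3 e → Q ≠ zTM B hB hqM h2 h3 e → (∀ s, Q ≠ zKM B hB hqM h2 h3 e s) →
    SmoothChart B (CAll B hB hqM hζ (CZM B hB hqM h2 h3) (ze e)).O
      (CAll B hB hqM hζ (CZM B hB hqM h2 h3) (ze e)).res Q (smTube ⟨ze e, Q⟩))
  (chT : ∀ e, NodeChart B (CAll B hB hqM hζ (CZM B hB hqM h2 h3) cInf).O
    (CAll B hB hqM hζ (CZM B hB hqM h2 h3) (ze e)).O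
    (CAll B hB hqM hζ (CZM B hB hqM h2 h3) cInf).res
    (CAll B hB hqM hζ (CZM B hB hqM h2 h3) (ze e)).res (pInfM B hB hqM e)
    (zTM B hB hqM h2 h3 e)
    (nodeTubeM B hB hqM (tubeTM B hB hqM h2 h3) (tubeKF B hB hqM h2 h3)
      (tubeWM B hB hqM h2 h3) (nT e)))
  (chK : ∀ e s, NodeChart B (CAll B hB hqM hζ (CZM B hB hqM h2 h3) (mid (comp e s))).O
    (CAll B hB hqM hζ (CZM B hB hqM h2 h3) (ze e)).O
    (CAll B hB hqM hζ (CZM B hB hqM h2 h3) (mid (comp e s))).res
    (CAll B hB hqM hζ (CZM B hB hqM h2 h3) (ze e)).res (pMid e s) (zKM B hB hqM h2 h3 e s)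
    (nodeTubeM B hB hqM (tubeTM B hB hqM h2 h3) (tubeKF B hB hqM h2 h3)
      (tubeWM B hB hqM h2 h3) (nk e s)))
  (chW : ∀ e, NodeChart B (CAll B hB hqM hζ (CZM B hB hqM h2 h3) (ze e)).O
    (CAll B hB hqM hζ (CZM B hB hqM h2 h3) SDD.cZero).O
    (CAll B hB hqM hζ (CZM B hB hqM h2 h3) (ze e)).res
    (CAll B hB hqM hζ (CZM B hB hqM h2 h3) SDD.cZero).res (zWM B hB hqM h2 h3 e)
    (pZeroM B hB hqM e)
    (nodeTubeM B hB hqM (tubeTM B hB hqM h2 h3) (tubeKF B hB hqM h2 h3)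
      (tubeWM B hB hqM h2 h3) (nW e)))

/-- the abbreviation of `XRaw` at the closed family with all its arguments -/
local notation "XRC" =>
  XRaw B hB hqM hζ h2 h3 (CZM B hB hqM h2 h3) (hZcM B hB hqM h2 h3) comp comp_surj pMid
    (zTM B hB hqM h2 h3) (zKM B hB hqM h2 h3) (zWM B hB hqM h2 h3) pMid_injective
    (zKM_injective B hB hqM h2 h3) (zTM_ne_zKM B hB hqM h2 h3) (zWM_ne_zTM B hB hqM h2 h3)
    (zWM_ne_zKM B hB hqM h2 h3)
    (nodeTubeM B hB hqM (tubeTM B hB hqM h2 h3) (tubeKF B hB hqM h2 h3)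
      (tubeWM B hB hqM h2 h3)) smTube cover disjoint smInf smZero smMid smZe chT chK chW

section Sep

variable (hα : (alpha2 M q).toRingHom.IsIntegral) (hβ : (beta2 M q).toRingHom.IsIntegral)
  (hsurj : ∀ e i, ∃ s, comp e s = i)

include hα hβ hsurj in
set_option maxHeartbeats 4000000 in
/-- **The binder `sep_comp` of `modelAt_of_raw` at the closed family.** -/
theorem sep_comp_closed :
    ∀ x w, w ≠ (XRC).toInput.setup.src x → w ≠ (XRC).toInput.setup.tgt x →
      SepComp (XRC).toInput.setup x w :=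
  sep_comp_final B hB hqM hζ h2 h3 comp comp_surj pMid pMid_injective (tubeKF B hB hqM h2 h3)
    (tubeWM B hB hqM h2 h3) smTube cover disjoint smInf smZero smMid smZe chT chK chW hα hβ
    (fun e s => tube_a_nkF B hB hqM h2 h3 hα e s) (tube_a_nWM B hB hqM h2 h3 hα hβ)
    (fun e s => tube_b_nkF B hB hqM h2 h3 hα hβ e s)
    (ThetaM B hB hqM h2 h3) (cM B hB hqM h2 h3) (cM_injective B hB hqM h2 h3)
    (ThetaM_mem_mid B hB hqM h2 h3 hζ) (ThetaM_mem_ze B hB hqM h2 h3 hζ)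
    (hpole_closed B hB hqM h2 h3) (isValueAt_ThetaM B hB hqM h2 h3 hζ) hsurj

include hα hβ hsurj in
set_option maxHeartbeats 4000000 in
/-- **The binder `sep` of `modelAt_of_raw` at the closed family.** -/
theorem sep_closed :
    ∀ x x', x ≠ x' → Separated (XRC).toInput.setup x x' :=
  sep_final B hB hqM hζ h2 h3 comp comp_surj pMid pMid_injective (tubeKF B hB hqM h2 h3)
    (tubeWM B hB hqM h2 h3) smTube cover disjoint smInf smZero smMid smZe chT chK chW hα hβ
    (fun e s => tube_a_nkF B hB hqM h2 h3 hα e s) (tube_a_nWM B hB hqM h2 h3 hα hβ)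
    (fun e s => tube_b_nkF B hB hqM h2 h3 hα hβ e s)
    (ThetaM B hB hqM h2 h3) (cM B hB hqM h2 h3) (cM_injective B hB hqM h2 h3)
    (ThetaM_mem_mid B hB hqM h2 h3 hζ) (ThetaM_mem_ze B hB hqM h2 h3 hζ)
    (hpole_closed B hB hqM h2 h3) (isValueAt_ThetaM B hB hqM h2 h3 hζ) hsurj

end Sep

end Fermat.Agent.BR3.SDD.ModularSepFinal
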