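import Fermat.Agent.BR3.EquivTubesSmooth
import Fermat.Agent.BR3.SDD.PartitionModPts
import Fermat.Agent.BR3.SDD.ModularC
import Fermat.Agent.BR3.FiltPerm

/-!
# Program C (S36), node (MID-M): the family terms of the middle components against the raw tubes

`H : AtlasHyp (chartDataModular B hB hqM) (jx M q)` (a `Prop`: all atlases are the same term),
`hSheet : ∀ b₀ Q'' hnc, MidChartAll.HasMidSheet B hB hqM hζ H b₀ Q'' hnc` the ONE named hypothesis
(cusps: hypothesis-free; finite non-elliptic: SC3; finite elliptic: ELL-PUR).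

* `midTubeM B hB hqM hζ H i Q` : THE raw tube `smTube ⟨mid i, Q⟩` of the point `Q` of the middle
  component `i` — `MidChartAll.midTubeAll … (i.rep) Q hnc` if `Q` does not lie over a crossing
  point of `can` (`hnc`), `∅` otherwise (`midTubeM_of_nc`, `midTubeM_of_not_nc`);
* `hnc_of_not_special` : a point which is not a Kummer place does not lie over a crossing point
  (from `complMid` of `under_modular`);
* `regMidM`, `smMidM` (LITERAL binder `smMid` of `SDD.Modular.modelAt_of_raw`), `smMidM_t`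
  (LITERAL binder `hMid_t` of `hcan_modular` / `partition_modular`), `subMidM` (LITERAL binder
  `subMid` of `under_modular`), all against any `smTube` with
  `hsm : ∀ i Q, smTube ⟨mid i, Q⟩ = midTubeM … i Q` (`rfl` for helper3's `smTubeM … midTube zeTube`
  with `midTube := midTubeM …`);
* `smul_mem_midTubeM_rich`, `smul_mem_midTubeM_tame` : the tubes under the inertia elements, at
  EVERY point (no condition: `∅` at the points over the crossings);
* `hsmMid_rich` (LITERAL binder `hsmMid` of `EquivTubeFam.hT_stable_of_raw`), `hsmMid_tame`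
  (LITERAL binder `hsmMid` of `ModularTameRaw.tameProp_of_rawTubes` / `EquivTubeFam.hT_of_raw`).
-/

set_option autoImplicit false
set_option linter.style.haveILetI false
set_option linter.unusedSectionVars false
set_option linter.unusedVariables false
set_option synthInstance.maxHeartbeats 400000

open ModularCurve AlgebraicCurve

noncomputable section

/- S36 build-time patch: file-local shortcut instances. They only shorten instance search;
each is the instance that the search finds anyway (reducible, same terms after unfolding). -/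
local instance (priority := 100000) Fermat.Agent.BR3.FastInst.instAlgFullC_SDD_ModularTubesMid
    {k : Type*} [Field k] (N : ℕ) :
    Algebra k ↥(ModularCurve.modularFunctionFieldFullC k N) := inferInstance
local instance (priority := 100000) Fermat.Agent.BR3.FastInst.instFieldFullC_SDD_ModularTubesMid
    {k : Type*} [Field k] (N : ℕ) :
    Field ↥(ModularCurve.modularFunctionFieldFullC k N) := inferInstance
local instance (priority := 100000) Fermat.Agent.BR3.FastInst.instAlgLaurent_SDD_ModularTubesMid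
    {k : Type*} [Field k] : Algebra k (LaurentSeries k) := inferInstance


namespace Fermat.Agent.BR3.SDD.ModularTubesMid

open IsLocalRing Fermat.Agent.Jac Fermat.Agent.X0 Fermat.Agent.Red Fermat.Agent.Val
  Fermat.Agent.BR.SS Fermat.Agent.BR.S0 Fermat.Agent.BR.S0.PointDict
  Fermat.Agent.BR.S0.RedModular Fermat.Agent.BR.S0.RedHyp Fermat.Agent.BR2.SetupOfData
  Fermat.Agent.BR3.FibreProd Fermat.Agent.BR.TwoVal Fermat.Agent.BR.ValTwo
  Fermat.Agent.BR.ConstRedTwo
  Fermat.Agent.BR3.SRef.Modular Fermat.Agent.BR3.SDD Fermat.Agent.BR3.SDD.Modular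
  Fermat.Agent.BR3.SDD.Partition Fermat.Agent.BR3.KummerGenus
  Fermat.Agent.BR3.KummerGenus.MidInst Fermat.Agent.BR3.CoverK Fermat.Agent.BR3.RegAtlas
  Fermat.Agent.BR3.MidChartAll Fermat.Agent.BR3.PlaceIso Fermat.Agent.BR3.FiltPerm
  Fermat.Agent.BR3.EquivTubesSmooth

local notation "Qb" => AlgebraicClosure ℚ

variable {M q : ℕ} [NeZero M] [hq : Fact q.Prime] [NeZero q]
variable (B : ValuationSubring (AlgebraicClosure ℚ)) (hB : B.LiesOverPrime q) (hqM : ¬ q ∣ M)
variable [IsAlgClosed (ResidueField B)]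
variable {ζ : Kbˣ} (hζ : IsPrimitiveRoot ζ q)

local notation "kB" => IsLocalRing.ResidueField B
local notation "FtM" => modularFunctionFieldFullC (IsLocalRing.ResidueField B) M

/-- (shortcut instances) -/
local instance (priority := 100000) instAlgebraFtMShortcutTM :
    Algebra (IsLocalRing.ResidueField B)
      (modularFunctionFieldFullC (IsLocalRing.ResidueField B) M) :=
  inferInstance
local instance (priority := 100000) instAlgKFMidTM :
    Algebra (IsLocalRing.ResidueField B) (FMid M B) := inferInstance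
local instance (priority := 100000) instAlgFtFMidTM :
    Algebra (modularFunctionFieldFullC (IsLocalRing.ResidueField B) M) (FMid M B) := inferInstance
local instance (priority := 100000) instTowerMidTM :
    IsScalarTower (IsLocalRing.ResidueField B)
      (modularFunctionFieldFullC (IsLocalRing.ResidueField B) M) (FMid M B) :=
  inferInstance
local instance (priority := 100000) instFieldFtAllTM {FZ : SSpM B hB hqM → Type}
    [∀ e, Field (FZ e)] (v : Comp (MidM B hB hqM hζ) (SSpM B hB hqM)) :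
    Field (FtAll B hB hqM hζ FZ v) := instFieldFtOf v
local instance (priority := 100000) instAlgFtAllTM {FZ : SSpM B hB hqM → Type}
    [∀ e, Field (FZ e)] [∀ e, Algebra (IsLocalRing.ResidueField B) (FZ e)]
    (v : Comp (MidM B hB hqM hζ) (SSpM B hB hqM)) :
    Algebra (IsLocalRing.ResidueField B) (FtAll B hB hqM hζ FZ v) := instAlgebraFtOf v

variable (H : AtlasHyp (chartDataModular B hB hqM) (jx M q))

/-! ### the raw tube -/

open Classical in
/-- **The raw tube of the point `Q` of the middle component `i`**: the tube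
`MidChartAll.midTubeAll` at the index `i.rep` if `Q` does not lie over a crossing point of `can`,
`∅` otherwise. -/
def midTubeM (i : MidM B hB hqM hζ) (Q : Place kB (FMid M B)) :
    Set (Place Qb (Fb (M * q * q))) :=
  haveI := finiteDimensional_FMid B hB hqM
  haveI : Algebra.IsIntegral FtM (FMid M B) := Algebra.IsIntegral.of_finite _ _
  if hnc : ∀ e : Crossing (chartDataModular B hB hqM),
      Q.restrict FtM ≠ z₁ (chartDataModular B hB hqM) e then
    midTubeAll B hB hqM hζ H (i.rep B hB hqM hζ) Q hnc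
  else ∅

theorem midTubeM_of_nc (i : MidM B hB hqM hζ) (Q : Place kB (FMid M B))
    (hnc : haveI := finiteDimensional_FMid B hB hqM
      haveI : Algebra.IsIntegral FtM (FMid M B) := Algebra.IsIntegral.of_finite _ _
      ∀ e : Crossing (chartDataModular B hB hqM),
        Q.restrict FtM ≠ z₁ (chartDataModular B hB hqM) e) :
    midTubeM B hB hqM hζ H i Q =
      (haveI := finiteDimensional_FMid B hB hqM
       midTubeAll B hB hqM hζ H (i.rep B hB hqM hζ) Q hnc) := by
  unfold midTubeM
  exact dif_pos hnc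

theorem midTubeM_of_not_nc (i : MidM B hB hqM hζ) (Q : Place kB (FMid M B))
    (hnc : haveI := finiteDimensional_FMid B hB hqM
      haveI : Algebra.IsIntegral FtM (FMid M B) := Algebra.IsIntegral.of_finite _ _
      ¬ ∀ e : Crossing (chartDataModular B hB hqM),
        Q.restrict FtM ≠ z₁ (chartDataModular B hB hqM) e) :
    midTubeM B hB hqM hζ H i Q = ∅ := by
  unfold midTubeM
  exact dif_neg hnc

/-! ### the named hypothesis -/

/-- **The ONE named hypothesis**: the sheet datum at every point of every middle component not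
over a crossing point of `can` (producers: `MidChartAll.hasMidSheet_all`,
`MidChartAllFinal.hasMidSheetM`). -/
def MidSheetHyp : Prop :=
  haveI := finiteDimensional_FMid B hB hqM
  haveI : Algebra.IsIntegral FtM (FMid M B) := Algebra.IsIntegral.of_finite _ _
  ∀ (b₀ : Fin (q - 1)) (Q'' : Place kB (FMid M B))
    (hnc : ∀ e : Crossing (chartDataModular B hB hqM),
      Q''.restrict FtM ≠ z₁ (chartDataModular B hB hqM) e),
    HasMidSheet B hB hqM hζ H b₀ Q'' hnc

theorem midSheetHyp_of_all
    (hSheet : haveI := finiteDimensional_FMid B hB hqM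
      haveI : Algebra.IsIntegral FtM (FMid M B) := Algebra.IsIntegral.of_finite _ _
      ∀ (b₀ : Fin (q - 1)) (Q'' : Place kB (FMid M B))
        (hnc : ∀ e : Crossing (chartDataModular B hB hqM),
          Q''.restrict FtM ≠ z₁ (chartDataModular B hB hqM) e),
        HasMidSheet B hB hqM hζ H b₀ Q'' hnc) :
    MidSheetHyp B hB hqM hζ H :=
  hSheet

/-! ### the charts on the raw tubes -/

/-- **The regular chart of the middle component `i` at a point not over a crossing point**, on
the raw tube. -/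
def regMidM (hS : MidSheetHyp B hB hqM hζ H) (i : MidM B hB hqM hζ) (Q : Place kB (FMid M B))
    (hnc : haveI := finiteDimensional_FMid B hB hqM
      haveI : Algebra.IsIntegral FtM (FMid M B) := Algebra.IsIntegral.of_finite _ _
      ∀ e : Crossing (chartDataModular B hB hqM),
        Q.restrict FtM ≠ z₁ (chartDataModular B hB hqM) e) :
    RegChart B (constRedMid B hB hqM hζ (i.rep B hB hqM hζ).2).O
      (constRedMid B hB hqM hζ (i.rep B hB hqM hζ).2).res Q (midTubeM B hB hqM hζ H i Q) :=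
  haveI := finiteDimensional_FMid B hB hqM
  Fibre.regChartOfEq (midTubeM_of_nc B hB hqM hζ H i Q hnc)
    (midRegAll B hB hqM hζ H (i.rep B hB hqM hζ) Q hnc (hS (i.rep B hB hqM hζ) Q hnc))

theorem regMidM_t (hS : MidSheetHyp B hB hqM hζ H) (i : MidM B hB hqM hζ)
    (Q : Place kB (FMid M B))
    (hnc : haveI := finiteDimensional_FMid B hB hqM
      haveI : Algebra.IsIntegral FtM (FMid M B) := Algebra.IsIntegral.of_finite _ _
      ∀ e : Crossing (chartDataModular B hB hqM),
        Q.restrict FtM ≠ z₁ (chartDataModular B hB hqM) e) :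
    (regMidM B hB hqM hζ H hS i Q hnc).chart.t =
      (haveI := finiteDimensional_FMid B hB hqM
       haveI : Algebra.IsIntegral FtM (FMid M B) := Algebra.IsIntegral.of_finite _ _
       alpha2 M q (regChartCan B hB hqM H (Q.restrict FtM) hnc).chart.t) := by
  unfold regMidM
  rw [Fibre.regChartOfEq_t]
  rfl

/-! ### the family terms -/

section Family

variable {FZ : SSpM B hB hqM → Type} [∀ e, Field (FZ e)] [∀ e, Algebra (ResidueField B) (FZ e)]
  {KP : Type} (comp : SSpM B hB hqM → KP → MidM B hB hqM hζ)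
  (pMid : ∀ e s, Place (IsLocalRing.ResidueField B) (FtAll B hB hqM hζ FZ (mid (comp e s))))
  (smTube : (Σ v, Place (IsLocalRing.ResidueField B) (FtAll B hB hqM hζ FZ v)) →
    Set (Place (AlgebraicClosure ℚ) (Fb (M * q * q))))
  (CZ : ∀ e, ConstRed (F := Fb (M * q * q)) (Ft := FZ e) B (residue B))

/-- **The charts of `can` of `S'`** in the shape of the argument `C'` of `hcan_modular` /
`partition_modular`. -/
def canChartH (Q' : Place kB FtM) (h : ∀ e, Q' ≠ z₁ (chartDataModular B hB hqM) e) :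
    SmoothChart B (constRedW1 B hB hqM).O (constRedW1 B hB hqM).res Q'
      {P | (setup (DtM B hB hqM)).r P = ⟨0, Q'⟩} :=
  (regChartCan B hB hqM H Q' h).chart

/-- a point of a middle component which is not a Kummer place does not lie over a crossing point
of `can` (`complMid` = the literal binder of `under_modular`, producer `complMid_pMid`) -/
theorem hnc_of_not_special
    (complMid : ∀ i Q e', uMidM B hB hqM hζ FZ i Q = z₁ (chartDataModular B hB hqM) e' →
      ∃ e s, (⟨mid i, Q⟩ : Σ v, Place kB (FtAll B hB hqM hζ FZ v)) =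
        ⟨mid (comp e s), pMid e s⟩)
    (i : MidM B hB hqM hζ) (Q : Place kB (FtAll B hB hqM hζ FZ (mid i)))
    (h : ∀ e s, (⟨mid i, Q⟩ : Σ v, Place kB (FtAll B hB hqM hζ FZ v)) ≠
      ⟨mid (comp e s), pMid e s⟩) :
    ∀ e, uMidM B hB hqM hζ FZ i Q ≠ z₁ (chartDataModular B hB hqM) e := by
  intro e he
  obtain ⟨e', s, hes⟩ := complMid i Q e he
  exact h e' s hes

/-- **The smooth charts of the middle components on the raw tubes** = the LITERAL binder `smMid`
of `SDD.Modular.modelAt_of_raw` / `hcan_modular` / `partition_modular`. -/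
def smMidM (hS : MidSheetHyp B hB hqM hζ H)
    (complMid : ∀ i Q e', uMidM B hB hqM hζ FZ i Q = z₁ (chartDataModular B hB hqM) e' →
      ∃ e s, (⟨mid i, Q⟩ : Σ v, Place kB (FtAll B hB hqM hζ FZ v)) =
        ⟨mid (comp e s), pMid e s⟩)
    (hsm : ∀ (i : MidM B hB hqM hζ) (Q : Place kB (FtAll B hB hqM hζ FZ (mid i))),
      smTube ⟨mid i, Q⟩ = midTubeM B hB hqM hζ H i Q)
    (i : MidM B hB hqM hζ)
    (Q : Place (ResidueField B) (FtAll B hB hqM hζ FZ (mid i)))
    (h : ∀ e s, (⟨mid i, Q⟩ : Σ v, Place (ResidueField B) (FtAll B hB hqM hζ FZ v)) ≠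
      ⟨mid (comp e s), pMid e s⟩) :
    SmoothChart B (CAll B hB hqM hζ CZ (mid i)).O (CAll B hB hqM hζ CZ (mid i)).res Q
      (smTube ⟨mid i, Q⟩) :=
  (Fibre.regChartOfEq (hsm i Q)
    (regMidM B hB hqM hζ H hS i Q
      (hnc_of_not_special B hB hqM hζ comp pMid complMid i Q h))).chart

/-- **The regular charts of the middle components on the raw tubes**, in the shape of the argument
`regMid` of helper3's `dIM_M` (`CM i = constRedMid … (i.rep).2`). -/
def regMidFam (hS : MidSheetHyp B hB hqM hζ H)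
    (complMid : ∀ i Q e', uMidM B hB hqM hζ FZ i Q = z₁ (chartDataModular B hB hqM) e' →
      ∃ e s, (⟨mid i, Q⟩ : Σ v, Place kB (FtAll B hB hqM hζ FZ v)) =
        ⟨mid (comp e s), pMid e s⟩)
    (i : MidM B hB hqM hζ) (Q : Place kB (FtAll B hB hqM hζ FZ (mid i)))
    (h : ∀ e s, (⟨mid i, Q⟩ : Σ v, Place kB (FtAll B hB hqM hζ FZ v)) ≠
      ⟨mid (comp e s), pMid e s⟩) :
    RegChart B (CM B hB hqM hζ i).O (CM B hB hqM hζ i).res Q (midTubeM B hB hqM hζ H i Q) :=
  regMidM B hB hqM hζ H hS i Q (hnc_of_not_special B hB hqM hζ comp pMid complMid i Q h)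

/-- **The parameters of the charts** = the LITERAL binder `hMid_t` of `hcan_modular` /
`partition_modular` (with `C' := canChartH …`). -/
theorem smMidM_t (hS : MidSheetHyp B hB hqM hζ H)
    (complMid : ∀ i Q e', uMidM B hB hqM hζ FZ i Q = z₁ (chartDataModular B hB hqM) e' →
      ∃ e s, (⟨mid i, Q⟩ : Σ v, Place kB (FtAll B hB hqM hζ FZ v)) =
        ⟨mid (comp e s), pMid e s⟩)
    (hsm : ∀ (i : MidM B hB hqM hζ) (Q : Place kB (FtAll B hB hqM hζ FZ (mid i))),
      smTube ⟨mid i, Q⟩ = midTubeM B hB hqM hζ H i Q)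
    (i : MidM B hB hqM hζ) (Q : Place kB (FtAll B hB hqM hζ FZ (mid i)))
    (h : ∀ e s, (⟨mid i, Q⟩ : Σ v, Place kB (FtAll B hB hqM hζ FZ v)) ≠
      ⟨mid (comp e s), pMid e s⟩)
    (h' : ∀ e, uMidM B hB hqM hζ FZ i Q ≠ z₁ (chartDataModular B hB hqM) e) :
    (smMidM B hB hqM hζ H comp pMid smTube CZ hS complMid hsm i Q h).t =
      alpha2 M q (canChartH B hB hqM H (uMidM B hB hqM hζ FZ i Q) h').t := by
  unfold smMidM
  refine (Fibre.regChartOfEq_t (hsm i Q) _).trans ?_
  exact regMidM_t B hB hqM hζ H hS i Q _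

/-- **(sub) for the middle components** = the LITERAL binder `subMid` of `under_modular` /
`hcan_modular` / `partition_modular`. -/
theorem subMidM
    (hsm : ∀ (i : MidM B hB hqM hζ) (Q : Place kB (FtAll B hB hqM hζ FZ (mid i))),
      smTube ⟨mid i, Q⟩ = midTubeM B hB hqM hζ H i Q) :
    ∀ i (Q : Place kB (FtAll B hB hqM hζ FZ (mid i))),
      (∀ e s, (⟨mid i, Q⟩ : Σ v, Place kB (FtAll B hB hqM hζ FZ v)) ≠
        ⟨mid (comp e s), pMid e s⟩) →
      ∀ P ∈ smTube ⟨mid i, Q⟩, (setup (DtM B hB hqM)).r (rhoA M q P) =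
        ⟨0, uMidM B hB hqM hζ FZ i Q⟩ := by
  intro i Q _ P hP
  haveI := finiteDimensional_FMid B hB hqM
  haveI : Algebra.IsIntegral FtM (FMid M B) := Algebra.IsIntegral.of_finite _ _
  rw [hsm i Q] at hP
  by_cases hnc : ∀ e : Crossing (chartDataModular B hB hqM),
      (show Place kB (FMid M B) from Q).restrict FtM ≠ z₁ (chartDataModular B hB hqM) e
  · rw [midTubeM_of_nc B hB hqM hζ H i Q hnc] at hP
    exact restrictAlong_mem_of_mem_midTubeAll B hB hqM hζ H (i.rep B hB hqM hζ) Q hnc
      (isIntegral_alpha2 M q) hP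
  · rw [midTubeM_of_not_nc B hB hqM hζ H i Q hnc] at hP
    exact absurd hP (Set.notMem_empty _)

/-! ### the raw tubes under the inertia elements -/

section Equiv

variable {s : Kb ≃ₐ[ℚ] Kb}

/-- **The raw tubes of the middle components under an inertia element** mapping the component `i`
to the component `j` and inducing `a` on the residue fields, at EVERY point. -/
theorem smul_mem_midTubeM_tame (hS : MidSheetHyp B hB hqM hζ H) (hs : s ∈ B.inertiaSubgroupIn ℚ)
    (i j : MidM B hB hqM hζ) (a : FMid M B ≃ₐ[kB] FMid M B)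
    (hmem : ∀ y : Fb (M * q * q),
      gal (M * q * q) s • y ∈ (constRedMid B hB hqM hζ (j.rep B hB hqM hζ).2).O ↔
        y ∈ (constRedMid B hB hqM hζ (i.rep B hB hqM hζ).2).O)
    (hres : ∀ (y : Fb (M * q * q))
      (hy : y ∈ (constRedMid B hB hqM hζ (i.rep B hB hqM hζ).2).O)
      (hy' : gal (M * q * q) s • y ∈ (constRedMid B hB hqM hζ (j.rep B hB hqM hζ).2).O),
      (constRedMid B hB hqM hζ (j.rep B hB hqM hζ).2).res ⟨gal (M * q * q) s • y, hy'⟩ =
        a ((constRedMid B hB hqM hζ (i.rep B hB hqM hζ).2).res ⟨y, hy⟩))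
    (Q : Place kB (FMid M B)) {P : Place Kb (Fb (M * q * q))}
    (hP : P ∈ midTubeM B hB hqM hζ H i Q) :
    gal (M * q * q) s • P ∈ midTubeM B hB hqM hζ H j (placeMap a Q) := by
  haveI := finiteDimensional_FMid B hB hqM
  haveI : Algebra.IsIntegral FtM (FMid M B) := Algebra.IsIntegral.of_finite _ _
  by_cases hnc : ∀ e : Crossing (chartDataModular B hB hqM),
      Q.restrict FtM ≠ z₁ (chartDataModular B hB hqM) e
  · have hnc₂ := hnc_placeMap B hB hqM hζ (i.rep B hB hqM hζ).2 (j.rep B hB hqM hζ).2 hs a hres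
      hnc
    rw [midTubeM_of_nc B hB hqM hζ H i Q hnc] at hP
    rw [midTubeM_of_nc B hB hqM hζ H j (placeMap a Q) hnc₂]
    exact smul_mem_midTubeAll B hB hqM hζ hs a (i.rep B hB hqM hζ) (j.rep B hB hqM hζ) hmem hres H
      Q hnc hnc₂ (hS _ Q hnc) (hS _ _ hnc₂) hP
  · rw [midTubeM_of_not_nc B hB hqM hζ H i Q hnc] at hP
    exact absurd hP (Set.notMem_empty _)

/-- **The raw tubes of the middle components are stable under the inertia elements fixing `ζ`**,
at EVERY point. -/
theorem smul_mem_midTubeM_rich (hS : MidSheetHyp B hB hqM hζ H) (hs : s ∈ B.inertiaSubgroupIn ℚ)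
    (hsζ : s (ζ : Kb) = (ζ : Kb)) (i : MidM B hB hqM hζ) (Q : Place kB (FMid M B))
    {P : Place Kb (Fb (M * q * q))} (hP : P ∈ midTubeM B hB hqM hζ H i Q) :
    gal (M * q * q) s • P ∈ midTubeM B hB hqM hζ H i Q := by
  haveI := finiteDimensional_FMid B hB hqM
  haveI : Algebra.IsIntegral FtM (FMid M B) := Algebra.IsIntegral.of_finite _ _
  by_cases hnc : ∀ e : Crossing (chartDataModular B hB hqM),
      Q.restrict FtM ≠ z₁ (chartDataModular B hB hqM) e
  · rw [midTubeM_of_nc B hB hqM hζ H i Q hnc] at hP ⊢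
    exact smul_mem_midTubeAll_rich B hB hqM hζ hs hsζ H (i.rep B hB hqM hζ) Q hnc (hS _ Q hnc) hP
  · rw [midTubeM_of_not_nc B hB hqM hζ H i Q hnc] at hP
    exact absurd hP (Set.notMem_empty _)

/-- **The clause of the middle components of `hrest` of `SDD.Modular.modelAt_of_raw`** (third
clause, at the points `⟨mid i, Q⟩`, EVERY `Q`). -/
theorem hsmMid_rich_all (hS : MidSheetHyp B hB hqM hζ H)
    (hsm : ∀ (i : MidM B hB hqM hζ) (Q : Place kB (FtAll B hB hqM hζ FZ (mid i))),
      smTube ⟨mid i, Q⟩ = midTubeM B hB hqM hζ H i Q)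
    (hs : s ∈ B.inertiaSubgroupIn ℚ) (h3 : ∀ ζ' : Qb, ζ' ^ q = 1 → s ζ' = ζ')
    (i : MidM B hB hqM hζ) (Q : Place kB (FtAll B hB hqM hζ FZ (mid i))) :
    ∀ Pl ∈ smTube ⟨mid i, Q⟩, galAut (M * q * q) s • Pl ∈ smTube ⟨mid i, Q⟩ := by
  intro Pl hPl
  rw [hsm i Q] at hPl ⊢
  have hsζ : s (ζ : Kb) = (ζ : Kb) := h3 _ (by
    rw [← Units.val_pow_eq_pow_val, hζ.pow_eq_one, Units.val_one])
  exact smul_mem_midTubeM_rich B hB hqM hζ H hS hs hsζ i Q hPl

/-- **The raw clause `hsmMid` of `EquivTubeFam.hT_stable_of_raw`** (LITERAL, with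
`g := fun Pl => galAut (M q²) s • Pl`). -/
theorem hsmMid_rich (hS : MidSheetHyp B hB hqM hζ H)
    (hsm : ∀ (i : MidM B hB hqM hζ) (Q : Place kB (FtAll B hB hqM hζ FZ (mid i))),
      smTube ⟨mid i, Q⟩ = midTubeM B hB hqM hζ H i Q)
    (hs : s ∈ B.inertiaSubgroupIn ℚ) (h3 : ∀ ζ' : Qb, ζ' ^ q = 1 → s ζ' = ζ') :
    ∀ (i : MidM B hB hqM hζ) (Q : Place (ResidueField B) (FtAll B hB hqM hζ FZ (mid i))),
      (∀ e s', (⟨mid i, Q⟩ : Σ v, Place (ResidueField B) (FtAll B hB hqM hζ FZ v)) ≠
        ⟨mid (comp e s'), pMid e s'⟩) →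
      ∀ Pl ∈ smTube ⟨mid i, Q⟩,
        (fun Pl => galAut (M * q * q) s • Pl) Pl ∈ smTube ⟨mid i, Q⟩ :=
  fun i Q _ => hsmMid_rich_all B hB hqM hζ H smTube hS hsm hs h3 i Q

/-- **The raw clause `hsmMid` of `SDD.ModularTameRaw.tameProp_of_rawTubes`** (LITERAL): the tame
generator maps the raw tube of `Q` on `mid i` into the raw tube of `aMid i Q` on `mid (P i)`. -/
theorem hsmMid_tame (hS : MidSheetHyp B hB hqM hζ H)
    (X : CaseInput (F := Fb (M * q * q)) B (MidM B hB hqM hζ) (SSpM B hB hqM) KP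
      (FtAll B hB hqM hζ FZ))
    (hXC : X.C = CAll B hB hqM hζ CZ)
    (hsm : ∀ (i : MidM B hB hqM hζ) (Q : Place kB (FtAll B hB hqM hζ FZ (mid i))),
      smTube ⟨mid i, Q⟩ = midTubeM B hB hqM hζ H i Q)
    (σ0 : GQ) (hσ0 : σ0 ∈ B.inertiaSubgroupIn ℚ) (P : Equiv.Perm (MidM B hB hqM hζ))
    (aMid : ∀ i, FtAll B hB hqM hζ FZ (mid i) ≃ₐ[kB] FtAll B hB hqM hζ FZ (mid (P i)))
    (hMid : ∀ i, MapsComp X.toInput.setup (galAut (M * q * q) σ0) (mid i) (mid (P i))
      (aMid i)) :
    ∀ (i : MidM B hB hqM hζ) (Q : Place kB (FtAll B hB hqM hζ FZ (mid i))),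
      (∀ e s', (⟨mid i, Q⟩ : Σ v, Place kB (FtAll B hB hqM hζ FZ v)) ≠
        ⟨mid (X.comp e s'), X.pMid e s'⟩) →
      ∀ Pl ∈ smTube ⟨mid i, Q⟩,
        galAut (M * q * q) σ0 • Pl ∈ smTube ⟨mid (P i), placeMap (aMid i) Q⟩ := by
  intro i Q _ Pl hPl
  rw [hsm i Q] at hPl
  rw [hsm (P i) (placeMap (aMid i) Q)]
  have key : ∀ C : ∀ v, ConstRed (F := Fb (M * q * q)) (Ft := FtAll B hB hqM hζ FZ v) B
      (residue B), X.C = C →
      (∀ y : Fb (M * q * q), galAut (M * q * q) σ0 • y ∈ (C (mid (P i))).O ↔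
        y ∈ (C (mid i)).O) ∧
      ∀ (y : Fb (M * q * q)) (hy : y ∈ (C (mid i)).O)
        (hy' : galAut (M * q * q) σ0 • y ∈ (C (mid (P i))).O),
        (C (mid (P i))).res ⟨galAut (M * q * q) σ0 • y, hy'⟩ =
          aMid i ((C (mid i)).res ⟨y, hy⟩) := by
    intro C hC
    subst hC
    exact ⟨fun y => (hMid i).smul_mem_iff, (hMid i).res_smul⟩
  obtain ⟨hmem, hres⟩ := key _ hXC
  exact smul_mem_midTubeM_tame B hB hqM hζ H hS hσ0 i (P i) (aMid i) hmem hres Q hPl

end Equiv

end Family

end Fermat.Agent.BR3.SDD.ModularTubesMid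


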