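import Fermat.Agent.BR3.SDD.PartitionRegions
import Fermat.Agent.BR3.SDD.ModularFrame
import Fermat.Agent.BR3.KummerGenus.MidInst
import Fermat.Agent.BR2.LevelGen

/-!
# Program C (S36), node I7 (W4-MOD, W4-CAN-MOD): the partition of the places of `X₀(M q²)` at the
modular frame

Frame (helper14, `ModularGauge`, `ModularFrame`): `S' := setup (DtM B hB hqM)` (components `0 = can`,
`1 = et`, nodes the supersingular points), `I := inputs (DtM ..)`, gauge `gaugeA q ..`,
`S'ref_a = sref I gaugeA admA` (`SA_eq_sref`), `ρ := rhoA` the map `P ↦ P ∘ α₂` on places,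
`Ft := FtAll B hB hqM hζ FZ` (`cInf, cZero ↦ F̃_M`, `mid i ↦ FMid M B`, `ze e ↦ FZ e`),
`pInf := pInfM`, `pZero := pZeroM`.

* `canFib Q'` : the points of `S''` over a point `Q'` of `can` which is not supersingular: the point
  `Q'` of `cInf` and, on every middle component, the places of `FMid M B` over `Q'` (canonical
  algebra `F̃_M → FMid M B`: `resMid_alpha2`); **`card_canFib`** `= q` when `FMid / F̃_M` is
  unramified over `Q'` (`card_fiber_FMid`, `1 + |Mid| · fMid = q`);
* **`fibreOver_can`** (W4-CAN-MOD) : `FibreOver S' rhoA smTube ⟨0, Q'⟩ (canFib Q')` from sheets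
  carrying one zero each (`hcountInf`, `hcountMid` = `CoverK.Fibre.count_sheet` of SC1/SC2 resp.
  SC3/SC4), (sub) and (disj); `canFib_not_branch`;
* **`under_modular`** (W4-MOD) : `under_of_raw_sref` at the frame, with `canA := 0`, `etA := 1`,
  `ea := id`, `uInf := id`, `uMid i := restrict F̃_M`: `hne`, `hsrc`, `hea`, `hInfInj`, `hInf`,
  `complInf` discharged.
-/

set_option autoImplicit false
set_option linter.style.haveILetI false
set_option linter.unusedSectionVars false
set_option linter.unusedVariables false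
set_option synthInstance.maxHeartbeats 400000

open ModularCurve AlgebraicCurve

noncomputable section

/- S36 build-time patch: file-local shortcut instances. They only shorten instance search;
each is the instance that the search finds anyway (reducible, same terms after unfolding). -/
local instance (priority := 100000) Fermat.Agent.BR3.FastInst.instAlgFullC_SDD_PartitionMod
    {k : Type*} [Field k] (N : ℕ) :
    Algebra k ↥(ModularCurve.modularFunctionFieldFullC k N) := inferInstance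
local instance (priority := 100000) Fermat.Agent.BR3.FastInst.instFieldFullC_SDD_PartitionMod
    {k : Type*} [Field k] (N : ℕ) :
    Field ↥(ModularCurve.modularFunctionFieldFullC k N) := inferInstance
local instance (priority := 100000) Fermat.Agent.BR3.FastInst.instAlgLaurent_SDD_PartitionMod
    {k : Type*} [Field k] : Algebra k (LaurentSeries k) := inferInstance


namespace Fermat.Agent.BR3.SDD.Modular

open IsLocalRing Fermat.Agent.X0 Fermat.Agent.Red Fermat.Agent.Val
  Fermat.Agent.BR.SS Fermat.Agent.BR.Refine Fermat.Agent.BR.Circle Fermat.Agent.BR.P1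
  Fermat.Agent.BR.AnnulusRed
  Fermat.Agent.BR.S0 Fermat.Agent.BR.S0.PointDict Fermat.Agent.BR.S0.RedModular
  Fermat.Agent.BR2.SetupOfData Fermat.Agent.BR3.FibreProd Fermat.Agent.BR3.CircleN
  Fermat.Agent.BR3.SRef Fermat.Agent.BR3.SRef.Modular Fermat.Agent.BR3.CoverDict
  Fermat.Agent.BR3.SDD.Partition Fermat.Agent.BR3.KummerGenus
  Fermat.Agent.BR3.KummerGenus.MidInst Fermat.Agent.BR2.LevelGen

local notation "Qb" => AlgebraicClosure ℚ

variable {M q : ℕ} [NeZero M] [hq : Fact q.Prime] [NeZero q]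
variable (B : ValuationSubring (AlgebraicClosure ℚ)) (hB : B.LiesOverPrime q) (hqM : ¬ q ∣ M)
variable [IsAlgClosed (ResidueField B)]
variable {ζ : Kbˣ} (hζ : IsPrimitiveRoot ζ q)

local notation "kB" => IsLocalRing.ResidueField B
local notation "FtM" => modularFunctionFieldFullC (IsLocalRing.ResidueField B) M

/-- (shortcut instances) -/
local instance (priority := 100000) instAlgebraFtMShortcutP :
    Algebra (IsLocalRing.ResidueField B)
      (modularFunctionFieldFullC (IsLocalRing.ResidueField B) M) :=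
  inferInstance
local instance (priority := 100000) instAlgKFMidP :
    Algebra (IsLocalRing.ResidueField B) (FMid M B) := inferInstance
local instance (priority := 100000) instAlgFtFMidP :
    Algebra (modularFunctionFieldFullC (IsLocalRing.ResidueField B) M) (FMid M B) := inferInstance
local instance (priority := 100000) instTowerMidP :
    IsScalarTower (IsLocalRing.ResidueField B)
      (modularFunctionFieldFullC (IsLocalRing.ResidueField B) M) (FMid M B) :=
  inferInstance

/-- (shortcut instances for the residue fields of the components of `S''`) -/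
local instance (priority := 100000) instFieldFtAllP {FZ : SSpM B hB hqM → Type}
    [∀ e, Field (FZ e)] (v : Comp (MidM B hB hqM hζ) (SSpM B hB hqM)) :
    Field (FtAll B hB hqM hζ FZ v) := instFieldFtOf v
local instance (priority := 100000) instAlgFtAllP {FZ : SSpM B hB hqM → Type}
    [∀ e, Field (FZ e)] [∀ e, Algebra (IsLocalRing.ResidueField B) (FZ e)]
    (v : Comp (MidM B hB hqM hζ) (SSpM B hB hqM)) :
    Algebra (IsLocalRing.ResidueField B) (FtAll B hB hqM hζ FZ v) := instAlgebraFtOf v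

/-! ### the frame -/

variable (M q) in
/-- `α₂` is integral. -/
theorem isIntegral_alpha2 : (alpha2 M q).toRingHom.IsIntegral := isIntegral_fb (alpha2 M q)

variable (M q) in
/-- **The map on places along `α₂`.** -/
def rhoA (P : Place Qb (Fb (M * q * q))) : Place Qb (Fb (M * q)) :=
  P.restrictAlong (alpha2 M q) (isIntegral_alpha2 M q)

theorem rhoA_apply (P : Place Qb (Fb (M * q * q))) :
    rhoA M q P = P.restrictAlong (alpha2 M q) (isIntegral_alpha2 M q) := rfl

/-- `S'ref_a` is the one-level refinement of `S'` at the gauge `gaugeA`. -/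
theorem SA_eq_sref (h2 : nuTwo M = 0) (h3 : nuThree M = 0) :
    SA B hB hqM h2 h3 =
      sref (inputs (DtM B hB hqM)) (gaugeA q B hB hqM) (admA B hB hqM h2 h3) := rfl

/-! ### the points over a point of `can` -/

section Can

include hB hqM in
theorem isIntegral_FMid : Algebra.IsIntegral FtM (FMid M B) :=
  haveI := finiteDimensional_FMid B hB hqM
  Algebra.IsIntegral.of_finite _ _

include hB hqM in
theorem principal_FMid : HasPrincipalDivisors kB (FMid M B) :=
  (riemannPkg_FMid B hB hqM).principal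

include hB hqM in
theorem fundamentalIdentity_FMid :
    haveI := isIntegral_FMid B hB hqM
    haveI := principal_FMid B hB hqM
    FundamentalIdentity kB FtM (FMid M B) := by
  haveI := finiteDimensional_FMid B hB hqM
  exact fundamentalIdentity_of_kummer (midDatum B hB hqM) (riemannPkg_FMid B hB hqM)
    (fMid_natCast_ne_zero B hB hqM)

/-- The places of `FMid M B` over a point of `F̃_M`. -/
def fibMid (Q' : Place kB FtM) : Finset (Place kB (FMid M B)) :=
  haveI := isIntegral_FMid B hB hqM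
  haveI := principal_FMid B hB hqM
  Q'.fiber (FMid M B)

theorem mem_fibMid {Q' : Place kB FtM} {Q'' : Place kB (FMid M B)} :
    haveI := isIntegral_FMid B hB hqM
    Q'' ∈ fibMid B hB hqM Q' ↔ Q''.restrict FtM = Q' := by
  haveI := isIntegral_FMid B hB hqM
  haveI := principal_FMid B hB hqM
  exact Place.mem_fiber

/-- **Over an unramified point of `F̃_M` there are `fMid` places of `FMid M B`.** -/
theorem card_fibMid (Q' : Place kB FtM)
    (hunr : ∀ Q'' ∈ fibMid B hB hqM Q', Q''.ramificationIndex FtM = 1) :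
    (fibMid B hB hqM Q').card = fMid M B hB := by
  haveI := isIntegral_FMid B hB hqM
  haveI := principal_FMid B hB hqM
  haveI := fundamentalIdentity_FMid B hB hqM
  rw [← finrank_FMid B hB hqM]
  exact card_fiber_of_unramified (riemannPkg_FtM B hB hqM).deg_one
    (riemannPkg_FMid B hB hqM).deg_one Q' hunr

variable {FZ : SSpM B hB hqM → Type} [∀ e, Field (FZ e)] [∀ e, Algebra (ResidueField B) (FZ e)]

/-- the point `Q` of `cInf` -/
def ptCInf (FZ : SSpM B hB hqM → Type) [∀ e, Field (FZ e)]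
    [∀ e, Algebra (ResidueField B) (FZ e)] (Q : Place kB FtM) :
    Σ v, Place kB (FtAll B hB hqM hζ FZ v) := ⟨cInf, Q⟩

/-- the point `Q` of the middle component `i` -/
def ptCMid (FZ : SSpM B hB hqM → Type) [∀ e, Field (FZ e)]
    [∀ e, Algebra (ResidueField B) (FZ e)] (i : MidM B hB hqM hζ) (Q : Place kB (FMid M B)) :
    Σ v, Place kB (FtAll B hB hqM hζ FZ v) := ⟨mid i, Q⟩

theorem ptCMid_injective (i : MidM B hB hqM hζ) :
    Function.Injective (ptCMid B hB hqM hζ FZ i) := fun Q Q' h => by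
  have := (Sigma.mk.inj_iff.mp h).2
  exact eq_of_heq this

theorem ptCMid_ne_ptCInf (i : MidM B hB hqM hζ) (Q : Place kB (FMid M B)) (Q' : Place kB FtM) :
    ptCMid B hB hqM hζ FZ i Q ≠ ptCInf B hB hqM hζ FZ Q' := by
  intro h
  have h1 : (mid i : Comp (MidM B hB hqM hζ) (SSpM B hB hqM)) = cInf := congrArg Sigma.fst h
  simp [mid, cInf] at h1

theorem ptCMid_eq_iff {i j : MidM B hB hqM hζ} {Q Q' : Place kB (FMid M B)} :
    ptCMid B hB hqM hζ FZ i Q = ptCMid B hB hqM hζ FZ j Q' ↔ i = j ∧ Q = Q' := by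
  constructor
  · intro h
    have h1 : (mid i : Comp (MidM B hB hqM hζ) (SSpM B hB hqM)) = mid j := congrArg Sigma.fst h
    have h2 : i = j := by simpa [mid] using h1
    subst h2
    exact ⟨rfl, ptCMid_injective B hB hqM hζ i h⟩
  · rintro ⟨rfl, rfl⟩
    rfl

open Classical in
/-- **The points of `S''` over the point `Q'` of `can`** (not supersingular): the point `Q'` of
`cInf` and the places over `Q'` on every middle component. -/
def canFib (FZ : SSpM B hB hqM → Type) [∀ e, Field (FZ e)]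
    [∀ e, Algebra (ResidueField B) (FZ e)] (Q' : Place kB FtM) :
    Finset (Σ v, Place kB (FtAll B hB hqM hζ FZ v)) :=
  insert (ptCInf B hB hqM hζ FZ Q')
    (Finset.univ.biUnion fun i : MidM B hB hqM hζ =>
      (fibMid B hB hqM Q').image (ptCMid B hB hqM hζ FZ i))

theorem mem_canFib {Q' : Place kB FtM} {x : Σ v, Place kB (FtAll B hB hqM hζ FZ v)} :
    x ∈ canFib B hB hqM hζ FZ Q' ↔ x = ptCInf B hB hqM hζ FZ Q' ∨
      ∃ i, ∃ Q'' ∈ fibMid B hB hqM Q', ptCMid B hB hqM hζ FZ i Q'' = x := by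
  classical
  simp [canFib]

/-- **`1 + |Mid| · fMid = q` points over an unramified point of `can`.** -/
theorem card_canFib (Q' : Place kB FtM)
    (hunr : ∀ Q'' ∈ fibMid B hB hqM Q', Q''.ramificationIndex FtM = 1) :
    (canFib B hB hqM hζ FZ Q').card = q := by
  classical
  have hnot : ptCInf B hB hqM hζ FZ Q' ∉
      Finset.univ.biUnion fun i : MidM B hB hqM hζ =>
        (fibMid B hB hqM Q').image (ptCMid B hB hqM hζ FZ i) := by
    intro h
    obtain ⟨i, -, hi⟩ := Finset.mem_biUnion.mp h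
    obtain ⟨Q'', -, hQ⟩ := Finset.mem_image.mp hi
    exact ptCMid_ne_ptCInf B hB hqM hζ i Q'' Q' hQ
  have hdisj : ((Finset.univ : Finset (MidM B hB hqM hζ)) : Set (MidM B hB hqM hζ)).PairwiseDisjoint
      fun i => (fibMid B hB hqM Q').image (ptCMid B hB hqM hζ FZ i) := by
    intro i _ j _ hij
    rw [Function.onFun, Finset.disjoint_left]
    intro x hx hx'
    obtain ⟨Q₁, -, rfl⟩ := Finset.mem_image.mp hx
    obtain ⟨Q₂, -, h2⟩ := Finset.mem_image.mp hx'
    exact hij ((ptCMid_eq_iff B hB hqM hζ).mp h2).1.symm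
  rw [canFib, Finset.card_insert_of_notMem hnot, Finset.card_biUnion hdisj]
  have h1 : ∀ i ∈ (Finset.univ : Finset (MidM B hB hqM hζ)),
      ((fibMid B hB hqM Q').image (ptCMid B hB hqM hζ FZ i)).card = fMid M B hB := fun i _ => by
    rw [Finset.card_image_of_injective _ (ptCMid_injective B hB hqM hζ i),
      card_fibMid B hB hqM Q' hunr]
  rw [Finset.sum_congr rfl h1, Finset.sum_const, Finset.card_univ, smul_eq_mul,
    card_mid_mul B hB hqM hζ]
  exact Nat.sub_add_cancel hq.out.one_le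

end Can

/-! ### the fibre over a point of `can` (W4-CAN-MOD) -/

section CanFibre

variable {FZ : SSpM B hB hqM → Type} [∀ e, Field (FZ e)] [∀ e, Algebra (ResidueField B) (FZ e)]
  (smTube : (Σ v, Place (IsLocalRing.ResidueField B) (FtAll B hB hqM hζ FZ v)) →
    Set (Place (AlgebraicClosure ℚ) (Fb (M * q * q))))

/-- **(W4-CAN-MOD) The fibre of `S''` over a point `Q'` of `can`** which is not supersingular and
over which `FMid / F̃_M` is unramified: the `q` points of `canFib Q'`, from (sub), (disj) and ONE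
zero of `t' - c` on every sheet (`CoverK.Fibre.count_sheet` of the `CoverSheet` of the point: SC1/SC2
for `cInf`, SC3/SC4 for the middle components; `algebraMap = α₂`). -/
theorem fibreOver_can (Q' : Place kB FtM)
    (C' : SmoothChart B ((setup (DtM B hB hqM)).O 0) ((setup (DtM B hB hqM)).res 0) Q'
      {P | (setup (DtM B hB hqM)).r P = ⟨0, Q'⟩})
    (hunr : ∀ Q'' ∈ fibMid B hB hqM Q', Q''.ramificationIndex FtM = 1)
    (hsub : ∀ x ∈ canFib B hB hqM hζ FZ Q', ∀ P ∈ smTube x,
      (setup (DtM B hB hqM)).r (rhoA M q P) = ⟨0, Q'⟩)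
    (hdisj : ∀ x ∈ canFib B hB hqM hζ FZ Q', ∀ y ∈ canFib B hB hqM hζ FZ Q', ∀ P,
      P ∈ smTube x → P ∈ smTube y → x = y)
    (hcount : ∀ x ∈ canFib B hB hqM hζ FZ Q', ∀ c : Qb, B.valuation c < 1 →
      ∀ D : Divisor Qb (Fb (M * q * q)),
      (∀ P, D P = P.ord (alpha2 M q (C'.t - algebraMap Qb (Fb (M * q)) c))) →
      Finsupp.mapDomain (fun P => P ∈ smTube x) D True = ((1 : ℕ) : ℤ)) :
    FibreOver (setup (DtM B hB hqM)) (rhoA M q) smTube ⟨0, Q'⟩
      (canFib B hB hqM hζ FZ Q' : Set (Σ v, Place kB (FtAll B hB hqM hζ FZ v))) := by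
  letI := algebraAlong (alpha2 M q)
  haveI := isScalarTower_along (alpha2 M q)
  haveI := isIntegral_along (alpha2 M q) (isIntegral_alpha2 M q)
  haveI : FundamentalIdentity Qb (Fb (M * q)) (Fb (M * q * q)) :=
    fundamentalIdentityAlong_fb (alpha2 M q)
  have hcard : (canFib B hB hqM hζ FZ Q').card = Module.finrank (Fb (M * q)) (Fb (M * q * q)) :=
    (card_canFib B hB hqM hζ Q' hunr).trans (finrankAlong_alpha2 (M := M) (q := q)).symm
  exact FibreOver.of_smoothSheets (setup (DtM B hB hqM)) smTube 0 Q'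
    (smoothSheetsOfUnit C' (canFib B hB hqM hζ FZ Q') hsub hdisj hcount hcard)
    (riemannPkg_bar (M * q * q)).deg_one (riemannPkg_bar (M * q)).deg_one

end CanFibre

/-! ### the point maps at the frame and the special points -/

section Frame

variable {FZ : SSpM B hB hqM → Type} [∀ e, Field (FZ e)] [∀ e, Algebra (ResidueField B) (FZ e)]
  {KP : Type} (comp : SSpM B hB hqM → KP → MidM B hB hqM hζ)
  (pMid : ∀ e s, Place (IsLocalRing.ResidueField B) (FtAll B hB hqM hζ FZ (mid (comp e s))))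
  (zW : ∀ e, Place (IsLocalRing.ResidueField B) (FtAll B hB hqM hζ FZ (ze e)))
  (zT : ∀ e, Place (IsLocalRing.ResidueField B) (FtAll B hB hqM hζ FZ (ze e)))
  (zK : ∀ e, KP → Place (IsLocalRing.ResidueField B) (FtAll B hB hqM hζ FZ (ze e)))

/-- **The point of `can` under a point of a middle component**: restriction along the canonical
algebra `F̃_M → FMid M B` (the residue map of `α₂` on every middle valuation: `resMid_alpha2`). -/
def uMidM (FZ : SSpM B hB hqM → Type) [∀ e, Field (FZ e)] [∀ e, Algebra (ResidueField B) (FZ e)]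
    (i : MidM B hB hqM hζ) (Q : Place kB (FtAll B hB hqM hζ FZ (mid i))) : Place kB FtM :=
  haveI := isIntegral_FMid B hB hqM
  (show Place kB (FMid M B) from Q).restrict FtM

theorem uMidM_apply (i : MidM B hB hqM hζ) (Q : Place kB (FMid M B)) :
    haveI := isIntegral_FMid B hB hqM
    uMidM B hB hqM hζ FZ i Q = Q.restrict FtM := rfl

/-- The point of `can` under a point of `cInf`: the same point of `F̃_M` (SC1: `Q'' = Q'`). -/
def uInfM (FZ : SSpM B hB hqM → Type) [∀ e, Field (FZ e)] [∀ e, Algebra (ResidueField B) (FZ e)]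
    (Q : Place kB (FtAll B hB hqM hζ FZ cInf)) : Place kB FtM := Q

theorem uInfM_injective : Function.Injective (uInfM B hB hqM hζ FZ) := fun _ _ h => h

/-- `hInf` of `under_of_raw_sref` at the frame. -/
theorem hInf_modular (e : SSpM B hB hqM) :
    (⟨0, uInfM B hB hqM hζ FZ (pInfM B hB hqM e)⟩ : Σ _ : Fin 2, Place kB FtM) =
      ⟨(setup (DtM B hB hqM)).src e, (setup (DtM B hB hqM)).s₁ e⟩ := rfl

/-- `complInf` of `under_of_raw_sref` at the frame. -/
theorem complInf_modular (Q : Place kB (FtAll B hB hqM hζ FZ cInf)) (e' : SSpM B hB hqM)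
    (h : (⟨0, uInfM B hB hqM hζ FZ Q⟩ : Σ _ : Fin 2, Place kB FtM) =
      ⟨(setup (DtM B hB hqM)).src e', (setup (DtM B hB hqM)).s₁ e'⟩) :
    ∃ e, Q = pInfM B hB hqM e :=
  ⟨e', eq_of_heq (Sigma.mk.inj_iff.mp h).2⟩

/-- The points of `canFib Q'` are not branches of `S''` (`Q'` not supersingular, the Kummer places
`pMid e s` over the supersingular points). -/
theorem canFib_not_branch (Q' : Place kB FtM)
    (hnc : ∀ e, Q' ≠ z₁ (chartDataModular B hB hqM) e)
    (hMid : ∀ e s, uMidM B hB hqM hζ FZ (comp e s) (pMid e s) =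
      z₁ (chartDataModular B hB hqM) e) :
    ∀ y ∈ (canFib B hB hqM hζ FZ Q' : Set (Σ v, Place kB (FtAll B hB hqM hζ FZ v))),
      (∀ x : Node (SSpM B hB hqM) KP,
        (⟨src comp x, s₁Of comp (pInfM B hB hqM) pMid zW x⟩ :
          Σ v, Place kB (FtAll B hB hqM hζ FZ v)) ≠ y) ∧
      ∀ x : Node (SSpM B hB hqM) KP,
        (⟨tgt x, s₂Of (pZeroM B hB hqM) zT zK x⟩ :
          Σ v, Place kB (FtAll B hB hqM hζ FZ v)) ≠ y := by
  intro y hy
  rcases (mem_canFib B hB hqM hζ).mp (Finset.mem_coe.mp hy) with rfl | ⟨i, Q'', hQ'', rfl⟩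
  · exact not_branch_cInf comp (pInfM B hB hqM) pMid zW (pZeroM B hB hqM) zT zK
      (Q := Q') fun e => hnc e
  · refine not_branch_mid comp (pInfM B hB hqM) pMid zW (pZeroM B hB hqM) zT zK (i := i)
      (Q := Q'') fun e s h => ?_
    have hi : i = comp e s := by
      have h1 : (mid i : Comp (MidM B hB hqM hζ) (SSpM B hB hqM)) = mid (comp e s) :=
        congrArg Sigma.fst h
      simpa [mid] using h1
    subst hi
    have h2 : Q'' = pMid e s := eq_of_heq (Sigma.mk.inj_iff.mp h).2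
    have h3 := hMid e s
    rw [← h2] at h3
    exact hnc e (((mem_fibMid B hB hqM).mp hQ'').symm.trans h3)

end Frame

/-! ### the dictionary at the frame (W4-MOD) -/

section Under

variable {FZ : SSpM B hB hqM → Type} [∀ e, Field (FZ e)] [∀ e, Algebra (ResidueField B) (FZ e)]
  {KP : Type} (h2 : nuTwo M = 0) (h3 : nuThree M = 0)
  (uZero : Place (IsLocalRing.ResidueField B)
      (modularFunctionFieldFullC (IsLocalRing.ResidueField B) M) →
    Place (IsLocalRing.ResidueField B) (modularFunctionFieldFullC (IsLocalRing.ResidueField B) M))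
  (uZe : ∀ e : SSpM B hB hqM, Place (IsLocalRing.ResidueField B) (FZ e) →
    Place (IsLocalRing.ResidueField B) (RatFunc (IsLocalRing.ResidueField B)))
  (comp : SSpM B hB hqM → KP → MidM B hB hqM hζ)
  (pMid : ∀ e s, Place (IsLocalRing.ResidueField B) (FtAll B hB hqM hζ FZ (mid (comp e s))))
  (zW : ∀ e, Place (IsLocalRing.ResidueField B) (FtAll B hB hqM hζ FZ (ze e)))
  (zT : ∀ e, Place (IsLocalRing.ResidueField B) (FtAll B hB hqM hζ FZ (ze e)))
  (zK : ∀ e, KP → Place (IsLocalRing.ResidueField B) (FtAll B hB hqM hζ FZ (ze e)))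
  (nodeTube : Node (SSpM B hB hqM) KP → Set (Place (AlgebraicClosure ℚ) (Fb (M * q * q))))
  (smTube : (Σ v, Place (IsLocalRing.ResidueField B) (FtAll B hB hqM hζ FZ v)) →
    Set (Place (AlgebraicClosure ℚ) (Fb (M * q * q))))

set_option maxHeartbeats 800000 in
/-- **(W4-MOD) The dictionary of the points of `S''` over `S'ref_a` at the modular frame**:
`under_of_raw_sref` with `canA := 0`, `etA := 1`, `ea := id`, `uInf := uInfM` (identity),
`uMid := uMidM` (restriction to `F̃_M`); the hypotheses `hne`, `hsrc`, `hea`, `hInfInj`, `hInf`,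
`complInf` are discharged. -/
theorem under_modular
    (hbr : Function.Injective
      (Sum.elim (fun x => (⟨src comp x, s₁Of comp (pInfM B hB hqM) pMid zW x⟩ :
          Σ v, Place kB (FtAll B hB hqM hζ FZ v)))
        (fun x => ⟨tgt x, s₂Of (pZeroM B hB hqM) zT zK x⟩)))
    (hZeroInj : Function.Injective uZero)
    (hMid : ∀ e s, uMidM B hB hqM hζ FZ (comp e s) (pMid e s) =
      z₁ (chartDataModular B hB hqM) e)
    (hW : ∀ e, uZe e (zW e) = placeAt kB 0)
    (complMid : ∀ i Q e', uMidM B hB hqM hζ FZ i Q = z₁ (chartDataModular B hB hqM) e' →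
      ∃ e s, (⟨mid i, Q⟩ : Σ v, Place kB (FtAll B hB hqM hζ FZ v)) =
        ⟨mid (comp e s), pMid e s⟩)
    (complZe : ∀ e Q, uZe e Q = placeAt kB 0 → Q = zW e)
    -- (sub)
    (subT : ∀ e, ∀ P ∈ nodeTube (nT e), rhoA M q P ∈
      tube (sref (inputs (DtM B hB hqM)) (gaugeA q B hB hqM) (admA B hB hqM h2 h3))
        (outer (inputs (DtM B hB hqM)) (gaugeA q B hB hqM) (admA B hB hqM h2 h3) e))
    (subK : ∀ e s, ∀ P ∈ nodeTube (nk e s), rhoA M q P ∈
      tube (sref (inputs (DtM B hB hqM)) (gaugeA q B hB hqM) (admA B hB hqM h2 h3))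
        (outer (inputs (DtM B hB hqM)) (gaugeA q B hB hqM) (admA B hB hqM h2 h3) e))
    (subW : ∀ e, ∀ P ∈ nodeTube (nW e), rhoA M q P ∈
      tube (sref (inputs (DtM B hB hqM)) (gaugeA q B hB hqM) (admA B hB hqM h2 h3))
        (inner (inputs (DtM B hB hqM)) (gaugeA q B hB hqM) (admA B hB hqM h2 h3) e))
    (subInf : ∀ Q : Place kB (FtAll B hB hqM hζ FZ cInf), (∀ e, Q ≠ pInfM B hB hqM e) →
      ∀ P ∈ smTube ⟨cInf, Q⟩, (setup (DtM B hB hqM)).r (rhoA M q P) =
        ⟨0, uInfM B hB hqM hζ FZ Q⟩)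
    (subZero : ∀ Q : Place kB (FtAll B hB hqM hζ FZ cZero), (∀ e, Q ≠ pZeroM B hB hqM e) →
      ∀ P ∈ smTube ⟨cZero, Q⟩, (setup (DtM B hB hqM)).r (rhoA M q P) = ⟨1, uZero Q⟩)
    (subMid : ∀ i (Q : Place kB (FtAll B hB hqM hζ FZ (mid i))),
      (∀ e s, (⟨mid i, Q⟩ : Σ v, Place kB (FtAll B hB hqM hζ FZ v)) ≠
        ⟨mid (comp e s), pMid e s⟩) →
      ∀ P ∈ smTube ⟨mid i, Q⟩, (setup (DtM B hB hqM)).r (rhoA M q P) =
        ⟨0, uMidM B hB hqM hζ FZ i Q⟩)
    (subZe : ∀ e (Q : Place kB (FtAll B hB hqM hζ FZ (ze e))), Q ≠ zW e → Q ≠ zT e →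
      (∀ s, Q ≠ zK e s) → ∀ P ∈ smTube ⟨ze e, Q⟩,
      ∃ c : kB, c ≠ 0 ∧ uZe e Q = placeAt kB c ∧
        rhoA M q P ∈ circle (inputs (DtM B hB hqM)) (gaugeA q B hB hqM) e ∧
        ubar B ((inputs (DtM B hB hqM)).ch e).u (gaugeA q B hB hqM e) (rhoA M q P) = c)
    -- (disj)
    (dTK : ∀ e s P, P ∈ nodeTube (nT e) → P ∈ nodeTube (nk e s) → False)
    (dKK : ∀ e s s' P, P ∈ nodeTube (nk e s) → P ∈ nodeTube (nk e s') → s = s')
    (dIM : ∀ i (Q : Place kB (FtAll B hB hqM hζ FZ cInf))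
      (Q' : Place kB (FtAll B hB hqM hζ FZ (mid i))) P, (∀ e, Q ≠ pInfM B hB hqM e) →
      (∀ e s, (⟨mid i, Q'⟩ : Σ v, Place kB (FtAll B hB hqM hζ FZ v)) ≠
        ⟨mid (comp e s), pMid e s⟩) →
      uInfM B hB hqM hζ FZ Q = uMidM B hB hqM hζ FZ i Q' → P ∈ smTube ⟨cInf, Q⟩ →
      P ∈ smTube ⟨mid i, Q'⟩ → False)
    (dMM : ∀ i i' (Q : Place kB (FtAll B hB hqM hζ FZ (mid i)))
      (Q' : Place kB (FtAll B hB hqM hζ FZ (mid i'))) P,
      (∀ e s, (⟨mid i, Q⟩ : Σ v, Place kB (FtAll B hB hqM hζ FZ v)) ≠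
        ⟨mid (comp e s), pMid e s⟩) →
      (∀ e s, (⟨mid i', Q'⟩ : Σ v, Place kB (FtAll B hB hqM hζ FZ v)) ≠
        ⟨mid (comp e s), pMid e s⟩) →
      uMidM B hB hqM hζ FZ i Q = uMidM B hB hqM hζ FZ i' Q' → P ∈ smTube ⟨mid i, Q⟩ →
      P ∈ smTube ⟨mid i', Q'⟩ →
      (⟨mid i, Q⟩ : Σ v, Place kB (FtAll B hB hqM hζ FZ v)) = ⟨mid i', Q'⟩)
    (dZZ : ∀ e (Q Q' : Place kB (FtAll B hB hqM hζ FZ (ze e))) P, Q ≠ zW e → Q ≠ zT e →
      (∀ s, Q ≠ zK e s) → Q' ≠ zW e → Q' ≠ zT e → (∀ s, Q' ≠ zK e s) → uZe e Q = uZe e Q' →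
      P ∈ smTube ⟨ze e, Q⟩ → P ∈ smTube ⟨ze e, Q'⟩ → Q = Q')
    -- the raw cover
    (hcover : ∀ P, (∃ x, P ∈ nodeTube x) ∨
      ∃ y, (∀ x : Node (SSpM B hB hqM) KP,
          (⟨src comp x, s₁Of comp (pInfM B hB hqM) pMid zW x⟩ :
            Σ v, Place kB (FtAll B hB hqM hζ FZ v)) ≠ y) ∧
        (∀ x : Node (SSpM B hB hqM) KP,
          (⟨tgt x, s₂Of (pZeroM B hB hqM) zT zK x⟩ :
            Σ v, Place kB (FtAll B hB hqM hζ FZ v)) ≠ y) ∧
        P ∈ smTube y) :
    Under (sref (inputs (DtM B hB hqM)) (gaugeA q B hB hqM) (admA B hB hqM h2 h3)) (rhoA M q)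
      (tubeS comp (pInfM B hB hqM) pMid zW (pZeroM B hB hqM) zT zK nodeTube smTube)
      (underK (inputs (DtM B hB hqM)) (gaugeA q B hB hqM) (admA B hB hqM h2 h3) 0 1 id
        (uInfM B hB hqM hζ FZ) uZero (uMidM B hB hqM hζ FZ) uZe) :=
  under_of_raw_sref (inputs (DtM B hB hqM)) (gaugeA q B hB hqM) (admA B hB hqM h2 h3) 0 1 id
    (uInfM B hB hqM hζ FZ) uZero (uMidM B hB hqM hζ FZ) uZe comp (pInfM B hB hqM) pMid zW
    (pZeroM B hB hqM) zT zK nodeTube smTube hbr (by decide) (fun _ => rfl)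
    Function.injective_id (uInfM_injective B hB hqM hζ) hZeroInj
    (fun e => hInf_modular B hB hqM hζ e)
    (fun e s => by rw [hMid e s]; rfl) hW
    (fun Q e' h => complInf_modular B hB hqM hζ Q e' h)
    (fun i Q e' h => complMid i Q e' (eq_of_heq (Sigma.mk.inj_iff.mp h).2))
    complZe subT subK subW subInf subZero subMid subZe dTK dKK dIM dMM dZZ hcover

end Under

/-! ### the raw cover at the frame -/

section Cover

variable {FZ : SSpM B hB hqM → Type} [∀ e, Field (FZ e)] [∀ e, Algebra (ResidueField B) (FZ e)]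
  {KP : Type} [Fintype KP] (h2 : nuTwo M = 0) (h3 : nuThree M = 0)
  (comp : SSpM B hB hqM → KP → MidM B hB hqM hζ)
  (pMid : ∀ e s, Place (IsLocalRing.ResidueField B) (FtAll B hB hqM hζ FZ (mid (comp e s))))
  (zW : ∀ e, Place (IsLocalRing.ResidueField B) (FtAll B hB hqM hζ FZ (ze e)))
  (zT : ∀ e, Place (IsLocalRing.ResidueField B) (FtAll B hB hqM hζ FZ (ze e)))
  (zK : ∀ e, KP → Place (IsLocalRing.ResidueField B) (FtAll B hB hqM hζ FZ (ze e)))
  (nodeTube : Node (SSpM B hB hqM) KP → Set (Place (AlgebraicClosure ℚ) (Fb (M * q * q))))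
  (smTube : (Σ v, Place (IsLocalRing.ResidueField B) (FtAll B hB hqM hζ FZ v)) →
    Set (Place (AlgebraicClosure ℚ) (Fb (M * q * q))))

/-- **The hypothesis `cOld` at the frame**: a fibre of non-branch points over every point of `can`
which is not supersingular (`fibreOver_can`, `canFib_not_branch`) and over every such point of `et`
(helper24's `SmoothFibre.ofInsep` with `FibreOver.of_smoothFibre`). -/
theorem cOld_modular
    (hcan : ∀ Q' : Place kB FtM, (∀ e, Q' ≠ z₁ (chartDataModular B hB hqM) e) →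
      ∃ fib : Set (Σ v, Place kB (FtAll B hB hqM hζ FZ v)),
        FibreOver (setup (DtM B hB hqM)) (rhoA M q) smTube ⟨0, Q'⟩ fib ∧
        ∀ y ∈ fib, (∀ x : Node (SSpM B hB hqM) KP,
            (⟨src comp x, s₁Of comp (pInfM B hB hqM) pMid zW x⟩ :
              Σ v, Place kB (FtAll B hB hqM hζ FZ v)) ≠ y) ∧
          ∀ x : Node (SSpM B hB hqM) KP,
            (⟨tgt x, s₂Of (pZeroM B hB hqM) zT zK x⟩ :
              Σ v, Place kB (FtAll B hB hqM hζ FZ v)) ≠ y)
    (het : ∀ Q' : Place kB FtM, (∀ e, Q' ≠ z₂ (chartDataModular B hB hqM) e) →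
      ∃ fib : Set (Σ v, Place kB (FtAll B hB hqM hζ FZ v)),
        FibreOver (setup (DtM B hB hqM)) (rhoA M q) smTube ⟨1, Q'⟩ fib ∧
        ∀ y ∈ fib, (∀ x : Node (SSpM B hB hqM) KP,
            (⟨src comp x, s₁Of comp (pInfM B hB hqM) pMid zW x⟩ :
              Σ v, Place kB (FtAll B hB hqM hζ FZ v)) ≠ y) ∧
          ∀ x : Node (SSpM B hB hqM) KP,
            (⟨tgt x, s₂Of (pZeroM B hB hqM) zT zK x⟩ :
              Σ v, Place kB (FtAll B hB hqM hζ FZ v)) ≠ y)
    (v : Fin 2) (Q' : Place kB FtM)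
    (h1 : ∀ e, (⟨v, Q'⟩ : Σ _ : Fin 2, Place kB FtM) ≠
      ⟨(setup (DtM B hB hqM)).src e, (setup (DtM B hB hqM)).s₁ e⟩)
    (h2' : ∀ e, (⟨v, Q'⟩ : Σ _ : Fin 2, Place kB FtM) ≠
      ⟨(setup (DtM B hB hqM)).tgt e, (setup (DtM B hB hqM)).s₂ e⟩)
    (P : Place Qb (Fb (M * q * q))) (hP : (setup (DtM B hB hqM)).r (rhoA M q P) = ⟨v, Q'⟩) :
    ∃ y, (∀ x : Node (SSpM B hB hqM) KP,
        (⟨src comp x, s₁Of comp (pInfM B hB hqM) pMid zW x⟩ :
          Σ v, Place kB (FtAll B hB hqM hζ FZ v)) ≠ y) ∧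
      (∀ x : Node (SSpM B hB hqM) KP,
        (⟨tgt x, s₂Of (pZeroM B hB hqM) zT zK x⟩ :
          Σ v, Place kB (FtAll B hB hqM hζ FZ v)) ≠ y) ∧ P ∈ smTube y := by
  refine cOld_of_fibreOver (S₀ := setup (DtM B hB hqM)) (ρ := rhoA M q) (smTube := smTube) ?_
    v Q' h1 h2' P hP
  intro v Q' h1 h2'
  fin_cases v
  · exact hcan Q' fun e he => h1 e (by rw [he]; rfl)
  · exact het Q' fun e he => h2' e (by rw [he]; rfl)

/-- **The raw cover at the frame** (the hypothesis `hcover` of `under_modular`): `cOld_modular`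
over the smooth points of `S'`, `cCirc` over the critical circles (helper16's
`VertComp.exists_mem_ptTube`), helper23's fibres over the outer and the inner nodes of `S'ref_a`
(`NodeFibres.fibreOver_outer_along`, `fibreOver_inner_along` for `TH := THf ..`, `TM := TMf ..`,
`TZ := TZf ..`, rewritten by `tubeOf_eq_tubeS`). -/
theorem hcover_modular
    (hbr : Function.Injective
      (Sum.elim (fun x => (⟨src comp x, s₁Of comp (pInfM B hB hqM) pMid zW x⟩ :
          Σ v, Place kB (FtAll B hB hqM hζ FZ v)))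
        (fun x => ⟨tgt x, s₂Of (pZeroM B hB hqM) zT zK x⟩)))
    (hcan : ∀ Q' : Place kB FtM, (∀ e, Q' ≠ z₁ (chartDataModular B hB hqM) e) →
      ∃ fib : Set (Σ v, Place kB (FtAll B hB hqM hζ FZ v)),
        FibreOver (setup (DtM B hB hqM)) (rhoA M q) smTube ⟨0, Q'⟩ fib ∧
        ∀ y ∈ fib, (∀ x : Node (SSpM B hB hqM) KP,
            (⟨src comp x, s₁Of comp (pInfM B hB hqM) pMid zW x⟩ :
              Σ v, Place kB (FtAll B hB hqM hζ FZ v)) ≠ y) ∧
          ∀ x : Node (SSpM B hB hqM) KP,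
            (⟨tgt x, s₂Of (pZeroM B hB hqM) zT zK x⟩ :
              Σ v, Place kB (FtAll B hB hqM hζ FZ v)) ≠ y)
    (het : ∀ Q' : Place kB FtM, (∀ e, Q' ≠ z₂ (chartDataModular B hB hqM) e) →
      ∃ fib : Set (Σ v, Place kB (FtAll B hB hqM hζ FZ v)),
        FibreOver (setup (DtM B hB hqM)) (rhoA M q) smTube ⟨1, Q'⟩ fib ∧
        ∀ y ∈ fib, (∀ x : Node (SSpM B hB hqM) KP,
            (⟨src comp x, s₁Of comp (pInfM B hB hqM) pMid zW x⟩ :
              Σ v, Place kB (FtAll B hB hqM hζ FZ v)) ≠ y) ∧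
          ∀ x : Node (SSpM B hB hqM) KP,
            (⟨tgt x, s₂Of (pZeroM B hB hqM) zT zK x⟩ :
              Σ v, Place kB (FtAll B hB hqM hζ FZ v)) ≠ y)
    (cCirc : ∀ e, ∀ P, rhoA M q P ∈ circle (inputs (DtM B hB hqM)) (gaugeA q B hB hqM) e →
      ∃ y, (∀ x : Node (SSpM B hB hqM) KP,
          (⟨src comp x, s₁Of comp (pInfM B hB hqM) pMid zW x⟩ :
            Σ v, Place kB (FtAll B hB hqM hζ FZ v)) ≠ y) ∧
        (∀ x : Node (SSpM B hB hqM) KP,
          (⟨tgt x, s₂Of (pZeroM B hB hqM) zT zK x⟩ :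
            Σ v, Place kB (FtAll B hB hqM hζ FZ v)) ≠ y) ∧ P ∈ smTube y)
    (hOuter : ∀ e : SSpM B hB hqM,
      FibreOver (sref (inputs (DtM B hB hqM)) (gaugeA q B hB hqM) (admA B hB hqM h2 h3))
        (rhoA M q) (tubeS comp (pInfM B hB hqM) pMid zW (pZeroM B hB hqM) zT zK nodeTube smTube)
        ⟨(sref (inputs (DtM B hB hqM)) (gaugeA q B hB hqM) (admA B hB hqM h2 h3)).src
            (outer (inputs (DtM B hB hqM)) (gaugeA q B hB hqM) (admA B hB hqM h2 h3) e),
          (sref (inputs (DtM B hB hqM)) (gaugeA q B hB hqM) (admA B hB hqM h2 h3)).s₁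
            (outer (inputs (DtM B hB hqM)) (gaugeA q B hB hqM) (admA B hB hqM h2 h3) e)⟩
        (NodeFibres.outerFib comp (pInfM B hB hqM) pMid e :
          Set (Σ v, Place kB (FtAll B hB hqM hζ FZ v))))
    (hInner : ∀ e : SSpM B hB hqM,
      FibreOver (sref (inputs (DtM B hB hqM)) (gaugeA q B hB hqM) (admA B hB hqM h2 h3))
        (rhoA M q) (tubeS comp (pInfM B hB hqM) pMid zW (pZeroM B hB hqM) zT zK nodeTube smTube)
        ⟨(sref (inputs (DtM B hB hqM)) (gaugeA q B hB hqM) (admA B hB hqM h2 h3)).src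
            (inner (inputs (DtM B hB hqM)) (gaugeA q B hB hqM) (admA B hB hqM h2 h3) e),
          (sref (inputs (DtM B hB hqM)) (gaugeA q B hB hqM) (admA B hB hqM h2 h3)).s₁
            (inner (inputs (DtM B hB hqM)) (gaugeA q B hB hqM) (admA B hB hqM h2 h3) e)⟩
        (NodeFibres.innerFib zW e : Set (Σ v, Place kB (FtAll B hB hqM hζ FZ v))))
    (P : Place Qb (Fb (M * q * q))) :
    (∃ x, P ∈ nodeTube x) ∨
      ∃ y, (∀ x : Node (SSpM B hB hqM) KP,
          (⟨src comp x, s₁Of comp (pInfM B hB hqM) pMid zW x⟩ :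
            Σ v, Place kB (FtAll B hB hqM hζ FZ v)) ≠ y) ∧
        (∀ x : Node (SSpM B hB hqM) KP,
          (⟨tgt x, s₂Of (pZeroM B hB hqM) zT zK x⟩ :
            Σ v, Place kB (FtAll B hB hqM hζ FZ v)) ≠ y) ∧ P ∈ smTube y :=
  raw_cover_of_regions (inputs (DtM B hB hqM)) (gaugeA q B hB hqM) (admA B hB hqM h2 h3)
    (ρ := rhoA M q) (nodeTube := nodeTube) (smTube := smTube)
    (cOld_modular B hB hqM hζ comp pMid zW zT zK smTube hcan het) cCirc
    (cOuter_of_fibreOver (inputs (DtM B hB hqM)) (gaugeA q B hB hqM) (admA B hB hqM h2 h3) id comp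
      (pInfM B hB hqM) pMid zW (pZeroM B hB hqM) zT zK nodeTube smTube hbr
      Function.surjective_id hOuter)
    (cInner_of_fibreOver (inputs (DtM B hB hqM)) (gaugeA q B hB hqM) (admA B hB hqM h2 h3) id comp
      (pInfM B hB hqM) pMid zW (pZeroM B hB hqM) zT zK nodeTube smTube hbr
      Function.surjective_id hInner)
    P

end Cover

end Fermat.Agent.BR3.SDD.Modular
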