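/-
Program C (S36), node (W4-ET-FINAL) (helper24): the LITERAL et-side inputs of helper3's
`SDD.Modular.under_modular` / `hcover_modular` (`BR3/SDD/PartitionMod.lean`) at the modular frame
(`S₀ := setup (DtM B hB hqM)`, `ρ := rhoA M q`, the tube of a non-crossing point `Q''` of `cZero`
helper1's `CZeroChartAll.cZeroTubeAll`, the point map `uZero := uZeroM B hB = Φ_c • ·`).

* `uZeroM B hB`, `oZeroM B hB` (`= FibreInsepMod.underFrob B`, `overFrob B`, the instances
  `CharP kB q`, `PerfectField kB` supplied inside), `uZeroM_injective` (= `hZeroInj`);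
* `ne_z₂_of_ne_pZeroM` : a point of `cZero` which is no `pZeroM e` is not a crossing point of `et`;
* `subZero_modular` : the hypothesis `subZero` of `under_modular`;
* `het_modular` : the hypothesis `het` of `hcover_modular` / `cOld_modular`
  (`fib = {⟨cZero, Φ_c⁻¹ • Q'⟩}`).

All for ANY `smTube` with `smTube ⟨cZero, Q''⟩ = cZeroTubeAll B hB hqM H Q'' hnc` at the non-crossing
points (`hsm`), `H : AtlasHyp (chartDataModular B hB hqM) (jx M q)` arbitrary (`AtlasHyp` is a
proposition: `(setup (DtM ..)).r = H.r` by `rfl`).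
-/
import Mathlib
import Fermat.Agent.BR3.SDD.PartitionMod
import Fermat.Agent.BR3.CoverK.SubZeroAll

set_option autoImplicit false
set_option linter.style.haveILetI false
set_option linter.unusedSectionVars false
set_option linter.unusedVariables false
set_option synthInstance.maxHeartbeats 400000

open ModularCurve AlgebraicCurve

noncomputable section

/- S36 build-time patch: file-local shortcut instances. They only shorten instance search;
each is the instance that the search finds anyway (reducible, same terms after unfolding). -/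
local instance (priority := 100000) Fermat.Agent.BR3.FastInst.instAlgFullC_SDD_PartitionModEt
    {k : Type*} [Field k] (N : ℕ) :
    Algebra k ↥(ModularCurve.modularFunctionFieldFullC k N) := inferInstance
local instance (priority := 100000) Fermat.Agent.BR3.FastInst.instFieldFullC_SDD_PartitionModEt
    {k : Type*} [Field k] (N : ℕ) :
    Field ↥(ModularCurve.modularFunctionFieldFullC k N) := inferInstance
local instance (priority := 100000) Fermat.Agent.BR3.FastInst.instAlgLaurent_SDD_PartitionModEt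
    {k : Type*} [Field k] : Algebra k (LaurentSeries k) := inferInstance


namespace Fermat.Agent.BR3.SDD.ModularEt

open IsLocalRing Fermat.Agent.X0 Fermat.Agent.Red Fermat.Agent.Val
  Fermat.Agent.BR.SS Fermat.Agent.BR.Refine
  Fermat.Agent.BR.S0 Fermat.Agent.BR.S0.PointDict Fermat.Agent.BR.S0.RedModular
  Fermat.Agent.BR.S0.RedHyp
  Fermat.Agent.BR2.SetupOfData Fermat.Agent.BR3.FibreProd
  Fermat.Agent.BR3.SRef Fermat.Agent.BR3.SRef.Modular Fermat.Agent.BR3.CoverDict
  Fermat.Agent.BR3.SDD.Partition Fermat.Agent.BR3.SDD.Modular Fermat.Agent.BR3.KummerGenus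
  Fermat.Agent.BR3.KummerGenus.MidInst Fermat.Agent.BR2.LevelGen Fermat.Agent.BR3.VertBetaFr
  Fermat.Agent.BR3.CoverK.FibreInsepMod Fermat.Agent.BR3.CoverK.SubZeroMod
  Fermat.Agent.BR3.CoverK.SubZeroAll Fermat.Agent.BR3.CZeroChartAll

local notation "Qb" => AlgebraicClosure ℚ

variable {M q : ℕ} [NeZero M] [hq : Fact q.Prime] [NeZero q]
variable (B : ValuationSubring (AlgebraicClosure ℚ)) (hB : B.LiesOverPrime q) (hqM : ¬ q ∣ M)
variable [IsAlgClosed (ResidueField B)]
variable {ζ : Kbˣ} (hζ : IsPrimitiveRoot ζ q)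

local notation "kB" => IsLocalRing.ResidueField B
local notation "FtM" => modularFunctionFieldFullC (IsLocalRing.ResidueField B) M

/-- (shortcut instances) -/
local instance (priority := 100000) instAlgebraFtMShortcutE :
    Algebra (IsLocalRing.ResidueField B)
      (modularFunctionFieldFullC (IsLocalRing.ResidueField B) M) :=
  inferInstance
local instance (priority := 100000) instAlgKFMidE :
    Algebra (IsLocalRing.ResidueField B) (FMid M B) := inferInstance
local instance (priority := 100000) instFieldFtAllE {FZ : SSpM B hB hqM → Type}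
    [∀ e, Field (FZ e)] (v : Comp (MidM B hB hqM hζ) (SSpM B hB hqM)) :
    Field (FtAll B hB hqM hζ FZ v) := instFieldFtOf v
local instance (priority := 100000) instAlgFtAllE {FZ : SSpM B hB hqM → Type}
    [∀ e, Field (FZ e)] [∀ e, Algebra (IsLocalRing.ResidueField B) (FZ e)]
    (v : Comp (MidM B hB hqM hζ) (SSpM B hB hqM)) :
    Algebra (IsLocalRing.ResidueField B) (FtAll B hB hqM hζ FZ v) := instAlgebraFtOf v

/-! ### the point map of `cZero` along `α₂` -/

/-- **The point of `et` under a point of `cZero` along `α₂`**: `Φ_c • Q''`. -/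
def uZeroM (Q : Place kB FtM) : Place kB FtM :=
  haveI := Fermat.Agent.BR.ResGen.charP_kB B hB
  haveI := Fermat.Agent.BR2.ResInst.perfectField_res B
  underFrob B (q := q) Q

/-- The point of `cZero` over a point of `et` along `α₂`: `Φ_c⁻¹ • Q'`. -/
def oZeroM (Q : Place kB FtM) : Place kB FtM :=
  haveI := Fermat.Agent.BR.ResGen.charP_kB B hB
  haveI := Fermat.Agent.BR2.ResInst.perfectField_res B
  overFrob B (q := q) Q

theorem uZeroM_oZeroM (Q : Place kB FtM) : uZeroM B hB (oZeroM B hB Q) = Q := by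
  haveI := Fermat.Agent.BR.ResGen.charP_kB B hB
  haveI := Fermat.Agent.BR2.ResInst.perfectField_res B
  exact underFrob_overFrob B Q

theorem oZeroM_uZeroM (Q : Place kB FtM) : oZeroM B hB (uZeroM B hB Q) = Q := by
  haveI := Fermat.Agent.BR.ResGen.charP_kB B hB
  haveI := Fermat.Agent.BR2.ResInst.perfectField_res B
  exact overFrob_underFrob B Q

/-- **`hZeroInj`** of `under_modular`. -/
theorem uZeroM_injective : Function.Injective (uZeroM B hB (M := M)) :=
  Function.LeftInverse.injective (oZeroM_uZeroM B hB)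

/-! ### the non-crossing points of `cZero` -/

/-- A point of `cZero` which is no `pZeroM e` is not a crossing point of `et`. -/
theorem ne_z₂_of_ne_pZeroM {Q : Place kB FtM} (h : ∀ e, Q ≠ pZeroM B hB hqM e)
    (e : Crossing (chartDataModular B hB hqM)) : Q ≠ z₂ (chartDataModular B hB hqM) e :=
  h (Fr B hB hqM e)

/-- Conversely. -/
theorem ne_pZeroM_of_ne_z₂ {Q : Place kB FtM}
    (h : ∀ e, Q ≠ z₂ (chartDataModular B hB hqM) e) (e : SSpM B hB hqM) :
    Q ≠ pZeroM B hB hqM e :=
  h (Fr B hB hqM e)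

section Inputs

variable {FZ : SSpM B hB hqM → Type} [∀ e, Field (FZ e)] [∀ e, Algebra (ResidueField B) (FZ e)]
  {KP : Type} (comp : SSpM B hB hqM → KP → MidM B hB hqM hζ)
  (pMid : ∀ e s, Place (IsLocalRing.ResidueField B) (FtAll B hB hqM hζ FZ (mid (comp e s))))
  (zW : ∀ e, Place (IsLocalRing.ResidueField B) (FtAll B hB hqM hζ FZ (ze e)))
  (zT : ∀ e, Place (IsLocalRing.ResidueField B) (FtAll B hB hqM hζ FZ (ze e)))
  (zK : ∀ e, KP → Place (IsLocalRing.ResidueField B) (FtAll B hB hqM hζ FZ (ze e)))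
  (smTube : (Σ v, Place (IsLocalRing.ResidueField B) (FtAll B hB hqM hζ FZ v)) →
    Set (Place (AlgebraicClosure ℚ) (Fb (M * q * q))))

/-- the point `Q` of `cZero` -/
def ptCZero (FZ : SSpM B hB hqM → Type) [∀ e, Field (FZ e)]
    [∀ e, Algebra (ResidueField B) (FZ e)] (Q : Place kB FtM) :
    Σ v, Place kB (FtAll B hB hqM hζ FZ v) := ⟨cZero, Q⟩

/-- **The hypothesis `subZero` of `under_modular`**, `uZero := uZeroM B hB`. -/
theorem subZero_modular (H : AtlasHyp (chartDataModular B hB hqM) (jx M q))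
    (hsm : ∀ (Q'' : Place kB FtM) (hnc : ∀ e, Q'' ≠ z₂ (chartDataModular B hB hqM) e),
      smTube (ptCZero B hB hqM hζ FZ Q'') = cZeroTubeAll B hB hqM H Q'' hnc) :
    ∀ Q : Place kB (FtAll B hB hqM hζ FZ cZero), (∀ e, Q ≠ pZeroM B hB hqM e) →
      ∀ P ∈ smTube ⟨cZero, Q⟩, (setup (DtM B hB hqM)).r (rhoA M q P) =
        ⟨1, uZeroM B hB Q⟩ := by
  haveI := Fermat.Agent.BR.ResGen.charP_kB B hB
  haveI := Fermat.Agent.BR2.ResInst.perfectField_res B
  intro Q hQ P hP
  have hnc := ne_z₂_of_ne_pZeroM B hB hqM (Q := Q) hQ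
  have hP' : P ∈ cZeroTubeAll B hB hqM H Q hnc := by
    rw [← hsm Q hnc]
    exact hP
  exact r_alpha2_of_mem_cZeroTubeAll B hB hqM H Q hnc hP'

/-- **The hypothesis `het` of `hcover_modular` / `cOld_modular`**: over a non-crossing point `Q'`
of `et` the fibre is the single point `⟨cZero, Φ_c⁻¹ • Q'⟩`, which is not a branch. -/
theorem het_modular (H : AtlasHyp (chartDataModular B hB hqM) (jx M q))
    (hsm : ∀ (Q'' : Place kB FtM) (hnc : ∀ e, Q'' ≠ z₂ (chartDataModular B hB hqM) e),
      smTube (ptCZero B hB hqM hζ FZ Q'') = cZeroTubeAll B hB hqM H Q'' hnc) :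
    ∀ Q' : Place kB FtM, (∀ e, Q' ≠ z₂ (chartDataModular B hB hqM) e) →
      ∃ fib : Set (Σ v, Place kB (FtAll B hB hqM hζ FZ v)),
        FibreOver (setup (DtM B hB hqM)) (rhoA M q) smTube ⟨1, Q'⟩ fib ∧
        ∀ y ∈ fib, (∀ x : Node (SSpM B hB hqM) KP,
            (⟨src comp x, s₁Of comp (pInfM B hB hqM) pMid zW x⟩ :
              Σ v, Place kB (FtAll B hB hqM hζ FZ v)) ≠ y) ∧
          ∀ x : Node (SSpM B hB hqM) KP,
            (⟨tgt x, s₂Of (pZeroM B hB hqM) zT zK x⟩ :
              Σ v, Place kB (FtAll B hB hqM hζ FZ v)) ≠ y := by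
  haveI := Fermat.Agent.BR.ResGen.charP_kB B hB
  haveI := Fermat.Agent.BR2.ResInst.perfectField_res B
  intro Q' hnc'
  have hnc := not_crossing₂_overFrob B hB hqM H hnc'
  refine ⟨{ptCZero B hB hqM hζ FZ (overFrob B (q := q) Q')}, ⟨?_, ?_, ?_⟩, ?_⟩
  · -- (sub)
    intro x hx P hP
    rw [Set.mem_singleton_iff] at hx
    subst hx
    rw [hsm _ hnc] at hP
    have h := r_alpha2_of_mem_cZeroTubeAll B hB hqM H _ hnc hP
    rw [underFrob_overFrob] at h
    exact h
  · -- (disj)
    intro x hx y hy _ _ _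
    rw [Set.mem_singleton_iff] at hx hy
    rw [hx, hy]
  · -- (exh)
    intro P hP
    refine ⟨_, rfl, ?_⟩
    rw [hsm _ hnc]
    exact mem_cZeroTubeAll_overFrob B hB hqM H Q' hnc' hP
  · -- not a branch
    intro y hy
    rw [Set.mem_singleton_iff] at hy
    subst hy
    exact not_branch_cZero comp (pInfM B hB hqM) pMid zW (pZeroM B hB hqM) zT zK
      (Q := overFrob B (q := q) Q') (ne_pZeroM_of_ne_z₂ B hB hqM hnc)

end Inputs

end Fermat.Agent.BR3.SDD.ModularEt
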