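import Fermat.Agent.BR3.SDD.PartitionMod
import Fermat.Agent.BR3.SDD.ModularZePts

/-!
# Program C (S36), node (P-ZE): the `z e`-kind clauses of the partition at the modular frame

The clauses of `SDD.Modular.under_modular` / `partition_modular` (`BR3/SDD/PartitionMod.lean`,
`BR3/SDD/PartitionHcan.lean`) which concern the vertical components `z e`, in their LITERAL binder
shapes, for THE family of `BR3/SDD/ModularZe.lean` + `BR3/SDD/ModularZePts.lean`:

* `FZ := FZM B hB hqM h2 h3`, `KP := VertPtsU.KPq q`,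
* `zW := zWM B hB hqM h2 h3`, `zT := zTM B hB hqM h2 h3`, `zK := zKM B hB hqM h2 h3`,
* the raw smooth tube of the point `Q` of `z e`: `TZM B hB hqM h2 h3 e Q`.

Results:

* `uZeM B hB hqM h2 h3 e Q := Q.restrict (RatFunc kB)` : the point of the exceptional component
  `E_e` of `S'ref_a` under the point `Q` of `z e` (**`uZe`**);
* `hW_modular` (**`hW`**), `complZe_modular` (**`complZe`**), `uZeM_zT`, `uZeM_zK` (the points `zT e`,
  `zK e s` lie over `T = ∞`);
* `subZe_modular` (**`subZe`**), `dZZ_modular` (**`dZZ`**) : for ANY `smTube` with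
  `hsmZe : ∀ e Q, smTube ⟨ze e, Q⟩ = TZM B hB hqM h2 h3 e Q` (for
  `smTube := smTubeM B hB hqM hζ midTube (TZM B hB hqM h2 h3)`: `hsmZe := fun _ _ => rfl`);
* `hbr_modular` (**`hbr`**) : the injectivity of the branch points of `S''`.
-/

set_option autoImplicit false
set_option linter.style.haveILetI false
set_option linter.unusedSectionVars false
set_option linter.unusedVariables false
set_option synthInstance.maxHeartbeats 400000

open ModularCurve AlgebraicCurve

noncomputable section

/- S36 build-time patch: file-local shortcut instances. They only shorten instance search;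
each is the instance that the search finds anyway (reducible, same terms after unfolding). -/
local instance (priority := 100000) Fermat.Agent.BR3.FastInst.instAlgFullC_SDD_PartitionModZe
    {k : Type*} [Field k] (N : ℕ) :
    Algebra k ↥(ModularCurve.modularFunctionFieldFullC k N) := inferInstance
local instance (priority := 100000) Fermat.Agent.BR3.FastInst.instFieldFullC_SDD_PartitionModZe
    {k : Type*} [Field k] (N : ℕ) :
    Field ↥(ModularCurve.modularFunctionFieldFullC k N) := inferInstance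
local instance (priority := 100000) Fermat.Agent.BR3.FastInst.instAlgLaurent_SDD_PartitionModZe
    {k : Type*} [Field k] : Algebra k (LaurentSeries k) := inferInstance


namespace Fermat.Agent.BR3.SDD.ModularZePart

open IsLocalRing Fermat.Agent.X0 Fermat.Agent.Red Fermat.Agent.Val
  Fermat.Agent.BR.SS Fermat.Agent.BR.Refine Fermat.Agent.BR.Circle Fermat.Agent.BR.P1
  Fermat.Agent.BR.AnnulusRed
  Fermat.Agent.BR.S0 Fermat.Agent.BR.S0.PointDict Fermat.Agent.BR.S0.RedModular
  Fermat.Agent.BR2.SetupOfData Fermat.Agent.BR3.FibreProd Fermat.Agent.BR3.CircleN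
  Fermat.Agent.BR3.SRef Fermat.Agent.BR3.SRef.Modular
  Fermat.Agent.BR3.SDD.Partition Fermat.Agent.BR3.SDD.Modular
  Fermat.Agent.BR3.VertResidue Fermat.Agent.BR3.VertResField Fermat.Agent.BR3.VertPtsDef
  Fermat.Agent.BR3.VertPtsU Fermat.Agent.BR3.VertSheet Fermat.Agent.BR3.ThickSDDPlug

local notation "Qb" => AlgebraicClosure ℚ

variable {M q : ℕ} [NeZero M] [hq : Fact q.Prime] [NeZero q]
variable (B : ValuationSubring (AlgebraicClosure ℚ)) (hB : B.LiesOverPrime q) (hqM : ¬ q ∣ M)
variable [IsAlgClosed (ResidueField B)] [CharP (ResidueField B) q]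
variable {ζ : Kbˣ} (hζ : IsPrimitiveRoot ζ q)
variable (h2 : nuTwo M = 0) (h3 : nuThree M = 0)

local notation "kB" => IsLocalRing.ResidueField B
local notation "FtM" => modularFunctionFieldFullC (IsLocalRing.ResidueField B) M

/-- (shortcut instances) -/
local instance (priority := 100000) instAlgebraFtMShortcutZePart :
    Algebra (IsLocalRing.ResidueField B)
      (modularFunctionFieldFullC (IsLocalRing.ResidueField B) M) :=
  inferInstance
local instance (priority := 100000) instAlgKFMidZePart :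
    Algebra (IsLocalRing.ResidueField B) (FMid M B) := inferInstance
local instance (priority := 100000) instFieldFtAllZePart {FZ : SSpM B hB hqM → Type}
    [∀ e, Field (FZ e)] (v : Comp (MidM B hB hqM hζ) (SSpM B hB hqM)) :
    Field (FtAll B hB hqM hζ FZ v) := instFieldFtOf v
local instance (priority := 100000) instAlgFtAllZePart {FZ : SSpM B hB hqM → Type}
    [∀ e, Field (FZ e)] [∀ e, Algebra (IsLocalRing.ResidueField B) (FZ e)]
    (v : Comp (MidM B hB hqM hζ) (SSpM B hB hqM)) :
    Algebra (IsLocalRing.ResidueField B) (FtAll B hB hqM hζ FZ v) := instAlgebraFtOf v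

/-! ### the point map -/

/-- **`uZe`**: the point of the exceptional component `E_e` of `S'ref_a` (a place of `kB(T)`) under
a point of the vertical component `z e`. -/
def uZeM (e : SSpM B hB hqM) (Q : Place kB (FZM B hB hqM h2 h3 e)) : Place kB (RatFunc kB) :=
  Q.restrict (RatFunc kB)

theorem uZeM_apply (e : SSpM B hB hqM) (Q : Place kB (FZM B hB hqM h2 h3 e)) :
    uZeM B hB hqM h2 h3 e Q = Q.restrict (RatFunc kB) := rfl

/-! ### the special points -/

/-- **`hW`**: the point `zW e` lies over `T = 0`. -/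
theorem hW_modular (e : SSpM B hB hqM) :
    uZeM B hB hqM h2 h3 e (zWM B hB hqM h2 h3 e) = placeAt kB 0 :=
  restrict_zWM B hB hqM h2 h3 e

/-- **`complZe`**: `zW e` is the only point of `z e` over `T = 0`. -/
theorem complZe_modular (e : SSpM B hB hqM) (Q : Place kB (FZM B hB hqM h2 h3 e))
    (h : uZeM B hB hqM h2 h3 e Q = placeAt kB 0) : Q = zWM B hB hqM h2 h3 e :=
  eq_ptZBar_of_restrict q (zePackM B hB hqM h2 h3 e).hβ (zePackM B hB hqM h2 h3 e).hρ h

/-- The point `zT e` lies over `T = ∞`. -/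
theorem uZeM_zT (e : SSpM B hB hqM) :
    uZeM B hB hqM h2 h3 e (zTM B hB hqM h2 h3 e) = placeInfty kB :=
  restrict_zTM B hB hqM h2 h3 e

/-- The Kummer points `zK e s` lie over `T = ∞`. -/
theorem uZeM_zK (e : SSpM B hB hqM) (s : KPq q) :
    uZeM B hB hqM h2 h3 e (zKM B hB hqM h2 h3 e s) = placeInfty kB :=
  restrict_zKM B hB hqM h2 h3 e s

/-! ### (sub) and (disj) for the raw smooth tubes of `z e` -/

section Tubes

variable {KP : Type}
  (smTube : (Σ v, Place (IsLocalRing.ResidueField B)
      (FtAll B hB hqM hζ (FZM B hB hqM h2 h3) v)) →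
    Set (Place (AlgebraicClosure ℚ) (Fb (M * q * q))))
  (hsmZe : ∀ (e : SSpM B hB hqM)
    (Q : Place (IsLocalRing.ResidueField B) (FZM B hB hqM h2 h3 e)),
    smTube ⟨ze e, Q⟩ = TZM B hB hqM h2 h3 e Q)

include hsmZe in
/-- **`subZe`** of `under_modular` / `partition_modular`: the places of the raw smooth tube of the
point `Q` of `z e` lie over the critical circle of `e`, in the residue disc of class `c = T(Q)`. -/
theorem subZe_modular (e : SSpM B hB hqM)
    (Q : Place kB (FtAll B hB hqM hζ (FZM B hB hqM h2 h3) (ze e)))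
    (hW : Q ≠ zWM B hB hqM h2 h3 e)
    (hT : Q ≠ zTM B hB hqM h2 h3 e)
    (hK : ∀ s : KPq q, Q ≠ zKM B hB hqM h2 h3 e s) :
    ∀ P ∈ smTube ⟨ze e, Q⟩,
      ∃ c : kB, c ≠ 0 ∧ uZeM B hB hqM h2 h3 e Q = placeAt kB c ∧
        rhoA M q P ∈ circle (inputs (DtM B hB hqM)) (gaugeA q B hB hqM) e ∧
        ubar B ((inputs (DtM B hB hqM)).ch e).u (gaugeA q B hB hqM e) (rhoA M q P) = c := by
  intro P hP
  rw [hsmZe e Q] at hP
  letI := algebraAlong (alpha2 M q)
  haveI := isScalarTower_along (alpha2 M q)
  haveI := isIntegral_along (alpha2 M q) (isIntegral_alpha2 M q)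
  exact subZe_raw (inputs (DtM B hB hqM)) (gaugeA q B hB hqM) (admA B hB hqM h2 h3) e hP

include hsmZe in
/-- **`dZZ`** of `under_modular` / `partition_modular`: the raw smooth tubes of two points of the
same vertical component `z e` meet only if the points are equal. -/
theorem dZZ_modular (e : SSpM B hB hqM)
    (Q Q' : Place kB (FtAll B hB hqM hζ (FZM B hB hqM h2 h3) (ze e)))
    (P : Place (AlgebraicClosure ℚ) (Fb (M * q * q)))
    (hW : Q ≠ zWM B hB hqM h2 h3 e)
    (hT : Q ≠ zTM B hB hqM h2 h3 e)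
    (hK : ∀ s : KPq q, Q ≠ zKM B hB hqM h2 h3 e s)
    (hW' : Q' ≠ zWM B hB hqM h2 h3 e)
    (hT' : Q' ≠ zTM B hB hqM h2 h3 e)
    (hK' : ∀ s : KPq q, Q' ≠ zKM B hB hqM h2 h3 e s)
    (hu : uZeM B hB hqM h2 h3 e Q = uZeM B hB hqM h2 h3 e Q')
    (hP : P ∈ smTube ⟨ze e, Q⟩) (hP' : P ∈ smTube ⟨ze e, Q'⟩) : Q = Q' := by
  rw [hsmZe e Q] at hP
  rw [hsmZe e Q'] at hP'
  letI := algebraAlong (alpha2 M q)
  haveI := isScalarTower_along (alpha2 M q)
  haveI := isIntegral_along (alpha2 M q) (isIntegral_alpha2 M q)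
  exact eq_of_mem_ptTube hq.out.two_le (zePackM B hB hqM h2 h3 e).hβ
    (zePackM B hB hqM h2 h3 e).hρ (gauge_ne_zero (admA B hB hqM h2 h3 e).1) hP hP'

end Tubes

/-! ### the injectivity of the branch points -/

section Branch

variable (comp : SSpM B hB hqM → KPq q → MidM B hB hqM hζ)
  (pMid : ∀ e s, Place (IsLocalRing.ResidueField B)
    (FtAll B hB hqM hζ (FZM B hB hqM h2 h3) (mid (comp e s))))

/-- **`hbr`** of `under_modular` / `hcover_modular` / `partition_modular`: the branch points of the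
nodes of `S''` are pairwise distinct. -/
theorem hbr_modular
    (pMid_injective : ∀ e s e' s', (⟨mid (comp e s), pMid e s⟩ :
      Σ v, Place (ResidueField B) (FtAll B hB hqM hζ (FZM B hB hqM h2 h3) v)) =
        ⟨mid (comp e' s'), pMid e' s'⟩ → e = e' ∧ s = s') :
    Function.Injective
      (Sum.elim (fun x => (⟨src comp x, s₁Of comp (pInfM B hB hqM) pMid
            (zWM B hB hqM h2 h3) x⟩ :
          Σ v, Place kB (FtAll B hB hqM hζ (FZM B hB hqM h2 h3) v)))
        (fun x => ⟨tgt x, s₂Of (pZeroM B hB hqM) (zTM B hB hqM h2 h3) (zKM B hB hqM h2 h3) x⟩)) :=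
  branch_injective_of comp (pInfM B hB hqM) pMid (zWM B hB hqM h2 h3) (pZeroM B hB hqM)
    (zTM B hB hqM h2 h3) (zKM B hB hqM h2 h3)
    (pInfM_injective B hB hqM h2 h3) (pZeroM_injective B hB hqM h2 h3) pMid_injective
    (zKM_injective B hB hqM h2 h3) (zTM_ne_zKM B hB hqM h2 h3) (zWM_ne_zTM B hB hqM h2 h3)
    (zWM_ne_zKM B hB hqM h2 h3)

end Branch

end Fermat.Agent.BR3.SDD.ModularZePart
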