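import Fermat.Agent.BR3.SDD.SmoothB
import Fermat.Agent.BR3.SDD.PartitionModZe
import Fermat.Agent.BR3.SDD.PartitionModEt
import Fermat.Agent.BR3.SDD.ModularTubes
import Fermat.Agent.BR3.SDD.ModularTubesMid
import Fermat.Agent.BR3.SDD.TubeFam

/-!
# Program C (S36), node (G6-HSM): the binders `hsm` of `hpa_modular` and `hpb_modular`

The smooth places of `S''` lie over smooth places of `S'ref_a` along `α₂` and over smooth places of
`S'ref_b` along `β₂` — the only open input of `ModularPushA.hpa_modular` and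
`ModularPushB.hpb_modular`.

* `smooth_cases` (any `CaseInput`) : a smooth place of `S''` lies in the tube of a point which is
  none of the special points of its component;
* `hsm_a_of_sub`, `hsm_b_of_sub` (any `X : CaseInput` at the modular frame) : the two binders from
  the (sub) clauses of the four smooth kinds on `X.TH`, `X.TM`, `X.TZ` — no clause on the tubes of
  the nodes is needed;
* `hsm_a_ofRaw`, `hsm_b_ofRaw` : the same for `X := caseInputOfRaw …` (the term `XRaw …` unfolds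
  to) with the (sub) clauses in the LITERAL binder shapes of `partition_modular` on `smTube`;
* `subZeB_modular` : the places of the raw tube `TZM … e Q` lie over the circle of `Fr e` of
  `S'ref_b` along `β₂` (helper15's circle lemma at `regZeM`, `hZcM_beta`);
* **`hsm_a_family`**, **`hsm_b_family`** : the two binders at THE family
  `smTube := smTubeM … (midTubeM … H) (TZM …)`, `FZ := FZM`, `zW zT zK := zWM zTM zKM`,
  `pMid := pMidM … comp hcop FZM`, every other binder of `caseInputOfRaw` / `XRaw` ARBITRARY;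
  no hypothesis left besides `hsurj : ∀ e i, ∃ s, comp e s = i`.
-/

set_option autoImplicit false
set_option linter.style.haveILetI false
set_option linter.unusedVariables false
set_option linter.unusedSectionVars false
set_option synthInstance.maxHeartbeats 400000
set_option maxHeartbeats 1600000

open ModularCurve AlgebraicCurve

noncomputable section

namespace Fermat.Agent.BR3.SDD.ModularSm

open IsLocalRing Fermat.Agent.X0 Fermat.Agent.Red Fermat.Agent.Val
  Fermat.Agent.BR.SS Fermat.Agent.BR.Refine Fermat.Agent.BR.Circle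
  Fermat.Agent.BR.S0 Fermat.Agent.BR.S0.PointDict Fermat.Agent.BR.S0.RedModular
  Fermat.Agent.BR2.SetupOfData Fermat.Agent.BR3.FibreProd Fermat.Agent.BR3.CircleN
  Fermat.Agent.BR3.SRef Fermat.Agent.BR3.SRef.Modular Fermat.Agent.BR3.SDD
  Fermat.Agent.BR3.SDD.Partition Fermat.Agent.BR3.SDD.Modular Fermat.Agent.BR3.CoverK
  Fermat.Agent.BR3.VertBetaFr Fermat.Agent.BR3.SDD.SmoothB Fermat.Agent.BR3.ThickSDDPlug

/-! ### the smooth places of `S''` kind by kind -/

section Generic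

variable {K : Type} {F : Type*} [Field K] [Field F] [Algebra K F]
  {A : ValuationSubring K} {Mid SSp KP : Type} {Ft : Comp Mid SSp → Type}
  [∀ v, Field (Ft v)] [∀ v, Algebra (ResidueField A) (Ft v)]
  (X : CaseInput (F := F) A Mid SSp KP Ft)

/-- **The smooth places of `S''` kind by kind**: a smooth place lies in the tube of a point which is
none of the special points of its component. -/
theorem smooth_cases {P : Place K F} (hP : X.toInput.setup.IsSmoothPlace P) :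
    (∃ Q : Place (ResidueField A) (Ft cInf), (∀ e, Q ≠ X.pInf e) ∧ P ∈ X.TH false Q) ∨
    (∃ Q : Place (ResidueField A) (Ft cZero), (∀ e, Q ≠ X.pZero e) ∧ P ∈ X.TH true Q) ∨
    (∃ (i : Mid) (Q : Place (ResidueField A) (Ft (mid i))),
      (∀ e s, (⟨mid i, Q⟩ : Σ v, Place (ResidueField A) (Ft v)) ≠
        ⟨mid (X.comp e s), X.pMid e s⟩) ∧ P ∈ X.TM i Q) ∨
    ∃ (e : SSp) (Q : Place (ResidueField A) (Ft (ze e))),
      Q ≠ X.zW e ∧ Q ≠ X.zT e ∧ (∀ s, Q ≠ X.zK e s) ∧ P ∈ X.TZ e Q := by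
  have hsm := (X.toInput.isSmoothPlace_iff P).mp hP
  rcases X.cover P with ⟨b, Q, hQ⟩ | ⟨i, Q, hQ⟩ | ⟨e, Q, hQ⟩
  · cases b with
    | false =>
      refine Or.inl ⟨Q, fun e he => ?_, hQ⟩
      subst he
      exact hsm (nT e) hQ
    | true =>
      refine Or.inr (Or.inl ⟨Q, fun e he => ?_, hQ⟩)
      subst he
      rw [X.TH_pZero e] at hQ
      exact hQ
  · refine Or.inr (Or.inr (Or.inl ⟨i, Q, fun e s he => ?_, hQ⟩))
    have hi : i = X.comp e s := by
      have h1 : (mid i : Comp Mid SSp) = mid (X.comp e s) := congrArg Sigma.fst he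
      simpa [mid] using h1
    subst hi
    have h2 : Q = X.pMid e s := eq_of_heq (Sigma.mk.inj_iff.mp he).2
    subst h2
    exact hsm (nk e s) hQ
  · refine Or.inr (Or.inr (Or.inr ⟨e, Q, fun he => ?_, fun he => ?_, fun s he => ?_, hQ⟩))
    · subst he
      exact hsm (nW e) hQ
    · subst he
      rw [X.TZ_zT e] at hQ
      exact hQ
    · subst he
      rw [X.TZ_zK e s] at hQ
      exact hQ

end Generic

/-! ### the modular frame -/

local notation "Qb" => AlgebraicClosure ℚ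

variable {M q : ℕ} [NeZero M] [hq : Fact q.Prime] [NeZero q]
variable (B : ValuationSubring (AlgebraicClosure ℚ)) (hB : B.LiesOverPrime q) (hqM : ¬ q ∣ M)
variable [IsAlgClosed (ResidueField B)]
variable {ζ : Kbˣ} (hζ : IsPrimitiveRoot ζ q)
variable (h2 : nuTwo M = 0) (h3 : nuThree M = 0)

local notation "kB" => IsLocalRing.ResidueField B
local notation "FtM" => modularFunctionFieldFullC (IsLocalRing.ResidueField B) M

/-- (shortcut instances) -/
local instance (priority := 100000) instAlgebraFtMShortcutSm :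
    Algebra (IsLocalRing.ResidueField B)
      (modularFunctionFieldFullC (IsLocalRing.ResidueField B) M) :=
  inferInstance
local instance (priority := 100000) instAlgKFMidSm :
    Algebra (IsLocalRing.ResidueField B) (FMid M B) := inferInstance

section Frame

variable {FZ : SSpM B hB hqM → Type} [∀ e, Field (FZ e)] [∀ e, Algebra (ResidueField B) (FZ e)]
  {KP : Type}
  (X : CaseInput (F := Fb (M * q * q)) B (MidM B hB hqM hζ) (SSpM B hB hqM) KP
    (FtAll B hB hqM hζ FZ))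
  (uZero : Place (IsLocalRing.ResidueField B)
      (modularFunctionFieldFullC (IsLocalRing.ResidueField B) M) →
    Place (IsLocalRing.ResidueField B) (modularFunctionFieldFullC (IsLocalRing.ResidueField B) M))

/-- A place whose reduction in `S'` is a point of `can` which is no crossing point is a smooth
place of `S'`. -/
theorem isSmoothPlace_of_r_zero {P' : Place Qb (Fb (M * q))} {Q' : Place kB FtM}
    (h : (setup (DtM B hB hqM)).r P' = ⟨0, Q'⟩)
    (hnc : ∀ e, Q' ≠ z₁ (chartDataModular B hB hqM) e) :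
    (setup (DtM B hB hqM)).IsSmoothPlace P' := by
  refine (isSmoothPlace_iff (DtM B hB hqM) P').mpr fun e he => ?_
  have h1 : (⟨0, Q'⟩ : Σ _ : Fin 2, Place kB FtM) = ⟨0, z₁ (chartDataModular B hB hqM) e⟩ :=
    h.symm.trans he
  exact hnc e (eq_of_heq (Sigma.mk.inj_iff.mp h1).2)

/-- A place whose reduction in `S'` is a point of `et` is a smooth place of `S'`. -/
theorem isSmoothPlace_of_r_one {P' : Place Qb (Fb (M * q))} {Q' : Place kB FtM}
    (h : (setup (DtM B hB hqM)).r P' = ⟨1, Q'⟩) :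
    (setup (DtM B hB hqM)).IsSmoothPlace P' := by
  refine (isSmoothPlace_iff (DtM B hB hqM) P').mpr fun e he => ?_
  have h1 : (⟨1, Q'⟩ : Σ _ : Fin 2, Place kB FtM) = ⟨0, z₁ (chartDataModular B hB hqM) e⟩ :=
    h.symm.trans he
  exact absurd (show (1 : Fin 2) = 0 from congrArg Sigma.fst h1) (by decide)

/-- **`hsm` along `α₂` from the (sub) clauses of the four smooth kinds** (any `X` at the frame). -/
theorem hsm_a_of_sub
    (complMid : ∀ i (Q : Place kB (FtAll B hB hqM hζ FZ (mid i))) e',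
      uMidM B hB hqM hζ FZ i Q = z₁ (chartDataModular B hB hqM) e' →
      ∃ e s, (⟨mid i, Q⟩ : Σ v, Place kB (FtAll B hB hqM hζ FZ v)) =
        ⟨mid (X.comp e s), X.pMid e s⟩)
    (hpInf : ∀ e, X.pInf e = pInfM B hB hqM e)
    (subInf : ∀ Q : Place kB (FtAll B hB hqM hζ FZ cInf), (∀ e, Q ≠ X.pInf e) →
      ∀ P ∈ X.TH false Q, (setup (DtM B hB hqM)).r (rhoA M q P) =
        ⟨0, uInfM B hB hqM hζ FZ Q⟩)
    (subZero : ∀ Q : Place kB (FtAll B hB hqM hζ FZ cZero), (∀ e, Q ≠ X.pZero e) →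
      ∀ P ∈ X.TH true Q, (setup (DtM B hB hqM)).r (rhoA M q P) = ⟨1, uZero Q⟩)
    (subMid : ∀ i (Q : Place kB (FtAll B hB hqM hζ FZ (mid i))),
      (∀ e s, (⟨mid i, Q⟩ : Σ v, Place kB (FtAll B hB hqM hζ FZ v)) ≠
        ⟨mid (X.comp e s), X.pMid e s⟩) →
      ∀ P ∈ X.TM i Q, (setup (DtM B hB hqM)).r (rhoA M q P) =
        ⟨0, uMidM B hB hqM hζ FZ i Q⟩)
    (subZe : ∀ e (Q : Place kB (FtAll B hB hqM hζ FZ (ze e))), Q ≠ X.zW e → Q ≠ X.zT e →
      (∀ s, Q ≠ X.zK e s) → ∀ P ∈ X.TZ e Q,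
      rhoA M q P ∈ circle (inputs (DtM B hB hqM)) (gaugeA q B hB hqM) e)
    (hα : (alpha2 M q).toRingHom.IsIntegral) :
    ∀ P : Place Qb (Fb (M * q * q)), X.toInput.setup.IsSmoothPlace P →
      (srefM (DtM B hB hqM) (gaugeA q B hB hqM) (admA B hB hqM h2 h3)).IsSmoothPlace
        (P.restrictAlong (alpha2 M q) hα) := by
  intro P hP
  have hsmS : (setup (DtM B hB hqM)).IsSmoothPlace (rhoA M q P) →
      (srefM (DtM B hB hqM) (gaugeA q B hB hqM) (admA B hB hqM h2 h3)).IsSmoothPlace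
        (rhoA M q P) := fun h =>
    (isSmoothPlace_sref_iff (inputs (DtM B hB hqM)) (gaugeA q B hB hqM) (admA B hB hqM h2 h3)
      _).mpr (Or.inr fun e he => (isSmoothPlace_iff (DtM B hB hqM) _).mp h e he)
  change (srefM (DtM B hB hqM) (gaugeA q B hB hqM) (admA B hB hqM h2 h3)).IsSmoothPlace
    (rhoA M q P)
  rcases smooth_cases X hP with ⟨Q, hQ, hPQ⟩ | ⟨Q, hQ, hPQ⟩ | ⟨i, Q, hQ, hPQ⟩ | ⟨e, Q, hW, hT, hK, hPQ⟩
  · refine hsmS (isSmoothPlace_of_r_zero B hB hqM (subInf Q hQ P hPQ) fun e he => hQ e ?_)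
    rw [hpInf e]
    exact he
  · exact hsmS (isSmoothPlace_of_r_one B hB hqM (subZero Q hQ P hPQ))
  · refine hsmS (isSmoothPlace_of_r_zero B hB hqM (subMid i Q hQ P hPQ) fun e he => ?_)
    obtain ⟨e', s, h⟩ := complMid i Q e he
    exact hQ e' s h
  · exact (isSmoothPlace_sref_iff (inputs (DtM B hB hqM)) (gaugeA q B hB hqM)
      (admA B hB hqM h2 h3) _).mpr (Or.inl ⟨e, subZe e Q hW hT hK P hPQ⟩)

/-- **`hsm` along `β₂` from the (sub) clauses of the four smooth kinds** (any `X` at the frame):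
the three kinds over the smooth places of `S'` by helper5's dictionary `α₂ ↔ β₂`, the vertical kind
by the circle clause `subZeB` along `β₂`. -/
theorem hsm_b_of_sub
    (complMid : ∀ i (Q : Place kB (FtAll B hB hqM hζ FZ (mid i))) e',
      uMidM B hB hqM hζ FZ i Q = z₁ (chartDataModular B hB hqM) e' →
      ∃ e s, (⟨mid i, Q⟩ : Σ v, Place kB (FtAll B hB hqM hζ FZ v)) =
        ⟨mid (X.comp e s), X.pMid e s⟩)
    (hpInf : ∀ e, X.pInf e = pInfM B hB hqM e)
    (subInf : ∀ Q : Place kB (FtAll B hB hqM hζ FZ cInf), (∀ e, Q ≠ X.pInf e) →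
      ∀ P ∈ X.TH false Q, (setup (DtM B hB hqM)).r (rhoA M q P) =
        ⟨0, uInfM B hB hqM hζ FZ Q⟩)
    (subZero : ∀ Q : Place kB (FtAll B hB hqM hζ FZ cZero), (∀ e, Q ≠ X.pZero e) →
      ∀ P ∈ X.TH true Q, (setup (DtM B hB hqM)).r (rhoA M q P) = ⟨1, uZero Q⟩)
    (subMid : ∀ i (Q : Place kB (FtAll B hB hqM hζ FZ (mid i))),
      (∀ e s, (⟨mid i, Q⟩ : Σ v, Place kB (FtAll B hB hqM hζ FZ v)) ≠
        ⟨mid (X.comp e s), X.pMid e s⟩) →
      ∀ P ∈ X.TM i Q, (setup (DtM B hB hqM)).r (rhoA M q P) =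
        ⟨0, uMidM B hB hqM hζ FZ i Q⟩)
    (hβ : (beta2 M q).toRingHom.IsIntegral)
    (subZeB : ∀ e (Q : Place kB (FtAll B hB hqM hζ FZ (ze e))), Q ≠ X.zW e → Q ≠ X.zT e →
      (∀ s, Q ≠ X.zK e s) → ∀ P ∈ X.TZ e Q,
      P.restrictAlong (beta2 M q) hβ ∈
        circle (inputs (DtM B hB hqM)) (gaugeB q B hB hqM) (Fr B hB hqM e)) :
    ∀ P : Place Qb (Fb (M * q * q)), X.toInput.setup.IsSmoothPlace P →
      (srefM (DtM B hB hqM) (gaugeB q B hB hqM) (admB B hB hqM h2 h3)).IsSmoothPlace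
        (P.restrictAlong (beta2 M q) hβ) := by
  intro P hP
  have hsmS : (setup (DtM B hB hqM)).IsSmoothPlace (rhoA M q P) →
      (srefM (DtM B hB hqM) (gaugeB q B hB hqM) (admB B hB hqM h2 h3)).IsSmoothPlace
        (P.restrictAlong (beta2 M q) hβ) := fun h =>
    isSmoothPlace_srefM_of_smooth (DtM B hB hqM) (gaugeB q B hB hqM) (admB B hB hqM h2 h3)
      (isIntegral_alpha2 M q) hβ h
  rcases smooth_cases X hP with ⟨Q, hQ, hPQ⟩ | ⟨Q, hQ, hPQ⟩ | ⟨i, Q, hQ, hPQ⟩ | ⟨e, Q, hW, hT, hK, hPQ⟩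
  · refine hsmS (isSmoothPlace_of_r_zero B hB hqM (subInf Q hQ P hPQ) fun e he => hQ e ?_)
    rw [hpInf e]
    exact he
  · exact hsmS (isSmoothPlace_of_r_one B hB hqM (subZero Q hQ P hPQ))
  · refine hsmS (isSmoothPlace_of_r_zero B hB hqM (subMid i Q hQ P hPQ) fun e he => ?_)
    obtain ⟨e', s, h⟩ := complMid i Q e he
    exact hQ e' s h
  · exact isSmoothPlace_srefM_of_circle (DtM B hB hqM) (gaugeB q B hB hqM) (admB B hB hqM h2 h3)
      (subZeB e Q hW hT hK P hPQ)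

/-! ### the raw tubes -/

section Raw

variable (nodeTube : Node (SSpM B hB hqM) KP → Set (Place (AlgebraicClosure ℚ) (Fb (M * q * q))))
  (smTube : (Σ v, Place (IsLocalRing.ResidueField B) (FtAll B hB hqM hζ FZ v)) →
    Set (Place (AlgebraicClosure ℚ) (Fb (M * q * q))))
  (hTHf : X.TH = THf X.comp X.pInf X.pMid X.zW X.pZero X.zT X.zK nodeTube smTube)
  (hTMf : X.TM = TMf X.comp X.pInf X.pMid X.zW X.pZero X.zT X.zK nodeTube smTube)
  (hTZf : X.TZ = TZf X.comp X.pInf X.pMid X.zW X.pZero X.zT X.zK nodeTube smTube)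

include hTHf in
theorem mem_smTube_cInf {Q : Place kB (FtAll B hB hqM hζ FZ cInf)} (h : ∀ e, Q ≠ X.pInf e)
    {P : Place Qb (Fb (M * q * q))} (hP : P ∈ X.TH false Q) : P ∈ smTube ⟨cInf, Q⟩ := by
  rw [hTHf, THf_false_of_ne X.comp X.pInf X.pMid X.zW X.pZero X.zT X.zK nodeTube smTube h] at hP
  exact hP

include hTHf in
theorem mem_smTube_cZero {Q : Place kB (FtAll B hB hqM hζ FZ cZero)} (h : ∀ e, Q ≠ X.pZero e)
    {P : Place Qb (Fb (M * q * q))} (hP : P ∈ X.TH true Q) : P ∈ smTube ⟨cZero, Q⟩ := by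
  rw [hTHf, THf_true_of_ne X.comp X.pInf X.pMid X.zW X.pZero X.zT X.zK nodeTube smTube h] at hP
  exact hP

include hTMf in
theorem mem_smTube_mid {i : MidM B hB hqM hζ} {Q : Place kB (FtAll B hB hqM hζ FZ (mid i))}
    (h : ∀ e s, (⟨mid i, Q⟩ : Σ v, Place kB (FtAll B hB hqM hζ FZ v)) ≠
      ⟨mid (X.comp e s), X.pMid e s⟩)
    {P : Place Qb (Fb (M * q * q))} (hP : P ∈ X.TM i Q) : P ∈ smTube ⟨mid i, Q⟩ := by
  rw [hTMf, TMf_of_ne X.comp X.pInf X.pMid X.zW X.pZero X.zT X.zK nodeTube smTube h] at hP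
  exact hP

include hTZf in
theorem mem_smTube_ze {e : SSpM B hB hqM} {Q : Place kB (FtAll B hB hqM hζ FZ (ze e))}
    (hW : Q ≠ X.zW e) (hT : Q ≠ X.zT e) (hK : ∀ s, Q ≠ X.zK e s)
    {P : Place Qb (Fb (M * q * q))} (hP : P ∈ X.TZ e Q) : P ∈ smTube ⟨ze e, Q⟩ := by
  rw [hTZf, TZf_of_ne X.comp X.pInf X.pMid X.zW X.pZero X.zT X.zK nodeTube smTube hW hT hK] at hP
  exact hP

include hTHf hTMf hTZf in
/-- **`hsm` along `α₂` from the (sub) clauses on the raw smooth tubes** (`X` with the three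
`rfl`-hypotheses of `tameProp_of_rawTubes`; the clauses have the shapes of `partition_modular`). -/
theorem hsm_a_of_raw
    (complMid : ∀ i (Q : Place kB (FtAll B hB hqM hζ FZ (mid i))) e',
      uMidM B hB hqM hζ FZ i Q = z₁ (chartDataModular B hB hqM) e' →
      ∃ e s, (⟨mid i, Q⟩ : Σ v, Place kB (FtAll B hB hqM hζ FZ v)) =
        ⟨mid (X.comp e s), X.pMid e s⟩)
    (hpInf : ∀ e, X.pInf e = pInfM B hB hqM e)
    (subInf : ∀ Q : Place kB (FtAll B hB hqM hζ FZ cInf), (∀ e, Q ≠ X.pInf e) →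
      ∀ P ∈ smTube ⟨cInf, Q⟩, (setup (DtM B hB hqM)).r (rhoA M q P) =
        ⟨0, uInfM B hB hqM hζ FZ Q⟩)
    (subZero : ∀ Q : Place kB (FtAll B hB hqM hζ FZ cZero), (∀ e, Q ≠ X.pZero e) →
      ∀ P ∈ smTube ⟨cZero, Q⟩, (setup (DtM B hB hqM)).r (rhoA M q P) = ⟨1, uZero Q⟩)
    (subMid : ∀ i (Q : Place kB (FtAll B hB hqM hζ FZ (mid i))),
      (∀ e s, (⟨mid i, Q⟩ : Σ v, Place kB (FtAll B hB hqM hζ FZ v)) ≠
        ⟨mid (X.comp e s), X.pMid e s⟩) →
      ∀ P ∈ smTube ⟨mid i, Q⟩, (setup (DtM B hB hqM)).r (rhoA M q P) =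
        ⟨0, uMidM B hB hqM hζ FZ i Q⟩)
    (subZe : ∀ e (Q : Place kB (FtAll B hB hqM hζ FZ (ze e))), Q ≠ X.zW e → Q ≠ X.zT e →
      (∀ s, Q ≠ X.zK e s) → ∀ P ∈ smTube ⟨ze e, Q⟩,
      rhoA M q P ∈ circle (inputs (DtM B hB hqM)) (gaugeA q B hB hqM) e)
    (hα : (alpha2 M q).toRingHom.IsIntegral) :
    ∀ P : Place Qb (Fb (M * q * q)), X.toInput.setup.IsSmoothPlace P →
      (srefM (DtM B hB hqM) (gaugeA q B hB hqM) (admA B hB hqM h2 h3)).IsSmoothPlace
        (P.restrictAlong (alpha2 M q) hα) :=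
  hsm_a_of_sub B hB hqM hζ h2 h3 X uZero complMid hpInf
    (fun Q h P hP => subInf Q h P (mem_smTube_cInf B hB hqM hζ X nodeTube smTube hTHf h hP))
    (fun Q h P hP => subZero Q h P (mem_smTube_cZero B hB hqM hζ X nodeTube smTube hTHf h hP))
    (fun i Q h P hP => subMid i Q h P (mem_smTube_mid B hB hqM hζ X nodeTube smTube hTMf h hP))
    (fun e Q hW hT hK P hP => subZe e Q hW hT hK P
      (mem_smTube_ze B hB hqM hζ X nodeTube smTube hTZf hW hT hK hP)) hα

include hTHf hTMf hTZf in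
/-- **`hsm` along `β₂` from the (sub) clauses on the raw smooth tubes.** -/
theorem hsm_b_of_raw
    (complMid : ∀ i (Q : Place kB (FtAll B hB hqM hζ FZ (mid i))) e',
      uMidM B hB hqM hζ FZ i Q = z₁ (chartDataModular B hB hqM) e' →
      ∃ e s, (⟨mid i, Q⟩ : Σ v, Place kB (FtAll B hB hqM hζ FZ v)) =
        ⟨mid (X.comp e s), X.pMid e s⟩)
    (hpInf : ∀ e, X.pInf e = pInfM B hB hqM e)
    (subInf : ∀ Q : Place kB (FtAll B hB hqM hζ FZ cInf), (∀ e, Q ≠ X.pInf e) →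
      ∀ P ∈ smTube ⟨cInf, Q⟩, (setup (DtM B hB hqM)).r (rhoA M q P) =
        ⟨0, uInfM B hB hqM hζ FZ Q⟩)
    (subZero : ∀ Q : Place kB (FtAll B hB hqM hζ FZ cZero), (∀ e, Q ≠ X.pZero e) →
      ∀ P ∈ smTube ⟨cZero, Q⟩, (setup (DtM B hB hqM)).r (rhoA M q P) = ⟨1, uZero Q⟩)
    (subMid : ∀ i (Q : Place kB (FtAll B hB hqM hζ FZ (mid i))),
      (∀ e s, (⟨mid i, Q⟩ : Σ v, Place kB (FtAll B hB hqM hζ FZ v)) ≠
        ⟨mid (X.comp e s), X.pMid e s⟩) →
      ∀ P ∈ smTube ⟨mid i, Q⟩, (setup (DtM B hB hqM)).r (rhoA M q P) =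
        ⟨0, uMidM B hB hqM hζ FZ i Q⟩)
    (hβ : (beta2 M q).toRingHom.IsIntegral)
    (subZeB : ∀ e (Q : Place kB (FtAll B hB hqM hζ FZ (ze e))), Q ≠ X.zW e → Q ≠ X.zT e →
      (∀ s, Q ≠ X.zK e s) → ∀ P ∈ smTube ⟨ze e, Q⟩,
      P.restrictAlong (beta2 M q) hβ ∈
        circle (inputs (DtM B hB hqM)) (gaugeB q B hB hqM) (Fr B hB hqM e)) :
    ∀ P : Place Qb (Fb (M * q * q)), X.toInput.setup.IsSmoothPlace P →
      (srefM (DtM B hB hqM) (gaugeB q B hB hqM) (admB B hB hqM h2 h3)).IsSmoothPlace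
        (P.restrictAlong (beta2 M q) hβ) :=
  hsm_b_of_sub B hB hqM hζ h2 h3 X uZero complMid hpInf
    (fun Q h P hP => subInf Q h P (mem_smTube_cInf B hB hqM hζ X nodeTube smTube hTHf h hP))
    (fun Q h P hP => subZero Q h P (mem_smTube_cZero B hB hqM hζ X nodeTube smTube hTHf h hP))
    (fun i Q h P hP => subMid i Q h P (mem_smTube_mid B hB hqM hζ X nodeTube smTube hTMf h hP))
    hβ
    (fun e Q hW hT hK P hP => subZeB e Q hW hT hK P
      (mem_smTube_ze B hB hqM hζ X nodeTube smTube hTZf hW hT hK hP))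

end Raw

end Frame

/-! ### THE family -/

section Family

open Fermat.Agent.BR3.SDD.ModularEt Fermat.Agent.BR3.SDD.ModularZePart
  Fermat.Agent.BR3.SDD.ModularTubesMid Fermat.Agent.BR3.VertPtsU Fermat.Agent.BR.S0.RedHyp
  Fermat.Agent.BR3.KummerGenus Fermat.Agent.BR3.KummerGenus.MidInst Fermat.Agent.BR2.LevelGen
  Fermat.Agent.BR3.VertSheet

variable [CharP (ResidueField B) q]

/-- **The circle clause along `β₂`**: the places of the raw smooth tube `TZM … e Q` of a generic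
point `Q` of `z e` lie over the circle of `Fr e` of `S'ref_b` along `β₂` (helper15's circle lemma at
the regular chart `regZeM`, with `hZcM_beta`). -/
theorem subZeB_modular (e : SSpM B hB hqM) (Q : Place kB (FZM B hB hqM h2 h3 e))
    (hW : Q ≠ zWM B hB hqM h2 h3 e) (hT : Q ≠ zTM B hB hqM h2 h3 e)
    (hK : ∀ s, Q ≠ zKM B hB hqM h2 h3 e s) (hβ : (beta2 M q).toRingHom.IsIntegral)
    {P : Place Qb (Fb (M * q * q))} (hP : P ∈ TZM B hB hqM h2 h3 e Q) :
    P.restrictAlong (beta2 M q) hβ ∈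
      circle (inputs (DtM B hB hqM)) (gaugeB q B hB hqM) (Fr B hB hqM e) := by
  refine restrictAlong_beta2_mem_circle_Fr (DtM B hB hqM) (gaugeB q B hB hqM)
    (admB B hB hqM h2 h3) e (isIntegral_alpha2 M q) hβ (regZeM B hB hqM h2 h3 e Q hW hT hK)
    (hZcM_beta B hB hqM h2 h3 e) ?_ hP
  intro P' hP'
  letI := algebraAlong (alpha2 M q)
  haveI := isScalarTower_along (alpha2 M q)
  haveI := isIntegral_along (alpha2 M q) (isIntegral_alpha2 M q)
  obtain ⟨c, -, -, hc, -⟩ := subZe_raw (inputs (DtM B hB hqM)) (gaugeA q B hB hqM)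
    (admA B hB hqM h2 h3) e hP'
  exact hc.1

variable (H : AtlasHyp (chartDataModular B hB hqM) (jx M q))
  (X : CaseInput (F := Fb (M * q * q)) B (MidM B hB hqM hζ) (SSpM B hB hqM) (KPq q)
    (FtAll B hB hqM hζ (FZM B hB hqM h2 h3)))
  (nodeTube : Node (SSpM B hB hqM) (KPq q) →
    Set (Place (AlgebraicClosure ℚ) (Fb (M * q * q))))
  (smTube : (Σ v, Place (IsLocalRing.ResidueField B)
      (FtAll B hB hqM hζ (FZM B hB hqM h2 h3) v)) →
    Set (Place (AlgebraicClosure ℚ) (Fb (M * q * q))))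
  (hTHf : X.TH = THf X.comp X.pInf X.pMid X.zW X.pZero X.zT X.zK nodeTube smTube)
  (hTMf : X.TM = TMf X.comp X.pInf X.pMid X.zW X.pZero X.zT X.zK nodeTube smTube)
  (hTZf : X.TZ = TZf X.comp X.pInf X.pMid X.zW X.pZero X.zT X.zK nodeTube smTube)
  (hsmT : smTube = smTubeM B hB hqM hζ (midTubeM B hB hqM hζ H) (TZM B hB hqM h2 h3))
  (hpInf : ∀ e, X.pInf e = pInfM B hB hqM e) (hpZero : ∀ e, X.pZero e = pZeroM B hB hqM e)
  (hzW : ∀ e, X.zW e = zWM B hB hqM h2 h3 e) (hzT : ∀ e, X.zT e = zTM B hB hqM h2 h3 e)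
  (hzK : ∀ e s, X.zK e s = zKM B hB hqM h2 h3 e s)
  (hcop : ∀ e : SSpM B hB hqM,
    IsCoprime ((z₁ (chartDataModular B hB hqM) e).ord (deltaMid B hB hqM)) (fMid M B hB : ℤ))
  (hpMid : ∀ e s, X.pMid e s = pMidM B hB hqM hζ X.comp hcop (FZM B hB hqM h2 h3) e s)
  (hall : ∀ e i, ∃ s, X.comp e s = i)

include hpMid hall in
/-- `complMid` at the family, in terms of `X`. -/
theorem complMid_family (i : MidM B hB hqM hζ)
    (Q : Place kB (FtAll B hB hqM hζ (FZM B hB hqM h2 h3) (mid i))) (e' : SSpM B hB hqM)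
    (h : uMidM B hB hqM hζ (FZM B hB hqM h2 h3) i Q = z₁ (chartDataModular B hB hqM) e') :
    ∃ e s, (⟨mid i, Q⟩ : Σ v, Place kB (FtAll B hB hqM hζ (FZM B hB hqM h2 h3) v)) =
      ⟨mid (X.comp e s), X.pMid e s⟩ := by
  obtain ⟨e, s, hes⟩ := complMid_pMid B hB hqM hζ (FZ := FZM B hB hqM h2 h3) X.comp hcop hall
    i Q e' h
  exact ⟨e, s, by rw [hpMid e s]; exact hes⟩

include hTHf hTMf hTZf hsmT hpInf hpZero hzW hzT hzK hpMid hall in
/-- **(G6-HSM, a) The binder `hsm` of `ModularPushA.hpa_modular` at THE family**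
`smTube = smTubeM … (midTubeM … H) (TZM …)`; `nodeTube` and all the charts of `X` are arbitrary. -/
theorem hsm_a_family :
    ∀ P : Place Qb (Fb (M * q * q)), X.toInput.setup.IsSmoothPlace P →
      (srefM (DtM B hB hqM) (gaugeA q B hB hqM) (admA B hB hqM h2 h3)).IsSmoothPlace
        (P.restrictAlong (alpha2 M q)
          (Fermat.Agent.Hecke.heckeAlphaBarIntegral (M * q) q)) := by
  subst hsmT
  refine hsm_a_of_raw B hB hqM hζ h2 h3 X (uZeroM B hB) nodeTube _ hTHf hTMf hTZf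
    (complMid_family B hB hqM hζ h2 h3 X hcop hpMid hall) hpInf ?_ ?_ ?_ ?_ _
  · intro Q hQ P hP
    exact subInfM B hB hqM hζ _ _ Q (fun e => by rw [← hpInf e]; exact hQ e) P hP
  · intro Q hQ P hP
    exact subZero_modular B hB hqM hζ _ (atlas (DtM B hB hqM))
      (smTubeM_cZero B hB hqM hζ _ _ (atlas (DtM B hB hqM))) Q
      (fun e => by rw [← hpZero e]; exact hQ e) P hP
  · intro i Q hQ P hP
    exact subMidM B hB hqM hζ H X.comp X.pMid _ (fun _ _ => rfl) i Q hQ P hP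
  · intro e Q hW hT hK P hP
    obtain ⟨c, -, -, hc, -⟩ := subZe_modular B hB hqM hζ h2 h3 _ (fun _ _ => rfl)
      e Q (by rw [← hzW e]; exact hW) (by rw [← hzT e]; exact hT)
      (fun s => by rw [← hzK e s]; exact hK s) P hP
    exact hc

include hTHf hTMf hTZf hsmT hpInf hpZero hzW hzT hzK hpMid hall in
/-- **(G6-HSM, b) The binder `hsm` of `ModularPushB.hpb_modular` at THE family**
`smTube = smTubeM … (midTubeM … H) (TZM …)`; `nodeTube` and all the charts of `X` are arbitrary. -/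
theorem hsm_b_family :
    ∀ P : Place Qb (Fb (M * q * q)), X.toInput.setup.IsSmoothPlace P →
      (srefM (DtM B hB hqM) (gaugeB q B hB hqM) (admB B hB hqM h2 h3)).IsSmoothPlace
        (P.restrictAlong (beta2 M q) (isIntegral_fb (beta2 M q))) := by
  subst hsmT
  refine hsm_b_of_raw B hB hqM hζ h2 h3 X (uZeroM B hB) nodeTube _ hTHf hTMf hTZf
    (complMid_family B hB hqM hζ h2 h3 X hcop hpMid hall) hpInf ?_ ?_ ?_ _ ?_
  · intro Q hQ P hP
    exact subInfM B hB hqM hζ _ _ Q (fun e => by rw [← hpInf e]; exact hQ e) P hP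
  · intro Q hQ P hP
    exact subZero_modular B hB hqM hζ _ (atlas (DtM B hB hqM))
      (smTubeM_cZero B hB hqM hζ _ _ (atlas (DtM B hB hqM))) Q
      (fun e => by rw [← hpZero e]; exact hQ e) P hP
  · intro i Q hQ P hP
    exact subMidM B hB hqM hζ H X.comp X.pMid _ (fun _ _ => rfl) i Q hQ P hP
  · intro e Q hW hT hK P hP
    exact subZeB_modular B hB hqM h2 h3 e Q (by rw [← hzW e]; exact hW)
      (by rw [← hzT e]; exact hT) (fun s => by rw [← hzK e s]; exact hK s) _ hP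

end Family

end Fermat.Agent.BR3.SDD.ModularSm
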