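import Mathlib
import Fermat.Agent.BR3.PushMod
import Fermat.Agent.BR3.SDD.TubeFam
import Fermat.Agent.BR3.SDD.PartitionMod

/-!
# Program C (S36), node (G6): the binder `hsm` of `ModularPushA.hpa_modular` as ONE term

`X : SDD.CaseInput B (MidM …) (SSpM …) KP (FtAll … FZ)` whose tubes are the families of raw tubes
`nodeTube`, `smTube` (`hTHf`, `hTMf`, `hTZf` : `rfl` for `X := XRaw …`, the same hypotheses as in
`ModularTameRaw.tameProp_of_rawTubes`).

* `tubeOf_eq_tubeS_of_raw` : `tubeOf X.TH X.TM X.TZ = tubeS X.comp … nodeTube smTube`;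
* **`hsmA_modular`** : a smooth place of `S''` restricts along `α₂` to a smooth place of
  `S'ref_a = srefM DtM gaugeA admA`, from the two node-fibre statements `hOuter`, `hInner` in the
  LITERAL conclusion shapes of `PartitionModNodes.hOuter_modular` / `hInner_modular`
  (`FibreOver S'ref_a (rhoA M q) (tubeS …) ⟨src (outer e), s₁ (outer e)⟩ (outerFib …)` resp.
  `… (innerFib zW e)`), by `PushMod.hsm_of_fibreOver`.
-/

set_option autoImplicit false
set_option linter.style.haveILetI false
set_option linter.unusedSectionVars false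
set_option linter.unusedVariables false
set_option synthInstance.maxHeartbeats 400000

open ModularCurve AlgebraicCurve

noncomputable section

namespace Fermat.Agent.BR3.SDD.ModularSmA

open IsLocalRing Fermat.Agent.X0 Fermat.Agent.Red Fermat.Agent.Val
  Fermat.Agent.BR.SS Fermat.Agent.BR.Refine Fermat.Agent.BR.Circle
  Fermat.Agent.BR.S0 Fermat.Agent.BR.S0.PointDict Fermat.Agent.BR.S0.RedModular
  Fermat.Agent.BR2.SetupOfData Fermat.Agent.BR3.FibreProd Fermat.Agent.BR3.CircleN
  Fermat.Agent.BR3.SRef Fermat.Agent.BR3.SRef.Modular Fermat.Agent.BR3.SDD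
  Fermat.Agent.BR3.SDD.Modular Fermat.Agent.BR3.SDD.Partition

local notation "Qb" => AlgebraicClosure ℚ

variable {M q : ℕ} [NeZero M] [hq : Fact q.Prime] [NeZero q]
variable (B : ValuationSubring (AlgebraicClosure ℚ)) (hB : B.LiesOverPrime q) (hqM : ¬ q ∣ M)
variable [IsAlgClosed (ResidueField B)]
variable {ζ : Kbˣ} (hζ : IsPrimitiveRoot ζ q)

local notation "kB" => IsLocalRing.ResidueField B
local notation "FtM" => modularFunctionFieldFullC (IsLocalRing.ResidueField B) M

/-- (shortcut instance) -/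
local instance (priority := 100000) instAlgebraFtMShortcutSmA :
    Algebra (IsLocalRing.ResidueField B)
      (modularFunctionFieldFullC (IsLocalRing.ResidueField B) M) :=
  inferInstance

/-- (shortcut instance) -/
local instance (priority := 100000) instAlgKFMidSmA :
    Algebra (IsLocalRing.ResidueField B) (FMid M B) := inferInstance

variable (h2 : nuTwo M = 0) (h3 : nuThree M = 0)
  {FZ : SSpM B hB hqM → Type} [∀ e, Field (FZ e)] [∀ e, Algebra (ResidueField B) (FZ e)]
  {KP : Type} [Fintype KP]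
  (X : CaseInput (F := Fb (M * q * q)) B (MidM B hB hqM hζ) (SSpM B hB hqM) KP
    (FtAll B hB hqM hζ FZ))
  (nodeTube : Node (SSpM B hB hqM) KP → Set (Place Kb (Fb (M * q * q))))
  (smTube : (Σ v, Place (ResidueField B) (FtAll B hB hqM hζ FZ v)) →
    Set (Place Kb (Fb (M * q * q))))

/-- the tube family of `X` is the family of the raw tubes -/
theorem tubeOf_eq_tubeS_of_raw
    (hTHf : X.TH = THf X.comp X.pInf X.pMid X.zW X.pZero X.zT X.zK nodeTube smTube)
    (hTMf : X.TM = TMf X.comp X.pInf X.pMid X.zW X.pZero X.zT X.zK nodeTube smTube)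
    (hTZf : X.TZ = TZf X.comp X.pInf X.pMid X.zW X.pZero X.zT X.zK nodeTube smTube) :
    tubeOf X.TH X.TM X.TZ =
      tubeS X.comp X.pInf X.pMid X.zW X.pZero X.zT X.zK nodeTube smTube := by
  rw [hTHf, hTMf, hTZf]
  exact tubeOf_eq_tubeS X.comp X.pInf X.pMid X.zW X.pZero X.zT X.zK nodeTube smTube

set_option maxHeartbeats 1600000 in
/-- **The binder `hsm` of `ModularPushA.hpa_modular`**: a smooth place of `S''` lies over a smooth
place of `S'ref_a` along `α₂`. -/
theorem hsmA_modular
    (hTHf : X.TH = THf X.comp X.pInf X.pMid X.zW X.pZero X.zT X.zK nodeTube smTube)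
    (hTMf : X.TM = TMf X.comp X.pInf X.pMid X.zW X.pZero X.zT X.zK nodeTube smTube)
    (hTZf : X.TZ = TZf X.comp X.pInf X.pMid X.zW X.pZero X.zT X.zK nodeTube smTube)
    (hOuter : ∀ e : SSpM B hB hqM,
      FibreOver (sref (inputs (DtM B hB hqM)) (gaugeA q B hB hqM) (admA B hB hqM h2 h3))
        (rhoA M q) (tubeS X.comp X.pInf X.pMid X.zW X.pZero X.zT X.zK nodeTube smTube)
        ⟨(sref (inputs (DtM B hB hqM)) (gaugeA q B hB hqM) (admA B hB hqM h2 h3)).src
            (outer (inputs (DtM B hB hqM)) (gaugeA q B hB hqM) (admA B hB hqM h2 h3) e),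
          (sref (inputs (DtM B hB hqM)) (gaugeA q B hB hqM) (admA B hB hqM h2 h3)).s₁
            (outer (inputs (DtM B hB hqM)) (gaugeA q B hB hqM) (admA B hB hqM h2 h3) e)⟩
        (NodeFibres.outerFib X.comp X.pInf X.pMid e :
          Set (Σ v, Place kB (FtAll B hB hqM hζ FZ v))))
    (hInner : ∀ e : SSpM B hB hqM,
      FibreOver (sref (inputs (DtM B hB hqM)) (gaugeA q B hB hqM) (admA B hB hqM h2 h3))
        (rhoA M q) (tubeS X.comp X.pInf X.pMid X.zW X.pZero X.zT X.zK nodeTube smTube)
        ⟨(sref (inputs (DtM B hB hqM)) (gaugeA q B hB hqM) (admA B hB hqM h2 h3)).src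
            (inner (inputs (DtM B hB hqM)) (gaugeA q B hB hqM) (admA B hB hqM h2 h3) e),
          (sref (inputs (DtM B hB hqM)) (gaugeA q B hB hqM) (admA B hB hqM h2 h3)).s₁
            (inner (inputs (DtM B hB hqM)) (gaugeA q B hB hqM) (admA B hB hqM h2 h3) e)⟩
        (NodeFibres.innerFib X.zW e : Set (Σ v, Place kB (FtAll B hB hqM hζ FZ v))))
    (P : Place Kb (Fb (M * q * q))) (hP : X.toInput.setup.IsSmoothPlace P) :
    (srefM (DtM B hB hqM) (gaugeA q B hB hqM) (admA B hB hqM h2 h3)).IsSmoothPlace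
      (P.restrictAlong (alpha2 M q) (Fermat.Agent.Hecke.heckeAlphaBarIntegral (M * q) q)) := by
  have ht := tubeOf_eq_tubeS_of_raw B hB hqM hζ X nodeTube smTube hTHf hTMf hTZf
  exact Fermat.Agent.BR3.PushMod.hsm_of_fibreOver (inputs (DtM B hB hqM)) (gaugeA q B hB hqM)
    (admA B hB hqM h2 h3) X (alpha2 M q) (Fermat.Agent.Hecke.heckeAlphaBarIntegral (M * q) q)
    (fun e => ht ▸ hOuter e) (fun e => ht ▸ hInner e) P hP

end Fermat.Agent.BR3.SDD.ModularSmA
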