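import Mathlib
import Fermat.Agent.BR3.SDD.PartitionMod

/-!
# Program C (S36), node I7 (W4-MOD), (P-NODES): the fibres over the nodes of `S'ref_a` at the frame

The two node hypotheses `hOuter`, `hInner` of `PartitionMod.hcover_modular`, VERBATIM, from
`PartitionRegions.fibreOver_outer_raw` / `fibreOver_inner_raw` (= `NodeFibres.fibreOver_outer_along`
/ `fibreOver_inner_along` on the raw node tubes) at `S₀ := S'ref_a`
(`sref (inputs (DtM ..)) (gaugeA ..) (admA ..)`), `a := α₂`, with the annulus sheets of the N-owners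
as NAMED hypotheses in the literal `Partition.AnnSheet` shapes:

* `coreOfEq`, `coreOfEq_u`, `coreOfEq_thick` : transport of an `AnnulusCore` along an equality of
  tubes; `outerCoreS`, `innerCoreS` : the K-level contracts of the two nodes of `S'ref_a` over `e`
  ON the tubes `{P | S.r P = ⟨S.src n, S.s₁ n⟩}` (coordinate `u_e`, thickness `a₀`; resp.
  `a₀⁻¹ • u_e`, `a₀⁻¹ * thick e`);
* **`hOuter_modular`** : from `XT e : AnnSheet B (nodeTube (nT e)) (α₂ u_e) a₀ 1`,
  `XK e s : AnnSheet B (nodeTube (nk e s)) (α₂ u_e) a₀ (d e s)`, `1 + ∑ s, d e s = q`, the clauses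
  `subT`, `subK`, `dTK`, `dKK` of `under_modular` (literal);
* **`hInner_modular`** : from `XW e : AnnSheet B (nodeTube (nW e)) (α₂ (a₀⁻¹ • u_e))
  (a₀⁻¹ * thick e) q` and `subW`.
-/

set_option autoImplicit false
set_option linter.style.haveILetI false
set_option linter.unusedSectionVars false
set_option linter.unusedVariables false
set_option synthInstance.maxHeartbeats 400000

open ModularCurve AlgebraicCurve

noncomputable section

/- S36 build-time patch: file-local shortcut instances. They only shorten instance search;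
each is the instance that the search finds anyway (reducible, same terms after unfolding). -/
local instance (priority := 100000) Fermat.Agent.BR3.FastInst.instAlgFullC_SDD_PartitionModNodes
    {k : Type*} [Field k] (N : ℕ) :
    Algebra k ↥(ModularCurve.modularFunctionFieldFullC k N) := inferInstance
local instance (priority := 100000) Fermat.Agent.BR3.FastInst.instFieldFullC_SDD_PartitionModNodes
    {k : Type*} [Field k] (N : ℕ) :
    Field ↥(ModularCurve.modularFunctionFieldFullC k N) := inferInstance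
local instance (priority := 100000) Fermat.Agent.BR3.FastInst.instAlgLaurent_SDD_PartitionModNodes
    {k : Type*} [Field k] : Algebra k (LaurentSeries k) := inferInstance


namespace Fermat.Agent.BR3.SDD.Modular

open IsLocalRing Fermat.Agent.X0 Fermat.Agent.Red Fermat.Agent.Val
  Fermat.Agent.BR.SS Fermat.Agent.BR.Refine Fermat.Agent.BR.Circle Fermat.Agent.BR.P1
  Fermat.Agent.BR.AnnulusRed
  Fermat.Agent.BR.S0 Fermat.Agent.BR.S0.PointDict Fermat.Agent.BR.S0.RedModular
  Fermat.Agent.BR2.SetupOfData Fermat.Agent.BR3.FibreProd Fermat.Agent.BR3.CircleN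
  Fermat.Agent.BR3.SRef Fermat.Agent.BR3.SRef.Modular Fermat.Agent.BR3.CoverDict
  Fermat.Agent.BR3.SDD.Partition Fermat.Agent.BR3.KummerGenus
  Fermat.Agent.BR3.KummerGenus.MidInst Fermat.Agent.BR2.LevelGen

local notation "Qb" => AlgebraicClosure ℚ

/-! ### Transport of an annulus contract along an equality of tubes -/

section Transport

variable {K F : Type*} [Field K] [Field F] [Algebra K F] {A : ValuationSubring K}

/-- transport of an `AnnulusCore` along an equality of tubes -/
def coreOfEq {T T' : Set (Place K F)} (h : T = T') (C : AnnulusCore A T) : AnnulusCore A T' :=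
  h ▸ C

@[simp] theorem coreOfEq_u {T T' : Set (Place K F)} (h : T = T') (C : AnnulusCore A T) :
    (coreOfEq h C).u = C.u := by
  subst h
  rfl

@[simp] theorem coreOfEq_thick {T T' : Set (Place K F)} (h : T = T') (C : AnnulusCore A T) :
    (coreOfEq h C).thick = C.thick := by
  subst h
  rfl

end Transport

variable {M q : ℕ} [NeZero M] [hq : Fact q.Prime] [NeZero q]
variable (B : ValuationSubring (AlgebraicClosure ℚ)) (hB : B.LiesOverPrime q) (hqM : ¬ q ∣ M)
variable [IsAlgClosed (ResidueField B)]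
variable {ζ : Kbˣ} (hζ : IsPrimitiveRoot ζ q)

local notation "kB" => IsLocalRing.ResidueField B
local notation "FtM" => modularFunctionFieldFullC (IsLocalRing.ResidueField B) M

/-- (shortcut instances) -/
local instance (priority := 100000) instAlgebraFtMShortcutPN :
    Algebra (IsLocalRing.ResidueField B)
      (modularFunctionFieldFullC (IsLocalRing.ResidueField B) M) :=
  inferInstance

local instance (priority := 100000) instAlgKFMidPN :
    Algebra (IsLocalRing.ResidueField B) (FMid M B) := inferInstance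

/-- (shortcut instances for the residue fields of the components of `S''`) -/
local instance (priority := 100000) instFieldFtAllPN {FZ : SSpM B hB hqM → Type}
    [∀ e, Field (FZ e)] (v : Comp (MidM B hB hqM hζ) (SSpM B hB hqM)) :
    Field (FtAll B hB hqM hζ FZ v) := instFieldFtOf v
local instance (priority := 100000) instAlgFtAllPN {FZ : SSpM B hB hqM → Type}
    [∀ e, Field (FZ e)] [∀ e, Algebra (IsLocalRing.ResidueField B) (FZ e)]
    (v : Comp (MidM B hB hqM hζ) (SSpM B hB hqM)) :
    Algebra (IsLocalRing.ResidueField B) (FtAll B hB hqM hζ FZ v) := instAlgebraFtOf v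

/-! ### The contracts of the two nodes of `S'ref_a` over a supersingular point -/

section Cores

variable (h2 : nuTwo M = 0) (h3 : nuThree M = 0)

/-- **The K-level contract of the outer node of `S'ref_a` over `e`**, on the tube of the node:
coordinate `u_e`, thickness `a₀ = gaugeA`. -/
def outerCoreS (e : SSpM B hB hqM) :
    AnnulusCore B {P | (sref (inputs (DtM B hB hqM)) (gaugeA q B hB hqM) (admA B hB hqM h2 h3)).r P =
      ⟨(sref (inputs (DtM B hB hqM)) (gaugeA q B hB hqM) (admA B hB hqM h2 h3)).src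
          (outer (inputs (DtM B hB hqM)) (gaugeA q B hB hqM) (admA B hB hqM h2 h3) e),
        (sref (inputs (DtM B hB hqM)) (gaugeA q B hB hqM) (admA B hB hqM h2 h3)).s₁
          (outer (inputs (DtM B hB hqM)) (gaugeA q B hB hqM) (admA B hB hqM h2 h3) e)⟩} :=
  coreOfEq (tube_outerM (DtM B hB hqM) (gaugeA q B hB hqM) (admA B hB hqM h2 h3) e).symm
    (outerCoreM (DtM B hB hqM) (gaugeA q B hB hqM) (admA B hB hqM h2 h3) e)

@[simp] theorem outerCoreS_u (e : SSpM B hB hqM) :
    (outerCoreS B hB hqM h2 h3 e).u = annulusCoord (DtM B hB hqM) e :=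
  coreOfEq_u _ _

@[simp] theorem outerCoreS_thick (e : SSpM B hB hqM) :
    (outerCoreS B hB hqM h2 h3 e).thick = gaugeA q B hB hqM e :=
  coreOfEq_thick _ _

/-- **The K-level contract of the inner node of `S'ref_a` over `e`**, on the tube of the node:
coordinate `a₀⁻¹ • u_e`, thickness `a₀⁻¹ * thick e`. -/
def innerCoreS (e : SSpM B hB hqM) :
    AnnulusCore B {P | (sref (inputs (DtM B hB hqM)) (gaugeA q B hB hqM) (admA B hB hqM h2 h3)).r P =
      ⟨(sref (inputs (DtM B hB hqM)) (gaugeA q B hB hqM) (admA B hB hqM h2 h3)).src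
          (inner (inputs (DtM B hB hqM)) (gaugeA q B hB hqM) (admA B hB hqM h2 h3) e),
        (sref (inputs (DtM B hB hqM)) (gaugeA q B hB hqM) (admA B hB hqM h2 h3)).s₁
          (inner (inputs (DtM B hB hqM)) (gaugeA q B hB hqM) (admA B hB hqM h2 h3) e)⟩} :=
  coreOfEq (tube_innerM (DtM B hB hqM) (gaugeA q B hB hqM) (admA B hB hqM h2 h3) e).symm
    (innerCoreM (DtM B hB hqM) (gaugeA q B hB hqM) (admA B hB hqM h2 h3) e)

@[simp] theorem innerCoreS_u (e : SSpM B hB hqM) :
    (innerCoreS B hB hqM h2 h3 e).u =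
      (gaugeA q B hB hqM e)⁻¹ • annulusCoord (DtM B hB hqM) e :=
  coreOfEq_u _ _

@[simp] theorem innerCoreS_thick (e : SSpM B hB hqM) :
    (innerCoreS B hB hqM h2 h3 e).thick =
      (gaugeA q B hB hqM e)⁻¹ * thick (DtM B hB hqM) e :=
  coreOfEq_thick _ _

end Cores

/-! ### The fibres over the two nodes -/

section Nodes

variable {FZ : SSpM B hB hqM → Type} [∀ e, Field (FZ e)] [∀ e, Algebra (ResidueField B) (FZ e)]
  {KP : Type} [Fintype KP] (h2 : nuTwo M = 0) (h3 : nuThree M = 0)
  (comp : SSpM B hB hqM → KP → MidM B hB hqM hζ)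
  (pMid : ∀ e s, Place (IsLocalRing.ResidueField B) (FtAll B hB hqM hζ FZ (mid (comp e s))))
  (zW : ∀ e, Place (IsLocalRing.ResidueField B) (FtAll B hB hqM hζ FZ (ze e)))
  (zT : ∀ e, Place (IsLocalRing.ResidueField B) (FtAll B hB hqM hζ FZ (ze e)))
  (zK : ∀ e, KP → Place (IsLocalRing.ResidueField B) (FtAll B hB hqM hζ FZ (ze e)))
  (nodeTube : Node (SSpM B hB hqM) KP → Set (Place (AlgebraicClosure ℚ) (Fb (M * q * q))))
  (smTube : (Σ v, Place (IsLocalRing.ResidueField B) (FtAll B hB hqM hζ FZ v)) →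
    Set (Place (AlgebraicClosure ℚ) (Fb (M * q * q))))

set_option maxHeartbeats 1600000 in
/-- **The hypothesis `hOuter` of `hcover_modular`**: over the source branch of the outer node of
`S'ref_a` at `e` lie the point `pInf e` of `cInf` (tube `nodeTube (nT e)`, degree `1`) and the
Kummer points `pMid e s` (tubes `nodeTube (nk e s)`, degrees `d e s`), `1 + ∑ s, d e s = q`. -/
theorem hOuter_modular
    (hbr : Function.Injective
      (Sum.elim (fun x => (⟨src comp x, s₁Of comp (pInfM B hB hqM) pMid zW x⟩ :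
          Σ v, Place kB (FtAll B hB hqM hζ FZ v)))
        (fun x => ⟨tgt x, s₂Of (pZeroM B hB hqM) zT zK x⟩)))
    (d : SSpM B hB hqM → KP → ℕ) (hd : ∀ e, 1 + ∑ s, d e s = q)
    (XT : ∀ e, Nonempty (AnnSheet B (nodeTube (nT e))
      (alpha2 M q (annulusCoord (DtM B hB hqM) e)) (gaugeA q B hB hqM e) 1))
    (XK : ∀ e s, Nonempty (AnnSheet B (nodeTube (nk e s))
      (alpha2 M q (annulusCoord (DtM B hB hqM) e)) (gaugeA q B hB hqM e) (d e s)))
    (subT : ∀ e, ∀ P ∈ nodeTube (nT e), rhoA M q P ∈
      tube (sref (inputs (DtM B hB hqM)) (gaugeA q B hB hqM) (admA B hB hqM h2 h3))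
        (outer (inputs (DtM B hB hqM)) (gaugeA q B hB hqM) (admA B hB hqM h2 h3) e))
    (subK : ∀ e s, ∀ P ∈ nodeTube (nk e s), rhoA M q P ∈
      tube (sref (inputs (DtM B hB hqM)) (gaugeA q B hB hqM) (admA B hB hqM h2 h3))
        (outer (inputs (DtM B hB hqM)) (gaugeA q B hB hqM) (admA B hB hqM h2 h3) e))
    (dTK : ∀ e s P, P ∈ nodeTube (nT e) → P ∈ nodeTube (nk e s) → False)
    (dKK : ∀ e s s' P, P ∈ nodeTube (nk e s) → P ∈ nodeTube (nk e s') → s = s')
    (e : SSpM B hB hqM) :
    FibreOver (sref (inputs (DtM B hB hqM)) (gaugeA q B hB hqM) (admA B hB hqM h2 h3))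
      (rhoA M q) (tubeS comp (pInfM B hB hqM) pMid zW (pZeroM B hB hqM) zT zK nodeTube smTube)
      ⟨(sref (inputs (DtM B hB hqM)) (gaugeA q B hB hqM) (admA B hB hqM h2 h3)).src
          (outer (inputs (DtM B hB hqM)) (gaugeA q B hB hqM) (admA B hB hqM h2 h3) e),
        (sref (inputs (DtM B hB hqM)) (gaugeA q B hB hqM) (admA B hB hqM h2 h3)).s₁
          (outer (inputs (DtM B hB hqM)) (gaugeA q B hB hqM) (admA B hB hqM h2 h3) e)⟩
      (NodeFibres.outerFib comp (pInfM B hB hqM) pMid e :
        Set (Σ v, Place kB (FtAll B hB hqM hζ FZ v))) := by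
  have hu := outerCoreS_u B hB hqM h2 h3 e
  have ht := outerCoreS_thick B hB hqM h2 h3 e
  refine fibreOver_outer_raw
    (sref (inputs (DtM B hB hqM)) (gaugeA q B hB hqM) (admA B hB hqM h2 h3)) comp
    (pInfM B hB hqM) pMid zW (pZeroM B hB hqM) zT zK nodeTube smTube hbr (alpha2 M q)
    (isIntegral_alpha2 M q) (fundamentalIdentityAlong_fb (alpha2 M q)) e
    (outer (inputs (DtM B hB hqM)) (gaugeA q B hB hqM) (admA B hB hqM h2 h3) e)
    (outerCoreS B hB hqM h2 h3 e) (d e) ?_ ?_ (subT e) (subK e) (fun s P hP hP' => dTK e s P hP hP')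
    (dKK e) ?_ (fun P => RedHyp.place_deg_eq_one P) (fun P => RedHyp.place_deg_eq_one P)
  · rw [hu, ht]
    exact XT e
  · intro s
    rw [hu, ht]
    exact XK e s
  · rw [hd e]
    exact (finrankAlong_alpha2 (M := M) (q := q)).symm

set_option maxHeartbeats 1600000 in
/-- **The hypothesis `hInner` of `hcover_modular`**: over the source branch of the inner node of
`S'ref_a` at `e` lies the point `zW e` of the vertical component (tube `nodeTube (nW e)`, degree
`q`). -/
theorem hInner_modular
    (hbr : Function.Injective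
      (Sum.elim (fun x => (⟨src comp x, s₁Of comp (pInfM B hB hqM) pMid zW x⟩ :
          Σ v, Place kB (FtAll B hB hqM hζ FZ v)))
        (fun x => ⟨tgt x, s₂Of (pZeroM B hB hqM) zT zK x⟩)))
    (XW : ∀ e, Nonempty (AnnSheet B (nodeTube (nW e))
      (alpha2 M q ((gaugeA q B hB hqM e)⁻¹ • annulusCoord (DtM B hB hqM) e))
      ((gaugeA q B hB hqM e)⁻¹ * thick (DtM B hB hqM) e) q))
    (subW : ∀ e, ∀ P ∈ nodeTube (nW e), rhoA M q P ∈
      tube (sref (inputs (DtM B hB hqM)) (gaugeA q B hB hqM) (admA B hB hqM h2 h3))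
        (inner (inputs (DtM B hB hqM)) (gaugeA q B hB hqM) (admA B hB hqM h2 h3) e))
    (e : SSpM B hB hqM) :
    FibreOver (sref (inputs (DtM B hB hqM)) (gaugeA q B hB hqM) (admA B hB hqM h2 h3))
      (rhoA M q) (tubeS comp (pInfM B hB hqM) pMid zW (pZeroM B hB hqM) zT zK nodeTube smTube)
      ⟨(sref (inputs (DtM B hB hqM)) (gaugeA q B hB hqM) (admA B hB hqM h2 h3)).src
          (inner (inputs (DtM B hB hqM)) (gaugeA q B hB hqM) (admA B hB hqM h2 h3) e),
        (sref (inputs (DtM B hB hqM)) (gaugeA q B hB hqM) (admA B hB hqM h2 h3)).s₁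
          (inner (inputs (DtM B hB hqM)) (gaugeA q B hB hqM) (admA B hB hqM h2 h3) e)⟩
      (NodeFibres.innerFib zW e : Set (Σ v, Place kB (FtAll B hB hqM hζ FZ v))) := by
  have hu := innerCoreS_u B hB hqM h2 h3 e
  have ht := innerCoreS_thick B hB hqM h2 h3 e
  refine fibreOver_inner_raw
    (sref (inputs (DtM B hB hqM)) (gaugeA q B hB hqM) (admA B hB hqM h2 h3)) comp
    (pInfM B hB hqM) pMid zW (pZeroM B hB hqM) zT zK nodeTube smTube hbr (alpha2 M q)
    (isIntegral_alpha2 M q) (fundamentalIdentityAlong_fb (alpha2 M q)) e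
    (inner (inputs (DtM B hB hqM)) (gaugeA q B hB hqM) (admA B hB hqM h2 h3) e)
    (innerCoreS B hB hqM h2 h3 e) q ?_ (subW e) (finrankAlong_alpha2 (M := M) (q := q)).symm
    (fun P => RedHyp.place_deg_eq_one P) (fun P => RedHyp.place_deg_eq_one P)
  rw [hu, ht]
  exact XW e

end Nodes

end Fermat.Agent.BR3.SDD.Modular
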