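import Mathlib
import Fermat.Agent.BR3.PushMod
import Fermat.Agent.BR3.SDD.PartitionModNodes
import Fermat.Agent.BR3.SDD.PartitionModZe
import Fermat.Agent.BR3.SDD.ModularTubes

/-!
# Program C (S36), (G6-PUSH-MOD), the hypothesis `hsm` of the `a`-side in the frame of
`PartitionClosed.partition_closed`

The last input of `ModularPushA.hpa_modular` (the binder `hpa` of
`ModularTameRaw.tameProp_of_rawTubes`): a smooth place of `S''` lies, along `α₂`, over a smooth
place of `S'ref_a`.

* `hsm_a_of_nodes` : for ANY by-cases input `X` over the frame whose tube families are the families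
  `THf`, `TMf`, `TZf` of raw tubes `nodeTube`, `smTube` (`rfl` for `X := XRaw …`), with
  `X.pInf = pInfM`, `X.pZero = pZeroM` (`rfl`), from `hbr` and the named hypotheses
  `XT XK subT subK dTK dKK XW subW` of `PartitionModNodes.hOuter_modular` / `hInner_modular`
  (`PushMod.hsm_of_fibreOver` at `hOut := hOuter_modular …`, `hInn := hInner_modular …`);
* **`hsm_a_closed`** : the same at THE family of the final call (`FZ := FZM ..`, `KP := KPq q`,
  `X.zW = zWM ..`, `X.zT = zTM ..`, `X.zK = zKM ..`, `nodeTube := nodeTubeM .. tubeT tubeK tubeW`,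
  ANY `smTube`), `hbr := hbr_modular .. X.comp X.pMid X.pMid_injective` and `d := midDeg q`
  discharged inside; the named hypotheses are EXACTLY the eight node terms
  `XT subT XK subK dTK dKK XW subW` of `PartitionClosed.partition_closed`.
-/

set_option autoImplicit false
set_option linter.style.haveILetI false
set_option linter.unusedSectionVars false
set_option linter.unusedVariables false
set_option synthInstance.maxHeartbeats 400000

open ModularCurve AlgebraicCurve

noncomputable section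

/- S36 build-time patch: file-local shortcut instances. They only shorten instance search;
each is the instance that the search finds anyway (reducible, same terms after unfolding). -/
local instance (priority := 100000) Fermat.Agent.BR3.FastInst.instAlgFullC_SDD_ModularSmAClosed
    {k : Type*} [Field k] (N : ℕ) :
    Algebra k ↥(ModularCurve.modularFunctionFieldFullC k N) := inferInstance
local instance (priority := 100000) Fermat.Agent.BR3.FastInst.instFieldFullC_SDD_ModularSmAClosed
    {k : Type*} [Field k] (N : ℕ) :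
    Field ↥(ModularCurve.modularFunctionFieldFullC k N) := inferInstance
local instance (priority := 100000) Fermat.Agent.BR3.FastInst.instAlgLaurent_SDD_ModularSmAClosed
    {k : Type*} [Field k] : Algebra k (LaurentSeries k) := inferInstance


namespace Fermat.Agent.BR3.SDD.ModularSmAClosed

open IsLocalRing Fermat.Agent.X0 Fermat.Agent.Red Fermat.Agent.Val
  Fermat.Agent.BR.SS Fermat.Agent.BR.Refine Fermat.Agent.BR.Circle Fermat.Agent.BR.P1
  Fermat.Agent.BR.AnnulusRed
  Fermat.Agent.BR.S0 Fermat.Agent.BR.S0.PointDict Fermat.Agent.BR.S0.RedModular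
  Fermat.Agent.BR2.SetupOfData Fermat.Agent.BR3.FibreProd Fermat.Agent.BR3.CircleN
  Fermat.Agent.BR3.SRef Fermat.Agent.BR3.SRef.Modular Fermat.Agent.BR3.CoverDict
  Fermat.Agent.BR3.SDD Fermat.Agent.BR3.SDD.Partition Fermat.Agent.BR3.SDD.Modular
  Fermat.Agent.BR3.KummerGenus Fermat.Agent.BR3.KummerGenus.MidInst Fermat.Agent.BR2.LevelGen
  Fermat.Agent.BR3.SDD.ModularZePart Fermat.Agent.BR3.VertPtsU Fermat.Agent.BR3.IgSq
  Fermat.Agent.BR3.ThickSDDPlug

local notation "Qb" => AlgebraicClosure ℚ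

variable {M q : ℕ} [NeZero M] [hq : Fact q.Prime] [NeZero q]
variable (B : ValuationSubring (AlgebraicClosure ℚ)) (hB : B.LiesOverPrime q) (hqM : ¬ q ∣ M)
variable [IsAlgClosed (ResidueField B)]
variable {ζ : Kbˣ} (hζ : IsPrimitiveRoot ζ q)

local notation "kB" => IsLocalRing.ResidueField B
local notation "FtM" => modularFunctionFieldFullC (IsLocalRing.ResidueField B) M

/-- (shortcut instances) -/
local instance (priority := 100000) instAlgebraFtMShortcutSmAC :
    Algebra (IsLocalRing.ResidueField B)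
      (modularFunctionFieldFullC (IsLocalRing.ResidueField B) M) :=
  inferInstance

local instance (priority := 100000) instAlgKFMidSmAC :
    Algebra (IsLocalRing.ResidueField B) (FMid M B) := inferInstance

/-- (shortcut instances for the residue fields of the components of `S''`) -/
local instance (priority := 100000) instFieldFtAllSmAC {FZ : SSpM B hB hqM → Type}
    [∀ e, Field (FZ e)] (v : Comp (MidM B hB hqM hζ) (SSpM B hB hqM)) :
    Field (FtAll B hB hqM hζ FZ v) := instFieldFtOf v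
local instance (priority := 100000) instAlgFtAllSmAC {FZ : SSpM B hB hqM → Type}
    [∀ e, Field (FZ e)] [∀ e, Algebra (IsLocalRing.ResidueField B) (FZ e)]
    (v : Comp (MidM B hB hqM hζ) (SSpM B hB hqM)) :
    Algebra (IsLocalRing.ResidueField B) (FtAll B hB hqM hζ FZ v) := instAlgebraFtOf v

/-! ### any family of raw tubes -/

section Generic

variable {FZ : SSpM B hB hqM → Type} [∀ e, Field (FZ e)] [∀ e, Algebra (ResidueField B) (FZ e)]
  {KP : Type} [Fintype KP] (h2 : nuTwo M = 0) (h3 : nuThree M = 0)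
  (X : CaseInput (F := Fb (M * q * q)) B (MidM B hB hqM hζ) (SSpM B hB hqM) KP
    (FtAll B hB hqM hζ FZ))
  (nodeTube : Node (SSpM B hB hqM) KP → Set (Place (AlgebraicClosure ℚ) (Fb (M * q * q))))
  (smTube : (Σ v, Place (IsLocalRing.ResidueField B) (FtAll B hB hqM hζ FZ v)) →
    Set (Place (AlgebraicClosure ℚ) (Fb (M * q * q))))

set_option maxHeartbeats 1600000 in
/-- **The hypothesis `hsm` of the `a`-side of (G6-PUSH-MOD)** from the node half of the partition
group: a smooth place of `S''` lies, along `α₂`, over a smooth place of `S'ref_a`. -/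
theorem hsm_a_of_nodes
    (hpInf : X.pInf = pInfM B hB hqM) (hpZero : X.pZero = pZeroM B hB hqM)
    (hTHf : X.TH = THf X.comp X.pInf X.pMid X.zW X.pZero X.zT X.zK nodeTube smTube)
    (hTMf : X.TM = TMf X.comp X.pInf X.pMid X.zW X.pZero X.zT X.zK nodeTube smTube)
    (hTZf : X.TZ = TZf X.comp X.pInf X.pMid X.zW X.pZero X.zT X.zK nodeTube smTube)
    (hbr : Function.Injective
      (Sum.elim (fun x => (⟨src X.comp x, s₁Of X.comp (pInfM B hB hqM) X.pMid X.zW x⟩ :
          Σ v, Place kB (FtAll B hB hqM hζ FZ v)))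
        (fun x => ⟨tgt x, s₂Of (pZeroM B hB hqM) X.zT X.zK x⟩)))
    (d : SSpM B hB hqM → KP → ℕ) (hd : ∀ e, 1 + ∑ s, d e s = q)
    (XT : ∀ e, Nonempty (AnnSheet B (nodeTube (nT e))
      (alpha2 M q (annulusCoord (DtM B hB hqM) e)) (gaugeA q B hB hqM e) 1))
    (XK : ∀ e s, Nonempty (AnnSheet B (nodeTube (nk e s))
      (alpha2 M q (annulusCoord (DtM B hB hqM) e)) (gaugeA q B hB hqM e) (d e s)))
    (subT : ∀ e, ∀ P ∈ nodeTube (nT e), rhoA M q P ∈
      tube (sref (inputs (DtM B hB hqM)) (gaugeA q B hB hqM) (admA B hB hqM h2 h3))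
        (outer (inputs (DtM B hB hqM)) (gaugeA q B hB hqM) (admA B hB hqM h2 h3) e))
    (subK : ∀ e s, ∀ P ∈ nodeTube (nk e s), rhoA M q P ∈
      tube (sref (inputs (DtM B hB hqM)) (gaugeA q B hB hqM) (admA B hB hqM h2 h3))
        (outer (inputs (DtM B hB hqM)) (gaugeA q B hB hqM) (admA B hB hqM h2 h3) e))
    (dTK : ∀ e s P, P ∈ nodeTube (nT e) → P ∈ nodeTube (nk e s) → False)
    (dKK : ∀ e s s' P, P ∈ nodeTube (nk e s) → P ∈ nodeTube (nk e s') → s = s')
    (XW : ∀ e, Nonempty (AnnSheet B (nodeTube (nW e))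
      (alpha2 M q ((gaugeA q B hB hqM e)⁻¹ • annulusCoord (DtM B hB hqM) e))
      ((gaugeA q B hB hqM e)⁻¹ * thick (DtM B hB hqM) e) q))
    (subW : ∀ e, ∀ P ∈ nodeTube (nW e), rhoA M q P ∈
      tube (sref (inputs (DtM B hB hqM)) (gaugeA q B hB hqM) (admA B hB hqM h2 h3))
        (inner (inputs (DtM B hB hqM)) (gaugeA q B hB hqM) (admA B hB hqM h2 h3) e))
    (hα : (alpha2 M q).toRingHom.IsIntegral)
    (P : Place (AlgebraicClosure ℚ) (Fb (M * q * q))) (hP : X.toInput.setup.IsSmoothPlace P) :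
    (srefM (DtM B hB hqM) (gaugeA q B hB hqM) (admA B hB hqM h2 h3)).IsSmoothPlace
      (P.restrictAlong (alpha2 M q) hα) := by
  have hO := fun e => hOuter_modular B hB hqM hζ h2 h3 X.comp X.pMid X.zW X.zT X.zK nodeTube
    smTube hbr d hd XT XK subT subK dTK dKK e
  have hI := fun e => hInner_modular B hB hqM hζ h2 h3 X.comp X.pMid X.zW X.zT X.zK nodeTube
    smTube hbr XW subW e
  refine Fermat.Agent.BR3.PushMod.hsm_of_fibreOver (inputs (DtM B hB hqM)) (gaugeA q B hB hqM)
    (admA B hB hqM h2 h3) X (alpha2 M q) hα ?_ ?_ P hP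
  · intro e
    rw [hTHf, hTMf, hTZf, tubeOf_eq_tubeS, hpInf, hpZero]
    exact hO e
  · intro e
    rw [hTHf, hTMf, hTZf, tubeOf_eq_tubeS, hpInf, hpZero]
    exact hI e

end Generic

/-! ### THE family of the final call -/

section Closed

variable [CharP (ResidueField B) q] (h2 : nuTwo M = 0) (h3 : nuThree M = 0)
  (X : CaseInput (F := Fb (M * q * q)) B (MidM B hB hqM hζ) (SSpM B hB hqM) (KPq q)
    (FtAll B hB hqM hζ (FZM B hB hqM h2 h3)))
  (tubeT : SSpM B hB hqM → Set (Place (AlgebraicClosure ℚ) (Fb (M * q * q))))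
  (tubeK : SSpM B hB hqM → KPq q → Set (Place (AlgebraicClosure ℚ) (Fb (M * q * q))))
  (tubeW : SSpM B hB hqM → Set (Place (AlgebraicClosure ℚ) (Fb (M * q * q))))
  (smTube : (Σ v, Place (IsLocalRing.ResidueField B)
      (FtAll B hB hqM hζ (FZM B hB hqM h2 h3) v)) →
    Set (Place (AlgebraicClosure ℚ) (Fb (M * q * q))))

/-- `1 + ∑ s, midDeg q = q` -/
theorem one_add_sum_midDeg_smA : 1 + ∑ _s : KPq q, midDeg q = q := by
  have h := hd_KPq hq.out
  rw [Finset.sum_const, Finset.card_univ, smul_eq_mul]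
  rw [mul_comm] at h
  omega

set_option maxHeartbeats 1600000 in
/-- **(G6-PUSH-MOD) `hsm` of the `a`-side at THE family of the final call**: the named hypotheses
are EXACTLY the eight node terms `XT subT XK subK dTK dKK XW subW` of
`PartitionClosed.partition_closed`. -/
theorem hsm_a_closed
    (hpInf : X.pInf = pInfM B hB hqM) (hpZero : X.pZero = pZeroM B hB hqM)
    (hzW : X.zW = zWM B hB hqM h2 h3) (hzT : X.zT = zTM B hB hqM h2 h3)
    (hzK : X.zK = zKM B hB hqM h2 h3)
    (hTHf : X.TH = THf X.comp X.pInf X.pMid X.zW X.pZero X.zT X.zK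
      (nodeTubeM B hB hqM tubeT tubeK tubeW) smTube)
    (hTMf : X.TM = TMf X.comp X.pInf X.pMid X.zW X.pZero X.zT X.zK
      (nodeTubeM B hB hqM tubeT tubeK tubeW) smTube)
    (hTZf : X.TZ = TZf X.comp X.pInf X.pMid X.zW X.pZero X.zT X.zK
      (nodeTubeM B hB hqM tubeT tubeK tubeW) smTube)
    -- the N1 group on `tubeT`
    (XT : ∀ e, Nonempty (AnnSheet B (tubeT e)
      (alpha2 M q (annulusCoord (DtM B hB hqM) e)) (gaugeA q B hB hqM e) 1))
    (subT : ∀ e, ∀ P ∈ tubeT e, rhoA M q P ∈
      tube (sref (inputs (DtM B hB hqM)) (gaugeA q B hB hqM) (admA B hB hqM h2 h3))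
        (outer (inputs (DtM B hB hqM)) (gaugeA q B hB hqM) (admA B hB hqM h2 h3) e))
    -- the N2 group on `tubeK`
    (XK : ∀ e s, Nonempty (AnnSheet B (tubeK e s)
      (alpha2 M q (annulusCoord (DtM B hB hqM) e)) (gaugeA q B hB hqM e) (midDeg q)))
    (subK : ∀ e s, ∀ P ∈ tubeK e s, rhoA M q P ∈
      tube (sref (inputs (DtM B hB hqM)) (gaugeA q B hB hqM) (admA B hB hqM h2 h3))
        (outer (inputs (DtM B hB hqM)) (gaugeA q B hB hqM) (admA B hB hqM h2 h3) e))
    (dTK : ∀ e s P, P ∈ tubeT e → P ∈ tubeK e s → False)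
    (dKK : ∀ e s s' P, P ∈ tubeK e s → P ∈ tubeK e s' → s = s')
    -- the N3 group on `tubeW`
    (XW : ∀ e, Nonempty (AnnSheet B (tubeW e)
      (alpha2 M q ((gaugeA q B hB hqM e)⁻¹ • annulusCoord (DtM B hB hqM) e))
      ((gaugeA q B hB hqM e)⁻¹ * thick (DtM B hB hqM) e) q))
    (subW : ∀ e, ∀ P ∈ tubeW e, rhoA M q P ∈
      tube (sref (inputs (DtM B hB hqM)) (gaugeA q B hB hqM) (admA B hB hqM h2 h3))
        (inner (inputs (DtM B hB hqM)) (gaugeA q B hB hqM) (admA B hB hqM h2 h3) e))
    (hα : (alpha2 M q).toRingHom.IsIntegral)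
    (P : Place (AlgebraicClosure ℚ) (Fb (M * q * q))) (hP : X.toInput.setup.IsSmoothPlace P) :
    (srefM (DtM B hB hqM) (gaugeA q B hB hqM) (admA B hB hqM h2 h3)).IsSmoothPlace
      (P.restrictAlong (alpha2 M q) hα) := by
  have hbr : Function.Injective
      (Sum.elim (fun x => (⟨src X.comp x, s₁Of X.comp (pInfM B hB hqM) X.pMid X.zW x⟩ :
          Σ v, Place kB (FtAll B hB hqM hζ (FZM B hB hqM h2 h3) v)))
        (fun x => ⟨tgt x, s₂Of (pZeroM B hB hqM) X.zT X.zK x⟩)) := by
    rw [hzW, hzT, hzK]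
    exact hbr_modular B hB hqM hζ h2 h3 X.comp X.pMid X.pMid_injective
  exact hsm_a_of_nodes B hB hqM hζ h2 h3 X (nodeTubeM B hB hqM tubeT tubeK tubeW) smTube
    hpInf hpZero hTHf hTMf hTZf hbr (fun _ _ => midDeg q)
    (fun _ => one_add_sum_midDeg_smA (q := q)) XT XK subT subK dTK dKK XW subW hα P hP

end Closed

end Fermat.Agent.BR3.SDD.ModularSmAClosed
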