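import Fermat.Agent.BR3.SDD.ModularRich
import Fermat.Agent.BR3.EquivActsCases
import Fermat.Agent.BR3.EquivActsKummer
import Fermat.Agent.BR3.EquivHorizMaps
import Fermat.Agent.BR3.KummerGenus.MidFamily

/-!
# Program C (S36), node I7 (integrator) / (I9-σ0): the wiring of (G6) for `(M, q, B)`

`X : SDD.CaseInput … (FtAll B hB hqM hζ FZ)` with `hXC : X.C = CAll B hB hqM hζ CZ`.  The
hypothesis `ht : S36Plug.TameProp M q lam B X.toInput` of `SDD.Modular.modelAt_of_casesAll` from

* the push-forward relations `hpa`, `hpb` (relation form),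
* an inertia element `σ0`, the permutation `P` of the middle components with the isomorphisms
  `aMid i` (`MidGal.exists_perm_mid`) and `X.comp e (p e s) = P (X.comp e s)`,
* the Kummer places `X.pMid e s = MidFamily.pMid … e` (THE place over `z e`),
* per vertical component an isomorphism `aZe e` with `MapsComp` and the special-point identities,
* the four tube clauses.

Discharged here: `MapsComp` on `cInf`, `cZero` with the identity (`EquivHorizMaps`), the fixed
points `pInf e`, `pZero e`, the linearity of `aMid i` over `F̃_M` (`MidGal.mapsComp_phi`) and the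
identity of the Kummer places (`EquivActsKummer.hpMid_of_restrict`).

* `res_mid_alpha2`, `hO_mid`, `hcompat_mid` : `(X.C (mid i)).res (α₂ c) = algebraMap F̃_M (FMid M B)
  (res_can c)` (the hypotheses `hO`, `hcompat` of `MidGal.mapsComp_phi` for `S₀ := setup DtM`);
* `aMid_linear` : `a (algebraMap F̃_M (FMid M B) c) = algebraMap F̃_M (FMid M B) c` for every `a` with
  `MapsComp X.toInput.setup (galAut σ) (mid i) (mid j) a`, `σ ∈ I_B`;
* `hpMid_modular` : the identity of the Kummer places;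
* `tameProp_modular` : `S36Plug.TameProp M q lam B X.toInput`.
-/

set_option autoImplicit false
set_option linter.style.haveILetI false
set_option linter.unusedSectionVars false
set_option linter.unusedVariables false
set_option synthInstance.maxHeartbeats 400000

open ModularCurve AlgebraicCurve

noncomputable section

/- S36 build-time patch: file-local shortcut instances. They only shorten instance search;
each is the instance that the search finds anyway (reducible, same terms after unfolding). -/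
local instance (priority := 100000) Fermat.Agent.BR3.FastInst.instAlgFullC_SDD_ModularTame
    {k : Type*} [Field k] (N : ℕ) :
    Algebra k ↥(ModularCurve.modularFunctionFieldFullC k N) := inferInstance
local instance (priority := 100000) Fermat.Agent.BR3.FastInst.instFieldFullC_SDD_ModularTame
    {k : Type*} [Field k] (N : ℕ) :
    Field ↥(ModularCurve.modularFunctionFieldFullC k N) := inferInstance
local instance (priority := 100000) Fermat.Agent.BR3.FastInst.instAlgLaurent_SDD_ModularTame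
    {k : Type*} [Field k] : Algebra k (LaurentSeries k) := inferInstance


namespace Fermat.Agent.BR3.SDD.ModularTame

open IsLocalRing Fermat.Agent.Jac Fermat.Agent.X0 Fermat.Agent.Red Fermat.Agent.Val
  Fermat.Agent.BR.SS Fermat.Agent.BR Fermat.Agent.BR.InertiaRed Fermat.Agent.BR.UnramCyclo
  Fermat.Agent.BR3.EquivInert Fermat.Agent.BR.PicFunct
  Fermat.Agent.BR.S0 Fermat.Agent.BR.S0.PointDict Fermat.Agent.BR.S0.RedModular
  Fermat.Agent.BR3.FibreProd Fermat.Agent.BR.TwoVal Fermat.Agent.BR.TwoValInst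
  Fermat.Agent.BR2.Filt Fermat.Agent.BR3.FiltMaps Fermat.Agent.BR3.FiltPerm
  Fermat.Agent.BR3.PlaceIso Fermat.Agent.BR2.SetupOfData Fermat.Agent.BR.ConstRedTwo
  Fermat.Agent.BR.LevelTransfer Fermat.Agent.BR2.LevelMaps Fermat.Agent.BR3.G5Multi
  Fermat.Agent.BR3.TorGlue Fermat.Agent.BR3.GeoTor Fermat.Agent.BR3.GeoTorPush
  Fermat.Agent.BR3.GeoFinal Fermat.Agent.BR3.EquivActsSDD
  Fermat.Agent.BR3.SDD
  Fermat.Agent.BR3.SDD.Modular Fermat.Agent.BR3.KummerGenus Fermat.Agent.BR3.EquivActsKummer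
  Fermat.Agent.BR3.KummerGenus.MidInst Fermat.Agent.BR3.IgSq

local notation "Qb" => AlgebraicClosure ℚ

variable {M q : ℕ} [NeZero M] [hq : Fact q.Prime] [NeZero q]
variable (B : ValuationSubring (AlgebraicClosure ℚ)) (hB : B.LiesOverPrime q) (hqM : ¬ q ∣ M)
variable [IsAlgClosed (ResidueField B)]
variable {ζ : Kbˣ} (hζ : IsPrimitiveRoot ζ q)

local notation "kB" => IsLocalRing.ResidueField B
local notation "FtM" => modularFunctionFieldFullC (IsLocalRing.ResidueField B) M

local instance (priority := 100000) instAlgKFtTame : Algebra kB FtM := inferInstance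
local instance (priority := 100000) instAlgKFMidTame : Algebra kB (FMid M B) := inferInstance
local instance (priority := 100000) instAlgFtFMidTame : Algebra FtM (FMid M B) := inferInstance
local instance (priority := 100000) instTowerMidTame : IsScalarTower kB FtM (FMid M B) :=
  inferInstance

variable {FZ : SSpM B hB hqM → Type} [∀ e, Field (FZ e)] [∀ e, Algebra (ResidueField B) (FZ e)]
  {KP : Type}
  (CZ : ∀ e, ConstRed (F := Fb (M * q * q)) (Ft := FZ e) B (residue B))
  (X : CaseInput (F := Fb (M * q * q)) B (MidM B hB hqM hζ) (SSpM B hB hqM) KP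
    (FtAll B hB hqM hζ FZ))

set_option maxHeartbeats 1000000 in
/-- the residue map of the middle component `i` on the image of `α₂` -/
theorem res_mid_alpha2 (C : ∀ v, ConstRed (F := Fb (M * q * q)) (Ft := FtAll B hB hqM hζ FZ v) B
      (residue B)) (hC : C = CAll B hB hqM hζ CZ) (i : MidM B hB hqM hζ) (x : Fb (M * q))
    (hx : x ∈ O1 M B hB) (h' : alpha2 M q x ∈ (C (mid i)).O) :
    ((C (mid i)).res ⟨alpha2 M q x, h'⟩ : FMid M B) =
      algebraMap FtM (FMid M B) ((constRedW1 B hB hqM).res ⟨x, hx⟩) := by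
  subst hC
  exact resMid_alpha2 B hB hqM hζ (i.rep B hB hqM hζ).2 x hx


set_option maxHeartbeats 1000000 in
/-- the valuation rings of the middle components of `S''` -/
theorem hO_mid (hXC : X.C = CAll B hB hqM hζ CZ) (i : MidM B hB hqM hζ) :
    X.toInput.setup.O (mid i) = i.ring B hB hqM hζ := by
  show (X.C (mid i)).O = _
  rw [hXC]
  exact CAll_mid_O B hB hqM hζ CZ i

set_option maxHeartbeats 1000000 in
/-- the hypothesis `hcompat` of `MidGal.mapsComp_phi` for `S₀ := setup DtM`, `can := 0` -/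
theorem hcompat_mid (hXC : X.C = CAll B hB hqM hζ CZ) (i : MidM B hB hqM hζ)
    (c : (setup (DtM B hB hqM)).O 0)
    (h : alpha2 M q (c : Fb (M * q)) ∈ X.toInput.setup.O (mid i)) :
    X.toInput.setup.res (mid i) ⟨alpha2 M q (c : Fb (M * q)), h⟩ =
      (IsScalarTower.toAlgHom kB FtM (FMid M B) : FtM →ₐ[kB] FMid M B)
        ((setup (DtM B hB hqM)).res 0 c) :=
  res_mid_alpha2 B hB hqM hζ CZ X.C hXC i (c : Fb (M * q)) c.2 h


set_option maxHeartbeats 1000000 in
/-- **The isomorphisms of the middle components induced by inertia elements are linear over the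
residue field `F̃_M` of `can`.** -/
theorem aMid_linear (hXC : X.C = CAll B hB hqM hζ CZ) {σ : GQ}
    (hσ : σ ∈ B.inertiaSubgroupIn ℚ) {i j : MidM B hB hqM hζ}
    {a : FtAll B hB hqM hζ FZ (mid i) ≃ₐ[kB] FtAll B hB hqM hζ FZ (mid j)}
    (ha : MapsComp X.toInput.setup (galAut (M * q * q) σ) (mid i) (mid j) a) (c : FtM) :
    a (algebraMap FtM (FMid M B) c : FMid M B) = (algebraMap FtM (FMid M B) c : FMid M B) :=
  Fermat.Agent.BR3.MidGal.mapsComp_phi B hB hqM hζ X.toInput.setup (fun i => mid i)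
    (hO_mid B hB hqM hζ CZ X hXC) (setup (DtM B hB hqM)) 0 rfl
    (fun _ => (IsScalarTower.toAlgHom kB FtM (FMid M B) : FtM →ₐ[kB] FMid M B))
    (hcompat_mid B hB hqM hζ CZ X hXC) hσ ha c


set_option maxHeartbeats 1000000 in
/-- **The identity of the Kummer places under an inertia element** (hypothesis `hpMid` of
`EquivActsCases.tameProp_of_kinds`). -/
theorem hpMid_modular (hXC : X.C = CAll B hB hqM hζ CZ) (z : SSpM B hB hqM → Place kB FtM)
    (hcop : ∀ e, IsCoprime ((z e).ord (deltaMid B hB hqM)) (fMid M B hB : ℤ))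
    (hpM : ∀ e s, toConst (X.comp e s) (X.pMid e s) = MidFamily.pMid B hB hqM z hcop e)
    {σ0 : GQ} (hσ0 : σ0 ∈ B.inertiaSubgroupIn ℚ) (P : Equiv.Perm (MidM B hB hqM hζ))
    (aMid : ∀ i, FtAll B hB hqM hζ FZ (mid i) ≃ₐ[kB] FtAll B hB hqM hζ FZ (mid (P i)))
    (hMid : ∀ i, MapsComp X.toInput.setup (galAut (M * q * q) σ0) (mid i) (mid (P i)) (aMid i))
    (p : SSpM B hB hqM → Equiv.Perm KP) (hcomp : ∀ e s, X.comp e (p e s) = P (X.comp e s))
    (e : SSpM B hB hqM) (s : KP) :
    (⟨mid (X.comp e (p e s)), X.pMid e (p e s)⟩ :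
        Σ v, Place kB (FtAll B hB hqM hζ FZ v)) =
      ⟨mid (P (X.comp e s)), placeMap (aMid (X.comp e s)) (X.pMid e s)⟩ := by
  haveI := finiteDimensional_FMid B hB hqM
  exact hpMid_of_restrict X (E₀ := FtM) z
    (fun e w w' hw hw' => (MidFamily.eq_pMid B hB hqM z hcop e hw).trans
      (MidFamily.eq_pMid B hB hqM z hcop e hw').symm)
    (fun e s => by rw [hpM e s]; exact MidFamily.pMid_restrict B hB hqM z hcop e)
    P aMid (fun i c => aMid_linear B hB hqM hζ CZ X hXC hσ0 (hMid i) c) p hcomp e s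

section Tame

variable {lam : ℕ} [Fintype KP] [Fintype (SSpM B hB hqM)]

set_option maxHeartbeats 2000000 in
/-- **(G6) for `(M, q, B)`**: the hypothesis `ht` of `SDD.Modular.modelAt_of_casesAll`. -/
theorem tameProp_modular (hXC : X.C = CAll B hB hqM hζ CZ)
    (hZ : ∀ e, RiemannPkg (ResidueField B) (FZ e)) (hlam0 : lam ≠ 0)
    (d : ℕ) (hd : d * Fintype.card KP + 1 = q) (φ : SSpM B hB hqM → SSpM B hB hqM)
    (p : SSpM B hB hqM → Equiv.Perm KP) (hp : ∀ e s s', ∃ n : ℕ, ((p e) ^ n) s = s')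
    -- the push-forward relations
    {ιa : Type*} (vWa vTa : ιa) (vEa : SSpM B hB hqM → ιa)
    (hpa : ∀ (m : ℕ) (z : JZero (M * q * q))
      (D : Divisor.degZero (K := Qb) (F := Fb (M * q * q)))
      (f : Fb (M * q * q)) (u : ∀ v, FtAll B hB hqM hζ FZ v),
      IsGood X.toInput.setup (lam ^ m) z D f u → alphaDown (M * q) q z = 0 →
      ∀ (av bv : Node (SSpM B hB hqM) KP → ResidueField B) (ha0 : ∀ e, av e ≠ 0)
        (hb0 : ∀ e, bv e ≠ 0),
      (∀ e, IsValueAt (X.toInput.setup.s₁ e) (u (X.toInput.setup.src e)) (av e)) →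
      (∀ e, IsValueAt (X.toInput.setup.s₂ e) (u (X.toInput.setup.tgt e)) (bv e)) →
      ∃ κ₀ : ιa → ResidueField B, (∀ v, κ₀ v ≠ 0) ∧
        (∀ e, valH hor av bv (nW e) ^ q * κ₀ (vEa e) = valV hor av bv (nW e) ^ q * κ₀ vWa) ∧
        ∀ e, (valH hor av bv (nT e) * ∏ s, valH hor av bv (nk e s) ^ d) * κ₀ (vEa e) =
          (valV hor av bv (nT e) * ∏ s, valV hor av bv (nk e s) ^ d) * κ₀ vTa)
    {ιb : Type*} (vWb vTb : ιb) (vEb : SSpM B hB hqM → ιb)
    (hpb : ∀ (m : ℕ) (z : JZero (M * q * q))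
      (D : Divisor.degZero (K := Qb) (F := Fb (M * q * q)))
      (f : Fb (M * q * q)) (u : ∀ v, FtAll B hB hqM hζ FZ v),
      IsGood X.toInput.setup (lam ^ m) z D f u → betaDown (M * q) q z = 0 →
      ∀ (av bv : Node (SSpM B hB hqM) KP → ResidueField B) (ha0 : ∀ e, av e ≠ 0)
        (hb0 : ∀ e, bv e ≠ 0),
      (∀ e, IsValueAt (X.toInput.setup.s₁ e) (u (X.toInput.setup.src e)) (av e)) →
      (∀ e, IsValueAt (X.toInput.setup.s₂ e) (u (X.toInput.setup.tgt e)) (bv e)) →
      ∃ κ₀ : ιb → ResidueField B, (∀ v, κ₀ v ≠ 0) ∧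
        (∀ e, valH hor av bv (nT e) ^ q * κ₀ (vEb (φ e)) =
          valV hor av bv (nT e) ^ q * κ₀ vWb) ∧
        ∀ e, (valH hor av bv (nW e) * ∏ s, valH hor av bv (nk e s) ^ d) * κ₀ (vEb (φ e)) =
          (valV hor av bv (nW e) * ∏ s, valV hor av bv (nk e s) ^ d) * κ₀ vTb)
    -- the Kummer places
    (z : SSpM B hB hqM → Place kB FtM)
    (hcop : ∀ e, IsCoprime ((z e).ord (deltaMid B hB hqM)) (fMid M B hB : ℤ))
    (hpM : ∀ e s, toConst (X.comp e s) (X.pMid e s) = MidFamily.pMid B hB hqM z hcop e)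
    -- the tame generator on the middle components
    (σ0 : GQ) (hσ0 : σ0 ∈ B.inertiaSubgroupIn ℚ) (P : Equiv.Perm (MidM B hB hqM hζ))
    (aMid : ∀ i, FtAll B hB hqM hζ FZ (mid i) ≃ₐ[kB] FtAll B hB hqM hζ FZ (mid (P i)))
    (hMid : ∀ i, MapsComp X.toInput.setup (galAut (M * q * q) σ0) (mid i) (mid (P i)) (aMid i))
    (hcomp : ∀ e s, X.comp e (p e s) = P (X.comp e s))
    -- the tame generator on the vertical components
    (aZe : ∀ e, FZ e ≃ₐ[kB] FZ e)
    (hZe : ∀ e, MapsComp X.toInput.setup (galAut (M * q * q) σ0) (ze e) (ze e) (aZe e))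
    (hzW : ∀ e, placeMap (aZe e) (X.zW e) = X.zW e)
    (hzT : ∀ e, placeMap (aZe e) (X.zT e) = X.zT e)
    (hzK : ∀ e s, placeMap (aZe e) (X.zK e s) = X.zK e (p e s))
    -- the tubes
    (hTZero : ∀ Q, ∀ Pl ∈ X.TH true Q, galAut (M * q * q) σ0 • Pl ∈ X.TH true Q)
    (hTInf : ∀ Q, ∀ Pl ∈ X.TH false Q, galAut (M * q * q) σ0 • Pl ∈ X.TH false Q)
    (hTM : ∀ i Q, ∀ Pl ∈ X.TM i Q,
      galAut (M * q * q) σ0 • Pl ∈ X.TM (P i) (placeMap (aMid i) Q))
    (hTZ : ∀ e Q, ∀ Pl ∈ X.TZ e Q,
      galAut (M * q * q) σ0 • Pl ∈ X.TZ e (placeMap (aZe e) Q)) :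
    S36Plug.TameProp M q lam B X.toInput := by
  have hInfO : (X.toInput.C cInf).O = w1 M B hB := by
    show (X.C cInf).O = _
    rw [hXC]
    rfl
  have hZeroO : (X.toInput.C SDD.cZero).O = Fermat.Agent.BR3.CZero.cZero B hB hqM := by
    show (X.C SDD.cZero).O = _
    rw [hXC]
    rfl
  refine Fermat.Agent.BR3.EquivActsCases.tameProp_of_kinds X (hFtAll B hB hqM hζ hZ) hlam0 d hd φ
    P p hp vWa vTa vEa hpa vWb vTb vEb hpb σ0 hσ0 AlgEquiv.refl AlgEquiv.refl aMid aZe
    (Fermat.Agent.BR3.EquivHorizMaps.mapsComp_cZero B hB hqM X.toInput hZeroO hσ0)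
    (Fermat.Agent.BR3.EquivHorizMaps.mapsComp_cInf B hB X.toInput hInfO hσ0)
    hMid hZe ?_ ?_ hTM hTZ hzW (fun e => placeMap_refl _)
    (hpMid_modular B hB hqM hζ CZ X hXC z hcop hpM hσ0 P aMid hMid p hcomp)
    (fun e => placeMap_refl _) hzT hzK
  · intro Q Pl hPl
    exact (placeMap_refl Q).symm ▸ hTZero Q Pl hPl
  · intro Q Pl hPl
    exact (placeMap_refl Q).symm ▸ hTInf Q Pl hPl

end Tame

end Fermat.Agent.BR3.SDD.ModularTame
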