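import Fermat.Agent.BR3.SDD.ModularTame
import Fermat.Agent.BR3.EquivTubeFam

/-!
# Program C (S36), node I7 (integrator) / (I9-σ0): (G6) for the RAW inputs `XRaw`

`ht : S36Plug.TameProp M q lam B (XRaw …).toInput`, the last hypothesis of
`SDD.Modular.modelAt_of_raw`, from

* the push-forward relations `hpa`, `hpb` (relation form),
* an inertia element `σ0` with the permutation `P` of the middle components, the isomorphisms
  `aMid i` (`MidGal.exists_perm_mid`) and `comp e (p e s) = P (comp e s)`,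
* the Kummer places `pMid e s = MidFamily.pMid … e`,
* per vertical component an isomorphism `aZe e` with `MapsComp` and the identities at `zW e`,
  `zT e`, `zK e s`,
* the RAW tube clauses per kind (`nodeTube`, `smTube`; `EquivTubeFam.hT_of_raw`), the smooth
  clauses only away from the special points.
-/

set_option autoImplicit false
set_option linter.style.haveILetI false
set_option linter.unusedSectionVars false
set_option linter.unusedVariables false
set_option synthInstance.maxHeartbeats 400000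

open ModularCurve AlgebraicCurve

noncomputable section

/- S36 build-time patch: file-local shortcut instances. They only shorten instance search;
each is the instance that the search finds anyway (reducible, same terms after unfolding). -/
local instance (priority := 100000) Fermat.Agent.BR3.FastInst.instAlgFullC_SDD_ModularTameRaw
    {k : Type*} [Field k] (N : ℕ) :
    Algebra k ↥(ModularCurve.modularFunctionFieldFullC k N) := inferInstance
local instance (priority := 100000) Fermat.Agent.BR3.FastInst.instFieldFullC_SDD_ModularTameRaw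
    {k : Type*} [Field k] (N : ℕ) :
    Field ↥(ModularCurve.modularFunctionFieldFullC k N) := inferInstance
local instance (priority := 100000) Fermat.Agent.BR3.FastInst.instAlgLaurent_SDD_ModularTameRaw
    {k : Type*} [Field k] : Algebra k (LaurentSeries k) := inferInstance


namespace Fermat.Agent.BR3.SDD.ModularTameRaw

open IsLocalRing Fermat.Agent.Jac Fermat.Agent.X0 Fermat.Agent.Red Fermat.Agent.Val
  Fermat.Agent.BR.SS Fermat.Agent.BR Fermat.Agent.BR.InertiaRed Fermat.Agent.BR.UnramCyclo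
  Fermat.Agent.BR3.EquivInert Fermat.Agent.BR.PicFunct
  Fermat.Agent.BR.S0 Fermat.Agent.BR.S0.PointDict Fermat.Agent.BR.S0.RedModular
  Fermat.Agent.BR3.FibreProd Fermat.Agent.BR.TwoVal Fermat.Agent.BR.TwoValInst
  Fermat.Agent.BR2.Filt Fermat.Agent.BR3.FiltMaps Fermat.Agent.BR3.FiltPerm
  Fermat.Agent.BR3.PlaceIso Fermat.Agent.BR2.SetupOfData Fermat.Agent.BR.ConstRedTwo
  Fermat.Agent.BR.LevelTransfer Fermat.Agent.BR2.LevelMaps Fermat.Agent.BR3.G5Multi
  Fermat.Agent.BR3.TorGlue Fermat.Agent.BR3.GeoTor Fermat.Agent.BR3.GeoTorPush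
  Fermat.Agent.BR3.GeoFinal Fermat.Agent.BR3.EquivActsSDD
  Fermat.Agent.BR3.SDD
  Fermat.Agent.BR3.SDD.Modular Fermat.Agent.BR3.KummerGenus Fermat.Agent.BR3.EquivActsKummer
  Fermat.Agent.BR3.KummerGenus.MidInst Fermat.Agent.BR3.IgSq
  Fermat.Agent.BR3.SDD.Partition Fermat.Agent.BR3.SDD.ModularTame

/-! ### the tubes of `caseInputOfRaw` are the families of the raw tubes (`rfl`, generic frame) -/

section RawFamilies

open Fermat.Agent.Val Fermat.Agent.BR.S0 Fermat.Agent.BR.Refine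

variable {K : Type} {F : Type*} [Field K] [Field F] [Algebra K F]
  (A : ValuationSubring K) {Mid SSp KP : Type} {Ft : Comp Mid SSp → Type}
  [∀ v, Field (Ft v)] [∀ v, Algebra (ResidueField A) (Ft v)]
  (comp : SSp → KP → Mid) (comp_surj : ∀ i, ∃ e s, comp e s = i) (nonempty : Nonempty SSp)
  (C : ∀ v, ConstRed (F := F) (Ft := Ft v) A (residue A))
  (O_injective : Function.Injective fun v => (C v).O)
  (pInf : SSp → Place (ResidueField A) (Ft cInf))
  (pZero : SSp → Place (ResidueField A) (Ft cZero))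
  (pMid : ∀ e s, Place (ResidueField A) (Ft (mid (comp e s))))
  (zT : ∀ e, Place (ResidueField A) (Ft (ze e)))
  (zK : ∀ e, KP → Place (ResidueField A) (Ft (ze e)))
  (zW : ∀ e, Place (ResidueField A) (Ft (ze e)))
  (pInf_injective : Function.Injective pInf) (pZero_injective : Function.Injective pZero)
  (pMid_injective : ∀ e s e' s', (⟨mid (comp e s), pMid e s⟩ :
    Σ v, Place (ResidueField A) (Ft v)) = ⟨mid (comp e' s'), pMid e' s'⟩ → e = e' ∧ s = s')
  (zK_injective : ∀ e, Function.Injective (zK e)) (zT_ne_zK : ∀ e s, zT e ≠ zK e s)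
  (zW_ne_zT : ∀ e, zW e ≠ zT e) (zW_ne_zK : ∀ e s, zW e ≠ zK e s)
  (nodeTube : Node SSp KP → Set (Place K F))
  (smTube : (Σ v, Place (ResidueField A) (Ft v)) → Set (Place K F))
  (cover : ∀ P, ∃ y, P ∈ tubeS comp pInf pMid zW pZero zT zK nodeTube smTube y)
  (disjoint : ∀ P y y', P ∈ tubeS comp pInf pMid zW pZero zT zK nodeTube smTube y →
    P ∈ tubeS comp pInf pMid zW pZero zT zK nodeTube smTube y' → y = y')
  (smInf : ∀ Q : Place (ResidueField A) (Ft cInf), (∀ e, Q ≠ pInf e) →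
    SmoothChart A (C cInf).O (C cInf).res Q (smTube ⟨cInf, Q⟩))
  (smZero : ∀ Q : Place (ResidueField A) (Ft cZero), (∀ e, Q ≠ pZero e) →
    SmoothChart A (C cZero).O (C cZero).res Q (smTube ⟨cZero, Q⟩))
  (smMid : ∀ (i : Mid) (Q : Place (ResidueField A) (Ft (mid i))),
    (∀ e s, (⟨mid i, Q⟩ : Σ v, Place (ResidueField A) (Ft v)) ≠
      ⟨mid (comp e s), pMid e s⟩) →
    SmoothChart A (C (mid i)).O (C (mid i)).res Q (smTube ⟨mid i, Q⟩))
  (smZe : ∀ (e : SSp) (Q : Place (ResidueField A) (Ft (ze e))), Q ≠ zW e → Q ≠ zT e →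
    (∀ s, Q ≠ zK e s) → SmoothChart A (C (ze e)).O (C (ze e)).res Q (smTube ⟨ze e, Q⟩))
  (chT : ∀ e, NodeChart A (C cInf).O (C (ze e)).O (C cInf).res (C (ze e)).res (pInf e) (zT e)
    (nodeTube (nT e)))
  (chK : ∀ e s, NodeChart A (C (mid (comp e s))).O (C (ze e)).O (C (mid (comp e s))).res
    (C (ze e)).res (pMid e s) (zK e s) (nodeTube (nk e s)))
  (chW : ∀ e, NodeChart A (C (ze e)).O (C cZero).O (C (ze e)).res (C cZero).res (zW e)
    (pZero e) (nodeTube (nW e)))

/-- the abbreviation of `caseInputOfRaw` with all its arguments -/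
local notation "XO" =>
  caseInputOfRaw A comp comp_surj nonempty C O_injective pInf pZero pMid zT zK zW
    pInf_injective pZero_injective pMid_injective zK_injective zT_ne_zK zW_ne_zT zW_ne_zK
    nodeTube smTube cover disjoint smInf smZero smMid smZe chT chK chW

/-- hypothesis `hTHf` of `tameProp_of_rawTubes` for `X := caseInputOfRaw …` -/
theorem caseInputOfRaw_TH :
    (XO).TH = THf (XO).comp (XO).pInf (XO).pMid (XO).zW (XO).pZero (XO).zT (XO).zK nodeTube
      smTube := rfl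

/-- hypothesis `hTMf` of `tameProp_of_rawTubes` for `X := caseInputOfRaw …` -/
theorem caseInputOfRaw_TM :
    (XO).TM = TMf (XO).comp (XO).pInf (XO).pMid (XO).zW (XO).pZero (XO).zT (XO).zK nodeTube
      smTube := rfl

/-- hypothesis `hTZf` of `tameProp_of_rawTubes` for `X := caseInputOfRaw …` -/
theorem caseInputOfRaw_TZ :
    (XO).TZ = TZf (XO).comp (XO).pInf (XO).pMid (XO).zW (XO).pZero (XO).zT (XO).zK nodeTube
      smTube := rfl

end RawFamilies


local notation "Qb" => AlgebraicClosure ℚ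

variable {M q : ℕ} [NeZero M] [hq : Fact q.Prime] [NeZero q]
variable (B : ValuationSubring (AlgebraicClosure ℚ)) (hB : B.LiesOverPrime q) (hqM : ¬ q ∣ M)
variable [IsAlgClosed (ResidueField B)]
variable {ζ : Kbˣ} (hζ : IsPrimitiveRoot ζ q)

local notation "kB" => IsLocalRing.ResidueField B
local notation "FtM" => modularFunctionFieldFullC (IsLocalRing.ResidueField B) M

local instance (priority := 100000) instAlgKFtTameRaw : Algebra kB FtM := inferInstance
local instance (priority := 100000) instAlgKFMidTameRaw : Algebra kB (FMid M B) := inferInstance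
local instance (priority := 100000) instAlgFtFMidTameRaw : Algebra FtM (FMid M B) :=
  inferInstance
local instance (priority := 100000) instTowerMidTameRaw : IsScalarTower kB FtM (FMid M B) :=
  inferInstance

variable {FZ : SSpM B hB hqM → Type} [∀ e, Field (FZ e)] [∀ e, Algebra (ResidueField B) (FZ e)]
  {KP : Type}
  (CZ : ∀ e, ConstRed (F := Fb (M * q * q)) (Ft := FZ e) B (residue B))
  (X : CaseInput (F := Fb (M * q * q)) B (MidM B hB hqM hζ) (SSpM B hB hqM) KP
    (FtAll B hB hqM hζ FZ))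

section Tame

variable {lam : ℕ} [Fintype KP] [Fintype (SSpM B hB hqM)]

set_option maxHeartbeats 2000000 in
/-- **(G6) from the RAW tube clauses**, for any inputs `X` with `X.C = CAll …` whose tubes are the
families of the raw tubes `nodeTube`, `smTube` (`rfl` for `X := XRaw …`, hence the hypothesis `ht`
of `SDD.Modular.modelAt_of_raw`). -/
theorem tameProp_of_rawTubes (hXC : X.C = CAll B hB hqM hζ CZ)
    (nodeTube : Node (SSpM B hB hqM) KP → Set (Place Kb (Fb (M * q * q))))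
    (smTube : (Σ v, Place (ResidueField B) (FtAll B hB hqM hζ FZ v)) →
      Set (Place Kb (Fb (M * q * q))))
    (hTHf : X.TH = THf X.comp X.pInf X.pMid X.zW X.pZero X.zT X.zK nodeTube smTube)
    (hTMf : X.TM = TMf X.comp X.pInf X.pMid X.zW X.pZero X.zT X.zK nodeTube smTube)
    (hTZf : X.TZ = TZf X.comp X.pInf X.pMid X.zW X.pZero X.zT X.zK nodeTube smTube)
    (hZ : ∀ e, RiemannPkg (ResidueField B) (FZ e)) (hlam0 : lam ≠ 0)
    (d : ℕ) (hd : d * Fintype.card KP + 1 = q) (φ : SSpM B hB hqM → SSpM B hB hqM)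
    (p : SSpM B hB hqM → Equiv.Perm KP) (hp : ∀ e s s', ∃ n : ℕ, ((p e) ^ n) s = s')
    -- the push-forward relations
    {ιa : Type*} (vWa vTa : ιa) (vEa : SSpM B hB hqM → ιa)
    (hpa : ∀ (m : ℕ) (z : JZero (M * q * q))
      (D : Divisor.degZero (K := Qb) (F := Fb (M * q * q)))
      (f : Fb (M * q * q)) (u : ∀ v, FtAll B hB hqM hζ FZ v),
      IsGood X.toInput.setup (lam ^ m) z D f u → alphaDown (M * q) q z = 0 →
      ∀ (av bv : Node (SSpM B hB hqM) KP → ResidueField B) (ha0 : ∀ e, av e ≠ 0)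
        (hb0 : ∀ e, bv e ≠ 0),
      (∀ e, IsValueAt (X.toInput.setup.s₁ e) (u (X.toInput.setup.src e)) (av e)) →
      (∀ e, IsValueAt (X.toInput.setup.s₂ e) (u (X.toInput.setup.tgt e)) (bv e)) →
      ∃ κ₀ : ιa → ResidueField B, (∀ v, κ₀ v ≠ 0) ∧
        (∀ e, valH hor av bv (nW e) ^ q * κ₀ (vEa e) = valV hor av bv (nW e) ^ q * κ₀ vWa) ∧
        ∀ e, (valH hor av bv (nT e) * ∏ s, valH hor av bv (nk e s) ^ d) * κ₀ (vEa e) =
          (valV hor av bv (nT e) * ∏ s, valV hor av bv (nk e s) ^ d) * κ₀ vTa)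
    {ιb : Type*} (vWb vTb : ιb) (vEb : SSpM B hB hqM → ιb)
    (hpb : ∀ (m : ℕ) (z : JZero (M * q * q))
      (D : Divisor.degZero (K := Qb) (F := Fb (M * q * q)))
      (f : Fb (M * q * q)) (u : ∀ v, FtAll B hB hqM hζ FZ v),
      IsGood X.toInput.setup (lam ^ m) z D f u → betaDown (M * q) q z = 0 →
      ∀ (av bv : Node (SSpM B hB hqM) KP → ResidueField B) (ha0 : ∀ e, av e ≠ 0)
        (hb0 : ∀ e, bv e ≠ 0),
      (∀ e, IsValueAt (X.toInput.setup.s₁ e) (u (X.toInput.setup.src e)) (av e)) →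
      (∀ e, IsValueAt (X.toInput.setup.s₂ e) (u (X.toInput.setup.tgt e)) (bv e)) →
      ∃ κ₀ : ιb → ResidueField B, (∀ v, κ₀ v ≠ 0) ∧
        (∀ e, valH hor av bv (nT e) ^ q * κ₀ (vEb (φ e)) =
          valV hor av bv (nT e) ^ q * κ₀ vWb) ∧
        ∀ e, (valH hor av bv (nW e) * ∏ s, valH hor av bv (nk e s) ^ d) * κ₀ (vEb (φ e)) =
          (valV hor av bv (nW e) * ∏ s, valV hor av bv (nk e s) ^ d) * κ₀ vTb)
    -- the Kummer places
    (z : SSpM B hB hqM → Place kB FtM)
    (hcop : ∀ e, IsCoprime ((z e).ord (deltaMid B hB hqM)) (fMid M B hB : ℤ))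
    (hpM : ∀ e s, toConst (X.comp e s) (X.pMid e s) = MidFamily.pMid B hB hqM z hcop e)
    -- the tame generator on the middle components
    (σ0 : GQ) (hσ0 : σ0 ∈ B.inertiaSubgroupIn ℚ) (P : Equiv.Perm (MidM B hB hqM hζ))
    (aMid : ∀ i, FtAll B hB hqM hζ FZ (mid i) ≃ₐ[kB] FtAll B hB hqM hζ FZ (mid (P i)))
    (hMid : ∀ i, MapsComp X.toInput.setup (galAut (M * q * q) σ0) (mid i) (mid (P i)) (aMid i))
    (hcomp : ∀ e s, X.comp e (p e s) = P (X.comp e s))
    -- the tame generator on the vertical components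
    (aZe : ∀ e, FZ e ≃ₐ[kB] FZ e)
    (hZe : ∀ e, MapsComp X.toInput.setup (galAut (M * q * q) σ0) (ze e) (ze e) (aZe e))
    (hzW : ∀ e, placeMap (aZe e) (X.zW e) = X.zW e)
    (hzT : ∀ e, placeMap (aZe e) (X.zT e) = X.zT e)
    (hzK : ∀ e s, placeMap (aZe e) (X.zK e s) = X.zK e (p e s))
    -- the raw tubes
    (hnT : ∀ e, ∀ Pl ∈ nodeTube (nT e), galAut (M * q * q) σ0 • Pl ∈ nodeTube (nT e))
    (hnK : ∀ e s, ∀ Pl ∈ nodeTube (nk e s),
      galAut (M * q * q) σ0 • Pl ∈ nodeTube (nk e (p e s)))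
    (hnW : ∀ e, ∀ Pl ∈ nodeTube (nW e), galAut (M * q * q) σ0 • Pl ∈ nodeTube (nW e))
    (hsmInf : ∀ Q : Place kB (FtAll B hB hqM hζ FZ cInf), (∀ e, Q ≠ X.pInf e) →
      ∀ Pl ∈ smTube ⟨cInf, Q⟩, galAut (M * q * q) σ0 • Pl ∈ smTube ⟨cInf, Q⟩)
    (hsmZero : ∀ Q : Place kB (FtAll B hB hqM hζ FZ SDD.cZero), (∀ e, Q ≠ X.pZero e) →
      ∀ Pl ∈ smTube ⟨SDD.cZero, Q⟩, galAut (M * q * q) σ0 • Pl ∈ smTube ⟨SDD.cZero, Q⟩)
    (hsmMid : ∀ (i : MidM B hB hqM hζ) (Q : Place kB (FtAll B hB hqM hζ FZ (mid i))),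
      (∀ e s, (⟨mid i, Q⟩ : Σ v, Place kB (FtAll B hB hqM hζ FZ v)) ≠
        ⟨mid (X.comp e s), X.pMid e s⟩) →
      ∀ Pl ∈ smTube ⟨mid i, Q⟩,
        galAut (M * q * q) σ0 • Pl ∈ smTube ⟨mid (P i), placeMap (aMid i) Q⟩)
    (hsmZe : ∀ (e : SSpM B hB hqM) (Q : Place kB (FtAll B hB hqM hζ FZ (ze e))),
      Q ≠ X.zW e → Q ≠ X.zT e → (∀ s, Q ≠ X.zK e s) →
      ∀ Pl ∈ smTube ⟨ze e, Q⟩,
        galAut (M * q * q) σ0 • Pl ∈ smTube ⟨ze e, placeMap (aZe e) Q⟩) :
    S36Plug.TameProp M q lam B X.toInput := by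
  have hInfO : (X.toInput.C cInf).O = w1 M B hB := by
    show (X.C cInf).O = _
    rw [hXC]
    rfl
  have hZeroO : (X.toInput.C SDD.cZero).O = Fermat.Agent.BR3.CZero.cZero B hB hqM := by
    show (X.C SDD.cZero).O = _
    rw [hXC]
    rfl
  have hpMid := hpMid_modular B hB hqM hζ CZ X hXC z hcop hpM hσ0 P aMid hMid p hcomp
  obtain ⟨hTZero, hTInf, hTM, hTZ⟩ := Fermat.Agent.BR3.EquivTubeFam.hT_of_raw X nodeTube smTube
    hTHf hTMf hTZf (fun Pl => galAut (M * q * q) σ0 • Pl) P p AlgEquiv.refl AlgEquiv.refl aMid aZe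
    hzW (fun e => placeMap_refl _) hpMid (fun e => placeMap_refl _) hzT hzK hnT hnK hnW
    (fun Q hQ Pl hPl => (placeMap_refl Q).symm ▸ hsmInf Q hQ Pl hPl)
    (fun Q hQ Pl hPl => (placeMap_refl Q).symm ▸ hsmZero Q hQ Pl hPl) hsmMid hsmZe
  exact Fermat.Agent.BR3.EquivActsCases.tameProp_of_kinds X (hFtAll B hB hqM hζ hZ) hlam0 d hd φ
    P p hp vWa vTa vEa hpa vWb vTb vEb hpb σ0 hσ0 AlgEquiv.refl AlgEquiv.refl aMid aZe
    (Fermat.Agent.BR3.EquivHorizMaps.mapsComp_cZero B hB hqM X.toInput hZeroO hσ0)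
    (Fermat.Agent.BR3.EquivHorizMaps.mapsComp_cInf B hB X.toInput hInfO hσ0)
    hMid hZe hTZero hTInf hTM hTZ hzW (fun e => placeMap_refl _) hpMid
    (fun e => placeMap_refl _) hzT hzK

end Tame

end Fermat.Agent.BR3.SDD.ModularTameRaw
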