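import Fermat.Agent.BR3.SDD.ModularRaw
import Fermat.Agent.BR3.SDD.ModularTameRaw
import Fermat.Agent.BR3.SDD.ModularTubesMidFinal
import Fermat.Agent.BR3.EquivTubesM
import Fermat.Agent.BR3.MidGal

/-!
# Program C (S36), node (G6-FINAL): the binder `ht` of `modelAt_of_raw_thick` as ONE theorem

`ht_of_family : S36Plug.TameProp M q lam B (XRaw …).toInput` = ONE call of
`ModularTameRaw.tameProp_of_rawTubes` at `X := XRaw …`, the variable block being that of
`SDD.Modular.modelAt_of_raw_thick` VERBATIM (everything generic: inferred by unification at the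
call) EXCEPT `smTube := smTubeM B hB hqM hζ (midTubeM B hB hqM hζ H) zeTube`.

Discharged inside:
* `hXC`, `hTHf`, `hTMf`, `hTZf` := `rfl`;
* `(P, aMid, hMid)` := `MidGal.exists_perm_mid` on the setup of `XRaw …` (so `hcomp` is asked for
  EVERY permutation `P` with the characterisation `σ0 • y ∈ (P i).ring ↔ y ∈ i.ring`: the
  conclusion of `ModularComp.hcomp_modular`);
* `hsmMid` := `ModularTubesMid.hsmMid_tame` (the sheet data: `MidChartAllFinal.hasMidSheetM`);
* `hsmInf`, `hsmZero` := `EquivTubesM.hsmInf_of_shape`, `hsmZero_of_shape`.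

The inertia element `σ0` is an EXPLICIT argument: the `σ0`-dependent hypotheses keep the literal
binder shapes of `tameProp_of_rawTubes` at that `σ0`.
-/

set_option autoImplicit false
set_option linter.style.haveILetI false
set_option linter.unusedSectionVars false
set_option linter.unusedVariables false
set_option synthInstance.maxHeartbeats 400000

open ModularCurve AlgebraicCurve

noncomputable section

/- S36 build-time patch: file-local shortcut instances. They only shorten instance search;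
each is the instance that the search finds anyway (reducible, same terms after unfolding). -/
local instance (priority := 100000) Fermat.Agent.BR3.FastInst.instAlgFullC_SDD_ModularTameFinal
    {k : Type*} [Field k] (N : ℕ) :
    Algebra k ↥(ModularCurve.modularFunctionFieldFullC k N) := inferInstance
local instance (priority := 100000) Fermat.Agent.BR3.FastInst.instFieldFullC_SDD_ModularTameFinal
    {k : Type*} [Field k] (N : ℕ) :
    Field ↥(ModularCurve.modularFunctionFieldFullC k N) := inferInstance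
local instance (priority := 100000) Fermat.Agent.BR3.FastInst.instAlgLaurent_SDD_ModularTameFinal
    {k : Type*} [Field k] : Algebra k (LaurentSeries k) := inferInstance


namespace Fermat.Agent.BR3.SDD.ModularTameFinal

open IsLocalRing Fermat.Agent.Jac Fermat.Agent.X0 Fermat.Agent.Red Fermat.Agent.Val
  Fermat.Agent.BR.SS Fermat.Agent.BR Fermat.Agent.BR.InertiaRed Fermat.Agent.BR.UnramCyclo
  Fermat.Agent.BR3.EquivInert Fermat.Agent.BR.PicFunct
  Fermat.Agent.BR.S0 Fermat.Agent.BR.S0.PointDict Fermat.Agent.BR.S0.RedModular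
  Fermat.Agent.BR.S0.RedHyp
  Fermat.Agent.BR3.FibreProd Fermat.Agent.BR.TwoVal Fermat.Agent.BR.TwoValInst
  Fermat.Agent.BR2.Filt Fermat.Agent.BR3.FiltMaps Fermat.Agent.BR3.FiltPerm
  Fermat.Agent.BR3.PlaceIso Fermat.Agent.BR2.SetupOfData Fermat.Agent.BR.ConstRedTwo
  Fermat.Agent.BR.LevelTransfer Fermat.Agent.BR2.LevelMaps Fermat.Agent.BR3.G5Multi
  Fermat.Agent.BR3.TorGlue Fermat.Agent.BR3.GeoTor Fermat.Agent.BR3.GeoTorPush
  Fermat.Agent.BR3.GeoFinal Fermat.Agent.BR3.EquivActsSDD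
  Fermat.Agent.BR3.SDD Fermat.Agent.BR.Refine
  Fermat.Agent.BR3.SDD.Modular Fermat.Agent.BR3.KummerGenus Fermat.Agent.BR3.EquivActsKummer
  Fermat.Agent.BR3.KummerGenus.MidInst Fermat.Agent.BR3.IgSq
  Fermat.Agent.BR3.SDD.Partition Fermat.Agent.BR3.SDD.ModularTame
  Fermat.Agent.BR3.SDD.ModularTameRaw Fermat.Agent.BR3.SDD.ModularTubesMid
  Fermat.Agent.BR3.SDD.ModularTubesMidFinal Fermat.Agent.BR3.EquivTubesM
  Fermat.Agent.BR3.SRef.Modular

local notation "Qb" => AlgebraicClosure ℚ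

variable {M q : ℕ} [NeZero M] [hq : Fact q.Prime] [NeZero q]
variable (B : ValuationSubring (AlgebraicClosure ℚ)) (hB : B.LiesOverPrime q) (hqM : ¬ q ∣ M)
variable [IsAlgClosed (ResidueField B)]
variable {ζ : Kbˣ} (hζ : IsPrimitiveRoot ζ q)

local notation "kB" => IsLocalRing.ResidueField B
local notation "FtM" => modularFunctionFieldFullC (IsLocalRing.ResidueField B) M

/-- (shortcut instances) -/
local instance (priority := 100000) instAlgebraFtMShortcutTFin :
    Algebra (IsLocalRing.ResidueField B)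
      (modularFunctionFieldFullC (IsLocalRing.ResidueField B) M) :=
  inferInstance
local instance (priority := 100000) instAlgKFMidTFin :
    Algebra (IsLocalRing.ResidueField B) (FMid M B) := inferInstance
local instance (priority := 100000) instAlgFtFMidTFin :
    Algebra (modularFunctionFieldFullC (IsLocalRing.ResidueField B) M) (FMid M B) := inferInstance
local instance (priority := 100000) instTowerMidTFin :
    IsScalarTower (IsLocalRing.ResidueField B)
      (modularFunctionFieldFullC (IsLocalRing.ResidueField B) M) (FMid M B) :=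
  inferInstance

variable (h2 : nuTwo M = 0) (h3 : nuThree M = 0)
  {FZ : SSpM B hB hqM → Type} [∀ e, Field (FZ e)] [∀ e, Algebra (ResidueField B) (FZ e)]
  {KP : Type}

/-- (shortcut instance) -/
local instance (priority := 100000) instFieldFtAllShortcutTFin :
    ∀ v, Field (FtAll B hB hqM hζ FZ v) :=
  inferInstance

/-- (shortcut instance) -/
local instance (priority := 100000) instAlgebraFtAllShortcutTFin :
    ∀ v, Algebra (IsLocalRing.ResidueField B) (FtAll B hB hqM hζ FZ v) :=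
  inferInstance

variable
  (CZ : ∀ e, ConstRed (F := Fb (M * q * q)) (Ft := FZ e) B (residue B))
  (hZc : ∀ e, ((CZ e).O).comap (alpha2 M q : Fb (M * q) →+* Fb (M * q * q)) =
    ringEA B hB hqM h2 h3 e)
  (comp : SSpM B hB hqM → KP → MidM B hB hqM hζ) (comp_surj : ∀ i, ∃ e s, comp e s = i)
  (pMid : ∀ e s, Place (ResidueField B) (FtAll B hB hqM hζ FZ (mid (comp e s))))
  (zT : ∀ e, Place (ResidueField B) (FtAll B hB hqM hζ FZ (ze e)))
  (zK : ∀ e, KP → Place (ResidueField B) (FtAll B hB hqM hζ FZ (ze e)))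
  (zW : ∀ e, Place (ResidueField B) (FtAll B hB hqM hζ FZ (ze e)))
  (pMid_injective : ∀ e s e' s', (⟨mid (comp e s), pMid e s⟩ :
    Σ v, Place (ResidueField B) (FtAll B hB hqM hζ FZ v)) = ⟨mid (comp e' s'), pMid e' s'⟩ →
      e = e' ∧ s = s')
  (zK_injective : ∀ e, Function.Injective (zK e)) (zT_ne_zK : ∀ e s, zT e ≠ zK e s)
  (zW_ne_zT : ∀ e, zW e ≠ zT e) (zW_ne_zK : ∀ e s, zW e ≠ zK e s)
  (nodeTube : Node (SSpM B hB hqM) KP → Set (Place Kb (Fb (M * q * q))))
  (smTube : (Σ v, Place (ResidueField B) (FtAll B hB hqM hζ FZ v)) →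
    Set (Place Kb (Fb (M * q * q))))
  (cover : ∀ P, ∃ y, P ∈ tubeS comp (pInfM B hB hqM) pMid zW (pZeroM B hB hqM) zT zK nodeTube
    smTube y)
  (disjoint : ∀ P y y',
    P ∈ tubeS comp (pInfM B hB hqM) pMid zW (pZeroM B hB hqM) zT zK nodeTube smTube y →
    P ∈ tubeS comp (pInfM B hB hqM) pMid zW (pZeroM B hB hqM) zT zK nodeTube smTube y' → y = y')
  (smInf : ∀ Q : Place (ResidueField B) (FtAll B hB hqM hζ FZ cInf),
    (∀ e, Q ≠ pInfM B hB hqM e) →
    SmoothChart B (CAll B hB hqM hζ CZ cInf).O (CAll B hB hqM hζ CZ cInf).res Q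
      (smTube ⟨cInf, Q⟩))
  (smZero : ∀ Q : Place (ResidueField B) (FtAll B hB hqM hζ FZ SDD.cZero),
    (∀ e, Q ≠ pZeroM B hB hqM e) →
    SmoothChart B (CAll B hB hqM hζ CZ SDD.cZero).O (CAll B hB hqM hζ CZ SDD.cZero).res Q
      (smTube ⟨SDD.cZero, Q⟩))
  (smMid : ∀ (i : MidM B hB hqM hζ) (Q : Place (ResidueField B) (FtAll B hB hqM hζ FZ (mid i))),
    (∀ e s, (⟨mid i, Q⟩ : Σ v, Place (ResidueField B) (FtAll B hB hqM hζ FZ v)) ≠
      ⟨mid (comp e s), pMid e s⟩) →
    SmoothChart B (CAll B hB hqM hζ CZ (mid i)).O (CAll B hB hqM hζ CZ (mid i)).res Q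
      (smTube ⟨mid i, Q⟩))
  (smZe : ∀ (e : SSpM B hB hqM) (Q : Place (ResidueField B) (FtAll B hB hqM hζ FZ (ze e))),
    Q ≠ zW e → Q ≠ zT e → (∀ s, Q ≠ zK e s) →
    SmoothChart B (CAll B hB hqM hζ CZ (ze e)).O (CAll B hB hqM hζ CZ (ze e)).res Q
      (smTube ⟨ze e, Q⟩))
  (chT : ∀ e, NodeChart B (CAll B hB hqM hζ CZ cInf).O (CAll B hB hqM hζ CZ (ze e)).O
    (CAll B hB hqM hζ CZ cInf).res (CAll B hB hqM hζ CZ (ze e)).res (pInfM B hB hqM e) (zT e)
    (nodeTube (nT e)))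
  (chK : ∀ e s, NodeChart B (CAll B hB hqM hζ CZ (mid (comp e s))).O
    (CAll B hB hqM hζ CZ (ze e)).O (CAll B hB hqM hζ CZ (mid (comp e s))).res
    (CAll B hB hqM hζ CZ (ze e)).res (pMid e s) (zK e s) (nodeTube (nk e s)))
  (chW : ∀ e, NodeChart B (CAll B hB hqM hζ CZ (ze e)).O (CAll B hB hqM hζ CZ SDD.cZero).O
    (CAll B hB hqM hζ CZ (ze e)).res (CAll B hB hqM hζ CZ SDD.cZero).res (zW e)
    (pZeroM B hB hqM e) (nodeTube (nW e)))

/-- the abbreviation of `XRaw` with all its arguments -/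
local notation "XR" =>
  XRaw B hB hqM hζ h2 h3 CZ hZc comp comp_surj pMid zT zK zW pMid_injective zK_injective zT_ne_zK
    zW_ne_zT zW_ne_zK nodeTube smTube cover disjoint smInf smZero smMid smZe chT chK chW

/-- `hsm0` of `EquivTubesM.hsmInf_of_shape` for `smTubeM` -/
theorem smTubeM_cInf_empty
    (zeTube : ∀ e : SSpM B hB hqM, Place (IsLocalRing.ResidueField B) (FZ e) →
      Set (Place (AlgebraicClosure ℚ) (Fb (M * q * q))))
    (midTube : MidM B hB hqM hζ → Place (IsLocalRing.ResidueField B) (FMid M B) →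
      Set (Place (AlgebraicClosure ℚ) (Fb (M * q * q))))
    (Q : Place kB FtM)
    (h : ¬ ∀ e : Crossing (chartDataModular B hB hqM), Q ≠ z₁ (chartDataModular B hB hqM) e) :
    smTubeM B hB hqM hζ midTube zeTube ⟨cInf, Q⟩ = ∅ := by
  rw [smTubeM_cInf_eq, cInfTubeM, dif_neg h]

/-- `hsm0` of `EquivTubesM.hsmZero_of_shape` for `smTubeM` -/
theorem smTubeM_cZero_empty
    (zeTube : ∀ e : SSpM B hB hqM, Place (IsLocalRing.ResidueField B) (FZ e) →
      Set (Place (AlgebraicClosure ℚ) (Fb (M * q * q))))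
    (midTube : MidM B hB hqM hζ → Place (IsLocalRing.ResidueField B) (FMid M B) →
      Set (Place (AlgebraicClosure ℚ) (Fb (M * q * q))))
    (Q : Place kB FtM)
    (h : ¬ ∀ e : Crossing (chartDataModular B hB hqM), Q ≠ z₂ (chartDataModular B hB hqM) e) :
    smTubeM B hB hqM hζ midTube zeTube ⟨SDD.cZero, Q⟩ = ∅ := by
  rw [smTubeM_cZero_eq, cZeroTubeM, dif_neg h]

variable {h2 h3 CZ hZc comp comp_surj pMid zT zK zW pMid_injective zK_injective zT_ne_zK zW_ne_zT
  zW_ne_zK nodeTube smTube cover disjoint smInf smZero smMid smZe chT chK chW}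

set_option maxHeartbeats 4000000 in
/-- **(G6-FINAL) The binder `ht` of `modelAt_of_raw_thick` / `modelAt_of_raw`**: for
`X = XRaw …` (`hX := rfl`; `X` and all the arguments of `XRaw` are implicit) with `smTube = smTubeM B hB hqM hζ (midTubeM B hB hqM hζ H) zeTube`
(`hsmT := rfl`), ONE call of `tameProp_of_rawTubes`; the remaining hypotheses are its literal
binders. -/
theorem ht_of_family [Fintype KP] [Fintype (SSpM B hB hqM)] {lam : ℕ}
    {X : CaseInput (F := Fb (M * q * q)) B (MidM B hB hqM hζ) (SSpM B hB hqM) KP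
      (FtAll B hB hqM hζ FZ)}
    (hX : X = XR)
    (H : AtlasHyp (chartDataModular B hB hqM) (jx M q))
    (zeTube : ∀ e : SSpM B hB hqM, Place (IsLocalRing.ResidueField B) (FZ e) →
      Set (Place (AlgebraicClosure ℚ) (Fb (M * q * q))))
    (hsmT : smTube = smTubeM B hB hqM hζ (midTubeM B hB hqM hζ H) zeTube)
    (hZ : ∀ e, RiemannPkg (ResidueField B) (FZ e)) (hlam0 : lam ≠ 0)
    (d : ℕ) (hd : d * Fintype.card KP + 1 = q) (φ : SSpM B hB hqM → SSpM B hB hqM)
    (p : SSpM B hB hqM → Equiv.Perm KP) (hp : ∀ e s s', ∃ n : ℕ, ((p e) ^ n) s = s')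
    -- the push-forward relations
    {ιa : Type*} (vWa vTa : ιa) (vEa : SSpM B hB hqM → ιa)
    (hpa : ∀ (m : ℕ) (z : JZero (M * q * q))
      (D : Divisor.degZero (K := Qb) (F := Fb (M * q * q)))
      (f : Fb (M * q * q)) (u : ∀ v, FtAll B hB hqM hζ FZ v),
      IsGood X.toInput.setup (lam ^ m) z D f u → alphaDown (M * q) q z = 0 →
      ∀ (av bv : Node (SSpM B hB hqM) KP → ResidueField B) (ha0 : ∀ e, av e ≠ 0)
        (hb0 : ∀ e, bv e ≠ 0),
      (∀ e, IsValueAt (X.toInput.setup.s₁ e) (u (X.toInput.setup.src e)) (av e)) →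
      (∀ e, IsValueAt (X.toInput.setup.s₂ e) (u (X.toInput.setup.tgt e)) (bv e)) →
      ∃ κ₀ : ιa → ResidueField B, (∀ v, κ₀ v ≠ 0) ∧
        (∀ e, valH hor av bv (nW e) ^ q * κ₀ (vEa e) = valV hor av bv (nW e) ^ q * κ₀ vWa) ∧
        ∀ e, (valH hor av bv (nT e) * ∏ s, valH hor av bv (nk e s) ^ d) * κ₀ (vEa e) =
          (valV hor av bv (nT e) * ∏ s, valV hor av bv (nk e s) ^ d) * κ₀ vTa)
    {ιb : Type*} (vWb vTb : ιb) (vEb : SSpM B hB hqM → ιb)
    (hpb : ∀ (m : ℕ) (z : JZero (M * q * q))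
      (D : Divisor.degZero (K := Qb) (F := Fb (M * q * q)))
      (f : Fb (M * q * q)) (u : ∀ v, FtAll B hB hqM hζ FZ v),
      IsGood X.toInput.setup (lam ^ m) z D f u → betaDown (M * q) q z = 0 →
      ∀ (av bv : Node (SSpM B hB hqM) KP → ResidueField B) (ha0 : ∀ e, av e ≠ 0)
        (hb0 : ∀ e, bv e ≠ 0),
      (∀ e, IsValueAt (X.toInput.setup.s₁ e) (u (X.toInput.setup.src e)) (av e)) →
      (∀ e, IsValueAt (X.toInput.setup.s₂ e) (u (X.toInput.setup.tgt e)) (bv e)) →
      ∃ κ₀ : ιb → ResidueField B, (∀ v, κ₀ v ≠ 0) ∧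
        (∀ e, valH hor av bv (nT e) ^ q * κ₀ (vEb (φ e)) =
          valV hor av bv (nT e) ^ q * κ₀ vWb) ∧
        ∀ e, (valH hor av bv (nW e) * ∏ s, valH hor av bv (nk e s) ^ d) * κ₀ (vEb (φ e)) =
          (valV hor av bv (nW e) * ∏ s, valV hor av bv (nk e s) ^ d) * κ₀ vTb)
    -- the Kummer places
    (z : SSpM B hB hqM → Place kB FtM)
    (hcop : ∀ e, IsCoprime ((z e).ord (deltaMid B hB hqM)) (fMid M B hB : ℤ))
    (hpM : ∀ e s, toConst (X.comp e s) (X.pMid e s) = MidFamily.pMid B hB hqM z hcop e)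
    -- the tame generator
    (σ0 : GQ) (hσ0 : σ0 ∈ B.inertiaSubgroupIn ℚ)
    (hcomp : ∀ P : Equiv.Perm (MidM B hB hqM hζ),
      (∀ (i : MidM B hB hqM hζ) (y : Fb (M * q * q)),
        galAut (M * q * q) σ0 • y ∈ (P i).ring B hB hqM hζ ↔ y ∈ i.ring B hB hqM hζ) →
      ∀ e s, X.comp e (p e s) = P (X.comp e s))
    -- the tame generator on the vertical components
    (aZe : ∀ e, FZ e ≃ₐ[kB] FZ e)
    (hZe : ∀ e, MapsComp X.toInput.setup (galAut (M * q * q) σ0) (ze e) (ze e) (aZe e))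
    (hzW : ∀ e, placeMap (aZe e) (X.zW e) = X.zW e)
    (hzT : ∀ e, placeMap (aZe e) (X.zT e) = X.zT e)
    (hzK : ∀ e s, placeMap (aZe e) (X.zK e s) = X.zK e (p e s))
    -- the raw tubes
    (hnT : ∀ e, ∀ Pl ∈ nodeTube (nT e), galAut (M * q * q) σ0 • Pl ∈ nodeTube (nT e))
    (hnK : ∀ e s, ∀ Pl ∈ nodeTube (nk e s),
      galAut (M * q * q) σ0 • Pl ∈ nodeTube (nk e (p e s)))
    (hnW : ∀ e, ∀ Pl ∈ nodeTube (nW e), galAut (M * q * q) σ0 • Pl ∈ nodeTube (nW e))
    (hsmZe : ∀ (e : SSpM B hB hqM) (Q : Place kB (FtAll B hB hqM hζ FZ (ze e))),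
      Q ≠ X.zW e → Q ≠ X.zT e → (∀ s, Q ≠ X.zK e s) →
      ∀ Pl ∈ smTube ⟨ze e, Q⟩,
        galAut (M * q * q) σ0 • Pl ∈ smTube ⟨ze e, placeMap (aZe e) Q⟩) :
    S36Plug.TameProp M q lam B X.toInput := by
  have hXC : X.C = CAll B hB hqM hζ CZ := by rw [hX]; rfl
  have hTHf : X.TH = THf X.comp X.pInf X.pMid X.zW X.pZero X.zT X.zK nodeTube smTube := by
    rw [hX]; rfl
  have hTMf : X.TM = TMf X.comp X.pInf X.pMid X.zW X.pZero X.zT X.zK nodeTube smTube := by
    rw [hX]; rfl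
  have hTZf : X.TZ = TZf X.comp X.pInf X.pMid X.zW X.pZero X.zT X.zK nodeTube smTube := by
    rw [hX]; rfl
  have hpInf : X.pInf = pInfM B hB hqM := by rw [hX]; rfl
  have hpZero : X.pZero = pZeroM B hB hqM := by rw [hX]; rfl
  have hS := midSheetHypM B hB hqM hζ h2 h3 H
  have hsm : ∀ (i : MidM B hB hqM hζ) (Q : Place kB (FtAll B hB hqM hζ FZ (mid i))),
      smTube ⟨mid i, Q⟩ = midTubeM B hB hqM hζ H i Q := fun i Q => by rw [hsmT]; rfl
  obtain ⟨P, aMid, hMid, hP⟩ := Fermat.Agent.BR3.MidGal.exists_perm_mid B hB hqM hζ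
    X.toInput.setup (fun i => mid i) (hO_mid B hB hqM hζ CZ X hXC) hσ0
  refine tameProp_of_rawTubes B hB hqM hζ CZ X hXC nodeTube smTube hTHf hTMf hTZf hZ hlam0 d hd φ
    p hp vWa vTa vEa hpa vWb vTb vEb hpb z hcop hpM σ0 hσ0 P aMid hMid (hcomp P hP) aZe hZe hzW hzT
    hzK hnT hnK hnW ?_ ?_
    (hsmMid_tame B hB hqM hζ H smTube CZ hS X hXC hsm σ0 hσ0 P aMid hMid) hsmZe
  · refine hsmInf_of_shape B hB hqM hζ smTube H ?_ ?_ hσ0 X.pInf
    · intro Q h
      rw [hsmT]
      exact smTubeM_cInf B hB hqM hζ (midTubeM B hB hqM hζ H) zeTube H Q h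
    · intro Q h
      rw [hsmT]
      exact smTubeM_cInf_empty B hB hqM hζ zeTube (midTubeM B hB hqM hζ H) Q h
  · refine hsmZero_of_shape B hB hqM hζ smTube H ?_ ?_ hσ0 X.pZero
    · intro Q h
      rw [hsmT]
      exact smTubeM_cZero B hB hqM hζ (midTubeM B hB hqM hζ H) zeTube H Q h
    · intro Q h
      rw [hsmT]
      exact smTubeM_cZero_empty B hB hqM hζ zeTube (midTubeM B hB hqM hζ H) Q h

end Fermat.Agent.BR3.SDD.ModularTameFinal
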