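import Fermat.Agent.BR3.SDD.Tame
import Fermat.Agent.BR3.SDD.Cases
import Fermat.Agent.BR3.SDD.ModularC
import Fermat.Agent.BR3.SDD.ModularGauge
import Fermat.Agent.BR3.GenusHgPlug
import Fermat.Agent.BR3.ThickSDDPlug
import Fermat.Agent.BR3.EquivGlueCases
import Fermat.Agent.BR3.FullPlugSDD

/-!
# Program C (S36), node I7 (integrator), part 11: `S36Plug.ModelAt` from the by-cases inputs

For `(M, q, lam, B)` and `X : SDD.CaseInput B (MidM …) (SSpM …) KP Ft`, `Y : SDD.CaseCircle X …`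
(the flat inputs of the stable model `S''` of `X₀(M q²)`), **`modelAt_of_cases`** assembles the seven
blocks of `S36Plug.modelAt_of_input` from the outputs of their owners:

* (G2) `hFt`;
* (G7) `GenusHgPlug.hg_of_input_modular_tot` (genus of the horizontal components and the number of
  supersingular points are discharged here);
* (G3)+(G4) `ThickSDDPlug.richProp_of_gauges` with the FIXED gauges `gaugeA`, `gaugeB` and
  `EquivGlueCases.trivialAction_of_cases_gen`;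
* (G5) `FullPlugSDD.hkindProp_of_input` (`e₁ = q - 1`) over `S' = SetupOfData.setup (DtM …)`;
* (G6) `SDD.tameProp_of_cases`.
-/

set_option autoImplicit false
set_option linter.style.haveILetI false
set_option linter.unusedSectionVars false
set_option linter.unusedVariables false
set_option synthInstance.maxHeartbeats 400000

open ModularCurve AlgebraicCurve

noncomputable section

namespace Fermat.Agent.BR3.SDD.Modular

open IsLocalRing Fermat.Agent.Jac Fermat.Agent.X0 Fermat.Agent.Red Fermat.Agent.Val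
  Fermat.Agent.BR.SS Fermat.Agent.BR Fermat.Agent.BR.InertiaRed Fermat.Agent.BR.UnramCyclo
  Fermat.Agent.BR2.Filt Fermat.Agent.BR3.FiltMaps Fermat.Agent.BR3.FiltPerm
  Fermat.Agent.BR.LevelTransfer Fermat.Agent.BR2.LevelMaps
  Fermat.Agent.BR3.TorGlue Fermat.Agent.BR3.GeoTor Fermat.Agent.BR3.GeoTorPush
  Fermat.Agent.BR3.GeoFinal Fermat.Agent.BR3.EquivActsSDD Fermat.Agent.BR3.EquivInert
  Fermat.Agent.BR3.InvFiniteUnit
  Fermat.Agent.BR.S0 Fermat.Agent.BR.S0.PointDict Fermat.Agent.BR.S0.RedModular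
  Fermat.Agent.BR2.SetupOfData Fermat.Agent.BR3.FibreProd Fermat.Agent.BR.TwoVal
  Fermat.Agent.BR3.ThickSDDPlug Fermat.Agent.BR3.ThickSDD Fermat.Agent.BR3.SRef.Modular

local notation "Qb" => AlgebraicClosure ℚ

variable {M q : ℕ} [NeZero M] [hq : Fact q.Prime] [NeZero q]
variable (B : ValuationSubring (AlgebraicClosure ℚ)) (hB : B.LiesOverPrime q) (hqM : ¬ q ∣ M)
variable [IsAlgClosed (ResidueField B)]
variable {ζ : Kbˣ} (hζ : IsPrimitiveRoot ζ q)

/-- (shortcut instance) -/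
local instance (priority := 100000) instAlgebraFtMShortcutT :
    Algebra (IsLocalRing.ResidueField B)
      (modularFunctionFieldFullC (IsLocalRing.ResidueField B) M) :=
  inferInstance

/-- The number of supersingular points in the shape of `GenusHgPlug.hg_of_input_modular`. -/
theorem card_SSpM (h2 : nuTwo M = 0) (h3 : nuThree M = 0) [Fintype (SSpM B hB hqM)] :
    (Fintype.card (SSpM B hB hqM) : ℤ) =
      (genusFF Qb (Fb (M * q)) : ℤ) - 2 * (genusFF Qb (Fb M) : ℤ) + 1 := by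
  have h := card_crossing (DtM B hB hqM) h2 h3
  have h' : ((Fintype.card (SSpM B hB hqM) : ℕ) : ℚ) = Fermat.Agent.BR.GenusCount.nodeCount q M := by
    rw [← h]
    congr 1
    exact Fintype.card_congr' rfl |>.trans (by convert rfl)
  exact Fermat.Agent.BR3.GenusHg.card_eq_of_nodeCount M q hqM h'

section Top

variable {KP : Type} [Fintype KP] [Fintype (SSpM B hB hqM)]
  {Ft : Comp (MidM B hB hqM hζ) (SSpM B hB hqM) → Type} [∀ v, Field (Ft v)]
  [∀ v, Algebra (ResidueField B) (Ft v)]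
  (X : CaseInput (F := Fb (M * q * q)) B (MidM B hB hqM hζ) (SSpM B hB hqM) KP Ft)
  {ιT : SSpM B hB hqM → Type} {ιK : SSpM B hB hqM → KP → Type} {ιW : SSpM B hB hqM → Type}
  (Y : CaseCircle X ιT ιK ιW)

/-- **(G7) for the by-cases inputs**: the genus formula of `S''` from the genus `gz` of the vertical
components (`q + 1 ≤ 2 gz + |KP|`), the Riemann–Hurwitz inequality of the middle components for
total ramification over the supersingular points and the surjectivity of every `X.comp e`. -/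
theorem genusProp_of_cases (h2 : nuTwo M = 0) (h3 : nuThree M = 0)
    (hFt : ∀ v, RiemannPkg (ResidueField B) (Ft v)) {gz : ℤ}
    (hgZero : (genusFF (ResidueField B) (Ft cZero) : ℤ) = (genusFF Qb (Fb M) : ℤ))
    (hgInf : (genusFF (ResidueField B) (Ft cInf) : ℤ) = (genusFF Qb (Fb M) : ℤ))
    (hze : ∀ e, (genusFF (ResidueField B) (Ft (ze e)) : ℤ) = gz)
    (hsurj : ∀ e i, ∃ s, X.comp e s = i)
    (dM : MidM B hB hqM hζ → ℤ) (hdM : ∑ i, dM i = (q : ℤ) - 1)
    (hRH : ∀ i, dM i * (2 * (genusFF Qb (Fb M) : ℤ) - 2) +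
        (Fintype.card (SSpM B hB hqM) : ℤ) * (dM i - 1) ≤
      2 * (genusFF (ResidueField B) (Ft (mid i)) : ℤ) - 2)
    (hz : (q : ℤ) + 1 ≤ 2 * gz + (Fintype.card KP : ℤ)) :
    S36Plug.GenusProp M q B Ft KP :=
  Fermat.Agent.BR3.GenusHgPlug.hg_of_input_modular_tot M q X.toInput hqM h2 h3
    (Fermat.Agent.Val.riemannPkg_bar (M * q * q)) hFt hgZero hgInf hze
    (card_SSpM B hB hqM h2 h3) hsurj dM hdM hRH hz

/-- **(G3)+(G4) for the by-cases inputs**, with the fixed gauges `gaugeA`, `gaugeB` and the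
uniformiser `unifSDD q`. -/
theorem richProp_of_cases (h2 : nuTwo M = 0) (h3 : nuThree M = 0)
    {d : ℕ} (hd : d * Fintype.card KP + 1 = q) (κ₀ : SSpM B hB hqM → KP → Qb)
    (hT : ∀ e, (Y.LT e).thick = gaugeA q B hB hqM e)
    (hW : ∀ e, (Y.LW e).thick = (gaugeB q B hB hqM e)⁻¹ * thick (DtM B hB hqM) e)
    (hκ : ∀ e s, B.valuation (κ₀ e s) = 1)
    (hK : ∀ e s, gaugeA q B hB hqM e = κ₀ e s * (Y.LK e s).thick ^ d)
    (hparts : ∀ s ∈ B.inertiaSubgroupIn ℚ, s (unifSDD q) = unifSDD q →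
      (∀ a ∈ cycloField Qb q, s a = a) → (∀ ζ' : Qb, ζ' ^ q = 1 → s ζ' = ζ') →
      ActsTrivially (X.C cInf).O (galAut (M * q * q) s) ∧
      ActsTrivially (X.C cZero).O (galAut (M * q * q) s) ∧
      (∀ i, ActsTrivially (X.C (mid i)).O (galAut (M * q * q) s)) ∧
      (∀ e, ActsTrivially (X.C (ze e)).O (galAut (M * q * q) s)) ∧
      (∀ b Q, ∀ P ∈ X.TH b Q, galAut (M * q * q) s • P ∈ X.TH b Q) ∧
      (∀ i Q, ∀ P ∈ X.TM i Q, galAut (M * q * q) s • P ∈ X.TM i Q) ∧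
      (∀ e Q, ∀ P ∈ X.TZ e Q, galAut (M * q * q) s • P ∈ X.TZ e Q) ∧
      (∀ e, galAut (M * q * q) s • (Y.LT e).u = (Y.LT e).u) ∧
      (∀ e t, galAut (M * q * q) s • (Y.LK e t).u = (Y.LK e t).u) ∧
      ∀ e, galAut (M * q * q) s • (Y.LW e).u = (Y.LW e).u) :
    S36Plug.RichProp M q B X.toInput Y.toCircleData :=
  richProp_of_gauges hq.out (unifSDD_pow hq.out.one_lt) hd (thick (DtM B hB hqM))
    (gaugeA q B hB hqM) (gaugeB q B hB hqM) κ₀ (valuation_thick_DtM B hB hqM h2 h3)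
    (isGaugeA B hB hqM h2 h3) (isGaugeB B hB hqM h2 h3) hT hW hκ hK
    (fun s hs h1 h2' h3' => by
      obtain ⟨hInf, hZero, hMid, hZe, hTH, hTM, hTZ, huT, huK, huW⟩ := hparts s hs h1 h2' h3'
      exact Fermat.Agent.BR3.EquivGlueCases.trivialAction_of_cases_gen X Y _
        (Fermat.Agent.BR3.EquivHoriz.isInertial_gal (M * q * q) B hs) hInf hZero hMid hZe hTH hTM
        hTZ huT huK huW)

/-- **(G5) for the by-cases inputs** (`e₁ = q - 1`), over the two-component model `S'`. -/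
theorem kindProp_of_cases (lam : ℕ) (hlam : lam.Prime) (hqlam : q ≠ lam)
    (hFt : ∀ v, RiemannPkg (ResidueField B) (Ft v))
    (hInf : (X.C cInf).O = w1 M B hB)
    (hZero : (X.C SDD.cZero).O = Fermat.Agent.BR3.CZero.cZero B hB hqM)
    (hMid : ∀ i, (X.C (mid i)).O = i.ring B hB hqM hζ)
    (e₂ : ℕ) (he₂ : e₂ ≠ 0)
    (hvert : ∀ e : SSpM B hB hqM, ∃ s ∈ B.inertiaSubgroupIn ℚ,
      ∃ a : Ft (ze e) ≃ₐ[ResidueField B] Ft (ze e),
        MapsComp X.toInput.setup (galAut (M * q * q) s) (ze e) (ze e) a ∧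
        ∀ x : Pic0 (ResidueField B) (Ft (ze e)), SemilinearAut.ofAlgAut a • x = x → e₂ • x = 0) :
    S36Plug.KindProp M q lam B X.toInput hFt :=
  ⟨q - 1, e₂, by have := hq.out.two_le; omega, he₂,
    Fermat.Agent.BR3.FullPlugSDD.hkindProp_of_input B hB hqM hζ (setup (DtM B hB hqM)) X.toInput lam
      hlam hqlam hFt (fun v => riemannPkg (DtM B hB hqM) v) 0 1 rfl rfl hInf hZero hMid e₂ hvert⟩

/-- **`S36Plug.ModelAt` from the five blocks** for the by-cases inputs `X`, `Y`. -/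
theorem modelAt_of_props (lam : ℕ) (hFt : ∀ v, RiemannPkg (ResidueField B) (Ft v))
    (hg : S36Plug.GenusProp M q B Ft KP)
    (hr : S36Plug.RichProp M q B X.toInput Y.toCircleData)
    (hk : S36Plug.KindProp M q lam B X.toInput hFt)
    (ht : S36Plug.TameProp M q lam B X.toInput) : S36Plug.ModelAt M q lam B :=
  ⟨MidM B hB hqM hζ, SSpM B hB hqM, KP, inferInstance, inferInstance, inferInstance, Ft,
    inferInstance, inferInstance, X.toInput, ιLOf ιT ιK ιW, Y.toCircleData, hFt, hg, hr, hk, ht⟩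

/-- **`S36Plug.ModelAt` from the by-cases inputs and the outputs of the owners** (G2)–(G7). -/
theorem modelAt_of_cases (lam : ℕ) (hlam : lam.Prime) (hqlam : q ≠ lam)
    (h2 : nuTwo M = 0) (h3 : nuThree M = 0)
    -- (G2)
    (hFt : ∀ v, RiemannPkg (ResidueField B) (Ft v))
    -- the rings of the horizontal and middle components
    (hInf : (X.C cInf).O = w1 M B hB)
    (hZero : (X.C SDD.cZero).O = Fermat.Agent.BR3.CZero.cZero B hB hqM)
    (hMid : ∀ i, (X.C (mid i)).O = i.ring B hB hqM hζ)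
    -- (G7)
    {gz : ℤ}
    (hgZero : (genusFF (ResidueField B) (Ft cZero) : ℤ) = (genusFF Qb (Fb M) : ℤ))
    (hgInf : (genusFF (ResidueField B) (Ft cInf) : ℤ) = (genusFF Qb (Fb M) : ℤ))
    (hze : ∀ e, (genusFF (ResidueField B) (Ft (ze e)) : ℤ) = gz)
    (hsurj : ∀ e i, ∃ s, X.comp e s = i)
    (dM : MidM B hB hqM hζ → ℤ) (hdM : ∑ i, dM i = (q : ℤ) - 1)
    (hRH : ∀ i, dM i * (2 * (genusFF Qb (Fb M) : ℤ) - 2) +
        (Fintype.card (SSpM B hB hqM) : ℤ) * (dM i - 1) ≤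
      2 * (genusFF (ResidueField B) (Ft (mid i)) : ℤ) - 2)
    (hz : (q : ℤ) + 1 ≤ 2 * gz + (Fintype.card KP : ℤ))
    -- (G3)
    {d : ℕ} (hd : d * Fintype.card KP + 1 = q) (κ₀ : SSpM B hB hqM → KP → Qb)
    (hT : ∀ e, (Y.LT e).thick = gaugeA q B hB hqM e)
    (hW : ∀ e, (Y.LW e).thick = (gaugeB q B hB hqM e)⁻¹ * thick (DtM B hB hqM) e)
    (hκ : ∀ e s, B.valuation (κ₀ e s) = 1)
    (hK : ∀ e s, gaugeA q B hB hqM e = κ₀ e s * (Y.LK e s).thick ^ d)
    -- (G4)
    (hparts : ∀ s ∈ B.inertiaSubgroupIn ℚ, s (unifSDD q) = unifSDD q →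
      (∀ a ∈ cycloField Qb q, s a = a) → (∀ ζ' : Qb, ζ' ^ q = 1 → s ζ' = ζ') →
      ActsTrivially (X.C cInf).O (galAut (M * q * q) s) ∧
      ActsTrivially (X.C cZero).O (galAut (M * q * q) s) ∧
      (∀ i, ActsTrivially (X.C (mid i)).O (galAut (M * q * q) s)) ∧
      (∀ e, ActsTrivially (X.C (ze e)).O (galAut (M * q * q) s)) ∧
      (∀ b Q, ∀ P ∈ X.TH b Q, galAut (M * q * q) s • P ∈ X.TH b Q) ∧
      (∀ i Q, ∀ P ∈ X.TM i Q, galAut (M * q * q) s • P ∈ X.TM i Q) ∧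
      (∀ e Q, ∀ P ∈ X.TZ e Q, galAut (M * q * q) s • P ∈ X.TZ e Q) ∧
      (∀ e, galAut (M * q * q) s • (Y.LT e).u = (Y.LT e).u) ∧
      (∀ e t, galAut (M * q * q) s • (Y.LK e t).u = (Y.LK e t).u) ∧
      ∀ e, galAut (M * q * q) s • (Y.LW e).u = (Y.LW e).u)
    -- (G5)
    (e₂ : ℕ) (he₂ : e₂ ≠ 0)
    (hvert : ∀ e : SSpM B hB hqM, ∃ s ∈ B.inertiaSubgroupIn ℚ,
      ∃ a : Ft (ze e) ≃ₐ[ResidueField B] Ft (ze e),
        MapsComp X.toInput.setup (galAut (M * q * q) s) (ze e) (ze e) a ∧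
        ∀ x : Pic0 (ResidueField B) (Ft (ze e)), SemilinearAut.ofAlgAut a • x = x → e₂ • x = 0)
    -- (G6)
    (ht : S36Plug.TameProp M q lam B X.toInput) : S36Plug.ModelAt M q lam B :=
  modelAt_of_props B hB hqM hζ X Y lam hFt
    (genusProp_of_cases B hB hqM hζ X h2 h3 hFt hgZero hgInf hze hsurj dM hdM hRH hz)
    (richProp_of_cases B hB hqM hζ X Y h2 h3 hd κ₀ hT hW hκ hK hparts)
    (kindProp_of_cases B hB hqM hζ X lam hlam hqlam hFt hInf hZero hMid e₂ he₂ hvert) ht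

end Top

end Fermat.Agent.BR3.SDD.Modular
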