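import Fermat.Agent.BR3.SDD.ModularTubesMid
import Fermat.Agent.BR3.MidDisj

/-!
# Program C, node (dMM), family form: the raw tubes `midTubeM` of two distinct points of the middle
components over the same point of `can` are disjoint

`MidDisj.midDisj_all` (helper13) against helper2's raw tubes `ModularTubesMid.midTubeM` (the tube
`MidChartAll.midTubeAll` over the non-crossing points, `∅` otherwise):

* **`dMM_midTubeM`** : `P ∈ midTubeM i Q`, `P ∈ midTubeM i' Q'`, `Q.restrict = Q'.restrict` ⇒
  `i = i' ∧ Q = Q'`;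
* **`dMM_M`** : the LITERAL binder `dMM` of `under_modular` / `hcan_modular` / `partition_modular`
  (for `smTube` with `hsm : smTube ⟨mid i, Q⟩ = midTubeM i Q`), **`dMM_plug`** : the literal binder
  `dMM` of `ModularPlug.partition_plug` (stated on `midTube := midTubeM …` directly).
-/

set_option autoImplicit false
set_option linter.style.haveILetI false
set_option linter.unusedSectionVars false
set_option linter.unusedVariables false
set_option synthInstance.maxHeartbeats 400000

open ModularCurve AlgebraicCurve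

noncomputable section

/- S36 build-time patch: file-local shortcut instances. They only shorten instance search;
each is the instance that the search finds anyway (reducible, same terms after unfolding). -/
local instance (priority := 100000) Fermat.Agent.BR3.FastInst.instAlgFullC_SDD_ModularTubesMidDisj
    {k : Type*} [Field k] (N : ℕ) :
    Algebra k ↥(ModularCurve.modularFunctionFieldFullC k N) := inferInstance
local instance (priority := 100000) Fermat.Agent.BR3.FastInst.instFieldFullC_SDD_ModularTubesMidDisj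
    {k : Type*} [Field k] (N : ℕ) :
    Field ↥(ModularCurve.modularFunctionFieldFullC k N) := inferInstance
local instance (priority := 100000) Fermat.Agent.BR3.FastInst.instAlgLaurent_SDD_ModularTubesMidDisj
    {k : Type*} [Field k] : Algebra k (LaurentSeries k) := inferInstance


namespace Fermat.Agent.BR3.SDD.ModularTubesMidDisj

open IsLocalRing Fermat.Agent.Jac Fermat.Agent.X0 Fermat.Agent.Red Fermat.Agent.Val
  Fermat.Agent.BR.SS Fermat.Agent.BR.S0 Fermat.Agent.BR.S0.PointDict
  Fermat.Agent.BR.S0.RedModular Fermat.Agent.BR.S0.RedHyp Fermat.Agent.BR2.SetupOfData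
  Fermat.Agent.BR3.FibreProd Fermat.Agent.BR.TwoVal Fermat.Agent.BR.ValTwo
  Fermat.Agent.BR.ConstRedTwo
  Fermat.Agent.BR3.SRef.Modular Fermat.Agent.BR3.SDD Fermat.Agent.BR3.SDD.Modular
  Fermat.Agent.BR3.SDD.Partition Fermat.Agent.BR3.KummerGenus
  Fermat.Agent.BR3.KummerGenus.MidInst Fermat.Agent.BR3.CoverK Fermat.Agent.BR3.RegAtlas
  Fermat.Agent.BR3.MidChartAll Fermat.Agent.BR3.SDD.ModularTubesMid

local notation "Qb" => AlgebraicClosure ℚ

variable {M q : ℕ} [NeZero M] [hq : Fact q.Prime] [NeZero q]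
variable (B : ValuationSubring (AlgebraicClosure ℚ)) (hB : B.LiesOverPrime q) (hqM : ¬ q ∣ M)
variable [IsAlgClosed (ResidueField B)]
variable {ζ : Kbˣ} (hζ : IsPrimitiveRoot ζ q)

local notation "kB" => IsLocalRing.ResidueField B
local notation "FtM" => modularFunctionFieldFullC (IsLocalRing.ResidueField B) M

/-- (shortcut instances) -/
local instance (priority := 100000) instAlgebraFtMShortcutTMD :
    Algebra (IsLocalRing.ResidueField B)
      (modularFunctionFieldFullC (IsLocalRing.ResidueField B) M) :=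
  inferInstance
local instance (priority := 100000) instAlgKFMidTMD :
    Algebra (IsLocalRing.ResidueField B) (FMid M B) := inferInstance
local instance (priority := 100000) instAlgFtFMidTMD :
    Algebra (modularFunctionFieldFullC (IsLocalRing.ResidueField B) M) (FMid M B) := inferInstance
local instance (priority := 100000) instTowerMidTMD :
    IsScalarTower (IsLocalRing.ResidueField B)
      (modularFunctionFieldFullC (IsLocalRing.ResidueField B) M) (FMid M B) :=
  inferInstance
local instance (priority := 100000) instFieldFtAllTMD {FZ : SSpM B hB hqM → Type}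
    [∀ e, Field (FZ e)] (v : Comp (MidM B hB hqM hζ) (SSpM B hB hqM)) :
    Field (FtAll B hB hqM hζ FZ v) := instFieldFtOf v
local instance (priority := 100000) instAlgFtAllTMD {FZ : SSpM B hB hqM → Type}
    [∀ e, Field (FZ e)] [∀ e, Algebra (IsLocalRing.ResidueField B) (FZ e)]
    (v : Comp (MidM B hB hqM hζ) (SSpM B hB hqM)) :
    Algebra (IsLocalRing.ResidueField B) (FtAll B hB hqM hζ FZ v) := instAlgebraFtOf v

variable (H : AtlasHyp (chartDataModular B hB hqM) (jx M q))

/-- **(dMM) on the raw tubes**: two raw tubes of points of the middle components over the same point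
of `can` which meet belong to the same point. -/
theorem dMM_midTubeM (h2 : nuTwo M = 0) (h3 : nuThree M = 0)
    (i i' : MidM B hB hqM hζ) (Q Q' : Place kB (FMid M B))
    (hu : haveI := finiteDimensional_FMid B hB hqM
      haveI : Algebra.IsIntegral FtM (FMid M B) := Algebra.IsIntegral.of_finite _ _
      Q.restrict FtM = Q'.restrict FtM)
    {P : Place Kb (Fb (M * q * q))}
    (hP : P ∈ midTubeM B hB hqM hζ H i Q) (hP' : P ∈ midTubeM B hB hqM hζ H i' Q') :
    i = i' ∧ Q = Q' := by
  haveI := finiteDimensional_FMid B hB hqM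
  haveI : Algebra.IsIntegral FtM (FMid M B) := Algebra.IsIntegral.of_finite _ _
  by_cases hnc : ∀ e : Crossing (chartDataModular B hB hqM),
      Q.restrict FtM ≠ z₁ (chartDataModular B hB hqM) e
  · by_cases hnc' : ∀ e : Crossing (chartDataModular B hB hqM),
        Q'.restrict FtM ≠ z₁ (chartDataModular B hB hqM) e
    · rw [midTubeM_of_nc B hB hqM hζ H i Q hnc] at hP
      rw [midTubeM_of_nc B hB hqM hζ H i' Q' hnc'] at hP'
      exact Fermat.Agent.BR3.MidDisj.midDisj_all B hB hqM hζ h2 h3 H i i' hnc hnc' hu hP hP'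
    · rw [midTubeM_of_not_nc B hB hqM hζ H i' Q' hnc'] at hP'
      exact absurd hP' (Set.notMem_empty _)
  · rw [midTubeM_of_not_nc B hB hqM hζ H i Q hnc] at hP
    exact absurd hP (Set.notMem_empty _)

section Family

variable {FZ : SSpM B hB hqM → Type} [∀ e, Field (FZ e)] [∀ e, Algebra (ResidueField B) (FZ e)]
  {KP : Type} (comp : SSpM B hB hqM → KP → MidM B hB hqM hζ)
  (pMid : ∀ e s, Place (IsLocalRing.ResidueField B) (FtAll B hB hqM hζ FZ (mid (comp e s))))
  (smTube : (Σ v, Place (IsLocalRing.ResidueField B) (FtAll B hB hqM hζ FZ v)) →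
    Set (Place (AlgebraicClosure ℚ) (Fb (M * q * q))))

/-- **(disj) for the middle components** = the LITERAL binder `dMM` of `under_modular` /
`hcan_modular` / `partition_modular`. -/
theorem dMM_M (h2 : nuTwo M = 0) (h3 : nuThree M = 0)
    (hsm : ∀ (i : MidM B hB hqM hζ) (Q : Place kB (FtAll B hB hqM hζ FZ (mid i))),
      smTube ⟨mid i, Q⟩ = midTubeM B hB hqM hζ H i Q) :
    ∀ i i' (Q : Place kB (FtAll B hB hqM hζ FZ (mid i)))
      (Q' : Place kB (FtAll B hB hqM hζ FZ (mid i'))) P,
      (∀ e s, (⟨mid i, Q⟩ : Σ v, Place kB (FtAll B hB hqM hζ FZ v)) ≠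
        ⟨mid (comp e s), pMid e s⟩) →
      (∀ e s, (⟨mid i', Q'⟩ : Σ v, Place kB (FtAll B hB hqM hζ FZ v)) ≠
        ⟨mid (comp e s), pMid e s⟩) →
      uMidM B hB hqM hζ FZ i Q = uMidM B hB hqM hζ FZ i' Q' → P ∈ smTube ⟨mid i, Q⟩ →
      P ∈ smTube ⟨mid i', Q'⟩ →
      (⟨mid i, Q⟩ : Σ v, Place kB (FtAll B hB hqM hζ FZ v)) = ⟨mid i', Q'⟩ := by
  intro i i' Q Q' P _ _ hu hP hP'
  rw [hsm i Q] at hP
  rw [hsm i' Q'] at hP'
  obtain ⟨rfl, rfl⟩ := dMM_midTubeM B hB hqM hζ H h2 h3 i i' Q Q' hu hP hP'
  rfl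

/-- **(disj) for the middle components** = the LITERAL binder `dMM` of
`ModularPlug.partition_plug` for `midTube := midTubeM B hB hqM hζ H`. -/
theorem dMM_plug (h2 : nuTwo M = 0) (h3 : nuThree M = 0) :
    ∀ i i' (Q : Place kB (FtAll B hB hqM hζ FZ (mid i)))
      (Q' : Place kB (FtAll B hB hqM hζ FZ (mid i'))) P,
      (∀ e s, (⟨mid i, Q⟩ : Σ v, Place kB (FtAll B hB hqM hζ FZ v)) ≠
        ⟨mid (comp e s), pMid e s⟩) →
      (∀ e s, (⟨mid i', Q'⟩ : Σ v, Place kB (FtAll B hB hqM hζ FZ v)) ≠
        ⟨mid (comp e s), pMid e s⟩) →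
      uMidM B hB hqM hζ FZ i Q = uMidM B hB hqM hζ FZ i' Q' →
      P ∈ midTubeM B hB hqM hζ H i Q → P ∈ midTubeM B hB hqM hζ H i' Q' →
      (⟨mid i, Q⟩ : Σ v, Place kB (FtAll B hB hqM hζ FZ v)) = ⟨mid i', Q'⟩ := by
  intro i i' Q Q' P _ _ hu hP hP'
  obtain ⟨rfl, rfl⟩ := dMM_midTubeM B hB hqM hζ H h2 h3 i i' Q Q' hu hP hP'
  rfl

end Family

end Fermat.Agent.BR3.SDD.ModularTubesMidDisj
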