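import Mathlib
import Fermat.Agent.BR3.SDD.ModularZePts
import Fermat.Agent.BR3.SDD.ModularTubes
import Fermat.Agent.BR3.EquivTubesVertModular
import Fermat.Agent.BR3.EquivVert
import Fermat.Agent.BR3.VertEquivUg

/-!
# Program C (S36), (G4) `hrest`: the smooth tubes of the vertical components under the rich inertia

`TZM B hB hqM h2 h3 e Q = ptTube (core (DtM …) e) (gaugeA e) (thetaVertTw M q g_e (gaugeA e)) Q`
(`BR3/SDD/ModularZePts`), `g_e = (zePackM … e).g`.  An inertia element `s` fixing the uniformiser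
`unifSDD q` fixes the gauge `gaugeA e = unifSDD q ^ (q - 1)` and `g_e` (a function of the canonical
model over the unramified constants), hence maps every `TZM e Q` into itself
(`EquivTubesVertModular.smul_mem_TZ_rich`).

* `smul_mem_TZM_rich` : `P ∈ TZM e Q → galAut (M q q) s • P ∈ TZM e Q`;
* **`hsmZe_richM`** : the clause `hsmZe` of `EquivRest.hrest_of_kinds` in LITERAL shape at the
  family `FZM`, `smTubeM … midTube (TZM …)`;
* `smul_mem_TZM_tame`, **`hsmZe_tameM`** : the tame twin (`σ0`): `TZM e Q` goes into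
  `TZM e (placeMap (aZe e) Q)` (`aZe`, `hab`, `haU` of `ModularVert.exists_aZeM`), i.e. the raw
  clause `hsmZe` of `ModularTameFinal.ht_of_family` (the side conditions `Q ≠ zW e`, … are not
  needed).
-/

set_option autoImplicit false
set_option linter.unusedSectionVars false
set_option linter.unusedVariables false
set_option linter.style.haveILetI false
set_option synthInstance.maxHeartbeats 400000

noncomputable section

namespace Fermat.Agent.BR3.SDD.ModularVert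

open Polynomial ModularCurve AlgebraicCurve IsLocalRing
open Fermat.Agent.X0 Fermat.Agent.Val Fermat.Agent.Red Fermat.Agent.Jac
open Fermat.Agent.BR.SS Fermat.Agent.BR.Circle Fermat.Agent.BR.S0 Fermat.Agent.BR.S0.RedModular
open Fermat.Agent.BR.S0.PointDict Fermat.Agent.BR.Final Fermat.Agent.BR.InertiaRed
open Fermat.Agent.BR.UnramCyclo
open Fermat.Agent.BR3.FibreProd Fermat.Agent.BR3.VertResidue Fermat.Agent.BR3.VertResField
open Fermat.Agent.BR3.SSParam Fermat.Agent.BR3.ThickSDDPlug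
open Fermat.Agent.BR2.SetupOfData Fermat.Agent.BR3.SRef
open Fermat.Agent.BR3.SRef.Modular Fermat.Agent.BR3.VertSheet
open Fermat.Agent.BR3.SDD Fermat.Agent.BR3.SDD.Modular

local notation "Qb" => AlgebraicClosure ℚ

variable {M q : ℕ} [NeZero M] [hq : Fact q.Prime] [NeZero q]

/-- (shortcut instance) -/
local instance (priority := 100000) instAlgebraFtMShortcutVertEquiv
    (B : ValuationSubring (AlgebraicClosure ℚ)) :
    Algebra (IsLocalRing.ResidueField B)
      (modularFunctionFieldFullC (IsLocalRing.ResidueField B) M) :=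
  inferInstance

variable (B : ValuationSubring (AlgebraicClosure ℚ)) (hB : B.LiesOverPrime q) (hqM : ¬ q ∣ M)
  [IsAlgClosed (ResidueField B)] [CharP (ResidueField B) q]
  (h2 : nuTwo M = 0) (h3 : nuThree M = 0)

/-- **The raw smooth tubes of `z e` are stable under the inertia elements fixing the
uniformiser `unifSDD q`.** -/
theorem smul_mem_TZM_rich {s : GQ} (hs : s ∈ B.inertiaSubgroupIn ℚ)
    (hs1 : s (unifSDD q) = unifSDD q) (e : SSpM B hB hqM)
    (Q : Place (ResidueField B) (FZM B hB hqM h2 h3 e))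
    {P : Place Qb (Fb (M * q * q))} (hP : P ∈ TZM B hB hqM h2 h3 e Q) :
    galAut (M * q * q) s • P ∈ TZM B hB hqM h2 h3 e Q :=
  Fermat.Agent.BR3.EquivTubesVertModular.smul_mem_TZ_rich (DtM B hB hqM) hs e
    (gauge_ne_zero (C := core (DtM B hB hqM) e) (admA B hB hqM h2 h3 e).1)
    (Fermat.Agent.BR3.EquivVert.apply_gaugeA_of_fixed B hB hqM e hs1)
    (Fermat.Agent.BR3.VertEquivUg.galAut_smul_of_mem_CMod B hB hs
      (zePackM B hB hqM h2 h3 e).P.hg) hP

/-- **The raw smooth tubes of `z e` under the tame generator** `σ` (`σ (ϖ ^ (q - 1)) =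
ζ₀ ^ (q - 1) ϖ ^ (q - 1)`): the tube of `Q` goes into the tube of `placeMap a Q`, for `a` acting on
the generators `b̃`, `Ũ` of `FZM e` by `ξ = (residue of ζ₀ ^ (q - 1))⁻¹` (`a := aZe e`, `hab`, `haU`
of `ModularVert.exists_aZeM`). -/
theorem smul_mem_TZM_tame {σ : GQ} (hσ : σ ∈ B.inertiaSubgroupIn ℚ) {ζ₀ : Qb}
    (hσϖ : σ (unifSDD q ^ (q - 1)) = ζ₀ ^ (q - 1) * unifSDD q ^ (q - 1))
    (e : SSpM B hB hqM)
    (a : FZM B hB hqM h2 h3 e ≃ₐ[ResidueField B] FZM B hB hqM h2 h3 e)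
    (hab : a (AdjoinRoot.of (vertBar q (zePackM B hB hqM h2 h3 e).β
          (zePackM B hB hqM h2 h3 e).ρ)
        (RatFunc.C (zePackM B hB hqM h2 h3 e).β * RatFunc.X)) =
      (resOf B (ζ₀ ^ (q - 1)))⁻¹ • AdjoinRoot.of (vertBar q (zePackM B hB hqM h2 h3 e).β
          (zePackM B hB hqM h2 h3 e).ρ)
        (RatFunc.C (zePackM B hB hqM h2 h3 e).β * RatFunc.X))
    (haU : a (AdjoinRoot.root (vertBar q (zePackM B hB hqM h2 h3 e).β
          (zePackM B hB hqM h2 h3 e).ρ)) =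
      (resOf B (ζ₀ ^ (q - 1)))⁻¹ • AdjoinRoot.root (vertBar q (zePackM B hB hqM h2 h3 e).β
          (zePackM B hB hqM h2 h3 e).ρ))
    (Q : Place (ResidueField B) (FZM B hB hqM h2 h3 e))
    {P : Place Qb (Fb (M * q * q))} (hP : P ∈ TZM B hB hqM h2 h3 e Q) :
    galAut (M * q * q) σ • P ∈ TZM B hB hqM h2 h3 e (Fermat.Agent.BR3.PlaceIso.placeMap a Q) := by
  have ha0 : gaugeA q B hB hqM e ≠ 0 :=
    gauge_ne_zero (C := core (DtM B hB hqM) e) (admA B hB hqM h2 h3 e).1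
  have hσa : σ (gaugeA q B hB hqM e) = ζ₀ ^ (q - 1) * gaugeA q B hB hqM e := hσϖ
  have hθ := Fermat.Agent.BR3.VertEquivMod.theta_galAut (M * q) B ha0 hσa
  exact Fermat.Agent.BR3.EquivTubesVertModular.smul_mem_TZ_tame (DtM B hB hqM) hσ e ha0
    (Fermat.Agent.BR3.VertEquivUg.galAut_smul_of_mem_CMod B hB hσ
      (zePackM B hB hqM h2 h3 e).P.hg) (zePackM B hB hqM h2 h3 e).hβ a
    (by rw [hθ]; exact hab) (by rw [hθ]; exact haU) hP

variable {ζ : Kbˣ} (hζ : IsPrimitiveRoot ζ q)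
  (midTube : MidM B hB hqM hζ → Place (IsLocalRing.ResidueField B) (FMid M B) →
    Set (Place (AlgebraicClosure ℚ) (Fb (M * q * q))))

/-- **The clause `hsmZe` of `EquivRest.hrest_of_kinds`**, literal shape, at the family `FZM`,
`TZM`. -/
theorem hsmZe_richM : ∀ s ∈ B.inertiaSubgroupIn ℚ, s (unifSDD q) = unifSDD q →
    (∀ a ∈ cycloField Qb q, s a = a) → (∀ ζ' : Qb, ζ' ^ q = 1 → s ζ' = ζ') →
    ∀ (e : SSpM B hB hqM)
      (Q : Place (ResidueField B) (FtAll B hB hqM hζ (FZM B hB hqM h2 h3) (ze e))),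
      ∀ P ∈ smTubeM B hB hqM hζ midTube (TZM B hB hqM h2 h3) ⟨ze e, Q⟩,
        galAut (M * q * q) s • P ∈ smTubeM B hB hqM hζ midTube (TZM B hB hqM h2 h3) ⟨ze e, Q⟩ :=
  fun s hs hs1 _ _ e Q P hP => smul_mem_TZM_rich B hB hqM h2 h3 hs hs1 e Q hP

set_option maxHeartbeats 2000000 in
/-- **The raw clause `hsmZe` of `ModularTameFinal.ht_of_family` / `EquivTubeFam.hT_of_raw`** for the
tame generator, at the family `FZM`, `TZM`: `aZe`, `hab`, `haU` as in `ModularVert.exists_aZeM`. -/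
theorem hsmZe_tameM {σ : GQ} (hσ : σ ∈ B.inertiaSubgroupIn ℚ) {ζ₀ : Qb}
    (hσϖ : σ (unifSDD q ^ (q - 1)) = ζ₀ ^ (q - 1) * unifSDD q ^ (q - 1))
    (aZe : ∀ e, FZM B hB hqM h2 h3 e ≃ₐ[ResidueField B] FZM B hB hqM h2 h3 e)
    (hab : ∀ e, aZe e (AdjoinRoot.of (vertBar q (zePackM B hB hqM h2 h3 e).β
          (zePackM B hB hqM h2 h3 e).ρ)
        (RatFunc.C (zePackM B hB hqM h2 h3 e).β * RatFunc.X)) =
      (resOf B (ζ₀ ^ (q - 1)))⁻¹ • AdjoinRoot.of (vertBar q (zePackM B hB hqM h2 h3 e).β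
          (zePackM B hB hqM h2 h3 e).ρ)
        (RatFunc.C (zePackM B hB hqM h2 h3 e).β * RatFunc.X))
    (haU : ∀ e, aZe e (AdjoinRoot.root (vertBar q (zePackM B hB hqM h2 h3 e).β
          (zePackM B hB hqM h2 h3 e).ρ)) =
      (resOf B (ζ₀ ^ (q - 1)))⁻¹ • AdjoinRoot.root (vertBar q (zePackM B hB hqM h2 h3 e).β
          (zePackM B hB hqM h2 h3 e).ρ)) :
    ∀ (e : SSpM B hB hqM)
      (Q : Place (ResidueField B) (FtAll B hB hqM hζ (FZM B hB hqM h2 h3) (ze e))),
      ∀ Pl ∈ smTubeM B hB hqM hζ midTube (TZM B hB hqM h2 h3) ⟨ze e, Q⟩,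
        galAut (M * q * q) σ • Pl ∈ smTubeM B hB hqM hζ midTube (TZM B hB hqM h2 h3)
          ⟨ze e, Fermat.Agent.BR3.PlaceIso.placeMap (aZe e) Q⟩ :=
  fun e Q Pl hPl =>
    (smul_mem_TZM_tame B hB hqM h2 h3 hσ hσϖ e (aZe e) (hab e) (haU e) Q hPl :)

end Fermat.Agent.BR3.SDD.ModularVert
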