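import Fermat.Agent.BR3.SDD.PartitionClosed
import Fermat.Agent.BR3.SDD.ModularNodeT
import Fermat.Agent.BR3.SDD.ModularNodeW

/-!
# Program C (S36), node I7 (PARTITION-CLOSED at the concrete node tubes)

`partition_closed` (`PartitionClosed`) at `tubeT := tubeTM ..` (helper16 `ModularNodeT`: (N1)
`XT := annSheetTM`, `subT := tube_a_nTM`) and `tubeW := tubeWM ..` (helper5 `ModularNodeW`: (N3)
`XW := annSheet_nWM HW`, `subW := tube_a_nWM`, with the named split-sheet hypothesis
`HW : HWM ..` of the wild nodes).  NAMED hypotheses which remain: `HW` and the N2 group on `tubeK`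
(`XK subK dTK dKK`).

* **`partition_closedM`** : `cover ∧ disjoint` of `SDD.Modular.modelAt_of_raw` for
  `nodeTube := nodeTubeM .. (tubeTM ..) tubeK (tubeWM ..)`.
-/

set_option autoImplicit false
set_option linter.style.haveILetI false
set_option linter.unusedSectionVars false
set_option linter.unusedVariables false
set_option synthInstance.maxHeartbeats 400000

open ModularCurve AlgebraicCurve

noncomputable section

/- S36 build-time patch: file-local shortcut instances. They only shorten instance search;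
each is the instance that the search finds anyway (reducible, same terms after unfolding). -/
local instance (priority := 100000) Fermat.Agent.BR3.FastInst.instAlgFullC_SDD_PartitionClosedM
    {k : Type*} [Field k] (N : ℕ) :
    Algebra k ↥(ModularCurve.modularFunctionFieldFullC k N) := inferInstance
local instance (priority := 100000) Fermat.Agent.BR3.FastInst.instFieldFullC_SDD_PartitionClosedM
    {k : Type*} [Field k] (N : ℕ) :
    Field ↥(ModularCurve.modularFunctionFieldFullC k N) := inferInstance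
local instance (priority := 100000) Fermat.Agent.BR3.FastInst.instAlgLaurent_SDD_PartitionClosedM
    {k : Type*} [Field k] : Algebra k (LaurentSeries k) := inferInstance


namespace Fermat.Agent.BR3.SDD.ModularPlug

open IsLocalRing Fermat.Agent.X0 Fermat.Agent.Red Fermat.Agent.Val
  Fermat.Agent.BR.SS Fermat.Agent.BR.Refine Fermat.Agent.BR.Circle Fermat.Agent.BR.P1
  Fermat.Agent.BR.AnnulusRed
  Fermat.Agent.BR.S0 Fermat.Agent.BR.S0.PointDict Fermat.Agent.BR.S0.RedModular
  Fermat.Agent.BR.S0.RedHyp
  Fermat.Agent.BR2.SetupOfData Fermat.Agent.BR3.FibreProd Fermat.Agent.BR3.CircleN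
  Fermat.Agent.BR3.SRef Fermat.Agent.BR3.SRef.Modular Fermat.Agent.BR3.CoverDict
  Fermat.Agent.BR3.SDD.Partition Fermat.Agent.BR3.SDD.Modular Fermat.Agent.BR3.KummerGenus
  Fermat.Agent.BR3.KummerGenus.MidInst Fermat.Agent.BR2.LevelGen Fermat.Agent.BR3.CoverK
  Fermat.Agent.BR.ConstRedTwo Fermat.Agent.BR3.CInfRes Fermat.Agent.BR.TwoVal
  Fermat.Agent.BR3.SDD.ModularEt Fermat.Agent.BR3.SDD.ModularZePart
  Fermat.Agent.BR3.SDD.ModularTubesMid Fermat.Agent.BR3.VertPtsU Fermat.Agent.BR3.IgSq
  Fermat.Agent.BR3.ThickSDDPlug Fermat.Agent.BR3.RegAtlas Fermat.Agent.BR3.SDD.ModularTubesMidDisj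

local notation "Qb" => AlgebraicClosure ℚ

variable {M q : ℕ} [NeZero M] [hq : Fact q.Prime] [NeZero q]
variable (B : ValuationSubring (AlgebraicClosure ℚ)) (hB : B.LiesOverPrime q) (hqM : ¬ q ∣ M)
variable [IsAlgClosed (ResidueField B)] [CharP (ResidueField B) q]
variable {ζ : Kbˣ} (hζ : IsPrimitiveRoot ζ q)
variable (h2 : nuTwo M = 0) (h3 : nuThree M = 0)

local notation "kB" => IsLocalRing.ResidueField B
local notation "FtM" => modularFunctionFieldFullC (IsLocalRing.ResidueField B) M

/-- (shortcut instances) -/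
local instance (priority := 100000) instAlgebraFtMShortcutPCloM :
    Algebra (IsLocalRing.ResidueField B)
      (modularFunctionFieldFullC (IsLocalRing.ResidueField B) M) :=
  inferInstance
local instance (priority := 100000) instAlgKFMidPCloM :
    Algebra (IsLocalRing.ResidueField B) (FMid M B) := inferInstance
local instance (priority := 100000) instAlgFtFMidPCloM :
    Algebra (modularFunctionFieldFullC (IsLocalRing.ResidueField B) M) (FMid M B) := inferInstance
local instance (priority := 100000) instTowerMidPCloM :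
    IsScalarTower (IsLocalRing.ResidueField B)
      (modularFunctionFieldFullC (IsLocalRing.ResidueField B) M) (FMid M B) :=
  inferInstance
local instance (priority := 100000) instFieldFtAllPCloM {FZ : SSpM B hB hqM → Type}
    [∀ e, Field (FZ e)] (v : Comp (MidM B hB hqM hζ) (SSpM B hB hqM)) :
    Field (FtAll B hB hqM hζ FZ v) := instFieldFtOf v
local instance (priority := 100000) instAlgFtAllPCloM {FZ : SSpM B hB hqM → Type}
    [∀ e, Field (FZ e)] [∀ e, Algebra (IsLocalRing.ResidueField B) (FZ e)]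
    (v : Comp (MidM B hB hqM hζ) (SSpM B hB hqM)) :
    Algebra (IsLocalRing.ResidueField B) (FtAll B hB hqM hζ FZ v) := instAlgebraFtOf v

variable (H : AtlasHyp (chartDataModular B hB hqM) (jx M q))
  (comp : SSpM B hB hqM → KPq q → MidM B hB hqM hζ)
  (hcop : ∀ e : SSpM B hB hqM,
    IsCoprime ((z₁ (chartDataModular B hB hqM) e).ord (deltaMid B hB hqM)) (fMid M B hB : ℤ))
  (tubeK : SSpM B hB hqM → KPq q → Set (Place (AlgebraicClosure ℚ) (Fb (M * q * q))))

/-- the Kummer places of the frame -/
local notation "pM" => pMidM B hB hqM hζ comp hcop (FZM B hB hqM h2 h3)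
/-- the raw tubes of the smooth points -/
local notation "sT" =>
  smTubeM B hB hqM hζ (midTubeM B hB hqM hζ H) (TZM B hB hqM h2 h3)
/-- the raw tubes of the nodes -/
local notation "nTb" =>
  nodeTubeM B hB hqM (tubeTM B hB hqM h2 h3) tubeK (tubeWM B hB hqM h2 h3)

set_option maxHeartbeats 3200000 in
/-- **(PARTITION-CLOSED at the concrete node tubes)** `cover ∧ disjoint` of
`SDD.Modular.modelAt_of_raw` for `nodeTube := nodeTubeM .. (tubeTM ..) tubeK (tubeWM ..)`; the named
hypotheses are the split-sheet hypothesis `HW` of the wild nodes and the N2 group. -/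
theorem partition_closedM
    (hsurj : ∀ e i, ∃ s, comp e s = i)
    (pMid_injective : ∀ e s e' s', (⟨mid (comp e s), pM e s⟩ :
      Σ v, Place (ResidueField B) (FtAll B hB hqM hζ (FZM B hB hqM h2 h3) v)) =
        ⟨mid (comp e' s'), pM e' s'⟩ → e = e' ∧ s = s')
    -- the split sheets of the wild nodes
    (HW : HWM B hB hqM h2 h3)
    -- the N2 group on `tubeK`
    (XK : ∀ e s, Nonempty (AnnSheet B (tubeK e s)
      (alpha2 M q (annulusCoord (DtM B hB hqM) e)) (gaugeA q B hB hqM e) (midDeg q)))
    (subK : ∀ e s, ∀ P ∈ tubeK e s, rhoA M q P ∈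
      tube (sref (inputs (DtM B hB hqM)) (gaugeA q B hB hqM) (admA B hB hqM h2 h3))
        (outer (inputs (DtM B hB hqM)) (gaugeA q B hB hqM) (admA B hB hqM h2 h3) e))
    (dTK : ∀ e s P, P ∈ tubeTM B hB hqM h2 h3 e → P ∈ tubeK e s → False)
    (dKK : ∀ e s s' P, P ∈ tubeK e s → P ∈ tubeK e s' → s = s') :
    (∀ P, ∃ y, P ∈ tubeS comp (pInfM B hB hqM) pM (zWM B hB hqM h2 h3) (pZeroM B hB hqM)
      (zTM B hB hqM h2 h3) (zKM B hB hqM h2 h3) nTb sT y) ∧
    ∀ P y y',
      P ∈ tubeS comp (pInfM B hB hqM) pM (zWM B hB hqM h2 h3) (pZeroM B hB hqM)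
        (zTM B hB hqM h2 h3) (zKM B hB hqM h2 h3) nTb sT y →
      P ∈ tubeS comp (pInfM B hB hqM) pM (zWM B hB hqM h2 h3) (pZeroM B hB hqM)
        (zTM B hB hqM h2 h3) (zKM B hB hqM h2 h3) nTb sT y' →
      y = y' :=
  partition_closed B hB hqM hζ h2 h3 H comp hcop (tubeTM B hB hqM h2 h3) tubeK
    (tubeWM B hB hqM h2 h3) hsurj pMid_injective
    (fun e => annSheetTM B hB hqM h2 h3 e)
    (fun e P hP => tube_a_nTM B hB hqM h2 h3 e (isIntegral_alpha2 M q) hP)
    XK subK dTK dKK
    (fun e => annSheet_nWM B hB hqM h2 h3 HW e)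
    (fun e P hP => tube_a_nWM B hB hqM h2 h3 (isIntegral_alpha2 M q)
      (isIntegral_fb (beta2 M q)) e P hP)

end Fermat.Agent.BR3.SDD.ModularPlug
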