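import Fermat.Agent.BR3.SDD.PartitionPlug
import Fermat.Agent.BR3.SDD.PartitionModNodes
import Fermat.Agent.BR3.SDD.PartitionModZe
import Fermat.Agent.BR3.SDD.ModularTubesMid
import Fermat.Agent.BR3.SDD.ModularNodeT
import Fermat.Agent.BR3.MidChartAllFinal

/-!
# Program C (S36), node I7 (PARTITION-FINAL): the partition property of THE raw tubes of `S''`

`partition_plug` (`PartitionPlug`) at THE family of the final call:

* `FZ := FZM B hB hqM h2 h3`, `CZ := CZM ..`, `KP := VertPtsU.KPq q`, `zW zT zK := zWM zTM zKM`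
  (helper5 `ModularZe`, helper20 `ModularZePts`), `pMid := pMidM .. comp hcop (FZM ..)`;
* `smTube := smTubeM .. (midTubeM .. H) (TZM ..)` (helper2 `ModularTubesMid.midTubeM`, helper20
  `TZM`), `nodeTube := nodeTubeM .. (tubeTM ..) tubeK tubeW` (helper16 `ModularNodeT.tubeTM`).

Discharged inside (everything on main): (ze) `uZe hW complZe subZe dZZ` and `hbr` (helper24
`PartitionModZe`), (mid) `regMid hMid_t subMid` (helper2 `regMidFam`, `regMidM_t`, `subMidM` with
helper6's `MidChartAllFinal.hasMidSheetM`), (N1) `subT`, `XT` (helper16 `tube_a_nTM`, `annSheetTM`),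
`hOuter`, `hInner` (helper23 `PartitionModNodes`), `∑ d = q` (`zePts_hd`, `d := midDeg q`).

NAMED hypotheses which remain: `cCirc` (critical circles), `dMM` (two middle sheets), the N2 group on
`tubeK` (`XK subK dTK dKK`), the N3 group on `tubeW` (`XW subW`).

* **`partition_final`** : `cover ∧ disjoint` of `SDD.Modular.modelAt_of_raw` for THE family.
-/

set_option autoImplicit false
set_option linter.style.haveILetI false
set_option linter.unusedSectionVars false
set_option linter.unusedVariables false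
set_option synthInstance.maxHeartbeats 400000

open ModularCurve AlgebraicCurve

noncomputable section

namespace Fermat.Agent.BR3.SDD.ModularPlug

open IsLocalRing Fermat.Agent.X0 Fermat.Agent.Red Fermat.Agent.Val
  Fermat.Agent.BR.SS Fermat.Agent.BR.Refine Fermat.Agent.BR.Circle Fermat.Agent.BR.P1
  Fermat.Agent.BR.AnnulusRed
  Fermat.Agent.BR.S0 Fermat.Agent.BR.S0.PointDict Fermat.Agent.BR.S0.RedModular
  Fermat.Agent.BR.S0.RedHyp
  Fermat.Agent.BR2.SetupOfData Fermat.Agent.BR3.FibreProd Fermat.Agent.BR3.CircleN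
  Fermat.Agent.BR3.SRef Fermat.Agent.BR3.SRef.Modular Fermat.Agent.BR3.CoverDict
  Fermat.Agent.BR3.SDD.Partition Fermat.Agent.BR3.SDD.Modular Fermat.Agent.BR3.KummerGenus
  Fermat.Agent.BR3.KummerGenus.MidInst Fermat.Agent.BR2.LevelGen Fermat.Agent.BR3.CoverK
  Fermat.Agent.BR.ConstRedTwo Fermat.Agent.BR3.CInfRes Fermat.Agent.BR.TwoVal
  Fermat.Agent.BR3.SDD.ModularEt Fermat.Agent.BR3.SDD.ModularZePart
  Fermat.Agent.BR3.SDD.ModularTubesMid Fermat.Agent.BR3.VertPtsU Fermat.Agent.BR3.IgSq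
  Fermat.Agent.BR3.ThickSDDPlug Fermat.Agent.BR3.RegAtlas

local notation "Qb" => AlgebraicClosure ℚ

variable {M q : ℕ} [NeZero M] [hq : Fact q.Prime] [NeZero q]
variable (B : ValuationSubring (AlgebraicClosure ℚ)) (hB : B.LiesOverPrime q) (hqM : ¬ q ∣ M)
variable [IsAlgClosed (ResidueField B)] [CharP (ResidueField B) q]
variable {ζ : Kbˣ} (hζ : IsPrimitiveRoot ζ q)
variable (h2 : nuTwo M = 0) (h3 : nuThree M = 0)

local notation "kB" => IsLocalRing.ResidueField B
local notation "FtM" => modularFunctionFieldFullC (IsLocalRing.ResidueField B) M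

/-- (shortcut instances) -/
local instance (priority := 100000) instAlgebraFtMShortcutPFin :
    Algebra (IsLocalRing.ResidueField B)
      (modularFunctionFieldFullC (IsLocalRing.ResidueField B) M) :=
  inferInstance
local instance (priority := 100000) instAlgKFMidPFin :
    Algebra (IsLocalRing.ResidueField B) (FMid M B) := inferInstance
local instance (priority := 100000) instAlgFtFMidPFin :
    Algebra (modularFunctionFieldFullC (IsLocalRing.ResidueField B) M) (FMid M B) := inferInstance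
local instance (priority := 100000) instTowerMidPFin :
    IsScalarTower (IsLocalRing.ResidueField B)
      (modularFunctionFieldFullC (IsLocalRing.ResidueField B) M) (FMid M B) :=
  inferInstance
local instance (priority := 100000) instFieldFtAllPFin {FZ : SSpM B hB hqM → Type}
    [∀ e, Field (FZ e)] (v : Comp (MidM B hB hqM hζ) (SSpM B hB hqM)) :
    Field (FtAll B hB hqM hζ FZ v) := instFieldFtOf v
local instance (priority := 100000) instAlgFtAllPFin {FZ : SSpM B hB hqM → Type}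
    [∀ e, Field (FZ e)] [∀ e, Algebra (IsLocalRing.ResidueField B) (FZ e)]
    (v : Comp (MidM B hB hqM hζ) (SSpM B hB hqM)) :
    Algebra (IsLocalRing.ResidueField B) (FtAll B hB hqM hζ FZ v) := instAlgebraFtOf v

variable (H : AtlasHyp (chartDataModular B hB hqM) (jx M q))
  (comp : SSpM B hB hqM → KPq q → MidM B hB hqM hζ)
  (hcop : ∀ e : SSpM B hB hqM,
    IsCoprime ((z₁ (chartDataModular B hB hqM) e).ord (deltaMid B hB hqM)) (fMid M B hB : ℤ))
  (tubeK : SSpM B hB hqM → KPq q → Set (Place (AlgebraicClosure ℚ) (Fb (M * q * q))))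
  (tubeW : SSpM B hB hqM → Set (Place (AlgebraicClosure ℚ) (Fb (M * q * q))))

/-- the Kummer places of the frame -/
local notation "pM" => pMidM B hB hqM hζ comp hcop (FZM B hB hqM h2 h3)
/-- the raw tubes of the smooth points -/
local notation "sT" =>
  smTubeM B hB hqM hζ (midTubeM B hB hqM hζ H) (TZM B hB hqM h2 h3)
/-- the raw tubes of the nodes -/
local notation "nTb" => nodeTubeM B hB hqM (tubeTM B hB hqM h2 h3) tubeK tubeW

/-- `1 + ∑ s, midDeg q = q` -/
theorem one_add_sum_midDeg : 1 + ∑ _s : KPq q, midDeg q = q := by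
  have h := hd_KPq hq.out
  rw [Finset.sum_const, Finset.card_univ, smul_eq_mul]
  rw [mul_comm] at h
  omega

set_option maxHeartbeats 6400000 in
/-- **(PARTITION-FINAL) The partition property of THE raw tubes of `S''`** = the arguments `cover`,
`disjoint` of `SDD.Modular.modelAt_of_raw` for THE family of the final call; the named hypotheses
are `cCirc`, `dMM`, the N2 group (`XK subK dTK dKK`) and the N3 group (`XW subW`). -/
theorem partition_final
    (hsurj : ∀ e i, ∃ s, comp e s = i)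
    (pMid_injective : ∀ e s e' s', (⟨mid (comp e s), pM e s⟩ :
      Σ v, Place (ResidueField B) (FtAll B hB hqM hζ (FZM B hB hqM h2 h3) v)) =
        ⟨mid (comp e' s'), pM e' s'⟩ → e = e' ∧ s = s')
    -- the critical circles
    (cCirc : ∀ e, ∀ P, rhoA M q P ∈ circle (inputs (DtM B hB hqM)) (gaugeA q B hB hqM) e →
      ∃ y, (∀ x : Node (SSpM B hB hqM) (KPq q),
          (⟨src comp x, s₁Of comp (pInfM B hB hqM) pM (zWM B hB hqM h2 h3) x⟩ :
            Σ v, Place kB (FtAll B hB hqM hζ (FZM B hB hqM h2 h3) v)) ≠ y) ∧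
        (∀ x : Node (SSpM B hB hqM) (KPq q),
          (⟨tgt x, s₂Of (pZeroM B hB hqM) (zTM B hB hqM h2 h3) (zKM B hB hqM h2 h3) x⟩ :
            Σ v, Place kB (FtAll B hB hqM hζ (FZM B hB hqM h2 h3) v)) ≠ y) ∧ P ∈ sT y)
    -- two middle sheets
    (dMM : ∀ i i' (Q : Place kB (FtAll B hB hqM hζ (FZM B hB hqM h2 h3) (mid i)))
      (Q' : Place kB (FtAll B hB hqM hζ (FZM B hB hqM h2 h3) (mid i'))) P,
      (∀ e s, (⟨mid i, Q⟩ : Σ v, Place kB (FtAll B hB hqM hζ (FZM B hB hqM h2 h3) v)) ≠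
        ⟨mid (comp e s), pM e s⟩) →
      (∀ e s, (⟨mid i', Q'⟩ : Σ v, Place kB (FtAll B hB hqM hζ (FZM B hB hqM h2 h3) v)) ≠
        ⟨mid (comp e s), pM e s⟩) →
      uMidM B hB hqM hζ (FZM B hB hqM h2 h3) i Q = uMidM B hB hqM hζ (FZM B hB hqM h2 h3) i' Q' →
      P ∈ midTubeM B hB hqM hζ H i Q → P ∈ midTubeM B hB hqM hζ H i' Q' →
      (⟨mid i, Q⟩ : Σ v, Place kB (FtAll B hB hqM hζ (FZM B hB hqM h2 h3) v)) = ⟨mid i', Q'⟩)
    -- the N2 group on `tubeK`
    (XK : ∀ e s, Nonempty (AnnSheet B (tubeK e s)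
      (alpha2 M q (annulusCoord (DtM B hB hqM) e)) (gaugeA q B hB hqM e) (midDeg q)))
    (subK : ∀ e s, ∀ P ∈ tubeK e s, rhoA M q P ∈
      tube (sref (inputs (DtM B hB hqM)) (gaugeA q B hB hqM) (admA B hB hqM h2 h3))
        (outer (inputs (DtM B hB hqM)) (gaugeA q B hB hqM) (admA B hB hqM h2 h3) e))
    (dTK : ∀ e s P, P ∈ tubeTM B hB hqM h2 h3 e → P ∈ tubeK e s → False)
    (dKK : ∀ e s s' P, P ∈ tubeK e s → P ∈ tubeK e s' → s = s')
    -- the N3 group on `tubeW`
    (XW : ∀ e, Nonempty (AnnSheet B (tubeW e)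
      (alpha2 M q ((gaugeA q B hB hqM e)⁻¹ • annulusCoord (DtM B hB hqM) e))
      ((gaugeA q B hB hqM e)⁻¹ * thick (DtM B hB hqM) e) q))
    (subW : ∀ e, ∀ P ∈ tubeW e, rhoA M q P ∈
      tube (sref (inputs (DtM B hB hqM)) (gaugeA q B hB hqM) (admA B hB hqM h2 h3))
        (inner (inputs (DtM B hB hqM)) (gaugeA q B hB hqM) (admA B hB hqM h2 h3) e)) :
    (∀ P, ∃ y, P ∈ tubeS comp (pInfM B hB hqM) pM (zWM B hB hqM h2 h3) (pZeroM B hB hqM)
      (zTM B hB hqM h2 h3) (zKM B hB hqM h2 h3) nTb sT y) ∧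
    ∀ P y y',
      P ∈ tubeS comp (pInfM B hB hqM) pM (zWM B hB hqM h2 h3) (pZeroM B hB hqM)
        (zTM B hB hqM h2 h3) (zKM B hB hqM h2 h3) nTb sT y →
      P ∈ tubeS comp (pInfM B hB hqM) pM (zWM B hB hqM h2 h3) (pZeroM B hB hqM)
        (zTM B hB hqM h2 h3) (zKM B hB hqM h2 h3) nTb sT y' →
      y = y' := by
  haveI := finiteDimensional_FMid B hB hqM
  -- the sheet data of the middle components (helper6)
  have hS : MidSheetHyp B hB hqM hζ H := fun b₀ Q'' hnc =>
    Fermat.Agent.BR3.MidChartAllFinal.hasMidSheetM B hB hqM hζ h2 h3 H b₀ Q'' hnc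
  have complMid := complMid_pMid B hB hqM hζ (FZ := FZM B hB hqM h2 h3) comp hcop hsurj
  have hbr := hbr_modular B hB hqM hζ h2 h3 comp pM pMid_injective
  have subT : ∀ e, ∀ P ∈ tubeTM B hB hqM h2 h3 e, rhoA M q P ∈
      tube (sref (inputs (DtM B hB hqM)) (gaugeA q B hB hqM) (admA B hB hqM h2 h3))
        (outer (inputs (DtM B hB hqM)) (gaugeA q B hB hqM) (admA B hB hqM h2 h3) e) :=
    fun e P hP => tube_a_nTM B hB hqM h2 h3 e (isIntegral_alpha2 M q) hP
  refine partition_plug (FZ := FZM B hB hqM h2 h3) (KP := KPq q) B hB hqM hζ h2 h3 comp hcop (zWM B hB hqM h2 h3) (zTM B hB hqM h2 h3)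
    (zKM B hB hqM h2 h3) (tubeTM B hB hqM h2 h3) tubeK tubeW (midTubeM B hB hqM hζ H)
    (TZM B hB hqM h2 h3) (uZeM B hB hqM h2 h3) (CZM B hB hqM h2 h3) hsurj pMid_injective
    (zKM_injective B hB hqM h2 h3) (zTM_ne_zKM B hB hqM h2 h3) (zWM_ne_zTM B hB hqM h2 h3)
    (zWM_ne_zKM B hB hqM h2 h3)
    (hW_modular B hB hqM h2 h3) (complZe_modular B hB hqM h2 h3)
    (subZe_modular B hB hqM hζ h2 h3 sT (fun _ _ => rfl))
    (fun e Q Q' P => dZZ_modular B hB hqM hζ h2 h3 sT (fun _ _ => rfl) e Q Q' P)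
    cCirc subT subK subW dTK dKK
    (hOuter_modular (FZ := FZM B hB hqM h2 h3) (KP := KPq q) B hB hqM hζ h2 h3 comp pM (zWM B hB hqM h2 h3) (zTM B hB hqM h2 h3)
      (zKM B hB hqM h2 h3) nTb sT hbr (fun _ _ => midDeg q)
      (fun _ => one_add_sum_midDeg (q := q))
      (fun e => annSheetTM B hB hqM h2 h3 e) XK subT subK dTK dKK)
    (hInner_modular (FZ := FZM B hB hqM h2 h3) (KP := KPq q) B hB hqM hζ h2 h3 comp pM (zWM B hB hqM h2 h3) (zTM B hB hqM h2 h3)
      (zKM B hB hqM h2 h3) nTb sT hbr XW subW)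
    (regMidFam B hB hqM hζ H comp pM hS complMid)
    ?_
    (subMidM B hB hqM hζ H comp pM sT (fun _ _ => rfl))
    dMM
  -- `hMid_t`
  intro i Q h h'
  exact regMidM_t B hB hqM hζ H hS i Q _

end Fermat.Agent.BR3.SDD.ModularPlug
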