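import Fermat.Agent.BR3.SDD.PartitionCan
import Fermat.Agent.BR3.SDD.PartitionModPts

/-!
# Program C (S36), node I7 (W4-CAN-MOD), part 3: the hypothesis `hcan` of `hcover_modular` from the
inputs which the integrator has anyway

The hypothesis `hcan` of `PartitionMod.hcover_modular` / `cOld_modular` (a fibre of non-branch points
of `S''` over every point `Q'` of `can` which is not supersingular) follows from

* the (sub) and (disj) hypotheses `subInf`, `subMid`, `dIM`, `dMM` of `under_modular` (the SAME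
  terms);
* the smooth charts `smInf`, `smMid` of `SDD.Modular.modelAt_of_raw` (the SAME terms) and the
  charts `C' Q'` of `can` of `S'` (`RegAtlas.regChartCan … .chart`), as soon as the parameter of the
  chart upstairs is the image under `α₂` of the parameter of the chart downstairs (`hInf_t`:
  `CInfChartAll.cInfRegAll_t`; `hMid_t`: the mid sheets SC3/SC4).

* `mid_ne_pMid_of_over` : a point of a middle component over a point of `can` which is not
  supersingular is not a Kummer place;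
* **`hcan_modular`** : the hypothesis `hcan` in the literal binder shape of `hcover_modular`.
-/

set_option autoImplicit false
set_option linter.style.haveILetI false
set_option linter.unusedSectionVars false
set_option linter.unusedVariables false
set_option synthInstance.maxHeartbeats 400000

open ModularCurve AlgebraicCurve

noncomputable section

/- S36 build-time patch: file-local shortcut instances. They only shorten instance search;
each is the instance that the search finds anyway (reducible, same terms after unfolding). -/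
local instance (priority := 100000) Fermat.Agent.BR3.FastInst.instAlgFullC_SDD_PartitionHcan
    {k : Type*} [Field k] (N : ℕ) :
    Algebra k ↥(ModularCurve.modularFunctionFieldFullC k N) := inferInstance
local instance (priority := 100000) Fermat.Agent.BR3.FastInst.instFieldFullC_SDD_PartitionHcan
    {k : Type*} [Field k] (N : ℕ) :
    Field ↥(ModularCurve.modularFunctionFieldFullC k N) := inferInstance
local instance (priority := 100000) Fermat.Agent.BR3.FastInst.instAlgLaurent_SDD_PartitionHcan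
    {k : Type*} [Field k] : Algebra k (LaurentSeries k) := inferInstance


namespace Fermat.Agent.BR3.SDD.Modular

open IsLocalRing Fermat.Agent.X0 Fermat.Agent.Red Fermat.Agent.Val
  Fermat.Agent.BR.SS Fermat.Agent.BR.Refine Fermat.Agent.BR.Circle Fermat.Agent.BR.P1
  Fermat.Agent.BR.AnnulusRed
  Fermat.Agent.BR.S0 Fermat.Agent.BR.S0.PointDict Fermat.Agent.BR.S0.RedModular
  Fermat.Agent.BR2.SetupOfData Fermat.Agent.BR3.FibreProd Fermat.Agent.BR3.CircleN
  Fermat.Agent.BR3.SRef Fermat.Agent.BR3.SRef.Modular Fermat.Agent.BR3.CoverDict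
  Fermat.Agent.BR3.SDD.Partition Fermat.Agent.BR3.KummerGenus
  Fermat.Agent.BR3.KummerGenus.MidInst Fermat.Agent.BR2.LevelGen Fermat.Agent.BR3.CoverK
  Fermat.Agent.BR.ConstRedTwo Fermat.Agent.BR3.CInfRes Fermat.Agent.BR.TwoVal

local notation "Qb" => AlgebraicClosure ℚ

variable {M q : ℕ} [NeZero M] [hq : Fact q.Prime] [NeZero q]
variable (B : ValuationSubring (AlgebraicClosure ℚ)) (hB : B.LiesOverPrime q) (hqM : ¬ q ∣ M)
variable [IsAlgClosed (ResidueField B)]
variable {ζ : Kbˣ} (hζ : IsPrimitiveRoot ζ q)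

local notation "kB" => IsLocalRing.ResidueField B
local notation "FtM" => modularFunctionFieldFullC (IsLocalRing.ResidueField B) M

/-- (shortcut instances) -/
local instance (priority := 100000) instAlgebraFtMShortcutH :
    Algebra (IsLocalRing.ResidueField B)
      (modularFunctionFieldFullC (IsLocalRing.ResidueField B) M) :=
  inferInstance
local instance (priority := 100000) instAlgKFMidH :
    Algebra (IsLocalRing.ResidueField B) (FMid M B) := inferInstance
local instance (priority := 100000) instAlgFtFMidH :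
    Algebra (modularFunctionFieldFullC (IsLocalRing.ResidueField B) M) (FMid M B) := inferInstance
local instance (priority := 100000) instTowerMidH :
    IsScalarTower (IsLocalRing.ResidueField B)
      (modularFunctionFieldFullC (IsLocalRing.ResidueField B) M) (FMid M B) :=
  inferInstance
local instance (priority := 100000) instFieldFtAllH {FZ : SSpM B hB hqM → Type}
    [∀ e, Field (FZ e)] (v : Comp (MidM B hB hqM hζ) (SSpM B hB hqM)) :
    Field (FtAll B hB hqM hζ FZ v) := instFieldFtOf v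
local instance (priority := 100000) instAlgFtAllH {FZ : SSpM B hB hqM → Type}
    [∀ e, Field (FZ e)] [∀ e, Algebra (IsLocalRing.ResidueField B) (FZ e)]
    (v : Comp (MidM B hB hqM hζ) (SSpM B hB hqM)) :
    Algebra (IsLocalRing.ResidueField B) (FtAll B hB hqM hζ FZ v) := instAlgebraFtOf v

variable {FZ : SSpM B hB hqM → Type} [∀ e, Field (FZ e)] [∀ e, Algebra (ResidueField B) (FZ e)]
  {KP : Type} (comp : SSpM B hB hqM → KP → MidM B hB hqM hζ)
  (pMid : ∀ e s, Place (IsLocalRing.ResidueField B) (FtAll B hB hqM hζ FZ (mid (comp e s))))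
  (zW : ∀ e, Place (IsLocalRing.ResidueField B) (FtAll B hB hqM hζ FZ (ze e)))
  (zT : ∀ e, Place (IsLocalRing.ResidueField B) (FtAll B hB hqM hζ FZ (ze e)))
  (zK : ∀ e, KP → Place (IsLocalRing.ResidueField B) (FtAll B hB hqM hζ FZ (ze e)))
  (smTube : (Σ v, Place (IsLocalRing.ResidueField B) (FtAll B hB hqM hζ FZ v)) →
    Set (Place (AlgebraicClosure ℚ) (Fb (M * q * q))))

/-- A point of a middle component over a point of `can` which is not supersingular is not a Kummer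
place. -/
theorem mid_ne_pMid_of_over
    (hMid : ∀ e s, uMidM B hB hqM hζ FZ (comp e s) (pMid e s) =
      z₁ (chartDataModular B hB hqM) e)
    (i : MidM B hB hqM hζ) (Q : Place kB (FtAll B hB hqM hζ FZ (mid i)))
    (hnc : ∀ e, uMidM B hB hqM hζ FZ i Q ≠ z₁ (chartDataModular B hB hqM) e) :
    ∀ e s, (⟨mid i, Q⟩ : Σ v, Place kB (FtAll B hB hqM hζ FZ v)) ≠
      ⟨mid (comp e s), pMid e s⟩ := by
  intro e s h
  have hi : i = comp e s := by
    have h1 : (mid i : Comp (MidM B hB hqM hζ) (SSpM B hB hqM)) = mid (comp e s) :=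
      congrArg Sigma.fst h
    simpa [mid] using h1
  subst hi
  have h2 : Q = pMid e s := eq_of_heq (Sigma.mk.inj_iff.mp h).2
  have h3 := hMid e s
  rw [← h2] at h3
  exact hnc e h3

set_option maxHeartbeats 1600000 in
/-- **(W4-CAN-MOD) The hypothesis `hcan` of `hcover_modular`** from the (sub), (disj) hypotheses of
`under_modular` over the points of `can` and the smooth charts `smInf`, `smMid` of `S''` with
parameter `α₂ t'`. -/
theorem hcan_modular
    (CZ : ∀ e, ConstRed (F := Fb (M * q * q)) (Ft := FZ e) B (residue B))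
    (hMid : ∀ e s, uMidM B hB hqM hζ FZ (comp e s) (pMid e s) =
      z₁ (chartDataModular B hB hqM) e)
    -- (sub)
    (subInf : ∀ Q : Place kB (FtAll B hB hqM hζ FZ cInf), (∀ e, Q ≠ pInfM B hB hqM e) →
      ∀ P ∈ smTube ⟨cInf, Q⟩, (setup (DtM B hB hqM)).r (rhoA M q P) =
        ⟨0, uInfM B hB hqM hζ FZ Q⟩)
    (subMid : ∀ i (Q : Place kB (FtAll B hB hqM hζ FZ (mid i))),
      (∀ e s, (⟨mid i, Q⟩ : Σ v, Place kB (FtAll B hB hqM hζ FZ v)) ≠
        ⟨mid (comp e s), pMid e s⟩) →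
      ∀ P ∈ smTube ⟨mid i, Q⟩, (setup (DtM B hB hqM)).r (rhoA M q P) =
        ⟨0, uMidM B hB hqM hζ FZ i Q⟩)
    -- (disj)
    (dIM : ∀ i (Q : Place kB (FtAll B hB hqM hζ FZ cInf))
      (Q' : Place kB (FtAll B hB hqM hζ FZ (mid i))) P, (∀ e, Q ≠ pInfM B hB hqM e) →
      (∀ e s, (⟨mid i, Q'⟩ : Σ v, Place kB (FtAll B hB hqM hζ FZ v)) ≠
        ⟨mid (comp e s), pMid e s⟩) →
      uInfM B hB hqM hζ FZ Q = uMidM B hB hqM hζ FZ i Q' → P ∈ smTube ⟨cInf, Q⟩ →
      P ∈ smTube ⟨mid i, Q'⟩ → False)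
    (dMM : ∀ i i' (Q : Place kB (FtAll B hB hqM hζ FZ (mid i)))
      (Q' : Place kB (FtAll B hB hqM hζ FZ (mid i'))) P,
      (∀ e s, (⟨mid i, Q⟩ : Σ v, Place kB (FtAll B hB hqM hζ FZ v)) ≠
        ⟨mid (comp e s), pMid e s⟩) →
      (∀ e s, (⟨mid i', Q'⟩ : Σ v, Place kB (FtAll B hB hqM hζ FZ v)) ≠
        ⟨mid (comp e s), pMid e s⟩) →
      uMidM B hB hqM hζ FZ i Q = uMidM B hB hqM hζ FZ i' Q' → P ∈ smTube ⟨mid i, Q⟩ →
      P ∈ smTube ⟨mid i', Q'⟩ →
      (⟨mid i, Q⟩ : Σ v, Place kB (FtAll B hB hqM hζ FZ v)) = ⟨mid i', Q'⟩)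
    -- the charts
    (C' : ∀ Q' : Place kB FtM, (∀ e, Q' ≠ z₁ (chartDataModular B hB hqM) e) →
      SmoothChart B (constRedW1 B hB hqM).O (constRedW1 B hB hqM).res Q'
        {P | (setup (DtM B hB hqM)).r P = ⟨0, Q'⟩})
    (smInf : ∀ Q : Place (ResidueField B) (FtAll B hB hqM hζ FZ cInf),
      (∀ e, Q ≠ pInfM B hB hqM e) →
      SmoothChart B (CAll B hB hqM hζ CZ cInf).O (CAll B hB hqM hζ CZ cInf).res Q
        (smTube ⟨cInf, Q⟩))
    (smMid : ∀ (i : MidM B hB hqM hζ) (Q : Place (ResidueField B) (FtAll B hB hqM hζ FZ (mid i))),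
      (∀ e s, (⟨mid i, Q⟩ : Σ v, Place (ResidueField B) (FtAll B hB hqM hζ FZ v)) ≠
        ⟨mid (comp e s), pMid e s⟩) →
      SmoothChart B (CAll B hB hqM hζ CZ (mid i)).O (CAll B hB hqM hζ CZ (mid i)).res Q
        (smTube ⟨mid i, Q⟩))
    (hInf_t : ∀ (Q : Place kB FtM) (h : ∀ e, Q ≠ z₁ (chartDataModular B hB hqM) e),
      (smInf Q h).t = alpha2 M q (C' Q h).t)
    (hMid_t : ∀ (i : MidM B hB hqM hζ) (Q : Place kB (FtAll B hB hqM hζ FZ (mid i)))
      (h : ∀ e s, (⟨mid i, Q⟩ : Σ v, Place kB (FtAll B hB hqM hζ FZ v)) ≠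
        ⟨mid (comp e s), pMid e s⟩)
      (h' : ∀ e, uMidM B hB hqM hζ FZ i Q ≠ z₁ (chartDataModular B hB hqM) e),
      (smMid i Q h).t = alpha2 M q (C' (uMidM B hB hqM hζ FZ i Q) h').t) :
    ∀ Q' : Place kB FtM, (∀ e, Q' ≠ z₁ (chartDataModular B hB hqM) e) →
      ∃ fib : Set (Σ v, Place kB (FtAll B hB hqM hζ FZ v)),
        FibreOver (setup (DtM B hB hqM)) (rhoA M q) smTube ⟨0, Q'⟩ fib ∧
        ∀ y ∈ fib, (∀ x : Node (SSpM B hB hqM) KP,
            (⟨src comp x, s₁Of comp (pInfM B hB hqM) pMid zW x⟩ :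
              Σ v, Place kB (FtAll B hB hqM hζ FZ v)) ≠ y) ∧
          ∀ x : Node (SSpM B hB hqM) KP,
            (⟨tgt x, s₂Of (pZeroM B hB hqM) zT zK x⟩ :
              Σ v, Place kB (FtAll B hB hqM hζ FZ v)) ≠ y := by
  intro Q' hnc
  -- the points of the middle components over `Q'` are not Kummer places
  have hnb : ∀ i, ∀ Q'' ∈ fibMid B hB hqM Q',
      ∀ e s, (⟨mid i, Q''⟩ : Σ v, Place kB (FtAll B hB hqM hζ FZ v)) ≠
        ⟨mid (comp e s), pMid e s⟩ := fun i Q'' hQ'' =>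
    mid_ne_pMid_of_over B hB hqM hζ comp pMid hMid i Q'' fun e he =>
      hnc e (((mem_fibMid B hB hqM).mp hQ'').symm.trans he)
  have hover : ∀ i, ∀ Q'' ∈ fibMid B hB hqM Q', uMidM B hB hqM hζ FZ i Q'' = Q' :=
    fun i Q'' hQ'' => (mem_fibMid B hB hqM).mp hQ''
  refine ⟨canFib B hB hqM hζ FZ Q', ?_,
    canFib_not_branch B hB hqM hζ comp pMid zW zT zK Q' hnc hMid⟩
  refine fibreOver_can_of_charts B hB hqM hζ smTube Q' (C' Q' hnc) ?_ ?_ ?_ ?_
  · -- (sub)
    intro x hx P hP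
    rcases (mem_canFib B hB hqM hζ).mp hx with rfl | ⟨i, Q'', hQ'', rfl⟩
    · exact subInf Q' hnc P hP
    · have h1 := subMid i Q'' (hnb i Q'' hQ'') P hP
      rw [hover i Q'' hQ''] at h1
      exact h1
  · -- (disj)
    intro x hx y hy P hPx hPy
    rcases (mem_canFib B hB hqM hζ).mp hx with rfl | ⟨i, Q₁, hQ₁, rfl⟩
    · rcases (mem_canFib B hB hqM hζ).mp hy with rfl | ⟨i', Q₂, hQ₂, rfl⟩
      · rfl
      · exact absurd hPy fun hPy => dIM i' Q' Q₂ P hnc (hnb i' Q₂ hQ₂)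
          (hover i' Q₂ hQ₂).symm hPx hPy
    · rcases (mem_canFib B hB hqM hζ).mp hy with rfl | ⟨i', Q₂, hQ₂, rfl⟩
      · exact absurd hPx fun hPx => dIM i Q' Q₁ P hnc (hnb i Q₁ hQ₁)
          (hover i Q₁ hQ₁).symm hPy hPx
      · exact dMM i i' Q₁ Q₂ P (hnb i Q₁ hQ₁) (hnb i' Q₂ hQ₂)
          ((hover i Q₁ hQ₁).trans (hover i' Q₂ hQ₂).symm) hPx hPy
  · -- the chart at the point of `cInf`
    exact ⟨smInf Q' hnc, hInf_t Q' hnc⟩
  · -- the charts at the points of the middle components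
    intro i Q'' hQ''
    have h' : ∀ e, uMidM B hB hqM hζ FZ i Q'' ≠ z₁ (chartDataModular B hB hqM) e := fun e he =>
      hnc e ((hover i Q'' hQ'').symm.trans he)
    refine ⟨smMid i Q'' (hnb i Q'' hQ''), ?_⟩
    have h1 := hMid_t i Q'' (hnb i Q'' hQ'') h'
    rw [h1]
    -- transport along `uMidM i Q'' = Q'`
    have key : ∀ (Q₀ : Place kB FtM) (h₀ : ∀ e, Q₀ ≠ z₁ (chartDataModular B hB hqM) e),
        Q₀ = Q' → (C' Q₀ h₀).t = (C' Q' hnc).t := by
      intro Q₀ h₀ hQ₀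
      subst hQ₀
      rfl
    rw [key _ h' (hover i Q'' hQ'')]

/-! ### the partition property of the raw tubes at the frame -/

section Final

variable [Fintype KP] (h2 : nuTwo M = 0) (h3 : nuThree M = 0)
  (uZero : Place (IsLocalRing.ResidueField B)
      (modularFunctionFieldFullC (IsLocalRing.ResidueField B) M) →
    Place (IsLocalRing.ResidueField B) (modularFunctionFieldFullC (IsLocalRing.ResidueField B) M))
  (uZe : ∀ e : SSpM B hB hqM, Place (IsLocalRing.ResidueField B) (FZ e) →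
    Place (IsLocalRing.ResidueField B) (RatFunc (IsLocalRing.ResidueField B)))
  (nodeTube : Node (SSpM B hB hqM) KP → Set (Place (AlgebraicClosure ℚ) (Fb (M * q * q))))

set_option maxHeartbeats 1600000 in
/-- **(W4) The partition property of the raw tubes of `S''` at the modular frame** = the arguments
`cover`, `disjoint` of `SDD.Modular.modelAt_of_raw` / `Partition.caseInputOfRaw`: `under_modular`
with the raw cover `hcover_modular`, its hypothesis `hcan` being `hcan_modular`. The hypotheses are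
those of `under_modular` (except `hcover`), `het`, `cCirc`, `hOuter`, `hInner` of `hcover_modular`
and the charts of `hcan_modular`. -/
theorem partition_modular
    (CZ : ∀ e, ConstRed (F := Fb (M * q * q)) (Ft := FZ e) B (residue B))
    (hbr : Function.Injective
      (Sum.elim (fun x => (⟨src comp x, s₁Of comp (pInfM B hB hqM) pMid zW x⟩ :
          Σ v, Place kB (FtAll B hB hqM hζ FZ v)))
        (fun x => ⟨tgt x, s₂Of (pZeroM B hB hqM) zT zK x⟩)))
    (hZeroInj : Function.Injective uZero)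
    (hMid : ∀ e s, uMidM B hB hqM hζ FZ (comp e s) (pMid e s) =
      z₁ (chartDataModular B hB hqM) e)
    (hW : ∀ e, uZe e (zW e) = placeAt kB 0)
    (complMid : ∀ i Q e', uMidM B hB hqM hζ FZ i Q = z₁ (chartDataModular B hB hqM) e' →
      ∃ e s, (⟨mid i, Q⟩ : Σ v, Place kB (FtAll B hB hqM hζ FZ v)) =
        ⟨mid (comp e s), pMid e s⟩)
    (complZe : ∀ e Q, uZe e Q = placeAt kB 0 → Q = zW e)
    -- (sub)
    (subT : ∀ e, ∀ P ∈ nodeTube (nT e), rhoA M q P ∈
      tube (sref (inputs (DtM B hB hqM)) (gaugeA q B hB hqM) (admA B hB hqM h2 h3))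
        (outer (inputs (DtM B hB hqM)) (gaugeA q B hB hqM) (admA B hB hqM h2 h3) e))
    (subK : ∀ e s, ∀ P ∈ nodeTube (nk e s), rhoA M q P ∈
      tube (sref (inputs (DtM B hB hqM)) (gaugeA q B hB hqM) (admA B hB hqM h2 h3))
        (outer (inputs (DtM B hB hqM)) (gaugeA q B hB hqM) (admA B hB hqM h2 h3) e))
    (subW : ∀ e, ∀ P ∈ nodeTube (nW e), rhoA M q P ∈
      tube (sref (inputs (DtM B hB hqM)) (gaugeA q B hB hqM) (admA B hB hqM h2 h3))
        (inner (inputs (DtM B hB hqM)) (gaugeA q B hB hqM) (admA B hB hqM h2 h3) e))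
    (subInf : ∀ Q : Place kB (FtAll B hB hqM hζ FZ cInf), (∀ e, Q ≠ pInfM B hB hqM e) →
      ∀ P ∈ smTube ⟨cInf, Q⟩, (setup (DtM B hB hqM)).r (rhoA M q P) =
        ⟨0, uInfM B hB hqM hζ FZ Q⟩)
    (subZero : ∀ Q : Place kB (FtAll B hB hqM hζ FZ cZero), (∀ e, Q ≠ pZeroM B hB hqM e) →
      ∀ P ∈ smTube ⟨cZero, Q⟩, (setup (DtM B hB hqM)).r (rhoA M q P) = ⟨1, uZero Q⟩)
    (subMid : ∀ i (Q : Place kB (FtAll B hB hqM hζ FZ (mid i))),
      (∀ e s, (⟨mid i, Q⟩ : Σ v, Place kB (FtAll B hB hqM hζ FZ v)) ≠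
        ⟨mid (comp e s), pMid e s⟩) →
      ∀ P ∈ smTube ⟨mid i, Q⟩, (setup (DtM B hB hqM)).r (rhoA M q P) =
        ⟨0, uMidM B hB hqM hζ FZ i Q⟩)
    (subZe : ∀ e (Q : Place kB (FtAll B hB hqM hζ FZ (ze e))), Q ≠ zW e → Q ≠ zT e →
      (∀ s, Q ≠ zK e s) → ∀ P ∈ smTube ⟨ze e, Q⟩,
      ∃ c : kB, c ≠ 0 ∧ uZe e Q = placeAt kB c ∧
        rhoA M q P ∈ circle (inputs (DtM B hB hqM)) (gaugeA q B hB hqM) e ∧
        ubar B ((inputs (DtM B hB hqM)).ch e).u (gaugeA q B hB hqM e) (rhoA M q P) = c)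
    -- (disj)
    (dTK : ∀ e s P, P ∈ nodeTube (nT e) → P ∈ nodeTube (nk e s) → False)
    (dKK : ∀ e s s' P, P ∈ nodeTube (nk e s) → P ∈ nodeTube (nk e s') → s = s')
    (dIM : ∀ i (Q : Place kB (FtAll B hB hqM hζ FZ cInf))
      (Q' : Place kB (FtAll B hB hqM hζ FZ (mid i))) P, (∀ e, Q ≠ pInfM B hB hqM e) →
      (∀ e s, (⟨mid i, Q'⟩ : Σ v, Place kB (FtAll B hB hqM hζ FZ v)) ≠
        ⟨mid (comp e s), pMid e s⟩) →
      uInfM B hB hqM hζ FZ Q = uMidM B hB hqM hζ FZ i Q' → P ∈ smTube ⟨cInf, Q⟩ →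
      P ∈ smTube ⟨mid i, Q'⟩ → False)
    (dMM : ∀ i i' (Q : Place kB (FtAll B hB hqM hζ FZ (mid i)))
      (Q' : Place kB (FtAll B hB hqM hζ FZ (mid i'))) P,
      (∀ e s, (⟨mid i, Q⟩ : Σ v, Place kB (FtAll B hB hqM hζ FZ v)) ≠
        ⟨mid (comp e s), pMid e s⟩) →
      (∀ e s, (⟨mid i', Q'⟩ : Σ v, Place kB (FtAll B hB hqM hζ FZ v)) ≠
        ⟨mid (comp e s), pMid e s⟩) →
      uMidM B hB hqM hζ FZ i Q = uMidM B hB hqM hζ FZ i' Q' → P ∈ smTube ⟨mid i, Q⟩ →
      P ∈ smTube ⟨mid i', Q'⟩ →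
      (⟨mid i, Q⟩ : Σ v, Place kB (FtAll B hB hqM hζ FZ v)) = ⟨mid i', Q'⟩)
    (dZZ : ∀ e (Q Q' : Place kB (FtAll B hB hqM hζ FZ (ze e))) P, Q ≠ zW e → Q ≠ zT e →
      (∀ s, Q ≠ zK e s) → Q' ≠ zW e → Q' ≠ zT e → (∀ s, Q' ≠ zK e s) → uZe e Q = uZe e Q' →
      P ∈ smTube ⟨ze e, Q⟩ → P ∈ smTube ⟨ze e, Q'⟩ → Q = Q')
    -- the fibres over `et`, the circles and the nodes of `S'ref_a`
    (het : ∀ Q' : Place kB FtM, (∀ e, Q' ≠ z₂ (chartDataModular B hB hqM) e) →
      ∃ fib : Set (Σ v, Place kB (FtAll B hB hqM hζ FZ v)),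
        FibreOver (setup (DtM B hB hqM)) (rhoA M q) smTube ⟨1, Q'⟩ fib ∧
        ∀ y ∈ fib, (∀ x : Node (SSpM B hB hqM) KP,
            (⟨src comp x, s₁Of comp (pInfM B hB hqM) pMid zW x⟩ :
              Σ v, Place kB (FtAll B hB hqM hζ FZ v)) ≠ y) ∧
          ∀ x : Node (SSpM B hB hqM) KP,
            (⟨tgt x, s₂Of (pZeroM B hB hqM) zT zK x⟩ :
              Σ v, Place kB (FtAll B hB hqM hζ FZ v)) ≠ y)
    (cCirc : ∀ e, ∀ P, rhoA M q P ∈ circle (inputs (DtM B hB hqM)) (gaugeA q B hB hqM) e →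
      ∃ y, (∀ x : Node (SSpM B hB hqM) KP,
          (⟨src comp x, s₁Of comp (pInfM B hB hqM) pMid zW x⟩ :
            Σ v, Place kB (FtAll B hB hqM hζ FZ v)) ≠ y) ∧
        (∀ x : Node (SSpM B hB hqM) KP,
          (⟨tgt x, s₂Of (pZeroM B hB hqM) zT zK x⟩ :
            Σ v, Place kB (FtAll B hB hqM hζ FZ v)) ≠ y) ∧ P ∈ smTube y)
    (hOuter : ∀ e : SSpM B hB hqM,
      FibreOver (sref (inputs (DtM B hB hqM)) (gaugeA q B hB hqM) (admA B hB hqM h2 h3))
        (rhoA M q) (tubeS comp (pInfM B hB hqM) pMid zW (pZeroM B hB hqM) zT zK nodeTube smTube)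
        ⟨(sref (inputs (DtM B hB hqM)) (gaugeA q B hB hqM) (admA B hB hqM h2 h3)).src
            (outer (inputs (DtM B hB hqM)) (gaugeA q B hB hqM) (admA B hB hqM h2 h3) e),
          (sref (inputs (DtM B hB hqM)) (gaugeA q B hB hqM) (admA B hB hqM h2 h3)).s₁
            (outer (inputs (DtM B hB hqM)) (gaugeA q B hB hqM) (admA B hB hqM h2 h3) e)⟩
        (NodeFibres.outerFib comp (pInfM B hB hqM) pMid e :
          Set (Σ v, Place kB (FtAll B hB hqM hζ FZ v))))
    (hInner : ∀ e : SSpM B hB hqM,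
      FibreOver (sref (inputs (DtM B hB hqM)) (gaugeA q B hB hqM) (admA B hB hqM h2 h3))
        (rhoA M q) (tubeS comp (pInfM B hB hqM) pMid zW (pZeroM B hB hqM) zT zK nodeTube smTube)
        ⟨(sref (inputs (DtM B hB hqM)) (gaugeA q B hB hqM) (admA B hB hqM h2 h3)).src
            (inner (inputs (DtM B hB hqM)) (gaugeA q B hB hqM) (admA B hB hqM h2 h3) e),
          (sref (inputs (DtM B hB hqM)) (gaugeA q B hB hqM) (admA B hB hqM h2 h3)).s₁
            (inner (inputs (DtM B hB hqM)) (gaugeA q B hB hqM) (admA B hB hqM h2 h3) e)⟩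
        (NodeFibres.innerFib zW e : Set (Σ v, Place kB (FtAll B hB hqM hζ FZ v))))
    -- the charts over the points of `can`
    (C' : ∀ Q' : Place kB FtM, (∀ e, Q' ≠ z₁ (chartDataModular B hB hqM) e) →
      SmoothChart B (constRedW1 B hB hqM).O (constRedW1 B hB hqM).res Q'
        {P | (setup (DtM B hB hqM)).r P = ⟨0, Q'⟩})
    (smInf : ∀ Q : Place (ResidueField B) (FtAll B hB hqM hζ FZ cInf),
      (∀ e, Q ≠ pInfM B hB hqM e) →
      SmoothChart B (CAll B hB hqM hζ CZ cInf).O (CAll B hB hqM hζ CZ cInf).res Q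
        (smTube ⟨cInf, Q⟩))
    (smMid : ∀ (i : MidM B hB hqM hζ) (Q : Place (ResidueField B) (FtAll B hB hqM hζ FZ (mid i))),
      (∀ e s, (⟨mid i, Q⟩ : Σ v, Place (ResidueField B) (FtAll B hB hqM hζ FZ v)) ≠
        ⟨mid (comp e s), pMid e s⟩) →
      SmoothChart B (CAll B hB hqM hζ CZ (mid i)).O (CAll B hB hqM hζ CZ (mid i)).res Q
        (smTube ⟨mid i, Q⟩))
    (hInf_t : ∀ (Q : Place kB FtM) (h : ∀ e, Q ≠ z₁ (chartDataModular B hB hqM) e),
      (smInf Q h).t = alpha2 M q (C' Q h).t)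
    (hMid_t : ∀ (i : MidM B hB hqM hζ) (Q : Place kB (FtAll B hB hqM hζ FZ (mid i)))
      (h : ∀ e s, (⟨mid i, Q⟩ : Σ v, Place kB (FtAll B hB hqM hζ FZ v)) ≠
        ⟨mid (comp e s), pMid e s⟩)
      (h' : ∀ e, uMidM B hB hqM hζ FZ i Q ≠ z₁ (chartDataModular B hB hqM) e),
      (smMid i Q h).t = alpha2 M q (C' (uMidM B hB hqM hζ FZ i Q) h').t) :
    (∀ P, ∃ y, P ∈ tubeS comp (pInfM B hB hqM) pMid zW (pZeroM B hB hqM) zT zK nodeTube
      smTube y) ∧
    ∀ P y y',
      P ∈ tubeS comp (pInfM B hB hqM) pMid zW (pZeroM B hB hqM) zT zK nodeTube smTube y →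
      P ∈ tubeS comp (pInfM B hB hqM) pMid zW (pZeroM B hB hqM) zT zK nodeTube smTube y' →
      y = y' := by
  have U := under_modular B hB hqM hζ h2 h3 uZero uZe comp pMid zW zT zK nodeTube smTube hbr
    hZeroInj hMid hW complMid complZe subT subK subW subInf subZero subMid subZe dTK dKK dIM dMM dZZ
    (hcover_modular B hB hqM hζ h2 h3 comp pMid zW zT zK nodeTube smTube hbr
      (hcan_modular B hB hqM hζ comp pMid zW zT zK smTube CZ hMid subInf subMid dIM dMM C' smInf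
        smMid hInf_t hMid_t) het cCirc hOuter hInner)
  exact ⟨U.cover, fun P y y' => U.disjoint P y y'⟩

end Final

end Fermat.Agent.BR3.SDD.Modular
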