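import Fermat.Agent.BR3.SDD.ModularTubes
import Fermat.Agent.BR3.SDD.PartitionModEt

/-!
# Program C (S36), node I7 (PARTITION-PLUG): the partition property of the concrete raw tubes

`partition_modular` (`PartitionHcan`) at the concrete raw tubes of the frame
(`smTube := smTubeM .. midTube zeTube`, `nodeTube := nodeTubeM .. tubeT tubeK tubeW`), the Kummer
places `pMid := pMidM .. comp hcop FZ` and `uZero := ModularEt.uZeroM B hB`, with everything which
is on main discharged inside:

* `hbr` (`Partition.branch_injective_of` from the five point binders of `modelAt_of_raw`),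
  `hZeroInj` (`uZeroM_injective`), `hMid`, `complMid` (`hMid_pMid`, `complMid_pMid`);
* `subInf`, `dIM`, `C'`, `smInf`, `hInf_t` (`ModularTubes`: `subInfM`, `dIM_M`, `canChartM`,
  `smInfM`, `hInf_tM`), `subZero`, `het` (helper24's `PartitionModEt` with
  `hsm := smTubeM_cZero`).

The remaining binders are the open owners' ones: (ze) `uZe hW complZe subZe dZZ cCirc`, (nodes)
`subT subK subW dTK dKK hOuter hInner`, (mid) `regMid hMid_t subMid dMM`.

* **`partition_plug`** : `cover ∧ disjoint` of `SDD.Modular.modelAt_of_raw` for the concrete tubes.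
-/

set_option autoImplicit false
set_option linter.style.haveILetI false
set_option linter.unusedSectionVars false
set_option linter.unusedVariables false
set_option synthInstance.maxHeartbeats 400000

open ModularCurve AlgebraicCurve

noncomputable section

/- S36 build-time patch: file-local shortcut instances. They only shorten instance search;
each is the instance that the search finds anyway (reducible, same terms after unfolding). -/
local instance (priority := 100000) Fermat.Agent.BR3.FastInst.instAlgFullC_SDD_PartitionPlug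
    {k : Type*} [Field k] (N : ℕ) :
    Algebra k ↥(ModularCurve.modularFunctionFieldFullC k N) := inferInstance
local instance (priority := 100000) Fermat.Agent.BR3.FastInst.instFieldFullC_SDD_PartitionPlug
    {k : Type*} [Field k] (N : ℕ) :
    Field ↥(ModularCurve.modularFunctionFieldFullC k N) := inferInstance
local instance (priority := 100000) Fermat.Agent.BR3.FastInst.instAlgLaurent_SDD_PartitionPlug
    {k : Type*} [Field k] : Algebra k (LaurentSeries k) := inferInstance


namespace Fermat.Agent.BR3.SDD.ModularPlug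

open IsLocalRing Fermat.Agent.X0 Fermat.Agent.Red Fermat.Agent.Val
  Fermat.Agent.BR.SS Fermat.Agent.BR.Refine Fermat.Agent.BR.Circle Fermat.Agent.BR.P1
  Fermat.Agent.BR.AnnulusRed
  Fermat.Agent.BR.S0 Fermat.Agent.BR.S0.PointDict Fermat.Agent.BR.S0.RedModular
  Fermat.Agent.BR2.SetupOfData Fermat.Agent.BR3.FibreProd Fermat.Agent.BR3.CircleN
  Fermat.Agent.BR3.SRef Fermat.Agent.BR3.SRef.Modular Fermat.Agent.BR3.CoverDict
  Fermat.Agent.BR3.SDD.Partition Fermat.Agent.BR3.SDD.Modular Fermat.Agent.BR3.KummerGenus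
  Fermat.Agent.BR3.KummerGenus.MidInst Fermat.Agent.BR2.LevelGen Fermat.Agent.BR3.CoverK
  Fermat.Agent.BR.ConstRedTwo Fermat.Agent.BR3.CInfRes Fermat.Agent.BR.TwoVal
  Fermat.Agent.BR3.SDD.ModularEt

local notation "Qb" => AlgebraicClosure ℚ

variable {M q : ℕ} [NeZero M] [hq : Fact q.Prime] [NeZero q]
variable (B : ValuationSubring (AlgebraicClosure ℚ)) (hB : B.LiesOverPrime q) (hqM : ¬ q ∣ M)
variable [IsAlgClosed (ResidueField B)]
variable {ζ : Kbˣ} (hζ : IsPrimitiveRoot ζ q)

local notation "kB" => IsLocalRing.ResidueField B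
local notation "FtM" => modularFunctionFieldFullC (IsLocalRing.ResidueField B) M

/-- (shortcut instances) -/
local instance (priority := 100000) instAlgebraFtMShortcutPlug :
    Algebra (IsLocalRing.ResidueField B)
      (modularFunctionFieldFullC (IsLocalRing.ResidueField B) M) :=
  inferInstance
local instance (priority := 100000) instAlgKFMidPlug :
    Algebra (IsLocalRing.ResidueField B) (FMid M B) := inferInstance
local instance (priority := 100000) instAlgFtFMidPlug :
    Algebra (modularFunctionFieldFullC (IsLocalRing.ResidueField B) M) (FMid M B) := inferInstance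
local instance (priority := 100000) instTowerMidPlug :
    IsScalarTower (IsLocalRing.ResidueField B)
      (modularFunctionFieldFullC (IsLocalRing.ResidueField B) M) (FMid M B) :=
  inferInstance
local instance (priority := 100000) instFieldFtAllPlug {FZ : SSpM B hB hqM → Type}
    [∀ e, Field (FZ e)] (v : Comp (MidM B hB hqM hζ) (SSpM B hB hqM)) :
    Field (FtAll B hB hqM hζ FZ v) := instFieldFtOf v
local instance (priority := 100000) instAlgFtAllPlug {FZ : SSpM B hB hqM → Type}
    [∀ e, Field (FZ e)] [∀ e, Algebra (IsLocalRing.ResidueField B) (FZ e)]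
    (v : Comp (MidM B hB hqM hζ) (SSpM B hB hqM)) :
    Algebra (IsLocalRing.ResidueField B) (FtAll B hB hqM hζ FZ v) := instAlgebraFtOf v

variable {FZ : SSpM B hB hqM → Type} [∀ e, Field (FZ e)] [∀ e, Algebra (ResidueField B) (FZ e)]
  {KP : Type} [Fintype KP] (h2 : nuTwo M = 0) (h3 : nuThree M = 0)
  (comp : SSpM B hB hqM → KP → MidM B hB hqM hζ)
  (hcop : ∀ e : SSpM B hB hqM,
    IsCoprime ((z₁ (chartDataModular B hB hqM) e).ord (deltaMid B hB hqM)) (fMid M B hB : ℤ))
  (zW : ∀ e, Place (IsLocalRing.ResidueField B) (FtAll B hB hqM hζ FZ (ze e)))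
  (zT : ∀ e, Place (IsLocalRing.ResidueField B) (FtAll B hB hqM hζ FZ (ze e)))
  (zK : ∀ e, KP → Place (IsLocalRing.ResidueField B) (FtAll B hB hqM hζ FZ (ze e)))
  (tubeT : SSpM B hB hqM → Set (Place (AlgebraicClosure ℚ) (Fb (M * q * q))))
  (tubeK : SSpM B hB hqM → KP → Set (Place (AlgebraicClosure ℚ) (Fb (M * q * q))))
  (tubeW : SSpM B hB hqM → Set (Place (AlgebraicClosure ℚ) (Fb (M * q * q))))
  (midTube : MidM B hB hqM hζ → Place (IsLocalRing.ResidueField B) (FMid M B) →
    Set (Place (AlgebraicClosure ℚ) (Fb (M * q * q))))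
  (zeTube : ∀ e : SSpM B hB hqM, Place (IsLocalRing.ResidueField B) (FZ e) →
    Set (Place (AlgebraicClosure ℚ) (Fb (M * q * q))))
  (uZe : ∀ e : SSpM B hB hqM, Place (IsLocalRing.ResidueField B) (FZ e) →
    Place (IsLocalRing.ResidueField B) (RatFunc (IsLocalRing.ResidueField B)))

/-- the Kummer places of the frame -/
local notation "pM" => pMidM B hB hqM hζ comp hcop FZ
/-- the raw tubes of the smooth points -/
local notation "sT" => smTubeM B hB hqM hζ midTube zeTube
/-- the raw tubes of the nodes -/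
local notation "nTb" => nodeTubeM B hB hqM tubeT tubeK tubeW

set_option maxHeartbeats 3200000 in
/-- **(PARTITION-PLUG) The partition property of the concrete raw tubes of `S''`** = the arguments
`cover`, `disjoint` of `SDD.Modular.modelAt_of_raw` for `nodeTube := nodeTubeM .. tubeT tubeK tubeW`,
`smTube := smTubeM .. midTube zeTube`, `pMid := pMidM .. comp hcop FZ`. -/
theorem partition_plug
    (CZ : ∀ e, ConstRed (F := Fb (M * q * q)) (Ft := FZ e) B (residue B))
    (hsurj : ∀ e i, ∃ s, comp e s = i)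
    -- the five point binders of `modelAt_of_raw`
    (pMid_injective : ∀ e s e' s', (⟨mid (comp e s), pM e s⟩ :
      Σ v, Place (ResidueField B) (FtAll B hB hqM hζ FZ v)) = ⟨mid (comp e' s'), pM e' s'⟩ →
        e = e' ∧ s = s')
    (zK_injective : ∀ e, Function.Injective (zK e)) (zT_ne_zK : ∀ e s, zT e ≠ zK e s)
    (zW_ne_zT : ∀ e, zW e ≠ zT e) (zW_ne_zK : ∀ e s, zW e ≠ zK e s)
    -- (ze)
    (hW : ∀ e, uZe e (zW e) = placeAt kB 0)
    (complZe : ∀ e Q, uZe e Q = placeAt kB 0 → Q = zW e)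
    (subZe : ∀ e (Q : Place kB (FtAll B hB hqM hζ FZ (ze e))), Q ≠ zW e → Q ≠ zT e →
      (∀ s, Q ≠ zK e s) → ∀ P ∈ zeTube e Q,
      ∃ c : kB, c ≠ 0 ∧ uZe e Q = placeAt kB c ∧
        rhoA M q P ∈ circle (inputs (DtM B hB hqM)) (gaugeA q B hB hqM) e ∧
        ubar B ((inputs (DtM B hB hqM)).ch e).u (gaugeA q B hB hqM e) (rhoA M q P) = c)
    (dZZ : ∀ e (Q Q' : Place kB (FtAll B hB hqM hζ FZ (ze e))) P, Q ≠ zW e → Q ≠ zT e →
      (∀ s, Q ≠ zK e s) → Q' ≠ zW e → Q' ≠ zT e → (∀ s, Q' ≠ zK e s) → uZe e Q = uZe e Q' →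
      P ∈ zeTube e Q → P ∈ zeTube e Q' → Q = Q')
    (cCirc : ∀ e, ∀ P, rhoA M q P ∈ circle (inputs (DtM B hB hqM)) (gaugeA q B hB hqM) e →
      ∃ y, (∀ x : Node (SSpM B hB hqM) KP,
          (⟨src comp x, s₁Of comp (pInfM B hB hqM) pM zW x⟩ :
            Σ v, Place kB (FtAll B hB hqM hζ FZ v)) ≠ y) ∧
        (∀ x : Node (SSpM B hB hqM) KP,
          (⟨tgt x, s₂Of (pZeroM B hB hqM) zT zK x⟩ :
            Σ v, Place kB (FtAll B hB hqM hζ FZ v)) ≠ y) ∧ P ∈ sT y)
    -- (nodes)
    (subT : ∀ e, ∀ P ∈ tubeT e, rhoA M q P ∈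
      tube (sref (inputs (DtM B hB hqM)) (gaugeA q B hB hqM) (admA B hB hqM h2 h3))
        (outer (inputs (DtM B hB hqM)) (gaugeA q B hB hqM) (admA B hB hqM h2 h3) e))
    (subK : ∀ e s, ∀ P ∈ tubeK e s, rhoA M q P ∈
      tube (sref (inputs (DtM B hB hqM)) (gaugeA q B hB hqM) (admA B hB hqM h2 h3))
        (outer (inputs (DtM B hB hqM)) (gaugeA q B hB hqM) (admA B hB hqM h2 h3) e))
    (subW : ∀ e, ∀ P ∈ tubeW e, rhoA M q P ∈
      tube (sref (inputs (DtM B hB hqM)) (gaugeA q B hB hqM) (admA B hB hqM h2 h3))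
        (inner (inputs (DtM B hB hqM)) (gaugeA q B hB hqM) (admA B hB hqM h2 h3) e))
    (dTK : ∀ e s P, P ∈ tubeT e → P ∈ tubeK e s → False)
    (dKK : ∀ e s s' P, P ∈ tubeK e s → P ∈ tubeK e s' → s = s')
    (hOuter : ∀ e : SSpM B hB hqM,
      FibreOver (sref (inputs (DtM B hB hqM)) (gaugeA q B hB hqM) (admA B hB hqM h2 h3))
        (rhoA M q) (tubeS comp (pInfM B hB hqM) pM zW (pZeroM B hB hqM) zT zK nTb sT)
        ⟨(sref (inputs (DtM B hB hqM)) (gaugeA q B hB hqM) (admA B hB hqM h2 h3)).src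
            (outer (inputs (DtM B hB hqM)) (gaugeA q B hB hqM) (admA B hB hqM h2 h3) e),
          (sref (inputs (DtM B hB hqM)) (gaugeA q B hB hqM) (admA B hB hqM h2 h3)).s₁
            (outer (inputs (DtM B hB hqM)) (gaugeA q B hB hqM) (admA B hB hqM h2 h3) e)⟩
        (NodeFibres.outerFib comp (pInfM B hB hqM) pM e :
          Set (Σ v, Place kB (FtAll B hB hqM hζ FZ v))))
    (hInner : ∀ e : SSpM B hB hqM,
      FibreOver (sref (inputs (DtM B hB hqM)) (gaugeA q B hB hqM) (admA B hB hqM h2 h3))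
        (rhoA M q) (tubeS comp (pInfM B hB hqM) pM zW (pZeroM B hB hqM) zT zK nTb sT)
        ⟨(sref (inputs (DtM B hB hqM)) (gaugeA q B hB hqM) (admA B hB hqM h2 h3)).src
            (inner (inputs (DtM B hB hqM)) (gaugeA q B hB hqM) (admA B hB hqM h2 h3) e),
          (sref (inputs (DtM B hB hqM)) (gaugeA q B hB hqM) (admA B hB hqM h2 h3)).s₁
            (inner (inputs (DtM B hB hqM)) (gaugeA q B hB hqM) (admA B hB hqM h2 h3) e)⟩
        (NodeFibres.innerFib zW e : Set (Σ v, Place kB (FtAll B hB hqM hζ FZ v))))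
    -- (mid)
    (regMid : ∀ (i : MidM B hB hqM hζ) (Q : Place kB (FtAll B hB hqM hζ FZ (mid i))),
      (∀ e s, (⟨mid i, Q⟩ : Σ v, Place kB (FtAll B hB hqM hζ FZ v)) ≠
        ⟨mid (comp e s), pM e s⟩) →
      RegChart B (CM B hB hqM hζ i).O (CM B hB hqM hζ i).res Q (midTube i Q))
    (hMid_t : ∀ (i : MidM B hB hqM hζ) (Q : Place kB (FtAll B hB hqM hζ FZ (mid i)))
      (h : ∀ e s, (⟨mid i, Q⟩ : Σ v, Place kB (FtAll B hB hqM hζ FZ v)) ≠
        ⟨mid (comp e s), pM e s⟩)
      (h' : ∀ e, uMidM B hB hqM hζ FZ i Q ≠ z₁ (chartDataModular B hB hqM) e),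
      (regMid i Q h).chart.t =
        alpha2 M q (canChartM B hB hqM (uMidM B hB hqM hζ FZ i Q) h').t)
    (subMid : ∀ i (Q : Place kB (FtAll B hB hqM hζ FZ (mid i))),
      (∀ e s, (⟨mid i, Q⟩ : Σ v, Place kB (FtAll B hB hqM hζ FZ v)) ≠
        ⟨mid (comp e s), pM e s⟩) →
      ∀ P ∈ midTube i Q, (setup (DtM B hB hqM)).r (rhoA M q P) =
        ⟨0, uMidM B hB hqM hζ FZ i Q⟩)
    (dMM : ∀ i i' (Q : Place kB (FtAll B hB hqM hζ FZ (mid i)))
      (Q' : Place kB (FtAll B hB hqM hζ FZ (mid i'))) P,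
      (∀ e s, (⟨mid i, Q⟩ : Σ v, Place kB (FtAll B hB hqM hζ FZ v)) ≠
        ⟨mid (comp e s), pM e s⟩) →
      (∀ e s, (⟨mid i', Q'⟩ : Σ v, Place kB (FtAll B hB hqM hζ FZ v)) ≠
        ⟨mid (comp e s), pM e s⟩) →
      uMidM B hB hqM hζ FZ i Q = uMidM B hB hqM hζ FZ i' Q' → P ∈ midTube i Q →
      P ∈ midTube i' Q' →
      (⟨mid i, Q⟩ : Σ v, Place kB (FtAll B hB hqM hζ FZ v)) = ⟨mid i', Q'⟩) :
    (∀ P, ∃ y, P ∈ tubeS comp (pInfM B hB hqM) pM zW (pZeroM B hB hqM) zT zK nTb sT y) ∧
    ∀ P y y',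
      P ∈ tubeS comp (pInfM B hB hqM) pM zW (pZeroM B hB hqM) zT zK nTb sT y →
      P ∈ tubeS comp (pInfM B hB hqM) pM zW (pZeroM B hB hqM) zT zK nTb sT y' →
      y = y' :=
  partition_modular B hB hqM hζ comp pM zW zT zK sT h2 h3 (uZeroM B hB) uZe nTb CZ
    (branch_injective_of comp (pInfM B hB hqM) pM zW (pZeroM B hB hqM) zT zK
      (pInfM_injective B hB hqM h2 h3) (pZeroM_injective B hB hqM h2 h3) pMid_injective
      zK_injective zT_ne_zK zW_ne_zT zW_ne_zK)
    (uZeroM_injective B hB)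
    (hMid_pMid B hB hqM hζ comp hcop)
    hW
    (complMid_pMid B hB hqM hζ comp hcop hsurj)
    complZe subT subK subW
    (subInfM B hB hqM hζ midTube zeTube)
    (subZero_modular B hB hqM hζ sT (atlas (DtM B hB hqM))
      (smTubeM_cZero B hB hqM hζ midTube zeTube (atlas (DtM B hB hqM))))
    subMid subZe dTK dKK
    (dIM_M B hB hqM hζ comp pM midTube zeTube regMid subMid)
    dMM dZZ
    (het_modular B hB hqM hζ comp pM zW zT zK sT (atlas (DtM B hB hqM))
      (smTubeM_cZero B hB hqM hζ midTube zeTube (atlas (DtM B hB hqM))))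
    cCirc hOuter hInner
    (canChartM B hB hqM) (smInfM B hB hqM hζ CZ midTube zeTube)
    (fun i Q h => (regMid i Q h).chart)
    (hInf_tM B hB hqM hζ CZ midTube zeTube) hMid_t

end Fermat.Agent.BR3.SDD.ModularPlug
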