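import Fermat.Agent.BR3.S36Plug
import Fermat.Agent.BR3.GeoTorData
import Fermat.Agent.BR3.EquivActsSDD
import Fermat.Agent.BR3.EquivActsComp
import Fermat.Agent.BR3.SDD.Tubes

/-!
# Program C (S36), node I7 (integrator), part 10: (G6) for the named inputs of `S''`

`I : SDD.Input (F := Fb (M * q * q)) B Mid SSp KP Ft` the named inputs of the stable model `S''`.

* `hcochProp_of_rel` : `S36Plug.HcochProp M q lam B I d φ p` (the argument `hcoch` of
  `S36Plug.modelAt_of_input`) from the push-forward relations along `α`, `β` (in the shape of the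
  conclusion of `PushShapes.push_relations`) and the action of ONE element `σ0` of the inertia
  group on `S''` (`TorGlue.ActsOn`) with its node map;
* `hcochProp_of_data` : the same with the push-forward relations discharged by
  `PushShapes.push_relations` for `(Sa, heckeAlphaBar)` and `(Sb, heckeBetaBar)` (the hypotheses
  are those of `GeoTorData.h3_of_data`, the graph being that of `SDD`);
* `hcochProp_of_cases` : the same with `ActsOn` discharged by `EquivActsSDD.actsOn_input`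
  (`pι = compPerm P`, node map `nodeMap p`), `hcomp` by `EquivActsComp.hcomp_of_hs₁`;
* `tameProp_of_cases` : `S36Plug.TameProp M q lam B I`.
-/

set_option autoImplicit false
set_option linter.style.haveILetI false
set_option linter.unusedSectionVars false
set_option linter.unusedVariables false

open ModularCurve AlgebraicCurve

noncomputable section

namespace Fermat.Agent.BR3.SDD

open IsLocalRing Fermat.Agent.Jac Fermat.Agent.X0 Fermat.Agent.Red Fermat.Agent.BR.SS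
  Fermat.Agent.BR Fermat.Agent.BR.PicFunct
  Fermat.Agent.BR2.Filt Fermat.Agent.BR3.FiltMaps Fermat.Agent.BR3.FiltPerm
  Fermat.Agent.BR.LevelTransfer Fermat.Agent.BR2.LevelMaps Fermat.Agent.BR3.G5Multi
  Fermat.Agent.BR3.TorGlue Fermat.Agent.BR3.GeoTor Fermat.Agent.BR3.GeoTorPush
  Fermat.Agent.BR3.GeoFinal Fermat.Agent.BR3.EquivActsSDD

local notation "Qb" => AlgebraicClosure ℚ

variable {M q lam : ℕ} [NeZero M] [NeZero q] {B : ValuationSubring Qb}
  [IsAlgClosed (ResidueField B)] {Mid SSp KP : Type} [Fintype Mid] [Fintype SSp] [Fintype KP]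
  {Ft : Comp Mid SSp → Type} [∀ v, Field (Ft v)] [∀ v, Algebra (ResidueField B) (Ft v)]
  (I : Input (F := Fb (M * q * q)) B Mid SSp KP Ft)

/-- **(G6), relation form**: `hcoch` for `S'' = I.setup` from the push-forward relations along `α`,
`β` and the action of one inertia element `σ0` with node map `pν`. -/
theorem hcochProp_of_rel (hFt : ∀ v, RiemannPkg (ResidueField B) (Ft v)) (hlam0 : lam ≠ 0)
    (d : ℕ) (φ : SSp → SSp) (P : Equiv.Perm Mid) (p : SSp → Equiv.Perm KP)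
    (hcomp : ∀ e s, I.comp e (p e s) = P (I.comp e s))
    -- the push-forward relations along `α`
    {ιa : Type*} (vWa vTa : ιa) (vEa : SSp → ιa)
    (hpa : ∀ (m : ℕ) (z : JZero (M * q * q))
      (D : Divisor.degZero (K := Qb) (F := Fb (M * q * q)))
      (f : Fb (M * q * q)) (u : ∀ v, Ft v), IsGood I.setup (lam ^ m) z D f u →
      alphaDown (M * q) q z = 0 →
      ∀ (av bv : Node SSp KP → ResidueField B) (ha0 : ∀ e, av e ≠ 0) (hb0 : ∀ e, bv e ≠ 0),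
      (∀ e, IsValueAt (I.setup.s₁ e) (u (I.setup.src e)) (av e)) →
      (∀ e, IsValueAt (I.setup.s₂ e) (u (I.setup.tgt e)) (bv e)) →
      ∃ κ₀ : ιa → ResidueField B, (∀ v, κ₀ v ≠ 0) ∧
        (∀ e, valH hor av bv (nW e) ^ q * κ₀ (vEa e) = valV hor av bv (nW e) ^ q * κ₀ vWa) ∧
        ∀ e, (valH hor av bv (nT e) * ∏ s, valH hor av bv (nk e s) ^ d) * κ₀ (vEa e) =
          (valV hor av bv (nT e) * ∏ s, valV hor av bv (nk e s) ^ d) * κ₀ vTa)
    -- the push-forward relations along `β`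
    {ιb : Type*} (vWb vTb : ιb) (vEb : SSp → ιb)
    (hpb : ∀ (m : ℕ) (z : JZero (M * q * q))
      (D : Divisor.degZero (K := Qb) (F := Fb (M * q * q)))
      (f : Fb (M * q * q)) (u : ∀ v, Ft v), IsGood I.setup (lam ^ m) z D f u →
      betaDown (M * q) q z = 0 →
      ∀ (av bv : Node SSp KP → ResidueField B) (ha0 : ∀ e, av e ≠ 0) (hb0 : ∀ e, bv e ≠ 0),
      (∀ e, IsValueAt (I.setup.s₁ e) (u (I.setup.src e)) (av e)) →
      (∀ e, IsValueAt (I.setup.s₂ e) (u (I.setup.tgt e)) (bv e)) →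
      ∃ κ₀ : ιb → ResidueField B, (∀ v, κ₀ v ≠ 0) ∧
        (∀ e, valH hor av bv (nT e) ^ q * κ₀ (vEb (φ e)) =
          valV hor av bv (nT e) ^ q * κ₀ vWb) ∧
        ∀ e, (valH hor av bv (nW e) * ∏ s, valH hor av bv (nk e s) ^ d) * κ₀ (vEb (φ e)) =
          (valV hor av bv (nW e) * ∏ s, valV hor av bv (nk e s) ^ d) * κ₀ vTb)
    -- the tame generator
    (σ0 : GQ) (hσ0 : σ0 ∈ B.inertiaSubgroupIn ℚ) (pι : Equiv.Perm (Comp Mid SSp))
    (a' : ∀ v, Ft v ≃ₐ[ResidueField B] Ft (pι v))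
    (hAct : ActsOn I.setup (galAut (M * q * q) σ0) pι a')
    (pν : Node SSp KP → Node SSp KP)
    (hs₁ : ∀ e, (⟨I.setup.src (pν e), I.setup.s₁ (pν e)⟩ :
      Σ v, Place (ResidueField B) (Ft v)) = sigmaMap pι a' ⟨I.setup.src e, I.setup.s₁ e⟩)
    (hs₂ : ∀ e, (⟨I.setup.tgt (pν e), I.setup.s₂ (pν e)⟩ :
      Σ v, Place (ResidueField B) (Ft v)) = sigmaMap pι a' ⟨I.setup.tgt e, I.setup.s₂ e⟩)
    (hpor : ∀ e, hor (pν e) = hor e)
    (hpW : ∀ e, pν (nW e) = nW e) (hpk : ∀ e s, pν (nk e s) = nk e (p e s)) :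
    S36Plug.HcochProp M q lam B I d φ p := by
  intro m z D f u hG hinv haz hbz av bv ha0 hb0 ha hb
  obtain ⟨κa, hκa, rWa, rTa⟩ := hpa m z D f u hG haz av bv ha0 hb0 ha hb
  obtain ⟨κb, hκb, rWb, rTb⟩ := hpb m z D f u hG hbz av bv ha0 hb0 ha hb
  have hz : galAut (M * q * q) σ0 • z = z := hinv σ0 hσ0
  have hinv' := exists_inv_shapes (S := I.setup) (Fermat.Agent.Val.riemannPkg_bar (M * q * q))
    hFt cInf (pow_ne_zero m hlam0) hAct hG hz pν hs₁ hs₂ hor hpor av bv ha0 hb0 ha hb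
    (Equiv.refl _) nW nk I.comp I.hW I.hK P p hcomp hpW hpk
  exact hcoch_of_parts hor av bv ha0 hb0 nW nT nk I.comp p q d φ κa hκa vWa vTa vEa rWa rTa
    κb hκb vWb vTb vEb rWb rTb hinv'

/-- **(G6), data form**: the push-forward relations are discharged by
`PushShapes.push_relations` along `α` (lower setup `Sa`) and along `β` (lower setup `Sb`, the roles
of `nW`, `nT` exchanged, the chain component under `z e` is `vEb (φ e)`); the hypotheses are those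
of `GeoTorData.h3_of_data` for the graph of `SDD`. -/
theorem hcochProp_of_data (hF₀ : RiemannPkg Qb (Fb (M * q)))
    (hFt : ∀ v, RiemannPkg (ResidueField B) (Ft v)) (hlam0 : lam ≠ 0)
    (d : ℕ) (φ : SSp → SSp) (P : Equiv.Perm Mid) (p : SSp → Equiv.Perm KP)
    (hcomp : ∀ e s, I.comp e (p e s) = P (I.comp e s))
    -- along `α`
    {ιa : Type*} {Fta : ιa → Type*} [∀ v, Field (Fta v)] [∀ v, Algebra (ResidueField B) (Fta v)]
    {νa : Type*}
    (Sa : SemistableSetup (F := Fb (M * q)) B (residue B) ιa Fta νa)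
    (hFta : ∀ v, RiemannPkg (ResidueField B) (Fta v))
    {Ja : ιa → Type*} [∀ v, Fintype (Ja v)] (wa : ∀ v, Ja v → Comp Mid SSp)
    (ψa : ∀ v (j : Ja v), Fta v →ₐ[ResidueField B] Ft (wa v j))
    (hNRa : ∀ v, NormRes Sa I.setup (heckeAlphaBar Kb (M * q) q) v (wa v) (ψa v)) (va₀ : ιa)
    (hsma : ∀ P : Place Qb (Fb (M * q * q)), I.setup.IsSmoothPlace P →
      Sa.IsSmoothPlace (P.restrictAlong (heckeAlphaBar Kb (M * q) q)
        (Fermat.Agent.BR2.LevelGen.isIntegral_fb _)))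
    (hora : νa → Bool) (Ta : νa → Finset (Node SSp KP)) (wta : Node SSp KP → ℕ)
    (hHa : ∀ e', PushShapes.NormFibre wa ψa (horBranch Sa hora e') (Ta e')
      (horBranch I.setup hor) wta)
    (hVa : ∀ e', PushShapes.NormFibre wa ψa (verBranch Sa hora e') (Ta e')
      (verBranch I.setup hor) wta)
    (mWa mTa : SSp → νa) (vWa vTa : ιa) (vEa : SSp → ιa)
    (hTWa : ∀ e n, n ∈ Ta (mWa e) ↔ n = nW e)
    (hTTa : ∀ e n, n ∈ Ta (mTa e) ↔ n = nT e ∨ ∃ s, n = nk e s)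
    (hwtWa : ∀ e, wta (nW e) = q) (hwtTa : ∀ e, wta (nT e) = 1)
    (hwtka : ∀ e s, wta (nk e s) = d)
    (hWha : ∀ e, horEnd Sa hora (mWa e) = vWa) (hWva : ∀ e, verEnd Sa hora (mWa e) = vEa e)
    (hTha : ∀ e, horEnd Sa hora (mTa e) = vTa) (hTva : ∀ e, verEnd Sa hora (mTa e) = vEa e)
    -- along `β`
    {ιb : Type*} {Ftb : ιb → Type*} [∀ v, Field (Ftb v)] [∀ v, Algebra (ResidueField B) (Ftb v)]
    {νb : Type*}
    (Sb : SemistableSetup (F := Fb (M * q)) B (residue B) ιb Ftb νb)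
    (hFtb : ∀ v, RiemannPkg (ResidueField B) (Ftb v))
    {Jb : ιb → Type*} [∀ v, Fintype (Jb v)] (wb : ∀ v, Jb v → Comp Mid SSp)
    (ψb : ∀ v (j : Jb v), Ftb v →ₐ[ResidueField B] Ft (wb v j))
    (hNRb : ∀ v, NormRes Sb I.setup (heckeBetaBar Kb (M * q) q) v (wb v) (ψb v)) (vb₀ : ιb)
    (hsmb : ∀ P : Place Qb (Fb (M * q * q)), I.setup.IsSmoothPlace P →
      Sb.IsSmoothPlace (P.restrictAlong (heckeBetaBar Kb (M * q) q)
        (Fermat.Agent.BR2.LevelGen.isIntegral_fb _)))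
    (horb : νb → Bool) (Tb : νb → Finset (Node SSp KP)) (wtb : Node SSp KP → ℕ)
    (hHb : ∀ e', PushShapes.NormFibre wb ψb (horBranch Sb horb e') (Tb e')
      (horBranch I.setup hor) wtb)
    (hVb : ∀ e', PushShapes.NormFibre wb ψb (verBranch Sb horb e') (Tb e')
      (verBranch I.setup hor) wtb)
    (mWb mTb : SSp → νb) (vWb vTb : ιb) (vEb : SSp → ιb)
    (hTWb : ∀ e n, n ∈ Tb (mWb e) ↔ n = nT e)
    (hTTb : ∀ e n, n ∈ Tb (mTb e) ↔ n = nW e ∨ ∃ s, n = nk e s)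
    (hwtWb : ∀ e, wtb (nT e) = q) (hwtTb : ∀ e, wtb (nW e) = 1)
    (hwtkb : ∀ e s, wtb (nk e s) = d)
    (hWhb : ∀ e, horEnd Sb horb (mWb e) = vWb)
    (hWvb : ∀ e, verEnd Sb horb (mWb e) = vEb (φ e))
    (hThb : ∀ e, horEnd Sb horb (mTb e) = vTb)
    (hTvb : ∀ e, verEnd Sb horb (mTb e) = vEb (φ e))
    -- the tame generator
    (σ0 : GQ) (hσ0 : σ0 ∈ B.inertiaSubgroupIn ℚ) (pι : Equiv.Perm (Comp Mid SSp))
    (a' : ∀ v, Ft v ≃ₐ[ResidueField B] Ft (pι v))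
    (hAct : ActsOn I.setup (galAut (M * q * q) σ0) pι a')
    (pν : Node SSp KP → Node SSp KP)
    (hs₁ : ∀ e, (⟨I.setup.src (pν e), I.setup.s₁ (pν e)⟩ :
      Σ v, Place (ResidueField B) (Ft v)) = sigmaMap pι a' ⟨I.setup.src e, I.setup.s₁ e⟩)
    (hs₂ : ∀ e, (⟨I.setup.tgt (pν e), I.setup.s₂ (pν e)⟩ :
      Σ v, Place (ResidueField B) (Ft v)) = sigmaMap pι a' ⟨I.setup.tgt e, I.setup.s₂ e⟩)
    (hpor : ∀ e, hor (pν e) = hor e)
    (hpW : ∀ e, pν (nW e) = nW e) (hpk : ∀ e s, pν (nk e s) = nk e (p e s)) :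
    S36Plug.HcochProp M q lam B I d φ p := by
  have hF := Fermat.Agent.Val.riemannPkg_bar (M * q * q)
  haveI := hF₀.principal
  haveI := hF.principal
  refine hcochProp_of_rel I hFt hlam0 d φ P p hcomp vWa vTa vEa ?_ vWb vTb vEb ?_ σ0 hσ0 pι a'
    hAct pν hs₁ hs₂ hpor hpW hpk
  · intro m z D f u hG haz av bv ha0 hb0 ha hb
    exact PushShapes.push_relations (S₀ := Sa) (S := I.setup) (w := wa) (ψ := ψa) hF₀ hFta
      (heckeAlphaBar Kb (M * q) q) (Fermat.Agent.BR2.LevelGen.isIntegral_fb _)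
      (Fermat.Agent.BR2.LevelGen.finiteAlong_fb _)
      (Fermat.Agent.BR2.LevelGen.normFormulaAlong_fb _)
      hNRa va₀ (pow_ne_zero m hlam0) hG haz hsma hora hor Ta wta hHa hVa av bv ha0 hb0 ha hb
      nW nT nk q d mWa mTa vWa vTa vEa hTWa hTTa nk_injective nT_ne_nk hwtWa hwtTa hwtka hWha
      hWva hTha hTva
  · intro m z D f u hG hbz av bv ha0 hb0 ha hb
    exact PushShapes.push_relations (S₀ := Sb) (S := I.setup) (w := wb) (ψ := ψb) hF₀ hFtb
      (heckeBetaBar Kb (M * q) q) (Fermat.Agent.BR2.LevelGen.isIntegral_fb _)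
      (Fermat.Agent.BR2.LevelGen.finiteAlong_fb _)
      (Fermat.Agent.BR2.LevelGen.normFormulaAlong_fb _)
      hNRb vb₀ (pow_ne_zero m hlam0) hG hbz hsmb horb hor Tb wtb hHb hVb av bv ha0 hb0 ha hb
      nT nW nk q d mWb mTb vWb vTb (fun e => vEb (φ e)) hTWb hTTb nk_injective nW_ne_nk hwtWb
      hwtTb hwtkb hWhb hWvb hThb hTvb

/-- **(G6), by cases**: `ActsOn` for the tame generator from `EquivActsSDD.actsOn_input`
(`pι = compPerm P`, node map `nodeMap p`), `hcomp` from `EquivActsComp.hcomp_of_hs₁`; the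
push-forward relations in relation form. -/
theorem hcochProp_of_cases (hFt : ∀ v, RiemannPkg (ResidueField B) (Ft v)) (hlam0 : lam ≠ 0)
    (d : ℕ) (φ : SSp → SSp) (P : Equiv.Perm Mid) (p : SSp → Equiv.Perm KP)
    {ιa : Type*} (vWa vTa : ιa) (vEa : SSp → ιa)
    (hpa : ∀ (m : ℕ) (z : JZero (M * q * q))
      (D : Divisor.degZero (K := Qb) (F := Fb (M * q * q)))
      (f : Fb (M * q * q)) (u : ∀ v, Ft v), IsGood I.setup (lam ^ m) z D f u →
      alphaDown (M * q) q z = 0 →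
      ∀ (av bv : Node SSp KP → ResidueField B) (ha0 : ∀ e, av e ≠ 0) (hb0 : ∀ e, bv e ≠ 0),
      (∀ e, IsValueAt (I.setup.s₁ e) (u (I.setup.src e)) (av e)) →
      (∀ e, IsValueAt (I.setup.s₂ e) (u (I.setup.tgt e)) (bv e)) →
      ∃ κ₀ : ιa → ResidueField B, (∀ v, κ₀ v ≠ 0) ∧
        (∀ e, valH hor av bv (nW e) ^ q * κ₀ (vEa e) = valV hor av bv (nW e) ^ q * κ₀ vWa) ∧
        ∀ e, (valH hor av bv (nT e) * ∏ s, valH hor av bv (nk e s) ^ d) * κ₀ (vEa e) =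
          (valV hor av bv (nT e) * ∏ s, valV hor av bv (nk e s) ^ d) * κ₀ vTa)
    {ιb : Type*} (vWb vTb : ιb) (vEb : SSp → ιb)
    (hpb : ∀ (m : ℕ) (z : JZero (M * q * q))
      (D : Divisor.degZero (K := Qb) (F := Fb (M * q * q)))
      (f : Fb (M * q * q)) (u : ∀ v, Ft v), IsGood I.setup (lam ^ m) z D f u →
      betaDown (M * q) q z = 0 →
      ∀ (av bv : Node SSp KP → ResidueField B) (ha0 : ∀ e, av e ≠ 0) (hb0 : ∀ e, bv e ≠ 0),
      (∀ e, IsValueAt (I.setup.s₁ e) (u (I.setup.src e)) (av e)) →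
      (∀ e, IsValueAt (I.setup.s₂ e) (u (I.setup.tgt e)) (bv e)) →
      ∃ κ₀ : ιb → ResidueField B, (∀ v, κ₀ v ≠ 0) ∧
        (∀ e, valH hor av bv (nT e) ^ q * κ₀ (vEb (φ e)) =
          valV hor av bv (nT e) ^ q * κ₀ vWb) ∧
        ∀ e, (valH hor av bv (nW e) * ∏ s, valH hor av bv (nk e s) ^ d) * κ₀ (vEb (φ e)) =
          (valV hor av bv (nW e) * ∏ s, valV hor av bv (nk e s) ^ d) * κ₀ vTb)
    (σ0 : GQ) (hσ0 : σ0 ∈ B.inertiaSubgroupIn ℚ)
    (a' : ∀ v, Ft v ≃ₐ[ResidueField B] Ft (compPerm P v))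
    (hmaps : ∀ v, MapsComp I.setup (galAut (M * q * q) σ0) v (compPerm P v) (a' v))
    (htube : ∀ y, ∀ Q ∈ I.tube y,
      galAut (M * q * q) σ0 • Q ∈ I.tube (sigmaMap (compPerm P) a' y))
    (hs₁ : ∀ x, (⟨I.setup.src (nodeMap p x), I.setup.s₁ (nodeMap p x)⟩ :
      Σ v, Place (ResidueField B) (Ft v)) =
        sigmaMap (compPerm P) a' ⟨I.setup.src x, I.setup.s₁ x⟩)
    (hs₂ : ∀ x, (⟨I.setup.tgt (nodeMap p x), I.setup.s₂ (nodeMap p x)⟩ :
      Σ v, Place (ResidueField B) (Ft v)) =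
        sigmaMap (compPerm P) a' ⟨I.setup.tgt x, I.setup.s₂ x⟩) :
    S36Plug.HcochProp M q lam B I d φ p :=
  hcochProp_of_rel I hFt hlam0 d φ P p (EquivActsComp.hcomp_of_hs₁ I P a' p hs₁) vWa vTa vEa hpa
    vWb vTb vEb hpb σ0 hσ0 (compPerm P) a'
    (actsOn_input I (galAut (M * q * q) σ0) (compPerm P) a' hmaps htube p hs₁ hs₂)
    (nodeMap p) hs₁ hs₂ (hor_nodeMap p) (fun _ => rfl) (fun _ _ => rfl)

/-- **(G6) `S36Plug.TameProp`, by cases.** -/
theorem tameProp_of_cases (hFt : ∀ v, RiemannPkg (ResidueField B) (Ft v)) (hlam0 : lam ≠ 0)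
    (d : ℕ) (hd : d * Fintype.card KP + 1 = q) (φ : SSp → SSp) (P : Equiv.Perm Mid)
    (p : SSp → Equiv.Perm KP) (hp : ∀ e s s', ∃ n : ℕ, ((p e) ^ n) s = s')
    {ιa : Type*} (vWa vTa : ιa) (vEa : SSp → ιa)
    (hpa : ∀ (m : ℕ) (z : JZero (M * q * q))
      (D : Divisor.degZero (K := Qb) (F := Fb (M * q * q)))
      (f : Fb (M * q * q)) (u : ∀ v, Ft v), IsGood I.setup (lam ^ m) z D f u →
      alphaDown (M * q) q z = 0 →
      ∀ (av bv : Node SSp KP → ResidueField B) (ha0 : ∀ e, av e ≠ 0) (hb0 : ∀ e, bv e ≠ 0),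
      (∀ e, IsValueAt (I.setup.s₁ e) (u (I.setup.src e)) (av e)) →
      (∀ e, IsValueAt (I.setup.s₂ e) (u (I.setup.tgt e)) (bv e)) →
      ∃ κ₀ : ιa → ResidueField B, (∀ v, κ₀ v ≠ 0) ∧
        (∀ e, valH hor av bv (nW e) ^ q * κ₀ (vEa e) = valV hor av bv (nW e) ^ q * κ₀ vWa) ∧
        ∀ e, (valH hor av bv (nT e) * ∏ s, valH hor av bv (nk e s) ^ d) * κ₀ (vEa e) =
          (valV hor av bv (nT e) * ∏ s, valV hor av bv (nk e s) ^ d) * κ₀ vTa)
    {ιb : Type*} (vWb vTb : ιb) (vEb : SSp → ιb)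
    (hpb : ∀ (m : ℕ) (z : JZero (M * q * q))
      (D : Divisor.degZero (K := Qb) (F := Fb (M * q * q)))
      (f : Fb (M * q * q)) (u : ∀ v, Ft v), IsGood I.setup (lam ^ m) z D f u →
      betaDown (M * q) q z = 0 →
      ∀ (av bv : Node SSp KP → ResidueField B) (ha0 : ∀ e, av e ≠ 0) (hb0 : ∀ e, bv e ≠ 0),
      (∀ e, IsValueAt (I.setup.s₁ e) (u (I.setup.src e)) (av e)) →
      (∀ e, IsValueAt (I.setup.s₂ e) (u (I.setup.tgt e)) (bv e)) →
      ∃ κ₀ : ιb → ResidueField B, (∀ v, κ₀ v ≠ 0) ∧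
        (∀ e, valH hor av bv (nT e) ^ q * κ₀ (vEb (φ e)) =
          valV hor av bv (nT e) ^ q * κ₀ vWb) ∧
        ∀ e, (valH hor av bv (nW e) * ∏ s, valH hor av bv (nk e s) ^ d) * κ₀ (vEb (φ e)) =
          (valV hor av bv (nW e) * ∏ s, valV hor av bv (nk e s) ^ d) * κ₀ vTb)
    (σ0 : GQ) (hσ0 : σ0 ∈ B.inertiaSubgroupIn ℚ)
    (a' : ∀ v, Ft v ≃ₐ[ResidueField B] Ft (compPerm P v))
    (hmaps : ∀ v, MapsComp I.setup (galAut (M * q * q) σ0) v (compPerm P v) (a' v))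
    (htube : ∀ y, ∀ Q ∈ I.tube y,
      galAut (M * q * q) σ0 • Q ∈ I.tube (sigmaMap (compPerm P) a' y))
    (hs₁ : ∀ x, (⟨I.setup.src (nodeMap p x), I.setup.s₁ (nodeMap p x)⟩ :
      Σ v, Place (ResidueField B) (Ft v)) =
        sigmaMap (compPerm P) a' ⟨I.setup.src x, I.setup.s₁ x⟩)
    (hs₂ : ∀ x, (⟨I.setup.tgt (nodeMap p x), I.setup.s₂ (nodeMap p x)⟩ :
      Σ v, Place (ResidueField B) (Ft v)) =
        sigmaMap (compPerm P) a' ⟨I.setup.tgt x, I.setup.s₂ x⟩) :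
    S36Plug.TameProp M q lam B I :=
  ⟨d, φ, P, p, hd, hp, EquivActsComp.hcomp_of_hs₁ I P a' p hs₁,
    hcochProp_of_cases I hFt hlam0 d φ P p vWa vTa vEa hpa vWb vTb vEb hpb σ0 hσ0 a' hmaps htube
      hs₁ hs₂⟩

end Fermat.Agent.BR3.SDD
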