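import Fermat.Agent.BR3.SDD.TubesBAlg
import Fermat.Agent.BR3.VertAllParam
import Fermat.Agent.BR3.SSParamOfLocal
import Fermat.Agent.BR3.VertBetaFr
import Fermat.Agent.BR3.SDD.ModularGauge
import Fermat.Agent.BR3.SepN

/-!
# Program C (S36), node (T-B), file 2 (helper15): the `b`-side tube inclusions of `S''`

`e` a crossing of main's two-component model `S'` of `X₀(M q)` at `q` (`M` without elliptic points),
`(g, g', g'')` a twisted triple with simple zeros at `e` (`SSParam.IsSSParam`), `g̃''` a local parameter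
at `z₂ e`.  `L e := annulusLevels_modular_final B hB hqM hne e`, `Fr e` the Frobenius crossing
(`VertBetaFr.Fr`: branches exchanged).

* `valuation_evalAt_eq_u`, `valuation_evalAt_mul_eq_v` : **comparison of coordinates on the tube**:
  a function `x` of the base level of `u`-type at `e` (vanishing on `'et'`, simple zero at `z₁ e` on
  `'can'`) has `|x(P)| = |u_e(P)|` at every place of the tube of `e`; a function `y` of `v`-type has
  `|y(P)| |u_e(P)| = |q|`;
* `valuation_coord_Fr` : `X' = α g'' - (β g)^q` is of `u`-type at `Fr e`;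
* `exists_value_beta2` : the value of `X'` at `P ∘ β₂` from the values of `U_g`, `α g`,
  `Y = β g'' - (α g)^q` at `P` resp. `P ∘ α₂` (the exact identity of `TubesBAlg`);
* `restrictAlong_beta2_mem_outer` : `P ∘ α₂` in the OUTER sub-annulus of `e` at the gauge `a₀`
  (`|a₀|^(q+1) = |q|`), `|U_g(P)| = |u_e(P ∘ α₂)|`, `P ∘ β₂` in the tube of `Fr e` ⇒ `P ∘ β₂` in the
  OUTER sub-annulus of `Fr e` at the gauge `a₀^q` (the tube of `nT e` along `b`);
* `restrictAlong_beta2_mem_inner` : the same with `|U_g(P)| < |a₀|` ⇒ INNER sub-annulus of `Fr e` at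
  the gauge `a₀^q` (the tubes of the Kummer nodes `nk e s` along `b`);
* `tube_b_nT_of_value`, `tube_b_nk_of_value` : in the literal shapes of the fields `tube_b_nT`,
  `tube_b_nk` of `SepNSDD.SepInput` / `SepNModular.sepInputModular` (`Dt = DtM`, `b₀ = gaugeB`).
-/

set_option autoImplicit false
set_option linter.unusedSectionVars false
set_option linter.style.haveILetI false
set_option synthInstance.maxHeartbeats 400000
set_option maxHeartbeats 1600000

noncomputable section

/- S36 build-time patch: file-local shortcut instances. They only shorten instance search;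
each is the instance that the search finds anyway (reducible, same terms after unfolding). -/
local instance (priority := 100000) Fermat.Agent.BR3.FastInst.instAlgFullC_SDD_TubesB
    {k : Type*} [Field k] (N : ℕ) :
    Algebra k ↥(ModularCurve.modularFunctionFieldFullC k N) := inferInstance
local instance (priority := 100000) Fermat.Agent.BR3.FastInst.instFieldFullC_SDD_TubesB
    {k : Type*} [Field k] (N : ℕ) :
    Field ↥(ModularCurve.modularFunctionFieldFullC k N) := inferInstance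
local instance (priority := 100000) Fermat.Agent.BR3.FastInst.instAlgLaurent_SDD_TubesB
    {k : Type*} [Field k] : Algebra k (LaurentSeries k) := inferInstance


namespace Fermat.Agent.BR3.SDD.TubesB

open AlgebraicCurve ModularCurve IsLocalRing Polynomial
open Fermat.Agent.Red Fermat.Agent.Val Fermat.Agent.X0 Fermat.Agent.BR.SS Fermat.Agent.BR.Refine
open Fermat.Agent.BR.Centre Fermat.Agent.BR.ConstRedTwo Fermat.Agent.BR.ModUnit
open Fermat.Agent.BR.Circle
open Fermat.Agent.BR.S0 Fermat.Agent.BR.S0.RedModular Fermat.Agent.BR.S0.PointDict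
open Fermat.Agent.BR.S0.Modular Fermat.Agent.BR.S0.RedHyp
open Fermat.Agent.BR.S0.AnnulusChartOfLevels Fermat.Agent.BR.S0.SmoothAssembly
open Fermat.Agent.BR.S0.CrossingFamilyAssembly
open Fermat.Agent.BR.UnramCycloTower Fermat.Agent.BR.UnramCyclo Fermat.Agent.BR.Inst.Levels
open Fermat.Agent.BR.Inst.NormalModel Fermat.Agent.BR.Inst.LevelsInst
open Fermat.Agent.BR.Inst.SpecIso Fermat.Agent.BR.Inst.AnnulusInst
open Fermat.Agent.BR.Inst.AnnulusInstFinal Fermat.Agent.BR.Inst.NodeInstFinal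
open Fermat.Agent.BR.TwoVal Fermat.Agent.BR.TwoValInst Fermat.Agent.BR.Final
open Fermat.Agent.BR3.ThickOneFamily Fermat.Agent.BR3.ThickOneFinal Fermat.Agent.BR3.ThickOneUnit
open Fermat.Agent.BR3.FibreProd Fermat.Agent.BR3.HeckePoly Fermat.Agent.Hecke
open Fermat.Agent.BR3.SSParam Fermat.Agent.BR3.VertAll Fermat.Agent.BR3.VertAllParam
open Fermat.Agent.BR3.VertBetaFr Fermat.Agent.BR3.SDD.TubesBAlg

/-! ### Abstract: the value of `c w + ϖ r` on the tube -/

section Abstract

variable {K F : Type*} [Field K] [Field F] [Algebra K F] {A : ValuationSubring K}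
  {T : Set (Place K F)} {u v ε₀ : F} {thick : K}

/-- A unit of a level has a value of absolute value one at every place of the tube. -/
theorem valuation_evalAt_of_isUnit (N : NodeLevel A T u v ε₀ thick) {P : Place K F} (hP : P ∈ T)
    {c : F} (hc : c ∈ N.R) (hcu : IsUnit (⟨c, hc⟩ : N.R)) : A.valuation (evalAt P c) = 1 := by
  obtain ⟨w, hw⟩ := hcu.exists_right_inv
  have h1 : c * (w : F) = 1 := by
    have := congrArg (fun t : N.R => (t : F)) hw
    simpa using this
  have h2 := N.evalAt_mul hP hc w.2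
  rw [h1, evalAt_eq_of_isValueAt (isValueAt_one P)] at h2
  have h3 : A.valuation (evalAt P c) ≤ 1 := (A.valuation_le_one_iff _).mpr (N.evalAt_memA hP hc)
  have h4 : A.valuation (evalAt P (w : F)) ≤ 1 :=
    (A.valuation_le_one_iff _).mpr (N.evalAt_memA hP w.2)
  have h5 := congrArg A.valuation h2
  rw [map_one, map_mul] at h5
  by_contra hne
  have hlt : A.valuation (evalAt P c) < 1 := lt_of_le_of_ne h3 hne
  have : A.valuation (evalAt P c) * A.valuation (evalAt P (w : F)) < 1 :=
    mul_lt_one_of_nonneg_of_lt_one_left zero_le hlt h4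
  rw [← h5] at this
  exact lt_irrefl _ this

/-- `x = c w + ϖ r` with `c` a unit of the level and `|ϖ| < |w(P)|`: `|x(P)| = |w(P)|`. -/
theorem valuation_evalAt_eq_of_eq (N : NodeLevel A T u v ε₀ thick) {P : Place K F} (hP : P ∈ T)
    {w x c r : F} {ϖ : K} (hw : w ∈ N.R) (hc : c ∈ N.R) (hr : r ∈ N.R)
    (hcu : IsUnit (⟨c, hc⟩ : N.R)) (hxeq : x = c * w + algebraMap K F ϖ * r)
    (hlt : A.valuation ϖ < A.valuation (evalAt P w)) :
    A.valuation (evalAt P x) = A.valuation (evalAt P w) := by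
  have hv : IsValueAt P x (evalAt P c * evalAt P w + ϖ * evalAt P r) := by
    rw [hxeq]
    exact ((N.isValueAt_evalAt hP hc).mul (N.isValueAt_evalAt hP hw)).add
      ((isValueAt_algebraMap P ϖ).mul (N.isValueAt_evalAt hP hr))
  rw [evalAt_eq_of_isValueAt hv]
  have h1 : A.valuation (evalAt P c * evalAt P w) = A.valuation (evalAt P w) := by
    rw [map_mul, valuation_evalAt_of_isUnit N hP hc hcu, one_mul]
  have h2 : A.valuation (ϖ * evalAt P r) < A.valuation (evalAt P c * evalAt P w) := by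
    rw [h1, map_mul]
    calc A.valuation ϖ * A.valuation (evalAt P r) ≤ A.valuation ϖ * 1 := by
          gcongr
          exact (A.valuation_le_one_iff _).mpr (N.evalAt_memA hP hr)
      _ = A.valuation ϖ := mul_one _
      _ < A.valuation (evalAt P w) := hlt
  rw [Valuation.map_add_eq_of_lt_left _ h2, h1]

end Abstract

/-! ### Inequalities in the value group -/

section Ineq

variable {Γ₀ : Type*} [LinearOrderedCommGroupWithZero Γ₀]

theorem lt_of_mul_lt_mul_right_aux {a b c : Γ₀} (h : a * c < b * c) : a < b := by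
  by_contra hcon
  push Not at hcon
  exact absurd h (not_lt.mpr (mul_le_mul_left hcon c))

/-- the inequalities of the outer sub-annulus -/
theorem outer_ineqs {a ρ y Q : Γ₀} {q : ℕ} (hq : q ≠ 0) (ha0 : a ≠ 0) (ha1 : a < 1)
    (haρ : a < ρ) (hQ : a ^ (q + 1) = Q) (hy : y * ρ = Q) :
    y < ρ ^ q ∧ Q < ρ ^ q ∧ a ^ q < ρ ^ q := by
  have hpow : a ^ q < ρ ^ q := pow_lt_pow_left₀ haρ zero_le hq
  have hρ0 : ρ ≠ 0 := fun h => by rw [h] at haρ; exact not_lt_zero haρ
  have haq0 : a ^ q ≠ 0 := pow_ne_zero _ ha0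
  have hQlt : Q < a ^ q := by
    rw [← hQ, pow_succ]
    exact mul_lt_of_lt_one_right (zero_lt_iff.mpr haq0) ha1
  refine ⟨?_, hQlt.trans hpow, hpow⟩
  apply lt_of_mul_lt_mul_right_aux (c := ρ)
  rw [hy, ← hQ, pow_succ]
  calc a ^ q * a < a ^ q * ρ := by
        exact mul_lt_mul_of_pos_left haρ (zero_lt_iff.mpr haq0)
    _ ≤ ρ ^ q * ρ := mul_le_mul_left hpow.le ρ

/-- the inequalities of the inner sub-annulus -/
theorem inner_ineqs {a ρ y Q : Γ₀} {q : ℕ} (ha0 : a ≠ 0) (ha1 : a < 1)
    (haρ : a < ρ) (hQ : a ^ (q + 1) = Q) (hy : y * ρ = Q) :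
    y < a ^ q ∧ Q < a ^ q := by
  have haq0 : a ^ q ≠ 0 := pow_ne_zero _ ha0
  have hQlt : Q < a ^ q := by
    rw [← hQ, pow_succ]
    exact mul_lt_of_lt_one_right (zero_lt_iff.mpr haq0) ha1
  refine ⟨?_, hQlt⟩
  apply lt_of_mul_lt_mul_right_aux (c := ρ)
  rw [hy, ← hQ, pow_succ]
  exact mul_lt_mul_of_pos_left haρ (zero_lt_iff.mpr haq0)

end Ineq

/-! ### Comparison of coordinates on the tube of a crossing -/

section Compare

variable {M q : ℕ} [NeZero M] [hq : Fact q.Prime]
variable (B : ValuationSubring Kb) (hB : B.LiesOverPrime q) (hqM : ¬ q ∣ M)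
variable [IsAlgClosed (ResidueField B)]
  (hne : Nonempty (Crossing (chartDataModular B hB hqM)))
  (e : Crossing (chartDataModular B hB hqM))

local notation "kB" => IsLocalRing.ResidueField B

set_option maxHeartbeats 4000000 in
/-- **A function of `u`-type has the absolute value of `u_e` on the tube of `e`.** -/
theorem valuation_evalAt_eq_u (h2 : nuTwo M = 0) (h3 : nuThree M = 0) {x : Fb (M * q)}
    (hx : x ∈ ((annulusLevels_modular_final B hB hqM hne e).level (∅ : Finset Kb)).R)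
    (hx₂ : x ∈ (compW B hB hqM 1).O.nonunits) (hxO : x ∈ (compW B hB hqM 0).O)
    (hxord : (z₁ (chartDataModular B hB hqM) e).ord ((compW B hB hqM 0).res ⟨x, hxO⟩) = 1)
    {P : Place Kb (Fb (M * q))} (hP : P ∈ tube (setupFinal B hB hqM hne) e) :
    B.valuation (evalAt P x) =
      B.valuation (evalAt P (annulusLevels_modular_final B hB hqM hne e).u) := by
  have hF := crossingFamily_final B hB hqM hne e
  set L := annulusLevels_modular_final B hB hqM hne e with hL
  set Mo := hF.model ∅ with hMo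
  have hres0₁ : ∀ x : (compW B hB hqM 0).O, (x : Fb (M * q)) ∈ (compW B hB hqM 0).O.nonunits →
      (compW B hB hqM 0).res x = 0 :=
    fun y hy => (constRed_res_eq_zero_iff (compW B hB hqM 0) y).mpr hy
  have hres0₂ : ∀ x : (compW B hB hqM 1).O, (x : Fb (M * q)) ∈ (compW B hB hqM 1).O.nonunits →
      (compW B hB hqM 1).res x = 0 :=
    fun y hy => (constRed_res_eq_zero_iff (compW B hB hqM 1) y).mpr hy
  obtain ⟨c, r, hcu, hxeq⟩ := exists_eq_unit_mul_add Mo hres0₁ hres0₂ (hF.inter ∅) (v := L.u)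
    hF.v_mem hF.v_nonunit₂ hF.max1 hx hx₂ hxO hxord
  have hthick : B.valuation (unif B hq.out hB ∅) = B.valuation L.thick := by
    rw [valuation_unif_empty B hB]
    exact (valuation_thick_levels_final B hB hqM h2 h3 hne e).symm
  obtain ⟨c₀, hc₀, h1, -⟩ := L.val_mem P hP
  have hu : evalAt P L.u = c₀ := evalAt_eq_of_isValueAt hc₀
  refine valuation_evalAt_eq_of_eq (L.level ∅) hP (L.level ∅).u_mem c.2 r.2 hcu hxeq ?_
  rw [hthick, hu]
  exact h1

set_option maxHeartbeats 4000000 in
/-- **A function of `v`-type has the absolute value of `v_e` on the tube of `e`**: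
`|y(P)| |u_e(P)| = |q|`. -/
theorem valuation_evalAt_mul_eq_v (h2 : nuTwo M = 0) (h3 : nuThree M = 0) {y : Fb (M * q)}
    (hy : y ∈ ((annulusLevels_modular_final B hB hqM hne e).level (∅ : Finset Kb)).R)
    (hy₁ : y ∈ (compW B hB hqM 0).O.nonunits) (hyO : y ∈ (compW B hB hqM 1).O)
    (hyord : (z₂ (chartDataModular B hB hqM) e).ord ((compW B hB hqM 1).res ⟨y, hyO⟩) = 1)
    {P : Place Kb (Fb (M * q))} (hP : P ∈ tube (setupFinal B hB hqM hne) e) :
    B.valuation (evalAt P y) *
      B.valuation (evalAt P (annulusLevels_modular_final B hB hqM hne e).u) =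
        B.valuation (q : Kb) := by
  have hF := crossingFamily_final B hB hqM hne e
  set L := annulusLevels_modular_final B hB hqM hne e with hL
  set Mo := hF.model ∅ with hMo
  have hres0₁ : ∀ x : (compW B hB hqM 0).O, (x : Fb (M * q)) ∈ (compW B hB hqM 0).O.nonunits →
      (compW B hB hqM 0).res x = 0 :=
    fun y hy => (constRed_res_eq_zero_iff (compW B hB hqM 0) y).mpr hy
  have hres0₂ : ∀ x : (compW B hB hqM 1).O, (x : Fb (M * q)) ∈ (compW B hB hqM 1).O.nonunits →
      (compW B hB hqM 1).res x = 0 :=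
    fun y hy => (constRed_res_eq_zero_iff (compW B hB hqM 1) y).mpr hy
  obtain ⟨c, r, hcu, hyeq⟩ := exists_eq_unit_mul_add' Mo hres0₁ hres0₂ (hF.inter ∅) (u := L.v)
    hF.u_mem hF.u_nonunit₁ hF.max2 hy hy₁ hyO hyord
  have hth : B.valuation L.thick = B.valuation (q : Kb) :=
    valuation_thick_levels_final B hB hqM h2 h3 hne e
  have huv := congrArg B.valuation (L.evalAt_u_mul_evalAt_v hP ∅)
  rw [map_mul, map_mul, L.valuation_evalAt_ε₀ hP ∅, mul_one, hth] at huv
  obtain ⟨c₀, hc₀, -, h1⟩ := L.val_mem P hP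
  have hu : evalAt P L.u = c₀ := evalAt_eq_of_isValueAt hc₀
  have hq0 : B.valuation (q : Kb) ≠ 0 :=
    (_root_.map_ne_zero _).2 (Nat.cast_ne_zero.mpr hq.out.ne_zero)
  have hv0 : B.valuation (evalAt P L.v) ≠ 0 := by
    intro h0
    rw [h0, mul_zero] at huv
    exact hq0 huv.symm
  have hlt : B.valuation (unif B hq.out hB ∅) < B.valuation (evalAt P L.v) := by
    rw [valuation_unif_empty B hB, ← huv]
    refine mul_lt_of_lt_one_left (zero_lt_iff.mpr hv0) ?_
    rw [hu]
    exact h1
  rw [valuation_evalAt_eq_of_eq (L.level ∅) hP (L.level ∅).v_mem c.2 r.2 hcu hyeq hlt, mul_comm]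
  exact huv

end Compare

/-! ### The tube inclusions along `β₂` -/

section Main

variable {M q : ℕ} [NeZero M] [hq : Fact q.Prime]
variable (B : ValuationSubring Kb) (hB : B.LiesOverPrime q) (hqM : ¬ q ∣ M)
variable [IsAlgClosed (ResidueField B)] [CharP (ResidueField B) q]
  (hne : Nonempty (Crossing (chartDataModular B hB hqM)))
  (e : Crossing (chartDataModular B hB hqM)) {g g' g'' : Fb M}

local notation "kB" => IsLocalRing.ResidueField B

set_option maxHeartbeats 4000000 in
/-- **`X' = α g'' - (β g)^q` is of `u`-type at the Frobenius crossing `Fr e`.** -/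
theorem valuation_coord_Fr (h2 : nuTwo M = 0) (h3 : nuThree M = 0)
    (H : IsSSParam B hB hqM e g g' g'')
    (hloc : (z₂ (chartDataModular B hB hqM) e).ord
      (redMF B hB hqM ⟨g'', mem_OM_of_mem_CMod_base B hB hqM H.hg''⟩) = 1)
    {P : Place Kb (Fb (M * q))} (hP : P ∈ tube (setupFinal B hB hqM hne) (Fr B hB hqM e)) :
    B.valuation (evalAt P (heckeAlphaBar Kb M q g'' - heckeBetaBar Kb M q g ^ q)) =
      B.valuation (evalAt P (annulusLevels_modular_final B hB hqM hne (Fr B hB hqM e)).u) := by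
  have hgO := mem_OM_of_mem_CMod_base B hB hqM H.hg
  have hg''O := mem_OM_of_mem_CMod_base B hB hqM H.hg''
  refine valuation_evalAt_eq_u B hB hqM hne (Fr B hB hqM e) h2 h3 ?_ ?_
    (vg_mem_O1 B hB hqM hg''O hgO) ?_ hP
  · exact sub_mem (alpha_mem_level B hB hqM hne _ H.hg'')
      (pow_mem (beta_mem_level B hB hqM hne _ H.hg) q)
  · exact vg_mem_nonunits_O2 B hB hqM hg''O hgO H.twist
  · exact Fermat.Agent.BR3.SSParamOfLocal.hxord_of_localParam B hB hqM (Fr B hB hqM e)
      H.hg'' H.hg H.twist hloc _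

set_option maxHeartbeats 4000000 in
/-- **The value of `X'` at `P ∘ β₂`** from the value `cU` of `U_g` at `P` and the values of `α g`,
`Y = β g'' - (α g)^q` at `P ∘ α₂` (a place of the tube of `e`). -/
theorem exists_value_beta2 (h2 : nuTwo M = 0) (h3 : nuThree M = 0)
    (H : IsSSParam B hB hqM e g g' g'')
    (hα : (alpha2 M q).toRingHom.IsIntegral) (hβ : (beta2 M q).toRingHom.IsIntegral)
    {P : Place Kb (Fb (M * q * q))}
    (hPa : P.restrictAlong (alpha2 M q) hα ∈ tube (setupFinal B hB hqM hne) e)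
    {cU : Kb} (hU : IsValueAt P (Ug M q g) cU) :
    ∃ cA cY : Kb, B.valuation cA ≤ 1 ∧
      B.valuation cY * B.valuation (evalAt (P.restrictAlong (alpha2 M q) hα)
        (annulusLevels_modular_final B hB hqM hne e).u) = B.valuation (q : Kb) ∧
      IsValueAt (P.restrictAlong (beta2 M q) hβ)
        (heckeAlphaBar Kb M q g'' - heckeBetaBar Kb M q g ^ q)
        (cY - ((cU + cA) ^ q - cA ^ q)) := by
  have hgO := mem_OM_of_mem_CMod_base B hB hqM H.hg
  have hg''O := mem_OM_of_mem_CMod_base B hB hqM H.hg''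
  have hαm : heckeAlphaBar Kb M q g ∈
      ((annulusLevels_modular_final B hB hqM hne e).level (∅ : Finset Kb)).R :=
    alpha_mem_level B hB hqM hne e H.hg
  have hYm : heckeBetaBar Kb M q g'' - heckeAlphaBar Kb M q g ^ q ∈
      ((annulusLevels_modular_final B hB hqM hne e).level (∅ : Finset Kb)).R :=
    sub_mem (beta_mem_level B hB hqM hne e H.hg'') (pow_mem hαm q)
  refine ⟨evalAt (P.restrictAlong (alpha2 M q) hα) (heckeAlphaBar Kb M q g),
    evalAt (P.restrictAlong (alpha2 M q) hα)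
      (heckeBetaBar Kb M q g'' - heckeAlphaBar Kb M q g ^ q),
    (B.valuation_le_one_iff _).mpr
      (((annulusLevels_modular_final B hB hqM hne e).level (∅ : Finset Kb)).evalAt_memA hPa hαm),
    ?_, ?_⟩
  · exact valuation_evalAt_mul_eq_v B hB hqM hne e h2 h3 hYm
      (ug_mem_nonunits_O1 B hB hqM hgO hg''O H.twist) (ug_mem_O2 B hB hqM hgO hg''O)
      (H.hyord _) hPa
  · rw [Fermat.Agent.BR3.SepN.isValueAt_restrictAlong_iff]
    exact isValueAt_beta2_coord hU
      ((Fermat.Agent.BR3.SepN.isValueAt_restrictAlong_iff _ hα P _ _).mp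
        (((annulusLevels_modular_final B hB hqM hne e).level (∅ : Finset Kb)).isValueAt_evalAt
          hPa hαm))
      ((Fermat.Agent.BR3.SepN.isValueAt_restrictAlong_iff _ hα P _ _).mp
        (((annulusLevels_modular_final B hB hqM hne e).level (∅ : Finset Kb)).isValueAt_evalAt
          hPa hYm))

set_option maxHeartbeats 4000000 in
/-- **The outer sub-annulus along `β₂`** (levels form). -/
theorem valuation_lt_of_outer (h2 : nuTwo M = 0) (h3 : nuThree M = 0)
    (H : IsSSParam B hB hqM e g g' g'')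
    (hloc : (z₂ (chartDataModular B hB hqM) e).ord
      (redMF B hB hqM ⟨g'', mem_OM_of_mem_CMod_base B hB hqM H.hg''⟩) = 1)
    (hα : (alpha2 M q).toRingHom.IsIntegral) (hβ : (beta2 M q).toRingHom.IsIntegral)
    {a₀ : Kb} (ha₀ : B.valuation a₀ ^ (q + 1) = B.valuation (q : Kb))
    {P : Place Kb (Fb (M * q * q))}
    (hPa : P.restrictAlong (alpha2 M q) hα ∈ tube (setupFinal B hB hqM hne) e)
    (ha : B.valuation a₀ < B.valuation (evalAt (P.restrictAlong (alpha2 M q) hα)
      (annulusLevels_modular_final B hB hqM hne e).u))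
    (hPb : P.restrictAlong (beta2 M q) hβ ∈ tube (setupFinal B hB hqM hne) (Fr B hB hqM e))
    {cU : Kb} (hU : IsValueAt P (Ug M q g) cU)
    (hUv : B.valuation cU = B.valuation (evalAt (P.restrictAlong (alpha2 M q) hα)
      (annulusLevels_modular_final B hB hqM hne e).u)) :
    B.valuation (a₀ ^ q) < B.valuation (evalAt (P.restrictAlong (beta2 M q) hβ)
      (annulusLevels_modular_final B hB hqM hne (Fr B hB hqM e)).u) := by
  obtain ⟨cA, cY, hA1, hY, hval⟩ := exists_value_beta2 B hB hqM hne e h2 h3 H hα hβ hPa hU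
  have hX := valuation_coord_Fr B hB hqM hne e h2 h3 H hloc hPb
  rw [← hX, evalAt_eq_of_isValueAt hval]
  obtain ⟨-, ha1⟩ := gauge_bounds B hB hqM hne e h2 h3 ha₀
  have hq0 : B.valuation (q : Kb) ≠ 0 :=
    (_root_.map_ne_zero _).2 (Nat.cast_ne_zero.mpr hq.out.ne_zero)
  have ha0 : B.valuation a₀ ≠ 0 := by
    intro h0
    rw [h0, zero_pow (Nat.succ_ne_zero q)] at ha₀
    exact hq0 ha₀.symm
  obtain ⟨c₀, hc₀, -, hρ1⟩ :=
    (annulusLevels_modular_final B hB hqM hne e).val_mem _ hPa
  rw [← evalAt_eq_of_isValueAt hc₀, ← hUv] at hρ1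
  rw [← hUv] at ha hY
  obtain ⟨i1, i2, i3⟩ := outer_ineqs hq.out.ne_zero ha0 ha1 ha ha₀ hY
  rw [valuation_outer_value B hq.out hρ1.le hA1 i1 i2, map_pow]
  exact i3

set_option maxHeartbeats 4000000 in
/-- **The inner sub-annulus along `β₂`** (levels form). -/
theorem valuation_lt_of_inner (h2 : nuTwo M = 0) (h3 : nuThree M = 0)
    (H : IsSSParam B hB hqM e g g' g'')
    (hloc : (z₂ (chartDataModular B hB hqM) e).ord
      (redMF B hB hqM ⟨g'', mem_OM_of_mem_CMod_base B hB hqM H.hg''⟩) = 1)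
    (hα : (alpha2 M q).toRingHom.IsIntegral) (hβ : (beta2 M q).toRingHom.IsIntegral)
    {a₀ : Kb} (ha₀ : B.valuation a₀ ^ (q + 1) = B.valuation (q : Kb))
    {P : Place Kb (Fb (M * q * q))}
    (hPa : P.restrictAlong (alpha2 M q) hα ∈ tube (setupFinal B hB hqM hne) e)
    (ha : B.valuation a₀ < B.valuation (evalAt (P.restrictAlong (alpha2 M q) hα)
      (annulusLevels_modular_final B hB hqM hne e).u))
    (hPb : P.restrictAlong (beta2 M q) hβ ∈ tube (setupFinal B hB hqM hne) (Fr B hB hqM e))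
    {cU : Kb} (hU : IsValueAt P (Ug M q g) cU)
    (hUlt : B.valuation cU < B.valuation a₀) :
    B.valuation (evalAt (P.restrictAlong (beta2 M q) hβ)
      (annulusLevels_modular_final B hB hqM hne (Fr B hB hqM e)).u) < B.valuation (a₀ ^ q) := by
  obtain ⟨cA, cY, hA1, hY, hval⟩ := exists_value_beta2 B hB hqM hne e h2 h3 H hα hβ hPa hU
  have hX := valuation_coord_Fr B hB hqM hne e h2 h3 H hloc hPb
  rw [← hX, evalAt_eq_of_isValueAt hval]
  obtain ⟨-, ha1⟩ := gauge_bounds B hB hqM hne e h2 h3 ha₀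
  have hq0 : B.valuation (q : Kb) ≠ 0 :=
    (_root_.map_ne_zero _).2 (Nat.cast_ne_zero.mpr hq.out.ne_zero)
  have ha0 : B.valuation a₀ ≠ 0 := by
    intro h0
    rw [h0, zero_pow (Nat.succ_ne_zero q)] at ha₀
    exact hq0 ha₀.symm
  obtain ⟨i1, i2⟩ := inner_ineqs ha0 ha1 ha ha₀ hY
  have hU1 : B.valuation cU ≤ 1 := hUlt.le.trans ha1.le
  have hUq : B.valuation cU ^ q < B.valuation (a₀ ^ q) := by
    rw [map_pow]
    exact pow_lt_pow_left₀ hUlt zero_le hq.out.ne_zero
  refine valuation_inner_value B hq.out hU1 hA1 ?_ hUq ?_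
  · rw [map_pow]; exact i1
  · rw [map_pow]; exact i2

end Main

/-! ### The shapes of `SepNSDD.SepInput` -/

section Wrap

open Fermat.Agent.BR2.SetupOfData Fermat.Agent.BR3.CircleN Fermat.Agent.BR3.SRef
open Fermat.Agent.BR3.SRef.Modular Fermat.Agent.BR3.SDD.Modular Fermat.Agent.BR3.ThickSDDPlug

variable {M q : ℕ} [NeZero M] [hq : Fact q.Prime]
variable (B : ValuationSubring Kb) (hB : B.LiesOverPrime q) (hqM : ¬ q ∣ M)
variable [IsAlgClosed (ResidueField B)] [CharP (ResidueField B) q]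
  (e : Crossing (chartDataModular B hB hqM)) {g g' g'' : Fb M}

local notation "kB" => IsLocalRing.ResidueField B

set_option maxHeartbeats 4000000 in
/-- **(T-B), outer**: `P ∘ α₂` in the outer sub-annulus of `e` at the gauge `a₀`,
`|U_g(P)| = |u_e(P ∘ α₂)|` and `P ∘ β₂` in the tube of `Fr e` ⇒ `P ∘ β₂` in the outer sub-annulus of
`Fr e` at the gauge `a₀^q`. -/
theorem restrictAlong_beta2_mem_outer (h2 : nuTwo M = 0) (h3 : nuThree M = 0)
    (H : IsSSParam B hB hqM e g g' g'')
    (hloc : (z₂ (chartDataModular B hB hqM) e).ord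
      (redMF B hB hqM ⟨g'', mem_OM_of_mem_CMod_base B hB hqM H.hg''⟩) = 1)
    (hα : (alpha2 M q).toRingHom.IsIntegral) (hβ : (beta2 M q).toRingHom.IsIntegral)
    {a₀ : Kb} (ha₀ : B.valuation a₀ ^ (q + 1) = B.valuation (q : Kb))
    {P : Place Kb (Fb (M * q * q))}
    (hPa : P.restrictAlong (alpha2 M q) hα ∈ outerTube (core (DtM B hB hqM) e) a₀)
    (hPb : P.restrictAlong (beta2 M q) hβ ∈ tube (setup (DtM B hB hqM)) (Fr B hB hqM e))
    {cU : Kb} (hU : IsValueAt P (Ug M q g) cU)
    (hUv : B.valuation cU = B.valuation (evalAt (P.restrictAlong (alpha2 M q) hα)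
      (annulusCoord (DtM B hB hqM) e))) :
    P.restrictAlong (beta2 M q) hβ ∈
      outerTube (core (DtM B hB hqM) (Fr B hB hqM e)) (a₀ ^ q) :=
  ⟨hPb, valuation_lt_of_outer B hB hqM (nonempty_crossing (DtM B hB hqM)) e h2 h3 H hloc hα hβ
    ha₀ hPa.1 hPa.2 hPb hU hUv⟩

set_option maxHeartbeats 4000000 in
/-- **(T-B), inner**: `P ∘ α₂` in the outer sub-annulus of `e` at the gauge `a₀`, `|U_g(P)| < |a₀|`
and `P ∘ β₂` in the tube of `Fr e` ⇒ `P ∘ β₂` in the inner sub-annulus of `Fr e` at the gauge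
`a₀^q`. -/
theorem restrictAlong_beta2_mem_inner (h2 : nuTwo M = 0) (h3 : nuThree M = 0)
    (H : IsSSParam B hB hqM e g g' g'')
    (hloc : (z₂ (chartDataModular B hB hqM) e).ord
      (redMF B hB hqM ⟨g'', mem_OM_of_mem_CMod_base B hB hqM H.hg''⟩) = 1)
    (hα : (alpha2 M q).toRingHom.IsIntegral) (hβ : (beta2 M q).toRingHom.IsIntegral)
    {a₀ : Kb} (ha₀ : B.valuation a₀ ^ (q + 1) = B.valuation (q : Kb))
    {P : Place Kb (Fb (M * q * q))}
    (hPa : P.restrictAlong (alpha2 M q) hα ∈ outerTube (core (DtM B hB hqM) e) a₀)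
    (hPb : P.restrictAlong (beta2 M q) hβ ∈ tube (setup (DtM B hB hqM)) (Fr B hB hqM e))
    {cU : Kb} (hU : IsValueAt P (Ug M q g) cU) (hUlt : B.valuation cU < B.valuation a₀) :
    P.restrictAlong (beta2 M q) hβ ∈
      innerTube (core (DtM B hB hqM) (Fr B hB hqM e)) (a₀ ^ q) :=
  ⟨hPb, valuation_lt_of_inner B hB hqM (nonempty_crossing (DtM B hB hqM)) e h2 h3 H hloc hα hβ
    ha₀ hPa.1 hPa.2 hPb hU hUlt⟩

theorem valuation_gaugeSDD_pow_succ :
    B.valuation (gaugeSDD q) ^ (q + 1) = B.valuation (q : Kb) := by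
  rw [← map_pow, gaugeSDD_pow hq.out.one_lt]

set_option maxHeartbeats 4000000 in
/-- **The field `tube_b_nT` of `SepNSDD.SepInput`** at a place `P` over the outer node of `e` along
`α₂` with `|U_g(P)| = |u_e(P ∘ α₂)|` (the split sheet `nT e`: `U_g / (-α₂ x) ≡ 1`). -/
theorem tube_b_nT_of_value (h2 : nuTwo M = 0) (h3 : nuThree M = 0)
    (H : IsSSParam B hB hqM e g g' g'')
    (hloc : (z₂ (chartDataModular B hB hqM) e).ord
      (redMF B hB hqM ⟨g'', mem_OM_of_mem_CMod_base B hB hqM H.hg''⟩) = 1)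
    (hα : (alpha2 M q).toRingHom.IsIntegral) (hβ : (beta2 M q).toRingHom.IsIntegral)
    (hadma : ∀ e, (inputs (DtM B hB hqM)).adm e (gaugeA q B hB hqM e))
    (hadmb : ∀ e, (inputs (DtM B hB hqM)).adm e (gaugeB q B hB hqM e))
    {P : Place Kb (Fb (M * q * q))}
    (hPa : P.restrictAlong (alpha2 M q) hα ∈
      tube (srefM (DtM B hB hqM) (gaugeA q B hB hqM) hadma)
        (outer (inputs (DtM B hB hqM)) (gaugeA q B hB hqM) hadma e))
    (hPb : P.restrictAlong (beta2 M q) hβ ∈ tube (setup (DtM B hB hqM)) (Fr B hB hqM e))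
    {cU : Kb} (hU : IsValueAt P (Ug M q g) cU)
    (hUv : B.valuation cU = B.valuation (evalAt (P.restrictAlong (alpha2 M q) hα)
      (annulusCoord (DtM B hB hqM) e))) :
    P.restrictAlong (beta2 M q) hβ ∈
      tube (srefM (DtM B hB hqM) (gaugeB q B hB hqM) hadmb)
        (outer (inputs (DtM B hB hqM)) (gaugeB q B hB hqM) hadmb (Fr B hB hqM e)) := by
  rw [tube_outerM] at hPa ⊢
  exact restrictAlong_beta2_mem_outer B hB hqM e h2 h3 H hloc hα hβ
    (valuation_gaugeSDD_pow_succ B) hPa hPb hU hUv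

set_option maxHeartbeats 4000000 in
/-- **The field `tube_b_nk` of `SepNSDD.SepInput`** at a place `P` over the outer node of `e` along
`α₂` with `|U_g(P)| < |gaugeA|` (the Kummer sheets `nk e s`: `U_g / a₀` small). -/
theorem tube_b_nk_of_value (h2 : nuTwo M = 0) (h3 : nuThree M = 0)
    (H : IsSSParam B hB hqM e g g' g'')
    (hloc : (z₂ (chartDataModular B hB hqM) e).ord
      (redMF B hB hqM ⟨g'', mem_OM_of_mem_CMod_base B hB hqM H.hg''⟩) = 1)
    (hα : (alpha2 M q).toRingHom.IsIntegral) (hβ : (beta2 M q).toRingHom.IsIntegral)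
    (hadma : ∀ e, (inputs (DtM B hB hqM)).adm e (gaugeA q B hB hqM e))
    (hadmb : ∀ e, (inputs (DtM B hB hqM)).adm e (gaugeB q B hB hqM e))
    {P : Place Kb (Fb (M * q * q))}
    (hPa : P.restrictAlong (alpha2 M q) hα ∈
      tube (srefM (DtM B hB hqM) (gaugeA q B hB hqM) hadma)
        (outer (inputs (DtM B hB hqM)) (gaugeA q B hB hqM) hadma e))
    (hPb : P.restrictAlong (beta2 M q) hβ ∈ tube (setup (DtM B hB hqM)) (Fr B hB hqM e))
    {cU : Kb} (hU : IsValueAt P (Ug M q g) cU)
    (hUlt : B.valuation cU < B.valuation (gaugeSDD q)) :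
    P.restrictAlong (beta2 M q) hβ ∈
      tube (srefM (DtM B hB hqM) (gaugeB q B hB hqM) hadmb)
        (inner (inputs (DtM B hB hqM)) (gaugeB q B hB hqM) hadmb (Fr B hB hqM e)) := by
  rw [tube_outerM] at hPa
  rw [tube_innerM]
  exact restrictAlong_beta2_mem_inner B hB hqM e h2 h3 H hloc hα hβ
    (valuation_gaugeSDD_pow_succ B) hPa hPb hU hUlt

end Wrap

/-! ### The value of `U_g` on the split sheet and on the Kummer sheets -/

section Values

open Fermat.Agent.BR2.SetupOfData Fermat.Agent.BR3.SRef.Modular Fermat.Agent.BR3.SDD.Modular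

variable {M q : ℕ} [NeZero M] [hq : Fact q.Prime]
variable (B : ValuationSubring Kb) (hB : B.LiesOverPrime q) (hqM : ¬ q ∣ M)
variable [IsAlgClosed (ResidueField B)] [CharP (ResidueField B) q]
  (e : Crossing (chartDataModular B hB hqM)) {g g' g'' : Fb M}

local notation "kB" => IsLocalRing.ResidueField B

set_option maxHeartbeats 4000000 in
/-- **The split sheet**: if `U_g = W · α₂ (-(α g - (β g')^q))` with `|W(P)| = 1` (`W ≡ 1` on the
tube of `nT e`) then `|U_g(P)| = |u_e(P ∘ α₂)|`. -/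
theorem exists_value_Ug_of_unit (h2 : nuTwo M = 0) (h3 : nuThree M = 0)
    (H : IsSSParam B hB hqM e g g' g'')
    (hα : (alpha2 M q).toRingHom.IsIntegral)
    {P : Place Kb (Fb (M * q * q))}
    (hPa : P.restrictAlong (alpha2 M q) hα ∈ tube (setup (DtM B hB hqM)) e)
    {W : Fb (M * q * q)} {c : Kb} (hW : IsValueAt P W c) (hc : B.valuation c = 1)
    (hWU : Ug M q g =
      W * alpha2 M q (-(heckeAlphaBar Kb M q g - heckeBetaBar Kb M q g' ^ q))) :
    ∃ cU : Kb, IsValueAt P (Ug M q g) cU ∧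
      B.valuation cU = B.valuation (evalAt (P.restrictAlong (alpha2 M q) hα)
        (annulusCoord (DtM B hB hqM) e)) := by
  have hne := nonempty_crossing (DtM B hB hqM)
  have hgO := mem_OM_of_mem_CMod_base B hB hqM H.hg
  have hg'O := mem_OM_of_mem_CMod_base B hB hqM H.hg'
  have hPa' : P.restrictAlong (alpha2 M q) hα ∈ tube (setupFinal B hB hqM hne) e := hPa
  have hXm : heckeAlphaBar Kb M q g - heckeBetaBar Kb M q g' ^ q ∈
      ((annulusLevels_modular_final B hB hqM hne e).level (∅ : Finset Kb)).R :=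
    sub_mem (alpha_mem_level B hB hqM hne e H.hg)
      (pow_mem (beta_mem_level B hB hqM hne e H.hg') q)
  have hXv := valuation_evalAt_eq_u B hB hqM hne e h2 h3 hXm
    (vg_mem_nonunits_O2 B hB hqM hgO hg'O H.untwist) (vg_mem_O1 B hB hqM hgO hg'O)
    (H.hxord _) hPa'
  have hXval := ((annulusLevels_modular_final B hB hqM hne e).level
    (∅ : Finset Kb)).isValueAt_evalAt hPa' hXm
  refine ⟨c * -evalAt (P.restrictAlong (alpha2 M q) hα)
    (heckeAlphaBar Kb M q g - heckeBetaBar Kb M q g' ^ q), ?_, ?_⟩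
  · rw [hWU]
    refine hW.mul ?_
    rw [← Fermat.Agent.BR3.SepN.isValueAt_restrictAlong_iff _ hα]
    exact hXval.neg
  · rw [map_mul, hc, one_mul, Valuation.map_neg]
    exact hXv

/-- **The Kummer sheets**: if `U_g = Y · t` with `|Y(P)| < 1` then `|U_g(P)| < |t|`. -/
theorem exists_value_Ug_of_small {P : Place Kb (Fb (M * q * q))} {Y : Fb (M * q * q)} {d t : Kb}
    (hY : IsValueAt P Y d) (hd : B.valuation d < 1) (ht : t ≠ 0)
    (hYU : Ug M q g = Y * algebraMap Kb (Fb (M * q * q)) t) :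
    ∃ cU : Kb, IsValueAt P (Ug M q g) cU ∧ B.valuation cU < B.valuation t := by
  refine ⟨d * t, ?_, ?_⟩
  · rw [hYU]
    exact hY.mul (isValueAt_algebraMap P t)
  · rw [map_mul]
    exact mul_lt_of_lt_one_left (zero_lt_iff.mpr ((_root_.map_ne_zero _).mpr ht)) hd

end Values

end Fermat.Agent.BR3.SDD.TubesB
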