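import Fermat.Agent.BR3.HeckePoly
import Fermat.Agent.Red.Values

/-!
# Program C (S36), node (T-B), file 1 (helper15): the algebra of the `b`-side tube inclusions

`α β : Fb M → Fb (M * q)`, `α₂ β₂ = alpha2 / beta2 : Fb (M * q) → Fb (M * q * q)`,
`U_g = β₂ (β g) - α₂ (α g)`.  For a twisted triple `(g, g', g'')` at a supersingular crossing `e` the
coordinate `X' := α g'' - (β g)^q` is of `u`-type at the Frobenius crossing `Fr e`, the coordinate
`Y := β g'' - (α g)^q` is of `v`-type at `e`, and

* `beta2_coord_identity` : **the exact identity**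
  `β₂ (α g'' - (β g)^q) = α₂ (β g'' - (α g)^q) - ((U_g + α₂ (α g))^q - (α₂ (α g))^q)`;
* `isValueAt_beta2_coord` : the same on the values at a place of `Fb (M * q * q)`;
* `exists_add_pow_sub_pow` : `(x + y)^q - y^q = x^q + q x y r`;
* `valuation_outer_value` : if `|cY| < |cU|^q` and `|q| < |cU|^q` then
  `|cY - ((cU + cA)^q - cA^q)| = |cU|^q` (the outer sub-annulus along `b`);
* `valuation_inner_value` : if `|cY|, |cU|^q, |q| < |b|` then `|cY - ((cU + cA)^q - cA^q)| < |b|`
  (the inner sub-annulus along `b`).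
-/

set_option autoImplicit false
set_option linter.unusedSectionVars false

namespace Fermat.Agent.BR3.SDD.TubesBAlg

open ModularCurve AlgebraicCurve Fermat.Agent.Red Fermat.Agent.X0 Fermat.Agent.Hecke
open Fermat.Agent.BR.TwoVal Fermat.Agent.BR3.FibreProd Fermat.Agent.BR3.HeckePoly

/-! ### Valuations -/

section Val

variable {K : Type*} [Field K]

/-- `(x + y)^q - y^q = x^q + q x y r`. -/
theorem exists_add_pow_sub_pow {R : Type*} [CommRing R] {q : ℕ} (hq : q.Prime) (x y : R) :
    ∃ r : R, (x + y) ^ q - y ^ q = x ^ q + (q : R) * x * y * r := by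
  obtain ⟨r, hr⟩ := exists_add_pow_prime_eq hq x y
  exact ⟨r, by rw [hr]; ring⟩

/-- the error term `(cU + cA)^q - cA^q - cU^q` is divisible by `q cU` in `A` -/
theorem exists_valuation_le_one (A : ValuationSubring K) {q : ℕ} (hq : q.Prime) {cU cA : K}
    (hU1 : A.valuation cU ≤ 1) (hA1 : A.valuation cA ≤ 1) :
    ∃ r : K, A.valuation r ≤ 1 ∧ (cU + cA) ^ q - cA ^ q = cU ^ q + (q : K) * cU * cA * r := by
  have hU : cU ∈ A := (A.valuation_le_one_iff _).mp hU1
  have hA : cA ∈ A := (A.valuation_le_one_iff _).mp hA1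
  obtain ⟨r, hr⟩ := exists_add_pow_sub_pow hq (⟨cU, hU⟩ : A) ⟨cA, hA⟩
  refine ⟨(r : K), (A.valuation_le_one_iff _).mpr r.2, ?_⟩
  have h := congrArg (fun t : A => (t : K)) hr
  simpa using h

/-- **The outer sub-annulus along `b`**: the term `cU^q` dominates. -/
theorem valuation_outer_value (A : ValuationSubring K) {q : ℕ} (hq : q.Prime) {cY cU cA : K}
    (hU1 : A.valuation cU ≤ 1) (hA1 : A.valuation cA ≤ 1)
    (hY : A.valuation cY < A.valuation cU ^ q)
    (hqU : A.valuation (q : K) < A.valuation cU ^ q) :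
    A.valuation (cY - ((cU + cA) ^ q - cA ^ q)) = A.valuation cU ^ q := by
  obtain ⟨r, hr1, hr⟩ := exists_valuation_le_one A hq hU1 hA1
  have h1 : A.valuation ((q : K) * cU * cA * r) < A.valuation cU ^ q := by
    rw [map_mul, map_mul, map_mul]
    calc A.valuation (q : K) * A.valuation cU * A.valuation cA * A.valuation r
        ≤ A.valuation (q : K) * 1 * 1 * 1 := by gcongr
      _ = A.valuation (q : K) := by rw [mul_one, mul_one, mul_one]
      _ < A.valuation cU ^ q := hqU
  have h2 : A.valuation (cY - (q : K) * cU * cA * r) < A.valuation (cU ^ q) := by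
    rw [map_pow]
    exact (Valuation.map_sub _ _ _).trans_lt (max_lt hY h1)
  have e : cY - ((cU + cA) ^ q - cA ^ q) = (cY - (q : K) * cU * cA * r) - cU ^ q := by
    rw [hr]; ring
  rw [e, Valuation.map_sub_eq_of_lt_right _ h2, map_pow]

/-- **The inner sub-annulus along `b`**: all terms are small. -/
theorem valuation_inner_value (A : ValuationSubring K) {q : ℕ} (hq : q.Prime) {cY cU cA b : K}
    (hU1 : A.valuation cU ≤ 1) (hA1 : A.valuation cA ≤ 1)
    (hY : A.valuation cY < A.valuation b)
    (hU : A.valuation cU ^ q < A.valuation b)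
    (hqb : A.valuation (q : K) < A.valuation b) :
    A.valuation (cY - ((cU + cA) ^ q - cA ^ q)) < A.valuation b := by
  obtain ⟨r, hr1, hr⟩ := exists_valuation_le_one A hq hU1 hA1
  have h1 : A.valuation ((q : K) * cU * cA * r) < A.valuation b := by
    rw [map_mul, map_mul, map_mul]
    calc A.valuation (q : K) * A.valuation cU * A.valuation cA * A.valuation r
        ≤ A.valuation (q : K) * 1 * 1 * 1 := by gcongr
      _ = A.valuation (q : K) := by rw [mul_one, mul_one, mul_one]
      _ < A.valuation b := hqb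
  rw [hr]
  refine (Valuation.map_sub _ _ _).trans_lt (max_lt hY ?_)
  refine (Valuation.map_add _ _ _).trans_lt (max_lt ?_ h1)
  rw [map_pow]
  exact hU

end Val

/-! ### The exact identity -/

section Identity

variable {M q : ℕ} [NeZero M] [hq : Fact q.Prime]

/-- **The exact identity** between the `u`-type coordinate at `Fr e` pulled back along `β₂` and the
`v`-type coordinate at `e` pulled back along `α₂`. -/
theorem beta2_coord_identity (g g'' : Fb M) :
    beta2 M q (heckeAlphaBar Kb M q g'' - heckeBetaBar Kb M q g ^ q) =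
      alpha2 M q (heckeBetaBar Kb M q g'' - heckeAlphaBar Kb M q g ^ q) -
        ((Ug M q g + alpha2 M q (heckeAlphaBar Kb M q g)) ^ q -
          alpha2 M q (heckeAlphaBar Kb M q g) ^ q) := by
  rw [map_sub, map_sub, map_pow, map_pow, alpha2_beta1 g'', Ug, sub_add_cancel]
  ring

/-- The exact identity on the values at a place. -/
theorem isValueAt_beta2_coord {P : Place Kb (Fb (M * q * q))} {g g'' : Fb M} {cU cA cY : Kb}
    (hU : IsValueAt P (Ug M q g) cU)
    (hA : IsValueAt P (alpha2 M q (heckeAlphaBar Kb M q g)) cA)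
    (hY : IsValueAt P (alpha2 M q (heckeBetaBar Kb M q g'' - heckeAlphaBar Kb M q g ^ q)) cY) :
    IsValueAt P (beta2 M q (heckeAlphaBar Kb M q g'' - heckeBetaBar Kb M q g ^ q))
      (cY - ((cU + cA) ^ q - cA ^ q)) := by
  rw [beta2_coord_identity]
  exact hY.sub (((hU.add hA).pow q).sub (hA.pow q))

end Identity

end Fermat.Agent.BR3.SDD.TubesBAlg
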